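/-
(M) [D-AN], part 12 (helper5, prefix `s15da_`): finite combinatorics of the multiples of a point
of odd prime order: half range versus full range, and change of generator.
-/
import Mathlib

set_option autoImplicit false

namespace Fermat.Agent.Lib.S15

/-- full range versus half range for a reflection-symmetric function. -/
theorem s15da_prod_full_eq_half {M : Type*} [CommMonoid M] (f : ℕ → M) (h : ℕ)
    (hf : ∀ k, 1 ≤ k → k ≤ h → f (2 * h + 1 - k) = f k) :
    ∏ k ∈ Finset.range (2 * h), f (k + 1) = (∏ k ∈ Finset.Icc 1 h, f k) ^ 2 := by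
  have hI : Finset.Icc 1 h = Finset.Ico 1 (h + 1) := by
    ext k; simp only [Finset.mem_Icc, Finset.mem_Ico]; omega
  rw [hI, Finset.prod_Ico_eq_prod_range, two_mul, Finset.prod_range_add, pow_two]
  have e1 : ∀ k ∈ Finset.range (h + 1 - 1), f (1 + k) = f (k + 1) := fun k _ => by rw [add_comm]
  rw [Finset.prod_congr rfl e1]
  simp only [Nat.add_sub_cancel]
  congr 1
  rw [← Finset.prod_range_reflect]
  refine Finset.prod_congr rfl fun j hj => ?_
  have hj' : j < h := Finset.mem_range.mp hj
  have := hf (j + 1) (by omega) (by omega)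
  rw [← this]
  congr 1
  omega

/-- additive version. -/
theorem s15da_sum_full_eq_half {M : Type*} [AddCommMonoid M] (f : ℕ → M) (h : ℕ)
    (hf : ∀ k, 1 ≤ k → k ≤ h → f (2 * h + 1 - k) = f k) :
    ∑ k ∈ Finset.range (2 * h), f (k + 1) = 2 • ∑ k ∈ Finset.Icc 1 h, f k := by
  have hI : Finset.Icc 1 h = Finset.Ico 1 (h + 1) := by
    ext k; simp only [Finset.mem_Icc, Finset.mem_Ico]; omega
  rw [hI, Finset.sum_Ico_eq_sum_range, two_mul, Finset.sum_range_add, two_nsmul]
  have e1 : ∀ k ∈ Finset.range (h + 1 - 1), f (1 + k) = f (k + 1) := fun k _ => by rw [add_comm]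
  rw [Finset.sum_congr rfl e1]
  simp only [Nat.add_sub_cancel]
  congr 1
  rw [← Finset.sum_range_reflect]
  refine Finset.sum_congr rfl fun j hj => ?_
  have hj' : j < h := Finset.mem_range.mp hj
  have := hf (j + 1) (by omega) (by omega)
  rw [← this]
  congr 1
  omega

section gen

variable {G : Type*} [AddCommGroup G] {M : Type*} [CommMonoid M]

/-- multiples of an element killed by `p` only depend on the residue. -/
theorem s15da_nsmul_mod {p : ℕ} {Q : G} (hQ : p • Q = 0) (n : ℕ) : (n % p) • Q = n • Q := by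
  conv_rhs => rw [← Nat.mod_add_div n p]
  rw [add_nsmul, mul_nsmul, hQ, nsmul_zero, add_zero]

/-- the nonzero residues as an image. -/
theorem s15da_image_succ (p : ℕ) [Fact p.Prime] :
    (Finset.range (p - 1)).image (fun k : ℕ => ((k + 1 : ℕ) : ZMod p)) =
      Finset.univ.erase (0 : ZMod p) := by
  have hp := (Fact.out : p.Prime)
  ext a
  simp only [Finset.mem_image, Finset.mem_range, Finset.mem_erase, Finset.mem_univ, and_true]
  constructor
  · rintro ⟨k, hk, rfl⟩
    rw [Ne, ZMod.natCast_eq_zero_iff]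
    intro hdvd
    have := Nat.le_of_dvd (by omega) hdvd
    omega
  · intro ha
    have hv : 0 < a.val := ZMod.val_pos.mpr ha
    have hlt : a.val < p := ZMod.val_lt a
    refine ⟨a.val - 1, by omega, ?_⟩
    rw [Nat.sub_add_cancel hv, ZMod.natCast_zmod_val]

theorem s15da_prod_residues (p : ℕ) [Fact p.Prime] (h : ZMod p → M) :
    ∏ k ∈ Finset.range (p - 1), h ((k + 1 : ℕ) : ZMod p) = ∏ a ∈ Finset.univ.erase (0 : ZMod p), h a := by
  have hp := (Fact.out : p.Prime)
  rw [← s15da_image_succ, Finset.prod_image]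
  intro k hk k' hk' hkk
  have hk1 : k < p - 1 := Finset.mem_range.mp hk
  have hk1' : k' < p - 1 := Finset.mem_range.mp hk'
  have := congrArg ZMod.val hkk
  rw [ZMod.val_natCast_of_lt (by omega), ZMod.val_natCast_of_lt (by omega)] at this
  omega

/-- **change of generator.** -/
theorem s15da_prod_change_gen (p : ℕ) [Fact p.Prime] {Q : G} (hQ : p • Q = 0) (g : ℕ)
    (hg : ¬ p ∣ g) (F : G → M) :
    ∏ k ∈ Finset.range (p - 1), F ((k + 1) • (g • Q)) =
      ∏ k ∈ Finset.range (p - 1), F ((k + 1) • Q) := by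
  have hp := (Fact.out : p.Prime)
  set h : ZMod p → M := fun a => F (a.val • Q) with hh
  have hg0 : (g : ZMod p) ≠ 0 := by
    rw [Ne, ZMod.natCast_eq_zero_iff]; exact hg
  have e1 : ∀ k ∈ Finset.range (p - 1), F ((k + 1) • (g • Q)) =
      h (((k + 1 : ℕ) : ZMod p) * (g : ZMod p)) := by
    intro k _
    rw [hh]
    simp only
    rw [← mul_nsmul', ← Nat.cast_mul, ZMod.val_natCast, s15da_nsmul_mod hQ]
  have e2 : ∀ k ∈ Finset.range (p - 1), F ((k + 1) • Q) = h ((k + 1 : ℕ) : ZMod p) := by
    intro k _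
    rw [hh]
    simp only
    rw [ZMod.val_natCast, s15da_nsmul_mod hQ]
  rw [Finset.prod_congr rfl e1, Finset.prod_congr rfl e2,
    s15da_prod_residues p (fun a => h (a * (g : ZMod p))), s15da_prod_residues p h]
  refine Finset.prod_equiv (Equiv.mulRight₀ (g : ZMod p) hg0) ?_ ?_
  · intro a
    simp only [Finset.mem_erase, Finset.mem_univ, and_true, Equiv.mulRight₀_apply]
    exact ⟨fun ha => mul_ne_zero ha hg0, fun ha h0 => ha (by rw [h0, zero_mul])⟩
  · intro a _
    simp

theorem s15da_sum_residues {A : Type*} [AddCommMonoid A] (p : ℕ) [Fact p.Prime] (h : ZMod p → A) :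
    ∑ k ∈ Finset.range (p - 1), h ((k + 1 : ℕ) : ZMod p) = ∑ a ∈ Finset.univ.erase (0 : ZMod p), h a := by
  have hp := (Fact.out : p.Prime)
  rw [← s15da_image_succ, Finset.sum_image]
  intro k hk k' hk' hkk
  have hk1 : k < p - 1 := Finset.mem_range.mp hk
  have hk1' : k' < p - 1 := Finset.mem_range.mp hk'
  have := congrArg ZMod.val hkk
  rw [ZMod.val_natCast_of_lt (by omega), ZMod.val_natCast_of_lt (by omega)] at this
  omega

/-- **change of generator**, additive version. -/
theorem s15da_sum_change_gen {A : Type*} [AddCommMonoid A] (p : ℕ) [Fact p.Prime] {Q : G}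
    (hQ : p • Q = 0) (g : ℕ) (hg : ¬ p ∣ g) (F : G → A) :
    ∑ k ∈ Finset.range (p - 1), F ((k + 1) • (g • Q)) =
      ∑ k ∈ Finset.range (p - 1), F ((k + 1) • Q) := by
  have hp := (Fact.out : p.Prime)
  set h : ZMod p → A := fun a => F (a.val • Q) with hh
  have hg0 : (g : ZMod p) ≠ 0 := by
    rw [Ne, ZMod.natCast_eq_zero_iff]; exact hg
  have e1 : ∀ k ∈ Finset.range (p - 1), F ((k + 1) • (g • Q)) =
      h (((k + 1 : ℕ) : ZMod p) * (g : ZMod p)) := by
    intro k _
    rw [hh]
    simp only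
    rw [← mul_nsmul', ← Nat.cast_mul, ZMod.val_natCast, s15da_nsmul_mod hQ]
  have e2 : ∀ k ∈ Finset.range (p - 1), F ((k + 1) • Q) = h ((k + 1 : ℕ) : ZMod p) := by
    intro k _
    rw [hh]
    simp only
    rw [ZMod.val_natCast, s15da_nsmul_mod hQ]
  rw [Finset.sum_congr rfl e1, Finset.sum_congr rfl e2,
    s15da_sum_residues p (fun a => h (a * (g : ZMod p))), s15da_sum_residues p h]
  refine Finset.sum_equiv (Equiv.mulRight₀ (g : ZMod p) hg0) ?_ ?_
  · intro a
    simp only [Finset.mem_erase, Finset.mem_univ, and_true, Equiv.mulRight₀_apply]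
    exact ⟨fun ha => mul_ne_zero ha hg0, fun ha h0 => ha (by rw [h0, zero_mul])⟩
  · intro a _
    simp

end gen

end Fermat.Agent.Lib.S15
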