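/-
(M) [D-AN], part 1 (helper5, prefix `s15da_`): higher derivatives of the Weierstrass `℘`-function
off the lattice: `℘'' = 6℘² - g₂/2`, `℘''' = 12℘℘'`, `℘'''' = 12℘'² + 12℘(6℘² - g₂/2)`.
-/
import Mathlib
import Fermat.Agent.Lib.RR.WeierstrassUnique

set_option autoImplicit false

open Filter Topology PeriodPair

noncomputable section

namespace Fermat.Agent.Lib.S15

variable (L : PeriodPair)

theorem s15da_isOpen_compl : IsOpen (L.lattice : Set ℂ)ᶜ := L.isClosed_lattice.isOpen_compl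

theorem s15da_isPreconnected_compl : IsPreconnected (L.lattice : Set ℂ)ᶜ := by
  have := Fermat.Agent.Lib.RR.WP.isPreconnected_compl_lattice_union L L
  rwa [Set.union_self] at this

theorem s15da_hasDerivAt_P {z : ℂ} (hz : z ∉ L.lattice) : HasDerivAt ℘[L] (℘'[L] z) z := by
  have h := (L.analyticOnNhd_weierstrassP z hz).differentiableAt.hasDerivAt
  rwa [L.deriv_weierstrassP] at h

theorem s15da_hasDerivAt_P' {z : ℂ} (hz : z ∉ L.lattice) :
    HasDerivAt ℘'[L] (deriv ℘'[L] z) z :=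
  (L.analyticOnNhd_derivWeierstrassP z hz).differentiableAt.hasDerivAt

/-- `℘'` does not vanish near `0`. -/
theorem s15da_derivP_ne_zero_near : ∀ᶠ z in 𝓝[≠] (0 : ℂ), ℘'[L] z ≠ 0 ∧ z ∉ L.lattice := by
  have hc : ContinuousAt (fun z => ℘'[L - (0 : ℂ)] z * z ^ 3 - 2) 0 := by
    have := (L.analyticAt_derivWeierstrassPExcept 0).continuousAt
    fun_prop
  have h0 : (fun z => ℘'[L - (0 : ℂ)] z * z ^ 3 - 2) 0 ≠ 0 := by
    simp
  have hev := hc.eventually_ne h0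
  filter_upwards [hev.filter_mono nhdsWithin_le_nhds, self_mem_nhdsWithin,
    mem_nhdsWithin_of_mem_nhds (L.compl_lattice_sdiff_singleton_mem_nhds 0)] with z h1 h2 h3
  have hz0 : z ≠ 0 := h2
  have hzL : z ∉ L.lattice := fun hmem => h3 ⟨hmem, hz0⟩
  refine ⟨fun h => h1 ?_, hzL⟩
  have e := Fermat.Agent.Lib.RR.WP.derivWeierstrassP_eq_except_sub L z
  rw [h] at e
  have hz3 : z ^ 3 ≠ 0 := pow_ne_zero 3 hz0
  field_simp at e
  linear_combination -e

/-- `℘'' = 6℘² - g₂/2` off the lattice. -/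
theorem s15da_deriv_derivP {z : ℂ} (hz : z ∉ L.lattice) :
    deriv ℘'[L] z = 6 * ℘[L] z ^ 2 - L.g₂ / 2 := by
  set U : Set ℂ := (L.lattice : Set ℂ)ᶜ with hU
  have hUo : IsOpen U := s15da_isOpen_compl L
  -- the product identity
  have hprod : ∀ w ∈ U, ℘'[L] w * (2 * deriv ℘'[L] w - 12 * ℘[L] w ^ 2 + L.g₂) = 0 := by
    intro w hw
    have hw' : w ∉ L.lattice := hw
    have hF : ∀ᶠ y in 𝓝 w, ℘'[L] y ^ 2 = 4 * ℘[L] y ^ 3 - L.g₂ * ℘[L] y - L.g₃ := by
      filter_upwards [hUo.mem_nhds hw] with y hy using L.derivWeierstrassP_sq y hy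
    have h1 : HasDerivAt (fun y => ℘'[L] y ^ 2) (2 * ℘'[L] w * deriv ℘'[L] w) w := by
      have := (s15da_hasDerivAt_P' L hw').fun_pow 2
      simpa using this
    have h2 : HasDerivAt (fun y => 4 * ℘[L] y ^ 3 - L.g₂ * ℘[L] y - L.g₃)
        (4 * (3 * ℘[L] w ^ 2 * ℘'[L] w) - L.g₂ * ℘'[L] w) w := by
      have hP := s15da_hasDerivAt_P L hw'
      have := (((hP.fun_pow 3).const_mul 4).fun_sub (hP.const_mul L.g₂)).sub_const L.g₃
      simpa using this
    have h3 := h1.unique (h2.congr_of_eventuallyEq hF)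
    linear_combination h3
  by_contra hne
  have hh : 2 * deriv ℘'[L] z - 12 * ℘[L] z ^ 2 + L.g₂ ≠ 0 := by
    intro h0
    apply hne
    linear_combination h0 / 2
  -- `h ≠ 0` near `z`
  have hA' : AnalyticOnNhd ℂ ℘'[L] U := L.analyticOnNhd_derivWeierstrassP
  have hcont : ContinuousAt (fun w => 2 * deriv ℘'[L] w - 12 * ℘[L] w ^ 2 + L.g₂) z := by
    have c1 : ContinuousAt (deriv ℘'[L]) z := (hA' z hz).deriv.continuousAt
    have c2 : ContinuousAt ℘[L] z := (L.analyticOnNhd_weierstrassP z hz).continuousAt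
    fun_prop
  have hev : ∀ᶠ w in 𝓝 z, ℘'[L] w = 0 := by
    filter_upwards [hcont.eventually_ne hh, hUo.mem_nhds hz] with w h1 h2
    exact (mul_eq_zero.mp (hprod w h2)).resolve_right h1
  have hzero : Set.EqOn ℘'[L] 0 U :=
    hA'.eqOn_zero_of_preconnected_of_eventuallyEq_zero (s15da_isPreconnected_compl L) hz hev
  obtain ⟨w, hw1, hw2⟩ := (s15da_derivP_ne_zero_near L).exists
  exact hw1 (hzero hw2)

/-- the second derivative `6℘² - g₂/2` as a function. -/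
def s15da_D2 (z : ℂ) : ℂ := 6 * ℘[L] z ^ 2 - L.g₂ / 2

/-- the third derivative `12℘℘'`. -/
def s15da_D3 (z : ℂ) : ℂ := 12 * ℘[L] z * ℘'[L] z

/-- the fourth derivative `12℘'² + 12℘(6℘² - g₂/2)`. -/
def s15da_D4 (z : ℂ) : ℂ := 12 * ℘'[L] z ^ 2 + 12 * ℘[L] z * (6 * ℘[L] z ^ 2 - L.g₂ / 2)

theorem s15da_hasDerivAt_P'' {z : ℂ} (hz : z ∉ L.lattice) :
    HasDerivAt ℘'[L] (s15da_D2 L z) z := by
  have h := s15da_hasDerivAt_P' L hz
  rwa [s15da_deriv_derivP L hz] at h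

theorem s15da_hasDerivAt_D2 {z : ℂ} (hz : z ∉ L.lattice) :
    HasDerivAt (s15da_D2 L) (s15da_D3 L z) z := by
  have hP := s15da_hasDerivAt_P L hz
  have h := ((hP.fun_pow 2).const_mul 6).sub_const (L.g₂ / 2)
  show HasDerivAt (fun y => 6 * ℘[L] y ^ 2 - L.g₂ / 2) _ z
  refine h.congr_deriv ?_
  unfold s15da_D3
  norm_num
  ring

theorem s15da_hasDerivAt_D3 {z : ℂ} (hz : z ∉ L.lattice) :
    HasDerivAt (s15da_D3 L) (s15da_D4 L z) z := by
  have hP := s15da_hasDerivAt_P L hz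
  have hP' := s15da_hasDerivAt_P'' L hz
  have h := (hP.const_mul 12).fun_mul hP'
  show HasDerivAt (fun y => 12 * ℘[L] y * ℘'[L] y) _ z
  refine h.congr_deriv ?_
  unfold s15da_D4 s15da_D2
  ring

theorem s15da_iteratedDeriv_two_eventuallyEq {z : ℂ} (hz : z ∉ L.lattice) :
    iteratedDeriv 2 ℘[L] =ᶠ[𝓝 z] s15da_D2 L := by
  filter_upwards [(s15da_isOpen_compl L).mem_nhds hz] with w hw
  rw [iteratedDeriv_succ, iteratedDeriv_one, L.deriv_weierstrassP]
  exact s15da_deriv_derivP L hw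

theorem s15da_iteratedDeriv_three_eventuallyEq {z : ℂ} (hz : z ∉ L.lattice) :
    iteratedDeriv 3 ℘[L] =ᶠ[𝓝 z] s15da_D3 L := by
  filter_upwards [(s15da_isOpen_compl L).mem_nhds hz] with w hw
  rw [iteratedDeriv_succ, (s15da_iteratedDeriv_two_eventuallyEq L hw).deriv_eq]
  exact (s15da_hasDerivAt_D2 L hw).deriv

theorem s15da_iteratedDeriv_four_eventuallyEq {z : ℂ} (hz : z ∉ L.lattice) :
    iteratedDeriv 4 ℘[L] =ᶠ[𝓝 z] s15da_D4 L := by
  filter_upwards [(s15da_isOpen_compl L).mem_nhds hz] with w hw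
  rw [iteratedDeriv_succ, (s15da_iteratedDeriv_three_eventuallyEq L hw).deriv_eq]
  exact (s15da_hasDerivAt_D3 L hw).deriv

/-- the derivatives of `℘` of order `≤ 4` at a point off the lattice. -/
theorem s15da_iteratedDeriv_P {w : ℂ} (hw : w ∉ L.lattice) :
    iteratedDeriv 0 ℘[L] w = ℘[L] w ∧ iteratedDeriv 1 ℘[L] w = ℘'[L] w ∧
      iteratedDeriv 2 ℘[L] w = s15da_D2 L w ∧ iteratedDeriv 3 ℘[L] w = s15da_D3 L w ∧
      iteratedDeriv 4 ℘[L] w = s15da_D4 L w := by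
  refine ⟨by simp, by rw [iteratedDeriv_one, L.deriv_weierstrassP], ?_, ?_, ?_⟩
  · exact (s15da_iteratedDeriv_two_eventuallyEq L hw).self_of_nhds
  · exact (s15da_iteratedDeriv_three_eventuallyEq L hw).self_of_nhds
  · exact (s15da_iteratedDeriv_four_eventuallyEq L hw).self_of_nhds

end Fermat.Agent.Lib.S15
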