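/-
(M) [D-AN], part 2 (helper5, prefix `s15da_`): local expansions at `0` needed for the addition
theorem: `℘(z + w) = a + b z + (c₂/2) z² + 2ab z³ + ((b² + a c₂)/2) z⁴ + z⁵ T₅(z)`,
`℘[L - 0](z) = z² E₂(z)`, `℘'[L - 0](z) = z E₁(z)`.
-/
import Mathlib
import Fermat.Agent.Lib.RR.Lattice
import Fermat.Agent.Lib.S15.DAnDeriv

set_option autoImplicit false

open Filter Topology PeriodPair

noncomputable section

namespace Fermat.Agent.Lib.S15

variable (L : PeriodPair)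

/-- the Taylor polynomial of order `4` of `z ↦ ℘(z + w)` at `0`. -/
def s15da_taylor4 (w z : ℂ) : ℂ :=
  ℘[L] w + ℘'[L] w * z ^ 1 + s15da_D2 L w / 2 * z ^ 2 + s15da_D3 L w / 6 * z ^ 3 +
    s15da_D4 L w / 24 * z ^ 4

theorem s15da_analyticAt_shift {w : ℂ} (hw : w ∉ L.lattice) :
    AnalyticAt ℂ (fun z => ℘[L] (z + w)) 0 := by
  have h : AnalyticAt ℂ ℘[L] ((0 : ℂ) + w) := by
    rw [zero_add]; exact L.analyticOnNhd_weierstrassP w hw
  exact h.comp_of_eq (by fun_prop) rfl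

theorem s15da_iteratedDeriv_taylor4 (w : ℂ) (i : ℕ) (hi : i < 5) :
    iteratedDeriv i (s15da_taylor4 L w) 0 =
      if i = 0 then ℘[L] w else if i = 1 then ℘'[L] w else if i = 2 then s15da_D2 L w
      else if i = 3 then s15da_D3 L w else s15da_D4 L w := by
  unfold s15da_taylor4
  interval_cases i <;>
  simp (discharger := fun_prop) only [iteratedDeriv_fun_add, iteratedDeriv_fun_mul,
    iteratedDeriv_const, iteratedDeriv_fun_pow_zero] <;>
  simp [Finset.sum_range_succ, Nat.factorial]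

theorem s15da_analyticAt_taylor4 (w : ℂ) : AnalyticAt ℂ (s15da_taylor4 L w) 0 := by
  unfold s15da_taylor4
  fun_prop

/-- **Taylor expansion with analytic remainder** of `z ↦ ℘(z + w)` at `0`, to order `4`. -/
theorem s15da_exists_T5 {w : ℂ} (hw : w ∉ L.lattice) :
    ∃ T5 : ℂ → ℂ, AnalyticAt ℂ T5 0 ∧
      ∀ᶠ z in 𝓝 (0 : ℂ), ℘[L] (z + w) = s15da_taylor4 L w z + z ^ 5 * T5 z := by
  have hT := s15da_analyticAt_shift L hw
  have hP := s15da_analyticAt_taylor4 L w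
  have hD : AnalyticAt ℂ (fun z => ℘[L] (z + w) - s15da_taylor4 L w z) 0 := hT.fun_sub hP
  have hord : ((5 : ℕ) : ℕ∞) ≤ analyticOrderAt (fun z => ℘[L] (z + w) - s15da_taylor4 L w z) 0 := by
    rw [natCast_le_analyticOrderAt_iff_iteratedDeriv_eq_zero hD]
    intro i hi
    rw [iteratedDeriv_fun_sub hT.contDiffAt hP.contDiffAt, s15da_iteratedDeriv_taylor4 L w i hi,
      iteratedDeriv_comp_add_const]
    simp only [zero_add]
    obtain ⟨h0, h1, h2, h3, h4⟩ := s15da_iteratedDeriv_P L hw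
    interval_cases i
    · simp
    · simp [h1]
    · simp [h2]
    · simp [h3]
    · simp [h4]
  obtain ⟨g, hg, hev⟩ := (natCast_le_analyticOrderAt hD).mp hord
  refine ⟨g, hg, ?_⟩
  filter_upwards [hev] with z hz
  simp only [sub_zero, smul_eq_mul] at hz
  linear_combination hz

/-- `℘[L - 0](z) = z² E₂(z)` near `0`. -/
theorem s15da_exists_E2 :
    ∃ E2 : ℂ → ℂ, AnalyticAt ℂ E2 0 ∧
      ∀ᶠ z in 𝓝 (0 : ℂ), ℘[L - (0 : ℂ)] z = z ^ 2 * E2 z := by
  have hE := L.analyticAt_weierstrassPExcept 0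
  have hord : ((2 : ℕ) : ℕ∞) ≤ analyticOrderAt ℘[L - (0 : ℂ)] 0 := by
    rw [natCast_le_analyticOrderAt_iff_iteratedDeriv_eq_zero hE]
    intro i hi
    rw [L.iteratedDeriv_weierstrassPExcept_self]
    interval_cases i
    · simp
    · simp [L.G_eq_zero_of_odd 3 (by decide)]
  obtain ⟨g, hg, hev⟩ := (natCast_le_analyticOrderAt hE).mp hord
  refine ⟨g, hg, ?_⟩
  filter_upwards [hev] with z hz
  simpa using hz

/-- `℘'[L - 0](z) = z E₁(z)` near `0`. -/
theorem s15da_exists_E1 :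
    ∃ E1 : ℂ → ℂ, AnalyticAt ℂ E1 0 ∧
      ∀ᶠ z in 𝓝 (0 : ℂ), ℘'[L - (0 : ℂ)] z = z * E1 z := by
  have hE := L.analyticAt_derivWeierstrassPExcept 0
  have hord : ((1 : ℕ) : ℕ∞) ≤ analyticOrderAt ℘'[L - (0 : ℂ)] 0 := by
    rw [natCast_le_analyticOrderAt_iff_iteratedDeriv_eq_zero hE]
    intro i hi
    rw [L.iteratedDeriv_derivWeierstrassPExcept_self]
    interval_cases i
    simp [L.G_eq_zero_of_odd 3 (by decide)]
  obtain ⟨g, hg, hev⟩ := (natCast_le_analyticOrderAt hE).mp hord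
  refine ⟨g, hg, ?_⟩
  filter_upwards [hev] with z hz
  simpa using hz

end Fermat.Agent.Lib.S15
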