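/-
(M) [D-AN], part 3 (helper5, prefix `s15da_`): THE ADDITION THEOREM for the Weierstrass
`℘`-function of Mathlib, by Liouville.  For `w ∉ L` the function
`F_w(z) = (℘(z+w) - a) ℘(z)² - (2a ℘(z+w) + a² - g₂/4) ℘(z) + a² ℘(z+w) + g₃/2 + g₂ a/4 + (b/2) ℘'(z)`
(`a = ℘(w)`, `b = ℘'(w)`; it equals `(℘(z+w) + ℘(z) + ℘(w)) (℘(z) - ℘(w))² - (℘'(z) - ℘'(w))²/4`
modulo the differential equation) extends to an entire elliptic function vanishing at `0`.
-/
import Mathlib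
import Fermat.Agent.Lib.S15.DAnLocal

set_option autoImplicit false

open Filter Topology PeriodPair

noncomputable section

namespace Fermat.Agent.Lib.S15

/-- the analytic cofactor of `F_w(z) = z H(z)` near `0`. -/
def s15da_H (a b g2 z t5 e2 e1 : ℂ) : ℂ :=
  1 * (t5) + (1 / 2) * b * (e1) + 2 * b * (e2) + (-3) * a ^ 2 * b + (-1 / 4) * z * g2 * (e2) + (-1) * z * a * b ^ 2 + 3 * z * a ^ 2 * (e2) + (1 / 4) * z * a ^ 2 * g2 + (-3) * z * a ^ 4 + (-2) * z ^ 2 * a * (t5) + 2 * z ^ 2 * a * b * (e2) + 2 * z ^ 2 * a ^ 3 * b + 1 * z ^ 3 * b ^ 2 * (e2) + (1 / 2) * z ^ 3 * a ^ 2 * b ^ 2 + (-1 / 4) * z ^ 3 * a ^ 3 * g2 + 3 * z ^ 3 * a ^ 5 + 2 * z ^ 4 * (t5) * (e2) + 1 * z ^ 4 * b * (e2) ^ 2 + 1 * z ^ 4 * a ^ 2 * (t5) + (-4) * z ^ 4 * a ^ 2 * b * (e2) + (-1 / 4) * z ^ 5 * g2 * (e2) ^ 2 + (-1) * z ^ 5 * a * b ^ 2 * (e2) + 3 * z ^ 5 * a ^ 2 * (e2) ^ 2 + (1 / 2) * z ^ 5 * a ^ 2 * g2 * (e2) + (-6) * z ^ 5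 * a ^ 4 * (e2) + (-2) * z ^ 6 * a * (t5) * (e2) + 2 * z ^ 6 * a * b * (e2) ^ 2 + (1 / 2) * z ^ 7 * b ^ 2 * (e2) ^ 2 + (-1 / 4) * z ^ 7 * a * g2 * (e2) ^ 2 + 3 * z ^ 7 * a ^ 3 * (e2) ^ 2 + 1 * z ^ 8 * (t5) * (e2) ^ 2

/-- the algebraic core of the expansion at `0`. -/
theorem s15da_core {z a b g2 g3 t5 e2 e1 P P' S : ℂ} (hz : z ≠ 0)
    (hS : S = a + b * z ^ 1 + (6 * a ^ 2 - g2 / 2) / 2 * z ^ 2 + (12 * a * b) / 6 * z ^ 3 +
      (12 * b ^ 2 + 12 * a * (6 * a ^ 2 - g2 / 2)) / 24 * z ^ 4 + z ^ 5 * t5)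
    (hP : P = z ^ 2 * e2 + 1 / z ^ 2) (hP' : P' = z * e1 - 2 / z ^ 3)
    (hb : b ^ 2 = 4 * a ^ 3 - g2 * a - g3) :
    (S - a) * P ^ 2 - (2 * a * S + a ^ 2 - g2 / 4) * P + a ^ 2 * S + g3 / 2 + g2 * a / 4
      + b / 2 * P' = z * s15da_H a b g2 z t5 e2 e1 := by
  subst hS hP hP'
  unfold s15da_H
  field_simp
  linear_combination (1152 * z ^ 4) * hb

variable (L : PeriodPair)

/-- the addition relation `F_w(z)`. -/
def s15da_F (w z : ℂ) : ℂ :=
  (℘[L] (z + w) - ℘[L] w) * ℘[L] z ^ 2 -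
    (2 * ℘[L] w * ℘[L] (z + w) + ℘[L] w ^ 2 - L.g₂ / 4) * ℘[L] z +
    ℘[L] w ^ 2 * ℘[L] (z + w) + L.g₃ / 2 + L.g₂ * ℘[L] w / 4 + ℘'[L] w / 2 * ℘'[L] z

open Classical in
/-- `F_w` with the junk value `0` at its singularities. -/
def s15da_A (w z : ℂ) : ℂ :=
  if z ∈ L.lattice ∨ z + w ∈ L.lattice then 0 else s15da_F L w z

theorem s15da_A_of_not {w z : ℂ} (hz : z ∉ L.lattice) (hzw : z + w ∉ L.lattice) :
    s15da_A L w z = s15da_F L w z := by
  unfold s15da_A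
  rw [if_neg (not_or.mpr ⟨hz, hzw⟩)]

theorem s15da_A_of_mem {w z : ℂ} (hz : z ∈ L.lattice) : s15da_A L w z = 0 := by
  unfold s15da_A
  rw [if_pos (Or.inl hz)]

theorem s15da_A_of_mem' {w z : ℂ} (hz : z + w ∈ L.lattice) : s15da_A L w z = 0 := by
  unfold s15da_A
  rw [if_pos (Or.inr hz)]

theorem s15da_A_add_coe (w z : ℂ) (l : L.lattice) : s15da_A L w (z + l) = s15da_A L w z := by
  have h1 : z + l ∈ L.lattice ↔ z ∈ L.lattice :=
    L.lattice.toAddSubgroup.add_mem_cancel_right (y := z) l.2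
  have h2 : z + l + w ∈ L.lattice ↔ z + w ∈ L.lattice := by
    rw [show z + l + w = z + w + l by ring]
    exact L.lattice.toAddSubgroup.add_mem_cancel_right (y := z + w) l.2
  by_cases hz : z ∈ L.lattice
  · rw [s15da_A_of_mem L hz, s15da_A_of_mem L (h1.mpr hz)]
  by_cases hzw : z + w ∈ L.lattice
  · rw [s15da_A_of_mem' L hzw, s15da_A_of_mem' L (h2.mpr hzw)]
  rw [s15da_A_of_not L hz hzw, s15da_A_of_not L (fun h => hz (h1.mp h)) (fun h => hzw (h2.mp h))]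
  unfold s15da_F
  rw [show z + l + w = z + w + l by ring, L.weierstrassP_add_coe, L.weierstrassP_add_coe,
    L.derivWeierstrassP_add_coe]

theorem s15da_A_sub_coe (w z : ℂ) (l : L.lattice) : s15da_A L w (z - l) = s15da_A L w z := by
  rw [← s15da_A_add_coe L w (z - l) l, sub_add_cancel]

/-- the set where `F_w` is regular is open. -/
theorem s15da_isOpen_regular (w : ℂ) :
    IsOpen {z : ℂ | z ∉ L.lattice ∧ z + w ∉ L.lattice} := by
  have h1 : IsOpen {z : ℂ | z ∉ L.lattice} := s15da_isOpen_compl L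
  have h2 : IsOpen {z : ℂ | z + w ∉ L.lattice} :=
    (s15da_isOpen_compl L).preimage (by fun_prop : Continuous fun z : ℂ => z + w)
  exact h1.inter h2

theorem s15da_A_analyticAt_of_not {w z : ℂ} (hz : z ∉ L.lattice) (hzw : z + w ∉ L.lattice) :
    AnalyticAt ℂ (s15da_A L w) z := by
  have hF : AnalyticAt ℂ (s15da_F L w) z := by
    have h1 : AnalyticAt ℂ ℘[L] z := L.analyticOnNhd_weierstrassP z hz
    have h2 : AnalyticAt ℂ ℘'[L] z := L.analyticOnNhd_derivWeierstrassP z hz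
    have h3 : AnalyticAt ℂ (fun y => ℘[L] (y + w)) z :=
      (L.analyticOnNhd_weierstrassP (z + w) hzw).comp_of_eq (by fun_prop) rfl
    unfold s15da_F
    fun_prop
  refine hF.congr ?_
  filter_upwards [(s15da_isOpen_regular L w).mem_nhds ⟨hz, hzw⟩] with y hy
  exact (s15da_A_of_not L hy.1 hy.2).symm

/-- regularity at `0`. -/
theorem s15da_A_analyticAt_zero {w : ℂ} (hw : w ∉ L.lattice) :
    AnalyticAt ℂ (s15da_A L w) 0 := by
  obtain ⟨T5, hT5, hT⟩ := s15da_exists_T5 L hw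
  obtain ⟨E2, hE2a, hE2⟩ := s15da_exists_E2 L
  obtain ⟨E1, hE1a, hE1⟩ := s15da_exists_E1 L
  have hH : AnalyticAt ℂ
      (fun z => z * s15da_H (℘[L] w) (℘'[L] w) L.g₂ z (T5 z) (E2 z) (E1 z)) 0 := by
    unfold s15da_H
    fun_prop
  refine hH.congr ?_
  have hreg : ∀ᶠ z in 𝓝 (0 : ℂ), z + w ∉ L.lattice := by
    have : IsOpen {z : ℂ | z + w ∉ L.lattice} :=
      (s15da_isOpen_compl L).preimage (by fun_prop : Continuous fun z : ℂ => z + w)
    exact this.mem_nhds (by simpa using hw)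
  filter_upwards [hT, hE2, hE1, L.compl_lattice_sdiff_singleton_mem_nhds 0, hreg]
    with z h1 h2 h3 h4 h5
  by_cases hz0 : z = 0
  · subst hz0
    rw [s15da_A_of_mem L (zero_mem _), zero_mul]
  · have hzL : z ∉ L.lattice := fun hmem => h4 ⟨hmem, hz0⟩
    rw [s15da_A_of_not L hzL h5]
    symm
    unfold s15da_F
    have key := s15da_core (z := z) (a := ℘[L] w) (b := ℘'[L] w) (g2 := L.g₂) (g3 := L.g₃)
      (t5 := T5 z) (e2 := E2 z) (e1 := E1 z) (P := ℘[L] z) (P' := ℘'[L] z) (S := ℘[L] (z + w))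
      hz0 ?_ ?_ ?_ (L.derivWeierstrassP_sq w hw)
    · rw [← key]
    · rw [h1]; unfold s15da_taylor4 s15da_D2 s15da_D3 s15da_D4; ring
    · rw [Fermat.Agent.Lib.RR.WP.weierstrassP_eq_except_add, h2]
    · rw [Fermat.Agent.Lib.RR.WP.derivWeierstrassP_eq_except_sub, h3]

/-- `F_w` in the form used at `z = -w`. -/
theorem s15da_F_eq (w z : ℂ) :
    s15da_F L w z = ℘[L] (z + w) * (℘[L] z - ℘[L] w) ^ 2 - ℘[L] w * ℘[L] z ^ 2 -
      (℘[L] w ^ 2 - L.g₂ / 4) * ℘[L] z + L.g₃ / 2 + L.g₂ * ℘[L] w / 4 + ℘'[L] w / 2 * ℘'[L] z := by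
  unfold s15da_F
  ring

/-- regularity at `-w`. -/
theorem s15da_A_analyticAt_neg {w : ℂ} (hw : w ∉ L.lattice) :
    AnalyticAt ℂ (s15da_A L w) (-w) := by
  have hnw : -w ∉ L.lattice := fun h => hw (by simpa using L.lattice.neg_mem h)
  have hP : AnalyticAt ℂ ℘[L] (-w) := L.analyticOnNhd_weierstrassP _ hnw
  have hP' : AnalyticAt ℂ ℘'[L] (-w) := L.analyticOnNhd_derivWeierstrassP _ hnw
  -- the slope function
  have hR : AnalyticAt ℂ (dslope ℘[L] (-w)) (-w) := by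
    obtain ⟨p, hp⟩ := hP
    exact ⟨_, hp.has_fpower_series_dslope_fslope⟩
  have hR0 : dslope ℘[L] (-w) (-w) = -℘'[L] w := by
    rw [dslope_same, L.deriv_weierstrassP, L.derivWeierstrassP_neg]
  have hE : AnalyticAt ℂ (fun z => ℘[L - (0 : ℂ)] (z + w)) (-w) :=
    (L.analyticAt_weierstrassPExcept 0).comp_of_eq (by fun_prop) (by simp)
  -- the analytic model
  set B : ℂ → ℂ := fun z =>
    dslope ℘[L] (-w) z ^ 2 + (z + w) ^ 2 * ℘[L - (0 : ℂ)] (z + w) * dslope ℘[L] (-w) z ^ 2 -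
      ℘[L] w * ℘[L] z ^ 2 - (℘[L] w ^ 2 - L.g₂ / 4) * ℘[L] z + L.g₃ / 2 + L.g₂ * ℘[L] w / 4 +
      ℘'[L] w / 2 * ℘'[L] z with hB
  have hBa : AnalyticAt ℂ B (-w) := by
    rw [hB]
    fun_prop
  refine hBa.congr ?_
  have hreg : ∀ᶠ z in 𝓝 (-w), z ∉ L.lattice := (s15da_isOpen_compl L).mem_nhds hnw
  have hreg2 : ∀ᶠ z in 𝓝 (-w), z + w ∈ ((L.lattice : Set ℂ) \ {0})ᶜ := by
    have hc : Tendsto (fun z : ℂ => z + w) (𝓝 (-w)) (𝓝 0) := by
      have : ContinuousAt (fun z : ℂ => z + w) (-w) := by fun_prop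
      simpa [ContinuousAt] using this
    exact hc.eventually (L.compl_lattice_sdiff_singleton_mem_nhds 0)
  filter_upwards [hreg, hreg2] with z h1 h2
  by_cases hz : z = -w
  · subst hz
    rw [s15da_A_of_mem' L (by simp)]
    rw [hB]
    simp only [hR0, neg_add_cancel]
    have hode := L.derivWeierstrassP_sq w hw
    rw [L.weierstrassP_neg, L.derivWeierstrassP_neg]
    linear_combination (1 / 2 : ℂ) * hode
  · have hu0 : z + w ≠ 0 := fun h => hz (by linear_combination h)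
    have huL : z + w ∉ L.lattice := fun hmem => h2 ⟨hmem, hu0⟩
    rw [s15da_A_of_not L h1 huL, s15da_F_eq, hB]
    have hsl : ℘[L] z - ℘[L] w = (z + w) * dslope ℘[L] (-w) z := by
      have := sub_smul_dslope ℘[L] (-w) z
      rw [smul_eq_mul, L.weierstrassP_neg] at this
      rw [← this]; ring
    have hex := Fermat.Agent.Lib.RR.WP.weierstrassP_eq_except_add L (z + w)
    simp only
    rw [hsl, hex]
    field_simp
    ring

/-- `A_w` is entire. -/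
theorem s15da_A_analyticAt {w : ℂ} (hw : w ∉ L.lattice) (x : ℂ) :
    AnalyticAt ℂ (s15da_A L w) x := by
  by_cases hx : x ∈ L.lattice
  · have h0 := s15da_A_analyticAt_zero L hw
    have h1 : AnalyticAt ℂ (fun y => s15da_A L w (y - x)) x :=
      h0.comp_of_eq (by fun_prop) (by simp)
    refine h1.congr ?_
    filter_upwards with y
    exact s15da_A_sub_coe L w y ⟨x, hx⟩
  by_cases hxw : x + w ∈ L.lattice
  · have h0 := s15da_A_analyticAt_neg L hw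
    have h1 : AnalyticAt ℂ (fun y => s15da_A L w (y - (x + w))) x :=
      h0.comp_of_eq (by fun_prop) (by ring)
    refine h1.congr ?_
    filter_upwards with y
    exact s15da_A_sub_coe L w y ⟨x + w, hxw⟩
  exact s15da_A_analyticAt_of_not L hx hxw

/-- **Liouville**: `A_w` vanishes identically. -/
theorem s15da_A_eq_zero {w : ℂ} (hw : w ∉ L.lattice) (z : ℂ) : s15da_A L w z = 0 := by
  have hd : Differentiable ℂ (s15da_A L w) :=
    fun x => (s15da_A_analyticAt L hw x).differentiableAt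
  have hb := IsZLattice.isCompact_range_of_periodic L.lattice _ hd.continuous
    (fun z l hl => s15da_A_add_coe L w z ⟨l, hl⟩)
  exact (hd.apply_eq_apply_of_bounded hb.isBounded z 0).trans (s15da_A_of_mem L (zero_mem _))

/-- **The addition relation.** -/
theorem s15da_F_eq_zero {w z : ℂ} (hw : w ∉ L.lattice) (hz : z ∉ L.lattice)
    (hzw : z + w ∉ L.lattice) : s15da_F L w z = 0 := by
  rw [← s15da_A_of_not L hz hzw]
  exact s15da_A_eq_zero L hw z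

/-- **The addition theorem, polynomial form**:
`(℘(z+w) + ℘(z) + ℘(w)) (℘(z) - ℘(w))² = (℘'(z) - ℘'(w))² / 4`. -/
theorem s15da_add_poly {w z : ℂ} (hw : w ∉ L.lattice) (hz : z ∉ L.lattice)
    (hzw : z + w ∉ L.lattice) :
    (℘[L] (z + w) + ℘[L] z + ℘[L] w) * (℘[L] z - ℘[L] w) ^ 2 =
      (℘'[L] z - ℘'[L] w) ^ 2 / 4 := by
  have h0 := s15da_F_eq_zero L hw hz hzw
  have h1 := L.derivWeierstrassP_sq z hz
  have h2 := L.derivWeierstrassP_sq w hw
  unfold s15da_F at h0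
  linear_combination h0 - (1 / 4 : ℂ) * h1 - (1 / 4 : ℂ) * h2

/-- **The addition theorem**: `℘(z+w) = -℘(z) - ℘(w) + ((℘'(z) - ℘'(w)) / (℘(z) - ℘(w)))² / 4`. -/
theorem s15da_add {w z : ℂ} (hw : w ∉ L.lattice) (hz : z ∉ L.lattice)
    (hzw : z + w ∉ L.lattice) (hne : ℘[L] z ≠ ℘[L] w) :
    ℘[L] (z + w) =
      -℘[L] z - ℘[L] w + ((℘'[L] z - ℘'[L] w) / (℘[L] z - ℘[L] w)) ^ 2 / 4 := by
  have h := s15da_add_poly L hw hz hzw
  have hd : ℘[L] z - ℘[L] w ≠ 0 := sub_ne_zero.mpr hne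
  field_simp
  linear_combination 4 * h

end Fermat.Agent.Lib.S15
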