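/-
(M) [D-AN], part 4 (helper5, prefix `s15da_`): the Weierstrass parametrisation
`Ψ : ℂ → E_L(ℂ)`, `z ↦ (℘(z), ℘'(z)/2)`, `E_L : y² = x³ - (g₂/4) x - g₃/4`, is a group
homomorphism with kernel `L`.
-/
import Mathlib
import Fermat.Agent.Lib.S15.DAnAdd

set_option autoImplicit false

open Filter Topology PeriodPair WeierstrassCurve

noncomputable section

namespace Fermat.Agent.Lib.S15

variable (L : PeriodPair)

/-- the curve `y² = x³ - (g₂/4) x - g₃/4`. -/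
def s15da_E : WeierstrassCurve ℂ := ⟨0, 0, 0, -L.g₂ / 4, -L.g₃ / 4⟩

@[simp] theorem s15da_E_a₁ : (s15da_E L).a₁ = 0 := rfl
@[simp] theorem s15da_E_a₂ : (s15da_E L).a₂ = 0 := rfl
@[simp] theorem s15da_E_a₃ : (s15da_E L).a₃ = 0 := rfl
@[simp] theorem s15da_E_a₄ : (s15da_E L).a₄ = -L.g₂ / 4 := rfl
@[simp] theorem s15da_E_a₆ : (s15da_E L).a₆ = -L.g₃ / 4 := rfl

theorem s15da_E_Δ : (s15da_E L).Δ = L.g₂ ^ 3 - 27 * L.g₃ ^ 2 := by
  simp only [WeierstrassCurve.Δ, WeierstrassCurve.b₂, WeierstrassCurve.b₄, WeierstrassCurve.b₆,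
    WeierstrassCurve.b₈, s15da_E_a₁, s15da_E_a₂, s15da_E_a₃, s15da_E_a₄, s15da_E_a₆]
  ring

theorem s15da_E_c₄ : (s15da_E L).c₄ = 12 * L.g₂ := by
  simp only [WeierstrassCurve.c₄, WeierstrassCurve.b₂, WeierstrassCurve.b₄,
    s15da_E_a₁, s15da_E_a₂, s15da_E_a₃, s15da_E_a₄]
  ring

theorem s15da_E_c₆ : (s15da_E L).c₆ = 216 * L.g₃ := by
  simp only [WeierstrassCurve.c₆, WeierstrassCurve.b₂, WeierstrassCurve.b₄, WeierstrassCurve.b₆,
    s15da_E_a₁, s15da_E_a₂, s15da_E_a₃, s15da_E_a₄, s15da_E_a₆]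
  ring

theorem s15da_equation {z : ℂ} (hz : z ∉ L.lattice) :
    (s15da_E L).toAffine.Equation (℘[L] z) (℘'[L] z / 2) := by
  rw [Affine.equation_iff]
  have h := L.derivWeierstrassP_sq z hz
  simp only [s15da_E_a₁, s15da_E_a₂, s15da_E_a₃, s15da_E_a₄, s15da_E_a₆]
  linear_combination (1 / 4 : ℂ) * h

variable {L} in
theorem s15da_nonsingular (hΔ : L.g₂ ^ 3 - 27 * L.g₃ ^ 2 ≠ 0) {z : ℂ} (hz : z ∉ L.lattice) :
    (s15da_E L).toAffine.Nonsingular (℘[L] z) (℘'[L] z / 2) :=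
  (Affine.equation_iff_nonsingular_of_Δ_ne_zero (by rw [s15da_E_Δ]; exact hΔ)).mp
    (s15da_equation L hz)

open Classical in
/-- **the Weierstrass parametrisation.** -/
def s15da_Psi (hΔ : L.g₂ ^ 3 - 27 * L.g₃ ^ 2 ≠ 0) (z : ℂ) : (s15da_E L).toAffine.Point :=
  if hz : z ∈ L.lattice then 0 else Affine.Point.some _ _ (s15da_nonsingular hΔ hz)

variable {L} (hΔ : L.g₂ ^ 3 - 27 * L.g₃ ^ 2 ≠ 0)

theorem s15da_Psi_of_mem {z : ℂ} (hz : z ∈ L.lattice) : s15da_Psi L hΔ z = 0 := by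
  unfold s15da_Psi; rw [dif_pos hz]

theorem s15da_Psi_of_not {z : ℂ} (hz : z ∉ L.lattice) :
    s15da_Psi L hΔ z = Affine.Point.some _ _ (s15da_nonsingular hΔ hz) := by
  unfold s15da_Psi; rw [dif_neg hz]

theorem s15da_Psi_eq_zero_iff {z : ℂ} : s15da_Psi L hΔ z = 0 ↔ z ∈ L.lattice := by
  constructor
  · intro h
    by_contra hz
    rw [s15da_Psi_of_not hΔ hz] at h
    exact Affine.Point.some_ne_zero _ h
  · exact s15da_Psi_of_mem hΔ

theorem s15da_neg_mem_iff {z : ℂ} : -z ∈ L.lattice ↔ z ∈ L.lattice := L.lattice.neg_mem_iff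

theorem s15da_Psi_neg (z : ℂ) : s15da_Psi L hΔ (-z) = -s15da_Psi L hΔ z := by
  by_cases hz : z ∈ L.lattice
  · rw [s15da_Psi_of_mem hΔ hz, s15da_Psi_of_mem hΔ (s15da_neg_mem_iff.mpr hz), neg_zero]
  · have hnz : -z ∉ L.lattice := fun h => hz (s15da_neg_mem_iff.mp h)
    rw [s15da_Psi_of_not hΔ hz, s15da_Psi_of_not hΔ hnz, Affine.Point.neg_some]
    congr 1
    · exact L.weierstrassP_neg z
    · rw [L.derivWeierstrassP_neg]
      simp only [Affine.negY, s15da_E_a₁, s15da_E_a₃]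
      ring

theorem s15da_Psi_add_coe (z : ℂ) {l : ℂ} (hl : l ∈ L.lattice) :
    s15da_Psi L hΔ (z + l) = s15da_Psi L hΔ z := by
  have h1 : z + l ∈ L.lattice ↔ z ∈ L.lattice :=
    L.lattice.toAddSubgroup.add_mem_cancel_right (y := z) hl
  by_cases hz : z ∈ L.lattice
  · rw [s15da_Psi_of_mem hΔ hz, s15da_Psi_of_mem hΔ (h1.mpr hz)]
  · rw [s15da_Psi_of_not hΔ hz, s15da_Psi_of_not hΔ (fun h => hz (h1.mp h))]
    congr 1
    · exact L.weierstrassP_add_coe z ⟨l, hl⟩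
    · rw [L.derivWeierstrassP_add_coe z ⟨l, hl⟩]

/-- the `x`-coordinate determines the point up to sign. -/
theorem s15da_Psi_eq_or_neg {z w : ℂ} (hz : z ∉ L.lattice) (hw : w ∉ L.lattice)
    (h : ℘[L] z = ℘[L] w) : s15da_Psi L hΔ z = s15da_Psi L hΔ w ∨
      s15da_Psi L hΔ z = -s15da_Psi L hΔ w := by
  rw [s15da_Psi_of_not hΔ hz, s15da_Psi_of_not hΔ hw, Affine.Point.neg_some]
  rcases Affine.Y_eq_of_X_eq (s15da_equation L hz) (s15da_equation L hw) h with h1 | h1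
  · left; congr 1
  · right; congr 1

theorem s15da_some_congr_x {W : Affine ℂ} {x x' y : ℂ} (h : W.Nonsingular x y) (e : x = x') :
    ∃ h' : W.Nonsingular x' y, Affine.Point.some x y h = Affine.Point.some x' y h' := by
  subst e; exact ⟨h, rfl⟩

/-- **chord addition up to sign**. -/
theorem s15da_Psi_add_pm {z w : ℂ} (hz : z ∉ L.lattice) (hw : w ∉ L.lattice)
    (hzw : z + w ∉ L.lattice) (hne : ℘[L] z ≠ ℘[L] w) :
    s15da_Psi L hΔ z + s15da_Psi L hΔ w = s15da_Psi L hΔ (z + w) ∨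
      s15da_Psi L hΔ z + s15da_Psi L hΔ w = -s15da_Psi L hΔ (z + w) := by
  have hx : ∃ (y : ℂ) (h : (s15da_E L).toAffine.Nonsingular (℘[L] (z + w)) y),
      s15da_Psi L hΔ z + s15da_Psi L hΔ w = Affine.Point.some _ _ h := by
    rw [s15da_Psi_of_not hΔ hz, s15da_Psi_of_not hΔ hw, Affine.Point.add_of_X_ne hne]
    have hX : (s15da_E L).toAffine.addX (℘[L] z) (℘[L] w)
        ((s15da_E L).toAffine.slope (℘[L] z) (℘[L] w) (℘'[L] z / 2) (℘'[L] w / 2)) =
          ℘[L] (z + w) := by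
      rw [Affine.slope_of_X_ne hne, s15da_add L hw hz hzw hne]
      simp only [Affine.addX, s15da_E_a₁, s15da_E_a₂]
      have hd : ℘[L] z - ℘[L] w ≠ 0 := sub_ne_zero.mpr hne
      field_simp
      ring
    obtain ⟨h', e⟩ := s15da_some_congr_x (Affine.nonsingular_add (s15da_nonsingular hΔ hz)
      (s15da_nonsingular hΔ hw) (fun h => absurd h.1 hne)) hX
    exact ⟨_, h', e⟩
  obtain ⟨y, hy, hsum⟩ := hx
  rw [hsum, s15da_Psi_of_not hΔ hzw, Affine.Point.neg_some]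
  rcases Affine.Y_eq_of_X_eq hy.1 (s15da_equation L hzw) rfl with h1 | h1
  · left; congr 1
  · right; congr 1

/-- the sign trick, abstractly. -/
theorem s15da_sign_trick {G : Type*} [AddCommGroup G] {A B S : G}
    (h1 : A + B = S ∨ A + B = -S) (h2 : B - S = -A ∨ B - S = A) (h3 : A - S = -B ∨ A - S = B) :
    A + B = S := by
  rcases h1 with h1 | h1
  · exact h1
  rcases h2 with h2 | h2
  · -- `B - S = -A`
    have : A + B = S := by
      have e : A + (B - S) = A + -A := by rw [h2]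
      rw [add_neg_cancel] at e
      have e2 : A + B - S = 0 := by rw [← e]; abel
      exact sub_eq_zero.mp e2
    exact this
  rcases h3 with h3 | h3
  · have e : (A - S) + B = -B + B := by rw [h3]
    rw [neg_add_cancel] at e
    have e2 : A + B - S = 0 := by rw [← e]; abel
    exact sub_eq_zero.mp e2
  · -- `B - S = A`, `A - S = B`: `2S = 0`
    have e : B - S - S = B := by rw [h2]; exact h3
    have hS : S + S = 0 := by
      rw [sub_sub] at e
      exact sub_eq_self.mp e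
    have hS' : -S = S := by
      rw [neg_eq_iff_add_eq_zero]; exact hS
    rw [h1, hS']

/-- additivity for triply generic pairs. -/
theorem s15da_Psi_add_of_generic {z w : ℂ} (hz : z ∉ L.lattice) (hw : w ∉ L.lattice)
    (hzw : z + w ∉ L.lattice) (h1 : ℘[L] z ≠ ℘[L] w) (h2 : ℘[L] w ≠ ℘[L] (z + w))
    (h3 : ℘[L] z ≠ ℘[L] (z + w)) :
    s15da_Psi L hΔ z + s15da_Psi L hΔ w = s15da_Psi L hΔ (z + w) := by
  have hs : -(z + w) ∉ L.lattice := fun h => hzw (s15da_neg_mem_iff.mp h)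
  have hnz : -z ∉ L.lattice := fun h => hz (s15da_neg_mem_iff.mp h)
  have hnw : -w ∉ L.lattice := fun h => hw (s15da_neg_mem_iff.mp h)
  have e1 := s15da_Psi_add_pm hΔ hz hw hzw h1
  have e2 := s15da_Psi_add_pm hΔ hw hs (by rw [show w + -(z + w) = -z by ring]; exact hnz)
    (by rw [L.weierstrassP_neg]; exact h2)
  have e3 := s15da_Psi_add_pm hΔ hz hs (by rw [show z + -(z + w) = -w by ring]; exact hnw)
    (by rw [L.weierstrassP_neg]; exact h3)
  rw [show w + -(z + w) = -z by ring, s15da_Psi_neg, s15da_Psi_neg, neg_neg,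
    ← sub_eq_add_neg] at e2
  rw [show z + -(z + w) = -w by ring, s15da_Psi_neg, s15da_Psi_neg, neg_neg,
    ← sub_eq_add_neg] at e3
  exact s15da_sign_trick e1 e2 e3

end Fermat.Agent.Lib.S15
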