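/-
(M) [D-AN], part 5 (helper5, prefix `s15da_`): genericity.  Finitely many analytic functions on a
preconnected open set, none identically zero, have a common non-zero; `℘(α(t)) ≠ g(t)` near a
point where `α` vanishes and `g` is continuous; the generic auxiliary point `t` for the
additivity of the Weierstrass parametrisation.
-/
import Mathlib
import Fermat.Agent.Lib.S15.DAnHom

set_option autoImplicit false

open Filter Topology PeriodPair

noncomputable section

namespace Fermat.Agent.Lib.S15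

/-- finitely many analytic functions on a preconnected set, none identically zero, have a common
non-zero. -/
theorem s15da_exists_common_ne_zero {U : Set ℂ} (hU : IsPreconnected U) (hne : U.Nonempty)
    (fs : List (ℂ → ℂ)) (hfs : ∀ f ∈ fs, AnalyticOnNhd ℂ f U ∧ ∃ t ∈ U, f t ≠ 0) :
    ∃ t ∈ U, ∀ f ∈ fs, f t ≠ 0 := by
  suffices h : ∃ P : ℂ → ℂ, AnalyticOnNhd ℂ P U ∧ (∃ t ∈ U, P t ≠ 0) ∧
      ∀ t, P t ≠ 0 → ∀ f ∈ fs, f t ≠ 0 by
    obtain ⟨P, -, ⟨t, ht, hPt⟩, hP⟩ := h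
    exact ⟨t, ht, hP t hPt⟩
  induction fs with
  | nil =>
    obtain ⟨t, ht⟩ := hne
    exact ⟨fun _ => 1, analyticOnNhd_const, ⟨t, ht, one_ne_zero⟩, fun _ _ f hf => by simp at hf⟩
  | cons f fs ih =>
    obtain ⟨P, hPa, hPne, hP⟩ := ih (fun g hg => hfs g (List.mem_cons_of_mem _ hg))
    obtain ⟨hfa, hfne⟩ := hfs f List.mem_cons_self
    refine ⟨fun t => f t * P t, hfa.mul hPa, ?_, ?_⟩
    · by_contra hcon
      push Not at hcon
      rcases hfa.eq_zero_or_eq_zero_of_mul_eq_zero hPa hcon hU with h | h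
      · obtain ⟨t, ht, hft⟩ := hfne
        exact hft (h t ht)
      · obtain ⟨t, ht, hPt⟩ := hPne
        exact hPt (h t ht)
    · intro t ht g hg
      rcases List.mem_cons.mp hg with rfl | hg
      · exact left_ne_zero_of_mul ht
      · exact hP t (right_ne_zero_of_mul ht) g hg

variable (L : PeriodPair)

/-- near a zero `t₀` of `α`, `℘(α(t))` avoids every function continuous at `t₀`. -/
theorem s15da_pole_ne {α g : ℂ → ℂ} {t₀ : ℂ} (hα : ContinuousAt α t₀) (h0 : α t₀ = 0)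
    (hg : ContinuousAt g t₀) : ∀ᶠ t in 𝓝 t₀, α t ≠ 0 → ℘[L] (α t) ≠ g t := by
  have hE : ContinuousAt (fun t => ℘[L - (0 : ℂ)] (α t)) t₀ := by
    have h1 : ContinuousAt ℘[L - (0 : ℂ)] (α t₀) := by
      rw [h0]; exact (L.analyticAt_weierstrassPExcept 0).continuousAt
    exact h1.comp hα
  have hφ : ContinuousAt (fun t => 1 + α t ^ 2 * (℘[L - (0 : ℂ)] (α t) - g t)) t₀ := by
    fun_prop
  have hφ0 : (fun t => 1 + α t ^ 2 * (℘[L - (0 : ℂ)] (α t) - g t)) t₀ ≠ 0 := by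
    simp [h0]
  filter_upwards [hφ.eventually_ne hφ0] with t ht hαt heq
  apply ht
  have e := Fermat.Agent.Lib.RR.WP.weierstrassP_eq_except_add L (α t)
  rw [heq] at e
  have h2 : α t ^ 2 ≠ 0 := pow_ne_zero 2 hαt
  field_simp at e
  linear_combination -e

/-- the domain of the auxiliary point `t`. -/
def s15da_U (z w : ℂ) : Set ℂ := {t | t ∉ L.lattice ∧ z + t ∉ L.lattice ∧ w - t ∉ L.lattice}

theorem s15da_U_isOpen (z w : ℂ) : IsOpen (s15da_U L z w) := by
  have h1 : IsOpen {t : ℂ | t ∉ L.lattice} := s15da_isOpen_compl L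
  have h2 : IsOpen {t : ℂ | z + t ∉ L.lattice} :=
    (s15da_isOpen_compl L).preimage (by fun_prop : Continuous fun t : ℂ => z + t)
  have h3 : IsOpen {t : ℂ | w - t ∉ L.lattice} :=
    (s15da_isOpen_compl L).preimage (by fun_prop : Continuous fun t : ℂ => w - t)
  exact h1.inter (h2.inter h3)

theorem s15da_U_isPreconnected (z w : ℂ) : IsPreconnected (s15da_U L z w) := by
  have hc := Fermat.Agent.Lib.RR.WP.countable_lattice L
  have h2 : {t : ℂ | z + t ∈ L.lattice}.Countable :=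
    hc.preimage_of_injOn (f := fun t : ℂ => z + t) (fun a _ b _ h => by simpa using h)
  have h3 : {t : ℂ | w - t ∈ L.lattice}.Countable :=
    hc.preimage_of_injOn (f := fun t : ℂ => w - t) (fun a _ b _ h => by simpa using h)
  have hs : ((L.lattice : Set ℂ) ∪ ({t : ℂ | z + t ∈ L.lattice} ∪
      {t : ℂ | w - t ∈ L.lattice})).Countable := hc.union (h2.union h3)
  have hrank : 1 < Module.rank ℝ ℂ := by
    rw [Complex.rank_real_complex]; norm_num
  have := (hs.isConnected_compl_of_one_lt_rank hrank).isPreconnected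
  convert this using 1
  ext t
  simp only [s15da_U, Set.mem_ofPred_eq, Set.mem_compl_iff, Set.mem_union, SetLike.mem_coe, not_or]

/-- punctured neighbourhoods of the three special points lie in `U`. -/
theorem s15da_U_near_zero {z w : ℂ} (hz : z ∉ L.lattice) (hw : w ∉ L.lattice) :
    ∀ᶠ t in 𝓝 (0 : ℂ), t ≠ 0 → t ∈ s15da_U L z w := by
  have h2 : ∀ᶠ t in 𝓝 (0 : ℂ), z + t ∉ L.lattice := by
    have : IsOpen {t : ℂ | z + t ∉ L.lattice} :=
      (s15da_isOpen_compl L).preimage (by fun_prop : Continuous fun t : ℂ => z + t)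
    exact this.mem_nhds (by simpa using hz)
  have h3 : ∀ᶠ t in 𝓝 (0 : ℂ), w - t ∉ L.lattice := by
    have : IsOpen {t : ℂ | w - t ∉ L.lattice} :=
      (s15da_isOpen_compl L).preimage (by fun_prop : Continuous fun t : ℂ => w - t)
    exact this.mem_nhds (by simpa using hw)
  filter_upwards [L.compl_lattice_sdiff_singleton_mem_nhds 0, h2, h3] with t h1 h2 h3 ht
  exact ⟨fun hmem => h1 ⟨hmem, ht⟩, h2, h3⟩

theorem s15da_U_near_negz {z w : ℂ} (hz : z ∉ L.lattice) (hzw : z + w ∉ L.lattice) :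
    ∀ᶠ t in 𝓝 (-z), t ≠ -z → t ∈ s15da_U L z w := by
  have h1 : ∀ᶠ t in 𝓝 (-z), t ∉ L.lattice :=
    (s15da_isOpen_compl L).mem_nhds (fun h => hz (s15da_neg_mem_iff.mp h))
  have h3 : ∀ᶠ t in 𝓝 (-z), w - t ∉ L.lattice := by
    have : IsOpen {t : ℂ | w - t ∉ L.lattice} :=
      (s15da_isOpen_compl L).preimage (by fun_prop : Continuous fun t : ℂ => w - t)
    exact this.mem_nhds (by
      show w - -z ∉ L.lattice
      rw [show w - -z = z + w by ring]; exact hzw)
  have h2 : ∀ᶠ t in 𝓝 (-z), z + t ∈ ((L.lattice : Set ℂ) \ {0})ᶜ := by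
    have hc : Tendsto (fun t : ℂ => z + t) (𝓝 (-z)) (𝓝 0) := by
      have : ContinuousAt (fun t : ℂ => z + t) (-z) := by fun_prop
      simpa [ContinuousAt] using this
    exact hc.eventually (L.compl_lattice_sdiff_singleton_mem_nhds 0)
  filter_upwards [h1, h2, h3] with t h1 h2 h3 ht
  refine ⟨h1, fun hmem => h2 ⟨hmem, ?_⟩, h3⟩
  intro h0
  have h0' : z + t = 0 := h0
  exact ht (by linear_combination h0')

theorem s15da_U_near_w {z w : ℂ} (hw : w ∉ L.lattice) (hzw : z + w ∉ L.lattice) :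
    ∀ᶠ t in 𝓝 w, t ≠ w → t ∈ s15da_U L z w := by
  have h1 : ∀ᶠ t in 𝓝 w, t ∉ L.lattice := (s15da_isOpen_compl L).mem_nhds hw
  have h2 : ∀ᶠ t in 𝓝 w, z + t ∉ L.lattice := by
    have : IsOpen {t : ℂ | z + t ∉ L.lattice} :=
      (s15da_isOpen_compl L).preimage (by fun_prop : Continuous fun t : ℂ => z + t)
    exact this.mem_nhds hzw
  have h3 : ∀ᶠ t in 𝓝 w, w - t ∈ ((L.lattice : Set ℂ) \ {0})ᶜ := by
    have hc : Tendsto (fun t : ℂ => w - t) (𝓝 w) (𝓝 0) := by
      have : ContinuousAt (fun t : ℂ => w - t) w := by fun_prop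
      simpa [ContinuousAt] using this
    exact hc.eventually (L.compl_lattice_sdiff_singleton_mem_nhds 0)
  filter_upwards [h1, h2, h3] with t h1 h2 h3 ht
  refine ⟨h1, h2, fun hmem => h3 ⟨hmem, ?_⟩⟩
  intro h0
  have h0' : w - t = 0 := h0
  exact ht (by linear_combination -h0')

theorem s15da_analyticOnNhd_p0 (z w : ℂ) : AnalyticOnNhd ℂ (fun t => ℘[L] t) (s15da_U L z w) :=
  fun t ht => L.analyticOnNhd_weierstrassP t ht.1

theorem s15da_analyticOnNhd_p1 (z w : ℂ) :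
    AnalyticOnNhd ℂ (fun t => ℘[L] (z + t)) (s15da_U L z w) :=
  fun t ht => (L.analyticOnNhd_weierstrassP (z + t) ht.2.1).comp_of_eq (by fun_prop) rfl

theorem s15da_analyticOnNhd_p2 (z w : ℂ) :
    AnalyticOnNhd ℂ (fun t => ℘[L] (w - t)) (s15da_U L z w) :=
  fun t ht => (L.analyticOnNhd_weierstrassP (w - t) ht.2.2).comp_of_eq (by fun_prop) rfl

/-- a witness in `U` from a punctured neighbourhood. -/
theorem s15da_witness {z w t₀ : ℂ} {f : ℂ → ℂ}
    (hU : ∀ᶠ t in 𝓝 t₀, t ≠ t₀ → t ∈ s15da_U L z w)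
    (hf : ∀ᶠ t in 𝓝 t₀, t ≠ t₀ → f t ≠ 0) : ∃ t ∈ s15da_U L z w, f t ≠ 0 := by
  have h : ∀ᶠ t in 𝓝[≠] t₀, t ∈ s15da_U L z w ∧ f t ≠ 0 := by
    filter_upwards [hU.filter_mono nhdsWithin_le_nhds, hf.filter_mono nhdsWithin_le_nhds,
      self_mem_nhdsWithin] with t h1 h2 h3
    exact ⟨h1 h3, h2 h3⟩
  obtain ⟨t, ht⟩ := h.exists
  exact ⟨t, ht.1, ht.2⟩

/-- **the generic auxiliary point.** -/
theorem s15da_exists_generic {z w : ℂ} (hz : z ∉ L.lattice) (hw : w ∉ L.lattice)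
    (hzw : z + w ∉ L.lattice) :
    ∃ t ∈ s15da_U L z w,
      ℘[L] z ≠ ℘[L] t ∧ ℘[L] t ≠ ℘[L] (z + t) ∧ ℘[L] z ≠ ℘[L] (z + t) ∧
      ℘[L] w ≠ ℘[L] t ∧ ℘[L] t ≠ ℘[L] (w - t) ∧ ℘[L] w ≠ ℘[L] (w - t) ∧
      ℘[L] (z + t) ≠ ℘[L] (w - t) ∧ ℘[L] (w - t) ≠ ℘[L] (z + w) ∧
      ℘[L] (z + t) ≠ ℘[L] (z + w) := by
  have hUo := s15da_U_isOpen L z w
  have hUc := s15da_U_isPreconnected L z w
  have hU0 := s15da_U_near_zero L (z := z) (w := w) hz hw
  have hUz := s15da_U_near_negz L (z := z) (w := w) hz hzw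
  have hUw := s15da_U_near_w L (z := z) (w := w) hw hzw
  have a0 := s15da_analyticOnNhd_p0 L z w
  have a1 := s15da_analyticOnNhd_p1 L z w
  have a2 := s15da_analyticOnNhd_p2 L z w
  have hnz : -z ∉ L.lattice := fun h => hz (s15da_neg_mem_iff.mp h)
  -- continuity facts
  have c1at0 : ContinuousAt (fun t => ℘[L] (z + t)) 0 :=
    ((L.analyticOnNhd_weierstrassP (z + 0) (by simpa using hz)).comp_of_eq
      (by fun_prop) rfl).continuousAt
  have c2at0 : ContinuousAt (fun t => ℘[L] (w - t)) 0 :=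
    ((L.analyticOnNhd_weierstrassP (w - 0) (by simpa using hw)).comp_of_eq
      (by fun_prop) rfl).continuousAt
  have c2atz : ContinuousAt (fun t => ℘[L] (w - t)) (-z) :=
    ((L.analyticOnNhd_weierstrassP (w - -z) (by
      rw [show w - -z = z + w by ring]; exact hzw)).comp_of_eq (by fun_prop) rfl).continuousAt
  -- the nine functions
  have w1 : ∃ t ∈ s15da_U L z w, (fun t => ℘[L] z - ℘[L] t) t ≠ 0 := by
    refine s15da_witness L hU0 ?_
    filter_upwards [s15da_pole_ne L (α := fun t => t) (g := fun _ => ℘[L] z) (t₀ := 0)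
      continuousAt_id rfl continuousAt_const] with t ht h0
    exact sub_ne_zero.mpr (Ne.symm (ht h0))
  have w2 : ∃ t ∈ s15da_U L z w, (fun t => ℘[L] t - ℘[L] (z + t)) t ≠ 0 := by
    refine s15da_witness L hU0 ?_
    filter_upwards [s15da_pole_ne L (α := fun t => t) (g := fun t => ℘[L] (z + t)) (t₀ := 0)
      continuousAt_id rfl c1at0] with t ht h0
    exact sub_ne_zero.mpr (ht h0)
  have w3 : ∃ t ∈ s15da_U L z w, (fun t => ℘[L] z - ℘[L] (z + t)) t ≠ 0 := by
    refine s15da_witness L hUz ?_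
    filter_upwards [s15da_pole_ne L (α := fun t => z + t) (g := fun _ => ℘[L] z) (t₀ := -z)
      (by fun_prop) (by ring) continuousAt_const] with t ht h0
    exact sub_ne_zero.mpr (Ne.symm (ht (fun h => h0 (by linear_combination h))))
  have w4 : ∃ t ∈ s15da_U L z w, (fun t => ℘[L] w - ℘[L] t) t ≠ 0 := by
    refine s15da_witness L hU0 ?_
    filter_upwards [s15da_pole_ne L (α := fun t => t) (g := fun _ => ℘[L] w) (t₀ := 0)
      continuousAt_id rfl continuousAt_const] with t ht h0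
    exact sub_ne_zero.mpr (Ne.symm (ht h0))
  have w5 : ∃ t ∈ s15da_U L z w, (fun t => ℘[L] t - ℘[L] (w - t)) t ≠ 0 := by
    refine s15da_witness L hU0 ?_
    filter_upwards [s15da_pole_ne L (α := fun t => t) (g := fun t => ℘[L] (w - t)) (t₀ := 0)
      continuousAt_id rfl c2at0] with t ht h0
    exact sub_ne_zero.mpr (ht h0)
  have w6 : ∃ t ∈ s15da_U L z w, (fun t => ℘[L] w - ℘[L] (w - t)) t ≠ 0 := by
    refine s15da_witness L hUw ?_
    filter_upwards [s15da_pole_ne L (α := fun t => w - t) (g := fun _ => ℘[L] w) (t₀ := w)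
      (by fun_prop) (by ring) continuousAt_const] with t ht h0
    exact sub_ne_zero.mpr (Ne.symm (ht (fun h => h0 (by linear_combination -h))))
  have w7 : ∃ t ∈ s15da_U L z w, (fun t => ℘[L] (z + t) - ℘[L] (w - t)) t ≠ 0 := by
    refine s15da_witness L hUz ?_
    filter_upwards [s15da_pole_ne L (α := fun t => z + t) (g := fun t => ℘[L] (w - t))
      (t₀ := -z) (by fun_prop) (by ring) c2atz] with t ht h0
    exact sub_ne_zero.mpr (ht (fun h => h0 (by linear_combination h)))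
  have w8 : ∃ t ∈ s15da_U L z w, (fun t => ℘[L] (w - t) - ℘[L] (z + w)) t ≠ 0 := by
    refine s15da_witness L hUw ?_
    filter_upwards [s15da_pole_ne L (α := fun t => w - t) (g := fun _ => ℘[L] (z + w)) (t₀ := w)
      (by fun_prop) (by ring) continuousAt_const] with t ht h0
    exact sub_ne_zero.mpr (ht (fun h => h0 (by linear_combination -h)))
  have w9 : ∃ t ∈ s15da_U L z w, (fun t => ℘[L] (z + t) - ℘[L] (z + w)) t ≠ 0 := by
    refine s15da_witness L hUz ?_
    filter_upwards [s15da_pole_ne L (α := fun t => z + t) (g := fun _ => ℘[L] (z + w))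
      (t₀ := -z) (by fun_prop) (by ring) continuousAt_const] with t ht h0
    exact sub_ne_zero.mpr (ht (fun h => h0 (by linear_combination h)))
  obtain ⟨t₁, ht₁, -⟩ := id w1
  obtain ⟨t, htU, ht⟩ := s15da_exists_common_ne_zero hUc ⟨t₁, ht₁⟩
    [fun t => ℘[L] z - ℘[L] t, fun t => ℘[L] t - ℘[L] (z + t), fun t => ℘[L] z - ℘[L] (z + t),
      fun t => ℘[L] w - ℘[L] t, fun t => ℘[L] t - ℘[L] (w - t), fun t => ℘[L] w - ℘[L] (w - t),
      fun t => ℘[L] (z + t) - ℘[L] (w - t), fun t => ℘[L] (w - t) - ℘[L] (z + w),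
      fun t => ℘[L] (z + t) - ℘[L] (z + w)] (by
    intro f hf
    simp only [List.mem_cons, List.not_mem_nil, or_false] at hf
    rcases hf with rfl | rfl | rfl | rfl | rfl | rfl | rfl | rfl | rfl
    · exact ⟨analyticOnNhd_const.sub a0, w1⟩
    · exact ⟨a0.sub a1, w2⟩
    · exact ⟨analyticOnNhd_const.sub a1, w3⟩
    · exact ⟨analyticOnNhd_const.sub a0, w4⟩
    · exact ⟨a0.sub a2, w5⟩
    · exact ⟨analyticOnNhd_const.sub a2, w6⟩
    · exact ⟨a1.sub a2, w7⟩
    · exact ⟨a2.sub analyticOnNhd_const, w8⟩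
    · exact ⟨a1.sub analyticOnNhd_const, w9⟩)
  refine ⟨t, htU, ?_, ?_, ?_, ?_, ?_, ?_, ?_, ?_, ?_⟩
  · exact sub_ne_zero.mp (ht (fun t => ℘[L] z - ℘[L] t) (by simp))
  · exact sub_ne_zero.mp (ht (fun t => ℘[L] t - ℘[L] (z + t)) (by simp))
  · exact sub_ne_zero.mp (ht (fun t => ℘[L] z - ℘[L] (z + t)) (by simp))
  · exact sub_ne_zero.mp (ht (fun t => ℘[L] w - ℘[L] t) (by simp))
  · exact sub_ne_zero.mp (ht (fun t => ℘[L] t - ℘[L] (w - t)) (by simp))
  · exact sub_ne_zero.mp (ht (fun t => ℘[L] w - ℘[L] (w - t)) (by simp))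
  · exact sub_ne_zero.mp (ht (fun t => ℘[L] (z + t) - ℘[L] (w - t)) (by simp))
  · exact sub_ne_zero.mp (ht (fun t => ℘[L] (w - t) - ℘[L] (z + w)) (by simp))
  · exact sub_ne_zero.mp (ht (fun t => ℘[L] (z + t) - ℘[L] (z + w)) (by simp))

end Fermat.Agent.Lib.S15
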