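/-
(M) [D-AN], part 6 (helper5, prefix `s15da_`): the Weierstrass parametrisation is a surjective
group homomorphism `ℂ →+ E_L(ℂ)` with kernel `L`.
-/
import Mathlib
import Fermat.Agent.Lib.S15.DAnGeneric

set_option autoImplicit false

open Filter Topology PeriodPair WeierstrassCurve

noncomputable section

namespace Fermat.Agent.Lib.S15

variable {L : PeriodPair} (hΔ : L.g₂ ^ 3 - 27 * L.g₃ ^ 2 ≠ 0)

/-- additivity off the lattice. -/
theorem s15da_Psi_add_of_not {z w : ℂ} (hz : z ∉ L.lattice) (hw : w ∉ L.lattice)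
    (hzw : z + w ∉ L.lattice) :
    s15da_Psi L hΔ (z + w) = s15da_Psi L hΔ z + s15da_Psi L hΔ w := by
  obtain ⟨t, ⟨ht, hzt, hwt⟩, g1, g2, g3, g4, g5, g6, g7, g8, g9⟩ :=
    s15da_exists_generic L hz hw hzw
  have hnt : -t ∉ L.lattice := fun h => ht (s15da_neg_mem_iff.mp h)
  have e1 := s15da_Psi_add_of_generic hΔ hz ht hzt g1 g2 g3
  have e2 := s15da_Psi_add_of_generic hΔ hw hnt (by rw [← sub_eq_add_neg]; exact hwt)
    (by rw [L.weierstrassP_neg]; exact g4)
    (by rw [L.weierstrassP_neg, ← sub_eq_add_neg]; exact g5)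
    (by rw [← sub_eq_add_neg]; exact g6)
  have e3 := s15da_Psi_add_of_generic hΔ hzt hwt
    (by rw [show z + t + (w - t) = z + w by ring]; exact hzw) g7
    (by rw [show z + t + (w - t) = z + w by ring]; exact g8)
    (by rw [show z + t + (w - t) = z + w by ring]; exact g9)
  rw [show z + t + (w - t) = z + w by ring] at e3
  rw [← sub_eq_add_neg] at e2
  rw [← e3, ← e1, ← e2, s15da_Psi_neg]
  abel

/-- **additivity.** -/
theorem s15da_Psi_add (z w : ℂ) :
    s15da_Psi L hΔ (z + w) = s15da_Psi L hΔ z + s15da_Psi L hΔ w := by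
  by_cases hz : z ∈ L.lattice
  · rw [add_comm z w, s15da_Psi_add_coe hΔ w hz, s15da_Psi_of_mem hΔ hz, zero_add]
  by_cases hw : w ∈ L.lattice
  · rw [s15da_Psi_add_coe hΔ z hw, s15da_Psi_of_mem hΔ hw, add_zero]
  by_cases hzw : z + w ∈ L.lattice
  · have e : s15da_Psi L hΔ w = s15da_Psi L hΔ (-z) := by
      have := s15da_Psi_add_coe hΔ (-z) hzw
      rw [show -z + (z + w) = w by ring] at this
      exact this
    rw [s15da_Psi_of_mem hΔ hzw, e, s15da_Psi_neg, add_neg_cancel]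
  exact s15da_Psi_add_of_not hΔ hz hw hzw

/-- the parametrisation as a homomorphism. -/
def s15da_PsiHom : ℂ →+ (s15da_E L).toAffine.Point where
  toFun := s15da_Psi L hΔ
  map_zero' := s15da_Psi_of_mem hΔ (zero_mem _)
  map_add' := s15da_Psi_add hΔ

@[simp] theorem s15da_PsiHom_apply (z : ℂ) : s15da_PsiHom hΔ z = s15da_Psi L hΔ z := rfl

theorem s15da_Psi_nsmul (n : ℕ) (z : ℂ) :
    s15da_Psi L hΔ ((n : ℂ) * z) = n • s15da_Psi L hΔ z := by
  have := (s15da_PsiHom hΔ).map_nsmul n z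
  simpa [nsmul_eq_mul] using this

theorem s15da_Psi_zsmul (n : ℤ) (z : ℂ) :
    s15da_Psi L hΔ ((n : ℂ) * z) = n • s15da_Psi L hΔ z := by
  have := (s15da_PsiHom hΔ).map_zsmul n z
  simpa [zsmul_eq_mul] using this

theorem s15da_Psi_eq_iff {z w : ℂ} :
    s15da_Psi L hΔ z = s15da_Psi L hΔ w ↔ z - w ∈ L.lattice := by
  rw [← s15da_Psi_eq_zero_iff hΔ, sub_eq_add_neg, s15da_Psi_add, s15da_Psi_neg, ← sub_eq_add_neg,
    sub_eq_zero]

/-! ### surjectivity -/

variable (L) in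
open Classical in
/-- `1 / (℘ - x₀)`, extended by `0` on the lattice. -/
def s15da_R (x₀ z : ℂ) : ℂ := if z ∈ L.lattice then 0 else 1 / (℘[L] z - x₀)

variable (L) in
theorem s15da_R_add_coe (x₀ z : ℂ) (l : L.lattice) :
    s15da_R L x₀ (z + l) = s15da_R L x₀ z := by
  have h1 : z + (l : ℂ) ∈ L.lattice ↔ z ∈ L.lattice :=
    L.lattice.toAddSubgroup.add_mem_cancel_right (y := z) l.2
  unfold s15da_R
  by_cases hz : z ∈ L.lattice
  · rw [if_pos hz, if_pos (h1.mpr hz)]
  · rw [if_neg hz, if_neg (fun h => hz (h1.mp h)), L.weierstrassP_add_coe z l]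

variable (L) in
theorem s15da_R_sub_coe (x₀ z : ℂ) (l : L.lattice) :
    s15da_R L x₀ (z - l) = s15da_R L x₀ z := by
  rw [← s15da_R_add_coe L x₀ (z - l) l, sub_add_cancel]

variable (L) in
theorem s15da_R_analyticAt_zero (x₀ : ℂ) : AnalyticAt ℂ (s15da_R L x₀) 0 := by
  have hE : AnalyticAt ℂ ℘[L - (0 : ℂ)] 0 := L.analyticAt_weierstrassPExcept 0
  set B : ℂ → ℂ := fun z => z ^ 2 / (1 + z ^ 2 * (℘[L - (0 : ℂ)] z - x₀)) with hB
  have hden : AnalyticAt ℂ (fun z => 1 + z ^ 2 * (℘[L - (0 : ℂ)] z - x₀)) 0 := by fun_prop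
  have hden0 : (fun z => 1 + z ^ 2 * (℘[L - (0 : ℂ)] z - x₀)) 0 ≠ 0 := by simp
  have hBa : AnalyticAt ℂ B 0 := by
    rw [hB]
    exact (by fun_prop : AnalyticAt ℂ (fun z : ℂ => z ^ 2) 0).div hden hden0
  refine hBa.congr ?_
  filter_upwards [L.compl_lattice_sdiff_singleton_mem_nhds 0,
    hden.continuousAt.eventually_ne hden0] with z h1 h2
  by_cases hz : z = 0
  · subst hz
    simp [hB, s15da_R]
  · have hzL : z ∉ L.lattice := fun hmem => h1 ⟨hmem, hz⟩
    unfold s15da_R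
    rw [if_neg hzL, hB, Fermat.Agent.Lib.RR.WP.weierstrassP_eq_except_add L z]
    simp only
    have hz2 : z ^ 2 ≠ 0 := pow_ne_zero 2 hz
    have e : ℘[L - (0 : ℂ)] z + 1 / z ^ 2 - x₀ = (1 + z ^ 2 * (℘[L - (0 : ℂ)] z - x₀)) / z ^ 2 := by
      field_simp
      ring
    rw [e, one_div, inv_div]

variable (L) in
theorem s15da_R_analyticAt {x₀ : ℂ} (h : ∀ z ∉ L.lattice, ℘[L] z ≠ x₀) (x : ℂ) :
    AnalyticAt ℂ (s15da_R L x₀) x := by
  by_cases hx : x ∈ L.lattice
  · have h0 := s15da_R_analyticAt_zero L x₀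
    have h1 : AnalyticAt ℂ (fun y => s15da_R L x₀ (y - x)) x :=
      h0.comp_of_eq (by fun_prop) (by simp)
    refine h1.congr ?_
    filter_upwards with y
    exact s15da_R_sub_coe L x₀ y ⟨x, hx⟩
  · have hP : AnalyticAt ℂ ℘[L] x := L.analyticOnNhd_weierstrassP x hx
    have h1 : AnalyticAt ℂ (fun z => 1 / (℘[L] z - x₀)) x :=
      analyticAt_const.div (hP.sub analyticAt_const) (sub_ne_zero.mpr (h x hx))
    refine h1.congr ?_
    filter_upwards [(s15da_isOpen_compl L).mem_nhds hx] with z hz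
    have hz' : z ∉ L.lattice := hz
    unfold s15da_R
    rw [if_neg hz']

variable (L) in
/-- **`℘` is surjective.** -/
theorem s15da_wp_surjective (x₀ : ℂ) : ∃ z ∉ L.lattice, ℘[L] z = x₀ := by
  by_contra hcon
  push Not at hcon
  have hd : Differentiable ℂ (s15da_R L x₀) :=
    fun x => (s15da_R_analyticAt L hcon x).differentiableAt
  have hb := IsZLattice.isCompact_range_of_periodic L.lattice _ hd.continuous
    (fun z l hl => s15da_R_add_coe L x₀ z ⟨l, hl⟩)
  obtain ⟨z, -, hz⟩ := (s15da_derivP_ne_zero_near L).exists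
  have h0 : s15da_R L x₀ z = s15da_R L x₀ 0 := hd.apply_eq_apply_of_bounded hb.isBounded z 0
  unfold s15da_R at h0
  rw [if_neg hz, if_pos (zero_mem _)] at h0
  exact one_div_ne_zero (sub_ne_zero.mpr (hcon z hz)) h0

/-- **the parametrisation is surjective.** -/
theorem s15da_Psi_surjective : Function.Surjective (s15da_Psi L hΔ) := by
  intro P
  rcases P with _ | ⟨x, y, h⟩
  · exact ⟨0, s15da_Psi_of_mem hΔ (zero_mem _)⟩
  · obtain ⟨z, hz, hx⟩ := s15da_wp_surjective L x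
    subst hx
    rcases Affine.Y_eq_of_X_eq h.1 (s15da_equation L hz) rfl with h1 | h1
    · refine ⟨z, ?_⟩
      rw [s15da_Psi_of_not hΔ hz]
      congr 1
      exact h1.symm
    · refine ⟨-z, ?_⟩
      rw [s15da_Psi_neg, s15da_Psi_of_not hΔ hz, Affine.Point.neg_some]
      congr 1
      exact h1.symm

end Fermat.Agent.Lib.S15
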