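/-
(M) [D-AN], part 8 (helper5, prefix `s15da_`): the product formula for a cyclic overlattice.
`L ⊂ L'`, `L' = L + ℤ z₀`, `p z₀ ∈ L`:
`(℘_{L'}(z) - ℘_{L'}(w)) · Π_{0<k<p} (℘_L(k z₀) - ℘_L(w)) = Π_{k<p} (℘_L(z + k z₀) - ℘_L(w))`.
-/
import Mathlib
import Fermat.Agent.Lib.S15.DAnGroup

set_option autoImplicit false

open Filter Topology PeriodPair

noncomputable section

namespace Fermat.Agent.Lib.S15

/-- `L' = L + ℤ z₀` with `z₀` of exact order `m + 1` modulo `L`. -/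
structure s15da_Cyc (L L' : PeriodPair) (m : ℕ) (z₀ : ℂ) : Prop where
  le : L.lattice ≤ L'.lattice
  mem : z₀ ∈ L'.lattice
  top : ((m + 1 : ℕ) : ℂ) * z₀ ∈ L.lattice
  gen : ∀ l' ∈ L'.lattice, ∃ k : ℕ, l' - (k : ℂ) * z₀ ∈ L.lattice
  ord : ∀ k : ℕ, 0 < k → k < m + 1 → (k : ℂ) * z₀ ∉ L.lattice

/-- a cyclic shift of a periodic product. -/
theorem s15da_prod_shift {M : Type*} [CommMonoid M] (f : ℕ → M) (m : ℕ) (h : f (m + 1) = f 0) :
    ∏ k ∈ Finset.range (m + 1), f (k + 1) = ∏ k ∈ Finset.range (m + 1), f k := by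
  rw [Finset.prod_range_succ, h, Finset.prod_range_succ']

variable {L L' : PeriodPair} {m : ℕ} {z₀ : ℂ}

theorem s15da_Cyc.natMul_mem (hC : s15da_Cyc L L' m z₀) (k : ℕ) : (k : ℂ) * z₀ ∈ L'.lattice := by
  have := L'.lattice.smul_mem (k : ℤ) hC.mem
  simpa [zsmul_eq_mul] using this

theorem s15da_Cyc.add_not_mem (hC : s15da_Cyc L L' m z₀) {z : ℂ} (hz : z ∉ L'.lattice) (k : ℕ) :
    z + (k : ℂ) * z₀ ∉ L.lattice := by
  intro h
  apply hz
  have h1 := hC.le h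
  have h2 := L'.lattice.sub_mem h1 (hC.natMul_mem k)
  simpa using h2

variable (L) in
/-- the full product. -/
def s15da_Gw (m : ℕ) (z₀ w z : ℂ) : ℂ :=
  ∏ k ∈ Finset.range (m + 1), (℘[L] (z + (k : ℂ) * z₀) - ℘[L] w)

variable (L) in
/-- the product without the factor `k = 0`. -/
def s15da_Hw (m : ℕ) (z₀ w z : ℂ) : ℂ :=
  ∏ k ∈ Finset.range m, (℘[L] (z + ((k + 1 : ℕ) : ℂ) * z₀) - ℘[L] w)

theorem s15da_Gw_eq (w z : ℂ) :
    s15da_Gw L m z₀ w z = (℘[L] z - ℘[L] w) * s15da_Hw L m z₀ w z := by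
  unfold s15da_Gw s15da_Hw
  rw [Finset.prod_range_succ', mul_comm]
  simp

theorem s15da_Gw_add_coe (w z : ℂ) (l : L.lattice) :
    s15da_Gw L m z₀ w (z + l) = s15da_Gw L m z₀ w z := by
  unfold s15da_Gw
  refine Finset.prod_congr rfl fun k _ => ?_
  rw [show z + (l : ℂ) + (k : ℂ) * z₀ = z + (k : ℂ) * z₀ + l by ring, L.weierstrassP_add_coe]

theorem s15da_Gw_add_z₀ (hC : s15da_Cyc L L' m z₀) (w z : ℂ) :
    s15da_Gw L m z₀ w (z + z₀) = s15da_Gw L m z₀ w z := by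
  unfold s15da_Gw
  have hper : ℘[L] (z + ((m + 1 : ℕ) : ℂ) * z₀) = ℘[L] z :=
    L.weierstrassP_add_coe z ⟨_, hC.top⟩
  have h := s15da_prod_shift (fun k : ℕ => ℘[L] (z + (k : ℂ) * z₀) - ℘[L] w) m (by
    show ℘[L] (z + ((m + 1 : ℕ) : ℂ) * z₀) - ℘[L] w = ℘[L] (z + ((0 : ℕ) : ℂ) * z₀) - ℘[L] w
    rw [hper]
    simp)
  rw [← h]
  refine Finset.prod_congr rfl fun k _ => ?_
  congr 2
  push_cast
  ring

theorem s15da_Gw_add_natMul (hC : s15da_Cyc L L' m z₀) (w z : ℂ) (k : ℕ) :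
    s15da_Gw L m z₀ w (z + (k : ℂ) * z₀) = s15da_Gw L m z₀ w z := by
  induction k with
  | zero => simp
  | succ k ih =>
    rw [show z + ((k + 1 : ℕ) : ℂ) * z₀ = z + (k : ℂ) * z₀ + z₀ by push_cast; ring,
      s15da_Gw_add_z₀ hC, ih]

/-- `G_w` is `L'`-periodic. -/
theorem s15da_Gw_add_coe' (hC : s15da_Cyc L L' m z₀) (w z : ℂ) (l' : L'.lattice) :
    s15da_Gw L m z₀ w (z + l') = s15da_Gw L m z₀ w z := by
  obtain ⟨k, hk⟩ := hC.gen l' l'.2
  have e : z + (l' : ℂ) = z + (k : ℂ) * z₀ + ((l' : ℂ) - (k : ℂ) * z₀) := by ring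
  rw [e, s15da_Gw_add_coe w _ ⟨_, hk⟩, s15da_Gw_add_natMul hC]

/-- `H_w` is even. -/
theorem s15da_Hw_neg (hC : s15da_Cyc L L' m z₀) (w z : ℂ) :
    s15da_Hw L m z₀ w (-z) = s15da_Hw L m z₀ w z := by
  unfold s15da_Hw
  rw [← Finset.prod_range_reflect]
  refine Finset.prod_congr rfl fun k hk => ?_
  have hk' : k < m := Finset.mem_range.mp hk
  congr 1
  have e : -z + ((m - 1 - k + 1 : ℕ) : ℂ) * z₀ =
      -(z + ((k + 1 : ℕ) : ℂ) * z₀) + ((m + 1 : ℕ) : ℂ) * z₀ := by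
    have : m - 1 - k + 1 = m - k := by omega
    rw [this, Nat.cast_sub hk'.le]
    push_cast
    ring
  rw [e]
  have hper : ℘[L] (-(z + ((k + 1 : ℕ) : ℂ) * z₀) + ((m + 1 : ℕ) : ℂ) * z₀) =
      ℘[L] (-(z + ((k + 1 : ℕ) : ℂ) * z₀)) :=
    L.weierstrassP_add_coe (-(z + ((k + 1 : ℕ) : ℂ) * z₀)) ⟨_, hC.top⟩
  rw [hper, L.weierstrassP_neg]

theorem s15da_Hw_analyticAt (w : ℂ) {z : ℂ}
    (hz : ∀ k : ℕ, k < m → z + ((k + 1 : ℕ) : ℂ) * z₀ ∉ L.lattice) :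
    AnalyticAt ℂ (s15da_Hw L m z₀ w) z := by
  unfold s15da_Hw
  have : (fun z => ∏ k ∈ Finset.range m, (℘[L] (z + ((k + 1 : ℕ) : ℂ) * z₀) - ℘[L] w)) =
      ∏ k ∈ Finset.range m, fun z => (℘[L] (z + ((k + 1 : ℕ) : ℂ) * z₀) - ℘[L] w) := by
    funext z; rw [Finset.prod_apply]
  rw [this]
  refine Finset.analyticAt_prod _ fun k hk => ?_
  have hk' : k < m := Finset.mem_range.mp hk
  have h1 : AnalyticAt ℂ (fun z => ℘[L] (z + ((k + 1 : ℕ) : ℂ) * z₀)) z :=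
    (L.analyticOnNhd_weierstrassP _ (hz k hk')).comp_of_eq (by fun_prop) rfl
  exact h1.sub analyticAt_const

theorem s15da_Hw_analyticAt_zero (hC : s15da_Cyc L L' m z₀) (w : ℂ) :
    AnalyticAt ℂ (s15da_Hw L m z₀ w) 0 := by
  refine s15da_Hw_analyticAt w fun k hk => ?_
  rw [zero_add]
  exact hC.ord (k + 1) (by omega) (by omega)

theorem s15da_Gw_analyticAt (hC : s15da_Cyc L L' m z₀) (w : ℂ) {z : ℂ} (hz : z ∉ L'.lattice) :
    AnalyticAt ℂ (s15da_Gw L m z₀ w) z := by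
  have e : s15da_Gw L m z₀ w = fun z => (℘[L] z - ℘[L] w) * s15da_Hw L m z₀ w z := by
    funext z; exact s15da_Gw_eq w z
  rw [e]
  have hzL : z ∉ L.lattice := fun h => hz (hC.le h)
  refine ((L.analyticOnNhd_weierstrassP z hzL).sub analyticAt_const).mul
    (s15da_Hw_analyticAt w fun k _ => hC.add_not_mem hz _)

/-- an even function differentiable at `0` has vanishing derivative there. -/
theorem s15da_deriv_even {f : ℂ → ℂ} (hf : ∀ z, f (-z) = f z) : deriv f 0 = 0 := by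
  have h1 : deriv (fun z => f (-z)) 0 = -deriv f (-0) := deriv_comp_neg f 0
  have h2 : (fun z => f (-z)) = f := funext hf
  rw [h2, neg_zero] at h1
  have : (2 : ℂ) * deriv f 0 = 0 := by linear_combination h1
  simpa using this

/-- the analytic model of `z² (G_w - D_w F_w)` near `0`. -/
def s15da_Bw (L L' : PeriodPair) (m : ℕ) (z₀ w z : ℂ) : ℂ :=
  (1 + z ^ 2 * (℘[L - (0 : ℂ)] z - ℘[L] w)) * s15da_Hw L m z₀ w z -
    s15da_Hw L m z₀ w 0 * (1 + z ^ 2 * (℘[L' - (0 : ℂ)] z - ℘[L'] w))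

theorem s15da_Bw_zero (w : ℂ) : s15da_Bw L L' m z₀ w 0 = 0 := by
  unfold s15da_Bw
  simp

theorem s15da_Bw_neg (hC : s15da_Cyc L L' m z₀) (w z : ℂ) :
    s15da_Bw L L' m z₀ w (-z) = s15da_Bw L L' m z₀ w z := by
  unfold s15da_Bw
  rw [s15da_Hw_neg hC, L.weierstrassPExcept_neg, L'.weierstrassPExcept_neg, neg_zero, neg_sq]

theorem s15da_Bw_analyticAt (hC : s15da_Cyc L L' m z₀) (w : ℂ) :
    AnalyticAt ℂ (s15da_Bw L L' m z₀ w) 0 := by
  have h1 : AnalyticAt ℂ ℘[L - (0 : ℂ)] 0 := L.analyticAt_weierstrassPExcept 0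
  have h2 : AnalyticAt ℂ ℘[L' - (0 : ℂ)] 0 := L'.analyticAt_weierstrassPExcept 0
  have h3 := s15da_Hw_analyticAt_zero hC w
  unfold s15da_Bw
  fun_prop

theorem s15da_Bw_eq (w : ℂ) {z : ℂ} (hz : z ≠ 0) :
    s15da_Bw L L' m z₀ w z =
      z ^ 2 * (s15da_Gw L m z₀ w z - s15da_Hw L m z₀ w 0 * (℘[L'] z - ℘[L'] w)) := by
  unfold s15da_Bw
  rw [s15da_Gw_eq, Fermat.Agent.Lib.RR.WP.weierstrassP_eq_except_add L z,
    Fermat.Agent.Lib.RR.WP.weierstrassP_eq_except_add L' z]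
  field_simp
  ring

open Classical in
/-- the elliptic function `G_w - D_w (℘_{L'} - ℘_{L'}(w))`, extended over `L'`. -/
def s15da_Aw (L L' : PeriodPair) (m : ℕ) (z₀ w z : ℂ) : ℂ :=
  if z ∈ L'.lattice then dslope (dslope (s15da_Bw L L' m z₀ w) 0) 0 0
  else s15da_Gw L m z₀ w z - s15da_Hw L m z₀ w 0 * (℘[L'] z - ℘[L'] w)

theorem s15da_Aw_add_coe (hC : s15da_Cyc L L' m z₀) (w z : ℂ) (l' : L'.lattice) :
    s15da_Aw L L' m z₀ w (z + l') = s15da_Aw L L' m z₀ w z := by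
  have h1 : z + (l' : ℂ) ∈ L'.lattice ↔ z ∈ L'.lattice :=
    L'.lattice.toAddSubgroup.add_mem_cancel_right (y := z) l'.2
  unfold s15da_Aw
  by_cases hz : z ∈ L'.lattice
  · rw [if_pos hz, if_pos (h1.mpr hz)]
  · rw [if_neg hz, if_neg (fun h => hz (h1.mp h)), s15da_Gw_add_coe' hC, L'.weierstrassP_add_coe]

theorem s15da_Aw_sub_coe (hC : s15da_Cyc L L' m z₀) (w z : ℂ) (l' : L'.lattice) :
    s15da_Aw L L' m z₀ w (z - l') = s15da_Aw L L' m z₀ w z := by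
  rw [← s15da_Aw_add_coe hC w (z - l') l', sub_add_cancel]

theorem s15da_Aw_analyticAt_zero (hC : s15da_Cyc L L' m z₀) (w : ℂ) :
    AnalyticAt ℂ (s15da_Aw L L' m z₀ w) 0 := by
  have hB := s15da_Bw_analyticAt hC w
  have hB1 : AnalyticAt ℂ (dslope (s15da_Bw L L' m z₀ w) 0) 0 := by
    obtain ⟨q, hq⟩ := hB
    exact ⟨_, hq.has_fpower_series_dslope_fslope⟩
  have hB2 : AnalyticAt ℂ (dslope (dslope (s15da_Bw L L' m z₀ w) 0) 0) 0 := by
    obtain ⟨q, hq⟩ := hB1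
    exact ⟨_, hq.has_fpower_series_dslope_fslope⟩
  refine hB2.congr ?_
  filter_upwards [L'.compl_lattice_sdiff_singleton_mem_nhds 0] with z h1
  by_cases hz : z = 0
  · subst hz
    unfold s15da_Aw
    rw [if_pos (zero_mem _)]
  · have hzL : z ∉ L'.lattice := fun hmem => h1 ⟨hmem, hz⟩
    unfold s15da_Aw
    rw [if_neg hzL]
    have hd : deriv (s15da_Bw L L' m z₀ w) 0 = 0 := s15da_deriv_even (s15da_Bw_neg hC w)
    rw [dslope_of_ne _ hz, slope_def_field, dslope_of_ne _ hz, slope_def_field, dslope_same, hd,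
      s15da_Bw_zero, s15da_Bw_eq w hz]
    field_simp
    ring

theorem s15da_Aw_analyticAt (hC : s15da_Cyc L L' m z₀) (w x : ℂ) :
    AnalyticAt ℂ (s15da_Aw L L' m z₀ w) x := by
  by_cases hx : x ∈ L'.lattice
  · have h0 := s15da_Aw_analyticAt_zero hC w
    have h1 : AnalyticAt ℂ (fun y => s15da_Aw L L' m z₀ w (y - x)) x :=
      h0.comp_of_eq (by fun_prop) (by simp)
    refine h1.congr ?_
    filter_upwards with y
    exact s15da_Aw_sub_coe hC w y ⟨x, hx⟩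
  · have h1 : AnalyticAt ℂ (fun z => s15da_Gw L m z₀ w z -
        s15da_Hw L m z₀ w 0 * (℘[L'] z - ℘[L'] w)) x :=
      (s15da_Gw_analyticAt hC w hx).sub
        (analyticAt_const.mul ((L'.analyticOnNhd_weierstrassP x hx).sub analyticAt_const))
    refine h1.congr ?_
    filter_upwards [(s15da_isOpen_compl L').mem_nhds hx] with z hz
    have hz' : z ∉ L'.lattice := hz
    unfold s15da_Aw
    rw [if_neg hz']

/-- **the product formula.** -/
theorem s15da_prod_formula (hC : s15da_Cyc L L' m z₀) {w z : ℂ} (hw : w ∉ L'.lattice)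
    (hz : z ∉ L'.lattice) :
    s15da_Hw L m z₀ w 0 * (℘[L'] z - ℘[L'] w) = s15da_Gw L m z₀ w z := by
  have hd : Differentiable ℂ (s15da_Aw L L' m z₀ w) :=
    fun x => (s15da_Aw_analyticAt hC w x).differentiableAt
  have hb := IsZLattice.isCompact_range_of_periodic L'.lattice _ hd.continuous
    (fun z l hl => s15da_Aw_add_coe hC w z ⟨l, hl⟩)
  have h0 : s15da_Aw L L' m z₀ w z = s15da_Aw L L' m z₀ w w :=
    hd.apply_eq_apply_of_bounded hb.isBounded z w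
  unfold s15da_Aw at h0
  rw [if_neg hz, if_neg hw, sub_self, mul_zero, s15da_Gw_eq w w, sub_self, zero_mul, sub_zero]
    at h0
  exact (sub_eq_zero.mp h0).symm

end Fermat.Agent.Lib.S15
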