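/-
(M) [D-AN], part 9 (helper5, prefix `s15da_`): half-periods.  `℘'` vanishes at half-periods, the
three half-period values are the roots of `4x³ - g₂x - g₃`, `Δ = 16 Π (eᵢ - eⱼ)²`, the
translation formula, and the discriminant of a cyclic overlattice.
-/
import Mathlib
import Fermat.Agent.Lib.S15.DAnProd

set_option autoImplicit false

open Filter Topology PeriodPair WeierstrassCurve

noncomputable section

namespace Fermat.Agent.Lib.S15

section one

variable {L : PeriodPair}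

/-- `℘'` vanishes at half-periods. -/
theorem s15da_derivP_half {h : ℂ} (h2 : 2 * h ∈ L.lattice) : ℘'[L] h = 0 := by
  have e : ℘'[L] (-h + 2 * h) = ℘'[L] (-h) := L.derivWeierstrassP_add_coe (-h) ⟨_, h2⟩
  rw [show -h + 2 * h = h by ring, L.derivWeierstrassP_neg] at e
  have : (2 : ℂ) * ℘'[L] h = 0 := by linear_combination e
  simpa using this

/-- a half-period value is a root of the cubic. -/
theorem s15da_cubic_half {h : ℂ} (hh : h ∉ L.lattice) (h2 : 2 * h ∈ L.lattice) :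
    4 * ℘[L] h ^ 3 - L.g₂ * ℘[L] h - L.g₃ = 0 := by
  have := L.derivWeierstrassP_sq h hh
  rw [s15da_derivP_half h2] at this
  linear_combination -this

variable (hΔ : L.g₂ ^ 3 - 27 * L.g₃ ^ 2 ≠ 0)

include hΔ in
/-- equal `℘`-values: congruent up to sign. -/
theorem s15da_wp_eq_imp {z w : ℂ} (hz : z ∉ L.lattice) (hw : w ∉ L.lattice)
    (h : ℘[L] z = ℘[L] w) : z - w ∈ L.lattice ∨ z + w ∈ L.lattice := by
  rcases s15da_Psi_eq_or_neg hΔ hz hw h with h1 | h1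
  · left; exact (s15da_Psi_eq_iff hΔ).mp h1
  · right
    rw [← s15da_Psi_neg] at h1
    have := (s15da_Psi_eq_iff hΔ).mp h1
    simpa using this

/-- Vieta from three distinct roots. -/
theorem s15da_vieta {g2 g3 e1 e2 e3 : ℂ} (h12 : e1 ≠ e2) (h13 : e1 ≠ e3) (h23 : e2 ≠ e3)
    (r1 : 4 * e1 ^ 3 - g2 * e1 - g3 = 0) (r2 : 4 * e2 ^ 3 - g2 * e2 - g3 = 0)
    (r3 : 4 * e3 ^ 3 - g2 * e3 - g3 = 0) :
    e1 + e2 + e3 = 0 ∧ g2 = -4 * (e1 * e2 + e1 * e3 + e2 * e3) ∧ g3 = 4 * e1 * e2 * e3 := by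
  have d12 : e1 - e2 ≠ 0 := sub_ne_zero.mpr h12
  have d13 : e1 - e3 ≠ 0 := sub_ne_zero.mpr h13
  have d23 : e2 - e3 ≠ 0 := sub_ne_zero.mpr h23
  have a1 : 4 * (e1 ^ 2 + e1 * e2 + e2 ^ 2) - g2 = 0 := by
    apply mul_left_cancel₀ d12
    linear_combination r1 - r2
  have a2 : 4 * (e1 ^ 2 + e1 * e3 + e3 ^ 2) - g2 = 0 := by
    apply mul_left_cancel₀ d13
    linear_combination r1 - r3
  have s : e1 + e2 + e3 = 0 := by
    apply mul_left_cancel₀ d23
    linear_combination (1 / 4 : ℂ) * (a1 - a2)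
  have e3' : e3 = -e1 - e2 := by linear_combination s
  refine ⟨s, ?_, ?_⟩
  · rw [e3']; linear_combination -a1
  · rw [e3']; linear_combination -r1 + e1 * a1

/-- the discriminant from Vieta. -/
theorem s15da_disc_of_vieta {g2 g3 e1 e2 e3 : ℂ} (s : e1 + e2 + e3 = 0)
    (h2 : g2 = -4 * (e1 * e2 + e1 * e3 + e2 * e3)) (h3 : g3 = 4 * e1 * e2 * e3) :
    g2 ^ 3 - 27 * g3 ^ 2 = 16 * ((e1 - e2) * (e1 - e3) * (e2 - e3)) ^ 2 := by
  have e3' : e3 = -e1 - e2 := by linear_combination s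
  rw [h2, h3, e3']
  ring

include hΔ in
/-- **the translation formula** at a half-period `h` with `℘ h = e_j`:
`(℘(u + h) - e_i)(℘ u - e_j) = (e_j - e_i)(℘ u - e_l)`. -/
theorem s15da_translate {h u ei ej el : ℂ} (hh : h ∉ L.lattice) (h2 : 2 * h ∈ L.lattice)
    (hu : u ∉ L.lattice) (huh : u + h ∉ L.lattice) (hej : ℘[L] h = ej)
    (s : ei + ej + el = 0) (hg2 : L.g₂ = -4 * (ei * ej + ei * el + ej * el))
    (hg3 : L.g₃ = 4 * ei * ej * el) :
    (℘[L] (u + h) - ei) * (℘[L] u - ej) = (ej - ei) * (℘[L] u - el) := by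
  have hne : ℘[L] u ≠ ej := by
    intro he
    rw [← hej] at he
    rcases s15da_wp_eq_imp hΔ hu hh he with h1 | h1
    · apply huh
      have := L.lattice.add_mem h1 h2
      rw [show u - h + 2 * h = u + h by ring] at this
      exact this
    · exact huh h1
  have hd : ℘[L] u - ej ≠ 0 := sub_ne_zero.mpr hne
  have hp := s15da_add_poly L hh hu huh
  rw [s15da_derivP_half h2, hej, sub_zero, L.derivWeierstrassP_sq u hu, hg2, hg3] at hp
  have el' : el = -ei - ej := by linear_combination s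
  apply mul_left_cancel₀ hd
  rw [el'] at hp ⊢
  linear_combination hp

end one

/-! ### the discriminant of a cyclic overlattice -/

section two

variable {L L' : PeriodPair} {m : ℕ} {z₀ : ℂ} (hΔ : L.g₂ ^ 3 - 27 * L.g₃ ^ 2 ≠ 0)

/-- `P_e = Π_{0<k≤m} (℘(k z₀) - e)`. -/
def s15da_Pe (L : PeriodPair) (m : ℕ) (z₀ e : ℂ) : ℂ :=
  ∏ k ∈ Finset.range m, (℘[L] (((k + 1 : ℕ) : ℂ) * z₀) - e)

theorem s15da_Hw_zero (w : ℂ) : s15da_Hw L m z₀ w 0 = s15da_Pe L m z₀ (℘[L] w) := by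
  unfold s15da_Hw s15da_Pe
  simp

include hΔ in
/-- the key relation `(e_j' - e_i') P_i P_j = (e_j - e_i)^{m+1} P_l`. -/
theorem s15da_half_relation (hC : s15da_Cyc L L' m z₀) {hi hj ei ej el : ℂ}
    (hhi : hi ∉ L'.lattice) (hhj : hj ∉ L'.lattice) (h2j : 2 * hj ∈ L.lattice)
    (hei : ℘[L] hi = ei) (hej : ℘[L] hj = ej)
    (s : ei + ej + el = 0) (hg2 : L.g₂ = -4 * (ei * ej + ei * el + ej * el))
    (hg3 : L.g₃ = 4 * ei * ej * el) :
    (℘[L'] hj - ℘[L'] hi) * (s15da_Pe L m z₀ ei * s15da_Pe L m z₀ ej) =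
      (ej - ei) ^ (m + 1) * s15da_Pe L m z₀ el := by
  have pf := s15da_prod_formula hC hhi hhj
  rw [s15da_Hw_zero, hei, s15da_Gw_eq, s15da_Hw, hei, hej] at pf
  have hjL : hj ∉ L.lattice := fun h => hhj (hC.le h)
  have key : (∏ k ∈ Finset.range m, (℘[L] (hj + ((k + 1 : ℕ) : ℂ) * z₀) - ei)) *
      s15da_Pe L m z₀ ej = (ej - ei) ^ m * s15da_Pe L m z₀ el := by
    unfold s15da_Pe
    rw [← Finset.prod_mul_distrib]
    have : ∀ k ∈ Finset.range m, (℘[L] (hj + ((k + 1 : ℕ) : ℂ) * z₀) - ei) *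
        (℘[L] (((k + 1 : ℕ) : ℂ) * z₀) - ej) =
          (ej - ei) * (℘[L] (((k + 1 : ℕ) : ℂ) * z₀) - el) := by
      intro k hk
      have hk' : k < m := Finset.mem_range.mp hk
      have hu : ((k + 1 : ℕ) : ℂ) * z₀ ∉ L.lattice := hC.ord (k + 1) (by omega) (by omega)
      have huh : ((k + 1 : ℕ) : ℂ) * z₀ + hj ∉ L.lattice := by
        rw [add_comm]; exact hC.add_not_mem hhj _
      have := s15da_translate hΔ hjL h2j hu huh hej s hg2 hg3
      rw [add_comm] at this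
      exact this
    rw [Finset.prod_congr rfl this, Finset.prod_mul_distrib, Finset.prod_const, Finset.card_range]
  linear_combination (s15da_Pe L m z₀ ej) * pf + (ej - ei) * key

include hΔ in
theorem s15da_Pe_ne_zero (hC : s15da_Cyc L L' m z₀) {h : ℂ} (hh : h ∉ L'.lattice) :
    s15da_Pe L m z₀ (℘[L] h) ≠ 0 := by
  unfold s15da_Pe
  rw [Finset.prod_ne_zero_iff]
  intro k hk
  have hk' : k < m := Finset.mem_range.mp hk
  have hu : ((k + 1 : ℕ) : ℂ) * z₀ ∉ L.lattice := hC.ord (k + 1) (by omega) (by omega)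
  have hhL : h ∉ L.lattice := fun h' => hh (hC.le h')
  intro h0
  rcases s15da_wp_eq_imp hΔ hu hhL (sub_eq_zero.mp h0) with h1 | h1
  · apply hh
    have := L'.lattice.sub_mem (hC.natMul_mem (k + 1)) (hC.le h1)
    simpa using this
  · apply hh
    have := L'.lattice.sub_mem (hC.le h1) (hC.natMul_mem (k + 1))
    simpa using this

include hΔ in
/-- **the discriminant of a cyclic overlattice**:
`Δ(L') · Π_{0<k≤m} ℘'(k z₀)⁴ = Δ(L)^{m+1}`. -/
theorem s15da_disc_overlattice (hC : s15da_Cyc L L' m z₀) {h1 h2 h3 : ℂ}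
    (n1 : h1 ∉ L'.lattice) (n2 : h2 ∉ L'.lattice) (n3 : h3 ∉ L'.lattice)
    (t1 : 2 * h1 ∈ L.lattice) (t2 : 2 * h2 ∈ L.lattice) (t3 : 2 * h3 ∈ L.lattice)
    (d12 : h1 - h2 ∉ L.lattice) (d13 : h1 - h3 ∉ L.lattice) (d23 : h2 - h3 ∉ L.lattice) :
    (L'.g₂ ^ 3 - 27 * L'.g₃ ^ 2) *
        ∏ k ∈ Finset.range m, ℘'[L] (((k + 1 : ℕ) : ℂ) * z₀) ^ 4 =
      (L.g₂ ^ 3 - 27 * L.g₃ ^ 2) ^ (m + 1) := by
  have m1 : h1 ∉ L.lattice := fun h => n1 (hC.le h)
  have m2 : h2 ∉ L.lattice := fun h => n2 (hC.le h)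
  have m3 : h3 ∉ L.lattice := fun h => n3 (hC.le h)
  -- distinctness for `L`
  have dist : ∀ {a b : ℂ}, a ∉ L.lattice → b ∉ L.lattice → 2 * b ∈ L.lattice →
      a - b ∉ L.lattice → ℘[L] a ≠ ℘[L] b := by
    intro a b ha hb tb hab he
    rcases s15da_wp_eq_imp hΔ ha hb he with h | h
    · exact hab h
    · apply hab
      have := L.lattice.sub_mem h tb
      rw [show a + b - 2 * b = a - b by ring] at this
      exact this
  have e12 := dist m1 m2 t2 d12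
  have e13 := dist m1 m3 t3 d13
  have e23 := dist m2 m3 t3 d23
  obtain ⟨s, hg2, hg3⟩ := s15da_vieta e12 e13 e23 (s15da_cubic_half m1 t1)
    (s15da_cubic_half m2 t2) (s15da_cubic_half m3 t3)
  set e1 := ℘[L] h1 with he1
  set e2 := ℘[L] h2 with he2
  set e3 := ℘[L] h3 with he3
  -- the three relations
  have r12 := s15da_half_relation hΔ hC n1 n2 t2 he1.symm he2.symm s hg2 hg3
  have r13 := s15da_half_relation hΔ hC (el := e2) n1 n3 t3 he1.symm he3.symm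
    (by linear_combination s) (by rw [hg2]; ring) (by rw [hg3]; ring)
  have r23 := s15da_half_relation hΔ hC (el := e1) n2 n3 t3 he2.symm he3.symm
    (by linear_combination s) (by rw [hg2]; ring) (by rw [hg3]; ring)
  have p1 : s15da_Pe L m z₀ e1 ≠ 0 := s15da_Pe_ne_zero hΔ hC n1
  have p2 : s15da_Pe L m z₀ e2 ≠ 0 := s15da_Pe_ne_zero hΔ hC n2
  have p3 : s15da_Pe L m z₀ e3 ≠ 0 := s15da_Pe_ne_zero hΔ hC n3
  -- distinctness for `L'`
  have f12 : ℘[L'] h1 ≠ ℘[L'] h2 := by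
    intro h
    rw [h, sub_self, zero_mul] at r12
    exact mul_ne_zero (pow_ne_zero _ (sub_ne_zero.mpr e12.symm)) p3 r12.symm
  have f13 : ℘[L'] h1 ≠ ℘[L'] h3 := by
    intro h
    rw [h, sub_self, zero_mul] at r13
    exact mul_ne_zero (pow_ne_zero _ (sub_ne_zero.mpr e13.symm)) p2 r13.symm
  have f23 : ℘[L'] h2 ≠ ℘[L'] h3 := by
    intro h
    rw [h, sub_self, zero_mul] at r23
    exact mul_ne_zero (pow_ne_zero _ (sub_ne_zero.mpr e23.symm)) p1 r23.symm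
  obtain ⟨s', hg2', hg3'⟩ := s15da_vieta f12 f13 f23 (s15da_cubic_half n1 (hC.le t1))
    (s15da_cubic_half n2 (hC.le t2)) (s15da_cubic_half n3 (hC.le t3))
  rw [s15da_disc_of_vieta s hg2 hg3, s15da_disc_of_vieta s' hg2' hg3']
  -- `℘'(k z₀)² = 4 Π (x_k - e_i)`
  have hpsi : ∏ k ∈ Finset.range m, ℘'[L] (((k + 1 : ℕ) : ℂ) * z₀) ^ 4 =
      (4 ^ m * (s15da_Pe L m z₀ e1 * s15da_Pe L m z₀ e2 * s15da_Pe L m z₀ e3)) ^ 2 := by
    have h4 : (4 : ℂ) ^ m = ∏ _k ∈ Finset.range m, (4 : ℂ) := by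
      rw [Finset.prod_const, Finset.card_range]
    rw [h4]
    unfold s15da_Pe
    rw [← Finset.prod_mul_distrib, ← Finset.prod_mul_distrib, ← Finset.prod_mul_distrib,
      ← Finset.prod_pow]
    refine Finset.prod_congr rfl fun k hk => ?_
    have hk' : k < m := Finset.mem_range.mp hk
    have hu : ((k + 1 : ℕ) : ℂ) * z₀ ∉ L.lattice := hC.ord (k + 1) (by omega) (by omega)
    have := L.derivWeierstrassP_sq _ hu
    have e3' : e3 = -e1 - e2 := by linear_combination s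
    rw [show ℘'[L] (((k + 1 : ℕ) : ℂ) * z₀) ^ 4 = (℘'[L] (((k + 1 : ℕ) : ℂ) * z₀) ^ 2) ^ 2 by ring,
      this, hg2, hg3, e3']
    ring
  rw [hpsi]
  set T := s15da_Pe L m z₀ e1 * s15da_Pe L m z₀ e2 * s15da_Pe L m z₀ e3 with hT
  have hT0 : T ≠ 0 := mul_ne_zero (mul_ne_zero p1 p2) p3
  set D' := (℘[L'] h1 - ℘[L'] h2) * (℘[L'] h1 - ℘[L'] h3) * (℘[L'] h2 - ℘[L'] h3) with hD'
  set D := (e1 - e2) * (e1 - e3) * (e2 - e3) with hD
  have prod3 : -D' * T ^ 2 = (-D) ^ (m + 1) * T := by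
    have : (-D) ^ (m + 1) = (e2 - e1) ^ (m + 1) * (e3 - e1) ^ (m + 1) * (e3 - e2) ^ (m + 1) := by
      rw [← mul_pow, ← mul_pow, hD]; congr 1; ring
    rw [this, hD', hT]
    have h := congr(($r12) * ($r13) * ($r23))
    linear_combination h
  have key : -D' * T = (-D) ^ (m + 1) := by
    apply mul_right_cancel₀ hT0
    linear_combination prod3
  have key2 : D' ^ 2 * T ^ 2 = (D ^ 2) ^ (m + 1) := by
    have : (D ^ 2) ^ (m + 1) = ((-D) ^ (m + 1)) ^ 2 := by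
      rw [pow_right_comm (-D), neg_sq]
    rw [this, ← key]
    ring
  calc 16 * D' ^ 2 * (4 ^ m * T) ^ 2 = 16 * (4 ^ m) ^ 2 * (D' ^ 2 * T ^ 2) := by ring
    _ = 16 * (4 ^ m) ^ 2 * (D ^ 2) ^ (m + 1) := by rw [key2]
    _ = (16 * D ^ 2) ^ (m + 1) := by
      have h16 : (16 : ℂ) * (4 ^ m) ^ 2 = 16 ^ (m + 1) := by
        rw [pow_right_comm, pow_succ]
        norm_num
        ring
      rw [h16, ← mul_pow]

end two

end Fermat.Agent.Lib.S15
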