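/-
(M) [D-AN], part 10 (helper5, prefix `s15da_`): lattice sums of a cyclic overlattice.
`G_n(L') = G_n(L) + Σ_{0<k≤m} Σ_{l ∈ L} (l + k z₀)⁻ⁿ`, hence
`g₂(L') = g₂(L) + 10 Σ ℘''(k z₀)`, `g₃(L') = g₃(L) + (7/6) Σ ℘''''(k z₀)`.
-/
import Mathlib
import Fermat.Agent.Lib.S15.DAnProd

set_option autoImplicit false

open Filter Topology PeriodPair Nat

noncomputable section

namespace Fermat.Agent.Lib.S15

section deriv

variable (L : PeriodPair)

attribute [local simp] Nat.factorial_ne_zero in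
/-- the derivatives of `℘` off the lattice as lattice sums. -/
theorem s15da_iteratedDeriv_wp {x : ℂ} (hx : x ∉ L.lattice) {n : ℕ} :
    iteratedDeriv n ℘[L] x =
      if n = 0 then ℘[L] x else (n + 1)! * L.sumInvPow x (n + 2) := by
  have hser : HasFPowerSeriesAt ℘[L] (L.weierstrassPSeries x) x := by
    obtain ⟨r, h₁, h₂⟩ := Metric.nhds_basis_closedBall.mem_iff.mp
      ((s15da_isOpen_compl L).mem_nhds hx)
    lift r to NNReal using h₁.le
    exact (L.hasFPowerSeriesOnBall_weierstrassP x r h₁ h₂).hasFPowerSeriesAt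
  rw [← div_mul_cancel₀ (a := iteratedDeriv _ _ _) (b := ↑n !) (by simp),
    ← eq_div_iff_mul_eq (by simp)]
  trans if n = 0 then ℘[L] x else (n + 1) * L.sumInvPow x (n + 2)
  · simpa [PeriodPair.weierstrassPSeries] using
      congr($((L.analyticOnNhd_weierstrassP x hx).hasFPowerSeriesAt
      |>.eq_formalMultilinearSeries hser).coeff n)
  · cases n <;> simp [Nat.factorial_succ]; field

theorem s15da_sumInvPow_four {x : ℂ} (hx : x ∉ L.lattice) :
    L.sumInvPow x 4 = s15da_D2 L x / 6 := by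
  have h := s15da_iteratedDeriv_wp L hx (n := 2)
  rw [(s15da_iteratedDeriv_P L hx).2.2.1] at h
  simp only [OfNat.ofNat_ne_zero, if_false] at h
  rw [h]
  norm_num [Nat.factorial]

theorem s15da_sumInvPow_six {x : ℂ} (hx : x ∉ L.lattice) :
    L.sumInvPow x 6 = s15da_D4 L x / 120 := by
  have h := s15da_iteratedDeriv_wp L hx (n := 4)
  rw [(s15da_iteratedDeriv_P L hx).2.2.2.2] at h
  simp only [OfNat.ofNat_ne_zero, if_false] at h
  rw [h]
  norm_num [Nat.factorial]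

end deriv

variable {L L' : PeriodPair} {m : ℕ} {z₀ : ℂ}

/-- the coset decomposition `Fin (m+1) × L → L'`. -/
def s15da_cosetMap (hC : s15da_Cyc L L' m z₀) (x : Fin (m + 1) × L.lattice) : L'.lattice :=
  ⟨(x.2 : ℂ) + ((x.1 : ℕ) : ℂ) * z₀, L'.lattice.add_mem (hC.le x.2.2) (hC.natMul_mem _)⟩

theorem s15da_cosetMap_injective (hC : s15da_Cyc L L' m z₀) :
    Function.Injective (s15da_cosetMap hC) := by
  -- wlog on the order of the two indices
  have key : ∀ (k₁ k₂ : Fin (m + 1)) (l₁ l₂ : L.lattice), (k₁ : ℕ) ≤ k₂ →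
      (l₁ : ℂ) + ((k₁ : ℕ) : ℂ) * z₀ = (l₂ : ℂ) + ((k₂ : ℕ) : ℂ) * z₀ → k₁ = k₂ ∧ l₁ = l₂ := by
    intro k₁ k₂ l₁ l₂ hle h
    have hk : (k₁ : ℕ) = k₂ := by
      by_contra hne
      have hlt : (k₁ : ℕ) < k₂ := lt_of_le_of_ne hle hne
      have hmem : (((k₂ : ℕ) - (k₁ : ℕ) : ℕ) : ℂ) * z₀ ∈ L.lattice := by
        have : (((k₂ : ℕ) - (k₁ : ℕ) : ℕ) : ℂ) * z₀ = (l₁ : ℂ) - l₂ := by
          rw [Nat.cast_sub hle]
          linear_combination -h
        rw [this]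
        exact L.lattice.sub_mem l₁.2 l₂.2
      exact hC.ord _ (by omega) (by have := k₂.2; omega) hmem
    have hk' : k₁ = k₂ := Fin.ext hk
    refine ⟨hk', ?_⟩
    subst hk'
    exact Subtype.ext (add_right_cancel h)
  rintro ⟨k₁, l₁⟩ ⟨k₂, l₂⟩ h
  have h' : (l₁ : ℂ) + ((k₁ : ℕ) : ℂ) * z₀ = (l₂ : ℂ) + ((k₂ : ℕ) : ℂ) * z₀ :=
    congrArg Subtype.val h
  rcases le_total (k₁ : ℕ) k₂ with hle | hle
  · obtain ⟨e1, e2⟩ := key k₁ k₂ l₁ l₂ hle h'
    rw [e1, e2]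
  · obtain ⟨e1, e2⟩ := key k₂ k₁ l₂ l₁ hle h'.symm
    rw [e1, e2]

theorem s15da_cosetMap_surjective (hC : s15da_Cyc L L' m z₀) :
    Function.Surjective (s15da_cosetMap hC) := by
  intro l'
  obtain ⟨k, hk⟩ := hC.gen l' l'.2
  -- reduce `k` modulo `m + 1`
  have hred : (l' : ℂ) - ((k % (m + 1) : ℕ) : ℂ) * z₀ ∈ L.lattice := by
    have e : (k : ℂ) = ((k % (m + 1) : ℕ) : ℂ) + ((m + 1 : ℕ) : ℂ) * ((k / (m + 1) : ℕ) : ℂ) := by
      have := Nat.mod_add_div k (m + 1)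
      exact_mod_cast this.symm
    have h2 : ((k / (m + 1) : ℕ) : ℂ) * (((m + 1 : ℕ) : ℂ) * z₀) ∈ L.lattice := by
      have := nsmul_mem hC.top (k / (m + 1))
      rwa [nsmul_eq_mul] at this
    have := L.lattice.add_mem hk h2
    rw [e] at this
    convert this using 1
    ring
  refine ⟨(⟨k % (m + 1), Nat.mod_lt _ (by omega)⟩, ⟨_, hred⟩), ?_⟩
  apply Subtype.ext
  simp [s15da_cosetMap]

/-- the coset decomposition as an equivalence. -/
def s15da_cosetEquiv (hC : s15da_Cyc L L' m z₀) : Fin (m + 1) × L.lattice ≃ L'.lattice :=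
  Equiv.ofBijective (s15da_cosetMap hC) ⟨s15da_cosetMap_injective hC, s15da_cosetMap_surjective hC⟩

theorem s15da_cosetEquiv_coe (hC : s15da_Cyc L L' m z₀) (k : Fin (m + 1)) (l : L.lattice) :
    ((s15da_cosetEquiv hC (k, l) : L'.lattice) : ℂ) = (l : ℂ) + ((k : ℕ) : ℂ) * z₀ := rfl

/-- **lattice sums of the overlattice.** -/
theorem s15da_G_overlattice (hC : s15da_Cyc L L' m z₀) {n : ℕ} (hn : 2 < n) :
    L'.G n = L.G n + ∑ k ∈ Finset.range m, L.sumInvPow (-(((k + 1 : ℕ) : ℂ) * z₀)) n := by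
  have hsum' : Summable fun l' : L'.lattice => (((l' : ℂ)) ^ n)⁻¹ := by
    have := (L'.hasSum_sumInvPow 0 hn).summable
    simpa using this
  have hsum : Summable fun x : Fin (m + 1) × L.lattice =>
      ((((s15da_cosetEquiv hC x : L'.lattice) : ℂ)) ^ n)⁻¹ :=
    (s15da_cosetEquiv hC).summable_iff.mpr hsum'
  have h1 : L'.G n = ∑' x : Fin (m + 1) × L.lattice,
      ((((s15da_cosetEquiv hC x : L'.lattice) : ℂ)) ^ n)⁻¹ := by
    rw [PeriodPair.G]
    exact ((s15da_cosetEquiv hC).tsum_eq (fun l' : L'.lattice => (((l' : ℂ)) ^ n)⁻¹)).symm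
  have hfib : ∀ k : Fin (m + 1), HasSum (fun l : L.lattice =>
      ((((s15da_cosetEquiv hC (k, l) : L'.lattice) : ℂ)) ^ n)⁻¹)
        (L.sumInvPow (-(((k : ℕ) : ℂ) * z₀)) n) := by
    intro k
    have := L.hasSum_sumInvPow (-(((k : ℕ) : ℂ) * z₀)) hn
    have e : (fun l : L.lattice => ((((s15da_cosetEquiv hC (k, l) : L'.lattice) : ℂ)) ^ n)⁻¹) =
        fun l : L.lattice => (((l : ℂ) - (-(((k : ℕ) : ℂ) * z₀))) ^ n)⁻¹ := by
      funext l
      rw [s15da_cosetEquiv_coe, sub_neg_eq_add]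
    rw [e]
    exact this
  rw [h1, hsum.tsum_prod' (fun k => (hfib k).summable), tsum_fintype]
  simp_rw [fun k => (hfib k).tsum_eq]
  rw [Fin.sum_univ_eq_sum_range (fun k : ℕ => L.sumInvPow (-((k : ℂ) * z₀)) n) (m + 1),
    Finset.sum_range_succ', add_comm]
  congr 1
  simp

theorem s15da_D2_neg (L : PeriodPair) (u : ℂ) : s15da_D2 L (-u) = s15da_D2 L u := by
  unfold s15da_D2; rw [L.weierstrassP_neg]

theorem s15da_D4_neg (L : PeriodPair) (u : ℂ) : s15da_D4 L (-u) = s15da_D4 L u := by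
  unfold s15da_D4; rw [L.weierstrassP_neg, L.derivWeierstrassP_neg]; ring

theorem s15da_Cyc.neg_not_mem (hC : s15da_Cyc L L' m z₀) {k : ℕ} (hk : k < m) :
    -(((k + 1 : ℕ) : ℂ) * z₀) ∉ L.lattice := fun h =>
  hC.ord (k + 1) (by omega) (by omega) (by simpa using L.lattice.neg_mem h)

/-- `g₂(L') = g₂(L) + 10 Σ_{0<k≤m} ℘''(k z₀)`. -/
theorem s15da_g₂_overlattice (hC : s15da_Cyc L L' m z₀) :
    L'.g₂ = L.g₂ + 10 * ∑ k ∈ Finset.range m, s15da_D2 L (((k + 1 : ℕ) : ℂ) * z₀) := by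
  rw [PeriodPair.g₂, PeriodPair.g₂, s15da_G_overlattice hC (by norm_num : 2 < 4), mul_add,
    Finset.mul_sum, Finset.mul_sum]
  congr 1
  refine Finset.sum_congr rfl fun k hk => ?_
  rw [s15da_sumInvPow_four L (hC.neg_not_mem (Finset.mem_range.mp hk)), s15da_D2_neg]
  ring

/-- `g₃(L') = g₃(L) + (7/6) Σ_{0<k≤m} ℘''''(k z₀)`. -/
theorem s15da_g₃_overlattice (hC : s15da_Cyc L L' m z₀) :
    L'.g₃ = L.g₃ + 7 / 6 * ∑ k ∈ Finset.range m, s15da_D4 L (((k + 1 : ℕ) : ℂ) * z₀) := by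
  rw [PeriodPair.g₃, PeriodPair.g₃, s15da_G_overlattice hC (by norm_num : 2 < 6), mul_add,
    Finset.mul_sum, Finset.mul_sum]
  congr 1
  refine Finset.sum_congr rfl fun k hk => ?_
  rw [s15da_sumInvPow_six L (hC.neg_not_mem (Finset.mem_range.mp hk)), s15da_D4_neg]
  ring

end Fermat.Agent.Lib.S15
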