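/-
(M) [D-AN], part 7 (helper5, prefix `s15da_`): uniformisation.  `g₂`, `g₃` of the lattice
`c · ⟨τ, 1⟩` in terms of `E₄(τ)`, `E₆(τ)`; every pair `(A, B)` with `A³ ≠ B²` is
`(12 g₂(L), 216 g₃(L))` for such a lattice, with `j(τ) = 1728 A³ / (A³ - B²)`.
-/
import Mathlib
import Fermat.Agent.Lib.FF.JAnalytic

set_option autoImplicit false

open Fermat.Agent.Lib.RR Fermat.Agent.Lib.FF UpperHalfPlane

noncomputable section

namespace Fermat.Agent.Lib.S15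

theorem s15da_zeta_six : riemannZeta 6 = (Real.pi : ℂ) ^ 6 / 945 := by
  have h := riemannZeta_two_mul_nat (k := 3) (by norm_num)
  have hb5 : bernoulli' 5 = 0 := bernoulli'_eq_zero_of_odd (by decide) (by norm_num)
  have hb : bernoulli 6 = 1 / 42 := by
    rw [bernoulli_eq_bernoulli'_of_ne_one (by norm_num)]
    rw [bernoulli'_def]
    norm_num [Finset.sum_range_succ, Nat.choose, hb5]
  norm_num at h
  rw [h, hb]
  norm_num [Nat.factorial]
  ring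

/-- `12 g₂(⟨τ, 1⟩) = (2π)⁴ E₄(τ)`. -/
theorem s15da_g₂_pairOf (τ : ℍ) :
    12 * (pairOf τ).g₂ = (2 * Real.pi : ℂ) ^ 4 * E4 τ := by
  have h : (pairOf τ).G 4 = 2 * riemannZeta 4 * E4 τ := G_pairOf τ (k := 4) (by norm_num)
  rw [PeriodPair.g₂, h, riemannZeta_four]
  ring

/-- `216 g₃(⟨τ, 1⟩) = (2π)⁶ E₆(τ)`. -/
theorem s15da_g₃_pairOf (τ : ℍ) :
    216 * (pairOf τ).g₃ = (2 * Real.pi : ℂ) ^ 6 * E6 τ := by
  have h : (pairOf τ).G 6 = 2 * riemannZeta 6 * E6 τ := G_pairOf τ (k := 6) (by norm_num)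
  rw [PeriodPair.g₃, h, s15da_zeta_six]
  ring

theorem s15da_g₂_scalePair (c : ℂ) (hc : c ≠ 0) (L : PeriodPair) :
    (scalePair c hc L).g₂ = (c ^ 4)⁻¹ * L.g₂ := by
  rw [PeriodPair.g₂, PeriodPair.g₂, G_scalePair]; ring

theorem s15da_g₃_scalePair (c : ℂ) (hc : c ≠ 0) (L : PeriodPair) :
    (scalePair c hc L).g₃ = (c ^ 6)⁻¹ * L.g₃ := by
  rw [PeriodPair.g₃, PeriodPair.g₃, G_scalePair]; ring

/-- the lattice `c · ⟨τ, 1⟩`. -/
def s15da_lat (c : ℂ) (hc : c ≠ 0) (τ : ℍ) : PeriodPair := scalePair c hc (pairOf τ)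

@[simp] theorem s15da_lat_ω₁ (c : ℂ) (hc : c ≠ 0) (τ : ℍ) : (s15da_lat c hc τ).ω₁ = c * τ := rfl
@[simp] theorem s15da_lat_ω₂ (c : ℂ) (hc : c ≠ 0) (τ : ℍ) : (s15da_lat c hc τ).ω₂ = c := by
  show c * 1 = c
  ring

theorem s15da_two_pi_ne_zero : (2 * Real.pi : ℂ) ≠ 0 := by
  have := Real.pi_ne_zero
  simp [this]

theorem s15da_lat_g₂ (c : ℂ) (hc : c ≠ 0) (τ : ℍ) :
    12 * (s15da_lat c hc τ).g₂ = ((2 * Real.pi : ℂ) / c) ^ 4 * E4 τ := by
  unfold s15da_lat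
  rw [s15da_g₂_scalePair, div_pow]
  have h := s15da_g₂_pairOf τ
  field_simp
  linear_combination h

theorem s15da_lat_g₃ (c : ℂ) (hc : c ≠ 0) (τ : ℍ) :
    216 * (s15da_lat c hc τ).g₃ = ((2 * Real.pi : ℂ) / c) ^ 6 * E6 τ := by
  unfold s15da_lat
  rw [s15da_g₃_scalePair, div_pow]
  have h := s15da_g₃_pairOf τ
  field_simp
  linear_combination h

/-- `g₂³ - 27 g₃² = (2π/c)¹² Δ(τ)`. -/
theorem s15da_lat_disc (c : ℂ) (hc : c ≠ 0) (τ : ℍ) :
    (s15da_lat c hc τ).g₂ ^ 3 - 27 * (s15da_lat c hc τ).g₃ ^ 2 =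
      ((2 * Real.pi : ℂ) / c) ^ 12 * Dl τ := by
  have h2 := s15da_lat_g₂ c hc τ
  have h3 := s15da_lat_g₃ c hc τ
  rw [Dl_apply]
  have e2 : (s15da_lat c hc τ).g₂ = ((2 * Real.pi : ℂ) / c) ^ 4 * E4 τ / 12 := by
    rw [← h2]; ring
  have e3 : (s15da_lat c hc τ).g₃ = ((2 * Real.pi : ℂ) / c) ^ 6 * E6 τ / 216 := by
    rw [← h3]; ring
  rw [e2, e3]
  ring

theorem s15da_lat_disc_ne_zero (c : ℂ) (hc : c ≠ 0) (τ : ℍ) :
    (s15da_lat c hc τ).g₂ ^ 3 - 27 * (s15da_lat c hc τ).g₃ ^ 2 ≠ 0 := by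
  rw [s15da_lat_disc]
  exact mul_ne_zero (pow_ne_zero _ (div_ne_zero s15da_two_pi_ne_zero hc)) (Dl_ne_zero τ)

/-- the `j`-invariant of `c · ⟨τ, 1⟩` is `j(τ)`. -/
theorem s15da_lat_j (c : ℂ) (hc : c ≠ 0) (τ : ℍ) :
    (12 * (s15da_lat c hc τ).g₂) ^ 3 /
      ((s15da_lat c hc τ).g₂ ^ 3 - 27 * (s15da_lat c hc τ).g₃ ^ 2) = ffj_j τ := by
  rw [s15da_lat_disc, s15da_lat_g₂, ffj_j_apply, mul_pow, ← pow_mul]
  have h : ((2 * Real.pi : ℂ) / c) ^ 12 ≠ 0 := pow_ne_zero _ (div_ne_zero s15da_two_pi_ne_zero hc)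
  rw [mul_div_mul_left _ _ h]

/-- weighted proportionality from equal `j`. -/
theorem s15da_weighted_prop {a b A B : ℂ} (h0 : a ^ 3 - b ^ 2 ≠ 0) (h1 : A ^ 3 - B ^ 2 ≠ 0)
    (key : a ^ 3 * B ^ 2 = A ^ 3 * b ^ 2) :
    ∃ lam : ℂ, lam ≠ 0 ∧ A = lam ^ 4 * a ∧ B = lam ^ 6 * b := by
  by_cases ha : a = 0
  · have hb : b ≠ 0 := by
      intro hb; apply h0; rw [ha, hb]; ring
    have hA : A = 0 := by
      rw [ha] at key
      have : A ^ 3 * b ^ 2 = 0 := by rw [← key]; ring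
      rcases mul_eq_zero.mp this with h | h
      · exact pow_eq_zero_iff (by norm_num) |>.mp h
      · exact absurd (pow_eq_zero_iff (by norm_num) |>.mp h) hb
    have hB : B ≠ 0 := by
      intro hB; apply h1; rw [hA, hB]; ring
    obtain ⟨lam, hlam⟩ := IsAlgClosed.exists_pow_nat_eq (B / b) (n := 6) (by norm_num)
    have hlam0 : lam ≠ 0 := by
      intro h; rw [h] at hlam
      have : B / b = 0 := by rw [← hlam]; ring
      exact (div_ne_zero hB hb) this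
    refine ⟨lam, hlam0, ?_, ?_⟩
    · rw [ha, hA]; ring
    · rw [hlam]; field_simp
  by_cases hb : b = 0
  · have hB : B = 0 := by
      rw [hb] at key
      have : a ^ 3 * B ^ 2 = 0 := by rw [key]; ring
      rcases mul_eq_zero.mp this with h | h
      · exact absurd (pow_eq_zero_iff (by norm_num) |>.mp h) ha
      · exact pow_eq_zero_iff (by norm_num) |>.mp h
    have hA : A ≠ 0 := by
      intro h; apply h1; rw [h, hB]; ring
    obtain ⟨lam, hlam⟩ := IsAlgClosed.exists_pow_nat_eq (A / a) (n := 4) (by norm_num)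
    have hlam0 : lam ≠ 0 := by
      intro h; rw [h] at hlam
      have : A / a = 0 := by rw [← hlam]; ring
      exact (div_ne_zero hA ha) this
    refine ⟨lam, hlam0, ?_, ?_⟩
    · rw [hlam]; field_simp
    · rw [hb, hB]; ring
  have hA : A ≠ 0 := by
    intro h
    rw [h] at key
    have : a ^ 3 * B ^ 2 = 0 := by rw [key]; ring
    rcases mul_eq_zero.mp this with h' | h'
    · exact absurd (pow_eq_zero_iff (by norm_num) |>.mp h') ha
    · apply h1; rw [h, pow_eq_zero_iff (by norm_num) |>.mp h']; ring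
  have hB : B ≠ 0 := by
    intro h
    rw [h] at key
    have : A ^ 3 * b ^ 2 = 0 := by rw [← key]; ring
    rcases mul_eq_zero.mp this with h' | h'
    · exact absurd (pow_eq_zero_iff (by norm_num) |>.mp h') hA
    · exact absurd (pow_eq_zero_iff (by norm_num) |>.mp h') hb
  obtain ⟨lam, hlam⟩ := IsAlgClosed.exists_pow_nat_eq (B * a / (b * A)) (n := 2) (by norm_num)
  have hlam0 : lam ≠ 0 := by
    intro h; rw [h] at hlam
    have : B * a / (b * A) = 0 := by rw [← hlam]; ring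
    exact (div_ne_zero (mul_ne_zero hB ha) (mul_ne_zero hb hA)) this
  have h4 : lam ^ 4 = A / a := by
    have : lam ^ 4 = (lam ^ 2) ^ 2 := by ring
    rw [this, hlam]
    field_simp
    linear_combination key
  have h6 : lam ^ 6 = B / b := by
    have : lam ^ 6 = lam ^ 4 * lam ^ 2 := by ring
    rw [this, h4, hlam]
    field_simp
  refine ⟨lam, hlam0, ?_, ?_⟩
  · rw [h4]; field_simp
  · rw [h6]; field_simp

/-- **uniformisation**: every `(A, B)` with `A³ ≠ B²` comes from a lattice `c · ⟨τ, 1⟩`. -/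
theorem s15da_exists_lat (A B : ℂ) (h : A ^ 3 - B ^ 2 ≠ 0) :
    ∃ (τ : ℍ) (c : ℂ) (hc : c ≠ 0),
      12 * (s15da_lat c hc τ).g₂ = A ∧ 216 * (s15da_lat c hc τ).g₃ = B := by
  obtain ⟨τ, hτ⟩ := ffj_surjective (1728 * A ^ 3 / (A ^ 3 - B ^ 2))
  have hD := Dl_ne_zero τ
  rw [Dl_apply] at hD
  have h0 : E4 τ ^ 3 - E6 τ ^ 2 ≠ 0 := fun h' => hD (by rw [h']; simp)
  have key : E4 τ ^ 3 * B ^ 2 = A ^ 3 * E6 τ ^ 2 := by
    rw [ffj_j_apply, Dl_apply] at hτ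
    field_simp at hτ
    linear_combination -hτ
  obtain ⟨lam, hlam0, hA, hB⟩ := s15da_weighted_prop h0 h key
  have hc : (2 * Real.pi : ℂ) / lam ≠ 0 := div_ne_zero s15da_two_pi_ne_zero hlam0
  refine ⟨τ, (2 * Real.pi : ℂ) / lam, hc, ?_, ?_⟩
  · rw [s15da_lat_g₂, hA]
    have : (2 * Real.pi : ℂ) / ((2 * Real.pi : ℂ) / lam) = lam := by
      field_simp
    rw [this]
  · rw [s15da_lat_g₃, hB]
    have : (2 * Real.pi : ℂ) / ((2 * Real.pi : ℂ) / lam) = lam := by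
      field_simp
    rw [this]

end Fermat.Agent.Lib.S15
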