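/-
(M) [D-AN], part 11 (helper5, prefix `s15da_`): the concrete cyclic overlattice
`c⟨τ, 1⟩ ⊂ (c/p)⟨pτ, 1⟩ = ⟨cτ, c/p⟩`, `z₀ = c/p`, with its half-periods.
-/
import Mathlib
import Fermat.Agent.Lib.S15.DAnHalf
import Fermat.Agent.Lib.S15.DAnSums
import Fermat.Agent.Lib.S15.DAnUnif
import Fermat.Agent.Lib.FF.BridgeJ

set_option autoImplicit false

open Filter Topology PeriodPair UpperHalfPlane
open Fermat.Agent.Lib.RR Fermat.Agent.Lib.FF

noncomputable section

namespace Fermat.Agent.Lib.S15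


theorem s15da_div_ne_zero (c : ℂ) (hc : c ≠ 0) (p : ℕ) [NeZero p] : c / (p : ℂ) ≠ 0 :=
  div_ne_zero hc (Nat.cast_ne_zero.mpr (NeZero.ne p))

/-- the overlattice `⟨cτ, c/p⟩`. -/
def s15da_over (c : ℂ) (hc : c ≠ 0) (τ : ℍ) (p : ℕ) [NeZero p] : PeriodPair := s15da_lat (c / p) (s15da_div_ne_zero c hc p) (ffb_dmul p τ)

theorem s15da_over_ω₁ (c : ℂ) (hc : c ≠ 0) (τ : ℍ) (p : ℕ) [NeZero p] : (s15da_over c hc τ p).ω₁ = c * τ := by
  have hp : (p : ℂ) ≠ 0 := Nat.cast_ne_zero.mpr (NeZero.ne p)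
  unfold s15da_over
  rw [s15da_lat_ω₁, ffb_dmul_coe]
  field_simp

theorem s15da_over_ω₂ (c : ℂ) (hc : c ≠ 0) (τ : ℍ) (p : ℕ) [NeZero p] : (s15da_over c hc τ p).ω₂ = c / p := by
  unfold s15da_over
  rw [s15da_lat_ω₂]

/-- membership in `c⟨τ,1⟩` in rational coordinates. -/
theorem s15da_lat_mem_iff (c : ℂ) (hc : c ≠ 0) (τ : ℍ) {α β : ℚ} :
    (α : ℂ) * (c * τ) + (β : ℂ) * c ∈ (s15da_lat c hc τ).lattice ↔ α.den = 1 ∧ β.den = 1 := by
  have := (s15da_lat c hc τ).mul_ω₁_add_mul_ω₂_mem_lattice (α := α) (β := β)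
  rwa [s15da_lat_ω₁, s15da_lat_ω₂] at this

/-- membership in `⟨cτ, c/p⟩` in rational coordinates. -/
theorem s15da_over_mem_iff (c : ℂ) (hc : c ≠ 0) (τ : ℍ) (p : ℕ) [NeZero p] {α β : ℚ} :
    (α : ℂ) * (c * τ) + (β : ℂ) * (c / p) ∈ (s15da_over c hc τ p).lattice ↔
      α.den = 1 ∧ β.den = 1 := by
  have := (s15da_over c hc τ p).mul_ω₁_add_mul_ω₂_mem_lattice (α := α) (β := β)
  rwa [s15da_over_ω₁, s15da_over_ω₂] at this

theorem s15da_lat_le_over (c : ℂ) (hc : c ≠ 0) (τ : ℍ) (p : ℕ) [NeZero p] : (s15da_lat c hc τ).lattice ≤ (s15da_over c hc τ p).lattice := by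
  have hp : (p : ℂ) ≠ 0 := Nat.cast_ne_zero.mpr (NeZero.ne p)
  intro x hx
  obtain ⟨a, b, rfl⟩ := PeriodPair.mem_lattice.mp hx
  rw [s15da_lat_ω₁, s15da_lat_ω₂]
  have := (s15da_over_mem_iff c hc τ p (α := a) (β := b * p)).mpr ⟨by simp, by
    have : ((b : ℚ) * (p : ℚ)) = ((b * p : ℤ) : ℚ) := by push_cast; ring
    rw [this]; exact Rat.den_intCast _⟩
  convert this using 1
  push_cast
  field_simp

theorem s15da_cyc (c : ℂ) (hc : c ≠ 0) (τ : ℍ) (p : ℕ) [NeZero p] (hp1 : 0 < p) :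
    s15da_Cyc (s15da_lat c hc τ) (s15da_over c hc τ p) (p - 1) (c / p) := by
  have hp : (p : ℂ) ≠ 0 := Nat.cast_ne_zero.mpr (NeZero.ne p)
  have hpp : p - 1 + 1 = p := Nat.sub_add_cancel hp1
  refine ⟨s15da_lat_le_over c hc τ p, ?_, ?_, ?_, ?_⟩
  · have := (s15da_over c hc τ p).ω₂_mem_lattice
    rwa [s15da_over_ω₂] at this
  · rw [hpp]
    have := (s15da_lat c hc τ).ω₂_mem_lattice
    rw [s15da_lat_ω₂] at this
    convert this using 1
    field_simp
  · intro l' hl'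
    obtain ⟨a, b, rfl⟩ := PeriodPair.mem_lattice.mp hl'
    rw [s15da_over_ω₁, s15da_over_ω₂]
    refine ⟨(b % (p : ℤ)).toNat, ?_⟩
    have hnn : 0 ≤ b % (p : ℤ) := Int.emod_nonneg _ (by exact_mod_cast (NeZero.ne p))
    have hcast : (((b % (p : ℤ)).toNat : ℕ) : ℂ) = ((b % (p : ℤ) : ℤ) : ℂ) := by
      have : (((b % (p : ℤ)).toNat : ℕ) : ℤ) = b % (p : ℤ) := Int.toNat_of_nonneg hnn
      exact_mod_cast congrArg (Int.cast : ℤ → ℂ) this
    rw [hcast]
    have hdiv : b - b % (p : ℤ) = (p : ℤ) * (b / (p : ℤ)) := by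
      have := Int.emod_add_mul_ediv b (p : ℤ)
      linarith
    have := (s15da_lat_mem_iff c hc τ (α := a) (β := ((b / (p : ℤ) : ℤ) : ℚ))).mpr
      ⟨by simp, by simp⟩
    convert this using 1
    have hdiv' : (b : ℂ) - ((b % (p : ℤ) : ℤ) : ℂ) = (p : ℂ) * ((b / (p : ℤ) : ℤ) : ℂ) := by
      exact_mod_cast congrArg (Int.cast : ℤ → ℂ) hdiv
    push_cast
    field_simp
    linear_combination hdiv'
  · intro k hk0 hkp hmem
    rw [hpp] at hkp
    have h := (s15da_lat_mem_iff c hc τ (α := 0) (β := (k : ℚ) / p)).mp (by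
      convert hmem using 1
      push_cast
      field_simp
      ring)
    have hden := h.2
    have hpQ : (p : ℚ) ≠ 0 := Nat.cast_ne_zero.mpr (NeZero.ne p)
    have : ((k : ℚ) / p).den = 1 := hden
    have hint : ∃ n : ℤ, (k : ℚ) / p = n := ⟨((k : ℚ) / p).num, by
      conv_lhs => rw [← Rat.num_div_den ((k : ℚ) / p), this]
      simp⟩
    obtain ⟨n, hn⟩ := hint
    have hk : (k : ℚ) = n * p := by
      field_simp at hn
      linear_combination hn
    have hk' : (k : ℤ) = n * p := by exact_mod_cast hk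
    have hnpos : 0 < n := by
      by_contra hle
      push Not at hle
      have : (k : ℤ) ≤ 0 := by
        rw [hk']
        exact mul_nonpos_of_nonpos_of_nonneg hle (by positivity)
      omega
    have : (p : ℤ) ≤ k := by
      rw [hk']
      nlinarith
    omega

theorem s15da_half_den : ((1 : ℚ) / 2).den ≠ 1 := by norm_num

theorem s15da_neg_half_den : ((-1 : ℚ) / 2).den ≠ 1 := by
  rw [neg_div, Rat.den_neg_eq_den]; norm_num

theorem s15da_odd_half_den {p : ℕ} (hodd : Odd p) : ((p : ℚ) / 2).den ≠ 1 := by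
  intro h
  have hint : (p : ℚ) / 2 = (((p : ℚ) / 2).num : ℚ) := by
    conv_lhs => rw [← Rat.num_div_den ((p : ℚ) / 2), h]
    simp
  have h2 : (p : ℚ) = 2 * (((p : ℚ) / 2).num : ℚ) := by linear_combination 2 * hint
  have h3 : (p : ℤ) = 2 * ((p : ℚ) / 2).num := by exact_mod_cast h2
  obtain ⟨k, hk⟩ := hodd
  omega

/-- **the analytic core of [D-AN]**: the invariants of `⟨cτ, c/p⟩` in terms of `c⟨τ, 1⟩`. -/
theorem s15da_core_an (c : ℂ) (hc : c ≠ 0) (τ : ℍ) (p : ℕ) [NeZero p] (hodd : Odd p) :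
    (s15da_over c hc τ p).g₂ = (s15da_lat c hc τ).g₂ +
        10 * ∑ k ∈ Finset.range (p - 1), s15da_D2 (s15da_lat c hc τ) (((k + 1 : ℕ) : ℂ) * (c / p)) ∧
    (s15da_over c hc τ p).g₃ = (s15da_lat c hc τ).g₃ +
        7 / 6 * ∑ k ∈ Finset.range (p - 1),
          s15da_D4 (s15da_lat c hc τ) (((k + 1 : ℕ) : ℂ) * (c / p)) ∧
    ((s15da_over c hc τ p).g₂ ^ 3 - 27 * (s15da_over c hc τ p).g₃ ^ 2) *
        ∏ k ∈ Finset.range (p - 1), ℘'[s15da_lat c hc τ] (((k + 1 : ℕ) : ℂ) * (c / p)) ^ 4 =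
      ((s15da_lat c hc τ).g₂ ^ 3 - 27 * (s15da_lat c hc τ).g₃ ^ 2) ^ p := by
  have hp1 : 0 < p := Nat.pos_of_ne_zero (NeZero.ne p)
  have hpp : p - 1 + 1 = p := Nat.sub_add_cancel hp1
  have hC := s15da_cyc c hc τ p hp1
  refine ⟨s15da_g₂_overlattice hC, s15da_g₃_overlattice hC, ?_⟩
  have hΔ := s15da_lat_disc_ne_zero c hc τ
  have hpC : (p : ℂ) ≠ 0 := Nat.cast_ne_zero.mpr (NeZero.ne p)
  have key := s15da_disc_overlattice hΔ hC (h1 := c * τ / 2) (h2 := c / 2) (h3 := (c * τ + c) / 2)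
    ?_ ?_ ?_ ?_ ?_ ?_ ?_ ?_ ?_
  · rw [hpp] at key; exact key
  · intro h
    have := (s15da_over_mem_iff c hc τ p (α := 1 / 2) (β := 0)).mp (by
      convert h using 1; push_cast; ring)
    exact s15da_half_den this.1
  · intro h
    have := (s15da_over_mem_iff c hc τ p (α := 0) (β := (p : ℚ) / 2)).mp (by
      convert h using 1; push_cast; field_simp; ring)
    exact s15da_odd_half_den hodd this.2
  · intro h
    have := (s15da_over_mem_iff c hc τ p (α := 1 / 2) (β := (p : ℚ) / 2)).mp (by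
      convert h using 1; push_cast; field_simp)
    exact s15da_half_den this.1
  · have := (s15da_lat_mem_iff c hc τ (α := 1) (β := 0)).mpr ⟨by simp, by simp⟩
    convert this using 1; push_cast; ring
  · have := (s15da_lat_mem_iff c hc τ (α := 0) (β := 1)).mpr ⟨by simp, by simp⟩
    convert this using 1; push_cast; ring
  · have := (s15da_lat_mem_iff c hc τ (α := 1) (β := 1)).mpr ⟨by simp, by simp⟩
    convert this using 1; push_cast; ring
  · intro h
    have := (s15da_lat_mem_iff c hc τ (α := 1 / 2) (β := -1 / 2)).mp (by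
      convert h using 1; push_cast; ring)
    exact s15da_half_den this.1
  · intro h
    have := (s15da_lat_mem_iff c hc τ (α := 0) (β := -1 / 2)).mp (by
      convert h using 1; push_cast; ring)
    exact s15da_neg_half_den this.2
  · intro h
    have := (s15da_lat_mem_iff c hc τ (α := -1 / 2) (β := 0)).mp (by
      convert h using 1; push_cast; ring)
    exact s15da_neg_half_den this.1

end Fermat.Agent.Lib.S15
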