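/-
(M) BLUEPRINT (helper7, answer to the lead's request for a contract graph of the Mazur chain
S15 → S12 → S09).  NOT FOR MAIN: typed nodes (`def m15_… : Prop`) against main's definitions and
the CHECKED top wiring `m15_S15_of : nodes → (frozen S15 text)`.

Vocabulary: `J = JZero p = Pic⁰(ℚ̄(X₀(p)))`, `m15_T p` = the ring generated by the Prelude's Hecke
operators `heckeOperatorBar p ℓ` inside `End J`, `m15_cl P Q = cl(P − Q)`, the two cusps
`m15_Cusps p`, `red_A = reductionModL A p` (Prelude, S18/S37).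
-/
import Fermat.Agent.S18
import Fermat.Agent.Lib.Mz.Places
import Fermat.Agent.Lib.S37.RClose
import Fermat.Agent.Lib.S37.GGen
import Fermat.Prelude.Def_ModularCurve_HeckeModule
import Fermat.Prelude.Def_ModularCurve_ModularUnit
import Fermat.Prelude.Def_EllipticCurve_ZeroComponentAt

set_option autoImplicit false
set_option linter.unusedSectionVars false
set_option linter.unusedVariables false
set_option linter.style.haveILetI false

noncomputable section

namespace Fermat.Agent.Lib.S15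

open ModularCurve AlgebraicCurve WeierstrassCurve WeierstrassCurve.Affine

local notation "Kb" => AlgebraicClosure ℚ
local notation "GQ" => (AlgebraicClosure ℚ ≃ₐ[ℚ] AlgebraicClosure ℚ)

/-! ### Vocabulary -/

section Vocabulary

variable (N : ℕ)

/-- the places of `X₀(N)` over `ℚ̄`. -/
abbrev m15_Pl : Type := Place Kb ↥(modularFunctionFieldBar N)

/-- the Galois action on places. -/
def m15_gal (σ : GQ) (P : m15_Pl N) : m15_Pl N :=
  arithmeticGalois (modularFunctionFieldFull N) σ • P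

/-- the divisor `P − Q`. -/
def m15_div (P Q : m15_Pl N) : Divisor Kb ↥(modularFunctionFieldBar N) :=
  Finsupp.single P 1 - Finsupp.single Q 1

/-- the class of `P − Q` in `J₀(N)`. -/
def m15_cl (P Q : m15_Pl N) : JZero N := by
  classical
  exact if h : m15_div N P Q ∈ Divisor.degZero (K := Kb) (F := ↥(modularFunctionFieldBar N))
    then Pic0.mk ⟨_, h⟩ else 0

variable [NeZero N]

/-- the ANEMIC Hecke ring acting on `J₀(N)`: generated by the `T_ℓ`, `ℓ ∤ N` (AMENDED 12-03 15:50Z, announced on the board: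
`U_p` is not needed anywhere in (M); commutative by helper4's `m15a_comm_good`). -/
def m15_T : Subalgebra ℤ (Module.End ℤ (JZero N)) :=
  Algebra.adjoin ℤ (heckeOperatorBar N '' {ℓ : Nat.Primes | ¬ (ℓ : ℕ) ∣ N})

/-- the two cusps of `X₀(p)`: `inf` is the place of the `q`-expansion, `zero` the other pole of
`j`. -/
structure m15_Cusps where
  inf : m15_Pl N
  zero : m15_Pl N
  inf_ord : ∀ f : ↥(modularFunctionFieldBar N), f ≠ 0 →
    inf.ord f = (f : LaurentSeries Kb).order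
  zero_ne : zero ≠ inf
  zero_pole : ∃ h : coeffEmb Kb jq ∈ modularFunctionFieldBar N,
    zero.ord (⟨coeffEmb Kb jq, h⟩ : ↥(modularFunctionFieldBar N)) < 0

end Vocabulary

/-! ### The nodes of S15 -/

/-- **[CUSP]** the cusps exist, are rational, all places have degree one. [routine: `inf` is the
`q`-order valuation (pattern `s29bp_exists_place_of_valuation`), `zero = w_p(inf)` or the second
pole of `j` (landed fibre sums: `j` has degree `p + 1 = 1 + p`).] -/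
def m15_CuspNode : Prop :=
  ∀ (p : ℕ) [NeZero p], p.Prime → ∃ c : m15_Cusps p,
    (∀ σ : GQ, m15_gal p σ c.inf = c.inf) ∧ (∀ σ : GQ, m15_gal p σ c.zero = c.zero) ∧
      ∀ P : m15_Pl p, P.deg = 1

/-- **[OGG]** the cuspidal class has order `n = num((p-1)/12)`. [routine-hard: `≤ n` from the
modular unit of the S16 library (`div = n((0) − (∞))`), `≥ n` from its `q`-expansion/roots.] Used
inside [T'] and [EIS] only. -/
def m15_Ogg : Prop :=
  ∀ (p : ℕ) [NeZero p], p.Prime → ∀ c : m15_Cusps p,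
    addOrderOf (m15_cl p c.zero c.inf) = eisensteinNumerator p

/-- **[EIS] Mazur's Eisenstein descent** (THE WALL): some Hecke operator kills the rational points
up to torsion but not the cuspidal class. -/
def m15_Eis : Prop :=
  ∀ (p : ℕ) [NeZero p], p.Prime → p ∉ ({2, 3, 5, 7, 13} : Finset ℕ) → ∀ c : m15_Cusps p,
    ∃ t ∈ m15_T p, (∀ z : JZero p, (∀ σ : GQ, σ • z = z) → ∃ m : ℕ, m ≠ 0 ∧ m • t z = 0) ∧
      t (m15_cl p c.zero c.inf) ≠ 0

/-- **[R]** the kernel of the reduction at a good place is a Hecke submodule. [routine-hard: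
functoriality of the S37 place reduction along the two degeneracy maps `X₀(pq) → X₀(p)`.] -/
def m15_R : Prop :=
  ∀ (p : ℕ) [NeZero p], p.Prime → ∀ ℓ : ℕ, ℓ.Prime → ℓ ≠ p →
    ∀ A : ValuationSubring Kb, A.LiesOverPrime ℓ → ReductionInputsModL A p →
      ∀ t ∈ m15_T p, ∀ z : JZero p, reductionModL A p z = 0 → reductionModL A p (t z) = 0

/-- **[T']** the Hecke translates of the cuspidal class inject into the special fibre at
`ℓ ≥ 5`. [routine: `t c ∈ ℤ c`; prime-to-`ℓ` part = S18; `ℓ`-part: the logarithmic derivative of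
the reduction of the modular unit is `≠ 0` mod `ℓ`.] -/
def m15_Tprime : Prop :=
  ∀ (p : ℕ) [NeZero p], p.Prime → ∀ c : m15_Cusps p, ∀ ℓ : ℕ, ℓ.Prime → 5 ≤ ℓ → ℓ ≠ p →
    ∀ A : ValuationSubring Kb, A.LiesOverPrime ℓ → ReductionInputsModL A p →
      ∀ t ∈ m15_T p, reductionModL A p (t (m15_cl p c.zero c.inf)) = 0 →
        t (m15_cl p c.zero c.inf) = 0

/-- **[RED23]** place reductions of `X₀(p)` at `2` and `3` (main has them for `ℓ ≥ 5`, and for
`ℓ = 3` (`2`) only at even levels (levels divisible by `3`): `s18_GoodLevel`). [routine-hard: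
restriction of the place reduction of `X₀(2p)` resp. `X₀(3p)`.] -/
def m15_Red23 : Prop :=
  ∀ (p : ℕ) [NeZero p], p.Prime → 5 ≤ p → ∀ ℓ : ℕ, ℓ = 2 ∨ ℓ = 3 →
    ∀ A : ValuationSubring Kb, A.LiesOverPrime ℓ → ∃ r, IsPlaceReductionModL A p r

/-- **[D] the moduli dictionary**: a rational point of order `p` gives a rational place of
`X₀(p)` which at every prime of multiplicative reduction `ℓ ≠ p` reduces to the cusp `∞` or `0`
according as the point lies in the identity component or not. [hard: SECOND WALL; Tate curve /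
generic curve + `Φ_p(j, j') = 0`.] -/
def m15_D : Prop :=
  ∀ (p : ℕ) [NeZero p], p.Prime → 5 ≤ p → ∀ c : m15_Cusps p,
    ∀ (W : WeierstrassCurve ℤ), W.Δ ≠ 0 →
    ∀ (Q : ((W.map (Int.castRingHom ℚ))⁄(AlgebraicClosure ℚ)).Point),
      (∀ σ : GQ, σ • Q = Q) → addOrderOf Q = p →
      ∃ x : m15_Pl p, (∀ σ : GQ, m15_gal p σ x = x) ∧
        ∀ ℓ : ℕ, ℓ.Prime → ℓ ≠ p → (ℓ : ℤ) ∣ W.Δ → ¬ (ℓ : ℤ) ∣ W.c₄ →
          ∀ (A : ValuationSubring Kb) (hA : A.LiesOverPrime ℓ) (h : ReductionInputsModL A p),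
            (W.InZeroComponentAt A Q → placeReductionModL h x = placeReductionModL h c.inf) ∧
            (¬ W.InZeroComponentAt A Q → placeReductionModL h x = placeReductionModL h c.zero)


/-! ### The checked wiring `nodes → S15` -/

section Wiring

variable {N : ℕ}

theorem m15_div_mem_degZero (hdeg : ∀ P : m15_Pl N, P.deg = 1) (P Q : m15_Pl N) :
    m15_div N P Q ∈ Divisor.degZero (K := Kb) (F := ↥(modularFunctionFieldBar N)) := by
  rw [Divisor.mem_degZero, m15_div, map_sub, Divisor.degree_single, Divisor.degree_single, hdeg,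
    hdeg]
  ring

theorem m15_cl_eq (hdeg : ∀ P : m15_Pl N, P.deg = 1) (P Q : m15_Pl N) :
    m15_cl N P Q = Pic0.mk ⟨m15_div N P Q, m15_div_mem_degZero hdeg P Q⟩ := by
  classical
  unfold m15_cl
  rw [dif_pos (m15_div_mem_degZero hdeg P Q)]

theorem m15_cl_add (hdeg : ∀ P : m15_Pl N, P.deg = 1) (P Q R : m15_Pl N) :
    m15_cl N P R = m15_cl N P Q + m15_cl N Q R := by
  rw [m15_cl_eq hdeg, m15_cl_eq hdeg, m15_cl_eq hdeg, ← Pic0.mk_add]
  congr 1
  apply Subtype.ext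
  show m15_div N P R = m15_div N P Q + m15_div N Q R
  unfold m15_div
  abel

theorem m15_gal_cl (hdeg : ∀ P : m15_Pl N, P.deg = 1) (σ : GQ) (P Q : m15_Pl N) :
    σ • m15_cl N P Q = m15_cl N (m15_gal N σ P) (m15_gal N σ Q) := by
  rw [m15_cl_eq hdeg, m15_cl_eq hdeg, galois_smul_pic0_def, SemilinearAut.pic0_smul_mk]
  congr 1
  apply Subtype.ext
  rw [SemilinearAut.coe_degZeroSMulHom]
  show arithmeticGalois (modularFunctionFieldFull N) σ • m15_div N P Q = _
  unfold m15_div m15_gal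
  rw [smul_sub, SemilinearAut.smul_single, SemilinearAut.smul_single]

theorem m15_red_cl (hdeg : ∀ P : m15_Pl N, P.deg = 1) {A : ValuationSubring Kb}
    (h : ReductionInputsModL A N) {P Q : m15_Pl N}
    (hPQ : placeReductionModL h P = placeReductionModL h Q) :
    reductionModL A N (m15_cl N P Q) = 0 := by
  rw [m15_cl_eq hdeg, reductionModL_mk h]
  have : reductionDegZeroAlong (placeReductionModL h)
      (isPlaceReductionModL_placeReductionModL h).1 ⟨m15_div N P Q, m15_div_mem_degZero hdeg P Q⟩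
      = 0 := by
    apply Subtype.ext
    rw [coe_reductionDegZeroAlong]
    show Finsupp.mapDomain (placeReductionModL h) (m15_div N P Q) = 0
    unfold m15_div
    rw [Finsupp.mapDomain_sub, Finsupp.mapDomain_single, Finsupp.mapDomain_single, hPQ, sub_self]
  rw [this]
  rfl

/-- a torsion point which reduces to `0` at a place over `2` and at a place over `3` is `0`
(S18 twice). -/
theorem m15_eq_zero_of_red23 [NeZero N] (h2N : ¬ 2 ∣ N) (h3N : ¬ 3 ∣ N)
    {A₂ A₃ : ValuationSubring Kb} (hA₂ : A₂.LiesOverPrime 2) (hA₃ : A₃.LiesOverPrime 3)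
    (h₂ : ReductionInputsModL A₂ N) (h₃ : ReductionInputsModL A₃ N) (y : JZero N) {m : ℕ}
    (hm : m ≠ 0) (hmy : m • y = 0) (hy₂ : reductionModL A₂ N y = 0)
    (hy₃ : reductionModL A₃ N y = 0) : y = 0 := by
  haveI : Fact (Nat.Prime 2) := ⟨Nat.prime_two⟩
  haveI : Fact (Nat.Prime 3) := ⟨Nat.prime_three⟩
  obtain ⟨a, m₃, hm₃, rfl⟩ := Nat.exists_eq_pow_mul_and_not_dvd hm 3 (by norm_num)
  have h3 : 3 ^ a • y = 0 := by
    refine Fermat.Agent.S18.result N h3N A₃ hA₃ h₃ m₃ hm₃ (3 ^ a • y) ?_ ?_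
    · rw [← mul_smul, mul_comm]; exact hmy
    · rw [map_nsmul, hy₃, smul_zero]
  have hm' : 3 ^ a * m₃ ≠ 0 := hm
  obtain ⟨b, m₂, hm₂, e⟩ := Nat.exists_eq_pow_mul_and_not_dvd hm' 2 (by norm_num)
  have h2 : 2 ^ b • y = 0 := by
    refine Fermat.Agent.S18.result N h2N A₂ hA₂ h₂ m₂ hm₂ (2 ^ b • y) ?_ ?_
    · rw [← mul_smul, mul_comm, ← e]; exact hmy
    · rw [map_nsmul, hy₂, smul_zero]
  have hd3 : addOrderOf y ∣ 3 ^ a := addOrderOf_dvd_of_nsmul_eq_zero h3
  have hd2 : addOrderOf y ∣ 2 ^ b := addOrderOf_dvd_of_nsmul_eq_zero h2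
  have hcop : Nat.Coprime (3 ^ a) (2 ^ b) := Nat.Coprime.pow _ _ (by norm_num)
  have h1 : addOrderOf y = 1 := Nat.eq_one_of_dvd_coprimes hcop hd3 hd2
  exact AddMonoid.addOrderOf_eq_one_iff.mp h1

end Wiring

/-- **S15 from the nodes** (the frozen text of S15, restated). -/
theorem m15_S15_of (hC : m15_CuspNode) (hE : m15_Eis) (hR : m15_R) (hT : m15_Tprime)
    (h23 : m15_Red23) (hD : m15_D)
    {p : ℕ} (hp : p.Prime) (hp' : p ∉ ({2, 3, 5, 7, 13} : Finset ℕ))
    (W : WeierstrassCurve ℤ) (hΔ : W.Δ ≠ 0)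
    (Q : ((W.map (Int.castRingHom ℚ))⁄(AlgebraicClosure ℚ)).Point)
    (hQfix : ∀ σ : AlgebraicClosure ℚ ≃ₐ[ℚ] AlgebraicClosure ℚ, σ • Q = Q)
    (hQord : addOrderOf Q = p)
    (h2Δ : (2 : ℤ) ∣ W.Δ) (h2c₄ : ¬ (2 : ℤ) ∣ W.c₄)
    (h2 : ∀ A : ValuationSubring (AlgebraicClosure ℚ), A.LiesOverPrime 2 →
      ¬ W.InZeroComponentAt A Q)
    (h3Δ : (3 : ℤ) ∣ W.Δ) (h3c₄ : ¬ (3 : ℤ) ∣ W.c₄)
    (h3 : ∀ A : ValuationSubring (AlgebraicClosure ℚ), A.LiesOverPrime 3 →
      ¬ W.InZeroComponentAt A Q)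
    {ℓ : ℕ} (hℓ : ℓ.Prime) (hℓp : ℓ ≠ p) (hℓΔ : (ℓ : ℤ) ∣ W.Δ) (hℓc₄ : ¬ (ℓ : ℤ) ∣ W.c₄)
    (A : ValuationSubring (AlgebraicClosure ℚ)) (hA : A.LiesOverPrime ℓ) :
    ¬ W.InZeroComponentAt A Q := by
  intro hin
  haveI : NeZero p := ⟨hp.ne_zero⟩
  -- arithmetic of `p`
  have hp5 : 5 ≤ p := by
    by_contra hlt
    rw [not_le] at hlt
    have h2' := hp.two_le
    simp only [Finset.mem_insert, Finset.mem_singleton, not_or] at hp'
    interval_cases p
    · exact hp'.1 rfl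
    · exact hp'.2.1 rfl
    · exact absurd hp (by norm_num)
  have hℓ2 : ℓ ≠ 2 := by
    rintro rfl; exact h2 A hA hin
  have hℓ3 : ℓ ≠ 3 := by
    rintro rfl; exact h3 A hA hin
  have hℓ5 : 5 ≤ ℓ := by
    by_contra hlt
    rw [not_le] at hlt
    have h2' := hℓ.two_le
    interval_cases ℓ
    · exact hℓ2 rfl
    · exact hℓ3 rfl
    · exact absurd hℓ (by norm_num)
  have hℓnp : ¬ ℓ ∣ p := fun h => hℓp ((Nat.prime_dvd_prime_iff_eq hℓ hp).mp h)
  have h2np : ¬ 2 ∣ p := fun h => by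
    have := (Nat.prime_dvd_prime_iff_eq Nat.prime_two hp).mp h; omega
  have h3np : ¬ 3 ∣ p := fun h => by
    have := (Nat.prime_dvd_prime_iff_eq Nat.prime_three hp).mp h; omega
  -- the reduction inputs
  haveI : Fact ℓ.Prime := ⟨hℓ⟩
  haveI : Fact (Nat.Prime 2) := ⟨Nat.prime_two⟩
  haveI : Fact (Nat.Prime 3) := ⟨Nat.prime_three⟩
  obtain ⟨A₂, hA₂⟩ := Fermat.Agent.Lib.Mz.ptm_exists_liesOverPrime 2 Nat.prime_two
  obtain ⟨A₃, hA₃⟩ := Fermat.Agent.Lib.Mz.ptm_exists_liesOverPrime 3 Nat.prime_three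
  have hred : ReductionInputsModL A p := by
    obtain ⟨r, hr⟩ := Fermat.Agent.Lib.S37.s37r12_exists p ℓ hℓ ⟨hℓnp, Or.inl hℓ5⟩ A hA
    exact ⟨r, hr, Fermat.Agent.Lib.S37.s37g_principalGenerated p hℓnp A hA⟩
  have hred₂ : ReductionInputsModL A₂ p := by
    obtain ⟨r, hr⟩ := h23 p hp hp5 2 (Or.inl rfl) A₂ hA₂
    exact ⟨r, hr, Fermat.Agent.Lib.S37.s37g_principalGenerated p h2np A₂ hA₂⟩
  have hred₃ : ReductionInputsModL A₃ p := by
    obtain ⟨r, hr⟩ := h23 p hp hp5 3 (Or.inr rfl) A₃ hA₃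
    exact ⟨r, hr, Fermat.Agent.Lib.S37.s37g_principalGenerated p h3np A₃ hA₃⟩
  -- cusps, the rational place, the Hecke operator
  obtain ⟨c, hcinf, hczero, hdeg⟩ := hC p hp
  obtain ⟨x, hxfix, hx⟩ := hD p hp hp5 c W hΔ Q hQfix hQord
  obtain ⟨t, htT, httors, htc⟩ := hE p hp hp' c
  -- Step A: `t • cl(x − 0) = 0`
  have hz'fix : ∀ σ : GQ, σ • m15_cl p x c.zero = m15_cl p x c.zero := by
    intro σ
    rw [m15_gal_cl hdeg, hxfix, hczero]
  obtain ⟨m, hm, hmt⟩ := httors _ hz'fix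
  have hA2 : reductionModL A₂ p (t (m15_cl p x c.zero)) = 0 := by
    refine hR p hp 2 Nat.prime_two (by omega) A₂ hA₂ hred₂ t htT _ ?_
    exact m15_red_cl hdeg hred₂
      ((hx 2 Nat.prime_two (by omega) h2Δ h2c₄ A₂ hA₂ hred₂).2 (h2 A₂ hA₂))
  have hA3 : reductionModL A₃ p (t (m15_cl p x c.zero)) = 0 := by
    refine hR p hp 3 Nat.prime_three (by omega) A₃ hA₃ hred₃ t htT _ ?_
    exact m15_red_cl hdeg hred₃
      ((hx 3 Nat.prime_three (by omega) h3Δ h3c₄ A₃ hA₃ hred₃).2 (h3 A₃ hA₃))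
  have hstepA : t (m15_cl p x c.zero) = 0 :=
    m15_eq_zero_of_red23 h2np h3np hA₂ hA₃ hred₂ hred₃ _ hm hmt hA2 hA3
  -- Step B: `red_A (t • cl(x − ∞)) = 0`
  have hB : reductionModL A p (t (m15_cl p x c.inf)) = 0 := by
    refine hR p hp ℓ hℓ hℓp A hA hred t htT _ ?_
    exact m15_red_cl hdeg hred ((hx ℓ hℓ hℓp hℓΔ hℓc₄ A hA hred).1 hin)
  -- conclusion
  have hsplit : m15_cl p x c.inf = m15_cl p x c.zero + m15_cl p c.zero c.inf :=
    m15_cl_add hdeg x c.zero c.inf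
  rw [hsplit, map_add, hstepA, zero_add] at hB
  exact htc (hT p hp c ℓ hℓ hℓ5 hℓp A hA hred t htT hB)


/-! ### The sub-nodes of [EIS] (typed where the vocabulary exists on main) -/

/-- (SUPERSEDED by `m15_Eis1At`, MEis.lean.) **[EIS-1] finiteness of the Eisenstein part of the
Mordell–Weil group**, Selmer form: for ONE
prime `p' ∣ n` the `𝔓`-part (`𝔓 = (I, p')`) of `J(ℚ) ⊗ ℤ_{p'}` is finite.  Stated without
localisation: some `t ∈ 𝕋`, `t ≡ 1` modulo the Eisenstein ideal and `p'`, kills `J(ℚ)` up to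
torsion.  ([EIS] follows with [OGG]: `t c = c` on the `p'`-part of `⟨c⟩`.) -/
def m15_Eis1 : Prop :=
  ∀ (p : ℕ) [NeZero p], p.Prime → p ∉ ({2, 3, 5, 7, 13} : Finset ℕ) →
    ∃ p' : ℕ, p'.Prime ∧ p' ∣ eisensteinNumerator p ∧
      ∃ t ∈ m15_T p, (∀ z : JZero p, (∀ σ : GQ, σ • z = z) → ∃ m : ℕ, m ≠ 0 ∧ m • t z = 0) ∧
        ∀ z : JZero p, (∀ ℓ : Nat.Primes, (ℓ : ℕ) ≠ p →
            heckeOperatorBar p ℓ z = ((1 + (ℓ : ℕ) : ℕ) : ℤ) • z) → p' • z = 0 → t z = z

/-- **[SS]** (ON MAIN: `s34_SSp`, proved for S34) inertia at `p` acts on the prime-to-`p` torsion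
of `J₀(p)` with `(σ - 1)² = 0`. -/
def m15_SS : Prop :=
  ∀ (p : ℕ) [NeZero p], p.Prime → ∀ P : ValuationSubring Kb, P.LiesOverPrime p →
    ∀ σ : GQ, σ ∈ P.inertiaSubgroupIn ℚ → ∀ m : ℕ, ¬ p ∣ m → ∀ z : JZero p, m • z = 0 →
      σ • σ • z - 2 • σ • z + z = 0

/-- (WITHDRAWN 12-03: not needed; the weak form `m15_KumPw` of MEis.lean suffices and follows from
S35's NEW-WEIGHT relation + [ADM].) **[KUM-p] the component group at `p` is generated by the cuspidal class, and the identity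
component is divisible**: every `I_p`-invariant point is, modulo a multiple of `c`, divisible by
every `m` prime to `p` inside the `I_p`-invariants (so its Kummer classes are unramified at `p`).
[hard: FIRST WALL; two Gauss valuations of `X₀(p)` at `p` (`s34m_VV`), bidegree, annuli at the
supersingular points.] -/
def m15_KumP : Prop :=
  ∀ (p : ℕ) [NeZero p], p.Prime → ∀ c : m15_Cusps p,
    ∀ P : ValuationSubring Kb, P.LiesOverPrime p →
      ∀ z : JZero p, (∀ σ ∈ P.inertiaSubgroupIn ℚ, σ • z = z) →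
        ∃ k : ℤ, ∀ m : ℕ, ¬ p ∣ m → m ≠ 0 → ∃ y : JZero p,
          (∀ σ ∈ P.inertiaSubgroupIn ℚ, σ • y = y) ∧ m • y = z - k • m15_cl p c.zero c.inf

/-- **[JH] the Eisenstein constituents**: a simple `𝔽_{p'}[G_ℚ]`-subquotient of `J[p']` on which
all `T_ℓ` (`ℓ ≠ p`) act by `1 + ℓ` is `ℤ/p'` or `μ_{p'}`: every `σ` acts on it by `1` or by the
cyclotomic character.  Stated for eigenvectors.  [routine: Eichler–Shimura (S37) + Chebotarev +
Brauer–Nesbitt, all on main.] -/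
def m15_JH : Prop :=
  ∀ (p : ℕ) [NeZero p], p.Prime → ∀ p' : ℕ, p'.Prime → p' ≠ p →
    ∀ V : AddSubgroup (JZero p), (∀ z ∈ V, p' • z = 0) → (∀ σ : GQ, ∀ z ∈ V, σ • z ∈ V) →
      (∀ z ∈ V, ∀ ℓ : Nat.Primes, (ℓ : ℕ) ≠ p →
        heckeOperatorBar p ℓ z = ((1 + (ℓ : ℕ) : ℕ) : ℤ) • z) → Nat.card V = p' →
      (∀ σ : GQ, ∀ z ∈ V, σ • z = z) ∨
        ∀ ℓ : ℕ, ℓ.Prime → ℓ ≠ p → ℓ ≠ p' → ∀ A : ValuationSubring Kb, A.LiesOverPrime ℓ →
          ∀ σ : GQ, A.IsFrobeniusAt σ ℓ → ∀ z ∈ V, σ • z = ℓ • z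

end Fermat.Agent.Lib.S15
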