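/-
(M) BLUEPRINT, node [D] (the moduli dictionary `m15_D` of `MGraph.lean`), helper5.
NOT FOR MAIN yet: typed contracts (`def s15d_… : Prop`) and the CHECKED wiring
`s15d_D_of : m15_CuspNode → s15d_Val → s15d_Place → s15d_Mod → m15_D`.

Vocabulary: `J₁ = j(q)`, `J₂ = j(q^p)` in the function field of `X₀(p)` over `ℚ̄`;
a place `x` HAS VALUES `(j₁, j₂)` when `J₁ - j₁` and `J₂ - j₂` vanish at `x`.

* `s15d_Val`   [D-VAL]   value lemma: a place with values `(j₁, j₂)`, `|j₁|_A > 1`, reduces to the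
                         reduction of the cusp `∞` when `|j₂| = |j₁|^p` and to that of the cusp `0`
                         when `|j₂|^p = |j₁|`.  (Conservation of number only: functions
                         `1 - j₁⁻¹ J₁`, `J₂ / J₁^p`, `J₁ / J₂^p`.)
* `s15d_Place` [D-PLACE] a place with RATIONAL values `(j₁, j₂)`, `j₁` non-integral at some prime
                         `ℓ ≠ p`, is Galois-fixed.  (Newton polygon of `Φ_p(j₁, Y)` and of
                         `Φ_p(X, j₂)` at `ℓ`: the point is a simple point of `Φ_p = 0`, so it carries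
                         exactly one place; norm formula.)
* `s15d_Mod`   [D-MOD]   THE ARITHMETIC HEART ((D1) + (D3)): there is `j₂ ∈ ℚ` (the `j`-invariant of
                         `E/⟨Q⟩`) such that a place with values `(j(E), j₂)` exists (i.e.
                         `Φ_p(j(E), j₂) = 0`), and at every multiplicative prime `ℓ ≠ p`:
                         `Q ∈ E₀` iff `|j₂| = |j(E)|^p`, `Q ∉ E₀` iff `|j₂|^p = |j(E)|`.
                         (v2: the dichotomy is only asked for `A` with `ReductionInputsModL A p`.)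
                         Its own contract graph is in `DMod.lean`.
-/
import Fermat.Agent.Lib.S15.MGraph

set_option autoImplicit false
set_option linter.unusedSectionVars false
set_option linter.unusedVariables false
set_option linter.style.haveILetI false

noncomputable section

namespace Fermat.Agent.Lib.S15

open ModularCurve AlgebraicCurve WeierstrassCurve WeierstrassCurve.Affine

local notation "Kb" => AlgebraicClosure ℚ
local notation "GQ" => (AlgebraicClosure ℚ ≃ₐ[ℚ] AlgebraicClosure ℚ)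

/-! ### Vocabulary -/

section Vocabulary

variable (N : ℕ) [NeZero N]

theorem s15d_J1_mem : coeffEmb Kb jq ∈ modularFunctionFieldBar N := by
  apply coeffEmb_mem_laurentBaseChange
  have h := jqd_mem_full N (one_dvd N)
  rwa [qExpand_one_apply] at h

theorem s15d_J2_mem : coeffEmb Kb (qExpand ℚ N jq) ∈ modularFunctionFieldBar N :=
  coeffEmb_mem_laurentBaseChange _ (jqd_mem_full N dvd_rfl)

/-- `j(q)` in the function field of `X₀(N)` over `ℚ̄`. -/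
def s15d_J1 : ↥(modularFunctionFieldBar N) := ⟨coeffEmb Kb jq, s15d_J1_mem N⟩

/-- `j(q^N)` in the function field of `X₀(N)` over `ℚ̄`. -/
def s15d_J2 : ↥(modularFunctionFieldBar N) := ⟨coeffEmb Kb (qExpand ℚ N jq), s15d_J2_mem N⟩

/-- the place `x` has values `(j₁, j₂)`: `J₁(x) = j₁` and `J₂(x) = j₂`. -/
def s15d_HasValues (x : m15_Pl N) (j₁ j₂ : Kb) : Prop :=
  0 < x.ord (s15d_J1 N - algebraMap Kb ↥(modularFunctionFieldBar N) j₁) ∧
    0 < x.ord (s15d_J2 N - algebraMap Kb ↥(modularFunctionFieldBar N) j₂)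

end Vocabulary

/-- the `j`-invariant `c₄³/Δ` of an integral Weierstrass equation. -/
def s15d_j (W : WeierstrassCurve ℤ) : ℚ := (W.c₄ : ℚ) ^ 3 / (W.Δ : ℚ)

/-! ### The contracts -/

/-- **[D-VAL]** the value lemma. -/
def s15d_Val : Prop :=
  ∀ (p : ℕ) [NeZero p], p.Prime → ∀ c : m15_Cusps p, ∀ ℓ : ℕ, ℓ.Prime → ℓ ≠ p →
    ∀ (A : ValuationSubring Kb), A.LiesOverPrime ℓ → ∀ h : ReductionInputsModL A p,
      ∀ (x : m15_Pl p) (j₁ j₂ : Kb), s15d_HasValues p x j₁ j₂ → j₁ ∉ A →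
        (A.valuation j₂ = A.valuation j₁ ^ p →
          placeReductionModL h x = placeReductionModL h c.inf) ∧
        (A.valuation j₂ ^ p = A.valuation j₁ →
          placeReductionModL h x = placeReductionModL h c.zero)

/-- **[D-PLACE]** rational values, non-integral at a prime `ℓ ≠ p`, determine the place. -/
def s15d_Place : Prop :=
  ∀ (p : ℕ) [NeZero p], p.Prime → ∀ (j₁ j₂ : ℚ) (x : m15_Pl p),
    s15d_HasValues p x (algebraMap ℚ Kb j₁) (algebraMap ℚ Kb j₂) →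
      (∃ ℓ : ℕ, ℓ.Prime ∧ ℓ ≠ p ∧ padicValRat ℓ j₁ < 0) →
        ∀ σ : GQ, m15_gal p σ x = x

/-- **[D-MOD]** the arithmetic heart: the `j`-invariant `j₂` of the quotient curve `E/⟨Q⟩`. -/
def s15d_Mod : Prop :=
  ∀ (p : ℕ) [NeZero p], p.Prime → 5 ≤ p →
    ∀ (W : WeierstrassCurve ℤ), W.Δ ≠ 0 →
    ∀ (Q : ((W.map (Int.castRingHom ℚ))⁄Kb).Point),
      (∀ σ : GQ, σ • Q = Q) → addOrderOf Q = p →
      ∃ j₂ : ℚ,
        (∃ x : m15_Pl p,
          s15d_HasValues p x (algebraMap ℚ Kb (s15d_j W)) (algebraMap ℚ Kb j₂)) ∧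
        ∀ ℓ : ℕ, ℓ.Prime → ℓ ≠ p → (ℓ : ℤ) ∣ W.Δ → ¬ (ℓ : ℤ) ∣ W.c₄ →
          ∀ (A : ValuationSubring Kb), A.LiesOverPrime ℓ → ReductionInputsModL A p →
            (W.InZeroComponentAt A Q →
              A.valuation (algebraMap ℚ Kb j₂) = A.valuation (algebraMap ℚ Kb (s15d_j W)) ^ p) ∧
            (¬ W.InZeroComponentAt A Q →
              A.valuation (algebraMap ℚ Kb j₂) ^ p = A.valuation (algebraMap ℚ Kb (s15d_j W)))

/-! ### The checked wiring -/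

/-- `ℓ ∣ Δ`, `ℓ ∤ c₄`: the `j`-invariant is not integral at `ℓ`. -/
theorem s15d_padicValRat_j_neg {W : WeierstrassCurve ℤ} (hΔ : W.Δ ≠ 0) {ℓ : ℕ} (hℓ : ℓ.Prime)
    (hℓΔ : (ℓ : ℤ) ∣ W.Δ) (hℓc₄ : ¬ (ℓ : ℤ) ∣ W.c₄) : padicValRat ℓ (s15d_j W) < 0 := by
  haveI : Fact ℓ.Prime := ⟨hℓ⟩
  have hc₄ : W.c₄ ≠ 0 := fun h => hℓc₄ (h ▸ dvd_zero _)
  have hc₄' : ((W.c₄ : ℤ) : ℚ) ≠ 0 := by exact_mod_cast hc₄
  have hΔ' : ((W.Δ : ℤ) : ℚ) ≠ 0 := by exact_mod_cast hΔ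
  unfold s15d_j
  rw [padicValRat.div (pow_ne_zero 3 hc₄') hΔ', padicValRat.pow, padicValRat.of_int,
    padicValRat.of_int]
  have h1 : padicValInt ℓ W.c₄ = 0 := padicValInt.eq_zero_of_not_dvd hℓc₄
  have h2 : 1 ≤ padicValInt ℓ W.Δ := by
    have := (padicValInt_dvd_iff (p := ℓ) 1 W.Δ).mp (by simpa using hℓΔ)
    rcases this with h | h
    · exact absurd h hΔ
    · exact h
  rw [h1]
  push_cast
  have : (1 : ℤ) ≤ (padicValInt ℓ W.Δ : ℤ) := by exact_mod_cast h2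
  linarith

/-- `ℓ ∣ Δ`, `ℓ ∤ c₄`: the `j`-invariant does not lie in a valuation ring over `ℓ`. -/
theorem s15d_j_not_mem {W : WeierstrassCurve ℤ} (hΔ : W.Δ ≠ 0) {ℓ : ℕ} (hℓ : ℓ.Prime)
    (hℓΔ : (ℓ : ℤ) ∣ W.Δ) (hℓc₄ : ¬ (ℓ : ℤ) ∣ W.c₄) {A : ValuationSubring Kb}
    (hA : A.LiesOverPrime ℓ) : algebraMap ℚ Kb (s15d_j W) ∉ A := by
  intro hmem
  have hc₄ : W.c₄ ≠ 0 := fun h => hℓc₄ (h ▸ dvd_zero _)
  have hΔK : ((W.Δ : ℤ) : Kb) ≠ 0 := by exact_mod_cast hΔ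
  -- `ℓ` is a nonunit of `A`
  have hℓA : (ℓ : Kb) ∈ A.nonunits := hA
  have hℓlt : A.valuation (ℓ : Kb) < 1 := (A.mem_nonunits_iff).mp hℓA
  -- `Δ` is a nonunit of `A`
  obtain ⟨d, hd⟩ := hℓΔ
  have hintA : ∀ n : ℤ, A.valuation ((n : ℤ) : Kb) ≤ 1 := fun n =>
    (A.valuation_le_one_iff _).mpr (intCast_mem A n)
  have hΔlt : A.valuation ((W.Δ : ℤ) : Kb) < 1 := by
    rw [hd]
    push_cast
    rw [map_mul]
    calc A.valuation (ℓ : Kb) * A.valuation ((d : ℤ) : Kb)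
        ≤ A.valuation (ℓ : Kb) * 1 := by gcongr; exact hintA d
      _ < 1 := by rw [mul_one]; exact hℓlt
  -- `c₄` is a unit of `A`: Bezout
  have hcop : IsCoprime (ℓ : ℤ) W.c₄ := by
    rw [Int.isCoprime_iff_gcd_eq_one]
    have hp : Prime (ℓ : ℤ) := Nat.prime_iff_prime_int.mp hℓ
    exact Int.isCoprime_iff_gcd_eq_one.mp ((Prime.coprime_iff_not_dvd hp).mpr hℓc₄)
  obtain ⟨a, b, hab⟩ := hcop
  have hc₄v : A.valuation ((W.c₄ : ℤ) : Kb) = 1 := by
    refine le_antisymm (hintA _) ?_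
    by_contra hlt
    rw [not_le] at hlt
    have h1 : A.valuation (((a * ℓ + b * W.c₄ : ℤ) : ℤ) : Kb) < 1 := by
      push_cast
      refine lt_of_le_of_lt (A.valuation.map_add _ _) (max_lt ?_ ?_)
      · rw [map_mul]
        calc A.valuation ((a : ℤ) : Kb) * A.valuation (ℓ : Kb)
            ≤ 1 * A.valuation (ℓ : Kb) := by gcongr; exact hintA a
          _ < 1 := by rw [one_mul]; exact hℓlt
      · rw [map_mul]
        calc A.valuation ((b : ℤ) : Kb) * A.valuation ((W.c₄ : ℤ) : Kb)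
            ≤ 1 * A.valuation ((W.c₄ : ℤ) : Kb) := by gcongr; exact hintA b
          _ < 1 := by rw [one_mul]; exact hlt
    rw [hab] at h1
    simp at h1
  -- the valuation of `j`
  have hj : A.valuation (algebraMap ℚ Kb (s15d_j W)) ≤ 1 := (A.valuation_le_one_iff _).mpr hmem
  have hjeq : algebraMap ℚ Kb (s15d_j W) * ((W.Δ : ℤ) : Kb) = ((W.c₄ : ℤ) : Kb) ^ 3 := by
    unfold s15d_j
    rw [map_div₀, map_pow]
    simp only [map_intCast]
    field_simp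
  have := congrArg A.valuation hjeq
  rw [map_mul, map_pow, hc₄v, one_pow] at this
  have hcontra : A.valuation (algebraMap ℚ Kb (s15d_j W)) * A.valuation ((W.Δ : ℤ) : Kb) < 1 :=
    calc A.valuation (algebraMap ℚ Kb (s15d_j W)) * A.valuation ((W.Δ : ℤ) : Kb)
        ≤ 1 * A.valuation ((W.Δ : ℤ) : Kb) := by gcongr
      _ < 1 := by rw [one_mul]; exact hΔlt
  rw [this] at hcontra
  exact lt_irrefl _ hcontra

/-- **[D] from its contracts.** -/
theorem s15d_D_of (hC : m15_CuspNode) (hV : s15d_Val) (hP : s15d_Place) (hM : s15d_Mod) :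
    m15_D := by
  intro p _ hp hp5 c W hΔ Q hQfix hQord
  obtain ⟨j₂, ⟨x, hx⟩, hdich⟩ := hM p hp hp5 W hΔ Q hQfix hQord
  by_cases hex : ∃ ℓ : ℕ, ℓ.Prime ∧ ℓ ≠ p ∧ (ℓ : ℤ) ∣ W.Δ ∧ ¬ (ℓ : ℤ) ∣ W.c₄
  · obtain ⟨ℓ₀, hℓ₀, hℓ₀p, hℓ₀Δ, hℓ₀c₄⟩ := hex
    refine ⟨x, hP p hp (s15d_j W) j₂ x hx
      ⟨ℓ₀, hℓ₀, hℓ₀p, s15d_padicValRat_j_neg hΔ hℓ₀ hℓ₀Δ hℓ₀c₄⟩, ?_⟩
    intro ℓ hℓ hℓp hℓΔ hℓc₄ A hA h
    have hval := hV p hp c ℓ hℓ hℓp A hA h x _ _ hx (s15d_j_not_mem hΔ hℓ hℓΔ hℓc₄ hA)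
    have hd := hdich ℓ hℓ hℓp hℓΔ hℓc₄ A hA h
    exact ⟨fun hin => hval.1 (hd.1 hin), fun hnin => hval.2 (hd.2 hnin)⟩
  · obtain ⟨c', hc'inf, -, -⟩ := hC p hp
    refine ⟨c'.inf, hc'inf, ?_⟩
    intro ℓ hℓ hℓp hℓΔ hℓc₄
    exact absurd ⟨ℓ, hℓ, hℓp, hℓΔ, hℓc₄⟩ hex

end Fermat.Agent.Lib.S15
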