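/-
(M) BLUEPRINT, node [D-MOD] (`s15d_Mod` of `DIface.lean`), helper5.  NOT FOR MAIN yet: typed
contracts and the CHECKED wiring `s15d_Mod_of`.

ROUTE: COMPLEX uniformisation (no Tate curve, no completion) + ONE algebraic identity.

For `W` over a field, `Q` a point of odd prime order `p`, Vélu's sums over `x_k = x(kQ)`,
`1 ≤ k ≤ (p-1)/2`:
  `t = Σ (6x_k² + b₂x_k + b₄)`, `w = Σ ((4x_k³ + b₂x_k² + 2b₄x_k + b₆) + x_k(6x_k² + b₂x_k + b₄))`,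
  `c₄' = c₄ + 240 t`, `c₆' = c₆ + 504 b₂ t + 6048 w`, `j' = 1728 c₄'³ / (c₄'³ - c₆'²)`,
  `Ψ = Π ψ₂(kQ)`, `ψ₂ = 2y + a₁x + a₃`.
(No Vélu THEOREM is used: these are definitions.)

* `s15d_An`  [D-AN]  over `ℂ`: (AN1) `(c₄'³ - c₆'²) Ψ⁸ = 1728 Δ^p` and (AN2) `∃ τ, j(τ) = j(W) ∧
  j(pτ) = j'`.  Proof: `W(ℂ) ≅ ℂ/L` by `(℘, ℘')` (lattice from `ffj_surjective` + `pairOf` +
  `scalePair`; ADDITION THEOREM for `℘` by Liouville), `Q ↔ z₀ = ω₂/p` after a change of basis,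
  `L' = L + ℤ z₀`, `G_k(L') = G_k(L) + Σ_{c ≠ 0} ℘^{(k-2)}(c)/(k-1)!` gives `g₂(L') = c₄'/12`,
  `g₃(L') = c₆'/216`; (AN1) from the half-period values `e_i' = ℘_{L'}(ω_i/2)`.
* `s15d_Bridge` [D-BR] a polynomial relation between the formal `jq`, `jq(q^p)` holds for
  `j(τ)`, `j(pτ)` (`ffb_IsLaurent` calculus, on main).
* `s15d_AnKb` [D-TR] = [D-AN] transported to `ℚ̄` along an embedding `ℚ̄ → ℂ`.
* `s15d_PlaceExists` [D-PLX] a point of `ℚ̄²` killed by all relations of `(jq, jq(q^p))` carries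
  a place.
* `s15d_Rat` [D-RAT] `j' ∈ ℚ` for a Galois-fixed `Q`.
* `s15d_Dich` [D-NP] a place with values `(j₁, j₂)`, `j₁ ∉ A`: `|j₂| = |j₁|^p ∨ |j₂|^p = |j₁|`.
* `s15d_Red` [D-RED] the decision, from (AN1) + the dichotomy + reduction theory:
  `Q ∉ E₀`: every `kQ` reduces to the node, `ψ₂(kQ) ∈ 𝔪`, `t ∈ 𝔪` (`t_P = -2F_x + a₁F_y`), so
  `c₄'` is a unit and `v(Δ') < p v(Δ)`; `Q ∈ E₀`: `ψ₂(kQ)` are units, `v(Δ') = p v(Δ)`, and `c₄'` is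
  a unit (`240 ∈ 𝔪`, or `c̄₄' = p⁴ c̄₄` on the nodal cubic).
-/
import Fermat.Agent.Lib.S15.DIface
import Fermat.Agent.Lib.FF.BridgeJ

set_option autoImplicit false
set_option linter.unusedSectionVars false
set_option linter.unusedVariables false
set_option linter.style.haveILetI false

noncomputable section

namespace Fermat.Agent.Lib.S15

open ModularCurve AlgebraicCurve WeierstrassCurve WeierstrassCurve.Affine
open Fermat.Agent.Lib.FF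

local notation "Kb" => AlgebraicClosure ℚ
local notation "GQ" => (AlgebraicClosure ℚ ≃ₐ[ℚ] AlgebraicClosure ℚ)

/-! ### Vélu's quantities (definitions only) -/

section Velu

variable {K : Type*} [Field K] [DecidableEq K] (W : WeierstrassCurve K)

/-- the `x`-coordinate of a point (`0` at infinity). -/
def s15d_px : W.toAffine.Point → K
  | .zero => 0
  | .some x _ _ => x

/-- the `y`-coordinate of a point (`0` at infinity). -/
def s15d_py : W.toAffine.Point → K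
  | .zero => 0
  | .some _ y _ => y

/-- `t_P = 6x² + b₂x + b₄`. -/
def s15d_t1 (P : W.toAffine.Point) : K :=
  6 * s15d_px W P ^ 2 + W.b₂ * s15d_px W P + W.b₄

/-- `u_P = 4x³ + b₂x² + 2b₄x + b₆`. -/
def s15d_u1 (P : W.toAffine.Point) : K :=
  4 * s15d_px W P ^ 3 + W.b₂ * s15d_px W P ^ 2 + 2 * W.b₄ * s15d_px W P + W.b₆

/-- `ψ₂(P) = 2y + a₁x + a₃`. -/
def s15d_psi2 (P : W.toAffine.Point) : K :=
  2 * s15d_py W P + W.a₁ * s15d_px W P + W.a₃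

/-- Vélu's `t` for the subgroup generated by `Q` (of odd order `p`). -/
def s15d_vt (Q : W.toAffine.Point) (p : ℕ) : K :=
  ∑ k ∈ Finset.Icc 1 ((p - 1) / 2), s15d_t1 W (k • Q)

/-- Vélu's `w`. -/
def s15d_vw (Q : W.toAffine.Point) (p : ℕ) : K :=
  ∑ k ∈ Finset.Icc 1 ((p - 1) / 2),
    (s15d_u1 W (k • Q) + s15d_px W (k • Q) * s15d_t1 W (k • Q))

/-- `c₄` of the quotient curve. -/
def s15d_c4' (Q : W.toAffine.Point) (p : ℕ) : K := W.c₄ + 240 * s15d_vt W Q p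

/-- `c₆` of the quotient curve. -/
def s15d_c6' (Q : W.toAffine.Point) (p : ℕ) : K :=
  W.c₆ + 504 * W.b₂ * s15d_vt W Q p + 6048 * s15d_vw W Q p

/-- `Π ψ₂(kQ)`, `1 ≤ k ≤ (p-1)/2`. -/
def s15d_psiProd (Q : W.toAffine.Point) (p : ℕ) : K :=
  ∏ k ∈ Finset.Icc 1 ((p - 1) / 2), s15d_psi2 W (k • Q)

/-- the `j`-invariant of the quotient curve. -/
def s15d_j' (Q : W.toAffine.Point) (p : ℕ) : K :=
  1728 * s15d_c4' W Q p ^ 3 / (s15d_c4' W Q p ^ 3 - s15d_c6' W Q p ^ 2)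

/-- (AN1): `(c₄'³ - c₆'²) Ψ⁸ = 1728 Δ^p`, i.e. `Δ' = Δ^p / Ψ⁸`. -/
def s15d_AN1 (Q : W.toAffine.Point) (p : ℕ) : Prop :=
  (s15d_c4' W Q p ^ 3 - s15d_c6' W Q p ^ 2) * s15d_psiProd W Q p ^ 8 = 1728 * W.Δ ^ p

end Velu

/-- all polynomial relations over `ℚ` between `jq` and `jq(q^p)` hold for `(j₁, j₂)`. -/
def s15d_Rel (p : ℕ) [NeZero p] {R : Type*} [CommRing R] [Algebra ℚ R] (j₁ j₂ : R) : Prop :=
  ∀ G : MvPolynomial (Fin 2) ℚ, MvPolynomial.aeval ![jq, qExpand ℚ p jq] G = 0 →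
    MvPolynomial.aeval ![j₁, j₂] G = 0

/-! ### The contracts -/

/-- **[D-AN]** complex uniformisation of `(W, ⟨Q⟩)`. -/
def s15d_An : Prop :=
  ∀ (p : ℕ) [NeZero p], p.Prime → p ≠ 2 → ∀ (W : WeierstrassCurve ℂ), W.Δ ≠ 0 →
    ∀ Q : W.toAffine.Point, addOrderOf Q = p →
      s15d_AN1 W Q p ∧
      ∃ τ : UpperHalfPlane, ffj_j τ = W.c₄ ^ 3 / W.Δ ∧ ffj_j (ffb_dmul p τ) = s15d_j' W Q p

/-- **[D-BR]** the formal/analytic bridge for relations. -/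
def s15d_Bridge : Prop :=
  ∀ (p : ℕ) [NeZero p] (τ : UpperHalfPlane), s15d_Rel p (ffj_j τ) (ffj_j (ffb_dmul p τ))

/-- **[D-TR]** (target) [D-AN] over `ℚ̄`. -/
def s15d_AnKb : Prop :=
  ∀ (p : ℕ) [NeZero p], p.Prime → p ≠ 2 → ∀ (W : WeierstrassCurve Kb), W.Δ ≠ 0 →
    ∀ Q : W.toAffine.Point, addOrderOf Q = p →
      s15d_AN1 W Q p ∧
      ∃ (ι : Kb →ₐ[ℚ] ℂ) (τ : UpperHalfPlane),
        ι (W.c₄ ^ 3 / W.Δ) = ffj_j τ ∧ ι (s15d_j' W Q p) = ffj_j (ffb_dmul p τ)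

/-- **[D-PLX]** place existence. -/
def s15d_PlaceExists : Prop :=
  ∀ (p : ℕ) [NeZero p], p.Prime → ∀ j₁ j₂ : Kb, s15d_Rel p j₁ j₂ →
    ∃ x : m15_Pl p, s15d_HasValues p x j₁ j₂

/-- **[D-RAT]** rationality of `j'`. -/
def s15d_Rat : Prop :=
  ∀ (p : ℕ) (W : WeierstrassCurve ℤ)
    (Q : ((W.map (Int.castRingHom ℚ))⁄Kb).Point), (∀ σ : GQ, σ • Q = Q) →
      ∃ j₂ : ℚ, algebraMap ℚ Kb j₂ = s15d_j' ((W.map (Int.castRingHom ℚ)).baseChange Kb) Q p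

/-- **[D-NP]** the dichotomy for a place over a non-integral `j₁`. -/
def s15d_Dich : Prop :=
  ∀ (p : ℕ) [NeZero p], p.Prime → ∀ ℓ : ℕ, ℓ.Prime → ℓ ≠ p →
    ∀ (A : ValuationSubring Kb), A.LiesOverPrime ℓ → ReductionInputsModL A p →
      ∀ (x : m15_Pl p) (j₁ j₂ : Kb), s15d_HasValues p x j₁ j₂ → j₁ ∉ A →
        A.valuation j₂ = A.valuation j₁ ^ p ∨ A.valuation j₂ ^ p = A.valuation j₁

/-- **[D-RED]** the decision at a multiplicative prime. -/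
def s15d_Red : Prop :=
  ∀ (p : ℕ), p.Prime → 5 ≤ p → ∀ (W : WeierstrassCurve ℤ), W.Δ ≠ 0 →
    ∀ (Q : ((W.map (Int.castRingHom ℚ))⁄Kb).Point), addOrderOf Q = p →
      s15d_AN1 ((W.map (Int.castRingHom ℚ)).baseChange Kb) Q p →
      ∀ ℓ : ℕ, ℓ.Prime → ℓ ≠ p → (ℓ : ℤ) ∣ W.Δ → ¬ (ℓ : ℤ) ∣ W.c₄ →
        ∀ (A : ValuationSubring Kb), A.LiesOverPrime ℓ →
          (A.valuation (s15d_j' ((W.map (Int.castRingHom ℚ)).baseChange Kb) Q p) =
              A.valuation (algebraMap ℚ Kb (s15d_j W)) ^ p ∨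
            A.valuation (s15d_j' ((W.map (Int.castRingHom ℚ)).baseChange Kb) Q p) ^ p =
              A.valuation (algebraMap ℚ Kb (s15d_j W))) →
          (W.InZeroComponentAt A Q →
            A.valuation (s15d_j' ((W.map (Int.castRingHom ℚ)).baseChange Kb) Q p) =
              A.valuation (algebraMap ℚ Kb (s15d_j W)) ^ p) ∧
          (¬ W.InZeroComponentAt A Q →
            A.valuation (s15d_j' ((W.map (Int.castRingHom ℚ)).baseChange Kb) Q p) ^ p =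
              A.valuation (algebraMap ℚ Kb (s15d_j W)))

/-! ### The checked wiring -/

theorem s15d_rel_of_algHom {p : ℕ} [NeZero p] (ι : Kb →ₐ[ℚ] ℂ) {j₁ j₂ : Kb}
    (h : s15d_Rel p (ι j₁) (ι j₂)) : s15d_Rel p j₁ j₂ := by
  intro G hG
  have h1 := h G hG
  have h2 : MvPolynomial.aeval ![ι j₁, ι j₂] G = ι (MvPolynomial.aeval ![j₁, j₂] G) := by
    rw [← AlgHom.comp_apply, MvPolynomial.comp_aeval]
    congr 2
    funext i
    fin_cases i <;> rfl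
  rw [h2] at h1
  exact (map_eq_zero_iff ι ι.toRingHom.injective).mp h1

/-- the `j`-invariant of the base change. -/
theorem s15d_j_baseChange (W : WeierstrassCurve ℤ) (hΔ : W.Δ ≠ 0) :
    ((W.map (Int.castRingHom ℚ)).baseChange Kb).c₄ ^ 3 /
      ((W.map (Int.castRingHom ℚ)).baseChange Kb).Δ = algebraMap ℚ Kb (s15d_j W) := by
  unfold s15d_j
  rw [map_div₀, map_pow]
  simp only [WeierstrassCurve.baseChange, WeierstrassCurve.map_c₄, WeierstrassCurve.map_Δ,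
    eq_intCast]

/-- **[D-MOD] from its contracts.** -/
theorem s15d_Mod_of (hAn : s15d_AnKb) (hBr : s15d_Bridge) (hPlx : s15d_PlaceExists)
    (hRat : s15d_Rat) (hDich : s15d_Dich) (hRed : s15d_Red) : s15d_Mod := by
  intro p _ hp hp5 W hΔ Q hQfix hQord
  have hp2 : p ≠ 2 := by omega
  have hΔK : ((W.map (Int.castRingHom ℚ)).baseChange Kb).Δ ≠ 0 := by
    simp only [WeierstrassCurve.baseChange, WeierstrassCurve.map_Δ, eq_intCast]
    rw [map_intCast]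
    exact_mod_cast hΔ
  obtain ⟨hAN1, ι, τ, hτ1, hτ2⟩ :=
    hAn p hp hp2 ((W.map (Int.castRingHom ℚ)).baseChange Kb) hΔK Q hQord
  obtain ⟨j₂, hj₂⟩ := hRat p W Q hQfix
  rw [s15d_j_baseChange W hΔ] at hτ1
  have hrel : s15d_Rel p (algebraMap ℚ Kb (s15d_j W)) (algebraMap ℚ Kb j₂) := by
    apply s15d_rel_of_algHom ι
    rw [hτ1, hj₂, hτ2]
    exact hBr p τ
  obtain ⟨x, hx⟩ := hPlx p hp _ _ hrel
  refine ⟨j₂, ⟨x, hx⟩, ?_⟩
  intro ℓ hℓ hℓp hℓΔ hℓc₄ A hA h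
  have hd := hDich p hp ℓ hℓ hℓp A hA h x _ _ hx (s15d_j_not_mem hΔ hℓ hℓΔ hℓc₄ hA)
  rw [hj₂] at hd ⊢
  exact hRed p hp hp5 W hΔ Q hQord hAN1 ℓ hℓ hℓp hℓΔ hℓc₄ A hA hd

end Fermat.Agent.Lib.S15
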