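/-
(M) [D-AN], part 13 (helper5, prefix `s15da_`): transport of the Weierstrass parametrisation to
an arbitrary Weierstrass curve `W` over `ℂ` with `12 g₂(L) = c₄(W)`, `216 g₃(L) = c₆(W)`, and
Vélu's quantities of `W` at the points `Φ(u)`.
-/
import Mathlib
import Fermat.Agent.Lib.S15.DAnGroup
import Fermat.Agent.Lib.S15.DMod
import Fermat.Agent.Lib.Frey.VarChange

set_option autoImplicit false

open Filter Topology PeriodPair WeierstrassCurve
open Fermat.Agent.Lib.Frey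

noncomputable section

namespace Fermat.Agent.Lib.S15

/-- points of equal curves. -/
def s15da_pointCongr {W₁ W₂ : WeierstrassCurve ℂ} (h : W₁ = W₂) :
    W₁.toAffine.Point ≃+ W₂.toAffine.Point := by
  subst h; exact AddEquiv.refl _

theorem s15da_pointCongr_zero {W₁ W₂ : WeierstrassCurve ℂ} (h : W₁ = W₂) :
    s15da_pointCongr h 0 = 0 := map_zero _

theorem s15da_pointCongr_some {W₁ W₂ : WeierstrassCurve ℂ} (h : W₁ = W₂) {x y : ℂ}
    (hn : W₁.toAffine.Nonsingular x y) :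
    ∃ hn' : W₂.toAffine.Nonsingular x y,
      s15da_pointCongr h (Affine.Point.some x y hn) = Affine.Point.some x y hn' := by
  subst h; exact ⟨hn, rfl⟩

variable (W : WeierstrassCurve ℂ)

/-- the change of variables to the short form. -/
def s15da_vc : VariableChange ℂ :=
  ⟨1, -W.b₂ / 12, -W.a₁ / 2, W.a₁ * W.b₂ / 24 - W.a₃ / 2⟩

theorem s15da_vc_smul {L : PeriodPair} (h2 : 12 * L.g₂ = W.c₄) (h3 : 216 * L.g₃ = W.c₆) :
    s15da_E L = s15da_vc W • W := by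
  have e2 : L.g₂ = W.c₄ / 12 := by rw [← h2]; ring
  have e3 : L.g₃ = W.c₆ / 216 := by rw [← h3]; ring
  ext
  · simp only [s15da_E_a₁, variableChange_a₁, s15da_vc, inv_one, Units.val_one]
    ring
  · simp only [s15da_E_a₂, variableChange_a₂, s15da_vc, inv_one, Units.val_one, b₂]
    ring
  · simp only [s15da_E_a₃, variableChange_a₃, s15da_vc, inv_one, Units.val_one, b₂]
    ring
  · simp only [s15da_E_a₄, variableChange_a₄, s15da_vc, inv_one, Units.val_one, e2, c₄, b₂, b₄]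
    ring
  · simp only [s15da_E_a₆, variableChange_a₆, s15da_vc, inv_one, Units.val_one, e3, c₆, b₂, b₄, b₆]
    ring

variable {W} {L : PeriodPair}

/-- the discriminant condition. -/
theorem s15da_disc_of (h2 : 12 * L.g₂ = W.c₄) (h3 : 216 * L.g₃ = W.c₆) :
    L.g₂ ^ 3 - 27 * L.g₃ ^ 2 = W.Δ := by
  have := W.c_relation
  have e2 : L.g₂ = W.c₄ / 12 := by rw [← h2]; ring
  have e3 : L.g₃ = W.c₆ / 216 := by rw [← h3]; ring
  rw [e2, e3]
  linear_combination (-1 / 1728 : ℂ) * this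

/-- **the parametrisation of `W(ℂ)`.** -/
def s15da_Phi (h2 : 12 * L.g₂ = W.c₄) (h3 : 216 * L.g₃ = W.c₆) (hΔ : W.Δ ≠ 0) :
    ℂ →+ W.toAffine.Point :=
  ((fvc_pointEquiv W (s15da_vc W)).toAddMonoidHom.comp
    (s15da_pointCongr (s15da_vc_smul W h2 h3)).toAddMonoidHom).comp
      (s15da_PsiHom (L := L) (by rw [s15da_disc_of h2 h3]; exact hΔ))

variable (h2 : 12 * L.g₂ = W.c₄) (h3 : 216 * L.g₃ = W.c₆) (hΔ : W.Δ ≠ 0)

theorem s15da_Phi_eq_zero_iff {z : ℂ} : s15da_Phi h2 h3 hΔ z = 0 ↔ z ∈ L.lattice := by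
  unfold s15da_Phi
  simp only [AddMonoidHom.coe_comp, AddEquiv.coe_toAddMonoidHom, Function.comp_apply,
    s15da_PsiHom_apply, EmbeddingLike.map_eq_zero_iff]
  exact s15da_Psi_eq_zero_iff _

theorem s15da_Phi_surjective : Function.Surjective (s15da_Phi h2 h3 hΔ) := by
  unfold s15da_Phi
  simp only [AddMonoidHom.coe_comp, AddEquiv.coe_toAddMonoidHom]
  have hΔ' : L.g₂ ^ 3 - 27 * L.g₃ ^ 2 ≠ 0 := by rw [s15da_disc_of h2 h3]; exact hΔ
  exact ((fvc_pointEquiv W (s15da_vc W)).surjective.comp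
    (s15da_pointCongr (s15da_vc_smul W h2 h3)).surjective).comp (s15da_Psi_surjective hΔ')

/-- the coordinates of `Φ(z)`. -/
theorem s15da_Phi_of_not {z : ℂ} (hz : z ∉ L.lattice) :
    ∃ hn : W.toAffine.Nonsingular (℘[L] z - W.b₂ / 12)
        (℘'[L] z / 2 - W.a₁ / 2 * ℘[L] z + (W.a₁ * W.b₂ / 24 - W.a₃ / 2)),
      s15da_Phi h2 h3 hΔ z = Affine.Point.some _ _ hn := by
  unfold s15da_Phi
  simp only [AddMonoidHom.coe_comp, AddEquiv.coe_toAddMonoidHom, Function.comp_apply,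
    s15da_PsiHom_apply]
  rw [s15da_Psi_of_not _ hz]
  obtain ⟨hn', e⟩ := s15da_pointCongr_some (s15da_vc_smul W h2 h3)
    (s15da_nonsingular (L := L) (by rw [s15da_disc_of h2 h3]; exact hΔ) hz)
  rw [e, fvc_pointEquiv_some]
  have hX : fvc_X (s15da_vc W) (℘[L] z) = ℘[L] z - W.b₂ / 12 := by
    simp only [fvc_X, s15da_vc, Units.val_one]; ring
  have hY : fvc_Y (s15da_vc W) (℘[L] z) (℘'[L] z / 2) =
      ℘'[L] z / 2 - W.a₁ / 2 * ℘[L] z + (W.a₁ * W.b₂ / 24 - W.a₃ / 2) := by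
    simp only [fvc_Y, s15da_vc, Units.val_one]; ring
  have hns := (fvc_nonsingular W (s15da_vc W) _ _).mp hn'
  rw [hX, hY] at hns
  exact ⟨hns, fvc_some_congr hX hY _ _⟩

/-! ### Vélu's quantities at `Φ(u)` -/

theorem s15da_px_Phi {u : ℂ} (hu : u ∉ L.lattice) :
    s15d_px W (s15da_Phi h2 h3 hΔ u) = ℘[L] u - W.b₂ / 12 := by
  obtain ⟨hn, e⟩ := s15da_Phi_of_not h2 h3 hΔ hu
  rw [e]; rfl

theorem s15da_py_Phi {u : ℂ} (hu : u ∉ L.lattice) :
    s15d_py W (s15da_Phi h2 h3 hΔ u) =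
      ℘'[L] u / 2 - W.a₁ / 2 * ℘[L] u + (W.a₁ * W.b₂ / 24 - W.a₃ / 2) := by
  obtain ⟨hn, e⟩ := s15da_Phi_of_not h2 h3 hΔ hu
  rw [e]; rfl

theorem s15da_psi2_Phi {u : ℂ} (hu : u ∉ L.lattice) :
    s15d_psi2 W (s15da_Phi h2 h3 hΔ u) = ℘'[L] u := by
  unfold s15d_psi2
  rw [s15da_px_Phi h2 h3 hΔ hu, s15da_py_Phi h2 h3 hΔ hu]
  ring

theorem s15da_t1_Phi {u : ℂ} (hu : u ∉ L.lattice) :
    s15d_t1 W (s15da_Phi h2 h3 hΔ u) = s15da_D2 L u := by
  have e2 : L.g₂ = W.c₄ / 12 := by rw [← h2]; ring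
  unfold s15d_t1 s15da_D2
  rw [s15da_px_Phi h2 h3 hΔ hu, e2]
  simp only [c₄]
  ring

theorem s15da_u1_Phi {u : ℂ} (hu : u ∉ L.lattice) :
    s15d_u1 W (s15da_Phi h2 h3 hΔ u) = ℘'[L] u ^ 2 := by
  have e2 : L.g₂ = W.c₄ / 12 := by rw [← h2]; ring
  have e3 : L.g₃ = W.c₆ / 216 := by rw [← h3]; ring
  unfold s15d_u1
  rw [s15da_px_Phi h2 h3 hΔ hu, L.derivWeierstrassP_sq u hu, e2, e3]
  simp only [c₄, c₆]
  ring

/-! ### parity on `W(ℂ)` -/

omit h2 h3 hΔ in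
theorem s15da_px_neg (P : W.toAffine.Point) : s15d_px W (-P) = s15d_px W P := by
  rcases P with _ | ⟨x, y, h⟩
  · rfl
  · rw [Affine.Point.neg_some]; rfl

omit h2 h3 hΔ in
theorem s15da_psi2_neg_pow (P : W.toAffine.Point) :
    s15d_psi2 W (-P) ^ 4 = s15d_psi2 W P ^ 4 := by
  rcases P with _ | ⟨x, y, h⟩
  · rfl
  · rw [Affine.Point.neg_some]
    show (2 * W.toAffine.negY x y + W.a₁ * x + W.a₃) ^ 4 = (2 * y + W.a₁ * x + W.a₃) ^ 4
    simp only [Affine.negY]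
    ring

omit h2 h3 hΔ in
theorem s15da_t1_neg (P : W.toAffine.Point) : s15d_t1 W (-P) = s15d_t1 W P := by
  unfold s15d_t1; rw [s15da_px_neg]

omit h2 h3 hΔ in
theorem s15da_u1_neg (P : W.toAffine.Point) : s15d_u1 W (-P) = s15d_u1 W P := by
  unfold s15d_u1; rw [s15da_px_neg]

end Fermat.Agent.Lib.S15
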