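/-
(M) [D-AN], part 14 (helper5, prefix `s15da_`): (AN1) and (AN2) for `Q = g • Φ(c/p)`.
-/
import Mathlib
import Fermat.Agent.Lib.S15.DAnTransport
import Fermat.Agent.Lib.S15.DAnLat
import Fermat.Agent.Lib.S15.DAnComb

set_option autoImplicit false

open Filter Topology PeriodPair WeierstrassCurve UpperHalfPlane
open Fermat.Agent.Lib.RR Fermat.Agent.Lib.FF

noncomputable section

namespace Fermat.Agent.Lib.S15

variable {W : WeierstrassCurve ℂ} (hΔ : W.Δ ≠ 0) (c : ℂ) (hc : c ≠ 0) (τ : ℍ)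
  (h2 : 12 * (s15da_lat c hc τ).g₂ = W.c₄) (h3 : 216 * (s15da_lat c hc τ).g₃ = W.c₆)
  (p : ℕ) [NeZero p]

/-- `p • Φ(c/p) = 0`. -/
theorem s15da_p_smul_Q' : p • s15da_Phi h2 h3 hΔ (c / p) = 0 := by
  have hp : (p : ℂ) ≠ 0 := Nat.cast_ne_zero.mpr (NeZero.ne p)
  rw [← map_nsmul, s15da_Phi_eq_zero_iff, nsmul_eq_mul]
  have := (s15da_lat c hc τ).ω₂_mem_lattice
  rw [s15da_lat_ω₂] at this
  convert this using 1
  field_simp

omit [NeZero p] in
/-- multiples of `Φ(c/p)`. -/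
theorem s15da_smul_Q' (k : ℕ) :
    k • s15da_Phi h2 h3 hΔ (c / p) = s15da_Phi h2 h3 hΔ ((k : ℂ) * (c / p)) := by
  rw [← map_nsmul, nsmul_eq_mul]

theorem s15da_mul_not_mem {k : ℕ} (hk : k < p - 1) :
    ((k + 1 : ℕ) : ℂ) * (c / p) ∉ (s15da_lat c hc τ).lattice := by
  have hp1 : 0 < p := Nat.pos_of_ne_zero (NeZero.ne p)
  exact (s15da_cyc c hc τ p hp1).ord (k + 1) (by omega) (by omega)

/-- **(AN1) and (AN2) for `Q = g • Φ(c/p)`.** -/
theorem s15da_an_of_gen (hp : p.Prime) (hp2 : p ≠ 2) (g : ℕ) (hg : ¬ p ∣ g)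
    (Q : W.toAffine.Point) (hQ : Q = g • s15da_Phi h2 h3 hΔ (c / p)) :
    s15d_AN1 W Q p ∧ ffj_j τ = W.c₄ ^ 3 / W.Δ ∧ ffj_j (ffb_dmul p τ) = s15d_j' W Q p := by
  have := Fact.mk hp
  set L := s15da_lat c hc τ with hL
  set Q' := s15da_Phi h2 h3 hΔ (c / p) with hQ'
  have hodd : Odd p := hp.odd_of_ne_two hp2
  obtain ⟨h, hh⟩ := hodd
  have hph : p - 1 = 2 * h := by omega
  have hph' : (p - 1) / 2 = h := by omega
  have hpQ' : p • Q' = 0 := s15da_p_smul_Q' hΔ c hc τ h2 h3 p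
  have hpQ : p • Q = 0 := by rw [hQ, smul_comm, hpQ', nsmul_zero]
  -- reflection
  have hrefl : ∀ k, 1 ≤ k → k ≤ h → (2 * h + 1 - k) • Q = -(k • Q) := by
    intro k _ hk
    have : (2 * h + 1 - k) • Q + k • Q = 0 := by
      rw [← add_nsmul, Nat.sub_add_cancel (by omega), ← hh, hpQ]
    exact eq_neg_of_add_eq_zero_left this
  -- the three sums over the full range
  set S2 := ∑ k ∈ Finset.range (p - 1), s15da_D2 L (((k + 1 : ℕ) : ℂ) * (c / p)) with hS2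
  set S4 := ∑ k ∈ Finset.range (p - 1), s15da_D4 L (((k + 1 : ℕ) : ℂ) * (c / p)) with hS4
  set PP := ∏ k ∈ Finset.range (p - 1), ℘'[L] (((k + 1 : ℕ) : ℂ) * (c / p)) ^ 4 with hPP
  have hvt : 2 * s15d_vt W Q p = S2 := by
    unfold s15d_vt
    rw [hph']
    have e := s15da_sum_full_eq_half (fun k => s15d_t1 W (k • Q)) h (fun k hk1 hk2 => by
      rw [hrefl k hk1 hk2, s15da_t1_neg])
    rw [two_nsmul, ← two_mul] at e
    rw [← e, ← hph, hQ, s15da_sum_change_gen p hpQ' g hg (fun P => s15d_t1 W P), hS2]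
    refine Finset.sum_congr rfl fun k hk => ?_
    rw [hQ', s15da_smul_Q', s15da_t1_Phi h2 h3 hΔ (s15da_mul_not_mem c hc τ p (Finset.mem_range.mp hk))]
  have hvw : 2 * s15d_vw W Q p = S4 / 12 - W.b₂ / 12 * S2 := by
    unfold s15d_vw
    rw [hph']
    have e := s15da_sum_full_eq_half
      (fun k => s15d_u1 W (k • Q) + s15d_px W (k • Q) * s15d_t1 W (k • Q)) h
      (fun k hk1 hk2 => by
        rw [hrefl k hk1 hk2, s15da_t1_neg, s15da_u1_neg, s15da_px_neg])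
    rw [two_nsmul, ← two_mul] at e
    rw [← e, ← hph, hQ, s15da_sum_change_gen p hpQ' g hg
      (fun P => s15d_u1 W P + s15d_px W P * s15d_t1 W P), hS2, hS4, Finset.sum_div,
      Finset.mul_sum, ← Finset.sum_sub_distrib]
    refine Finset.sum_congr rfl fun k hk => ?_
    have hk' := s15da_mul_not_mem c hc τ p (Finset.mem_range.mp hk)
    rw [hQ', s15da_smul_Q', s15da_t1_Phi h2 h3 hΔ hk', s15da_u1_Phi h2 h3 hΔ hk',
      s15da_px_Phi h2 h3 hΔ hk']
    unfold s15da_D4 s15da_D2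
    ring
  have hpsi : s15d_psiProd W Q p ^ 8 = PP := by
    unfold s15d_psiProd
    rw [hph']
    have e := s15da_prod_full_eq_half (fun k => s15d_psi2 W (k • Q) ^ 4) h (fun k hk1 hk2 => by
      rw [hrefl k hk1 hk2, s15da_psi2_neg_pow])
    rw [show ∀ x : ℂ, x ^ 8 = (x ^ 4) ^ 2 from fun x => by ring, ← Finset.prod_pow, ← e, ← hph, hQ,
      s15da_prod_change_gen p hpQ' g hg (fun P => s15d_psi2 W P ^ 4), hPP]
    refine Finset.prod_congr rfl fun k hk => ?_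
    rw [hQ', s15da_smul_Q',
      s15da_psi2_Phi h2 h3 hΔ (s15da_mul_not_mem c hc τ p (Finset.mem_range.mp hk))]
  -- the analytic core
  obtain ⟨c1, c2, c3⟩ := s15da_core_an c hc τ p ⟨h, hh⟩
  rw [← hL, ← hS2] at c1
  rw [← hL, ← hS4] at c2
  rw [← hL, ← hPP] at c3
  have hc4' : s15d_c4' W Q p = 12 * (s15da_over c hc τ p).g₂ := by
    unfold s15d_c4'
    rw [c1, ← h2]
    linear_combination 120 * hvt
  have hc6' : s15d_c6' W Q p = 216 * (s15da_over c hc τ p).g₃ := by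
    unfold s15d_c6'
    rw [c2, ← h3]
    linear_combination 252 * W.b₂ * hvt + 3024 * hvw
  have hdisc := s15da_disc_of h2 h3
  refine ⟨?_, ?_, ?_⟩
  · unfold s15d_AN1
    rw [hc4', hc6', hpsi, ← hdisc]
    linear_combination 1728 * c3
  · rw [← s15da_lat_j c hc τ, ← hL, h2, hdisc]
  · unfold s15d_j'
    rw [hc4', hc6']
    have := s15da_lat_j (c / p) (s15da_div_ne_zero c hc p) (ffb_dmul p τ)
    rw [← this]
    show _ = 1728 * (12 * (s15da_over c hc τ p).g₂) ^ 3 /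
      ((12 * (s15da_over c hc τ p).g₂) ^ 3 - (216 * (s15da_over c hc τ p).g₃) ^ 2)
    unfold s15da_over
    set a := (s15da_lat (c / p) (s15da_div_ne_zero c hc p) (ffb_dmul p τ)).g₂
    set b := (s15da_lat (c / p) (s15da_div_ne_zero c hc p) (ffb_dmul p τ)).g₃
    have : (12 * a) ^ 3 - (216 * b) ^ 2 = 1728 * (a ^ 3 - 27 * b ^ 2) := by ring
    rw [this, mul_div_mul_left _ _ (by norm_num : (1728 : ℂ) ≠ 0)]

end Fermat.Agent.Lib.S15
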