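/-
(M) [D-AN], part 15 (helper5, prefix `s15da_`): the contract `s15d_An`.
-/
import Mathlib
import Fermat.Agent.Lib.S15.DAnMain

set_option autoImplicit false

open Filter Topology PeriodPair WeierstrassCurve UpperHalfPlane
open Fermat.Agent.Lib.RR Fermat.Agent.Lib.FF
open scoped MatrixGroups

noncomputable section

namespace Fermat.Agent.Lib.S15

/-! ### dependence on the lattice only -/

theorem s15da_tsum_congr {S T : Submodule ℤ ℂ} (h : S = T) (f : ℂ → ℂ) :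
    ∑' l : S, f l = ∑' l : T, f l := by
  subst h; rfl

theorem s15da_wp_congr {L L₂ : PeriodPair} (h : L.lattice = L₂.lattice) (z : ℂ) :
    ℘[L] z = ℘[L₂] z :=
  s15da_tsum_congr h fun l => 1 / (z - l) ^ 2 - 1 / l ^ 2

theorem s15da_wp'_congr {L L₂ : PeriodPair} (h : L.lattice = L₂.lattice) (z : ℂ) :
    ℘'[L] z = ℘'[L₂] z := by
  unfold PeriodPair.derivWeierstrassP
  rw [s15da_tsum_congr h fun l => 2 / (z - l) ^ 3]

theorem s15da_G_congr {L L₂ : PeriodPair} (h : L.lattice = L₂.lattice) (n : ℕ) :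
    L.G n = L₂.G n :=
  s15da_tsum_congr h fun l => (l ^ n)⁻¹

/-- `Φ` depends on the lattice only. -/
theorem s15da_Phi_congr {W : WeierstrassCurve ℂ} (hΔ : W.Δ ≠ 0) {L L₂ : PeriodPair}
    (h : L.lattice = L₂.lattice) (h2 : 12 * L.g₂ = W.c₄) (h3 : 216 * L.g₃ = W.c₆)
    (h2' : 12 * L₂.g₂ = W.c₄) (h3' : 216 * L₂.g₃ = W.c₆) (z : ℂ) :
    s15da_Phi h2 h3 hΔ z = s15da_Phi h2' h3' hΔ z := by
  by_cases hz : z ∈ L.lattice
  · rw [(s15da_Phi_eq_zero_iff h2 h3 hΔ).mpr hz, (s15da_Phi_eq_zero_iff h2' h3' hΔ).mpr (h ▸ hz)]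
  · obtain ⟨hn, e⟩ := s15da_Phi_of_not h2 h3 hΔ hz
    obtain ⟨hn', e'⟩ := s15da_Phi_of_not h2' h3' hΔ (fun hm => hz (h ▸ hm))
    rw [e, e']
    congr 1
    · rw [s15da_wp_congr h]
    · rw [s15da_wp_congr h, s15da_wp'_congr h]

/-! ### the change of basis -/

theorem s15da_lattice_le {L₁ L₂ : PeriodPair} (h1 : L₁.ω₁ ∈ L₂.lattice)
    (h2 : L₁.ω₂ ∈ L₂.lattice) : L₁.lattice ≤ L₂.lattice := by
  show Submodule.span ℤ {L₁.ω₁, L₁.ω₂} ≤ L₂.lattice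
  rw [Submodule.span_le]
  intro x hx
  simp only [Set.mem_insert_iff, Set.mem_singleton_iff] at hx
  rcases hx with rfl | rfl
  · exact h1
  · exact h2

/-- the lattice `c⟨τ, 1⟩` in a new basis. -/
theorem s15da_lat_change (c : ℂ) (hc : c ≠ 0) (τ : ℍ) (γ : SL(2, ℤ))
    (hc' : c * ((γ 1 0 : ℂ) * τ + (γ 1 1 : ℂ)) ≠ 0) :
    (s15da_lat (c * ((γ 1 0 : ℂ) * τ + (γ 1 1 : ℂ))) hc' (γ • τ)).lattice =
      (s15da_lat c hc τ).lattice := by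
  have hd : (γ 1 0 : ℂ) * τ + (γ 1 1 : ℂ) ≠ 0 := right_ne_zero_of_mul hc'
  have hdet : γ 0 0 * γ 1 1 - γ 0 1 * γ 1 0 = 1 := by
    have := γ.det_coe
    rw [Matrix.det_fin_two] at this
    exact this
  have hdetC : (γ 0 0 : ℂ) * (γ 1 1 : ℂ) - (γ 0 1 : ℂ) * (γ 1 0 : ℂ) = 1 := by
    exact_mod_cast congrArg (Int.cast : ℤ → ℂ) hdet
  have hτ' : ((γ • τ : ℍ) : ℂ) =
      ((γ 0 0 : ℂ) * τ + (γ 0 1 : ℂ)) / ((γ 1 0 : ℂ) * τ + (γ 1 1 : ℂ)) := by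
    rw [coe_specialLinearGroup_apply]
    simp
  have e1 : c * ((γ 1 0 : ℂ) * τ + (γ 1 1 : ℂ)) * ((γ • τ : ℍ) : ℂ) =
      c * ((γ 0 0 : ℂ) * τ + (γ 0 1 : ℂ)) := by
    rw [hτ']; field_simp
  apply le_antisymm
  · refine s15da_lattice_le ?_ ?_
    · rw [s15da_lat_ω₁, e1, PeriodPair.mem_lattice]
      refine ⟨γ 0 0, γ 0 1, ?_⟩
      rw [s15da_lat_ω₁, s15da_lat_ω₂]; ring
    · rw [s15da_lat_ω₂, PeriodPair.mem_lattice]
      refine ⟨γ 1 0, γ 1 1, ?_⟩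
      rw [s15da_lat_ω₁, s15da_lat_ω₂]; ring
  · refine s15da_lattice_le ?_ ?_
    · rw [PeriodPair.mem_lattice]
      refine ⟨γ 1 1, -γ 0 1, ?_⟩
      rw [s15da_lat_ω₁, s15da_lat_ω₂, s15da_lat_ω₁, e1]
      push_cast
      linear_combination (c * τ) * hdetC
    · rw [PeriodPair.mem_lattice]
      refine ⟨-γ 1 0, γ 0 0, ?_⟩
      rw [s15da_lat_ω₁, s15da_lat_ω₂, s15da_lat_ω₂, e1]
      push_cast
      linear_combination c * hdetC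

/-! ### the contract -/

/-- **[D-AN]**: complex uniformisation of `(W, ⟨Q⟩)`. -/
theorem s15da_An : s15d_An := by
  intro p _ hp hp2 W hΔ Q hQ
  have hpC : (p : ℂ) ≠ 0 := Nat.cast_ne_zero.mpr hp.ne_zero
  have hrel := W.c_relation
  have hne : W.c₄ ^ 3 - W.c₆ ^ 2 ≠ 0 := by
    rw [← hrel]; exact mul_ne_zero (by norm_num) hΔ
  obtain ⟨τ, c, hc, h2, h3⟩ := s15da_exists_lat W.c₄ W.c₆ hne
  obtain ⟨z₁, hz₁⟩ := s15da_Phi_surjective h2 h3 hΔ Q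
  have hpQ : p • Q = 0 := by rw [← hQ]; exact addOrderOf_nsmul_eq_zero Q
  have hQ0 : Q ≠ 0 := by
    intro h
    rw [h, addOrderOf_zero] at hQ
    exact hp.one_lt.ne hQ
  have hz₁L : z₁ ∉ (s15da_lat c hc τ).lattice := fun h =>
    hQ0 (by rw [← hz₁]; exact (s15da_Phi_eq_zero_iff h2 h3 hΔ).mpr h)
  have hpz : (p : ℂ) * z₁ ∈ (s15da_lat c hc τ).lattice := by
    rw [← s15da_Phi_eq_zero_iff h2 h3 hΔ, ← nsmul_eq_mul, map_nsmul, hz₁, hpQ]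
  obtain ⟨a, b, hab⟩ := PeriodPair.mem_lattice.mp hpz
  rw [s15da_lat_ω₁, s15da_lat_ω₂] at hab
  -- the gcd
  have hd0 : Int.gcd a b ≠ 0 := by
    intro h0
    obtain ⟨ha0, hb0⟩ := Int.gcd_eq_zero_iff.mp h0
    rw [ha0, hb0] at hab
    have : z₁ = 0 := by
      have h' : (p : ℂ) * z₁ = 0 := by rw [← hab]; simp
      exact (mul_eq_zero.mp h').resolve_left hpC
    exact hz₁L (this ▸ zero_mem _)
  obtain ⟨a', b', hco, ha, hb⟩ := Int.exists_gcd_one (Nat.pos_of_ne_zero hd0)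
  set d := Int.gcd a b with hd
  have hpd : ¬ p ∣ d := by
    rintro ⟨e, he⟩
    apply hz₁L
    rw [PeriodPair.mem_lattice]
    refine ⟨a' * e, b' * e, ?_⟩
    rw [s15da_lat_ω₁, s15da_lat_ω₂]
    apply mul_left_cancel₀ hpC
    rw [← hab, ha, hb, he]
    push_cast
    ring
  -- the matrix
  have hcop : IsCoprime a' b' := Int.isCoprime_iff_gcd_eq_one.mpr hco
  obtain ⟨γ, hγ0, hγ1⟩ := hcop.exists_SL2_row 1
  have hden : (a' : ℂ) * τ + b' ≠ 0 := by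
    intro h0
    obtain ⟨h1, h2⟩ := int_mul_add_eq_zero τ a' b' h0
    rw [h1, h2] at hco
    simp at hco
  have hc' : c * ((γ 1 0 : ℂ) * τ + (γ 1 1 : ℂ)) ≠ 0 := by
    rw [hγ0, hγ1]; exact mul_ne_zero hc hden
  have hlat := s15da_lat_change c hc τ γ hc'
  have h2' : 12 * (s15da_lat _ hc' (γ • τ)).g₂ = W.c₄ := by
    rw [← h2]; unfold PeriodPair.g₂; rw [s15da_G_congr hlat]
  have h3' : 216 * (s15da_lat _ hc' (γ • τ)).g₃ = W.c₆ := by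
    rw [← h3]; unfold PeriodPair.g₃; rw [s15da_G_congr hlat]
  have hz : z₁ = (d : ℂ) * (c * ((γ 1 0 : ℂ) * τ + (γ 1 1 : ℂ)) / p) := by
    apply mul_left_cancel₀ hpC
    rw [← hab, ha, hb, hγ0, hγ1]
    push_cast
    field_simp
  have hQd : Q = d • s15da_Phi h2' h3' hΔ (c * ((γ 1 0 : ℂ) * τ + (γ 1 1 : ℂ)) / p) := by
    rw [← map_nsmul, nsmul_eq_mul, ← hz, ← s15da_Phi_congr hΔ hlat.symm h2 h3 h2' h3', hz₁]
  obtain ⟨r1, r2, r3⟩ := s15da_an_of_gen hΔ _ hc' (γ • τ) h2' h3' p hp hp2 d hpd Q hQd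
  exact ⟨r1, γ • τ, r2, r3⟩

end Fermat.Agent.Lib.S15
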