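/-
(M) [D-RED], part A (helper2, prefix `s15b_`): **the sum over the `p`-th roots of unity behind
`c̄₄' = p⁴ c̄₄` on the nodal cubic.**  Mathlib only.

* `s15b_newton`      : Newton's identities (first four power sums) for a finite family, in terms
  of the coefficients of `∏ (1 - w_i X)`;
* `s15b_prod_roots`  : `1 - (1 - X)^p = p X ∏_{ζ ≠ 1} (1 - w_ζ X)`, `w_ζ = -ζ/(1 - ζ)`;
* `s15b_choose_identity` : the identity between binomial coefficients;
* `s15b_rootsum`     : `120 Σ_{ζ^p = 1, ζ ≠ 1} (6 w_ζ⁴ - 12 w_ζ³ + 7 w_ζ² - w_ζ) = p⁴ - 1` in every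
  field in which `p ≠ 0` (no hypothesis on the characteristic otherwise).
-/
import Mathlib

set_option autoImplicit false

namespace Fermat.Agent.Lib.S15

open Polynomial Finset

section Newton

variable {k : Type*} [Field k]

/-- Newton's identities, generating form. -/
theorem s15b_newton_gen {ι : Type*} [DecidableEq ι] (s : Finset ι) (w : ι → k) :
    ∃ R : k[X], (∏ i ∈ s, (1 - C (w i) * X)) *
        (C (∑ i ∈ s, w i) + C (∑ i ∈ s, w i ^ 2) * X ^ 1 + C (∑ i ∈ s, w i ^ 3) * X ^ 2 +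
          C (∑ i ∈ s, w i ^ 4) * X ^ 3) =
      - derivative (∏ i ∈ s, (1 - C (w i) * X)) - X ^ 4 * R := by
  induction s using Finset.induction_on with
  | empty => exact ⟨0, by simp⟩
  | insert a s ha ih =>
    obtain ⟨R, hR⟩ := ih
    refine ⟨C (w a) ^ 5 * (∏ i ∈ s, (1 - C (w i) * X)) + (1 - C (w a) * X) * R, ?_⟩
    rw [Finset.prod_insert ha, Finset.sum_insert ha, Finset.sum_insert ha, Finset.sum_insert ha,
      Finset.sum_insert ha, derivative_mul]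
    simp only [map_add, map_pow, derivative_sub, derivative_one, derivative_mul, derivative_C,
      derivative_X, zero_mul, zero_add, mul_one, zero_sub]
    linear_combination (1 - C (w a) * X) * hR

theorem s15b_newton {ι : Type*} [DecidableEq ι] (s : Finset ι) (w : ι → k) :
    (∏ i ∈ s, (1 - C (w i) * X)).coeff 0 = 1 ∧
    (∑ i ∈ s, w i) = - (∏ i ∈ s, (1 - C (w i) * X)).coeff 1 ∧
    (∑ i ∈ s, w i ^ 2) + (∏ i ∈ s, (1 - C (w i) * X)).coeff 1 * (∑ i ∈ s, w i) =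
      - (2 * (∏ i ∈ s, (1 - C (w i) * X)).coeff 2) ∧
    (∑ i ∈ s, w i ^ 3) + (∏ i ∈ s, (1 - C (w i) * X)).coeff 1 * (∑ i ∈ s, w i ^ 2) +
      (∏ i ∈ s, (1 - C (w i) * X)).coeff 2 * (∑ i ∈ s, w i) =
      - (3 * (∏ i ∈ s, (1 - C (w i) * X)).coeff 3) ∧
    (∑ i ∈ s, w i ^ 4) + (∏ i ∈ s, (1 - C (w i) * X)).coeff 1 * (∑ i ∈ s, w i ^ 3) +
      (∏ i ∈ s, (1 - C (w i) * X)).coeff 2 * (∑ i ∈ s, w i ^ 2) +
      (∏ i ∈ s, (1 - C (w i) * X)).coeff 3 * (∑ i ∈ s, w i) =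
      - (4 * (∏ i ∈ s, (1 - C (w i) * X)).coeff 4) := by
  obtain ⟨R, hR⟩ := s15b_newton_gen s w
  set P := ∏ i ∈ s, (1 - C (w i) * X) with hP
  have h0 : P.coeff 0 = 1 := by
    rw [coeff_zero_eq_eval_zero, hP, eval_prod]
    simp
  have e : P * (C (∑ i ∈ s, w i) + C (∑ i ∈ s, w i ^ 2) * X ^ 1 + C (∑ i ∈ s, w i ^ 3) * X ^ 2 +
          C (∑ i ∈ s, w i ^ 4) * X ^ 3) =
      C (∑ i ∈ s, w i) * P + C (∑ i ∈ s, w i ^ 2) * (P * X ^ 1) +
        C (∑ i ∈ s, w i ^ 3) * (P * X ^ 2) + C (∑ i ∈ s, w i ^ 4) * (P * X ^ 3) := by ring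
  rw [e] at hR
  have c := fun n => congrArg (fun q : k[X] => q.coeff n) hR
  have c0 := c 0
  have c1 := c 1
  have c2 := c 2
  have c3 := c 3
  simp only [coeff_add, coeff_sub, coeff_neg, coeff_C_mul, coeff_mul_X_pow', coeff_X_pow_mul',
    coeff_derivative] at c0 c1 c2 c3
  norm_num at c0 c1 c2 c3
  rw [h0] at c0 c1 c2 c3
  refine ⟨h0, ?_, ?_, ?_, ?_⟩
  · linear_combination c0
  · linear_combination c1
  · linear_combination c2
  · linear_combination c3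

end Newton

section Roots

variable {k : Type*} [Field k]

/-- `1 - (1 - X)^(n+1) = (n+1) X ∏_{j<n} (1 - w_j X)`, `w_j = -ζ^(j+1)/(1 - ζ^(j+1))`. -/
theorem s15b_prod_roots {ζ : k} {n : ℕ} (hζ : IsPrimitiveRoot ζ (n + 1)) :
    (1 : k[X]) - (1 - X) ^ (n + 1) =
      C ((n : k) + 1) * X *
        ∏ j ∈ range n, (1 - C (-ζ ^ (j + 1) / (1 - ζ ^ (j + 1))) * X) := by
  have hζ' : IsPrimitiveRoot (C ζ : k[X]) (n + 1) := hζ.map_of_injective C_injective
  have h1 := X_pow_sub_C_eq_prod hζ' n.succ_pos (rfl : ((1 : k[X]) - X) ^ (n + 1) = _)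
  have h2 := congrArg (Polynomial.eval (1 : k[X])) h1
  simp only [eval_sub, eval_pow, eval_X, eval_C, one_pow, eval_prod] at h2
  rw [h2, prod_range_succ', pow_zero, one_mul, sub_sub_cancel]
  have h3 : ∀ j ∈ range n, (1 : k[X]) - C ζ ^ (j + 1) * (1 - X) =
      C (1 - ζ ^ (j + 1)) * (1 - C (-ζ ^ (j + 1) / (1 - ζ ^ (j + 1))) * X) := by
    intro j hj
    have hne : 1 - ζ ^ (j + 1) ≠ 0 := by
      rw [sub_ne_zero]
      exact (hζ.pow_ne_one_of_pos_of_lt (Nat.succ_ne_zero j)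
        (by have := mem_range.mp hj; omega)).symm
    have e : C (1 - ζ ^ (j + 1)) * C (-ζ ^ (j + 1) / (1 - ζ ^ (j + 1))) = C (-ζ ^ (j + 1)) := by
      rw [← C_mul, mul_div_cancel₀ _ hne]
    generalize -ζ ^ (j + 1) / (1 - ζ ^ (j + 1)) = w at e ⊢
    simp only [map_sub, map_one, map_neg, map_pow] at e ⊢
    linear_combination X * e
  rw [prod_congr rfl h3, prod_mul_distrib, ← map_prod, hζ.prod_one_sub_pow_eq_order]
  ring

/-- the coefficients of `1 - (1 - X)^p`. -/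
theorem s15b_coeff_one_sub_pow (p m : ℕ) (hm : 0 < m) :
    ((1 : k[X]) - (1 - X) ^ p).coeff m = - ((-1) ^ m * (p.choose m : k)) := by
  have e : ((1 : k[X]) - X) ^ p =
      ∑ i ∈ range (p + 1), C ((-1) ^ i * (p.choose i : k)) * X ^ i := by
    rw [sub_eq_neg_add, add_pow]
    refine sum_congr rfl fun i _ => ?_
    simp only [one_pow, mul_one, neg_pow (X : k[X]) i, map_mul, map_pow, map_neg, map_one, map_natCast]
    ring
  rw [coeff_sub, coeff_one, if_neg hm.ne', zero_sub, e, finsetSum_coeff]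
  simp only [coeff_C_mul_X_pow]
  rw [Finset.sum_ite_eq]
  split_ifs with h
  · rfl
  · have : p.choose m = 0 := Nat.choose_eq_zero_of_lt (by have := mem_range.not.mp h; omega)
    rw [this, Nat.cast_zero, mul_zero]

end Roots

section Ident

/-- the integer identity behind `120 Σ f(ζ) = p⁴ - 1`. -/
theorem s15b_choose_identity (p : ℕ) (hp : 5 ≤ p) :
    (120 : ℤ) * (6 * ((p.choose 2 : ℤ) ^ 4 - 4 * p * (p.choose 2 : ℤ) ^ 2 * (p.choose 3 : ℤ) +
          4 * (p : ℤ) ^ 2 * (p.choose 2 : ℤ) * (p.choose 4 : ℤ) +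
          2 * (p : ℤ) ^ 2 * (p.choose 3 : ℤ) ^ 2 - 4 * (p : ℤ) ^ 3 * (p.choose 5 : ℤ)) -
        12 * p * ((p.choose 2 : ℤ) ^ 3 - 3 * p * (p.choose 2 : ℤ) * (p.choose 3 : ℤ) +
          3 * (p : ℤ) ^ 2 * (p.choose 4 : ℤ)) +
        7 * (p : ℤ) ^ 2 * ((p.choose 2 : ℤ) ^ 2 - 2 * p * (p.choose 3 : ℤ)) -
        (p : ℤ) ^ 3 * (p.choose 2 : ℤ)) = (p : ℤ) ^ 4 * ((p : ℤ) ^ 4 - 1) := by
  have h2 : ((p.choose 2 : ℕ) : ℚ) * 2 = p * (p - 1) := by
    have := Nat.choose_succ_right_eq p 1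
    rw [Nat.choose_one_right] at this
    have h := congrArg (Nat.cast : ℕ → ℚ) this
    push_cast [Nat.cast_sub (show 1 ≤ p by omega)] at h
    linarith
  have h3 : ((p.choose 3 : ℕ) : ℚ) * 3 = (p.choose 2 : ℕ) * (p - 2) := by
    have := Nat.choose_succ_right_eq p 2
    have h := congrArg (Nat.cast : ℕ → ℚ) this
    push_cast [Nat.cast_sub (show 2 ≤ p by omega)] at h
    linarith
  have h4 : ((p.choose 4 : ℕ) : ℚ) * 4 = (p.choose 3 : ℕ) * (p - 3) := by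
    have := Nat.choose_succ_right_eq p 3
    have h := congrArg (Nat.cast : ℕ → ℚ) this
    push_cast [Nat.cast_sub (show 3 ≤ p by omega)] at h
    linarith
  have h5 : ((p.choose 5 : ℕ) : ℚ) * 5 = (p.choose 4 : ℕ) * (p - 4) := by
    have := Nat.choose_succ_right_eq p 4
    have h := congrArg (Nat.cast : ℕ → ℚ) this
    push_cast [Nat.cast_sub (show 4 ≤ p by omega)] at h
    linarith
  have e2 : ((p.choose 2 : ℕ) : ℚ) = p * (p - 1) / 2 := by linarith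
  have e3 : ((p.choose 3 : ℕ) : ℚ) = p * (p - 1) * (p - 2) / 6 := by
    have : ((p.choose 3 : ℕ) : ℚ) = (p.choose 2 : ℕ) * (p - 2) / 3 := by linarith
    rw [this, e2]; ring
  have e4 : ((p.choose 4 : ℕ) : ℚ) = p * (p - 1) * (p - 2) * (p - 3) / 24 := by
    have : ((p.choose 4 : ℕ) : ℚ) = (p.choose 3 : ℕ) * (p - 3) / 4 := by linarith
    rw [this, e3]; ring
  have e5 : ((p.choose 5 : ℕ) : ℚ) = p * (p - 1) * (p - 2) * (p - 3) * (p - 4) / 120 := by
    have : ((p.choose 5 : ℕ) : ℚ) = (p.choose 4 : ℕ) * (p - 4) / 5 := by linarith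
    rw [this, e4]; ring
  have key : ((120 : ℤ) * (6 * ((p.choose 2 : ℤ) ^ 4 - 4 * p * (p.choose 2 : ℤ) ^ 2 * (p.choose 3 : ℤ) +
          4 * (p : ℤ) ^ 2 * (p.choose 2 : ℤ) * (p.choose 4 : ℤ) +
          2 * (p : ℤ) ^ 2 * (p.choose 3 : ℤ) ^ 2 - 4 * (p : ℤ) ^ 3 * (p.choose 5 : ℤ)) -
        12 * p * ((p.choose 2 : ℤ) ^ 3 - 3 * p * (p.choose 2 : ℤ) * (p.choose 3 : ℤ) +
          3 * (p : ℤ) ^ 2 * (p.choose 4 : ℤ)) +
        7 * (p : ℤ) ^ 2 * ((p.choose 2 : ℤ) ^ 2 - 2 * p * (p.choose 3 : ℤ)) -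
        (p : ℤ) ^ 3 * (p.choose 2 : ℤ)) : ℚ) = (((p : ℤ) ^ 4 * ((p : ℤ) ^ 4 - 1) : ℤ) : ℚ) := by
    push_cast
    rw [e2, e3, e4, e5]
    ring
  exact_mod_cast key

end Ident

section Sum

variable {k : Type*} [Field k]

/-- **the sum over the nontrivial `p`-th roots of unity.** -/
theorem s15b_rootsum {p : ℕ} (hp5 : 5 ≤ p) (hpk : (p : k) ≠ 0) {ζ : k}
    (hζ : IsPrimitiveRoot ζ p) :
    (120 : k) * ∑ j ∈ range (p - 1),
      (6 * (-ζ ^ (j + 1) / (1 - ζ ^ (j + 1))) ^ 4 - 12 * (-ζ ^ (j + 1) / (1 - ζ ^ (j + 1))) ^ 3 +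
        7 * (-ζ ^ (j + 1) / (1 - ζ ^ (j + 1))) ^ 2 - (-ζ ^ (j + 1) / (1 - ζ ^ (j + 1)))) =
      (p : k) ^ 4 - 1 := by
  classical
  obtain ⟨n, rfl⟩ : ∃ n, p = n + 1 := ⟨p - 1, by omega⟩
  rw [Nat.add_sub_cancel]
  set w : ℕ → k := fun j => -ζ ^ (j + 1) / (1 - ζ ^ (j + 1)) with hw
  have hprod := s15b_prod_roots hζ
  obtain ⟨N0, N1, N2, N3, N4⟩ := s15b_newton (range n) w
  set P := ∏ i ∈ range n, (1 - C (w i) * X) with hP
  have hc : ∀ j : ℕ, ((n + 1 : ℕ) : k) * P.coeff j =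
      - ((-1) ^ (j + 1) * ((n + 1).choose (j + 1) : k)) := by
    intro j
    have h1 := congrArg (fun q : k[X] => q.coeff (j + 1)) hprod
    beta_reduce at h1
    rw [s15b_coeff_one_sub_pow (n + 1) (j + 1) (Nat.succ_pos j), mul_assoc, coeff_C_mul,
      coeff_X_mul] at h1
    rw [h1]
    push_cast
    rfl
  have h1 := hc 1
  have h2 := hc 2
  have h3 := hc 3
  have h4 := hc 4
  have hJ := congrArg (Int.cast : ℤ → k) (s15b_choose_identity (n + 1) hp5)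
  push_cast at hJ
  simp only [sum_sub_distrib, sum_add_distrib, ← mul_sum]
  push_cast
  norm_num at h1 h2 h3 h4
  have hpk' : ((n : k) + 1) ≠ 0 := by
    have := hpk
    push_cast at this
    exact this
  have e1 : P.coeff 1 = - ((n + 1).choose 2 : k) / ((n : k) + 1) := by
    field_simp
    linear_combination h1
  have e2 : P.coeff 2 = ((n + 1).choose 3 : k) / ((n : k) + 1) := by
    field_simp
    linear_combination h2
  have e3 : P.coeff 3 = - ((n + 1).choose 4 : k) / ((n : k) + 1) := by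
    field_simp
    linear_combination h3
  have e4 : P.coeff 4 = ((n + 1).choose 5 : k) / ((n : k) + 1) := by
    field_simp
    linear_combination h4
  have s1 : ∑ i ∈ range n, w i = - P.coeff 1 := N1
  have s2 : ∑ i ∈ range n, w i ^ 2 = - (2 * P.coeff 2) - P.coeff 1 * (∑ i ∈ range n, w i) := by
    linear_combination N2
  have s3 : ∑ i ∈ range n, w i ^ 3 = - (3 * P.coeff 3) - P.coeff 1 * (∑ i ∈ range n, w i ^ 2) -
      P.coeff 2 * (∑ i ∈ range n, w i) := by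
    linear_combination N3
  have s4 : ∑ i ∈ range n, w i ^ 4 = - (4 * P.coeff 4) - P.coeff 1 * (∑ i ∈ range n, w i ^ 3) -
      P.coeff 2 * (∑ i ∈ range n, w i ^ 2) - P.coeff 3 * (∑ i ∈ range n, w i) := by
    linear_combination N4
  rw [s4, s3, s2, s1, e1, e2, e3, e4]
  have hp4 : ((n : k) + 1) ^ 4 ≠ 0 := pow_ne_zero 4 hpk'
  rw [← mul_right_inj' hp4]
  field_simp
  linear_combination hJ

end Sum

end Fermat.Agent.Lib.S15
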