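/-
(M) [D-RED], part B (helper2, prefix `s15b_`): **Vélu's `c₄'` on the nodal cubic**: for a
Weierstrass cubic `W` over an algebraically closed field with `Δ = 0`, `c₄ ≠ 0`, and a nonsingular
point `P` of prime order `p ≥ 5` (`p ≠ 0` in the field):  `c₄ + 240 Σ_{k ≤ (p-1)/2} t(kP) = p⁴ c₄`.

Route: translate the node to the origin (`Lib/S58/NNodePt`), parametrise by `kˣ` (`Lib/S58/XNode`;
`t(u) = d⁴ (6 w⁴ - 12 w³ + 7 w² - w)`, `w = -u/(1 - u)`), and sum over the `p`-th roots of unity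
(`s15b_rootsum`).
-/
import Fermat.Agent.Lib.S15.BRedA
import Fermat.Agent.Lib.S15.DMod
import Fermat.Agent.Lib.S58.XNode
import Fermat.Agent.Lib.S58.NNodePt

set_option autoImplicit false
set_option linter.unusedSectionVars false
set_option linter.unusedVariables false

noncomputable section

namespace Fermat.Agent.Lib.S15

open WeierstrassCurve WeierstrassCurve.Affine Fermat.Agent.Lib.S58 Fermat.Agent.Lib.Frey Finset

section Node

variable {k : Type*} [Field k] [DecidableEq k] {W : WeierstrassCurve k} {α β : k}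

/-- surjectivity of the parametrisation of the nodal cubic away from the node. -/
theorem s15b_node_param (h : s58x_Node W α β) {x y : k} (he : W.toAffine.Equation x y)
    (hx : x ≠ 0) : ∃ u : kˣ, (u : k) ≠ 1 ∧ s58x_X α β u = x ∧ s58x_Y α β u = y := by
  rw [Affine.equation_iff, h.h₁, h.h₂, h.h₃, h.h₄, h.h₆] at he
  have hd : α - β ≠ 0 := sub_ne_zero.mpr h.hne
  have hprod : (y - α * x) * (y - β * x) = x ^ 3 := by linear_combination he
  have hx3 : x ^ 3 ≠ 0 := pow_ne_zero 3 hx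
  have hA : y - α * x ≠ 0 := fun h0 => hx3 (by rw [← hprod, h0, zero_mul])
  have hB : y - β * x ≠ 0 := fun h0 => hx3 (by rw [← hprod, h0, mul_zero])
  have hu0 : (y - α * x) / (y - β * x) ≠ 0 := div_ne_zero hA hB
  have h1u : 1 - (y - α * x) / (y - β * x) = (α - β) * x / (y - β * x) := by
    rw [eq_div_iff hB, sub_mul, one_mul, div_mul_cancel₀ _ hB]; ring
  have h1u0 : 1 - (y - α * x) / (y - β * x) ≠ 0 := by
    rw [h1u]; exact div_ne_zero (mul_ne_zero hd hx) hB
  refine ⟨Units.mk0 _ hu0, ?_, ?_, ?_⟩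
  · rw [Units.val_mk0]
    intro h1
    apply h1u0
    rw [h1, sub_self]
  · rw [Units.val_mk0, s58x_X, h1u]
    field_simp
    linear_combination hprod
  · rw [Units.val_mk0, s58x_Y, h1u]
    field_simp
    linear_combination (y * (α - β)) * hprod

/-- a nonsingular point of the node form is not above `x = 0`. -/
theorem s15b_node_x_ne_zero (h : s58x_Node W α β) {x y : k}
    (hns : W.toAffine.Nonsingular x y) : x ≠ 0 := by
  intro hx
  subst hx
  rw [Affine.nonsingular_iff'] at hns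
  obtain ⟨he, hd⟩ := hns
  rw [Affine.equation_iff, h.h₁, h.h₂, h.h₃, h.h₄, h.h₆] at he
  have hy : y = 0 := by
    have : y ^ 2 = 0 := by linear_combination he
    exact (pow_eq_zero_iff two_ne_zero).mp this
  subst hy
  rw [h.h₁, h.h₂, h.h₃, h.h₄] at hd
  rcases hd with hd | hd <;> exact hd (by ring)

/-- every nonsingular point of the node form has a parameter. -/
theorem s15b_node_pt_surj (h : s58x_Node W α β) (P : W.toAffine.Point) :
    ∃ u : kˣ, s58x_pt h u = P := by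
  rcases P with _ | ⟨x, y, hns⟩
  · exact ⟨1, s58x_pt_one h⟩
  · obtain ⟨u, hu1, hX, hY⟩ := s15b_node_param h hns.1 (s15b_node_x_ne_zero h hns)
    refine ⟨u, ?_⟩
    rw [s58x_pt_of_ne h hu1]
    exact s58x_some_eq _ _ hX hY

theorem s15b_t1_pt (h : s58x_Node W α β) {u : kˣ} (hu : (u : k) ≠ 1) :
    s15d_t1 W (s58x_pt h u) = (α - β) ^ 4 *
      (6 * (-(u : k) / (1 - u)) ^ 4 - 12 * (-(u : k) / (1 - u)) ^ 3 +
        7 * (-(u : k) / (1 - u)) ^ 2 - (-(u : k) / (1 - u))) := by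
  have h1 : (1 : k) - u ≠ 0 := sub_ne_zero.mpr (Ne.symm hu)
  have hpx : s15d_px W (s58x_pt h u) = s58x_X α β u := by
    rw [s58x_pt_of_ne h hu]
    rfl
  rw [s15d_t1, hpx, s58x_X]
  simp only [WeierstrassCurve.b₂, WeierstrassCurve.b₄, h.h₁, h.h₂, h.h₃, h.h₄]
  field_simp
  ring

theorem s15b_node_c4_eq (h : s58x_Node W α β) : W.c₄ = (α - β) ^ 4 := by
  simp only [WeierstrassCurve.c₄, WeierstrassCurve.b₂, WeierstrassCurve.b₄, h.h₁, h.h₂, h.h₃,
    h.h₄]
  ring

/-- **`c₄'` on the node form.** -/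
theorem s15b_node_c4 (h : s58x_Node W α β) {p : ℕ} (hp : p.Prime) (hp5 : 5 ≤ p)
    (hpk : (p : k) ≠ 0) (P : W.toAffine.Point) (hP : p • P = 0) (hP0 : P ≠ 0) :
    s15d_c4' W P p = (p : k) ^ 4 * W.c₄ := by
  obtain ⟨u, rfl⟩ := s15b_node_pt_surj h P
  have hu1 : u ≠ 1 := fun e => hP0 ((s58x_pt_eq_zero_iff h u).mpr e)
  have hup : u ^ p = 1 := by
    rw [← s58x_pt_pow, s58x_pt_eq_zero_iff] at hP
    exact hP
  have : Fact p.Prime := ⟨hp⟩
  have hord : orderOf u = p := orderOf_eq_prime hup hu1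
  have hζ : IsPrimitiveRoot (u : k) p := by
    have := IsPrimitiveRoot.orderOf u
    rw [hord] at this
    exact IsPrimitiveRoot.coe_units_iff.mpr this
  set m := (p - 1) / 2 with hm
  have hpm : p = 2 * m + 1 := by
    rcases hp.eq_two_or_odd' with h2 | ⟨r, hr⟩ <;> omega
  -- the values of `t`
  set G : ℕ → k := fun j =>
    6 * (-(u : k) ^ j / (1 - (u : k) ^ j)) ^ 4 - 12 * (-(u : k) ^ j / (1 - (u : k) ^ j)) ^ 3 +
      7 * (-(u : k) ^ j / (1 - (u : k) ^ j)) ^ 2 - (-(u : k) ^ j / (1 - (u : k) ^ j)) with hG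
  have hne : ∀ j, 0 < j → j < p → (u : k) ^ j ≠ 1 := fun j h0 hj =>
    hζ.pow_ne_one_of_pos_of_lt h0.ne' hj
  have hF : ∀ j ∈ Icc 1 m, s15d_t1 W (j • s58x_pt h u) = (α - β) ^ 4 * G j := by
    intro j hj
    rw [mem_Icc] at hj
    have hj1 : ((u ^ j : kˣ) : k) ≠ 1 := by
      rw [Units.val_pow_eq_pow_val]
      exact hne j (by omega) (by omega)
    rw [← s58x_pt_pow, s15b_t1_pt h hj1, Units.val_pow_eq_pow_val]
  -- symmetry
  have hsym : ∀ j ∈ Ico 1 (m + 1), G (p - j) = G j := by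
    intro j hj
    rw [mem_Ico] at hj
    have h1 : (u : k) ^ j ≠ 1 := hne j (by omega) (by omega)
    have h0 : (u : k) ^ j ≠ 0 := pow_ne_zero _ u.ne_zero
    have hinv : (u : k) ^ (p - j) = ((u : k) ^ j)⁻¹ := by
      apply eq_inv_of_mul_eq_one_left
      rw [← pow_add, Nat.sub_add_cancel (by omega), hζ.pow_eq_one]
    have h1' : (1 : k) - (u : k) ^ j ≠ 0 := sub_ne_zero.mpr (Ne.symm h1)
    simp only [hG, hinv]
    generalize (u : k) ^ j = η at h0 h1'
    have h2 : η - 1 ≠ 0 := fun e => h1' (by linear_combination -e)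
    field_simp
    ring
  have hdouble : ∑ j ∈ Ico 1 p, G j = 2 * ∑ j ∈ Icc 1 m, G j := by
    have e1 : Icc 1 m = Ico 1 (m + 1) := by
      ext j
      simp only [mem_Icc, mem_Ico]
      omega
    rw [e1, ← sum_Ico_consecutive G (show 1 ≤ m + 1 by omega) (show m + 1 ≤ p by omega)]
    have e2 : ∑ j ∈ Ico (m + 1) p, G j = ∑ j ∈ Ico 1 (m + 1), G (p - j) := by
      rw [sum_Ico_reflect G 1 (show m + 1 ≤ p + 1 by omega)]
      have a1 : p + 1 - (m + 1) = m + 1 := by omega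
      have a2 : p + 1 - 1 = p := by omega
      rw [a1, a2]
    rw [e2, sum_congr rfl hsym]
    ring
  have hsum := s15b_rootsum (k := k) hp5 hpk hζ
  have hrange : ∑ j ∈ range (p - 1), G (j + 1) = ∑ j ∈ Ico 1 p, G j := by
    rw [sum_Ico_eq_sum_range]
    refine sum_congr rfl fun i _ => ?_
    rw [add_comm]
  have hsum' : (120 : k) * ∑ j ∈ range (p - 1), G (j + 1) = (p : k) ^ 4 - 1 := hsum
  rw [hrange, hdouble] at hsum'
  rw [s15d_c4', s15d_vt, sum_congr rfl hF, ← mul_sum, s15b_node_c4_eq h]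
  linear_combination (α - β) ^ 4 * hsum'

end Node

section General

variable {k : Type*} [Field k] [DecidableEq k] [IsAlgClosed k]

/-- **Vélu's `c₄'` on a nodal cubic**: `c₄' = p⁴ c₄`. -/
theorem s15b_nodal_c4 (W : WeierstrassCurve k) (hΔ : W.Δ = 0) (hc₄ : W.c₄ ≠ 0) {p : ℕ}
    (hp : p.Prime) (hp5 : 5 ≤ p) (hpk : (p : k) ≠ 0) (P : W.toAffine.Point) (hP : p • P = 0)
    (hP0 : P ≠ 0) : s15d_c4' W P p = (p : k) ^ 4 * W.c₄ := by
  obtain ⟨α, β, h⟩ := s58x_exists_node (s58n_C W • W) (s58n_a₃ W hc₄) (s58n_a₄ W hΔ hc₄)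
    (s58n_a₆ W hΔ hc₄) (s58n_disc_ne_zero W hΔ hc₄)
  set φ := s58n_pointEquiv W with hφ
  set P' := φ.symm P with hP'def
  have hPφ : φ P' = P := AddEquiv.apply_symm_apply φ P
  have hP' : p • P' = 0 := by
    rw [hP'def, ← map_nsmul, hP, map_zero]
  have hP'0 : P' ≠ 0 := by
    intro e
    apply hP0
    rw [← hPφ, e, map_zero]
  have key := s15b_node_c4 h hp hp5 hpk P' hP' hP'0
  have hc : (s58n_C W • W).c₄ = W.c₄ := by
    rw [variableChange_c₄]
    simp [s58n_C]
  have : Fact p.Prime := ⟨hp⟩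
  have hord : addOrderOf P' = p := addOrderOf_eq_prime hP' hP'0
  have ht : ∀ j ∈ Icc 1 ((p - 1) / 2), s15d_t1 W (j • P) = s15d_t1 (s58n_C W • W) (j • P') := by
    intro j hj
    rw [mem_Icc] at hj
    have hjP : j • P = φ (j • P') := by rw [map_nsmul, hPφ]
    have hne : j • P' ≠ 0 := by
      intro e
      have hd := addOrderOf_dvd_of_nsmul_eq_zero e
      rw [hord] at hd
      have := Nat.le_of_dvd (by omega) hd
      omega
    rcases hjp' : j • P' with _ | ⟨x, y, hns⟩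
    · exact absurd hjp' hne
    · obtain ⟨h', e⟩ := s58n_pointEquiv_some W hns
      rw [hjP, hjp', hφ, e]
      simp only [s15d_t1, s15d_px, variableChange_b₂, variableChange_b₄, s58n_C, inv_one,
        Units.val_one, one_pow, one_mul]
      ring
  rw [s15d_c4', s15d_vt] at key ⊢
  rw [sum_congr rfl ht, ← hc]
  exact key

end General

end Fermat.Agent.Lib.S15
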