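/-
(M) [D-RED], part C (helper2, prefix `s15b_`): **the decision at a multiplicative prime, in the
frame of `Lib/S58/GRed.lean`** (`A` a valuation subring of a field `K`, `WA : WeierstrassCurve A`,
generic fibre `s41a_WK A WA`, special fibre `s41a_Wk A WA`, reduction relation `s58g_Red`).

`Q` of prime order `p ≥ 5`, `|p| = 1`, `|Δ| < 1`, `|c₄| = 1`, (AN1) `(c₄'³ - c₆'²) Ψ⁸ = 1728 Δ^p`:
* `s15b_frame_E0`    : `Q` has nonsingular reduction ⇒ `|j'| |Δ|^p = 1`;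
* `s15b_frame_notE0` : `Q` (integral) has singular reduction ⇒ `|j'| |Δ|^p < 1`.
-/
import Fermat.Agent.Lib.S15.BRedB
import Fermat.Agent.Lib.S58.GRed
import Fermat.Agent.Lib.S58.E1Inertia

set_option autoImplicit false
set_option linter.unusedSectionVars false
set_option linter.unusedVariables false

noncomputable section

namespace Fermat.Agent.Lib.S15

open WeierstrassCurve WeierstrassCurve.Affine IsLocalRing Finset
open Fermat.Agent.Lib.S58 Fermat.Agent.Lib.S41 Fermat.Agent.Lib.Frey Fermat.Agent.Lib.EN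

variable {K : Type*} [Field K] [DecidableEq K] (A : ValuationSubring K) (WA : WeierstrassCurve A)
  [DecidableEq (ResidueField A)]

/-! ### Lifts -/

/-- `z ∈ K` is integral with residue `zb`. -/
def s15b_Lift (z : K) (zb : ResidueField A) : Prop := ∃ c : A, (c : K) = z ∧ residue A c = zb

variable {A}

theorem s15b_lift_coe (a : A) : s15b_Lift A (a : K) (residue A a) := ⟨a, rfl, rfl⟩

theorem s15b_lift_add {z w : K} {zb wb : ResidueField A} (h₁ : s15b_Lift A z zb)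
    (h₂ : s15b_Lift A w wb) : s15b_Lift A (z + w) (zb + wb) := by
  obtain ⟨c, rfl, rfl⟩ := h₁
  obtain ⟨d, rfl, rfl⟩ := h₂
  exact ⟨c + d, by push_cast; rfl, map_add _ _ _⟩

theorem s15b_lift_mul {z w : K} {zb wb : ResidueField A} (h₁ : s15b_Lift A z zb)
    (h₂ : s15b_Lift A w wb) : s15b_Lift A (z * w) (zb * wb) := by
  obtain ⟨c, rfl, rfl⟩ := h₁
  obtain ⟨d, rfl, rfl⟩ := h₂
  exact ⟨c * d, by push_cast; rfl, map_mul _ _ _⟩

theorem s15b_lift_pow {z : K} {zb : ResidueField A} (h₁ : s15b_Lift A z zb) (n : ℕ) :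
    s15b_Lift A (z ^ n) (zb ^ n) := by
  obtain ⟨c, rfl, rfl⟩ := h₁
  exact ⟨c ^ n, by push_cast; rfl, map_pow _ _ _⟩

theorem s15b_lift_ofNat (n : ℕ) [n.AtLeastTwo] :
    s15b_Lift A (OfNat.ofNat n : K) (OfNat.ofNat n : ResidueField A) :=
  ⟨OfNat.ofNat n, map_ofNat A.subtype n, map_ofNat (residue A) n⟩

theorem s15b_lift_sum {ι : Type*} (s : Finset ι) {f : ι → K} {g : ι → ResidueField A}
    (h : ∀ i ∈ s, s15b_Lift A (f i) (g i)) : s15b_Lift A (∑ i ∈ s, f i) (∑ i ∈ s, g i) := by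
  classical
  induction s using Finset.induction_on with
  | empty => exact ⟨0, by simp, by simp⟩
  | insert a s ha ih =>
    rw [sum_insert ha, sum_insert ha]
    exact s15b_lift_add (h a (mem_insert_self a s))
      (ih fun i hi => h i (mem_insert_of_mem hi))

theorem s15b_lift_val_le {z : K} {zb : ResidueField A} (h : s15b_Lift A z zb) :
    A.valuation z ≤ 1 := by
  obtain ⟨c, rfl, rfl⟩ := h
  exact A.valuation_le_one c

theorem s15b_lift_val_eq {z : K} {zb : ResidueField A} (h : s15b_Lift A z zb) (hz : zb ≠ 0) :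
    A.valuation z = 1 := by
  obtain ⟨c, rfl, rfl⟩ := h
  exact (A.valuation_eq_one_iff c).mp (s41a_isUnit_of_res_ne_zero A hz)

theorem s15b_lift_val_lt {z : K} {zb : ResidueField A} (h : s15b_Lift A z zb) (hz : zb = 0) :
    A.valuation z < 1 := by
  obtain ⟨c, rfl, rfl⟩ := h
  exact (A.valuation_lt_one_iff c).mp ((residue_eq_zero_iff c).mp hz)

/-! ### The coefficients -/

variable {WA}

theorem s15b_lift_b₂ : s15b_Lift A (s41a_WK A WA).b₂ (s41a_Wk A WA).b₂ :=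
  ⟨WA.b₂, by rw [s41a_WK, map_b₂]; rfl, by rw [s41a_Wk, map_b₂]⟩

theorem s15b_lift_b₄ : s15b_Lift A (s41a_WK A WA).b₄ (s41a_Wk A WA).b₄ :=
  ⟨WA.b₄, by rw [s41a_WK, map_b₄]; rfl, by rw [s41a_Wk, map_b₄]⟩

theorem s15b_lift_c₄ : s15b_Lift A (s41a_WK A WA).c₄ (s41a_Wk A WA).c₄ :=
  ⟨WA.c₄, by rw [s41a_WK, map_c₄]; rfl, by rw [s41a_Wk, map_c₄]⟩

theorem s15b_lift_Δ : s15b_Lift A (s41a_WK A WA).Δ (s41a_Wk A WA).Δ :=
  ⟨WA.Δ, by rw [s41a_WK, map_Δ]; rfl, by rw [s41a_Wk, map_Δ]⟩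

theorem s15b_lift_a₁ : s15b_Lift A (s41a_WK A WA).a₁ (s41a_Wk A WA).a₁ :=
  ⟨WA.a₁, rfl, rfl⟩

theorem s15b_lift_a₃ : s15b_Lift A (s41a_WK A WA).a₃ (s41a_Wk A WA).a₃ :=
  ⟨WA.a₃, rfl, rfl⟩

/-- `t` of a point and of its reduction. -/
theorem s15b_lift_t1 {R : (s41a_WK A WA).toAffine.Point} {Rt : (s41a_Wk A WA).toAffine.Point}
    (h : s58g_Red A WA R Rt) :
    s15b_Lift A (s15d_t1 (s41a_WK A WA) R) (s15d_t1 (s41a_Wk A WA) Rt) := by
  obtain ⟨a, b, h₁, h₂, rfl, rfl⟩ := h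
  unfold s15d_t1
  show s15b_Lift A (6 * (a : K) ^ 2 + (s41a_WK A WA).b₂ * (a : K) + (s41a_WK A WA).b₄)
    (6 * (residue A a) ^ 2 + (s41a_Wk A WA).b₂ * (residue A a) + (s41a_Wk A WA).b₄)
  exact s15b_lift_add (s15b_lift_add (s15b_lift_mul (s15b_lift_ofNat 6)
    (s15b_lift_pow (s15b_lift_coe a) 2)) (s15b_lift_mul s15b_lift_b₂ (s15b_lift_coe a)))
    s15b_lift_b₄

/-- `ψ₂` of a point and of its reduction. -/
theorem s15b_lift_psi2 {R : (s41a_WK A WA).toAffine.Point} {Rt : (s41a_Wk A WA).toAffine.Point}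
    (h : s58g_Red A WA R Rt) :
    s15b_Lift A (s15d_psi2 (s41a_WK A WA) R) (s15d_psi2 (s41a_Wk A WA) Rt) := by
  obtain ⟨a, b, h₁, h₂, rfl, rfl⟩ := h
  unfold s15d_psi2
  show s15b_Lift A (2 * (b : K) + (s41a_WK A WA).a₁ * (a : K) + (s41a_WK A WA).a₃)
    (2 * (residue A b) + (s41a_Wk A WA).a₁ * (residue A a) + (s41a_Wk A WA).a₃)
  exact s15b_lift_add (s15b_lift_add (s15b_lift_mul (s15b_lift_ofNat 2) (s15b_lift_coe b))
    (s15b_lift_mul s15b_lift_a₁ (s15b_lift_coe a))) s15b_lift_a₃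

theorem s15b_mem_of_lift {z : K} {zb : ResidueField A} (h : s15b_Lift A z zb) : z ∈ A := by
  obtain ⟨c, rfl, _⟩ := h
  exact c.2

/-! ### Torsion points -/

/-- nonzero `p`-torsion points are integral (`E₁` has no `p`-torsion). -/
theorem s15b_torsion_int {p : ℕ} (hp : p.Prime) (hp2 : p ≠ 2) (hvp : A.valuation (p : K) = 1)
    {R : (s41a_WK A WA).toAffine.Point} (hR : p • R = 0) (hR0 : R ≠ 0) :
    ∃ (a b : A) (h : (s41a_WK A WA).toAffine.Nonsingular (a : K) (b : K)),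
      R = Point.some _ _ h := by
  obtain ⟨hb2, hb4, hb6, hb8⟩ :=
    s58e_b_integral A.valuation (s41a_WK A WA) (s41a_frd_integral A WA)
  rcases R with _ | ⟨x, y, h⟩
  · exact absurd rfl hR0
  · have hx : A.valuation x ≤ 1 := by
      by_contra hx
      rw [not_le] at hx
      have hE1 : fe1_E1 A.valuation (Point.some x y h : (s41a_WK A WA).toAffine.Point) :=
        Or.inr hx
      exact hR0 (s58e_E1_torsion_free (s41a_WK A WA) A.valuation hb2 hb4 hb6 hb8 hp hp2 hvp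
        hE1 hR)
    have hy := s58e_y_integral A.valuation (s41a_WK A WA) (s41a_frd_integral A WA) h.1 hx
    exact ⟨⟨x, (A.valuation_le_one_iff x).mp hx⟩, ⟨y, (A.valuation_le_one_iff y).mp hy⟩, h, rfl⟩

theorem s15b_t1_mem {p : ℕ} (hp : p.Prime) (hp2 : p ≠ 2) (hvp : A.valuation (p : K) = 1)
    {R : (s41a_WK A WA).toAffine.Point} (hR : p • R = 0) : s15d_t1 (s41a_WK A WA) R ∈ A := by
  by_cases hR0 : R = 0
  · subst hR0
    show 6 * (0 : K) ^ 2 + (s41a_WK A WA).b₂ * (0 : K) + (s41a_WK A WA).b₄ ∈ A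
    rw [mul_zero, zero_pow two_ne_zero, mul_zero, zero_add, zero_add]
    exact s15b_mem_of_lift s15b_lift_b₄
  · obtain ⟨a, b, h, rfl⟩ := s15b_torsion_int hp hp2 hvp hR hR0
    show 6 * (a : K) ^ 2 + (s41a_WK A WA).b₂ * (a : K) + (s41a_WK A WA).b₄ ∈ A
    exact add_mem (add_mem (mul_mem (ofNat_mem A 6) (pow_mem a.2 2))
      (mul_mem (s15b_mem_of_lift s15b_lift_b₂) a.2)) (s15b_mem_of_lift s15b_lift_b₄)

theorem s15b_psi2_mem {p : ℕ} (hp : p.Prime) (hp2 : p ≠ 2) (hvp : A.valuation (p : K) = 1)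
    {R : (s41a_WK A WA).toAffine.Point} (hR : p • R = 0) : s15d_psi2 (s41a_WK A WA) R ∈ A := by
  by_cases hR0 : R = 0
  · subst hR0
    show 2 * (0 : K) + (s41a_WK A WA).a₁ * (0 : K) + (s41a_WK A WA).a₃ ∈ A
    rw [mul_zero, mul_zero, zero_add, zero_add]
    exact s15b_mem_of_lift s15b_lift_a₃
  · obtain ⟨a, b, h, rfl⟩ := s15b_torsion_int hp hp2 hvp hR hR0
    show 2 * (b : K) + (s41a_WK A WA).a₁ * (a : K) + (s41a_WK A WA).a₃ ∈ A
    exact add_mem (add_mem (mul_mem (ofNat_mem A 2) b.2)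
      (mul_mem (s15b_mem_of_lift s15b_lift_a₁) a.2)) (s15b_mem_of_lift s15b_lift_a₃)

/-- multiples of a point of order `p` are `p`-torsion. -/
theorem s15b_nsmul_tors {p : ℕ} {Q : (s41a_WK A WA).toAffine.Point} (hQ : addOrderOf Q = p)
    (j : ℕ) : p • (j • Q) = 0 := by
  rw [smul_comm, ← hQ, addOrderOf_nsmul_eq_zero, smul_zero]

theorem s15b_nsmul_ne_zero {p : ℕ} {Q : (s41a_WK A WA).toAffine.Point} (hQ : addOrderOf Q = p)
    {j : ℕ} (h0 : 0 < j) (hj : j < p) : j • Q ≠ 0 := by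
  intro e
  have hd := addOrderOf_dvd_of_nsmul_eq_zero e
  rw [hQ] at hd
  have := Nat.le_of_dvd h0 hd
  omega

/-- `c₄'` is integral. -/
theorem s15b_c4'_mem {p : ℕ} (hp : p.Prime) (hp2 : p ≠ 2) (hvp : A.valuation (p : K) = 1)
    {Q : (s41a_WK A WA).toAffine.Point} (hQ : addOrderOf Q = p) :
    s15d_c4' (s41a_WK A WA) Q p ∈ A := by
  unfold s15d_c4' s15d_vt
  exact add_mem (s15b_mem_of_lift s15b_lift_c₄) (mul_mem (ofNat_mem A 240)
    (sum_mem fun j _ => s15b_t1_mem hp hp2 hvp (s15b_nsmul_tors hQ j)))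

/-- `Ψ` is integral. -/
theorem s15b_psiProd_mem {p : ℕ} (hp : p.Prime) (hp2 : p ≠ 2) (hvp : A.valuation (p : K) = 1)
    {Q : (s41a_WK A WA).toAffine.Point} (hQ : addOrderOf Q = p) :
    s15d_psiProd (s41a_WK A WA) Q p ∈ A := by
  unfold s15d_psiProd
  exact prod_mem fun j _ => s15b_psi2_mem hp hp2 hvp (s15b_nsmul_tors hQ j)

/-! ### Points with nonsingular reduction -/

/-- **the multiples of the reduction of a point of order `p` do not vanish.** -/
theorem s15b_red_multiples {p : ℕ} (hp : p.Prime) (hp2 : p ≠ 2) (hvp : A.valuation (p : K) = 1)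
    {Q : (s41a_WK A WA).toAffine.Point} {Qt : (s41a_Wk A WA).toAffine.Point}
    (hQ : addOrderOf Q = p) (hR : s58g_Red A WA Q Qt) :
    ∀ j, 0 < j → j < p → j • Qt ≠ 0 := by
  classical
  by_contra hcon
  have hex : ∃ n, 0 < n ∧ n < p ∧ n • Qt = 0 := by
    by_contra hne
    apply hcon
    intro j h0 hj e
    exact hne ⟨j, h0, hj, e⟩
  obtain ⟨hn0, hnp, hnz⟩ := Nat.find_spec hex
  set n := Nat.find hex with hn
  have hmin : ∀ j, 0 < j → j < n → j • Qt ≠ 0 := fun j h0 hj e =>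
    Nat.find_min hex hj ⟨h0, by omega, e⟩
  have hn1 : n ≠ 1 := by
    intro e
    rw [e, one_nsmul] at hnz
    exact (s58g_red_ne_zero hR).2 hnz
  have hred := s58g_red_nsmul hR n hmin (n - 1) (by omega) (by omega)
  have hneg : (n - 1) • Qt = -Qt := by
    apply eq_neg_of_add_eq_zero_left
    rw [← succ_nsmul]
    have : n - 1 + 1 = n := by omega
    rw [this, hnz]
  rw [hneg] at hred
  have hsub := s58g_sub_mem_E1 hred (s58g_red_neg hR)
  have e : (n - 1) • Q - -Q = n • Q := by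
    rw [sub_neg_eq_add, ← succ_nsmul]
    congr 1
    omega
  rw [e] at hsub
  obtain ⟨hb2, hb4, hb6, hb8⟩ :=
    s58e_b_integral A.valuation (s41a_WK A WA) (s41a_frd_integral A WA)
  have hE1 : fe1_E1 A.valuation (n • Q) := (s58e_E1_iff A.valuation (s41a_WK A WA) _).mp hsub
  have h0 := s58e_E1_torsion_free (s41a_WK A WA) A.valuation hb2 hb4 hb6 hb8 hp hp2 hvp hE1
    (s15b_nsmul_tors hQ n)
  exact s15b_nsmul_ne_zero hQ hn0 hnp h0

/-- all the multiples reduce. -/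
theorem s15b_red_all {p : ℕ} (hp : p.Prime) (hp2 : p ≠ 2) (hvp : A.valuation (p : K) = 1)
    {Q : (s41a_WK A WA).toAffine.Point} {Qt : (s41a_Wk A WA).toAffine.Point}
    (hQ : addOrderOf Q = p) (hR : s58g_Red A WA Q Qt) :
    ∀ j, 0 < j → j < p → s58g_Red A WA (j • Q) (j • Qt) :=
  s58g_red_nsmul hR p (s15b_red_multiples hp hp2 hvp hQ hR)

/-- the reduction is killed by `p`. -/
theorem s15b_red_tors {p : ℕ} (hp : p.Prime) (hp2 : p ≠ 2) (hvp : A.valuation (p : K) = 1)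
    {Q : (s41a_WK A WA).toAffine.Point} {Qt : (s41a_Wk A WA).toAffine.Point}
    (hQ : addOrderOf Q = p) (hR : s58g_Red A WA Q Qt) : p • Qt = 0 := by
  have h2 : 2 ≤ p := hp.two_le
  have h1 := s15b_red_all hp hp2 hvp hQ hR (p - 1) (by omega) (by omega)
  have e : (p - 1) • Q = -Q := by
    apply eq_neg_of_add_eq_zero_left
    rw [← succ_nsmul]
    have : p - 1 + 1 = p := by omega
    rw [this, ← hQ, addOrderOf_nsmul_eq_zero]
  rw [e] at h1
  have h3 := s58g_red_unique h1 (s58g_red_neg hR)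
  have : p • Qt = (p - 1) • Qt + Qt := by
    rw [← succ_nsmul]
    congr 1
    omega
  rw [this, h3, neg_add_cancel]

/-- `ψ₂` of a point whose reduction is not of order `2` is a unit. -/
theorem s15b_psi2_unit {R : (s41a_WK A WA).toAffine.Point} {Rt : (s41a_Wk A WA).toAffine.Point}
    (h : s58g_Red A WA R Rt) (h2 : 2 • Rt ≠ 0) :
    A.valuation (s15d_psi2 (s41a_WK A WA) R) = 1 := by
  refine s15b_lift_val_eq (s15b_lift_psi2 h) ?_
  obtain ⟨a, b, h₁, h₂, rfl, rfl⟩ := h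
  intro h0
  apply h2
  have h0' : 2 * residue A b + (s41a_Wk A WA).a₁ * residue A a + (s41a_Wk A WA).a₃ = 0 := h0
  have hneg : -(Point.some (residue A a) (residue A b) h₂ : (s41a_Wk A WA).toAffine.Point) =
      Point.some (residue A a) (residue A b) h₂ := by
    rw [Point.neg_some]
    apply s58x_some_eq
    · rfl
    · rw [Affine.negY]
      linear_combination -h0'
  rw [two_nsmul]
  nth_rewrite 1 [← hneg]
  exact neg_add_cancel _

theorem s15b_lift_zero_of_lt {z : K} {zb : ResidueField A} (h : s15b_Lift A z zb)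
    (hz : A.valuation z < 1) : zb = 0 := by
  obtain ⟨c, rfl, rfl⟩ := h
  exact (residue_eq_zero_iff c).mpr ((A.valuation_lt_one_iff c).mpr hz)

theorem s15b_lift_ne_zero_of_eq {z : K} {zb : ResidueField A} (h : s15b_Lift A z zb)
    (hz : A.valuation z = 1) : zb ≠ 0 := by
  obtain ⟨c, rfl, rfl⟩ := h
  intro h0
  have := (A.valuation_lt_one_iff c).mp ((residue_eq_zero_iff c).mp h0)
  rw [hz] at this
  exact lt_irrefl _ this

theorem s15b_lift_natCast (n : ℕ) : s15b_Lift A (n : K) (n : ResidueField A) :=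
  ⟨(n : A), by push_cast; rfl, map_natCast _ _⟩

/-! ### The formula for `j'` -/

theorem s15b_j'_formula {F : Type*} [Field F] [DecidableEq F] (W : WeierstrassCurve F)
    (Q : W.toAffine.Point) (p : ℕ) (hΔ : W.Δ ≠ 0) (h1728 : (1728 : F) ≠ 0)
    (hAN1 : s15d_AN1 W Q p) :
    s15d_j' W Q p * W.Δ ^ p = s15d_c4' W Q p ^ 3 * s15d_psiProd W Q p ^ 8 := by
  unfold s15d_AN1 at hAN1
  have hD : s15d_c4' W Q p ^ 3 - s15d_c6' W Q p ^ 2 ≠ 0 := by
    intro h0
    rw [h0, zero_mul] at hAN1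
    exact mul_ne_zero h1728 (pow_ne_zero p hΔ) hAN1.symm
  rw [s15d_j', div_mul_eq_mul_div, div_eq_iff hD]
  linear_combination (-(s15d_c4' W Q p ^ 3)) * hAN1

/-! ### The two cases -/

/-- **`Q ∈ E₀`**: `|j'| |Δ|^p = 1`. -/
theorem s15b_frame_E0 [IsAlgClosed (ResidueField A)] {p : ℕ} (hp : p.Prime) (hp5 : 5 ≤ p)
    (hvp : A.valuation (p : K) = 1) (hΔ0 : (s41a_WK A WA).Δ ≠ 0)
    (hΔ : A.valuation (s41a_WK A WA).Δ < 1) (hc₄ : A.valuation (s41a_WK A WA).c₄ = 1)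
    (h1728 : (1728 : K) ≠ 0)
    {Q : (s41a_WK A WA).toAffine.Point} {Qt : (s41a_Wk A WA).toAffine.Point}
    (hQ : addOrderOf Q = p) (hAN1 : s15d_AN1 (s41a_WK A WA) Q p) (hR : s58g_Red A WA Q Qt) :
    A.valuation (s15d_j' (s41a_WK A WA) Q p) * A.valuation (s41a_WK A WA).Δ ^ p = 1 := by
  have hp2 : p ≠ 2 := by omega
  have hall := s15b_red_all hp hp2 hvp hQ hR
  have hmult := s15b_red_multiples hp hp2 hvp hQ hR
  have hΨ : A.valuation (s15d_psiProd (s41a_WK A WA) Q p) = 1 := by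
    unfold s15d_psiProd
    rw [map_prod]
    refine prod_eq_one fun j hj => ?_
    rw [mem_Icc] at hj
    refine s15b_psi2_unit (hall j (by omega) (by omega)) ?_
    rw [← mul_nsmul']
    exact hmult (2 * j) (by omega) (by omega)
  have hlift : s15b_Lift A (s15d_c4' (s41a_WK A WA) Q p) (s15d_c4' (s41a_Wk A WA) Qt p) := by
    unfold s15d_c4' s15d_vt
    refine s15b_lift_add s15b_lift_c₄ (s15b_lift_mul (s15b_lift_ofNat 240)
      (s15b_lift_sum _ fun j hj => ?_))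
    rw [mem_Icc] at hj
    exact s15b_lift_t1 (hall j (by omega) (by omega))
  have hΔk : (s41a_Wk A WA).Δ = 0 := s15b_lift_zero_of_lt s15b_lift_Δ hΔ
  have hc₄k : (s41a_Wk A WA).c₄ ≠ 0 := s15b_lift_ne_zero_of_eq s15b_lift_c₄ hc₄
  have hpk : (p : ResidueField A) ≠ 0 := s15b_lift_ne_zero_of_eq (s15b_lift_natCast p) hvp
  have hnod := s15b_nodal_c4 (s41a_Wk A WA) hΔk hc₄k hp hp5 hpk Qt
    (s15b_red_tors hp hp2 hvp hQ hR) (s58g_red_ne_zero hR).2
  have hc : A.valuation (s15d_c4' (s41a_WK A WA) Q p) = 1 := by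
    refine s15b_lift_val_eq hlift ?_
    rw [hnod]
    exact mul_ne_zero (pow_ne_zero 4 hpk) hc₄k
  rw [← map_pow, ← map_mul, s15b_j'_formula _ Q p hΔ0 h1728 hAN1, map_mul, map_pow, map_pow, hc,
    hΨ, one_pow, one_pow, one_mul]

/-- **`Q ∉ E₀`**: `|j'| |Δ|^p < 1`. -/
theorem s15b_frame_notE0 {p : ℕ} (hp : p.Prime) (hp5 : 5 ≤ p)
    (hvp : A.valuation (p : K) = 1) (hΔ0 : (s41a_WK A WA).Δ ≠ 0) (h1728 : (1728 : K) ≠ 0)
    {Q : (s41a_WK A WA).toAffine.Point}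
    (hQ : addOrderOf Q = p) (hAN1 : s15d_AN1 (s41a_WK A WA) Q p)
    (hR : ¬ ∃ Qt, s58g_Red A WA Q Qt) :
    A.valuation (s15d_j' (s41a_WK A WA) Q p) * A.valuation (s41a_WK A WA).Δ ^ p < 1 := by
  have hp2 : p ≠ 2 := by omega
  have hQ0 : Q ≠ 0 := by
    have := s15b_nsmul_ne_zero hQ (j := 1) (by omega) (by omega)
    rwa [one_nsmul] at this
  have hpQ : p • Q = 0 := by rw [← hQ, addOrderOf_nsmul_eq_zero]
  obtain ⟨a, b, h, hQab⟩ := s15b_torsion_int hp hp2 hvp hpQ hQ0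
  have he : WA.toAffine.Equation a b := s58g_equation_of_nonsingular h
  have hek : (s41a_Wk A WA).toAffine.Equation (residue A a) (residue A b) := he.map (residue A)
  have hsing : ¬ (s41a_Wk A WA).toAffine.Nonsingular (residue A a) (residue A b) := fun h' =>
    hR ⟨_, a, b, h, h', hQab, rfl⟩
  have hFy : 2 * residue A b + (s41a_Wk A WA).a₁ * residue A a + (s41a_Wk A WA).a₃ = 0 := by
    by_contra hne
    apply hsing
    rw [Affine.nonsingular_iff']
    exact ⟨hek, Or.inr hne⟩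
  have hψ1 : A.valuation (s15d_psi2 (s41a_WK A WA) (1 • Q)) < 1 := by
    rw [one_nsmul, hQab]
    have hl : s15b_Lift A (s15d_psi2 (s41a_WK A WA) (Point.some (a : K) (b : K) h))
        (2 * residue A b + (s41a_Wk A WA).a₁ * residue A a + (s41a_Wk A WA).a₃) := by
      show s15b_Lift A (2 * (b : K) + (s41a_WK A WA).a₁ * (a : K) + (s41a_WK A WA).a₃) _
      exact s15b_lift_add (s15b_lift_add (s15b_lift_mul (s15b_lift_ofNat 2) (s15b_lift_coe b))
        (s15b_lift_mul s15b_lift_a₁ (s15b_lift_coe a))) s15b_lift_a₃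
    exact s15b_lift_val_lt hl hFy
  have h1mem : 1 ∈ Icc 1 ((p - 1) / 2) := by
    rw [mem_Icc]
    omega
  have hΨ : A.valuation (s15d_psiProd (s41a_WK A WA) Q p) < 1 := by
    unfold s15d_psiProd
    rw [← mul_prod_erase _ _ h1mem, map_mul]
    have hrest : A.valuation (∏ x ∈ (Icc 1 ((p - 1) / 2)).erase 1,
        s15d_psi2 (s41a_WK A WA) (x • Q)) ≤ 1 :=
      (A.valuation_le_one_iff _).mpr
        (prod_mem fun j _ => s15b_psi2_mem hp hp2 hvp (s15b_nsmul_tors hQ j))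
    calc A.valuation (s15d_psi2 (s41a_WK A WA) (1 • Q)) * A.valuation (∏ x ∈
          (Icc 1 ((p - 1) / 2)).erase 1, s15d_psi2 (s41a_WK A WA) (x • Q))
        ≤ A.valuation (s15d_psi2 (s41a_WK A WA) (1 • Q)) * 1 := mul_le_mul_right hrest _
      _ < 1 := by rw [mul_one]; exact hψ1
  have hc : A.valuation (s15d_c4' (s41a_WK A WA) Q p) ≤ 1 :=
    (A.valuation_le_one_iff _).mpr (s15b_c4'_mem hp hp2 hvp hQ)
  rw [← map_pow, ← map_mul, s15b_j'_formula _ Q p hΔ0 h1728 hAN1, map_mul, map_pow, map_pow]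
  calc A.valuation (s15d_c4' (s41a_WK A WA) Q p) ^ 3 *
        A.valuation (s15d_psiProd (s41a_WK A WA) Q p) ^ 8
      ≤ 1 * A.valuation (s15d_psiProd (s41a_WK A WA) Q p) ^ 8 :=
        mul_le_mul_left (pow_le_one₀ zero_le hc) _
    _ < 1 := by
        rw [one_mul]
        exact pow_lt_one₀ zero_le hΨ (by norm_num)

end Fermat.Agent.Lib.S15
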