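/-
(M) [D-RED], part D (helper2, prefix `s15b_`): **`s15b_Red : s15d_Red`** — the decision at a
multiplicative prime, in the shape of `DMod.lean`.  Transfer of `s15b_frame_E0` /
`s15b_frame_notE0` (`BRedC.lean`) to the Prelude's curves
`(W.map (Int.castRingHom ℚ)).baseChange ℚ̄`, `W.map (Int.castRingHom κ)` and to
`WeierstrassCurve.InZeroComponentAt`.
-/
import Fermat.Agent.Lib.S15.BRedC
import Fermat.Agent.Lib.S18.NResidue
import Fermat.Agent.Lib.S41.ARedRes
import Fermat.Prelude.Def_EllipticCurve_ZeroComponentAt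

set_option autoImplicit false
set_option linter.unusedSectionVars false
set_option linter.unusedVariables false

noncomputable section

namespace Fermat.Agent.Lib.S15

open WeierstrassCurve WeierstrassCurve.Affine IsLocalRing Finset
open Fermat.Agent.Lib.S58 Fermat.Agent.Lib.S41 Fermat.Agent.Lib.S18

local notation "Kb" => AlgebraicClosure ℚ

section Key

variable {K : Type*} [Field K] [DecidableEq K] (A : ValuationSubring K)

/-- the zero component, for a general pair of curves. -/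
def s15b_InZero (W' : WeierstrassCurve K) (Wκ : WeierstrassCurve (ResidueField A))
    (P : W'.toAffine.Point) : Prop :=
  P = 0 ∨ ∃ (x y : K) (h : W'.toAffine.Nonsingular x y),
    P = .some x y h ∧
      (x ∉ A ∨ ∃ (hx : x ∈ A) (hy : y ∈ A),
        Wκ.toAffine.Nonsingular (residue A ⟨x, hx⟩) (residue A ⟨y, hy⟩))

/-- the two cases, for curves propositionally equal to the two fibres of a model over `A`. -/
theorem s15b_red_key (WA : WeierstrassCurve A) [DecidableEq (ResidueField A)]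
    [IsAlgClosed (ResidueField A)] {p : ℕ} (hp : p.Prime) (hp5 : 5 ≤ p)
    (hvp : A.valuation (p : K) = 1) (h1728 : (1728 : K) ≠ 0)
    (W' : WeierstrassCurve K) (hW' : s41a_WK A WA = W')
    (Wκ : WeierstrassCurve (ResidueField A)) (hWκ : s41a_Wk A WA = Wκ)
    (hΔ0 : W'.Δ ≠ 0) (hΔ : A.valuation W'.Δ < 1) (hc₄ : A.valuation W'.c₄ = 1)
    (Q : W'.toAffine.Point) (hQ : addOrderOf Q = p) (hAN1 : s15d_AN1 W' Q p) :
    (s15b_InZero A W' Wκ Q →
      A.valuation (s15d_j' W' Q p) * A.valuation W'.Δ ^ p = 1) ∧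
    (¬ s15b_InZero A W' Wκ Q →
      A.valuation (s15d_j' W' Q p) * A.valuation W'.Δ ^ p < 1) := by
  subst hW' hWκ
  have hp2 : p ≠ 2 := by omega
  have hQ0 : Q ≠ 0 := by
    have := s15b_nsmul_ne_zero hQ (j := 1) (by omega) (by omega)
    rwa [one_nsmul] at this
  have hpQ : p • Q = 0 := by rw [← hQ, addOrderOf_nsmul_eq_zero]
  constructor
  · intro hin
    rcases hin with h0 | ⟨x, y, h, hQxy, hx | ⟨hx, hy, h'⟩⟩
    · exact absurd h0 hQ0
    · exfalso
      obtain ⟨a, b, hab, hQab⟩ := s15b_torsion_int hp hp2 hvp hpQ hQ0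
      rw [hQxy, Point.some.injEq] at hQab
      apply hx
      rw [hQab.1]
      exact a.2
    · exact s15b_frame_E0 hp hp5 hvp hΔ0 hΔ hc₄ h1728 hQ hAN1
        (Qt := Point.some _ _ h') ⟨⟨x, hx⟩, ⟨y, hy⟩, h, h', hQxy, rfl⟩
  · intro hnin
    refine s15b_frame_notE0 hp hp5 hvp hΔ0 h1728 hQ hAN1 ?_
    rintro ⟨Qt, a, b, h, h', hQab, -⟩
    exact hnin (Or.inr ⟨a, b, h, hQab, Or.inr ⟨a.2, b.2, h'⟩⟩)

end Key

section Final

/-- the coefficients of the curve over `ℚ̄`. -/
theorem s15b_bc_Δ (W : WeierstrassCurve ℤ) :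
    ((W.map (Int.castRingHom ℚ)).baseChange Kb).Δ = ((W.Δ : ℤ) : Kb) := by
  show ((W.map (Int.castRingHom ℚ)).map (algebraMap ℚ Kb)).Δ = _
  rw [map_Δ, map_Δ, eq_intCast, map_intCast]

theorem s15b_bc_c₄ (W : WeierstrassCurve ℤ) :
    ((W.map (Int.castRingHom ℚ)).baseChange Kb).c₄ = ((W.c₄ : ℤ) : Kb) := by
  show ((W.map (Int.castRingHom ℚ)).map (algebraMap ℚ Kb)).c₄ = _
  rw [map_c₄, map_c₄, eq_intCast, map_intCast]

theorem s15b_val_int_lt {A : ValuationSubring Kb} {ℓ : ℕ} (hA : A.LiesOverPrime ℓ) {n : ℤ}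
    (hn : (ℓ : ℤ) ∣ n) : A.valuation ((n : ℤ) : Kb) < 1 := by
  obtain ⟨m, rfl⟩ := hn
  have h1 : A.valuation ((ℓ : ℕ) : Kb) < 1 := hA
  have h2 : A.valuation ((m : ℤ) : Kb) ≤ 1 :=
    (A.valuation_le_one_iff _).mpr (intCast_mem A m)
  push_cast
  rw [map_mul]
  calc A.valuation ((ℓ : ℕ) : Kb) * A.valuation ((m : ℤ) : Kb)
      ≤ A.valuation ((ℓ : ℕ) : Kb) * 1 := mul_le_mul_right h2 _
    _ < 1 := by rw [mul_one]; exact h1

/-- **[D-RED]** the decision at a multiplicative prime. -/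
theorem s15b_Red : s15d_Red := by
  intro p hp hp5 W hΔ Q hQord hAN1 ℓ hℓ hℓp hℓΔ hℓc₄ A hA hd
  classical
  have := s18n_isAlgClosed_residueField A
  have hvp : A.valuation ((p : ℕ) : Kb) = 1 :=
    s41a_valuation_natCast_eq_one A hℓ hA (fun hdv =>
      hℓp ((Nat.prime_dvd_prime_iff_eq hℓ hp).mp hdv))
  have h1728 : (1728 : Kb) ≠ 0 := by norm_num
  have hWK : s41a_WK A (W.map (Int.castRingHom A)) =
      (W.map (Int.castRingHom ℚ)).baseChange Kb := by
    show (W.map (Int.castRingHom A)).map A.subtype =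
      (W.map (Int.castRingHom ℚ)).map (algebraMap ℚ Kb)
    rw [WeierstrassCurve.map_map, WeierstrassCurve.map_map]
    congr 1
  have hWk : s41a_Wk A (W.map (Int.castRingHom A)) =
      W.map (Int.castRingHom (ResidueField A)) := by
    show (W.map (Int.castRingHom A)).map (residue A) = _
    rw [WeierstrassCurve.map_map]
    congr 1
  have hΔ0 : ((W.map (Int.castRingHom ℚ)).baseChange Kb).Δ ≠ 0 := by
    rw [s15b_bc_Δ]
    exact_mod_cast hΔ
  have hvΔ : A.valuation ((W.map (Int.castRingHom ℚ)).baseChange Kb).Δ < 1 := by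
    rw [s15b_bc_Δ]
    exact s15b_val_int_lt hA hℓΔ
  have hvc₄ : A.valuation ((W.map (Int.castRingHom ℚ)).baseChange Kb).c₄ = 1 := by
    rw [s15b_bc_c₄]
    exact s41a_valuation_intCast_eq_one A hℓ hA hℓc₄
  obtain ⟨k1, k2⟩ := s15b_red_key A (W.map (Int.castRingHom A)) hp hp5 hvp h1728 _ hWK _ hWk
    hΔ0 hvΔ hvc₄ Q hQord hAN1
  -- the valuation of `j`
  have hj : A.valuation (algebraMap ℚ Kb (s15d_j W)) ^ p *
      A.valuation ((W.map (Int.castRingHom ℚ)).baseChange Kb).Δ ^ p = 1 := by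
    rw [← s15d_j_baseChange W hΔ, ← mul_pow, ← map_mul, div_mul_cancel₀ _ hΔ0, map_pow, hvc₄,
      one_pow, one_pow]
  have hΔp : A.valuation ((W.map (Int.castRingHom ℚ)).baseChange Kb).Δ ^ p ≠ 0 :=
    pow_ne_zero p ((map_ne_zero _).mpr hΔ0)
  constructor
  · intro hin
    have h1 := k1 hin
    rw [← hj] at h1
    exact mul_right_cancel₀ hΔp h1
  · intro hnin
    have h1 := k2 hnin
    refine hd.resolve_left fun e => ?_
    rw [e, hj] at h1
    exact lt_irrefl _ h1

end Final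

end Fermat.Agent.Lib.S15
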