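/-
(M) BLUEPRINT, part 2 (helper7): the REFINED sub-graph of the wall [EIS] (`m15_Eis`, MGraph.lean).
NOT FOR MAIN: typed nodes only.

The Eisenstein descent is organised as in Mazur's "Rational points on modular curves" (admissible
groups, Prop. I.1.7 of the Eisenstein-ideal paper) and NOT through multiplicity one: no `dlog`, no
`q`-expansion principle in characteristic `p'`, no Shimura subgroup, no Gorenstein property, no
component group.  Everything is carried by ONE curve-free inequality about finite Galois modules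
([ADM] and its dual [ADM*]) and by the growth `r → ∞` of the Kummer modules
`E_r = [p'^r]⁻¹ J(ℚ) / J(ℚ)`.

Notation: `ℓ(X) = log_{p'} |X|`.  `G_r = J[p'^r]_𝔓` (the Eisenstein part), `W_r = (E_r)_𝔓`.
  [ADM]   ℓ(W^{G_ℚ}) + ℓ(W) ≥ ℓ(W^{c=1}) + ℓ(W^{I_p})          (c = complex conjugation)
  [ADM*]  ℓ(Hom_{G_ℚ}(W, μ)) + ℓ(W) ≥ ℓ(W^{c=-1}) + ℓ(W^{I_p})
for every finite `p'`-primary `G_ℚ`-module `W` (`p'` odd) which is unramified outside `p p'`, flat
at `p'` (`s19_IsOrder`) and Eisenstein (`(σ-1)(σ-q)` nilpotent for Frobenius elements `σ` at `q`).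
-/
import Fermat.Agent.Lib.S15.MGraph
import Fermat.Agent.Lib.S19.IfaceOrder
import Fermat.Prelude.Def_GaloisRep_ComplexConjugation
import Fermat.Prelude.Def_EllipticCurve_FrobeniusTrace

set_option autoImplicit false
set_option linter.unusedSectionVars false
set_option linter.unusedVariables false

noncomputable section

namespace Fermat.Agent.Lib.S15

open ModularCurve AlgebraicCurve Fermat.Agent.Lib.S19

local notation "Kb" => AlgebraicClosure ℚ
local notation "GQ" => (AlgebraicClosure ℚ ≃ₐ[ℚ] AlgebraicClosure ℚ)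

/-! ### Vocabulary for finite Galois modules -/

section Modules

variable (W : Type) [AddCommGroup W] [DistribMulAction GQ W]

/-- the points fixed by a set of Galois elements. -/
def m15_fix (S : Set GQ) : AddSubgroup W where
  carrier := {w | ∀ σ ∈ S, σ • w = w}
  zero_mem' := fun σ _ => smul_zero σ
  add_mem' := fun {a b} ha hb σ hσ => by rw [smul_add, ha σ hσ, hb σ hσ]
  neg_mem' := fun {a} ha σ hσ => by rw [smul_neg, ha σ hσ]

/-- the `ε`-eigenspace (`ε = ± 1`) of a Galois element. -/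
def m15_eig (σ : GQ) (ε : ℤ) : AddSubgroup W where
  carrier := {w | σ • w = ε • w}
  zero_mem' := by simp
  add_mem' := fun {a b} ha hb => by
    show σ • (a + b) = ε • (a + b)
    have ha' : σ • a = ε • a := ha
    have hb' : σ • b = ε • b := hb
    rw [smul_add, ha', hb', smul_add]
  neg_mem' := fun {a} ha => by
    show σ • (-a) = ε • (-a)
    have ha' : σ • a = ε • a := ha
    rw [smul_neg, ha', smul_neg]

/-- `Hom_{G_ℚ}(W, μ)`: the Galois-equivariant characters of `W`. -/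
def m15_HomMu : Set (W → Kbˣ) :=
  {φ | (∀ w w' : W, φ (w + w') = φ w * φ w') ∧
    ∀ (σ : GQ) (w : W), ((φ (σ • w) : Kbˣ) : Kb) = σ ((φ w : Kbˣ) : Kb)}

/-- **an Eisenstein-admissible module** for `(p, p')`: `p'`-primary, unramified outside `p p'`,
flat at `p'`, and all its constituents are `ℤ/p'` or `μ_{p'}` (Frobenius form). -/
structure m15_IsAdm (p p' : ℕ) : Prop where
  primary : ∀ w : W, ∃ k : ℕ, p' ^ k • w = 0
  eis : ∀ q : ℕ, q.Prime → q ≠ p → q ≠ p' → ∀ A : ValuationSubring Kb, A.LiesOverPrime q →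
    ∀ σ : GQ, A.IsFrobeniusAt σ q → ∀ w : W, ∃ k : ℕ,
      (((DistribMulAction.toAddMonoidEnd GQ W σ - 1) *
        (DistribMulAction.toAddMonoidEnd GQ W σ - (q : AddMonoid.End W))) ^ k) w = 0
  unram : ∀ ℓ : ℕ, ℓ.Prime → ℓ ≠ p → ℓ ≠ p' → ∀ A : ValuationSubring Kb, A.LiesOverPrime ℓ →
    ∀ σ ∈ A.inertiaSubgroupIn ℚ, ∀ w : W, σ • w = w
  flat : ∃ H, s19_IsOrder p' W H

end Modules

/-! ### The two curve-free inequalities -/

/-- **[ADM]** (Mazur I.1.7, Selmer form, `p'` odd).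
[routine-hard 4–6 k, NO curve: dévissage in the category of pairs `(V, V⁰ ⊆ V^{I_p})`; six-term
sequences (sub/quotient/product of orders: `s19_OrderSub/Quot/Prod`, on main); the four simple
objects `ℤ/p'`, `μ_{p'}`, each complete or `♭` at `p`: Minkowski (`kwn_char_eq_one`, on main),
Kummer theory of `ℚ`, and the two local facts at `p'`
(B1) a flat extension of `ℤ/p'` by `ℤ/p'` is unramified at `p'`
     (`s56o_redKer_inertia` + `s56o_redKer_spq`, Lib/S56/FHopf, on main),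
(B3) a flat extension of `ℤ/p'` by `μ_{p'}` is peu ramifiée (Fontaine's bound `s56r_Pm`).] -/
def m15_Adm : Prop :=
  ∀ p p' : ℕ, p.Prime → p'.Prime → p' ≠ 2 → p' ≠ p →
    ∀ (W : Type) [AddCommGroup W] [Finite W] [DistribMulAction GQ W], m15_IsAdm W p p' →
      ∀ A : ValuationSubring Kb, A.LiesOverPrime p →
        Nat.card (m15_eig W complexConjugation 1) *
            Nat.card (m15_fix W (A.inertiaSubgroupIn ℚ : Set GQ)) ≤
          Nat.card (m15_fix W Set.univ) * Nat.card W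

/-- **[ADM*]** the dual inequality (same proof with `Ext(−, μ)`; (B1') a flat extension of
`μ_{p'}` by `μ_{p'}` is unramified at `p'`, again Fontaine's bound). -/
def m15_AdmDual : Prop :=
  ∀ p p' : ℕ, p.Prime → p'.Prime → p' ≠ 2 → p' ≠ p →
    ∀ (W : Type) [AddCommGroup W] [Finite W] [DistribMulAction GQ W], m15_IsAdm W p p' →
      ∀ A : ValuationSubring Kb, A.LiesOverPrime p →
        Nat.card (m15_eig W complexConjugation (-1)) *
            Nat.card (m15_fix W (A.inertiaSubgroupIn ℚ : Set GQ)) ≤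
          Nat.card ↥(m15_HomMu W) * Nat.card W

/-- **[TAME]** the prime-to-`p` quotient of an inertia group at `p` is procyclic: a `p'`-primary
module on which every inertia element is quadratic unipotent has at least "half" invariants.
[routine 1–2 k: `I/P ↪ k^×`; Lib/GC/Tame, S56 `GTameAbs`.] -/
def m15_Tame : Prop :=
  ∀ p p' : ℕ, p.Prime → p'.Prime → p' ≠ p →
    ∀ (W : Type) [AddCommGroup W] [Finite W] [DistribMulAction GQ W],
      (∀ w : W, ∃ k : ℕ, p' ^ k • w = 0) →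
      (∃ E : IntermediateField ℚ Kb, FiniteDimensional ℚ E ∧
        ∀ σ : GQ, (∀ e ∈ E, σ e = e) → ∀ w : W, σ • w = w) →
      ∀ A : ValuationSubring Kb, A.LiesOverPrime p →
        (∀ σ ∈ A.inertiaSubgroupIn ℚ, ∀ w : W, σ • σ • w - 2 • σ • w + w = 0) →
        Nat.card W ≤ Nat.card (m15_fix W (A.inertiaSubgroupIn ℚ : Set GQ)) ^ 2

/-! ### The inputs on `J₀(p)` -/

/-- **[KUM-p], weak form** (replaces `m15_KumP`): a fixed multiple of every inertia-invariant
point is divisible by every `m` prime to `p` INSIDE the inertia invariants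
(`⇔ J(ℚ_p^{ur}) ⊗ ℤ[1/p]` is divisible up to a group of bounded exponent; true with `M₀ = n`).
[hard 12–20 k, the ONLY geometric node of [EIS]: the two Gauss valuations of `X₀(p)` at `p`
(`s34m_VV`, `S34/EBidegree`), reduction of divisors of bidegree `(0,0)` to the two components,
gluing data at the supersingular nodes in `𝔽̄_p^×` (divisible), Hensel.] -/
def m15_KumPw : Prop :=
  ∀ (p : ℕ) [NeZero p], p.Prime → ∃ M₀ : ℕ, M₀ ≠ 0 ∧
    ∀ P : ValuationSubring Kb, P.LiesOverPrime p →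
      ∀ z : JZero p, (∀ σ ∈ P.inertiaSubgroupIn ℚ, σ • z = z) →
        ∀ m : ℕ, ¬ p ∣ m → ∃ y : JZero p, m • y = M₀ • z ∧
          ∀ σ ∈ P.inertiaSubgroupIn ℚ, σ • y = y

/-- **[UNR-KUM]** Kummer classes are unramified at the good primes `ℓ ∤ p p'`.
[routine 1–2 k: `σ y − y` is torsion and reduces to `0`, S18; at `ℓ = 2, 3` via [RED23].] -/
def m15_UnrKum : Prop :=
  ∀ (p : ℕ) [NeZero p], p.Prime → ∀ p' : ℕ, p'.Prime → ∀ r : ℕ,
    ∀ ℓ : ℕ, ℓ.Prime → ℓ ≠ p → ℓ ≠ p' → ∀ A : ValuationSubring Kb, A.LiesOverPrime ℓ →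
      ∀ y : JZero p, (∀ τ : GQ, τ • (p' ^ r • y) = p' ^ r • y) →
        ∀ σ ∈ A.inertiaSubgroupIn ℚ, σ • y = y

/-- **[FLAT-KUM]** the Kummer module `E_r = [p'^r]⁻¹ J(ℚ) / J(ℚ)` is flat at `p'`.
[routine-hard 4–8 k, owners: the S19 architects.  `s19_OrderOfFrames` gives local orders on the
finite Galois SUBmodules of a module with a coordinate package; here one needs the finite
SUBQUOTIENT `T̃/M`, `M ⊆ J^{G_ℚ}` (choose the centres `M`-equivariantly), then `s19_Desc`.] -/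
def m15_FlatKum : Prop :=
  ∀ (p : ℕ) [NeZero p], p.Prime → ∀ p' : ℕ, p'.Prime → p' ≠ p → ∀ r : ℕ,
    ∃ (E : Type) (_ : AddCommGroup E) (_ : Finite E) (_ : DistribMulAction GQ E)
      (π : JZero p → E),
      (∀ y y' : JZero p, (∀ τ : GQ, τ • (p' ^ r • y) = p' ^ r • y) →
        (∀ τ : GQ, τ • (p' ^ r • y') = p' ^ r • y') → π (y + y') = π y + π y') ∧
      (∀ (σ : GQ) (y : JZero p), (∀ τ : GQ, τ • (p' ^ r • y) = p' ^ r • y) →
        π (σ • y) = σ • π y) ∧
      (∀ e : E, ∃ y : JZero p, (∀ τ : GQ, τ • (p' ^ r • y) = p' ^ r • y) ∧ π y = e) ∧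
      (∀ y : JZero p, (∀ τ : GQ, τ • (p' ^ r • y) = p' ^ r • y) →
        (π y = 0 ↔ ∀ τ : GQ, τ • y = y)) ∧
      ∃ H, s19_IsOrder p' E H

/-- **[NO-EIS₀]** there is no Eisenstein system in characteristic `0` on the Tate module: the
Galois-equivariant characters of `J[p'^r]` are bounded in number, independently of `r`.
[routine-hard 3–6 k: such characters kill `(T_q − 1 − q) J[p'^r]` (Eichler–Shimura); unbounded
⇒ an eigenvector with `T_q = 1 + q` in `T_{p'}J ⊗ ℚ̄ ↪ H¹_par(Γ₀(p))` (S30's `κ_∞`) ⇒ a cusp form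
with `a_q = 1 + q` (S21): impossible (mean square `∑_{n ≤ x} |a_n|² = O(x²)`, or S35 + S16).] -/
def m15_NoEis0 : Prop :=
  ∀ (p : ℕ) [NeZero p], p.Prime → ∀ p' : ℕ, p'.Prime → p' ≠ p → ∃ B : ℕ, ∀ r : ℕ,
    ∀ S : Finset (JZero p → Kbˣ),
      (∀ φ ∈ S,
        (∀ x y : JZero p, p' ^ r • x = 0 → p' ^ r • y = 0 → φ (x + y) = φ x * φ y) ∧
        (∀ (σ : GQ) (x : JZero p), p' ^ r • x = 0 →
          ((φ (σ • x) : Kbˣ) : Kb) = σ ((φ x : Kbˣ) : Kb)) ∧
        ∀ x : JZero p, p' ^ r • x ≠ 0 → φ x = 1) →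
      S.card ≤ B

/-- **[ES-J]** (ON MAIN in the Tate-module form `s30a_Tz_frobQuad`) Eichler–Shimura on the torsion
of `J₀(p)`. -/
def m15_FrobQuad : Prop :=
  ∀ (p : ℕ) [NeZero p], p.Prime → ∀ q : Nat.Primes, (q : ℕ) ≠ p →
    ∀ A : ValuationSubring Kb, A.LiesOverPrime q → ∀ σ : GQ, A.IsFrobeniusAt σ q →
      ∀ (m : ℕ) (x : JZero p), ¬ (q : ℕ) ∣ m → m • x = 0 →
        σ • σ • x - heckeOperatorBar p q (σ • x) + (q : ℕ) • x = 0

/-! ### The target of the descent -/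

/-- **[EIS-1], final form**: if `c = cl(0 − ∞) ∉ p' ⟨c⟩`, then some `t ∈ 𝕋` with `t c ∈ c + p'⟨c⟩`
kills `J(ℚ)` up to torsion.  ([EIS] follows at once: `c ≠ 0` because the genus is positive (S24),
so some prime `p'` has `c ∉ p'⟨c⟩`; then `t c ≠ 0`.)

`p'` ODD:  `m15_Eis1At p p'` ⇐ S17 + [SS] (`s34_SSp`) + `m15_Tame` + `m15_KumPw` + `m15_UnrKum` +
`m15_FlatKum` + `m15_Adm` + `m15_AdmDual` + `m15_NoEis0` + `m15_FrobQuad` + S19 (`J[p'^r]` flat) +
S29/S31 (`J[p'^r]` unramified outside `p p'`) + `s19_Cont` + `s19_TorsFinite`.  [glue 3–4 k]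

The count: `m_r = ℓ((J(ℚ)/p'^r)_𝔓)`, `a_r = ℓ(G_r)`;
  [SS]+[TAME]          2 ℓ(G_r^{I}) ≥ a_r
  [ADM*]+[NO-EIS₀]     ℓ(G_r^{+}) ≥ ℓ(G_r^{I}) − B
  [KUM-p]              ℓ(W_r^{I}) ≥ ℓ(G_r^{I}) + m_r − B'
  torsion, `s19_Cont`  ℓ(W_r^{G_ℚ}) ≤ B''
  [ADM] for `W_r`      ℓ(W_r^{G_ℚ}) ≥ ℓ(W_r^{+}) + ℓ(W_r^{I}) − ℓ(W_r)
                                    ≥ m_r − (B + B' + torsion)
hence `m_r` is bounded, the `𝔓`-part of `J(ℚ) ⊗ ℤ_{p'}` is finite, `(J(ℚ)/tors) = 𝔓 (J(ℚ)/tors)`,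
and Nakayama gives `t ∈ 1 + 𝔓`. -/
def m15_Eis1At (p p' : ℕ) [NeZero p] : Prop :=
  ∀ c : m15_Cusps p, (∀ k : ℤ, m15_cl p c.zero c.inf ≠ ((p' : ℤ) * k) • m15_cl p c.zero c.inf) →
    ∃ t ∈ m15_T p,
      (∀ z : JZero p, (∀ σ : GQ, σ • z = z) → ∃ m : ℕ, m ≠ 0 ∧ m • t z = 0) ∧
      ∃ k : ℤ, t (m15_cl p c.zero c.inf) =
        m15_cl p c.zero c.inf + ((p' : ℤ) * k) • m15_cl p c.zero c.inf

/-- `[EIS-1]` at one suitable prime gives `[EIS]` (checked). -/
theorem m15_eis_of_eis1At {p : ℕ} [NeZero p] (c : m15_Cusps p) (p' : ℕ)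
    (hc : ∀ k : ℤ, m15_cl p c.zero c.inf ≠ ((p' : ℤ) * k) • m15_cl p c.zero c.inf)
    (h : m15_Eis1At p p') :
    ∃ t ∈ m15_T p, (∀ z : JZero p, (∀ σ : GQ, σ • z = z) → ∃ m : ℕ, m ≠ 0 ∧ m • t z = 0) ∧
      t (m15_cl p c.zero c.inf) ≠ 0 := by
  obtain ⟨t, ht, htors, k, hk⟩ := h c hc
  refine ⟨t, ht, htors, fun h0 => ?_⟩
  rw [h0] at hk
  apply hc (-k)
  have : m15_cl p c.zero c.inf = -(((p' : ℤ) * k) • m15_cl p c.zero c.inf) :=
    eq_neg_of_add_eq_zero_left hk.symm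
  rw [mul_neg, neg_smul]
  exact this

end Fermat.Agent.Lib.S15
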