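/-
(M) BLUEPRINT, part 3 (helper7): the FINAL node list of the wall [EIS] after the decisions
#3112 (admissible/Selmer route; the geometric [KUM-p] is eliminated by a weight argument).
NOT FOR MAIN: typed nodes + the re-wired top theorem `m15_S15_of'` for the GOOD Hecke ring
`m15_Tg p = ℤ[T_ℓ : ℓ ∤ p (p - 1)]` (for these `ℓ` the relation `T_ℓ c = (1 + ℓ) c` is free:
Eichler–Shimura + `(p - 1) c = 0`).

MGraph.lean and MEis.lean are NOT modified by this file.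
-/
import Fermat.Agent.Lib.S15.MEis

set_option autoImplicit false
set_option linter.unusedSectionVars false
set_option linter.unusedVariables false
set_option linter.style.haveILetI false

noncomputable section

namespace Fermat.Agent.Lib.S15

open ModularCurve AlgebraicCurve WeierstrassCurve WeierstrassCurve.Affine Fermat.Agent.Lib.S19

local notation "Kb" => AlgebraicClosure ℚ
local notation "GQ" => (AlgebraicClosure ℚ ≃ₐ[ℚ] AlgebraicClosure ℚ)

/-! ### Vocabulary -/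

/-- `J₀(N)[m]`. -/
def m15_tors (N m : ℕ) : AddSubgroup (JZero N) where
  carrier := {x | m • x = 0}
  zero_mem' := smul_zero m
  add_mem' := fun {a b} ha hb => by
    show m • (a + b) = 0
    have ha' : m • a = 0 := ha
    have hb' : m • b = 0 := hb
    rw [nsmul_add, ha', hb', add_zero]
  neg_mem' := fun {a} ha => by
    show m • (-a) = 0
    have ha' : m • a = 0 := ha
    rw [neg_nsmul, ha', neg_zero]

theorem m15_mem_tors {N m : ℕ} {x : JZero N} : x ∈ m15_tors N m ↔ m • x = 0 := Iff.rfl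

theorem m15_smul_mem_tors {N m : ℕ} (σ : GQ) {x : JZero N} (hx : x ∈ m15_tors N m) :
    σ • x ∈ m15_tors N m := by
  have hx' : m • x = 0 := hx
  show m • (σ • x) = 0
  rw [smul_comm m σ x, hx']
  exact smul_zero σ

/-- the Galois action on `J₀(N)[m]`. -/
instance m15_torsAction (N m : ℕ) : DistribMulAction GQ ↥(m15_tors N m) where
  smul σ x := ⟨σ • (x : JZero N), m15_smul_mem_tors σ x.2⟩
  one_smul x := Subtype.ext (one_smul GQ (x : JZero N))
  mul_smul σ τ x := Subtype.ext (mul_smul σ τ (x : JZero N))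
  smul_zero σ := Subtype.ext (smul_zero σ)
  smul_add σ x y := Subtype.ext (smul_add σ (x : JZero N) (y : JZero N))

theorem m15_tors_coe_smul {N m : ℕ} (σ : GQ) (x : ↥(m15_tors N m)) :
    ((σ • x : ↥(m15_tors N m)) : JZero N) = σ • (x : JZero N) := rfl

/-- the GOOD Hecke ring: generated by the `T_ℓ`, `ℓ ∤ p (p - 1)`. -/
def m15_Tg (p : ℕ) [NeZero p] : Subalgebra ℤ (Module.End ℤ (JZero p)) :=
  Algebra.adjoin ℤ (heckeOperatorBar p '' {ℓ : Nat.Primes | ¬ (ℓ : ℕ) ∣ p * (p - 1)})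

theorem m15_Tg_le (p : ℕ) [NeZero p] : m15_Tg p ≤ m15_T p :=
  Algebra.adjoin_mono (Set.image_mono fun ℓ (h : ¬ (ℓ : ℕ) ∣ p * (p - 1)) hd =>
    h (Dvd.dvd.mul_right hd _))

/-! ### The remaining nodes of [EIS] -/

/-- **[OGG-≤]** the cuspidal class is killed by `p - 1` (the modular unit `Δ(q)/Δ(q^p)` has
divisor `(p - 1)((0) - (∞))`).  [routine-hard 1–3 k: the analytic bridge of Lib/FF (S24): the
`q`-expansion of a `Γ₀(p)`-invariant function lies in the function field, its order at a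
non-cuspidal place is the analytic order, `Δ ≠ 0` on `ℍ`.] -/
def m15_OggLe : Prop :=
  ∀ (p : ℕ) [NeZero p], p.Prime → ∀ c : m15_Cusps p, (p - 1) • m15_cl p c.zero c.inf = 0

/-- **[NW-p] the weight relation at `p`** on the prime-to-`p` torsion of `J₀(p)`:
`(φ² - 1)(φ² - p²) = 0` for every Frobenius element `φ` at `p`.  [routine 1–2 k, ON MAIN up to
specialisation: `s35r_top` at level `1 · p` (both push-forwards to level one are principal since
`Pic⁰(ℚ̄(j)) = 0`) + the Kummer form `s35r_KummerNWmod 1 p φ m` from S35's final.] -/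
def m15_NWp : Prop :=
  ∀ (p : ℕ) [NeZero p], p.Prime → ∀ P : ValuationSubring Kb, P.LiesOverPrime p →
    ∀ φ : GQ, P.IsFrobeniusAt φ p → ∀ m : ℕ, ¬ p ∣ m → ∀ z : JZero p, m • z = 0 →
      φ • φ • φ • φ • z - (1 + p ^ 2) • (φ • φ • z) + p ^ 2 • z = 0

/-- **[TAME-FROB] the structure of the decomposition group at `p` on a finite `p'`-primary module
with unipotent inertia**: the inertia group acts through one element `σ₀`, and
`φ σ₀ φ⁻¹ = σ₀ ^ p` for every Frobenius element `φ`.  [routine 1–2 k: the image of inertia is a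
`p'`-group, wild inertia dies, the tame `p'`-quotient is procyclic; `s35t_tame_abs/fin`,
`s56g_tame_cyclic_abs`, `s56g_frobGen_abs`.] -/
def m15_TameFrob : Prop :=
  ∀ p p' : ℕ, p.Prime → p'.Prime → p' ≠ p →
    ∀ (W : Type) [AddCommGroup W] [Finite W] [DistribMulAction GQ W],
      (∀ w : W, ∃ k : ℕ, p' ^ k • w = 0) →
      (∃ E : IntermediateField ℚ Kb, FiniteDimensional ℚ E ∧
        ∀ σ : GQ, (∀ e ∈ E, σ e = e) → ∀ w : W, σ • w = w) →
      ∀ P : ValuationSubring Kb, P.LiesOverPrime p →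
        (∀ σ ∈ P.inertiaSubgroupIn ℚ, ∀ w : W, ∃ k : ℕ,
          ((DistribMulAction.toAddMonoidEnd GQ W σ - 1) ^ k) w = 0) →
        ∃ σ₀ ∈ P.inertiaSubgroupIn ℚ,
          (∀ w : W, σ₀ • w = w → ∀ σ ∈ P.inertiaSubgroupIn ℚ, σ • w = w) ∧
          ∀ φ : GQ, P.IsFrobeniusAt φ p → ∀ w : W, (φ * σ₀ * φ⁻¹) • w = (σ₀ ^ p) • w

/-- **(A-conj) complex conjugation has eigenvalue `+1` on at least half of every Hecke image of
`J[p'^r]`**, up to a constant independent of `r` and of `t`.  [routine-hard 5–7 k = (A1)+(A2):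
`J[m] ≅ Λ/mΛ`, `Λ = H_par(Γ₀(p), ℤ)`, Hecke-equivariantly (S30 `s30k_kappa`), complex conjugation
`↔ -ι^*` (A1); `Λ ⊇ Λ⁺ ⊕ Λ⁻` of `2`-power index, and `Λ⁺ ⊗ ℚ ≅ Λ⁻ ⊗ ℚ` as Hecke modules since
`Λ ⊗ ℝ ≅ S₂(Γ₀(p))` (S21) carries a complex structure commuting with `𝕋` and anticommuting with
`ι^*` (A2).  Then `|tX| ≤ 2^a |t(Λ⁺/m)| |t(Λ⁻/m)| ≤ 2^a D |t(Λ⁺/m)|²`.] -/
def m15_Aconj : Prop :=
  ∀ (p : ℕ) [NeZero p], p.Prime → ∀ p' : ℕ, p'.Prime → p' ≠ p → ∃ B : ℕ, B ≠ 0 ∧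
    ∀ (r : ℕ) (t : Module.End ℤ (JZero p)), t ∈ m15_T p →
      Nat.card ↥((m15_tors p (p' ^ r)).map (t : JZero p →ₗ[ℤ] JZero p).toAddMonoidHom) ≤
        B * Nat.card ↥((m15_tors p (p' ^ r)).map (t : JZero p →ₗ[ℤ] JZero p).toAddMonoidHom ⊓
          m15_eig (JZero p) complexConjugation 1) ^ 2

/-- **[FLAT-KUM'] the Kummer extension of a rational point is flat at `p'`**: for `y` with
`z = p'^r y` rational, the extension `0 → J[p'^r] → E_z → ℤ/p'^r → 0` with class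
`σ ↦ σ y - y` carries a function order.  (`E_z` = the `p'^r`-torsion of the one-motive
`[ℤ → J, 1 ↦ z]`; helper4's trick: `(J × ℤ)/⟨(z, p'^r)⟩` has a coordinate package.) -/
def m15_FlatKum' : Prop :=
  ∀ (p : ℕ) [NeZero p], p.Prime → ∀ p' : ℕ, p'.Prime → p' ≠ p → ∀ (r : ℕ) (y : JZero p),
    (∀ τ : GQ, τ • (p' ^ r • y) = p' ^ r • y) →
    ∃ (E : Type) (_ : AddCommGroup E) (_ : Finite E) (_ : DistribMulAction GQ E)
      (ι : ↥(m15_tors p (p' ^ r)) →+ E) (e₀ : E),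
      Function.Injective ι ∧
      (∀ (σ : GQ) (x : ↥(m15_tors p (p' ^ r))), ι (σ • x) = σ • ι x) ∧
      (∀ σ : GQ, ∃ x : ↥(m15_tors p (p' ^ r)), (x : JZero p) = σ • y - y ∧ σ • e₀ = e₀ + ι x) ∧
      p' ^ r • e₀ = 0 ∧ (∀ n : ℕ, n • e₀ ∈ ι.range → p' ^ r ∣ n) ∧
      (∀ e : E, ∃ (x : ↥(m15_tors p (p' ^ r))) (n : ℕ), e = ι x + n • e₀) ∧
      ∃ H, s19_IsOrder p' E H

/-! ### The top nodes for the good Hecke ring -/

/-- **[EIS']** = `m15_Eis` with `t` in the good Hecke ring. -/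
def m15_Eis' : Prop :=
  ∀ (p : ℕ) [NeZero p], p.Prime → p ∉ ({2, 3, 5, 7, 13} : Finset ℕ) → ∀ c : m15_Cusps p,
    ∃ t ∈ m15_Tg p, (∀ z : JZero p, (∀ σ : GQ, σ • z = z) → ∃ m : ℕ, m ≠ 0 ∧ m • t z = 0) ∧
      t (m15_cl p c.zero c.inf) ≠ 0

/-- **[T'']** = `m15_Tprime` for `t` in the good Hecke ring (`t c ∈ ℤ c` by Eichler–Shimura). -/
def m15_Tprime' : Prop :=
  ∀ (p : ℕ) [NeZero p], p.Prime → ∀ c : m15_Cusps p, ∀ ℓ : ℕ, ℓ.Prime → 5 ≤ ℓ → ℓ ≠ p →
    ∀ A : ValuationSubring Kb, A.LiesOverPrime ℓ → ReductionInputsModL A p →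
      ∀ t ∈ m15_Tg p, reductionModL A p (t (m15_cl p c.zero c.inf)) = 0 →
        t (m15_cl p c.zero c.inf) = 0

end Fermat.Agent.Lib.S15
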