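/-
(M) BLUEPRINT, part 4 (helper7): the CHECKED top wiring for the good Hecke ring `m15_Tg p`
(`MEis2.lean`): `m15_S15_of' : m15_CuspNode → m15_Eis' → m15_R → m15_Tprime' → m15_Red23 → m15_D →
(frozen S15 text)`.  Same proof as `m15_S15_of` (MGraph.lean).  NOT FOR MAIN.
-/
import Fermat.Agent.Lib.S15.MEis2

set_option autoImplicit false
set_option linter.unusedSectionVars false
set_option linter.unusedVariables false
set_option linter.style.haveILetI false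

noncomputable section

namespace Fermat.Agent.Lib.S15

open ModularCurve AlgebraicCurve WeierstrassCurve WeierstrassCurve.Affine

local notation "Kb" => AlgebraicClosure ℚ
local notation "GQ" => (AlgebraicClosure ℚ ≃ₐ[ℚ] AlgebraicClosure ℚ)

/-- **S15 from the nodes, good Hecke ring** (the frozen text of S15, restated). -/
theorem m15_S15_of' (hC : m15_CuspNode) (hE : m15_Eis') (hR : m15_R) (hT : m15_Tprime')
    (h23 : m15_Red23) (hD : m15_D)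
    {p : ℕ} (hp : p.Prime) (hp' : p ∉ ({2, 3, 5, 7, 13} : Finset ℕ))
    (W : WeierstrassCurve ℤ) (hΔ : W.Δ ≠ 0)
    (Q : ((W.map (Int.castRingHom ℚ))⁄(AlgebraicClosure ℚ)).Point)
    (hQfix : ∀ σ : AlgebraicClosure ℚ ≃ₐ[ℚ] AlgebraicClosure ℚ, σ • Q = Q)
    (hQord : addOrderOf Q = p)
    (h2Δ : (2 : ℤ) ∣ W.Δ) (h2c₄ : ¬ (2 : ℤ) ∣ W.c₄)
    (h2 : ∀ A : ValuationSubring (AlgebraicClosure ℚ), A.LiesOverPrime 2 →
      ¬ W.InZeroComponentAt A Q)
    (h3Δ : (3 : ℤ) ∣ W.Δ) (h3c₄ : ¬ (3 : ℤ) ∣ W.c₄)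
    (h3 : ∀ A : ValuationSubring (AlgebraicClosure ℚ), A.LiesOverPrime 3 →
      ¬ W.InZeroComponentAt A Q)
    {ℓ : ℕ} (hℓ : ℓ.Prime) (hℓp : ℓ ≠ p) (hℓΔ : (ℓ : ℤ) ∣ W.Δ) (hℓc₄ : ¬ (ℓ : ℤ) ∣ W.c₄)
    (A : ValuationSubring (AlgebraicClosure ℚ)) (hA : A.LiesOverPrime ℓ) :
    ¬ W.InZeroComponentAt A Q := by
  intro hin
  haveI : NeZero p := ⟨hp.ne_zero⟩
  -- arithmetic of `p`
  have hp5 : 5 ≤ p := by
    by_contra hlt
    rw [not_le] at hlt
    have h2' := hp.two_le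
    simp only [Finset.mem_insert, Finset.mem_singleton, not_or] at hp'
    interval_cases p
    · exact hp'.1 rfl
    · exact hp'.2.1 rfl
    · exact absurd hp (by norm_num)
  have hℓ2 : ℓ ≠ 2 := by
    rintro rfl; exact h2 A hA hin
  have hℓ3 : ℓ ≠ 3 := by
    rintro rfl; exact h3 A hA hin
  have hℓ5 : 5 ≤ ℓ := by
    by_contra hlt
    rw [not_le] at hlt
    have h2' := hℓ.two_le
    interval_cases ℓ
    · exact hℓ2 rfl
    · exact hℓ3 rfl
    · exact absurd hℓ (by norm_num)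
  have hℓnp : ¬ ℓ ∣ p := fun h => hℓp ((Nat.prime_dvd_prime_iff_eq hℓ hp).mp h)
  have h2np : ¬ 2 ∣ p := fun h => by
    have := (Nat.prime_dvd_prime_iff_eq Nat.prime_two hp).mp h; omega
  have h3np : ¬ 3 ∣ p := fun h => by
    have := (Nat.prime_dvd_prime_iff_eq Nat.prime_three hp).mp h; omega
  -- the reduction inputs
  haveI : Fact ℓ.Prime := ⟨hℓ⟩
  haveI : Fact (Nat.Prime 2) := ⟨Nat.prime_two⟩
  haveI : Fact (Nat.Prime 3) := ⟨Nat.prime_three⟩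
  obtain ⟨A₂, hA₂⟩ := Fermat.Agent.Lib.Mz.ptm_exists_liesOverPrime 2 Nat.prime_two
  obtain ⟨A₃, hA₃⟩ := Fermat.Agent.Lib.Mz.ptm_exists_liesOverPrime 3 Nat.prime_three
  have hred : ReductionInputsModL A p := by
    obtain ⟨r, hr⟩ := Fermat.Agent.Lib.S37.s37r12_exists p ℓ hℓ ⟨hℓnp, Or.inl hℓ5⟩ A hA
    exact ⟨r, hr, Fermat.Agent.Lib.S37.s37g_principalGenerated p hℓnp A hA⟩
  have hred₂ : ReductionInputsModL A₂ p := by
    obtain ⟨r, hr⟩ := h23 p hp hp5 2 (Or.inl rfl) A₂ hA₂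
    exact ⟨r, hr, Fermat.Agent.Lib.S37.s37g_principalGenerated p h2np A₂ hA₂⟩
  have hred₃ : ReductionInputsModL A₃ p := by
    obtain ⟨r, hr⟩ := h23 p hp hp5 3 (Or.inr rfl) A₃ hA₃
    exact ⟨r, hr, Fermat.Agent.Lib.S37.s37g_principalGenerated p h3np A₃ hA₃⟩
  -- cusps, the rational place, the Hecke operator
  obtain ⟨c, hcinf, hczero, hdeg⟩ := hC p hp
  obtain ⟨x, hxfix, hx⟩ := hD p hp hp5 c W hΔ Q hQfix hQord
  obtain ⟨t, htT', httors, htc⟩ := hE p hp hp' c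
  have htT : t ∈ m15_T p := m15_Tg_le p htT'
  -- Step A: `t • cl(x − 0) = 0`
  have hz'fix : ∀ σ : GQ, σ • m15_cl p x c.zero = m15_cl p x c.zero := by
    intro σ
    rw [m15_gal_cl hdeg, hxfix, hczero]
  obtain ⟨m, hm, hmt⟩ := httors _ hz'fix
  have hA2 : reductionModL A₂ p (t (m15_cl p x c.zero)) = 0 := by
    refine hR p hp 2 Nat.prime_two (by omega) A₂ hA₂ hred₂ t htT _ ?_
    exact m15_red_cl hdeg hred₂
      ((hx 2 Nat.prime_two (by omega) h2Δ h2c₄ A₂ hA₂ hred₂).2 (h2 A₂ hA₂))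
  have hA3 : reductionModL A₃ p (t (m15_cl p x c.zero)) = 0 := by
    refine hR p hp 3 Nat.prime_three (by omega) A₃ hA₃ hred₃ t htT _ ?_
    exact m15_red_cl hdeg hred₃
      ((hx 3 Nat.prime_three (by omega) h3Δ h3c₄ A₃ hA₃ hred₃).2 (h3 A₃ hA₃))
  have hstepA : t (m15_cl p x c.zero) = 0 :=
    m15_eq_zero_of_red23 h2np h3np hA₂ hA₃ hred₂ hred₃ _ hm hmt hA2 hA3
  -- Step B: `red_A (t • cl(x − ∞)) = 0`
  have hB : reductionModL A p (t (m15_cl p x c.inf)) = 0 := by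
    refine hR p hp ℓ hℓ hℓp A hA hred t htT _ ?_
    exact m15_red_cl hdeg hred ((hx ℓ hℓ hℓp hℓΔ hℓc₄ A hA hred).1 hin)
  -- conclusion
  have hsplit : m15_cl p x c.inf = m15_cl p x c.zero + m15_cl p c.zero c.inf :=
    m15_cl_add hdeg x c.zero c.inf
  rw [hsplit, map_add, hstepA, zero_add] at hB
  exact htc (hT p hp c ℓ hℓ hℓ5 hℓp A hA hred t htT' hB)



end Fermat.Agent.Lib.S15
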