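/-
(M) BLUEPRINT, part 4 (helper7): the two LAST typed nodes of the wall [EIS], found while
instantiating the abstract descent `m15x_main_cusp` (MAsmF.lean) at `J₀(p)`.
NOT FOR MAIN as such (typed nodes only).
-/
import Fermat.Agent.Lib.S15.MEis2

set_option autoImplicit false
set_option linter.unusedSectionVars false
set_option linter.unusedVariables false

noncomputable section

namespace Fermat.Agent.Lib.S15

open ModularCurve AlgebraicCurve

local notation "Kb" => AlgebraicClosure ℚ
local notation "GQ" => (AlgebraicClosure ℚ ≃ₐ[ℚ] AlgebraicClosure ℚ)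

/-- **[DIV]** `J₀(N)(ℚ̄) = Pic⁰(ℚ̄(X₀(N)))` is divisible by every prime `ℓ`.
[routine 300–600 l. from the S27 library (Programme Z): Cassels' absolute value + [GR] give an
`s19_Curve` package over the unit ball `A` with `ℓ ∈ A^×` and residue field `k = 𝔽̄_p`, `p ≠ ℓ`
(copy the first half of `s27r_red_of`, RGlue.lean, with `ι = PEmpty`); the specialisation
`s27s_spHom hC : Pic⁰(F) →+ Pic⁰(Fb)` is onto (`s27s_spHom_surjective`) with kernel `s19j_J1 r`
(`s27s_spHom_eq_zero_iff`), which is `ℓ`-divisible (`s27s_J1_div`); `Pic⁰(Fb)` is a TORSION group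
(every divisor is stable under a power of Frobenius, and the stable classes of degree `0` are
finite in number: `s27_DynExists` + ZCls.lean) whose `ℓ`-primary part is divisible by the count
`s27g_finCount` (`|T[ℓ^{e+1}]| = ℓ^{2g} |T[ℓ^e]|`), hence `Pic⁰(Fb)` is `ℓ`-divisible; an extension
of `ℓ`-divisible groups is `ℓ`-divisible.] -/
def m15_Div : Prop :=
  ∀ (N : ℕ) [NeZero N] (ℓ : ℕ), ℓ.Prime → ∀ z : JZero N, ∃ y : JZero N, ℓ • y = z

/-- **[C≠0]** the cuspidal class is not zero when the genus is positive.
[routine 200–300 l.: if `(0) - (∞) = div f` then `f` has exactly one simple pole and `f - c` exactly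
one simple zero for every constant `c`; the abstract Riemann–Hurwitz formula
`ffh_degree_canonical` (Lib/FF/Hurwitz.lean) with `t = f`, `d = 1`, `S = ∅` gives
`deg (canonical divisor) = -2`, i.e. `genus = 0`, against S24 (`genus = genusFormula p ≥ 1` for
`p ∉ {2, 3, 5, 7, 13}`).] -/
def m15_ClNe : Prop :=
  ∀ (p : ℕ) [NeZero p], p.Prime → p ∉ ({2, 3, 5, 7, 13} : Finset ℕ) → ∀ c : m15_Cusps p,
    m15_cl p c.zero c.inf ≠ 0

end Fermat.Agent.Lib.S15
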