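/-
(M) node **[FLAT-KUM]** (helper4, prefix `m15f_`), part 1 (curve-free): a coordinate package
(`s19_Frames`) on a Galois module `J` transfers to every Galois module `𝒥` receiving an injective
equivariant homomorphism `j : J → 𝒥` such that every coset of `j(J1)` contains an inertia-fixed point.

Application (part 2): `𝒥 = (J × L)/Γ`, `Γ = {(u a, n a)}`, the "1-motive" whose `n`-torsion is the
Kummer module `[n]⁻¹M/M` (up to a Galois-trivial kernel).
-/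
import Fermat.Agent.Lib.S19.IfaceLocal

set_option autoImplicit false
set_option linter.unusedSectionVars false
set_option linter.unusedVariables false
set_option linter.style.haveILetI false

noncomputable section

namespace Fermat.Agent.Lib.S15

open Fermat.Agent.Lib.S19 IsLocalRing

section Transfer

variable {J 𝒥 : Type} [AddCommGroup J] [DistribMulAction s19_Gal J] [AddCommGroup 𝒥]
  [DistribMulAction s19_Gal 𝒥] (j : J →+ 𝒥) (J1 : AddSubgroup J)

/-- a preimage in `J1` of a point of `j(J1)`. -/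
def m15f_pre (y' : ↥(J1.map j)) : ↥J1 :=
  ⟨(AddSubgroup.mem_map.mp y'.2).choose, (AddSubgroup.mem_map.mp y'.2).choose_spec.1⟩

theorem m15f_j_pre (y' : ↥(J1.map j)) : j (m15f_pre j J1 y' : J) = (y' : 𝒥) :=
  (AddSubgroup.mem_map.mp y'.2).choose_spec.2

variable {j J1}

theorem m15f_pre_unique (hj : Function.Injective j) (y' : ↥(J1.map j)) (y : ↥J1)
    (h : j (y : J) = (y' : 𝒥)) : m15f_pre j J1 y' = y := by
  apply Subtype.ext
  apply hj
  rw [m15f_j_pre, h]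

theorem m15f_pre_add (hj : Function.Injective j) (a b : ↥(J1.map j)) :
    m15f_pre j J1 (a + b) = m15f_pre j J1 a + m15f_pre j J1 b := by
  apply m15f_pre_unique hj
  rw [AddSubgroup.coe_add, map_add, m15f_j_pre, m15f_j_pre, AddSubgroup.coe_add]

/-- membership in `J1` can be tested after `j`. -/
theorem m15f_mem_of_map (hj : Function.Injective j) {x : J} (h : j x ∈ J1.map j) : x ∈ J1 := by
  obtain ⟨y, hy, hyx⟩ := AddSubgroup.mem_map.mp h
  rwa [← hj hyx]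

/-- **transfer of a coordinate package** along an injective equivariant homomorphism. -/
theorem m15f_frames_transfer (A : ValuationSubring s19_Qbar) (l : ↥A) (g : ℕ) (𝔉 : Type)
    (S : 𝔉 → ↥J1 → Fin g → ↥A) (hF : s19_Frames A l J J1 g 𝔉 S)
    (hj : Function.Injective j) (hje : ∀ (σ : s19_Gal) (x : J), j (σ • x) = σ • j x)
    (hcentre : ∀ x' : 𝒥, ∃ x₀' : 𝒥, x' - x₀' ∈ J1.map j ∧
      ∀ τ ∈ A.inertiaSubgroupIn ℚ, τ • x₀' = x₀') :
    s19_Frames A l 𝒥 (J1.map j) g 𝔉 (fun 𝔰 y' => S 𝔰 (m15f_pre j J1 y')) := by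
  -- the preimage of `σ • y'`
  have hpre_smul : ∀ (σ : s19_Gal) (y' : ↥(J1.map j)) (hy : σ • (y' : 𝒥) ∈ J1.map j),
      ∃ hy0 : σ • (m15f_pre j J1 y' : J) ∈ J1,
        m15f_pre j J1 ⟨σ • (y' : 𝒥), hy⟩ = ⟨σ • (m15f_pre j J1 y' : J), hy0⟩ := by
    intro σ y' hy
    have h1 : j (σ • (m15f_pre j J1 y' : J)) = σ • (y' : 𝒥) := by rw [hje, m15f_j_pre]
    have hy0 : σ • (m15f_pre j J1 y' : J) ∈ J1 := m15f_mem_of_map hj (by rw [h1]; exact hy)
    exact ⟨hy0, m15f_pre_unique hj _ _ h1⟩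
  refine
    { nonempty := hF.nonempty
      stable := ?_
      mval := fun 𝔰 y' i => hF.mval 𝔰 _ i
      inj := ?_
      equivI := ?_
      equivD := ?_
      centre := hcentre
      add := ?_
      chg := ?_ }
  · intro σ hσ y' hy'
    obtain ⟨y, hy, rfl⟩ := AddSubgroup.mem_map.mp hy'
    rw [← hje]
    exact AddSubgroup.mem_map.mpr ⟨σ • y, hF.stable σ hσ y hy, rfl⟩
  · intro 𝔰 a b hab
    have h1 : m15f_pre j J1 a = m15f_pre j J1 b := hF.inj 𝔰 hab
    apply Subtype.ext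
    rw [← m15f_j_pre j J1 a, ← m15f_j_pre j J1 b, h1]
  · intro 𝔰 τ hτ y' hy i
    obtain ⟨hy0, hpre⟩ := hpre_smul τ y' hy
    show ((S 𝔰 (m15f_pre j J1 ⟨τ • (y' : 𝒥), hy⟩) i : ↥A) : s19_Qbar) = _
    rw [hpre]
    exact hF.equivI 𝔰 τ hτ (m15f_pre j J1 y') hy0 i
  · intro 𝔰 σ hσ
    obtain ⟨𝔰', h𝔰'⟩ := hF.equivD 𝔰 σ hσ
    refine ⟨𝔰', fun y' hy i => ?_⟩
    obtain ⟨hy0, hpre⟩ := hpre_smul σ y' hy
    show ((S 𝔰' (m15f_pre j J1 ⟨σ • (y' : 𝒥), hy⟩) i : ↥A) : s19_Qbar) = _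
    rw [hpre]
    exact h𝔰' (m15f_pre j J1 y') hy0 i
  · intro 𝔰 Ξ y₁ y₂ hsmall i
    have h := hF.add 𝔰 (fun ξ => m15f_pre j J1 (y₁ ξ)) (fun ξ => m15f_pre j J1 (y₂ ξ)) hsmall i
    have e : (fun ξ => S 𝔰 (m15f_pre j J1 (y₁ ξ + y₂ ξ)) i) =
        fun ξ => S 𝔰 (m15f_pre j J1 (y₁ ξ) + m15f_pre j J1 (y₂ ξ)) i := by
      funext ξ
      rw [m15f_pre_add hj]
    rw [e]
    exact h
  · intro 𝔰 𝔰' Ξ y hsmall i
    exact hF.chg 𝔰 𝔰' (fun ξ => m15f_pre j J1 (y ξ)) hsmall i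

end Transfer

end Fermat.Agent.Lib.S15
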