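/-
(M) node **[FLAT-KUM]** (helper4, prefix `m15f_`), part 2 (curve-free): the "1-motive" module
`𝒥 = (J × L)/Γ`, `Γ = {(u a, n a)}` of a homomorphism `u : L → J^{G}` from a group `L` without
`n`-torsion, its Galois action, the embedding `j : J → 𝒥`, and the transfer of a coordinate package
from `J` to `𝒥`.
-/
import Fermat.Agent.Lib.S15.FKum1

set_option autoImplicit false
set_option linter.unusedSectionVars false
set_option linter.unusedVariables false
set_option linter.style.haveILetI false

noncomputable section

namespace Fermat.Agent.Lib.S15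

open Fermat.Agent.Lib.S19 IsLocalRing

section QuotAction

variable {G X : Type} [Group G] [AddCommGroup X] [DistribMulAction G X] (Y : AddSubgroup X)
  (hY : ∀ (σ : G), ∀ y ∈ Y, σ • y ∈ Y)

/-- the action on a quotient by a stable subgroup. -/
def m15f_quotSmul (σ : G) : X ⧸ Y →+ X ⧸ Y :=
  QuotientAddGroup.map Y Y (DistribSMul.toAddMonoidHom X σ) (fun y hy => hY σ y hy)

theorem m15f_quotSmul_mk (σ : G) (x : X) :
    m15f_quotSmul Y hY σ (QuotientAddGroup.mk x) = QuotientAddGroup.mk (σ • x) := rfl

/-- the quotient of a Galois module by a stable subgroup, as a Galois module. -/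
@[reducible] def m15f_quotAction : DistribMulAction G (X ⧸ Y) where
  smul σ q := m15f_quotSmul Y hY σ q
  one_smul q := by
    induction q using QuotientAddGroup.induction_on with
    | H x =>
      show m15f_quotSmul Y hY 1 (QuotientAddGroup.mk x) = _
      rw [m15f_quotSmul_mk, one_smul]
  mul_smul σ τ q := by
    induction q using QuotientAddGroup.induction_on with
    | H x =>
      show m15f_quotSmul Y hY (σ * τ) (QuotientAddGroup.mk x) =
        m15f_quotSmul Y hY σ (m15f_quotSmul Y hY τ (QuotientAddGroup.mk x))
      rw [m15f_quotSmul_mk, m15f_quotSmul_mk, m15f_quotSmul_mk, mul_smul]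
  smul_zero σ := map_zero (m15f_quotSmul Y hY σ)
  smul_add σ a b := map_add (m15f_quotSmul Y hY σ) a b

/-- the restriction of the action to a stable subgroup. -/
@[reducible] def m15f_subAction : DistribMulAction G ↥Y where
  smul σ y := ⟨σ • (y : X), hY σ y y.2⟩
  one_smul y := Subtype.ext (one_smul G (y : X))
  mul_smul σ τ y := Subtype.ext (mul_smul σ τ (y : X))
  smul_zero σ := Subtype.ext (smul_zero σ)
  smul_add σ a b := Subtype.ext (smul_add σ (a : X) (b : X))

end QuotAction

section Motive

variable {J L : Type} [AddCommGroup J] [DistribMulAction s19_Gal J] [AddCommGroup L]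
  (u : L →+ J) (n : ℕ)

/-- the trivial action on the lattice. -/
@[reducible] def m15f_trivAction : DistribMulAction s19_Gal L where
  smul _ a := a
  one_smul _ := rfl
  mul_smul _ _ _ := rfl
  smul_zero _ := rfl
  smul_add _ _ _ := rfl

/-- `Γ = {(u a, n a)}`. -/
def m15f_Gamma : AddSubgroup (J × L) := (u.prod (nsmulAddMonoidHom n)).range

theorem m15f_mem_Gamma {z : J × L} :
    z ∈ m15f_Gamma u n ↔ ∃ a : L, u a = z.1 ∧ n • a = z.2 := by
  constructor
  · rintro ⟨a, rfl⟩
    exact ⟨a, rfl, rfl⟩
  · rintro ⟨a, h1, h2⟩
    exact ⟨a, Prod.ext h1 h2⟩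

/-- finiteness of an abelian group from a finite kernel and a finite target. -/
theorem m15f_finite_of_ker {X Z : Type} [AddCommGroup X] [AddCommGroup Z] [Finite Z] (φ : X →+ Z)
    (hker : Finite φ.ker) : Finite X := by
  haveI := hker
  haveI : Finite (X ⧸ φ.ker) :=
    Finite.of_injective (QuotientAddGroup.kerLift φ) (QuotientAddGroup.kerLift_injective φ)
  exact Finite.of_equiv _ (AddSubgroup.addGroupEquivQuotientProdAddSubgroup (s := φ.ker)).symm

end Motive

end Fermat.Agent.Lib.S15
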