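/-
(M) node **[FLAT-KUM]** (helper4, prefix `m15f_`), part 3 (curve-free): **the Kummer module
`[n]⁻¹M/M` of a subgroup `M = u(L)` of Galois-fixed points of a module `J` with a coordinate package
carries a function order** (`s19_IsOrder`): it is a Galois quotient of the `n`-torsion of the
1-motive module `𝒥 = (J × L)/Γ`, which is a finite Galois submodule of a module with a coordinate
package (`m15f_frames_transfer`), hence has a local order (`s19_order_final`), a global order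
(`s19g_desc`), and so has its quotient (`s19c_orderQuot`).
-/
import Fermat.Agent.Lib.S15.FKum2
import Fermat.Agent.Lib.S19.Final

set_option autoImplicit false
set_option linter.unusedSectionVars false
set_option linter.unusedVariables false
set_option linter.style.haveILetI false

noncomputable section

namespace Fermat.Agent.Lib.S15

open Fermat.Agent.Lib.S19 IsLocalRing

theorem m15f_flat_abstract (ℓ : ℕ) [Fact ℓ.Prime] (A : ValuationSubring s19_Qbar)
    (hA : A.LiesOverPrime ℓ) (l : ↥A) (hl : ((l : ↥A) : s19_Qbar) = (ℓ : s19_Qbar))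
    {J : Type} [AddCommGroup J] [DistribMulAction s19_Gal J] (J1 : AddSubgroup J) (g : ℕ)
    (𝔉 : Type) (S : 𝔉 → ↥J1 → Fin g → ↥A) (hF : s19_Frames A l J J1 g 𝔉 S)
    (hcont : ∀ x : J, ∃ E : IntermediateField ℚ s19_Qbar, FiniteDimensional ℚ E ∧
      ∀ σ : s19_Gal, (∀ e ∈ E, σ e = e) → σ • x = x)
    {L : Type} [AddCommGroup L] (u : L →+ J) (hu : ∀ (σ : s19_Gal) (a : L), σ • u a = u a)
    (n : ℕ) (hL : ∀ a : L, n • a = 0 → a = 0)
    (hLfin : Finite (L ⧸ (nsmulAddMonoidHom n : L →+ L).range))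
    (htors : Finite {x : J // n • x = 0}) :
    ∃ (E : Type) (_ : AddCommGroup E) (_ : Finite E) (_ : DistribMulAction s19_Gal E)
      (π : J → E),
      (∀ y y' : J, n • y ∈ u.range → n • y' ∈ u.range → π (y + y') = π y + π y') ∧
      (∀ (σ : s19_Gal) (y : J), n • y ∈ u.range → π (σ • y) = σ • π y) ∧
      (∀ e : E, ∃ y : J, n • y ∈ u.range ∧ π y = e) ∧
      (∀ y : J, n • y ∈ u.range → (π y = 0 ↔ y ∈ u.range)) ∧
      ∃ H, s19_IsOrder ℓ E H := by
  classical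
  letI actL : DistribMulAction s19_Gal L := m15f_trivAction
  set Γ : AddSubgroup (J × L) := m15f_Gamma u n with hΓdef
  have hΓ : ∀ (σ : s19_Gal), ∀ z ∈ Γ, σ • z ∈ Γ := by
    intro σ z hz
    obtain ⟨a, h1, h2⟩ := (m15f_mem_Gamma u n).mp hz
    refine (m15f_mem_Gamma u n).mpr ⟨a, ?_, ?_⟩
    · show u a = σ • z.1
      rw [← h1, hu]
    · exact h2
  letI act𝒥 : DistribMulAction s19_Gal ((J × L) ⧸ Γ) := m15f_quotAction Γ hΓ
  have hsmul_mk : ∀ (σ : s19_Gal) (x : J) (a : L),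
      σ • (QuotientAddGroup.mk (x, a) : (J × L) ⧸ Γ) = QuotientAddGroup.mk (σ • x, a) :=
    fun _ _ _ => rfl
  have hmk_eq_zero : ∀ (x : J) (a : L), (QuotientAddGroup.mk (x, a) : (J × L) ⧸ Γ) = 0 ↔
      ∃ b : L, u b = x ∧ n • b = a := by
    intro x a
    rw [QuotientAddGroup.eq_zero_iff]
    exact m15f_mem_Gamma u n
  -- the embedding of `J`
  set j : J →+ (J × L) ⧸ Γ := (QuotientAddGroup.mk' Γ).comp (AddMonoidHom.inl J L) with hjdef
  have hj_apply : ∀ x : J, j x = QuotientAddGroup.mk (x, 0) := fun _ => rfl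
  have hj : Function.Injective j := by
    rw [injective_iff_map_eq_zero]
    intro x hx
    rw [hj_apply, hmk_eq_zero] at hx
    obtain ⟨b, h1, h2⟩ := hx
    rw [← h1, hL b h2, map_zero]
  have hje : ∀ (σ : s19_Gal) (x : J), j (σ • x) = σ • j x := fun σ x => by
    rw [hj_apply, hj_apply, hsmul_mk]
  have hcentre : ∀ x' : (J × L) ⧸ Γ, ∃ x₀' : (J × L) ⧸ Γ, x' - x₀' ∈ J1.map j ∧
      ∀ τ ∈ A.inertiaSubgroupIn ℚ, τ • x₀' = x₀' := by
    intro x'
    obtain ⟨⟨x, a⟩, rfl⟩ := QuotientAddGroup.mk_surjective x'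
    obtain ⟨x₀, hx₀, hfix⟩ := hF.centre x
    refine ⟨QuotientAddGroup.mk (x₀, a), ?_, fun τ hτ => ?_⟩
    · refine AddSubgroup.mem_map.mpr ⟨x - x₀, hx₀, ?_⟩
      rw [hj_apply, ← QuotientAddGroup.mk_sub]
      congr 1
      ext <;> simp
    · rw [hsmul_mk, hfix τ hτ]
  have hF' := m15f_frames_transfer A l g 𝔉 S hF hj hje hcentre
  -- the torsion module
  set 𝒯 : AddSubgroup ((J × L) ⧸ Γ) := (nsmulAddMonoidHom n : (J × L) ⧸ Γ →+ (J × L) ⧸ Γ).ker
    with h𝒯def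
  have hmem𝒯 : ∀ t : (J × L) ⧸ Γ, t ∈ 𝒯 ↔ n • t = 0 := fun t => Iff.rfl
  have h𝒯stab : ∀ (σ : s19_Gal), ∀ t ∈ 𝒯, σ • t ∈ 𝒯 := by
    intro σ t ht
    rw [hmem𝒯] at ht ⊢
    rw [smul_comm, ht, smul_zero]
  letI act𝒯 : DistribMulAction s19_Gal ↥𝒯 := m15f_subAction 𝒯 h𝒯stab
  have hmk_mem : ∀ (y : J) (a : L), u a = n • y →
      (QuotientAddGroup.mk (y, a) : (J × L) ⧸ Γ) ∈ 𝒯 := by
    intro y a h
    rw [hmem𝒯, ← QuotientAddGroup.mk_nsmul, hmk_eq_zero]
    exact ⟨a, h, rfl⟩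
  -- finiteness
  haveI := hLfin
  haveI : Finite ↥𝒯 := by
    set nL : AddSubgroup L := (nsmulAddMonoidHom n : L →+ L).range with hnL
    have hle : Γ ≤ ((QuotientAddGroup.mk' nL).comp (AddMonoidHom.snd J L)).ker := by
      intro z hz
      obtain ⟨a, h1, h2⟩ := (m15f_mem_Gamma u n).mp hz
      rw [AddMonoidHom.mem_ker, AddMonoidHom.comp_apply, AddMonoidHom.coe_snd,
        QuotientAddGroup.mk'_apply, QuotientAddGroup.eq_zero_iff, ← h2]
      exact ⟨a, rfl⟩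
    set φ₀ : (J × L) ⧸ Γ →+ L ⧸ nL :=
      QuotientAddGroup.lift Γ ((QuotientAddGroup.mk' nL).comp (AddMonoidHom.snd J L)) hle
      with hφ₀
    set φ : ↥𝒯 →+ L ⧸ nL := φ₀.comp 𝒯.subtype with hφ
    refine m15f_finite_of_ker φ ?_
    haveI := htors
    let f : {x : J // n • x = 0} → ↥𝒯 := fun x => ⟨j x.1, by
      rw [hmem𝒯, ← map_nsmul, x.2, map_zero]⟩
    have hsub : (φ.ker : Set ↥𝒯) ⊆ Set.range f := by
      intro t ht
      obtain ⟨⟨x, a⟩, hxa⟩ := QuotientAddGroup.mk_surjective t.1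
      have h0 : φ t = 0 := ht
      have h1 : (QuotientAddGroup.mk a : L ⧸ nL) = 0 := by
        rw [← h0, hφ, AddMonoidHom.comp_apply]
        show _ = φ₀ t.1
        rw [← hxa]
        rfl
      rw [QuotientAddGroup.eq_zero_iff] at h1
      obtain ⟨b, hb⟩ := h1
      have hb' : n • b = a := hb
      have ht1 : t.1 = j (x - u b) := by
        rw [← hxa, hj_apply, ← sub_eq_zero, ← QuotientAddGroup.mk_sub, hmk_eq_zero]
        refine ⟨b, ?_, ?_⟩
        · simp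
        · simp [hb']
      have hnt : n • t.1 = 0 := (hmem𝒯 t.1).mp t.2
      have hx0 : n • (x - u b) = 0 := by
        apply hj
        rw [map_nsmul, ← ht1, hnt, map_zero]
      exact ⟨⟨x - u b, hx0⟩, Subtype.ext ht1.symm⟩
    exact ((Set.finite_range f).subset hsub).to_subtype
  -- the local and the global order on the torsion module
  have hloc : ∃ HW, s19_IsLocalOrder A ↥𝒯 HW :=
    s19_order_final ℓ A hA l hl ((J × L) ⧸ Γ) (J1.map j) g 𝔉 _ hF' ↥𝒯 𝒯.subtype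
      Subtype.val_injective (fun σ x => rfl)
  have hglob : ∃ H, s19_IsOrder ℓ ↥𝒯 H := by
    refine s19g_desc ℓ A hA ↥𝒯 (fun t => ?_) hloc
    obtain ⟨⟨x, a⟩, hxa⟩ := QuotientAddGroup.mk_surjective t.1
    obtain ⟨E, hE, hfix⟩ := hcont x
    refine ⟨E, hE, fun σ hσ => Subtype.ext ?_⟩
    show σ • t.1 = t.1
    rw [← hxa, hsmul_mk, hfix σ hσ]
  -- the Galois-trivial kernel
  set κ : ↥u.ker →+ (J × L) ⧸ Γ :=
    ((QuotientAddGroup.mk' Γ).comp (AddMonoidHom.inr J L)).comp u.ker.subtype with hκ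
  have hκ_apply : ∀ c : ↥u.ker, κ c = QuotientAddGroup.mk (0, (c : L)) := fun _ => rfl
  set K₀ : AddSubgroup ↥𝒯 := κ.range.comap 𝒯.subtype with hK₀
  have hmemK₀ : ∀ t : ↥𝒯, t ∈ K₀ ↔ ∃ c : L, u c = 0 ∧ t.1 = QuotientAddGroup.mk (0, c) := by
    intro t
    constructor
    · rintro ⟨c, hc⟩
      exact ⟨c.1, c.2, hc.symm⟩
    · rintro ⟨c, hc, ht⟩
      exact ⟨⟨c, hc⟩, ht.symm⟩
  have hK₀stab : ∀ (σ : s19_Gal), ∀ t ∈ K₀, σ • t ∈ K₀ := by
    intro σ t ht
    obtain ⟨c, hc, htc⟩ := (hmemK₀ t).mp ht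
    refine (hmemK₀ _).mpr ⟨c, hc, ?_⟩
    show σ • t.1 = _
    rw [htc, hsmul_mk, smul_zero]
  letI actE : DistribMulAction s19_Gal (↥𝒯 ⧸ K₀) := m15f_quotAction K₀ hK₀stab
  have hEord : ∃ H, s19_IsOrder ℓ (↥𝒯 ⧸ K₀) H :=
    s19c_orderQuot ℓ ↥𝒯 (↥𝒯 ⧸ K₀) (QuotientAddGroup.mk' K₀)
      (QuotientAddGroup.mk'_surjective K₀) (fun σ x => rfl) hglob
  -- the Kummer map
  have hcongr : ∀ (y : J) (a a' : L) (h : u a = n • y) (h' : u a' = n • y),
      (QuotientAddGroup.mk (⟨QuotientAddGroup.mk (y, a), hmk_mem y a h⟩ : ↥𝒯) : ↥𝒯 ⧸ K₀) =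
        QuotientAddGroup.mk (⟨QuotientAddGroup.mk (y, a'), hmk_mem y a' h'⟩ : ↥𝒯) := by
    intro y a a' h h'
    rw [QuotientAddGroup.eq, hmemK₀]
    refine ⟨a' - a, by rw [map_sub, h, h', sub_self], ?_⟩
    show -(QuotientAddGroup.mk (y, a) : (J × L) ⧸ Γ) + QuotientAddGroup.mk (y, a') = _
    rw [← QuotientAddGroup.mk_neg, ← QuotientAddGroup.mk_add]
    congr 1
    ext
    · simp
    · simp [sub_eq_neg_add]
  set π : J → ↥𝒯 ⧸ K₀ := fun y =>
    if h : ∃ a : L, u a = n • y then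
      QuotientAddGroup.mk (⟨QuotientAddGroup.mk (y, h.choose), hmk_mem y _ h.choose_spec⟩ : ↥𝒯)
    else 0 with hπ
  have hπ_spec : ∀ (y : J) (a : L) (h : u a = n • y),
      π y = QuotientAddGroup.mk (⟨QuotientAddGroup.mk (y, a), hmk_mem y a h⟩ : ↥𝒯) := by
    intro y a h
    have hex : ∃ a : L, u a = n • y := ⟨a, h⟩
    show (if h : ∃ a : L, u a = n • y then _ else _) = _
    rw [dif_pos hex]
    exact hcongr y _ a hex.choose_spec h
  refine ⟨↥𝒯 ⧸ K₀, inferInstance, inferInstance, actE, π, ?_, ?_, ?_, ?_, hEord⟩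
  · -- additivity
    rintro y y' ⟨a, ha⟩ ⟨a', ha'⟩
    have hs : u (a + a') = n • (y + y') := by rw [map_add, ha, ha', smul_add]
    rw [hπ_spec y a ha, hπ_spec y' a' ha', hπ_spec (y + y') (a + a') hs]
    rfl
  · -- equivariance
    rintro σ y ⟨a, ha⟩
    have hs : u a = n • (σ • y) := by rw [smul_comm, ← ha, hu]
    rw [hπ_spec y a ha, hπ_spec (σ • y) a hs]
    rfl
  · -- surjectivity
    intro e
    obtain ⟨t, rfl⟩ := QuotientAddGroup.mk_surjective e
    obtain ⟨⟨x, a⟩, hxa⟩ := QuotientAddGroup.mk_surjective t.1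
    have hnt : n • t.1 = 0 := (hmem𝒯 t.1).mp t.2
    rw [← hxa, ← QuotientAddGroup.mk_nsmul, hmk_eq_zero] at hnt
    obtain ⟨b, h1, h2⟩ := hnt
    have hab : b = a := by
      have : n • (b - a) = 0 := by rw [smul_sub]; exact sub_eq_zero.mpr h2
      exact sub_eq_zero.mp (hL _ this)
    have hua : u a = n • x := by rw [← hab]; exact h1
    refine ⟨x, ⟨a, hua⟩, ?_⟩
    rw [hπ_spec x a hua]
    congr 1
    exact Subtype.ext hxa
  · -- the kernel
    rintro y ⟨a, ha⟩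
    rw [hπ_spec y a ha, QuotientAddGroup.eq_zero_iff, hmemK₀]
    constructor
    · rintro ⟨c, hc, hyc⟩
      have h0 : (QuotientAddGroup.mk (y, a - c) : (J × L) ⧸ Γ) = 0 := by
        have : (QuotientAddGroup.mk (y, a) : (J × L) ⧸ Γ) - QuotientAddGroup.mk (0, c) = 0 :=
          sub_eq_zero.mpr hyc
        rw [← QuotientAddGroup.mk_sub] at this
        convert this using 2
        ext <;> simp
      obtain ⟨b, hb, -⟩ := (hmk_eq_zero _ _).mp h0
      exact ⟨b, hb⟩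
    · rintro ⟨b, hb⟩
      refine ⟨a - n • b, ?_, ?_⟩
      · rw [map_sub, map_nsmul, ha, hb, sub_self]
      · show (QuotientAddGroup.mk (y, a) : (J × L) ⧸ Γ) = QuotientAddGroup.mk (0, a - n • b)
        rw [← sub_eq_zero, ← QuotientAddGroup.mk_sub, hmk_eq_zero]
        refine ⟨b, ?_, ?_⟩
        · simp [hb]
        · simp

end Fermat.Agent.Lib.S15
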