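/-
(M) node **[FLAT-KUM']** (helper4, prefix `m15f_`), part 5 (curve-free): **the one-motive module**
`𝒥 = (J × L)/{(u a, n a)}` of a module `J` with a coordinate package: every finite Galois
submodule of `𝒥` carries a function order (`m15f_motive`); and the Kummer EXTENSION
`0 → J[n] → E_z → ℤ/n → 0` of a Galois-fixed `z = n y` (`m15f_ext_of_motive`), which is the
`n`-torsion of the one-motive `[ℤ → J, 1 ↦ z]`; the one-motive descends along injective equivariant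
maps (`m15f_motive_pull`).
-/
import Fermat.Agent.Lib.S15.FKum3

set_option autoImplicit false
set_option linter.unusedSectionVars false
set_option linter.unusedVariables false
set_option linter.style.haveILetI false

noncomputable section

namespace Fermat.Agent.Lib.S15

open Fermat.Agent.Lib.S19 IsLocalRing

/-- **the one-motive module** exists: `J ↪ 𝒥`, `L → 𝒥` with `𝒥 = J + L`, relations
`u a + n a = 0` exactly, and orders on all finite Galois submodules. -/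
def m15f_MotiveExists (ℓ : ℕ) (J : Type) [AddCommGroup J] [DistribMulAction s19_Gal J]
    {L : Type} [AddCommGroup L] (u : L →+ J) (n : ℕ) : Prop :=
  ∃ (𝒥 : Type) (_ : AddCommGroup 𝒥) (_ : DistribMulAction s19_Gal 𝒥) (j : J →+ 𝒥)
    (k : L →+ 𝒥),
    Function.Injective j ∧ (∀ (σ : s19_Gal) (x : J), j (σ • x) = σ • j x) ∧
    (∀ (σ : s19_Gal) (a : L), σ • k a = k a) ∧
    (∀ w : 𝒥, ∃ (x : J) (a : L), w = j x + k a) ∧
    (∀ (x : J) (a : L), j x + k a = 0 ↔ ∃ b : L, u b = x ∧ n • b = a) ∧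
    ∀ (T : Type) [AddCommGroup T] [Finite T] [DistribMulAction s19_Gal T] (i : T →+ 𝒥),
      Function.Injective i → (∀ (σ : s19_Gal) (t : T), i (σ • t) = σ • i t) →
      ∃ H, s19_IsOrder ℓ T H

/-- **the one-motive module of a module with a coordinate package.** -/
theorem m15f_motive (ℓ : ℕ) [Fact ℓ.Prime] (A : ValuationSubring s19_Qbar)
    (hA : A.LiesOverPrime ℓ) (l : ↥A) (hl : ((l : ↥A) : s19_Qbar) = (ℓ : s19_Qbar))
    {J : Type} [AddCommGroup J] [DistribMulAction s19_Gal J] (J1 : AddSubgroup J) (g : ℕ)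
    (𝔉 : Type) (S : 𝔉 → ↥J1 → Fin g → ↥A) (hF : s19_Frames A l J J1 g 𝔉 S)
    (hcont : ∀ x : J, ∃ E : IntermediateField ℚ s19_Qbar, FiniteDimensional ℚ E ∧
      ∀ σ : s19_Gal, (∀ e ∈ E, σ e = e) → σ • x = x)
    {L : Type} [AddCommGroup L] (u : L →+ J) (hu : ∀ (σ : s19_Gal) (a : L), σ • u a = u a)
    (n : ℕ) (hL : ∀ a : L, n • a = 0 → a = 0) :
    m15f_MotiveExists ℓ J u n := by
  classical
  letI actL : DistribMulAction s19_Gal L := m15f_trivAction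
  set Γ : AddSubgroup (J × L) := m15f_Gamma u n with hΓdef
  have hΓ : ∀ (σ : s19_Gal), ∀ z ∈ Γ, σ • z ∈ Γ := by
    intro σ z hz
    obtain ⟨a, h1, h2⟩ := (m15f_mem_Gamma u n).mp hz
    refine (m15f_mem_Gamma u n).mpr ⟨a, ?_, ?_⟩
    · show u a = σ • z.1
      rw [← h1, hu]
    · exact h2
  letI act𝒥 : DistribMulAction s19_Gal ((J × L) ⧸ Γ) := m15f_quotAction Γ hΓ
  have hsmul_mk : ∀ (σ : s19_Gal) (x : J) (a : L),
      σ • (QuotientAddGroup.mk (x, a) : (J × L) ⧸ Γ) = QuotientAddGroup.mk (σ • x, a) :=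
    fun _ _ _ => rfl
  have hmk_eq_zero : ∀ (x : J) (a : L), (QuotientAddGroup.mk (x, a) : (J × L) ⧸ Γ) = 0 ↔
      ∃ b : L, u b = x ∧ n • b = a := by
    intro x a
    rw [QuotientAddGroup.eq_zero_iff]
    exact m15f_mem_Gamma u n
  set j : J →+ (J × L) ⧸ Γ := (QuotientAddGroup.mk' Γ).comp (AddMonoidHom.inl J L) with hjdef
  have hj_apply : ∀ x : J, j x = QuotientAddGroup.mk (x, 0) := fun _ => rfl
  set k : L →+ (J × L) ⧸ Γ := (QuotientAddGroup.mk' Γ).comp (AddMonoidHom.inr J L) with hkdef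
  have hk_apply : ∀ a : L, k a = QuotientAddGroup.mk (0, a) := fun _ => rfl
  have hjk : ∀ (x : J) (a : L), j x + k a = QuotientAddGroup.mk (x, a) := by
    intro x a
    rw [hj_apply, hk_apply, ← QuotientAddGroup.mk_add]
    congr 1
    ext <;> simp
  have hj : Function.Injective j := by
    rw [injective_iff_map_eq_zero]
    intro x hx
    rw [hj_apply, hmk_eq_zero] at hx
    obtain ⟨b, h1, h2⟩ := hx
    rw [← h1, hL b h2, map_zero]
  have hje : ∀ (σ : s19_Gal) (x : J), j (σ • x) = σ • j x := fun σ x => by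
    rw [hj_apply, hj_apply, hsmul_mk]
  have hcentre : ∀ x' : (J × L) ⧸ Γ, ∃ x₀' : (J × L) ⧸ Γ, x' - x₀' ∈ J1.map j ∧
      ∀ τ ∈ A.inertiaSubgroupIn ℚ, τ • x₀' = x₀' := by
    intro x'
    obtain ⟨⟨x, a⟩, rfl⟩ := QuotientAddGroup.mk_surjective x'
    obtain ⟨x₀, hx₀, hfix⟩ := hF.centre x
    refine ⟨QuotientAddGroup.mk (x₀, a), ?_, fun τ hτ => ?_⟩
    · refine AddSubgroup.mem_map.mpr ⟨x - x₀, hx₀, ?_⟩
      rw [hj_apply, ← QuotientAddGroup.mk_sub]
      congr 1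
      ext <;> simp
    · rw [hsmul_mk, hfix τ hτ]
  have hF' := m15f_frames_transfer A l g 𝔉 S hF hj hje hcentre
  refine ⟨(J × L) ⧸ Γ, inferInstance, act𝒥, j, k, hj, hje, ?_, ?_, ?_, ?_⟩
  · intro σ a
    rw [hk_apply, hsmul_mk, smul_zero]
  · intro w
    obtain ⟨⟨x, a⟩, rfl⟩ := QuotientAddGroup.mk_surjective w
    exact ⟨x, a, (hjk x a).symm⟩
  · intro x a
    rw [hjk, hmk_eq_zero]
  · intro T _ _ _ i hi hie
    have hloc : ∃ HW, s19_IsLocalOrder A T HW :=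
      s19_order_final ℓ A hA l hl ((J × L) ⧸ Γ) (J1.map j) g 𝔉 _ hF' T i hi hie
    refine s19g_desc ℓ A hA T (fun t => ?_) hloc
    obtain ⟨⟨x, a⟩, hxa⟩ := QuotientAddGroup.mk_surjective (i t)
    obtain ⟨E, hE, hfix⟩ := hcont x
    refine ⟨E, hE, fun σ hσ => hi ?_⟩
    rw [hie, ← hxa, hsmul_mk, hfix σ hσ]

/-- **the one-motive module descends along an injective equivariant map** `i : J₀ → J`. -/
theorem m15f_motive_pull (ℓ : ℕ) {J₀ J : Type} [AddCommGroup J₀] [DistribMulAction s19_Gal J₀]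
    [AddCommGroup J] [DistribMulAction s19_Gal J] (i : J₀ →+ J) (hi : Function.Injective i)
    (hie : ∀ (σ : s19_Gal) (x : J₀), i (σ • x) = σ • i x)
    {L : Type} [AddCommGroup L] (u₀ : L →+ J₀) (n : ℕ)
    (h : m15f_MotiveExists ℓ J (i.comp u₀) n) : m15f_MotiveExists ℓ J₀ u₀ n := by
  classical
  obtain ⟨𝒥, i1, i2, j, k, hj, hje, hk, hspan, hrel, hord⟩ := h
  set 𝒥₀ : AddSubgroup 𝒥 := (j.comp i).range ⊔ k.range with h𝒥₀
  have hmem : ∀ w : 𝒥, w ∈ 𝒥₀ ↔ ∃ (x : J₀) (a : L), w = j (i x) + k a := by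
    intro w
    rw [h𝒥₀, AddSubgroup.mem_sup]
    constructor
    · rintro ⟨_, ⟨x, rfl⟩, _, ⟨a, rfl⟩, rfl⟩
      exact ⟨x, a, rfl⟩
    · rintro ⟨x, a, rfl⟩
      exact ⟨_, ⟨x, rfl⟩, _, ⟨a, rfl⟩, rfl⟩
  have hstab : ∀ (σ : s19_Gal), ∀ w ∈ 𝒥₀, σ • w ∈ 𝒥₀ := by
    intro σ w hw
    obtain ⟨x, a, rfl⟩ := (hmem w).mp hw
    refine (hmem _).mpr ⟨σ • x, a, ?_⟩
    rw [smul_add, hk, hie, hje]
  letI act₀ : DistribMulAction s19_Gal ↥𝒥₀ := m15f_subAction 𝒥₀ hstab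
  set j₀ : J₀ →+ ↥𝒥₀ := (j.comp i).codRestrict 𝒥₀
    (fun x => (hmem _).mpr ⟨x, 0, by rw [map_zero, add_zero]; rfl⟩) with hj₀
  set k₀ : L →+ ↥𝒥₀ := k.codRestrict 𝒥₀
    (fun a => (hmem _).mpr ⟨0, a, by rw [map_zero, map_zero, zero_add]⟩) with hk₀
  have hj₀_coe : ∀ x : J₀, ((j₀ x : ↥𝒥₀) : 𝒥) = j (i x) := fun _ => rfl
  have hk₀_coe : ∀ a : L, ((k₀ a : ↥𝒥₀) : 𝒥) = k a := fun _ => rfl
  refine ⟨↥𝒥₀, inferInstance, act₀, j₀, k₀, ?_, ?_, ?_, ?_, ?_, ?_⟩
  · intro x x' hxx'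
    have := congrArg Subtype.val hxx'
    rw [hj₀_coe, hj₀_coe] at this
    exact hi (hj this)
  · intro σ x
    apply Subtype.ext
    show j (i (σ • x)) = σ • j (i x)
    rw [hie, hje]
  · intro σ a
    apply Subtype.ext
    show σ • k a = k a
    exact hk σ a
  · intro w
    obtain ⟨x, a, hw⟩ := (hmem w.1).mp w.2
    exact ⟨x, a, Subtype.ext hw⟩
  · intro x a
    have h1 : j₀ x + k₀ a = 0 ↔ j (i x) + k a = 0 := by
      constructor
      · intro h; exact congrArg Subtype.val h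
      · intro h; exact Subtype.ext h
    rw [h1, hrel]
    constructor
    · rintro ⟨b, hb, hba⟩
      exact ⟨b, hi hb, hba⟩
    · rintro ⟨b, hb, hba⟩
      exact ⟨b, by rw [AddMonoidHom.comp_apply, hb], hba⟩
  · intro T _ _ _ f hf hfe
    exact hord T (𝒥₀.subtype.comp f) (fun a b hab => hf (Subtype.ext hab))
      (fun σ t => by
        show ((f (σ • t) : ↥𝒥₀) : 𝒥) = σ • ((f t : ↥𝒥₀) : 𝒥)
        rw [hfe]; rfl)

/-- the Kummer extension `0 → J[n] → E → ℤ/n → 0` of `z = n y` exists as a finite Galois module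
with a function order. -/
def m15f_ConclExt (ℓ : ℕ) (J : Type) [AddCommGroup J] [DistribMulAction s19_Gal J] (n : ℕ)
    (y : J) : Prop :=
  ∃ (E : Type) (_ : AddCommGroup E) (_ : Finite E) (_ : DistribMulAction s19_Gal E)
    (ι : J → E) (e₀ : E),
    (∀ x x' : J, n • x = 0 → n • x' = 0 → ι (x + x') = ι x + ι x') ∧
    (∀ x : J, n • x = 0 → ι x = 0 → x = 0) ∧
    (∀ (σ : s19_Gal) (x : J), n • x = 0 → ι (σ • x) = σ • ι x) ∧
    (∀ σ : s19_Gal, σ • e₀ = e₀ + ι (σ • y - y)) ∧ n • e₀ = 0 ∧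
    (∀ (m : ℕ) (x : J), n • x = 0 → m • e₀ = ι x → n ∣ m) ∧
    (∀ e : E, ∃ (x : J) (m : ℕ), n • x = 0 ∧ e = ι x + m • e₀) ∧
    ∃ H, s19_IsOrder ℓ E H

/-- **the Kummer extension of a Galois-fixed `z = n y` carries a function order**, as soon as the
one-motive `[ℤ → J, 1 ↦ z]` exists. -/
theorem m15f_ext_of_motive (ℓ : ℕ) [Fact ℓ.Prime]
    {J : Type} [AddCommGroup J] [DistribMulAction s19_Gal J]
    (n : ℕ) (hn : n ≠ 0) (htors : Finite {x : J // n • x = 0}) (y : J)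
    (hy : ∀ σ : s19_Gal, σ • (n • y) = n • y)
    (hmot : m15f_MotiveExists ℓ J (zmultiplesHom J (n • y)) n) :
    m15f_ConclExt ℓ J n y := by
  classical
  set z : J := n • y with hz
  obtain ⟨𝒥, i1, i2, j, k, hj, hje, hk, hspan, hrel, hord⟩ := hmot
  -- the basic relation `j z + k n = 0`
  have hrel1 : j z + k (n : ℤ) = 0 := by
    rw [hrel]
    exact ⟨1, by rw [zmultiplesHom_apply, one_smul], by simp⟩
  -- the torsion module
  set 𝒯 : AddSubgroup 𝒥 := (nsmulAddMonoidHom n : 𝒥 →+ 𝒥).ker with h𝒯def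
  have hmem𝒯 : ∀ t : 𝒥, t ∈ 𝒯 ↔ n • t = 0 := fun t => Iff.rfl
  have h𝒯stab : ∀ (σ : s19_Gal), ∀ t ∈ 𝒯, σ • t ∈ 𝒯 := by
    intro σ t ht
    rw [hmem𝒯] at ht ⊢
    rw [smul_comm, ht, smul_zero]
  letI act𝒯 : DistribMulAction s19_Gal ↥𝒯 := m15f_subAction 𝒯 h𝒯stab
  have he₀mem : j y + k 1 ∈ 𝒯 := by
    rw [hmem𝒯, nsmul_add, ← map_nsmul, ← map_nsmul, ← hz]
    have : n • (1 : ℤ) = (n : ℤ) := by simp
    rw [this]
    exact hrel1
  set e₀ : ↥𝒯 := ⟨j y + k 1, he₀mem⟩ with he₀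
  have hjmem : ∀ x : J, n • x = 0 → j x ∈ 𝒯 := by
    intro x hx
    rw [hmem𝒯, ← map_nsmul, hx, map_zero]
  set ι : J → ↥𝒯 := fun x => if h : n • x = 0 then ⟨j x, hjmem x h⟩ else 0 with hι
  have hι_spec : ∀ (x : J) (h : n • x = 0), ι x = ⟨j x, hjmem x h⟩ := fun x h => dif_pos h
  have hne₀ : n • e₀ = 0 := Subtype.ext ((hmem𝒯 _).mp he₀mem)
  have hdiff : ∀ σ : s19_Gal, n • (σ • y - y) = 0 := by
    intro σ
    rw [smul_sub, ← smul_comm σ n y, hy σ, sub_self]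
  -- every element is `ι x + m • e₀`
  have hsurj : ∀ e : ↥𝒯, ∃ (x : J) (m : ℕ), n • x = 0 ∧ e = ι x + m • e₀ := by
    intro e
    obtain ⟨x₁, a, hxa⟩ := hspan e.1
    -- `a = n * q + m`
    set q : ℤ := a / (n : ℤ) with hq
    set m : ℕ := (a % (n : ℤ)).toNat with hm
    have hnZ : (n : ℤ) ≠ 0 := Int.natCast_ne_zero.mpr hn
    have hmcast : (m : ℤ) = a % (n : ℤ) := Int.toNat_of_nonneg (Int.emod_nonneg a hnZ)
    have ha : a = (q * (n : ℤ)) + (m : ℤ) := by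
      rw [hmcast, hq, mul_comm]
      exact (Int.mul_ediv_add_emod a n).symm
    -- `k (q * n) = - j (q • z)`
    have hkq : k (q * (n : ℤ)) = - j (q • z) := by
      rw [eq_neg_iff_add_eq_zero, add_comm, hrel]
      exact ⟨q, by rw [zmultiplesHom_apply], by simp [mul_comm]⟩
    have hkm : k (m : ℤ) = m • k 1 := by
      rw [← map_nsmul]; simp
    have hx : e.1 = j (x₁ - q • z - m • y) + m • (j y + k 1) := by
      rw [hxa, ha, map_add, hkq, hkm, map_sub, map_sub, map_nsmul, nsmul_add]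
      abel
    have hnx : n • (x₁ - q • z - m • y) = 0 := by
      apply hj
      rw [map_nsmul, map_zero]
      have h1 : n • e.1 = 0 := (hmem𝒯 _).mp e.2
      have h2 : n • (j y + k 1) = 0 := (hmem𝒯 _).mp he₀mem
      rw [hx, nsmul_add, smul_comm n m, h2, smul_zero, add_zero] at h1
      exact h1
    refine ⟨x₁ - q • z - m • y, m, hnx, Subtype.ext ?_⟩
    rw [hι_spec _ hnx]
    exact hx
  -- finiteness
  haveI : Finite ↥𝒯 := by
    haveI := htors
    haveI : NeZero n := ⟨hn⟩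
    refine Finite.of_surjective
      (fun xm : {x : J // n • x = 0} × Fin n => ι xm.1.1 + (xm.2 : ℕ) • e₀) ?_
    intro e
    obtain ⟨x, m, hx, he⟩ := hsurj e
    refine ⟨(⟨x, hx⟩, ⟨m % n, Nat.mod_lt m (Nat.pos_of_ne_zero hn)⟩), ?_⟩
    show ι x + (m % n) • e₀ = e
    rw [he]
    congr 1
    conv_rhs => rw [← Nat.mod_add_div m n]
    rw [add_nsmul, mul_nsmul', smul_comm n (m / n) e₀, hne₀, smul_zero, add_zero]
  refine ⟨↥𝒯, inferInstance, inferInstance, act𝒯, ι, e₀, ?_, ?_, ?_, ?_, hne₀, ?_, hsurj, ?_⟩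
  · intro x x' hx hx'
    have hxx' : n • (x + x') = 0 := by rw [nsmul_add, hx, hx', add_zero]
    rw [hι_spec _ hx, hι_spec _ hx', hι_spec _ hxx']
    exact Subtype.ext (map_add j x x')
  · intro x hx h0
    rw [hι_spec _ hx] at h0
    have : j x = 0 := congrArg Subtype.val h0
    exact hj (by rw [this, map_zero])
  · intro σ x hx
    have hσx : n • (σ • x) = 0 := by rw [← smul_comm σ n x, hx, smul_zero]
    rw [hι_spec _ hx, hι_spec _ hσx]
    exact Subtype.ext (hje σ x)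
  · intro σ
    rw [hι_spec _ (hdiff σ)]
    apply Subtype.ext
    show σ • (j y + k 1) = (j y + k 1) + j (σ • y - y)
    rw [smul_add, hk, ← hje, map_sub]
    abel
  · intro m x hx hmx
    rw [hι_spec _ hx] at hmx
    have h1 : m • (j y + k 1) = j x := congrArg Subtype.val hmx
    have hkm : m • k 1 = k (m : ℤ) := by
      rw [← map_nsmul]; simp
    have h2 : j (m • y - x) + k (m : ℤ) = 0 := by
      rw [map_sub, map_nsmul, ← hkm, ← h1, nsmul_add]
      abel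
    obtain ⟨b, -, hb⟩ := (hrel _ _).mp h2
    have hb' : (n : ℤ) * b = (m : ℤ) := by
      rw [← hb]; simp
    exact Int.natCast_dvd_natCast.mp ⟨b, hb'.symm⟩
  · exact hord ↥𝒯 𝒯.subtype Subtype.val_injective (fun σ t => rfl)

end Fermat.Agent.Lib.S15
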