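/-
(M) node **[FLAT-KUM']** (helper4, prefix `m15f_`), part 6: **`m15f_flatKum' : m15_FlatKum'`**.
The one-motive module of `J₀(N)` exists at every good level `N` (`m15f_motive_level`: the coordinate
package `s19_frames_final`), hence at every prime level `p ≠ ℓ` (`m15f_motive_prime`: for
`ℓ ∈ {2, 3}` through the injective pull-back `J₀(p) → J₀(3p)` resp. `J₀(2p)`), and the Kummer
extension `E_z` of a rational `z = ℓ^r y` is its `ℓ^r`-torsion (`m15f_ext_of_motive`).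
-/
import Fermat.Agent.Lib.S15.FKum5
import Fermat.Agent.Lib.S15.MEis2

set_option autoImplicit false
set_option linter.unusedSectionVars false
set_option linter.unusedVariables false
set_option linter.style.haveILetI false

noncomputable section

namespace Fermat.Agent.Lib.S15

open Fermat.Agent.Lib.S19 IsLocalRing ModularCurve AlgebraicCurve

/-- the `ℓ^r`-torsion of `J₀(N)` is finite (ℕ-form). -/
theorem m15f_tors_finite (N : ℕ) [NeZero N] (ℓ : ℕ) [Fact ℓ.Prime] (r : ℕ) :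
    Finite {x : JZero N // (ℓ ^ r) • x = 0} := by
  haveI := s19_torsFinite_final N ℓ r
  refine Finite.of_injective
    (fun x : {x : JZero N // (ℓ ^ r) • x = 0} =>
      (⟨(x : JZero N), by
        rw [Submodule.mem_torsionBy_iff]
        have hx := x.2
        have hcast : ((ℓ : ℤ) ^ r) • (x : JZero N) = (ℓ ^ r : ℕ) • (x : JZero N) := by
          rw [← natCast_zsmul]; push_cast; rfl
        rw [hcast]; exact hx⟩ : s19_Tors N ℓ r)) ?_
  intro x y hxy
  exact Subtype.ext (congrArg Subtype.val hxy)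

/-- **the one-motive module at a good level.** -/
theorem m15f_motive_level (N : ℕ) [NeZero N] (ℓ : ℕ) [Fact ℓ.Prime] (hgood : s19_Good ℓ N)
    {L : Type} [AddCommGroup L] (u : L →+ JZero N)
    (hu : ∀ (σ : s19_Gal) (a : L), σ • u a = u a) (n : ℕ) (hL : ∀ a : L, n • a = 0 → a = 0) :
    m15f_MotiveExists ℓ (JZero N) u n := by
  obtain ⟨A, hA⟩ := Fermat.Agent.Lib.Frobenius.exists_liesOverPrime ℓ (Fact.out : ℓ.Prime)
  have hlA : (ℓ : s19_Qbar) ∈ A := by
    have h := (ValuationSubring.mem_nonunits_iff_exists_mem_maximalIdeal (A := A)).mp hA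
    exact h.choose
  set l : ↥A := ⟨(ℓ : s19_Qbar), hlA⟩ with hl
  obtain ⟨J1, g, 𝔉, S, hFr⟩ := s19_frames_final s19_rr_final N ℓ hgood A hA l rfl
  exact m15f_motive ℓ A hA l rfl J1 g 𝔉 S hFr (fun x => s19_cont_final N x) u hu n hL

/-- **the one-motive module at a prime level `p ≠ ℓ`** (`ℓ = 2, 3` included). -/
theorem m15f_motive_prime (p : ℕ) [NeZero p] (hp : p.Prime) (ℓ : ℕ) [Fact ℓ.Prime] (hne : ℓ ≠ p)
    {L : Type} [AddCommGroup L] (u : L →+ JZero p)
    (hu : ∀ (σ : s19_Gal) (a : L), σ • u a = u a) (n : ℕ) (hL : ∀ a : L, n • a = 0 → a = 0) :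
    m15f_MotiveExists ℓ (JZero p) u n := by
  have hℓ : ℓ.Prime := Fact.out
  have hndvd : ¬ ℓ ∣ p := fun h => hne ((Nat.prime_dvd_prime_iff_eq hℓ hp).mp h)
  by_cases hg : s19_Good ℓ p
  · exact m15f_motive_level p ℓ hg u hu n hL
  · -- `ℓ ∈ {2, 3}` and the complementary prime `r₀ = 5 - ℓ` does not divide `p`
    have h5 : ¬ 5 ≤ ℓ := fun h => hg ⟨hndvd, Or.inl h⟩
    have h23 : ℓ = 2 ∨ ℓ = 3 := by
      have h2 := hℓ.two_le
      have h4 : ℓ ≠ 4 := fun h => by rw [h] at hℓ; exact absurd hℓ (by decide)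
      omega
    obtain ⟨r₀, hr₀, hr₀p, hgood⟩ : ∃ r₀ : ℕ, r₀.Prime ∧ ¬ r₀ ∣ p ∧ s19_Good ℓ (p * r₀) := by
      rcases h23 with h | h
      · have h3p : ¬ 3 ∣ p := fun h3 => hg ⟨hndvd, Or.inr (Or.inr ⟨h, h3⟩)⟩
        refine ⟨3, Nat.prime_three, h3p, ?_, Or.inr (Or.inr ⟨h, Dvd.intro_left p rfl⟩)⟩
        rw [h]
        intro h2
        rcases (Nat.Prime.dvd_mul Nat.prime_two).mp h2 with h2 | h2
        · exact hndvd (h ▸ h2)
        · omega
      · have h2p : ¬ 2 ∣ p := fun h2 => hg ⟨hndvd, Or.inr (Or.inl ⟨h, h2⟩)⟩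
        refine ⟨2, Nat.prime_two, h2p, ?_, Or.inr (Or.inl ⟨h, Dvd.intro_left p rfl⟩)⟩
        rw [h]
        intro h3
        rcases (Nat.Prime.dvd_mul Nat.prime_three).mp h3 with h3 | h3
        · exact hndvd (h ▸ h3)
        · omega
    haveI : NeZero r₀ := ⟨hr₀.ne_zero⟩
    haveI : NeZero (p * r₀) := ⟨Nat.mul_ne_zero (NeZero.ne p) hr₀.ne_zero⟩
    have hlev := m15f_motive_level (p * r₀) ℓ hgood ((s19v_pull p r₀ hr₀ hr₀p).comp u)
      (fun σ a => by
        show σ • s19v_pull p r₀ hr₀ hr₀p (u a) = s19v_pull p r₀ hr₀ hr₀p (u a)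
        rw [← s19v_pull_smul, hu]) n hL
    exact m15f_motive_pull ℓ (s19v_pull p r₀ hr₀ hr₀p) (s19v_pull_injective p r₀ hr₀ hr₀p)
      (s19v_pull_smul p r₀ hr₀ hr₀p) u n hlev

/-- **[FLAT-KUM']** the Kummer extension of a rational point of `J₀(p)` is flat at `p' ≠ p`. -/
theorem m15f_flatKum' : m15_FlatKum' := by
  intro p _ hp p' hp' hne r y hy
  haveI : Fact p'.Prime := ⟨hp'⟩
  have hn : p' ^ r ≠ 0 := pow_ne_zero r hp'.ne_zero
  have hmot : m15f_MotiveExists p' (JZero p) (zmultiplesHom (JZero p) (p' ^ r • y)) (p' ^ r) :=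
    m15f_motive_prime p hp p' hne _
      (fun σ a => by
        rw [zmultiplesHom_apply]
        have h := map_zsmul (DistribSMul.toAddMonoidHom (JZero p) σ) a (p' ^ r • y)
        have h' : σ • (a • (p' ^ r • y)) = a • (σ • (p' ^ r • y)) := h
        rw [h', hy σ]) (p' ^ r)
      (fun a ha => (smul_eq_zero.mp ha).resolve_left hn)
  obtain ⟨E, i1, i2, i3, ι, e₀, h1, h2, h3, h4, h5, h6, h7, h8⟩ :=
    m15f_ext_of_motive p' (p' ^ r) hn (m15f_tors_finite p p' r) y hy hmot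
  refine ⟨E, i1, i2, i3,
    AddMonoidHom.mk' (fun x : ↥(m15_tors p (p' ^ r)) => ι (x : JZero p))
      (fun a b => h1 _ _ a.2 b.2), e₀, ?_, ?_, ?_, h5, ?_, ?_, h8⟩
  · rw [injective_iff_map_eq_zero]
    intro x hx
    exact Subtype.ext (h2 _ x.2 hx)
  · intro σ x
    exact h3 σ (x : JZero p) x.2
  · intro σ
    have hmem : σ • y - y ∈ m15_tors p (p' ^ r) := by
      show p' ^ r • (σ • y - y) = 0
      rw [nsmul_sub, smul_comm (p' ^ r) σ y, hy σ, sub_self]
    exact ⟨⟨σ • y - y, hmem⟩, rfl, h4 σ⟩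
  · rintro n ⟨x, hx⟩
    exact h6 n (x : JZero p) x.2 hx.symm
  · intro e
    obtain ⟨x, m, hx, he⟩ := h7 e
    exact ⟨⟨x, hx⟩, m, he⟩

end Fermat.Agent.Lib.S15
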