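/-
(M) programme for S15, node [NW-p] (helper1, prefix `m15k_`): `m15k_NWp : m15_NWp`.

The weight relation `(φ² - 1)(φ² - p²) = 0` on the prime-to-`p` torsion of `J₀(p)`, for every
Frobenius lift `φ` at a place over `p`: S35's NEW-WEIGHT `s35q_NW_jzero` at level `1 · p` (the
number-field contract from `s35fin_NFKummer_of_inputs` + `s35fx_W4`, for EVERY `m` prime to `p`);
both push-forwards to level one vanish since `J₀(1) = 0` (`m15k_jzero_one`).
-/
import Fermat.Agent.Lib.S15.MEis2
import Fermat.Agent.Lib.S15.KTriv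
import Fermat.Agent.Lib.S35.FinalX

set_option autoImplicit false
set_option linter.unusedSectionVars false
set_option linter.unusedVariables false

noncomputable section

namespace Fermat.Agent.Lib.S15

open AlgebraicCurve ModularCurve Fermat.Agent.Lib.S35 Fermat.Agent.Lib.S29

local notation "Kb" => AlgebraicClosure ℚ
local notation "GQ" => (AlgebraicClosure ℚ ≃ₐ[ℚ] AlgebraicClosure ℚ)

/-- the number-field contract of NEW-WEIGHT at all good levels, for every `m` prime to `q`. -/
theorem m15k_nfKummer (q : ℕ) [NeZero q] (hq : q.Prime) (m : ℕ) (hm : ¬ q ∣ m)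
    (M' : ℕ) [NeZero M'] (hg : s35q_GoodM q M') : s35q_NFKummer M' q m := by
  have hm0 : m ≠ 0 := by
    rintro rfl
    exact hm (dvd_zero q)
  exact s35fin_NFKummer_of_inputs M' q hq hg.1 hg.2 (s35fx_W4 M' q hq hg.1) m hm0 hm

/-- the weight relation at level `N = 1 * p`. -/
theorem m15k_NW_aux (N p : ℕ) [NeZero N] [NeZero p] (hN : N = 1 * p) (hp : p.Prime)
    (P : ValuationSubring Kb) (hP : P.LiesOverPrime p) (φ : GQ) (hφ : P.IsFrobeniusAt φ p)
    (m : ℕ) (hm : ¬ p ∣ m) (z : JZero N) (hz : m • z = 0) :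
    φ • φ • φ • φ • z - (1 + p ^ 2) • (φ • φ • z) + p ^ 2 • z = 0 := by
  subst hN
  have hp1 : ¬ p ∣ 1 := fun h => hp.one_lt.ne' (Nat.dvd_one.mp h)
  exact s35q_NW_jzero 1 p hp hp1 m hm (fun M' _ hg => m15k_nfKummer p hp m hm M' hg) P hP φ hφ z hz
    (m15k_jzero_one _) (m15k_jzero_one _)

/-- **[NW-p]** -/
theorem m15k_NWp : m15_NWp := fun p _ hp P hP φ hφ m hm z hz =>
  m15k_NW_aux p p (one_mul p).symm hp P hP φ hφ m hm z hz

end Fermat.Agent.Lib.S15
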