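/-
(M) programme for S15, node [TAME-FROB] (helper1, prefix `m15k_`): `m15k_tameFrob : m15_TameFrob`.

A finite `p'`-primary `G_ℚ`-module `W` with open stabilisers on which the inertia group `I_P`
(`P ∣ p ≠ p'`) acts unipotently: `I_P` acts through one element `σ₀`, and `φ σ₀ φ⁻¹ = σ₀ ^ p` on `W`
for every Frobenius lift `φ` at `P`.

Proof: helper6's landed `s56g_ifaceTame` (Lib/S56/GDecomp.lean) applied to `K :=` the kernel of the
action on `W`; the hypothesis "`σ ^ m ∈ K` with `m` prime to `p`" holds with `m = p' ^ j` by an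
elementary induction on the unipotency index (`m15k_unip_pow`).
-/
import Fermat.Agent.Lib.S15.MEis2
import Fermat.Agent.Lib.S56.GDecomp

set_option autoImplicit false
set_option linter.unusedSectionVars false
set_option linter.unusedVariables false

noncomputable section

namespace Fermat.Agent.Lib.S15

open Fermat.Agent.Lib.S56

local notation "Kb" => AlgebraicClosure ℚ
local notation "GQ" => (AlgebraicClosure ℚ ≃ₐ[ℚ] AlgebraicClosure ℚ)

section Abstract

variable {W : Type*} [AddCommGroup W]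

theorem m15k_end_mul_apply (S T : AddMonoid.End W) (w : W) : (S * T) w = S (T w) := rfl

theorem m15k_end_sub_one_apply (T : AddMonoid.End W) (w : W) : (T - 1) w = T w - w := rfl

/-- if `S` commutes with `T` and fixes `T w - w`, it fixes `T ^ i w - w`. -/
theorem m15k_fix_pow_sub (T S : AddMonoid.End W) (hST : S * T = T * S) (w : W)
    (h : S (T w - w) = T w - w) (i : ℕ) : S ((T ^ i) w - w) = (T ^ i) w - w := by
  induction i with
  | zero => simp
  | succ i ih =>
    have e : (T ^ (i + 1)) w - w = T ((T ^ i) w - w) + (T w - w) := by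
      rw [pow_succ', m15k_end_mul_apply, map_sub]
      abel
    have hST' : ∀ x : W, S (T x) = T (S x) := fun x => by
      have := congrArg (fun f : AddMonoid.End W => f x) hST
      simpa [m15k_end_mul_apply] using this
    rw [e, map_add, hST', ih, h]

/-- if `S w = w + v` and `S v = v`, then `S ^ n w = w + n • v`. -/
theorem m15k_pow_apply_of_fix (S : AddMonoid.End W) (w v : W) (h1 : S w = w + v) (h2 : S v = v)
    (n : ℕ) : (S ^ n) w = w + n • v := by
  induction n with
  | zero => simp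
  | succ n ih =>
    rw [pow_succ', m15k_end_mul_apply, ih, map_add, map_nsmul, h1, h2, succ_nsmul]
    abel

/-- **unipotent ⇒ `p'`-power order, pointwise**: on a `p'`-primary group, `(T - 1) ^ k w = 0`
implies `T ^ (p' ^ j) w = w` for some `j`. -/
theorem m15k_unip_pow (p' : ℕ) (T : AddMonoid.End W)
    (hp : ∀ w : W, ∃ e : ℕ, p' ^ e • w = 0) :
    ∀ (k : ℕ) (w : W), ((T - 1) ^ k) w = 0 → ∃ j : ℕ, (T ^ (p' ^ j)) w = w := by
  intro k
  induction k with
  | zero =>
    intro w hw
    have hw0 : w = 0 := by simpa using hw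
    exact ⟨0, by rw [hw0, map_zero]⟩
  | succ k ih =>
    intro w hw
    have hv : ((T - 1) ^ k) (T w - w) = 0 := by
      have e : (T - 1) w = T w - w := m15k_end_sub_one_apply T w
      rw [← e, ← m15k_end_mul_apply, ← pow_succ]
      exact hw
    obtain ⟨j₁, hj₁⟩ := ih (T w - w) hv
    set S : AddMonoid.End W := T ^ (p' ^ j₁) with hS
    have hST : S * T = T * S := by
      rw [hS, ← pow_succ, ← pow_succ']
    have hfix := m15k_fix_pow_sub T S hST w hj₁ (p' ^ j₁)
    rw [← hS] at hfix
    obtain ⟨e, he⟩ := hp (S w - w)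
    have h1 : S w = w + (S w - w) := by abel
    have key := m15k_pow_apply_of_fix S w (S w - w) h1 hfix (p' ^ e)
    rw [he, add_zero] at key
    refine ⟨j₁ + e, ?_⟩
    rw [pow_add, pow_mul, ← hS]
    exact key

/-- powers of an endomorphism fixing `w` fix `w`. -/
theorem m15k_pow_fix (S : AddMonoid.End W) (w : W) (h : S w = w) (n : ℕ) : (S ^ n) w = w := by
  induction n with
  | zero => simp
  | succ n ih => rw [pow_succ', m15k_end_mul_apply, ih, h]

/-- **unipotent ⇒ `p'`-power order** on a finite `p'`-primary group. -/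
theorem m15k_unip_pow_finite [Finite W] (p' : ℕ) (hp' : 1 ≤ p') (T : AddMonoid.End W)
    (hp : ∀ w : W, ∃ e : ℕ, p' ^ e • w = 0)
    (hT : ∀ w : W, ∃ k : ℕ, ((T - 1) ^ k) w = 0) :
    ∃ j : ℕ, ∀ w : W, (T ^ (p' ^ j)) w = w := by
  classical
  letI : Fintype W := Fintype.ofFinite W
  have hex : ∀ w : W, ∃ j : ℕ, (T ^ (p' ^ j)) w = w := fun w => by
    obtain ⟨k, hk⟩ := hT w
    exact m15k_unip_pow p' T hp k w hk
  choose jf hjf using hex
  refine ⟨Finset.univ.sup jf, fun w => ?_⟩
  have hle : jf w ≤ Finset.univ.sup jf := Finset.le_sup (Finset.mem_univ w)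
  obtain ⟨d, hd⟩ := Nat.exists_eq_add_of_le hle
  rw [hd, pow_add, pow_mul]
  exact m15k_pow_fix _ w (hjf w) _

end Abstract

/-- **[TAME-FROB]** -/
theorem m15k_tameFrob : m15_TameFrob := by
  intro p p' hp hp' hne W _ _ _ hprim hopen P hP hunip
  -- the kernel of the action
  let K : Subgroup GQ :=
    { carrier := {σ | ∀ w : W, σ • w = w}
      mul_mem' := fun {a b} ha hb w => by rw [mul_smul, hb w, ha w]
      one_mem' := fun w => one_smul _ w
      inv_mem' := fun {a} ha w => by
        have := congrArg (fun x => a⁻¹ • x) (ha w)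
        simp only [inv_smul_smul] at this
        exact this.symm }
  have hKmem : ∀ σ : GQ, σ ∈ K ↔ ∀ w : W, σ • w = w := fun σ => Iff.rfl
  have h1 : ∃ F : IntermediateField ℚ Kb, FiniteDimensional ℚ F ∧
      ∀ σ ∈ P.inertiaSubgroupIn ℚ, σ ∈ F.fixingSubgroup → σ ∈ K := by
    obtain ⟨E, hE, hEfix⟩ := hopen
    refine ⟨E, hE, fun σ _ hσ => ?_⟩
    rw [hKmem]
    exact hEfix σ ((IntermediateField.mem_fixingSubgroup_iff E σ).mp hσ)
  have h2 : ∀ σ ∈ P.inertiaSubgroupIn ℚ, ∃ m : ℕ, m.Coprime p ∧ σ ^ m ∈ K := by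
    intro σ hσ
    obtain ⟨j, hj⟩ := m15k_unip_pow_finite p' hp'.one_le
      (DistribMulAction.toAddMonoidEnd GQ W σ) hprim (hunip σ hσ)
    refine ⟨p' ^ j, ?_, ?_⟩
    · exact Nat.Coprime.pow_left j ((Nat.coprime_primes hp' hp).mpr hne)
    · rw [hKmem]
      intro w
      have := hj w
      rw [← map_pow] at this
      exact this
  obtain ⟨τ, hτ, hcyc, hfrob⟩ := s56g_ifaceTame p hp P hP K h1 h2
  refine ⟨τ, hτ, ?_, ?_⟩
  · intro w hw σ hσ
    obtain ⟨j, hj⟩ := hcyc σ hσ
    have h3 : ∀ n : ℕ, (τ ^ n) • w = w := by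
      intro n
      induction n with
      | zero => simp
      | succ n ih => rw [pow_succ', mul_smul, ih, hw]
    have h4 : σ = τ ^ j * ((τ ^ j)⁻¹ * σ) := by group
    rw [h4, mul_smul, (hKmem _).mp hj w, h3]
  · intro φ hφ w
    have h5 := (hKmem _).mp (hfrob φ hφ) w
    have h6 : φ * τ * φ⁻¹ = τ ^ p * ((τ ^ p)⁻¹ * (φ * τ * φ⁻¹)) := by group
    rw [h6, mul_smul, h5]

end Fermat.Agent.Lib.S15
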