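/-
(M) node (a) (helper4, prefix `m15a_`), part 1: functoriality of the push-forward of divisors for the
function fields `F̄(N)` (all inertia degrees are `1`), and the "twisted inclusions"
`B : F̄(M) → F̄(M')`, `f(q) ↦ f(q^m)` for `M m ∣ M'`.
-/
import Fermat.Agent.Lib.S37.LLevel
import Fermat.Agent.Lib.S37.LBase

set_option autoImplicit false
set_option linter.unusedSectionVars false
set_option linter.unusedVariables false
set_option linter.style.haveILetI false

noncomputable section

namespace Fermat.Agent.Lib.S15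

open ModularCurve AlgebraicCurve Fermat.Agent.Lib.FF Fermat.Agent.Lib.S18 Fermat.Agent.Lib.S37

local notation "Kb" => AlgebraicClosure ℚ

section PushComp

variable {N M P : ℕ} [NeZero N] [NeZero M] [NeZero P]

/-- all inertia degrees are `1`. -/
theorem m15a_inertiaDegAlong (φ : ffi_F N →ₐ[Kb] ffi_F M) (hφ : φ.toRingHom.IsIntegral)
    (w : Place Kb (ffi_F M)) : w.inertiaDegAlong φ hφ = 1 := by
  letI := algebraAlong φ
  haveI := isScalarTower_along φ
  haveI := isIntegral_along φ hφ
  have h := w.deg_restrict_mul_inertiaDeg (F := ffi_F N)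
  rw [s37l_deg_eq_one M w, s37l_deg_eq_one N (w.restrict (ffi_F N)), one_mul] at h
  exact h

theorem m15a_pushforwardAlong_single (φ : ffi_F N →ₐ[Kb] ffi_F M) (hφ : φ.toRingHom.IsIntegral)
    (w : Place Kb (ffi_F M)) (n : ℤ) :
    Divisor.pushforwardAlong φ hφ (Finsupp.single w n) =
      Finsupp.single (w.restrictAlong φ hφ) n := by
  rw [Divisor.pushforwardAlong_single, m15a_inertiaDegAlong φ hφ w, Nat.cast_one, mul_one]

/-- push-forward is functorial. -/
theorem m15a_pushforwardAlong_comp (φ : ffi_F N →ₐ[Kb] ffi_F M) (ψ : ffi_F M →ₐ[Kb] ffi_F P)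
    (hφ : φ.toRingHom.IsIntegral) (hψ : ψ.toRingHom.IsIntegral)
    (hψφ : (ψ.comp φ).toRingHom.IsIntegral) (D : Divisor Kb (ffi_F P)) :
    Divisor.pushforwardAlong (ψ.comp φ) hψφ D =
      Divisor.pushforwardAlong φ hφ (Divisor.pushforwardAlong ψ hψ D) := by
  induction D using Finsupp.induction with
  | zero => simp
  | single_add w n D _ _ ih =>
    rw [map_add, map_add, map_add, ih, m15a_pushforwardAlong_single, m15a_pushforwardAlong_single,
      m15a_pushforwardAlong_single, s37l_restrictAlong_comp φ ψ hφ hψ hψφ w]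

theorem m15a_pushforwardAlong_congr {φ φ' : ffi_F N →ₐ[Kb] ffi_F M} (h : φ = φ')
    (hφ : φ.toRingHom.IsIntegral) (hφ' : φ'.toRingHom.IsIntegral) (D : Divisor Kb (ffi_F M)) :
    Divisor.pushforwardAlong φ hφ D = Divisor.pushforwardAlong φ' hφ' D := by
  subst h
  rfl

end PushComp

section Twisted

variable (M m M' : ℕ) [NeZero M] [NeZero m] [NeZero M']

/-- `f(q) ↦ f(q^m)` as a map `F̄(M) → F̄(M')`, `M m ∣ M'`. -/
def m15a_B (h : M * m ∣ M') : ffi_F M →ₐ[Kb] ffi_F M' :=
  haveI : NeZero (M * m) := ⟨mul_ne_zero (NeZero.ne M) (NeZero.ne m)⟩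
  (s37l_incl (M * m) M' h).comp (heckeBetaBar Kb M m)

@[simp]
theorem m15a_coe_B (h : M * m ∣ M') (x : ffi_F M) :
    ((m15a_B M m M' h x : ffi_F M') : LaurentSeries Kb) = qExpand Kb m (x : LaurentSeries Kb) := by
  haveI : NeZero (M * m) := ⟨mul_ne_zero (NeZero.ne M) (NeZero.ne m)⟩
  rw [m15a_B, AlgHom.comp_apply, s37l_coe_incl, coe_heckeBetaBar]

end Twisted

end Fermat.Agent.Lib.S15
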