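/-
(M) node (a) (helper4, prefix `m15a_`), part 2: the Atkin–Lehner involution `w_ℓ` commutes with
`q ↦ q^ℓ'` (`ℓ ≠ ℓ'` primes, `ℓ ∤ N`), and the NORM COMPATIBILITY in the square

      F̄(N)    --α_ℓ-->  F̄(Nℓ)
        | q ↦ q^ℓ'         | q ↦ q^ℓ'
        v                  v
      F̄(Nℓ')  --α_ℓ-->  F̄(Nℓ'ℓ)

from the norm product formula `s37w_norm` (helper1).
-/
import Fermat.Agent.Lib.S15.AComm1

set_option autoImplicit false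
set_option linter.unusedSectionVars false
set_option linter.unusedVariables false
set_option linter.style.haveILetI false

noncomputable section

namespace Fermat.Agent.Lib.S15

open ModularCurve AlgebraicCurve Fermat.Agent.Lib.FF Fermat.Agent.Lib.S18 Fermat.Agent.Lib.S37
  Fermat.Agent.Lib.S28

local notation "Kb" => AlgebraicClosure ℚ

section AL

variable (N ℓ ℓ' : ℕ) [NeZero N] [NeZero ℓ] [NeZero ℓ'] [NeZero (N * ℓ)] [NeZero (N * ℓ')]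
  [NeZero (N * ℓ' * ℓ)]

theorem m15a_dvd_swap : N * ℓ * ℓ' ∣ N * ℓ' * ℓ := ⟨1, by ring⟩

theorem m15a_not_dvd_mul (hℓ : ℓ.Prime) (hℓN : ¬ ℓ ∣ N) (hℓ' : ℓ'.Prime) (hne : ℓ ≠ ℓ') :
    ¬ ℓ ∣ N * ℓ' := by
  intro h
  rcases (Nat.Prime.dvd_mul hℓ).mp h with h1 | h1
  · exact hℓN h1
  · exact hne ((Nat.prime_dvd_prime_iff_eq hℓ hℓ').mp h1)

/-- **`w_ℓ` commutes with `q ↦ q^ℓ'`.** -/
theorem m15a_al_B (hℓ : ℓ.Prime) (hℓN : ¬ ℓ ∣ N) (hℓ' : ℓ'.Prime) (hne : ℓ ≠ ℓ')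
    (f : ffi_F (N * ℓ)) :
    s37w_al (N * ℓ') ℓ hℓ (m15a_not_dvd_mul N ℓ ℓ' hℓ hℓN hℓ' hne)
        (m15a_B (N * ℓ) ℓ' (N * ℓ' * ℓ) (m15a_dvd_swap N ℓ ℓ') f) =
      m15a_B (N * ℓ) ℓ' (N * ℓ' * ℓ) (m15a_dvd_swap N ℓ ℓ') (s37w_al N ℓ hℓ hℓN f) := by
  set hℓN' := m15a_not_dvd_mul N ℓ ℓ' hℓ hℓN hℓ' hne
  set π' := m15a_B (N * ℓ) ℓ' (N * ℓ' * ℓ) (m15a_dvd_swap N ℓ ℓ') with hπ'
  have key : ((s37w_al (N * ℓ') ℓ hℓ hℓN' :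
        ffi_F (N * ℓ' * ℓ) →ₐ[Kb] ffi_F (N * ℓ' * ℓ)).comp π') =
      π'.comp (s37w_al N ℓ hℓ hℓN : ffi_F (N * ℓ) →ₐ[Kb] ffi_F (N * ℓ)) := by
    refine s37w_algHom_ext (N * ℓ) _ _ fun d x hx => ?_
    apply Subtype.ext
    rw [AlgHom.comp_apply, AlgHom.comp_apply]
    -- the generator upstairs
    have hD' : d.1 * ℓ' ∣ N * ℓ' * ℓ := by
      have h0 : d.1 * ℓ' ∣ N * ℓ * ℓ' := Nat.mul_dvd_mul_right d.2 ℓ'
      exact h0.trans (m15a_dvd_swap N ℓ ℓ')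
    let D' : s28w_Idx (N * ℓ' * ℓ) := ⟨d.1 * ℓ', hD'⟩
    have h1 : ((π' x : ffi_F (N * ℓ' * ℓ)) : LaurentSeries Kb) = s37w_gen (N * ℓ' * ℓ) D' := by
      rw [hπ', m15a_coe_B, hx, s37w_gen_qExpand]
      rfl
    show ((s37w_al (N * ℓ') ℓ hℓ hℓN' (π' x) : ffi_F (N * ℓ' * ℓ)) : LaurentSeries Kb) =
      ((π' (s37w_al N ℓ hℓ hℓN x) : ffi_F (N * ℓ' * ℓ)) : LaurentSeries Kb)
    rw [s37w_al_gen (N * ℓ') ℓ hℓ hℓN' D' _ h1]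
    conv_rhs => rw [hπ', m15a_coe_B, s37w_al_gen N ℓ hℓ hℓN d x hx, s37w_gen_qExpand]
    rw [s37w_gen]
    refine congrArg _ (qExpand_congr ?_ jq)
    by_cases hd : ℓ ∣ d.1
    · have hd' : ℓ ∣ D'.1 := Dvd.dvd.mul_right hd ℓ'
      rw [s37w_alCo_of_dvd (N * ℓ') ℓ hℓ D' hd', s37w_alCo_of_dvd N ℓ hℓ d hd]
      show d.1 * ℓ' / ℓ = d.1 / ℓ * ℓ'
      obtain ⟨c, hc⟩ := hd
      rw [hc, mul_assoc, Nat.mul_div_cancel_left _ hℓ.pos, Nat.mul_div_cancel_left _ hℓ.pos]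
    · have hd' : ¬ ℓ ∣ D'.1 := by
        intro h
        rcases (Nat.Prime.dvd_mul hℓ).mp h with h2 | h2
        · exact hd h2
        · exact hne ((Nat.prime_dvd_prime_iff_eq hℓ hℓ').mp h2)
      rw [s37w_alCo_of_not_dvd (N * ℓ') ℓ hℓ D' hd', s37w_alCo_of_not_dvd N ℓ hℓ d hd]
      show d.1 * ℓ' * ℓ = d.1 * ℓ * ℓ'
      ring
  exact AlgHom.congr_fun key f

end AL

section Series

variable {R : Type*} [CommRing R]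

/-- `(q ↦ q^m)` after the twist by `c^m` is the twist by `c` after `(q ↦ q^m)`. -/
theorem m15a_qExpand_tw (m : ℕ) [NeZero m] (c : Rˣ) (g : LaurentSeries R) :
    qExpand R m (s28m_tw (c ^ m) g) = s28m_tw c (qExpand R m g) := by
  ext n
  rw [s28m_tw_coeff]
  by_cases hn : (m : ℤ) ∣ n
  · obtain ⟨k, rfl⟩ := hn
    rw [qExpand_coeff_mul, qExpand_coeff_mul, s28m_tw_coeff, zpow_mul, zpow_natCast]
  · rw [qExpand_coeff_of_not_dvd m _ hn, qExpand_coeff_of_not_dvd m _ hn, mul_zero]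

theorem m15a_qExpand_prodTw (ℓ m : ℕ) [NeZero m] (ζ : Rˣ) (g : LaurentSeries R) :
    qExpand R m (s37e_prodTw ℓ (ζ ^ m) g) = s37e_prodTw ℓ ζ (qExpand R m g) := by
  unfold s37e_prodTw
  rw [map_prod]
  refine Finset.prod_congr rfl fun b _ => ?_
  rw [← pow_mul, mul_comm m b, pow_mul, m15a_qExpand_tw]

theorem m15a_qExpand_comm (m n : ℕ) [NeZero m] [NeZero n] (g : LaurentSeries R) :
    qExpand R m (qExpand R n g) = qExpand R n (qExpand R m g) := by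
  haveI : NeZero (m * n) := ⟨mul_ne_zero (NeZero.ne m) (NeZero.ne n)⟩
  haveI : NeZero (n * m) := ⟨mul_ne_zero (NeZero.ne n) (NeZero.ne m)⟩
  rw [qExpand_qExpand, qExpand_qExpand]
  exact qExpand_congr (mul_comm m n) g

end Series

section Norm

variable (N ℓ ℓ' : ℕ) [NeZero N] [NeZero ℓ] [NeZero ℓ'] [NeZero (N * ℓ)] [NeZero (N * ℓ')]
  [NeZero (N * ℓ' * ℓ)]

/-- the square commutes. -/
theorem m15a_sq :
    (heckeAlphaBar Kb (N * ℓ') ℓ).comp (heckeBetaBar Kb N ℓ') =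
      (m15a_B (N * ℓ) ℓ' (N * ℓ' * ℓ) (m15a_dvd_swap N ℓ ℓ')).comp (heckeAlphaBar Kb N ℓ) := by
  apply AlgHom.ext
  intro x
  apply Subtype.ext
  rw [AlgHom.comp_apply, AlgHom.comp_apply, coe_heckeAlphaBar, coe_heckeBetaBar, m15a_coe_B,
    coe_heckeAlphaBar]

/-- **norm compatibility in the square.** -/
theorem m15a_norm (hℓ : ℓ.Prime) (hℓN : ¬ ℓ ∣ N) (hℓ' : ℓ'.Prime) (hne : ℓ ≠ ℓ')
    (f : ffi_F (N * ℓ)) :
    (letI := algebraAlong (heckeAlphaBar Kb (N * ℓ') ℓ);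
      Algebra.norm (ffi_F (N * ℓ')) (m15a_B (N * ℓ) ℓ' (N * ℓ' * ℓ) (m15a_dvd_swap N ℓ ℓ') f)) =
      heckeBetaBar Kb N ℓ' (letI := algebraAlong (heckeAlphaBar Kb N ℓ);
        Algebra.norm (ffi_F N) f) := by
  have hℓN' := m15a_not_dvd_mul N ℓ ℓ' hℓ hℓN hℓ' hne
  -- a primitive root and its `ℓ'`-th power
  obtain ⟨ζ₀, hζ₀⟩ : ∃ ζ₀ : Kb, IsPrimitiveRoot ζ₀ ℓ :=
    HasEnoughRootsOfUnity.exists_primitiveRoot Kb ℓ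
  have hζ₀u : IsUnit ζ₀ := hζ₀.isUnit (NeZero.ne ℓ)
  obtain ⟨ζ, rfl⟩ := hζ₀u
  have hcop : Nat.Coprime ℓ' ℓ := (Nat.coprime_primes hℓ' hℓ).mpr (Ne.symm hne)
  have hζ' : IsPrimitiveRoot ((ζ ^ ℓ' : Kbˣ) : Kb) ℓ := by
    rw [Units.val_pow_eq_pow_val]
    exact hζ₀.pow_of_coprime ℓ' hcop
  apply Subtype.ext
  apply qExpand_injective (R := Kb) ℓ
  have h1 := s37w_norm (N * ℓ') ℓ hℓ hℓN' ζ hζ₀
    (m15a_B (N * ℓ) ℓ' (N * ℓ' * ℓ) (m15a_dvd_swap N ℓ ℓ') f)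
  have h2 := s37w_norm N ℓ hℓ hℓN (ζ ^ ℓ') hζ' f
  rw [h1, m15a_al_B N ℓ ℓ' hℓ hℓN hℓ' hne f, m15a_coe_B, m15a_coe_B, coe_heckeBetaBar]
  conv_rhs => rw [m15a_qExpand_comm ℓ ℓ', h2, map_mul, m15a_qExpand_prodTw]
  rw [m15a_qExpand_comm ℓ ℓ']

end Norm

end Fermat.Agent.Lib.S15
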