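/-
(M) node (a) (helper4, prefix `m15a_`), part 3: the composite of two Hecke correspondences at
distinct good primes, on divisors:

  `T_ℓ' T_ℓ = (incl : F̄(N) ⊂ F̄(Nℓ'ℓ))_* ∘ (q ↦ q^(ℓ'ℓ))^*`,

hence `T_ℓ' T_ℓ = T_ℓ T_ℓ'` on divisors.
-/
import Fermat.Agent.Lib.S15.AComm2

set_option autoImplicit false
set_option linter.unusedSectionVars false
set_option linter.unusedVariables false
set_option linter.style.haveILetI false

noncomputable section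

namespace Fermat.Agent.Lib.S15

open ModularCurve AlgebraicCurve Fermat.Agent.Lib.FF Fermat.Agent.Lib.S18 Fermat.Agent.Lib.S37
  Fermat.Agent.Lib.S28

local notation "Kb" => AlgebraicClosure ℚ

section Composite

variable (N ℓ ℓ' : ℕ) [NeZero N] [NeZero ℓ] [NeZero ℓ'] [NeZero (N * ℓ)] [NeZero (N * ℓ')]
  [NeZero (N * ℓ' * ℓ)] [NeZero (ℓ' * ℓ)]

theorem m15a_dvd_top : N ∣ N * ℓ' * ℓ := ⟨ℓ' * ℓ, by ring⟩

theorem m15a_dvd_B : N * (ℓ' * ℓ) ∣ N * ℓ' * ℓ := ⟨1, by ring⟩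

/-- **the composite `T_ℓ' ∘ T_ℓ` on divisors.** -/
theorem m15a_composite (hℓ : ℓ.Prime) (hℓN : ¬ ℓ ∣ N) (hℓ' : ℓ'.Prime) (hℓ'N : ¬ ℓ' ∣ N)
    (hne : ℓ ≠ ℓ')
    (hα₁ : (heckeAlphaBar Kb N ℓ).toRingHom.IsIntegral)
    (hβ₁ : (heckeBetaBar Kb N ℓ).toRingHom.IsIntegral)
    (hα₂ : (heckeAlphaBar Kb N ℓ').toRingHom.IsIntegral)
    (hβ₂ : (heckeBetaBar Kb N ℓ').toRingHom.IsIntegral)
    (hI : (s37l_incl N (N * ℓ' * ℓ) (m15a_dvd_top N ℓ ℓ')).toRingHom.IsIntegral)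
    (hB : (m15a_B N (ℓ' * ℓ) (N * ℓ' * ℓ) (m15a_dvd_B N ℓ ℓ')).toRingHom.IsIntegral)
    (D : Divisor Kb (ffi_F N)) :
    Divisor.correspondence (heckeBetaBar Kb N ℓ') (heckeAlphaBar Kb N ℓ') hβ₂ hα₂
        (Divisor.correspondence (heckeBetaBar Kb N ℓ) (heckeAlphaBar Kb N ℓ) hβ₁ hα₁ D) =
      Divisor.pushforwardAlong (s37l_incl N (N * ℓ' * ℓ) (m15a_dvd_top N ℓ ℓ')) hI
        (Divisor.pullbackAlong (m15a_B N (ℓ' * ℓ) (N * ℓ' * ℓ) (m15a_dvd_B N ℓ ℓ')) hB D) := by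
  have hℓN' : ¬ ℓ ∣ N * ℓ' := m15a_not_dvd_mul N ℓ ℓ' hℓ hℓN hℓ' hne
  -- the maps of the square
  set α := heckeAlphaBar Kb N ℓ with hαdef
  set β := heckeBetaBar Kb N ℓ with hβdef
  set π := heckeBetaBar Kb N ℓ' with hπdef
  set α₂ := heckeAlphaBar Kb N ℓ' with hα₂def
  set α' := heckeAlphaBar Kb (N * ℓ') ℓ with hα'def
  set π' := m15a_B (N * ℓ) ℓ' (N * ℓ' * ℓ) (m15a_dvd_swap N ℓ ℓ') with hπ'def
  have hsq : α'.comp π = π'.comp α := m15a_sq N ℓ ℓ'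
  have hfinα : FiniteAlong Kb α := s37w_finite_alpha N ℓ hℓ hℓN
  have hfinα' : FiniteAlong Kb α' := s37w_finite_alpha (N * ℓ') ℓ hℓ hℓN'
  have hα' : α'.toRingHom.IsIntegral := s37l_isIntegral_of_finite α' hfinα'
  have hπ' : π'.toRingHom.IsIntegral := by
    have h1 : (α'.comp π).toRingHom.IsIntegral := s37l_isIntegral_comp π α' hβ₂ hα'
    rw [hsq] at h1
    exact RingHom.IsIntegral.tower_top α.toRingHom π'.toRingHom h1
  have hNα : NormFormulaAlong Kb α hfinα := s37l_normFormulaAlong α hfinα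
  have hNα' : NormFormulaAlong Kb α' hfinα' := s37l_normFormulaAlong α' hfinα'
  have hnorm : ∀ f : ffi_F (N * ℓ),
      (letI := algebraAlong α'; Algebra.norm (ffi_F (N * ℓ')) (π' f)) =
        π (letI := algebraAlong α; Algebra.norm (ffi_F N) f) :=
    m15a_norm N ℓ ℓ' hℓ hℓN hℓ' hne
  have hwa := s37l_weakApproxAlong α hα₁ hfinα
  rw [Divisor.correspondence_apply, Divisor.correspondence_apply,
    s37l_baseChange α π α' π' hsq hα₁ hβ₂ hα' hπ' hfinα hNα hfinα' hNα' hnorm hwa]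
  -- compose the push-forwards and the pull-backs
  have hc1 : (α'.comp α₂).toRingHom.IsIntegral := s37l_isIntegral_comp α₂ α' hα₂ hα'
  have hc2 : (π'.comp β).toRingHom.IsIntegral := s37l_isIntegral_comp β π' hβ₁ hπ'
  rw [← m15a_pushforwardAlong_comp α₂ α' hα₂ hα' hc1, ← s37l_pullbackAlong_comp β π' hβ₁ hπ' hc2]
  have e1 : α'.comp α₂ = s37l_incl N (N * ℓ' * ℓ) (m15a_dvd_top N ℓ ℓ') := by
    apply AlgHom.ext
    intro x
    apply Subtype.ext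
    rw [AlgHom.comp_apply, coe_heckeAlphaBar, coe_heckeAlphaBar, s37l_coe_incl]
  have e2 : π'.comp β = m15a_B N (ℓ' * ℓ) (N * ℓ' * ℓ) (m15a_dvd_B N ℓ ℓ') := by
    apply AlgHom.ext
    intro x
    apply Subtype.ext
    rw [AlgHom.comp_apply, m15a_coe_B, m15a_coe_B, coe_heckeBetaBar, qExpand_qExpand]
  rw [m15a_pushforwardAlong_congr e1 hc1 hI, s37l_pullbackAlong_congr e2 hc2 hB]

/-- integrality of the total inclusion and of the total twisted inclusion. -/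
theorem m15a_isIntegral_top (hℓ : ℓ.Prime) (hℓN : ¬ ℓ ∣ N) (hℓ' : ℓ'.Prime) (hℓ'N : ¬ ℓ' ∣ N)
    (hne : ℓ ≠ ℓ') :
    (s37l_incl N (N * ℓ' * ℓ) (m15a_dvd_top N ℓ ℓ')).toRingHom.IsIntegral ∧
      (m15a_B N (ℓ' * ℓ) (N * ℓ' * ℓ) (m15a_dvd_B N ℓ ℓ')).toRingHom.IsIntegral := by
  have hℓN' : ¬ ℓ ∣ N * ℓ' := m15a_not_dvd_mul N ℓ ℓ' hℓ hℓN hℓ' hne
  have hα₁ := s37l_isIntegral_of_finite _ (s37w_finite_alpha N ℓ hℓ hℓN)
  have hβ₁ := s37l_isIntegral_of_finite _ (s37w_finite_beta N ℓ hℓ hℓN)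
  have hα₂ := s37l_isIntegral_of_finite _ (s37w_finite_alpha N ℓ' hℓ' hℓ'N)
  have hβ₂ := s37l_isIntegral_of_finite _ (s37w_finite_beta N ℓ' hℓ' hℓ'N)
  have hα' := s37l_isIntegral_of_finite _ (s37w_finite_alpha (N * ℓ') ℓ hℓ hℓN')
  have hsq := m15a_sq N ℓ ℓ'
  have hπ' : (m15a_B (N * ℓ) ℓ' (N * ℓ' * ℓ) (m15a_dvd_swap N ℓ ℓ')).toRingHom.IsIntegral := by
    have h1 := s37l_isIntegral_comp (heckeBetaBar Kb N ℓ') (heckeAlphaBar Kb (N * ℓ') ℓ) hβ₂ hα'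
    rw [hsq] at h1
    exact RingHom.IsIntegral.tower_top (heckeAlphaBar Kb N ℓ).toRingHom _ h1
  have e1 : (heckeAlphaBar Kb (N * ℓ') ℓ).comp (heckeAlphaBar Kb N ℓ') =
      s37l_incl N (N * ℓ' * ℓ) (m15a_dvd_top N ℓ ℓ') := by
    apply AlgHom.ext
    intro x
    apply Subtype.ext
    rw [AlgHom.comp_apply, coe_heckeAlphaBar, coe_heckeAlphaBar, s37l_coe_incl]
  have e2 : (m15a_B (N * ℓ) ℓ' (N * ℓ' * ℓ) (m15a_dvd_swap N ℓ ℓ')).comp (heckeBetaBar Kb N ℓ) =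
      m15a_B N (ℓ' * ℓ) (N * ℓ' * ℓ) (m15a_dvd_B N ℓ ℓ') := by
    apply AlgHom.ext
    intro x
    apply Subtype.ext
    rw [AlgHom.comp_apply, m15a_coe_B, m15a_coe_B, coe_heckeBetaBar, qExpand_qExpand]
  refine ⟨?_, ?_⟩
  · rw [← e1]
    exact s37l_isIntegral_comp _ _ hα₂ hα'
  · rw [← e2]
    exact s37l_isIntegral_comp _ _ hβ₁ hπ'

end Composite

end Fermat.Agent.Lib.S15
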