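/-
(M) node (a) (helper4, prefix `m15a_`), part 4: **the Hecke operators at good primes commute on
`J₀(N)(ℚ̄)`** (all of it, not only the torsion), for every level `N`:

  `m15a_comm_good : ¬ ℓ ∣ N → ¬ ℓ' ∣ N → T_ℓ T_ℓ' = T_ℓ' T_ℓ` in `End (JZero N)`.
-/
import Fermat.Agent.Lib.S15.AComm3

set_option autoImplicit false
set_option linter.unusedSectionVars false
set_option linter.unusedVariables false
set_option linter.style.haveILetI false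

noncomputable section

namespace Fermat.Agent.Lib.S15

open ModularCurve AlgebraicCurve Fermat.Agent.Lib.FF Fermat.Agent.Lib.S18 Fermat.Agent.Lib.S37
  Fermat.Agent.Lib.S28

local notation "Kb" => AlgebraicClosure ℚ

/-- the symmetric expression only depends on the level and the exponent. -/
theorem m15a_C_congr (N : ℕ) [NeZero N] {M M' m m' : ℕ} [NeZero M] [NeZero M'] [NeZero m]
    [NeZero m'] (hM : M = M') (hm : m = m') (h : N ∣ M) (h' : N ∣ M') (hB : N * m ∣ M)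
    (hB' : N * m' ∣ M')
    (hI : (s37l_incl N M h).toRingHom.IsIntegral) (hI' : (s37l_incl N M' h').toRingHom.IsIntegral)
    (hb : (m15a_B N m M hB).toRingHom.IsIntegral) (hb' : (m15a_B N m' M' hB').toRingHom.IsIntegral)
    (D : Divisor Kb (ffi_F N)) :
    Divisor.pushforwardAlong (s37l_incl N M h) hI (Divisor.pullbackAlong (m15a_B N m M hB) hb D) =
      Divisor.pushforwardAlong (s37l_incl N M' h') hI'
        (Divisor.pullbackAlong (m15a_B N m' M' hB') hb' D) := by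
  subst hM
  subst hm
  rfl

section Div

variable (N ℓ ℓ' : ℕ) [NeZero N] [NeZero ℓ] [NeZero ℓ'] [NeZero (N * ℓ)] [NeZero (N * ℓ')]

/-- **commutativity on divisors.** -/
theorem m15a_comm_div (hℓ : ℓ.Prime) (hℓN : ¬ ℓ ∣ N) (hℓ' : ℓ'.Prime) (hℓ'N : ¬ ℓ' ∣ N)
    (hne : ℓ ≠ ℓ')
    (hα₁ : (heckeAlphaBar Kb N ℓ).toRingHom.IsIntegral)
    (hβ₁ : (heckeBetaBar Kb N ℓ).toRingHom.IsIntegral)
    (hα₂ : (heckeAlphaBar Kb N ℓ').toRingHom.IsIntegral)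
    (hβ₂ : (heckeBetaBar Kb N ℓ').toRingHom.IsIntegral)
    (D : Divisor Kb (ffi_F N)) :
    Divisor.correspondence (heckeBetaBar Kb N ℓ') (heckeAlphaBar Kb N ℓ') hβ₂ hα₂
        (Divisor.correspondence (heckeBetaBar Kb N ℓ) (heckeAlphaBar Kb N ℓ) hβ₁ hα₁ D) =
      Divisor.correspondence (heckeBetaBar Kb N ℓ) (heckeAlphaBar Kb N ℓ) hβ₁ hα₁
        (Divisor.correspondence (heckeBetaBar Kb N ℓ') (heckeAlphaBar Kb N ℓ') hβ₂ hα₂ D) := by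
  haveI : NeZero (N * ℓ' * ℓ) := ⟨mul_ne_zero (NeZero.ne (N * ℓ')) (NeZero.ne ℓ)⟩
  haveI : NeZero (N * ℓ * ℓ') := ⟨mul_ne_zero (NeZero.ne (N * ℓ)) (NeZero.ne ℓ')⟩
  haveI : NeZero (ℓ' * ℓ) := ⟨mul_ne_zero (NeZero.ne ℓ') (NeZero.ne ℓ)⟩
  haveI : NeZero (ℓ * ℓ') := ⟨mul_ne_zero (NeZero.ne ℓ) (NeZero.ne ℓ')⟩
  obtain ⟨hI, hB⟩ := m15a_isIntegral_top N ℓ ℓ' hℓ hℓN hℓ' hℓ'N hne
  obtain ⟨hI', hB'⟩ := m15a_isIntegral_top N ℓ' ℓ hℓ' hℓ'N hℓ hℓN (Ne.symm hne)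
  rw [m15a_composite N ℓ ℓ' hℓ hℓN hℓ' hℓ'N hne hα₁ hβ₁ hα₂ hβ₂ hI hB D,
    m15a_composite N ℓ' ℓ hℓ' hℓ'N hℓ hℓN (Ne.symm hne) hα₂ hβ₂ hα₁ hβ₁ hI' hB' D]
  exact m15a_C_congr N (by ring) (mul_comm ℓ' ℓ) _ _ _ _ hI hI' hB hB' D

end Div

section Pic

variable (N : ℕ) [NeZero N]

/-- **the Hecke operators at good primes commute on `J₀(N)(ℚ̄)`.** -/
theorem m15a_comm_good (ℓ ℓ' : Nat.Primes) (hℓN : ¬ (ℓ : ℕ) ∣ N) (hℓ'N : ¬ (ℓ' : ℕ) ∣ N) :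
    heckeOperatorBar N ℓ * heckeOperatorBar N ℓ' = heckeOperatorBar N ℓ' * heckeOperatorBar N ℓ := by
  by_cases hne : ℓ = ℓ'
  · rw [hne]
  have hne' : (ℓ : ℕ) ≠ (ℓ' : ℕ) := fun h => hne (Subtype.ext h)
  haveI : NeZero (ℓ : ℕ) := ⟨ℓ.2.ne_zero⟩
  haveI : NeZero (ℓ' : ℕ) := ⟨ℓ'.2.ne_zero⟩
  haveI : NeZero (N * (ℓ : ℕ)) := ⟨mul_ne_zero (NeZero.ne N) (NeZero.ne _)⟩
  haveI : NeZero (N * (ℓ' : ℕ)) := ⟨mul_ne_zero (NeZero.ne N) (NeZero.ne _)⟩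
  have hfinα₁ := s37w_finite_alpha N ℓ ℓ.2 hℓN
  have hfinβ₁ := s37w_finite_beta N ℓ ℓ.2 hℓN
  have hfinα₂ := s37w_finite_alpha N ℓ' ℓ'.2 hℓ'N
  have hfinβ₂ := s37w_finite_beta N ℓ' ℓ'.2 hℓ'N
  have hα₁ : HeckeAlphaBarIntegral Kb N ℓ := s37l_isIntegral_of_finite _ hfinα₁
  have hβ₁ : HeckeBetaBarIntegral Kb N ℓ := s37l_isIntegral_of_finite _ hfinβ₁
  have hα₂ : HeckeAlphaBarIntegral Kb N ℓ' := s37l_isIntegral_of_finite _ hfinα₂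
  have hβ₂ : HeckeBetaBarIntegral Kb N ℓ' := s37l_isIntegral_of_finite _ hfinβ₂
  have hFI₁ := s37l_fundamentalIdentityAlong _ hβ₁ hfinβ₁
  have hFI₂ := s37l_fundamentalIdentityAlong _ hβ₂ hfinβ₂
  have hN₁ := s37l_normFormulaAlong _ hfinα₁
  have hN₂ := s37l_normFormulaAlong _ hfinα₂
  apply LinearMap.ext
  intro x
  rw [Module.End.mul_apply, Module.End.mul_apply, heckeOperatorBar_apply, heckeOperatorBar_apply,
    heckeOperatorBar_apply, heckeOperatorBar_apply,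
    heckeOperatorAlong_eq hα₁ hβ₁ hFI₁ hfinα₁ hN₁, heckeOperatorAlong_eq hα₂ hβ₂ hFI₂ hfinα₂ hN₂]
  obtain ⟨D, rfl⟩ := Pic0.mk_surjective x
  unfold heckePic0Bar
  rw [Pic0.correspondence_mk, Pic0.correspondence_mk, Pic0.correspondence_mk,
    Pic0.correspondence_mk]
  refine congrArg Pic0.mk (Subtype.ext ?_)
  rw [Pic0.coe_degZeroCorrespondence, Pic0.coe_degZeroCorrespondence,
    Pic0.coe_degZeroCorrespondence, Pic0.coe_degZeroCorrespondence]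
  exact (m15a_comm_div N ℓ ℓ' ℓ.2 hℓN ℓ'.2 hℓ'N hne' hα₁ hβ₁ hα₂ hβ₂
    (D : Divisor Kb (ffi_F N))).symm

end Pic

end Fermat.Agent.Lib.S15
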