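/-
(M) glue (helper7, prefix `m15x_`): the curve-free DESCENT LEMMA.

`M` a module over a commutative ring `R`, finitely generated as an abelian group; `I` an ideal,
`p'` a prime, `𝔓 = I + (p')`.  Suppose that for every `r` there are `e ∈ 1 + I` and a subgroup
`K ≤ M` of index `≤ B` with `N₀ e K ⊆ p'^r M`  (`B`, `N₀` independent of `r`).  Then some
`t ∈ 1 + 𝔓` kills `M` modulo torsion.
Mathlib only.
-/
import Mathlib

set_option autoImplicit false
set_option linter.unusedSectionVars false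
set_option linter.unusedVariables false
set_option linter.style.haveILetI false

namespace Fermat.Agent.Lib.S15

section Descent

variable {R : Type*} [CommRing R] {M : Type*} [AddCommGroup M] [Module R M]

/-- the torsion of `M` as an `R`-submodule. -/
def m15x_tor (R : Type*) [CommRing R] (M : Type*) [AddCommGroup M] [Module R M] :
    Submodule R M where
  carrier := {z | ∃ m : ℕ, m ≠ 0 ∧ m • z = 0}
  zero_mem' := ⟨1, one_ne_zero, smul_zero _⟩
  add_mem' := by
    rintro a b ⟨m, hm, ha⟩ ⟨n, hn, hb⟩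
    refine ⟨m * n, mul_ne_zero hm hn, ?_⟩
    have h1 : (m * n) • a = 0 := by rw [mul_comm, mul_smul, ha, smul_zero]
    have h2 : (m * n) • b = 0 := by rw [mul_smul, hb, smul_zero]
    rw [smul_add, h1, h2, add_zero]
  smul_mem' := by
    rintro c a ⟨m, hm, ha⟩
    exact ⟨m, hm, by rw [smul_comm, ha, smul_zero]⟩

theorem m15x_mem_tor {z : M} : z ∈ m15x_tor R M ↔ ∃ m : ℕ, m ≠ 0 ∧ m • z = 0 := Iff.rfl

/-- division by a nonzero integer modulo torsion. -/
theorem m15x_tor_of_smul {z : M} {n : ℕ} (hn : n ≠ 0) (h : n • z ∈ m15x_tor R M) :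
    z ∈ m15x_tor R M := by
  obtain ⟨m, hm, hz⟩ := h
  exact ⟨m * n, mul_ne_zero hm hn, by rw [mul_smul]; exact hz⟩

/-- Bezout in a module. -/
theorem m15x_bezout (n q : ℕ) (x z' : M) (h : n • x = q • z') :
    ∃ y : M, (Nat.gcd n q) • x = q • y := by
  refine ⟨Nat.gcdA n q • z' + Nat.gcdB n q • x, ?_⟩
  have hb := Nat.gcd_eq_gcd_ab n q
  have h' : (n : ℤ) • x = (q : ℤ) • z' := by rw [natCast_zsmul, natCast_zsmul, h]
  have key : ((Nat.gcd n q : ℕ) : ℤ) • x =
      (q : ℤ) • (Nat.gcdA n q • z' + Nat.gcdB n q • x) := by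
    calc ((Nat.gcd n q : ℕ) : ℤ) • x
        = ((n : ℤ) * Nat.gcdA n q + (q : ℤ) * Nat.gcdB n q) • x := by rw [hb]
      _ = Nat.gcdA n q • ((n : ℤ) • x) + (q : ℤ) • (Nat.gcdB n q • x) := by
          rw [add_smul, mul_comm, mul_smul, mul_smul]
      _ = Nat.gcdA n q • ((q : ℤ) • z') + (q : ℤ) • (Nat.gcdB n q • x) := by rw [h']
      _ = (q : ℤ) • (Nat.gcdA n q • z' + Nat.gcdB n q • x) := by
          rw [smul_add, smul_comm]
  rw [natCast_zsmul, natCast_zsmul] at key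
  exact key

/-- Step 1 + Step 2 + Step 3: the index of `K` is large unless `M = 𝔓 M + tors`. -/
theorem m15x_index_large (I : Ideal R) (p' : ℕ) (hp' : p'.Prime) (B N₀ : ℕ) (hN₀ : N₀ ≠ 0)
    (x₀ : M) (hx₀ : x₀ ∉ (I ⊔ Ideal.span {(p' : R)}) • (⊤ : Submodule R M) ⊔ m15x_tor R M)
    (r : ℕ) (hr : N₀ * B < p' ^ r) (e : R) (he : 1 - e ∈ I) (K : AddSubgroup M)
    (hK : ∀ z ∈ K, ∃ z' : M, N₀ • e • z = p' ^ r • z') (hfin : K.index ≠ 0) : B < K.index := by
  classical
  set 𝔓 : Ideal R := I ⊔ Ideal.span {(p' : R)} with h𝔓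
  have hp'pos : 0 < p' := hp'.pos
  rcases Nat.eq_zero_or_pos B with hB0 | hBpos
  · rw [hB0]; exact Nat.pos_of_ne_zero hfin
  have hr1 : 1 ≤ r := by
    rcases Nat.eq_zero_or_pos r with h | h
    · subst h
      simp only [pow_zero] at hr
      have : 0 < N₀ := Nat.pos_of_ne_zero hN₀
      nlinarith
    · exact h
  have hp'mem : (p' : R) ∈ 𝔓 := Ideal.mem_sup_right (Ideal.subset_span rfl)
  -- Step 1
  have step1 : ∃ a : M, ∀ b : M, p' ^ (r - 1) • e • a - p' ^ r • b ∉ m15x_tor R M := by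
    by_contra hcon
    push Not at hcon
    apply hx₀
    obtain ⟨b, hb⟩ := hcon x₀
    have h1 : e • x₀ - p' • b ∈ m15x_tor R M := by
      apply m15x_tor_of_smul (n := p' ^ (r - 1)) (pow_ne_zero _ hp'.ne_zero)
      have : p' ^ (r - 1) • (e • x₀ - p' • b) = p' ^ (r - 1) • e • x₀ - p' ^ r • b := by
        rw [smul_sub, ← mul_smul, ← pow_succ, Nat.sub_add_cancel hr1]
      rw [this]
      exact hb
    have h2 : x₀ = ((1 - e) • x₀ + (p' : R) • b) + (e • x₀ - p' • b) := by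
      rw [sub_smul, one_smul, Nat.cast_smul_eq_nsmul]
      abel
    rw [h2]
    refine Submodule.add_mem_sup (Submodule.add_mem _ ?_ ?_) h1
    · exact Submodule.smul_mem_smul (Ideal.mem_sup_left he) Submodule.mem_top
    · exact Submodule.smul_mem_smul hp'mem Submodule.mem_top
  obtain ⟨a, ha⟩ := step1
  -- Step 2
  have step2 : ∀ k : ℕ, k • a ∈ K → p' ^ r ∣ N₀ * k := by
    intro k hk
    obtain ⟨z', hz'⟩ := hK _ hk
    by_contra hnd
    -- gcd (N₀ k, p'^r) = p'^s with s ≤ r - 1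
    have hg : Nat.gcd (N₀ * k) (p' ^ r) ∣ p' ^ r := Nat.gcd_dvd_right _ _
    obtain ⟨s, hsr, hs⟩ := (Nat.dvd_prime_pow hp').mp hg
    have hs1 : s ≤ r - 1 := by
      by_contra hlt
      have : s = r := by omega
      rw [this] at hs
      exact hnd (hs ▸ Nat.gcd_dvd_left _ _)
    -- Bezout
    have hz'' : (N₀ * k) • (e • a) = p' ^ r • z' := by
      rw [mul_smul, ← hz', smul_comm k e a]
    obtain ⟨y, hy⟩ := m15x_bezout (N₀ * k) (p' ^ r) (e • a) z' hz''
    rw [hs] at hy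
    apply ha ((p' ^ (r - 1 - s)) • y)
    have h4 : p' ^ (r - 1) • e • a = p' ^ (r - 1 - s) • (p' ^ s • e • a) := by
      rw [← mul_smul, ← pow_add, Nat.sub_add_cancel hs1]
    rw [h4, hy, smul_comm (p' ^ (r - 1 - s)) (p' ^ r), sub_self]
    exact Submodule.zero_mem _
  -- Step 3
  haveI : Finite (M ⧸ K) := AddSubgroup.index_ne_zero_iff_finite.mp hfin
  have hinj : Function.Injective (fun i : Fin (B + 1) => (QuotientAddGroup.mk ((i : ℕ) • a) : M ⧸ K)) := by
    intro i j hij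
    simp only at hij
    by_contra hne
    wlog hlt : (j : ℕ) < (i : ℕ) generalizing i j
    · exact this hij.symm (Ne.symm hne) (lt_of_le_of_ne (not_lt.mp hlt) (fun h => hne (Fin.ext h)))
    have hmem : ((i : ℕ) - (j : ℕ)) • a ∈ K := by
      have h1 := (QuotientAddGroup.eq (s := K)).mp hij.symm
      have h2 : ((i : ℕ) - (j : ℕ)) • a = -((j : ℕ) • a) + (i : ℕ) • a := by
        rw [sub_nsmul a hlt.le, add_comm]
      rw [h2]; exact h1
    have hd := step2 _ hmem
    have hpos : 0 < (i : ℕ) - (j : ℕ) := Nat.sub_pos_of_lt hlt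
    have hle : (i : ℕ) - (j : ℕ) ≤ B := by have := i.2; omega
    have h5 : p' ^ r ≤ N₀ * ((i : ℕ) - (j : ℕ)) :=
      Nat.le_of_dvd (Nat.mul_pos (Nat.pos_of_ne_zero hN₀) hpos) hd
    have h6 : N₀ * ((i : ℕ) - (j : ℕ)) ≤ N₀ * B := Nat.mul_le_mul_left _ hle
    omega
  have hcard := Nat.card_le_card_of_injective _ hinj
  rw [Nat.card_fin] at hcard
  have : Nat.card (M ⧸ K) = K.index := rfl
  omega

/-- **the descent lemma.** -/
theorem m15x_descent [Module.Finite ℤ M] (I : Ideal R) (p' : ℕ) (hp' : p'.Prime) (B N₀ : ℕ)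
    (hN₀ : N₀ ≠ 0)
    (h : ∀ r : ℕ, ∃ e : R, 1 - e ∈ I ∧ ∃ K : AddSubgroup M, K.index ≠ 0 ∧ K.index ≤ B ∧
      ∀ z ∈ K, ∃ z' : M, N₀ • e • z = p' ^ r • z') :
    ∃ t : R, t - 1 ∈ I ⊔ Ideal.span {(p' : R)} ∧ ∀ z : M, ∃ m : ℕ, m ≠ 0 ∧ m • t • z = 0 := by
  set 𝔓 : Ideal R := I ⊔ Ideal.span {(p' : R)} with h𝔓
  -- `M = 𝔓 M + tors`
  have hall : ∀ x₀ : M, x₀ ∈ 𝔓 • (⊤ : Submodule R M) ⊔ m15x_tor R M := by
    intro x₀
    by_contra hx₀
    obtain ⟨r, hr⟩ : ∃ r : ℕ, N₀ * B < p' ^ r :=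
      ⟨N₀ * B, Nat.lt_pow_self hp'.one_lt⟩
    obtain ⟨e, he, K, hfin, hle, hK⟩ := h r
    have := m15x_index_large I p' hp' B N₀ hN₀ x₀ hx₀ r hr e he K hK hfin
    omega
  -- pass to the quotient by the torsion
  haveI : Module.Finite R M := Module.Finite.of_restrictScalars_finite ℤ R M
  have hfg : (⊤ : Submodule R (M ⧸ m15x_tor R M)).FG := Module.finite_def.mp inferInstance
  have hle : (⊤ : Submodule R (M ⧸ m15x_tor R M)) ≤ 𝔓 • ⊤ := by
    intro q _
    obtain ⟨x, rfl⟩ := Submodule.Quotient.mk_surjective _ q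
    obtain ⟨y, hy, τ, hτ, rfl⟩ := Submodule.mem_sup.mp (hall x)
    have h1 : (Submodule.Quotient.mk (y + τ) : M ⧸ m15x_tor R M) = Submodule.Quotient.mk y := by
      rw [Submodule.Quotient.mk_add, (Submodule.Quotient.mk_eq_zero _).mpr hτ, add_zero]
    rw [h1]
    have h2 : (m15x_tor R M).mkQ y ∈ (𝔓 • (⊤ : Submodule R M)).map (m15x_tor R M).mkQ :=
      Submodule.mem_map_of_mem hy
    rw [Submodule.map_smul''] at h2
    exact Submodule.smul_mono le_rfl le_top h2
  obtain ⟨t, ht, hkill⟩ :=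
    Submodule.exists_sub_one_mem_and_smul_eq_zero_of_fg_of_le_smul 𝔓 ⊤ hfg hle
  refine ⟨t, ht, fun z => ?_⟩
  have h3 := hkill (Submodule.Quotient.mk z) Submodule.mem_top
  rw [← Submodule.Quotient.mk_smul, Submodule.Quotient.mk_eq_zero] at h3
  exact h3

end Descent

section Projector

variable {R : Type*} [CommRing R] {X : Type*} [AddCommGroup X] [Module R X]

/-- **the Eisenstein "projector"** on a finite module: some `e ∈ 1 + I` such that `e X` is killed
by a power of `I`. -/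
theorem m15x_projector [Finite X] (I : Ideal R) :
    ∃ e : R, 1 - e ∈ I ∧ ∃ k : ℕ, ∀ a ∈ I ^ k, ∀ x : X, a • e • x = 0 := by
  haveI : IsArtinian R X := inferInstance
  -- the chain `I^k X` stabilises
  let f : ℕ →o (Submodule R X)ᵒᵈ :=
    ⟨fun k => OrderDual.toDual (I ^ k • (⊤ : Submodule R X)), by
      intro a b hab
      show I ^ b • (⊤ : Submodule R X) ≤ I ^ a • ⊤
      exact Submodule.smul_mono (Ideal.pow_le_pow_right hab) le_rfl⟩
  obtain ⟨k, hk⟩ := IsArtinian.monotone_stabilizes f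
  have hstab : I ^ k • (⊤ : Submodule R X) = I ^ (k + 1) • ⊤ := by
    have := hk (k + 1) (Nat.le_succ k)
    exact congrArg OrderDual.ofDual this
  have hle : I ^ k • (⊤ : Submodule R X) ≤ I • (I ^ k • (⊤ : Submodule R X)) := by
    rw [← Submodule.mul_smul, ← pow_succ', ← hstab]
  have hfg : (I ^ k • (⊤ : Submodule R X)).FG := by
    haveI : IsNoetherian R X := inferInstance
    exact IsNoetherian.noetherian _
  obtain ⟨e, he, hkill⟩ :=
    Submodule.exists_sub_one_mem_and_smul_eq_zero_of_fg_of_le_smul I _ hfg hle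
  refine ⟨e, ?_, k, fun a ha x => ?_⟩
  · have : 1 - e = -(e - 1) := by ring
    rw [this]
    exact I.neg_mem he
  · rw [smul_comm]
    exact hkill _ (Submodule.smul_mem_smul ha Submodule.mem_top)

end Projector

end Fermat.Agent.Lib.S15
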