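/-
(M) glue (helper7, prefix `m15x_`), part F: **the abstract Eisenstein descent.**

`J` an abstract `G_ℚ`-module with a commuting action of `R ⊇ I`, with the hypotheses `m15x_Setup`,
`m15x_Setup2`, the bound for the pieces of the dévissage, Mordell–Weil, divisibility and (A-conj):
there is `t ∈ 1 + I + p' R` killing `J(ℚ)` modulo torsion (`m15x_main`); and `t c₀ ≠ 0` for every
`c₀` killed by `I` whose order is divisible by `p'` (`m15x_main_cusp`).
-/
import Fermat.Agent.Lib.S15.MAsmE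
import Fermat.Agent.Lib.S15.MDesc

set_option autoImplicit false
set_option linter.unusedSectionVars false
set_option linter.unusedVariables false
set_option linter.style.haveILetI false

noncomputable section

namespace Fermat.Agent.Lib.S15

open Fermat.Agent.Lib.S19

local notation "Kb" => AlgebraicClosure ℚ
local notation "GQ" => (AlgebraicClosure ℚ ≃ₐ[ℚ] AlgebraicClosure ℚ)

section Final

variable {p p' : ℕ} {S : Finset ℕ} {J : Type} [AddCommGroup J] [DistribMulAction GQ J]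
  {R : Type} [CommRing R] [Module R J] {I : Ideal R}

/-- the rational points as an `R`-submodule. -/
def m15x_fixR (hS : m15x_Setup p p' S J R I) : Submodule R J :=
  { m15x_fix GQ J with
    smul_mem' := fun t z hz g => by
      have hz' : g • z = z := hz g
      show g • t • z = t • z
      rw [← hS.gal, hz'] }

theorem m15x_mem_fixR (hS : m15x_Setup p p' S J R I) {z : J} :
    z ∈ m15x_fixR hS ↔ ∀ g : GQ, g • z = z := Iff.rfl

/-- the identification of the two versions of the rational points. -/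
def m15x_fixEquiv (hS : m15x_Setup p p' S J R I) : ↥(m15x_fixR hS) ≃+ ↥(m15x_fix GQ J) where
  toFun z := ⟨(z : J), z.2⟩
  invFun z := ⟨(z : J), z.2⟩
  left_inv z := rfl
  right_inv z := rfl
  map_add' a b := rfl

theorem m15x_fixEquiv_coe (hS : m15x_Setup p p' S J R I) (z : ↥(m15x_fixR hS)) :
    ((m15x_fixEquiv hS z : ↥(m15x_fix GQ J)) : J) = (z : J) := rfl

/-- `J[n]` as an `R`-submodule. -/
def m15x_torR (R : Type) [CommRing R] (J : Type) [AddCommGroup J] [Module R J] (n : ℕ) :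
    Submodule R J :=
  { m15x_torsion J n with
    smul_mem' := fun t x hx => by
      have hx' : n • x = 0 := hx
      show n • t • x = 0
      rw [smul_comm, hx', smul_zero] }

theorem m15x_mem_torR {n : ℕ} {x : J} : x ∈ m15x_torR R J n ↔ n • x = 0 := Iff.rfl

variable {P : ValuationSubring Kb} {φ c : GQ} {H₂ : Subgroup GQ}

/-- the Eisenstein projector on `J[p'^r]`. -/
theorem m15x_exists_projector (hS2 : m15x_Setup2 p p' J P φ c H₂) (I : Ideal R) (r : ℕ) :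
    ∃ e : R, 1 - e ∈ I ∧ ∃ k : ℕ, ∀ a ∈ I ^ k, ∀ x : J, p' ^ r • x = 0 → a • e • x = 0 := by
  haveI := hS2.finX r
  haveI : Finite ↥(m15x_torR R J (p' ^ r)) :=
    Finite.of_injective (fun x : ↥(m15x_torR R J (p' ^ r)) =>
      (m15x_Sub.mk (x : J) x.2 : m15x_X J (p' ^ r)))
      (fun a b hab => Subtype.ext (congrArg m15x_Sub.val hab))
  obtain ⟨e, he, k, hk⟩ := m15x_projector (R := R) (X := ↥(m15x_torR R J (p' ^ r))) I
  refine ⟨e, he, k, fun a ha x hx => ?_⟩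
  exact congrArg Subtype.val (hk a ha ⟨x, hx⟩)


/-- the torsion of `J(ℚ)` is finite. -/
theorem m15x_finite_torsion (hFG : AddGroup.FG ↥(m15x_fix GQ J)) :
    Finite ↥(Submodule.torsion ℤ ↥(m15x_fix GQ J)) := by
  haveI : Module.Finite ℤ ↥(m15x_fix GQ J) := Module.Finite.iff_addGroup_fg.mpr hFG
  haveI : IsNoetherian ℤ ↥(m15x_fix GQ J) := isNoetherian_of_isNoetherianRing_of_finite ℤ _
  haveI : Module.Finite ℤ ↥(Submodule.torsion ℤ ↥(m15x_fix GQ J)) := Module.IsNoetherian.finite ℤ _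
  exact Module.finite_of_fg_torsion _ (Submodule.torsion_isTorsion)

/-- the rational points of `V_r` inject into the torsion of `J(ℚ)`. -/
theorem m15x_card_inv_le (hS : m15x_Setup p p' S J R I) (hFG : AddGroup.FG ↥(m15x_fix GQ J))
    (e : R) (r : ℕ) :
    Nat.card (s15e_inv (⊤ : Subgroup GQ) (m15x_Vr hS e r)) ≤
      Nat.card ↥(Submodule.torsion ℤ ↥(m15x_fix GQ J)) := by
  haveI := m15x_finite_torsion hFG
  have hp'pos : 0 < p' := hS.hp'.pos
  have hfix : ∀ v : s15e_inv (⊤ : Subgroup GQ) (m15x_Vr hS e r),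
      m15x_Sub.val (v : m15x_Vr hS e r) ∈ m15x_fix GQ J := by
    intro v g
    have := (s15e_mem_inv (⊤ : Subgroup GQ) (m15x_Vr hS e r)).mp v.2 ⟨g, Subgroup.mem_top g⟩
    rw [← m15x_Sub.val_smul]
    exact congrArg m15x_Sub.val this
  let f : s15e_inv (⊤ : Subgroup GQ) (m15x_Vr hS e r) →
      ↥(Submodule.torsion ℤ ↥(m15x_fix GQ J)) := fun v =>
    ⟨⟨m15x_Sub.val (v : m15x_Vr hS e r), hfix v⟩, by
      rw [Submodule.mem_torsion_iff]
      refine ⟨⟨((p' ^ r : ℕ) : ℤ), mem_nonZeroDivisors_of_ne_zero (by positivity)⟩, ?_⟩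
      apply Subtype.ext
      show ((p' ^ r : ℕ) : ℤ) • m15x_Sub.val (v : m15x_Vr hS e r) = 0
      rw [natCast_zsmul]
      exact m15x_Vr_torsion hS e r _⟩
  apply Nat.card_le_card_of_injective f
  intro a b hab
  apply Subtype.ext
  apply m15x_Sub.val_injective
  exact congrArg (fun z : ↥(Submodule.torsion ℤ ↥(m15x_fix GQ J)) => ((z : ↥(m15x_fix GQ J)) : J)) hab


/-- the subgroup `K = {z ∈ J(ℚ) | N₀ e z ∈ n J(ℚ)}`. -/
def m15x_K (e : R) (N₀ n : ℕ) : AddSubgroup ↥(m15x_fix GQ J) where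
  carrier := {z | ∃ z' ∈ m15x_fix GQ J, N₀ • m15x_act e (z : J) = n • z'}
  zero_mem' := ⟨0, zero_mem _, by
    show N₀ • m15x_act e ((0 : ↥(m15x_fix GQ J)) : J) = n • (0 : J)
    rw [AddSubgroup.coe_zero, map_zero, smul_zero, smul_zero]⟩
  add_mem' := by
    rintro a b ⟨a', ha', ha⟩ ⟨b', hb', hb⟩
    refine ⟨a' + b', add_mem ha' hb', ?_⟩
    show N₀ • m15x_act e ((a + b : ↥(m15x_fix GQ J)) : J) = n • (a' + b')
    rw [AddSubgroup.coe_add, map_add, smul_add, ha, hb, smul_add]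
  neg_mem' := by
    rintro a ⟨a', ha', ha⟩
    refine ⟨-a', neg_mem ha', ?_⟩
    show N₀ • m15x_act e ((-a : ↥(m15x_fix GQ J)) : J) = n • (-a')
    rw [AddSubgroup.coe_neg, map_neg, smul_neg, ha, smul_neg]

/-- **the abstract Eisenstein descent.** -/
theorem m15x_main [Fact p'.Prime] (hS : m15x_Setup p p' S J R I)
    (hS2 : m15x_Setup2 p p' J P φ c H₂)
    (hpiece : ∀ V', s15e_PieceC S p p' V' →
      s15e_PieceBound (P.inertiaSubgroupIn ℚ) H₂
        (s15e_LA (s15e_AdmC S p p') s15e_admC_prod s15e_admC_quot) V')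
    (hFG : AddGroup.FG ↥(m15x_fix GQ J))
    (hdiv : ∀ (r : ℕ) (z : J), z ∈ m15x_fix GQ J → ∃ y : J, p' ^ r • y = z)
    (B : ℕ) (hB : ∀ (r : ℕ) (e : R),
      Nat.card (m15x_Vr hS e r) ≤ B * Nat.card (s15e_inv H₂ (m15x_Vr hS e r)) ^ 2) :
    ∃ t : R, t - 1 ∈ I ⊔ Ideal.span {(p' : R)} ∧
      ∀ z : J, z ∈ m15x_fix GQ J → ∃ m : ℕ, m ≠ 0 ∧ m • t • z = 0 := by
  classical
  haveI := m15x_finite_torsion hFG
  set B₂ := Nat.card ↥(Submodule.torsion ℤ ↥(m15x_fix GQ J)) with hB₂def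
  set M₂ := (B * B₂ ^ 2).factorial with hM₂def
  set N₀ := 2 * (M₂ * m15x_cP p) with hN₀def
  have hN₀ : N₀ ≠ 0 :=
    Nat.mul_ne_zero two_ne_zero
      (Nat.mul_ne_zero (Nat.factorial_ne_zero _) (m15x_cP_ne_zero p hS2.hp.two_le))
  haveI : Module.Finite ℤ ↥(m15x_fixR hS) := by
    rw [Module.Finite.iff_addGroup_fg]
    exact AddGroup.fg_of_surjective (f := (m15x_fixEquiv hS).symm.toAddMonoidHom)
      (hG := hFG) (m15x_fixEquiv hS).symm.surjective
  have key : ∀ r : ℕ, ∃ e : R, 1 - e ∈ I ∧ ∃ K : AddSubgroup ↥(m15x_fixR hS),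
      K.index ≠ 0 ∧ K.index ≤ B * B₂ ∧
      ∀ z ∈ K, ∃ z' : ↥(m15x_fixR hS), N₀ • e • z = p' ^ r • z' := by
    intro r
    obtain ⟨e, he, k, hk⟩ := m15x_exists_projector hS2 I r
    have hcard := m15x_card_inv_le hS hFG e r
    obtain ⟨hM₂, hfin, hsel⟩ := m15x_count hS hS2 hpiece e r k hk B B₂ (hB r e) hcard
    haveI := hfin
    have hmem := fun y => m15x_kum_mem_sel hS hS2 e r k hk M₂ hM₂ y
    have hidx := m15x_kum_index (m15x_act e) (m15x_act_gal hS e) (p' ^ r) (hdiv r) N₀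
      (s15e_Sel (P.inertiaSubgroupIn ℚ) H₂ (m15x_Vr hS e r)
        (s15e_LA (s15e_AdmC S p p') s15e_admC_prod s15e_admC_quot (m15x_Vb hS e r)) ⊥ ⊥)
      hmem (m15x_K e N₀ (p' ^ r)) (fun z hz => hz)
    refine ⟨e, he, (m15x_K e N₀ (p' ^ r)).comap (m15x_fixEquiv hS).toAddMonoidHom, ?_, ?_, ?_⟩
    · rw [AddSubgroup.index_comap_of_surjective _ (m15x_fixEquiv hS).surjective]
      exact hidx.1
    · rw [AddSubgroup.index_comap_of_surjective _ (m15x_fixEquiv hS).surjective]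
      exact hidx.2.trans hsel
    · intro z hz
      obtain ⟨z', hz', h⟩ := hz
      refine ⟨⟨z', hz'⟩, Subtype.ext ?_⟩
      exact h
  obtain ⟨t, ht, hkill⟩ := m15x_descent (M := ↥(m15x_fixR hS)) I p' hS.hp' (B * B₂) N₀ hN₀ key
  refine ⟨t, ht, fun z hz => ?_⟩
  obtain ⟨m, hm, h0⟩ := hkill ⟨z, hz⟩
  exact ⟨m, hm, congrArg Subtype.val h0⟩

/-- **the abstract Eisenstein descent, with the cuspidal class**: `t` kills `J(ℚ)` modulo torsion
and `t c₀ ≠ 0`. -/
theorem m15x_main_cusp [Fact p'.Prime] (hS : m15x_Setup p p' S J R I)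
    (hS2 : m15x_Setup2 p p' J P φ c H₂)
    (hpiece : ∀ V', s15e_PieceC S p p' V' →
      s15e_PieceBound (P.inertiaSubgroupIn ℚ) H₂
        (s15e_LA (s15e_AdmC S p p') s15e_admC_prod s15e_admC_quot) V')
    (hFG : AddGroup.FG ↥(m15x_fix GQ J))
    (hdiv : ∀ (r : ℕ) (z : J), z ∈ m15x_fix GQ J → ∃ y : J, p' ^ r • y = z)
    (B : ℕ) (hB : ∀ (r : ℕ) (e : R),
      Nat.card (m15x_Vr hS e r) ≤ B * Nat.card (s15e_inv H₂ (m15x_Vr hS e r)) ^ 2)
    (hint : ∀ b : R, ∃ m : ℤ, b - (m : R) ∈ I)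
    (c₀ : J) (hIc : ∀ a ∈ I, a • c₀ = 0) (hc₀ : ∀ m : ℤ, m • c₀ = 0 → (p' : ℤ) ∣ m) :
    ∃ t : R, (∀ z : J, z ∈ m15x_fix GQ J → ∃ m : ℕ, m ≠ 0 ∧ m • t • z = 0) ∧ t • c₀ ≠ 0 := by
  obtain ⟨t, ht, hkill⟩ := m15x_main hS hS2 hpiece hFG hdiv B hB
  refine ⟨t, hkill, fun h0 => ?_⟩
  obtain ⟨a, ha, b', hb', hab⟩ := Submodule.mem_sup.mp ht
  obtain ⟨b, rfl⟩ := Ideal.mem_span_singleton'.mp hb'
  obtain ⟨m, hm⟩ := hint b
  -- `t c₀ = (1 + p' m) c₀`
  have h1 : t • c₀ = ((1 : ℤ) + (p' : ℤ) * m) • c₀ := by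
    have ht' : t = 1 + a + (b - (m : R)) * (p' : R) + ((m : R) * (p' : R)) := by
      have : t = 1 + (a + b * (p' : R)) := by rw [hab]; ring
      rw [this]; ring
    rw [ht', add_smul, add_smul, add_smul, one_smul, hIc a ha, mul_smul,
      smul_comm (b - (m : R)) (p' : R) c₀, hIc _ hm, smul_zero, add_zero, add_zero, add_smul,
      one_smul, mul_comm ((p' : ℤ)) m, mul_smul, mul_smul]
    congr 1
    rw [Int.cast_smul_eq_zsmul, Nat.cast_smul_eq_nsmul, natCast_zsmul]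
  rw [h1] at h0
  have h2 := hc₀ _ h0
  have h3 : (p' : ℤ) ∣ 1 := by
    have := (Int.dvd_add_left (Dvd.intro m rfl : (p' : ℤ) ∣ (p' : ℤ) * m)).mp h2
    exact this
  have hp'2 : 2 ≤ p' := hS.hp'.two_le
  have := Int.le_of_dvd one_pos h3
  omega

end Final

end Fermat.Agent.Lib.S15
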