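/-
(M) glue (helper7, prefix `m15i_`), instantiation part 1: **`J₀(p)` with the good Hecke ring
`m15_Tg p` and the Eisenstein ideal satisfies `m15x_Setup`.**
-/
import Fermat.Agent.Lib.S15.MAsmF
import Fermat.Agent.Lib.S15.MEis2
import Fermat.Agent.Lib.S15.AComm4
import Fermat.Agent.Lib.S29.GSRed
import Fermat.Agent.Lib.S29.GSHecke

set_option autoImplicit false
set_option linter.unusedSectionVars false
set_option linter.unusedVariables false
set_option linter.style.haveILetI false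

noncomputable section

namespace Fermat.Agent.Lib.S15

open ModularCurve AlgebraicCurve Fermat.Agent.Lib.S19 Fermat.Agent.Lib.S29

local notation "Kb" => AlgebraicClosure ℚ
local notation "GQ" => (AlgebraicClosure ℚ ≃ₐ[ℚ] AlgebraicClosure ℚ)

variable (p : ℕ) [NeZero p]

/-- the good Hecke ring as a type. -/
def m15i_R : Type := ↥(m15_Tg p)

instance m15i_R.instRing : Ring (m15i_R p) := inferInstanceAs (Ring ↥(m15_Tg p))

/-- the inclusion into the endomorphism ring. -/
def m15i_val : m15i_R p →+* Module.End ℤ (JZero p) := (m15_Tg p).val.toRingHom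

theorem m15i_val_injective : Function.Injective (m15i_val p) := Subtype.val_injective

theorem m15i_val_mem (t : m15i_R p) : m15i_val p t ∈ m15_Tg p := t.2

/-- the generators of the good Hecke ring commute. -/
theorem m15i_gen_comm [Fact p.Prime] :
    ∀ a ∈ heckeOperatorBar p '' {ℓ : Nat.Primes | ¬ (ℓ : ℕ) ∣ p * (p - 1)},
    ∀ b ∈ heckeOperatorBar p '' {ℓ : Nat.Primes | ¬ (ℓ : ℕ) ∣ p * (p - 1)}, a * b = b * a := by
  rintro _ ⟨ℓ, hℓ, rfl⟩ _ ⟨ℓ', hℓ', rfl⟩
  exact m15a_comm_good p ℓ ℓ' (fun h => hℓ (Dvd.dvd.mul_right h _))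
    (fun h => hℓ' (Dvd.dvd.mul_right h _))

theorem m15i_mul_comm [Fact p.Prime] (a b : m15i_R p) : a * b = b * a := by
  have h : IsMulCommutative ↥(m15_Tg p) := Algebra.isMulCommutative_adjoin ℤ (m15i_gen_comm p)
  exact @mul_comm' ↥(m15_Tg p) _ h a b

instance m15i_R.instCommRing [Fact p.Prime] : CommRing (m15i_R p) :=
  { m15i_R.instRing p with mul_comm := m15i_mul_comm p }

instance m15i_R.instModule [Fact p.Prime] : Module (m15i_R p) (JZero p) :=
  Module.compHom (JZero p) (m15i_val p)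

theorem m15i_smul_def [Fact p.Prime] (t : m15i_R p) (x : JZero p) :
    t • x = m15i_val p t x := rfl

/-- the good Hecke operator `T_ℓ` as an element of the good Hecke ring. -/
def m15i_T (ℓ : Nat.Primes) (h : ¬ (ℓ : ℕ) ∣ p * (p - 1)) : m15i_R p :=
  ⟨heckeOperatorBar p ℓ, Algebra.subset_adjoin ⟨ℓ, h, rfl⟩⟩

theorem m15i_val_T (ℓ : Nat.Primes) (h : ¬ (ℓ : ℕ) ∣ p * (p - 1)) :
    m15i_val p (m15i_T p ℓ h) = heckeOperatorBar p ℓ := rfl

/-- the Eisenstein ideal of the good Hecke ring. -/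
def m15i_I [Fact p.Prime] : Ideal (m15i_R p) :=
  Ideal.span {η | ∃ (ℓ : Nat.Primes) (h : ¬ (ℓ : ℕ) ∣ p * (p - 1)),
    η = m15i_T p ℓ h - 1 - ((ℓ : ℕ) : m15i_R p)}

theorem m15i_eta_mem [Fact p.Prime] (ℓ : Nat.Primes) (h : ¬ (ℓ : ℕ) ∣ p * (p - 1)) :
    m15i_T p ℓ h - 1 - ((ℓ : ℕ) : m15i_R p) ∈ m15i_I p :=
  Ideal.subset_span ⟨ℓ, h, rfl⟩

/-- the Hecke ring commutes with the Galois action. -/
theorem m15i_gal [Fact p.Prime] (t : m15i_R p) (σ : GQ) (x : JZero p) :
    t • (σ • x) = σ • (t • x) := by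
  rw [m15i_smul_def, m15i_smul_def]
  have ht : m15i_val p t ∈ m15_Tg p := m15i_val_mem p t
  generalize m15i_val p t = T at ht
  unfold m15_Tg at ht
  induction ht using Algebra.adjoin_induction generalizing x with
  | mem T hT =>
    obtain ⟨ℓ, -, rfl⟩ := hT
    exact s29g_heckeOperatorBar_smul p ℓ σ x
  | algebraMap n =>
    show (algebraMap ℤ (Module.End ℤ (JZero p)) n) (σ • x) =
      σ • (algebraMap ℤ (Module.End ℤ (JZero p)) n) x
    rw [Module.algebraMap_end_apply, Module.algebraMap_end_apply]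
    exact (map_zsmul (DistribSMul.toAddMonoidHom (JZero p) σ) n x).symm
  | add a b _ _ ha hb =>
    rw [LinearMap.add_apply, LinearMap.add_apply, ha, hb]
    exact (smul_add σ _ _).symm
  | mul a b _ _ ha hb =>
    rw [Module.End.mul_apply, Module.End.mul_apply, hb, ha]

theorem m15i_natCast_smul [Fact p.Prime] (n : ℕ) (x : JZero p) :
    ((n : m15i_R p)) • x = n • x := Nat.cast_smul_eq_nsmul (m15i_R p) n x

/-- **`J₀(p)` with the good Hecke ring satisfies the first block of hypotheses.** -/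
theorem m15i_setup [Fact p.Prime] (p' : ℕ) (hp' : p'.Prime) :
    m15x_Setup p p' (p * (p - 1)).primeFactors (JZero p) (m15i_R p) (m15i_I p) := by
  have hp : p.Prime := Fact.out
  refine ⟨hp', m15i_gal p, ?_, ?_⟩
  · intro q hq hqS hqp hqp' A hA σ hσ
    have hqd : ¬ q ∣ p * (p - 1) := by
      intro h
      apply hqS
      rw [Nat.mem_primeFactors]
      refine ⟨hq, h, ?_⟩
      have : 0 < p - 1 := Nat.sub_pos_of_lt hp.one_lt
      exact (Nat.mul_pos hp.pos this).ne'
    have hqpp' : ¬ q ∣ p * p' := by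
      intro h
      rcases (Nat.Prime.dvd_mul hq).mp h with h | h
      · exact hqp ((Nat.prime_dvd_prime_iff_eq hq hp).mp h)
      · exact hqp' ((Nat.prime_dvd_prime_iff_eq hq hp').mp h)
    set qq : Nat.Primes := ⟨q, hq⟩ with hqq
    refine ⟨m15i_T p qq hqd - 1 - ((q : ℕ) : m15i_R p), m15i_eta_mem p qq hqd, ?_⟩
    intro r x hx
    have hES := s29g_frobenius_quadratic p p' q hq hqpp' A hA σ hσ x r hx
    rw [s15e_eisOp_apply, sub_smul, sub_smul, one_smul, m15i_natCast_smul, m15i_smul_def,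
      m15i_val_T p qq hqd]
    have h1 : σ • (σ • x - q • x) = σ • σ • x - q • σ • x := by
      rw [smul_sub, ← smul_comm q σ x]
    rw [h1]
    have h2 : σ • σ • x = heckeOperatorBar p qq (σ • x) - q • x := by
      rw [eq_sub_iff_add_eq, ← sub_eq_zero, ← hES]
      abel
    rw [h2]
    abel
  · intro ℓ hℓ hℓp hℓp' A hA σ hσ r x hx
    have hℓpp' : ¬ ℓ ∣ p * p' := by
      intro h
      rcases (Nat.Prime.dvd_mul hℓ).mp h with h | h
      · exact hℓp ((Nat.prime_dvd_prime_iff_eq hℓ hp).mp h)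
      · exact hℓp' ((Nat.prime_dvd_prime_iff_eq hℓ hp').mp h)
    exact s29g_inertia_trivial p p' ℓ hℓ hℓpp' A hA σ hσ x r hx

end Fermat.Agent.Lib.S15
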