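/-
(M) glue (helper7, prefix `m15i_`), instantiation part 2: **`J₀(p)` satisfies `m15x_Setup2`** at a
place `P | p` with Frobenius `φ`, for `c` = complex conjugation.
Inputs: helper4's `m15f_flatKum'`, helper1's `m15k_NWp`, `m15k_tameFrob`, S34 (`s34_SSp`), S29/S37
(`s29g_redAt`).
-/
import Fermat.Agent.Lib.S15.MInst1
import Fermat.Agent.Lib.S15.FKum6
import Fermat.Agent.Lib.S15.KNW
import Fermat.Agent.Lib.S15.KTame
import Fermat.Agent.Lib.S34.FFinal
import Fermat.Agent.Lib.S34.DTwoThree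

set_option autoImplicit false
set_option linter.unusedSectionVars false
set_option linter.unusedVariables false
set_option linter.style.haveILetI false

noncomputable section

namespace Fermat.Agent.Lib.S15

open ModularCurve AlgebraicCurve Fermat.Agent.Lib.S19 Fermat.Agent.Lib.S29 Fermat.Agent.Lib.S34

local notation "Kb" => AlgebraicClosure ℚ
local notation "GQ" => (AlgebraicClosure ℚ ≃ₐ[ℚ] AlgebraicClosure ℚ)

variable (p : ℕ) [NeZero p]

/-- the two versions of `J₀(p)[n]`. -/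
def m15i_torsEquiv (n : ℕ) : m15x_X (JZero p) n ≃+ ↥(m15_tors p n) where
  toFun x := ⟨m15x_Sub.val x, m15x_Sub.val_mem x⟩
  invFun x := m15x_Sub.mk (x : JZero p) x.2
  left_inv x := rfl
  right_inv x := rfl
  map_add' a b := rfl

theorem m15i_torsEquiv_coe (n : ℕ) (x : m15x_X (JZero p) n) :
    ((m15i_torsEquiv p n x : ↥(m15_tors p n)) : JZero p) = m15x_Sub.val x := rfl

theorem m15i_torsEquiv_smul (n : ℕ) (σ : GQ) (x : m15x_X (JZero p) n) :
    m15i_torsEquiv p n (σ • x) = σ • m15i_torsEquiv p n x := rfl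

/-- the powers of an involution. -/
theorem m15i_zpowers_invol {G : Type*} [Group G] (c : G) (hc : c * c = 1) (h : G)
    (hh : h ∈ Subgroup.zpowers c) : h = 1 ∨ h = c := by
  obtain ⟨n, rfl⟩ := Subgroup.mem_zpowers_iff.mp hh
  have hc2 : c ^ (2 : ℤ) = 1 := by rw [zpow_two, hc]
  rcases Int.even_or_odd' n with ⟨m, hm | hm⟩
  · left
    rw [hm, zpow_mul, hc2, one_zpow]
  · right
    rw [hm, zpow_add, zpow_mul, hc2, one_zpow, one_mul, zpow_one]

/-- **`J₀(p)` satisfies the second block of hypotheses.** -/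
theorem m15i_setup2 [Fact p.Prime] (p' : ℕ) (hp' : p'.Prime) (hne : p' ≠ p)
    (P : ValuationSubring Kb) (hP : P.LiesOverPrime p) (φ : GQ) (hφ : P.IsFrobeniusAt φ p) :
    m15x_Setup2 p p' (JZero p) P φ complexConjugation
      (Subgroup.zpowers complexConjugation) := by
  have hp : p.Prime := Fact.out
  haveI : Fact p'.Prime := ⟨hp'⟩
  have hndvd : ∀ r : ℕ, ¬ p ∣ p' ^ r := fun r h =>
    hne ((Nat.prime_dvd_prime_iff_eq hp hp').mp (hp.dvd_of_dvd_pow h)).symm
  refine
    { hp := hp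
      hne := hne
      hP := hP
      hφ := hφ
      hcc := complexConjugation_mul_self
      hcH := Subgroup.mem_zpowers _
      hH₂ := m15i_zpowers_invol _ complexConjugation_mul_self
      finX := ?_
      flatKum := ?_
      unrKum := ?_
      ss := ?_
      nw := ?_
      tame := ?_ }
  · intro r
    haveI := m15f_tors_finite p p' r
    exact Finite.of_injective
      (fun x : m15x_X (JZero p) (p' ^ r) =>
        (⟨m15x_Sub.val x, m15x_Sub.val_mem x⟩ : {x : JZero p // (p' ^ r) • x = 0}))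
      (fun a b hab => m15x_Sub.val_injective (congrArg Subtype.val hab))
  · intro r y hy
    obtain ⟨E, iE, iF, iA, ι, e₀, hιi, hιG, hcoc, he₀, -, hgen, hfl⟩ :=
      m15f_flatKum' p hp p' hp' hne r y hy
    refine ⟨E, iE, iF, iA, ι.comp (m15i_torsEquiv p (p' ^ r)).toAddMonoidHom, e₀, ?_, ?_, ?_, he₀,
      ?_, hfl⟩
    · exact hιi.comp (m15i_torsEquiv p (p' ^ r)).injective
    · intro σ x
      show ι (m15i_torsEquiv p (p' ^ r) (σ • x)) = σ • ι (m15i_torsEquiv p (p' ^ r) x)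
      rw [m15i_torsEquiv_smul, hιG]
    · intro σ
      obtain ⟨x, hx, hσ⟩ := hcoc σ
      refine ⟨(m15i_torsEquiv p (p' ^ r)).symm x, hx, ?_⟩
      show σ • e₀ = e₀ + ι (m15i_torsEquiv p (p' ^ r) ((m15i_torsEquiv p (p' ^ r)).symm x))
      rw [AddEquiv.apply_symm_apply]
      exact hσ
    · intro e
      obtain ⟨x, n, hxn⟩ := hgen e
      refine ⟨(m15i_torsEquiv p (p' ^ r)).symm x, n, ?_⟩
      show e = ι (m15i_torsEquiv p (p' ^ r) ((m15i_torsEquiv p (p' ^ r)).symm x)) + n • e₀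
      rw [AddEquiv.apply_symm_apply]
      exact hxn
  · intro ℓ hℓ hℓp hℓp' A hA σ hσ r y hy
    have hℓpp' : ¬ ℓ ∣ p * p' := by
      intro h
      rcases (Nat.Prime.dvd_mul hℓ).mp h with h | h
      · exact hℓp ((Nat.prime_dvd_prime_iff_eq hℓ hp).mp h)
      · exact hℓp' ((Nat.prime_dvd_prime_iff_eq hℓ hp').mp h)
    obtain ⟨σ₀, hσ₀⟩ := Fermat.Agent.Lib.Frobenius.exists_isFrobeniusAt_of_liesOverPrime A ℓ hℓ hA
    obtain ⟨X, _, red, h_in, -, h_inj⟩ := s29g_redAt p p' ℓ hℓ hℓpp' A hA σ₀ hσ₀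
    have h1 : p' ^ r • (σ • y - y) = 0 := by
      rw [nsmul_sub, smul_comm (p' ^ r) σ y, hy σ, sub_self]
    have h2 : red (σ • y - y) = 0 := by
      rw [map_sub, h_in σ hσ y, sub_self]
    exact sub_eq_zero.mp (h_inj _ ⟨r, h1⟩ h2)
  · intro σ hσ r x hx
    have hSS : s34_SSp :=
      s34f_SSp_of_geo (fun M q _ _ hq' hqM h => s34d_geo_all M q hq' hqM h)
    refine hSS p p hp dvd_rfl ?_ P hP σ hσ p' hp' hne r x hx
    intro h
    have : p ^ 2 ≤ p := Nat.le_of_dvd hp.pos h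
    have h2 := hp.two_le
    nlinarith
  · intro r x hx
    exact m15k_NWp p hp P hP φ hφ (p' ^ r) (hndvd r) x hx
  · intro W _ _ _ hprim hopen hunip
    exact m15k_tameFrob p p' hp hp' hne W hprim hopen P hP hunip

end Fermat.Agent.Lib.S15
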