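/-
(M) glue (helper7, prefix `m15i_`), instantiation part 3: the arithmetic of the cuspidal class and
of the Eisenstein ideal of the good Hecke ring:
* `m15i_hecke_rational_torsion` : `T_q x = (1 + q) x` for a rational torsion point `x` of order
  prime to `q` (`q ∤ p`) — Eichler–Shimura on the primary components;
* `m15i_I_kills` : the Eisenstein ideal kills a rational point killed by `p - 1`;
* `m15i_int` : every element of the good Hecke ring is congruent to an integer modulo `I`.
-/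
import Fermat.Agent.Lib.S15.MInst1

set_option autoImplicit false
set_option linter.unusedSectionVars false
set_option linter.unusedVariables false
set_option linter.style.haveILetI false

noncomputable section

namespace Fermat.Agent.Lib.S15

open ModularCurve AlgebraicCurve Fermat.Agent.Lib.S19 Fermat.Agent.Lib.S29

local notation "Kb" => AlgebraicClosure ℚ
local notation "GQ" => (AlgebraicClosure ℚ ≃ₐ[ℚ] AlgebraicClosure ℚ)

variable (p : ℕ) [NeZero p]

/-- **Eichler–Shimura on rational torsion points**: `T_q x = (1 + q) x`. -/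
theorem m15i_hecke_rational_torsion (q : Nat.Primes) (hqp : ¬ (q : ℕ) ∣ p) :
    ∀ n : ℕ, n ≠ 0 → Nat.Coprime n q → ∀ x : JZero p, (∀ σ : GQ, σ • x = x) → n • x = 0 →
      heckeOperatorBar p q x = (1 + (q : ℕ)) • x := by
  obtain ⟨A, hA⟩ := Fermat.Agent.Lib.Frobenius.exists_liesOverPrime (q : ℕ) q.2
  obtain ⟨σ, hσ⟩ := Fermat.Agent.Lib.Frobenius.exists_isFrobeniusAt_of_liesOverPrime A (q : ℕ) q.2 hA
  intro n
  induction n using Nat.recOnPosPrimePosCoprime with
  | prime_pow ℓ k hℓ hk =>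
    intro _ hcop x hx hnx
    have hℓq : ℓ ≠ (q : ℕ) := by
      rintro rfl
      have h1 : (q : ℕ) ∣ Nat.gcd ((q : ℕ) ^ k) (q : ℕ) :=
        Nat.dvd_gcd (dvd_pow_self _ hk.ne') dvd_rfl
      rw [hcop] at h1
      exact q.2.one_lt.ne' (Nat.dvd_one.mp h1)
    have hq : ¬ (q : ℕ) ∣ p * ℓ := by
      intro h
      rcases (Nat.Prime.dvd_mul q.2).mp h with h | h
      · exact hqp h
      · exact hℓq ((Nat.prime_dvd_prime_iff_eq q.2 hℓ).mp h).symm
    have hES := s29g_frobenius_quadratic p ℓ (q : ℕ) q.2 hq A hA σ hσ x k hnx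
    rw [hx σ, hx σ] at hES
    have h2 : heckeOperatorBar p q x = x + (q : ℕ) • x := by
      have h3 : heckeOperatorBar p ⟨(q : ℕ), q.2⟩ x = x + (q : ℕ) • x := by
        have h4 := hES
        rw [sub_add_eq_add_sub, sub_eq_zero] at h4
        exact h4.symm
      exact h3
    rw [h2, add_nsmul, one_nsmul]
  | zero => intro h; exact absurd rfl h
  | one =>
    intro _ _ x _ hx
    rw [one_smul] at hx
    rw [hx, map_zero, smul_zero]
  | coprime a b ha hb hab iha ihb =>
    intro _ hcop x hx hnx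
    have hca : Nat.Coprime a q := Nat.Coprime.coprime_dvd_left (Dvd.intro b rfl) hcop
    have hcb : Nat.Coprime b q := Nat.Coprime.coprime_dvd_left (Dvd.intro_left a rfl) hcop
    obtain ⟨u, v, huv⟩ := (Nat.isCoprime_iff_coprime.mpr hab)
    -- `x = (u a) x + (v b) x`
    set x₁ : JZero p := (v * (b : ℤ)) • x with hx₁
    set x₂ : JZero p := (u * (a : ℤ)) • x with hx₂
    have hsum : x = x₂ + x₁ := by
      rw [hx₁, hx₂, ← add_zsmul, huv, one_zsmul]
    have hfix : ∀ (m : ℤ) (σ' : GQ), σ' • (m • x) = m • x := fun m σ' => by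
      have := map_zsmul (DistribSMul.toAddMonoidHom (JZero p) σ') m x
      exact this.trans (by rw [DistribSMul.toAddMonoidHom_apply, hx σ'])
    have hnx' : ((a : ℤ) * (b : ℤ)) • x = 0 := by
      rw [← Nat.cast_mul, natCast_zsmul]; exact hnx
    have h1 : a • x₁ = 0 := by
      rw [hx₁, ← natCast_zsmul, ← mul_zsmul']
      have : v * (b : ℤ) * (a : ℤ) = v * ((a : ℤ) * (b : ℤ)) := by ring
      rw [this, mul_zsmul, hnx', zsmul_zero]
    have h2 : b • x₂ = 0 := by
      rw [hx₂, ← natCast_zsmul, ← mul_zsmul']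
      have : u * (a : ℤ) * (b : ℤ) = u * ((a : ℤ) * (b : ℤ)) := by ring
      rw [this, mul_zsmul, hnx', zsmul_zero]
    have e1 := iha (by omega) hca x₁ (hfix _) h1
    have e2 := ihb (by omega) hcb x₂ (hfix _) h2
    rw [hsum, map_add, e1, e2, nsmul_add]

/-- **the Eisenstein ideal kills a rational point killed by `p - 1`.** -/
theorem m15i_I_kills [Fact p.Prime] (x : JZero p) (hx : ∀ σ : GQ, σ • x = x)
    (hx' : (p - 1) • x = 0) : ∀ a ∈ m15i_I p, a • x = 0 := by
  have hp : p.Prime := Fact.out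
  intro a ha
  unfold m15i_I at ha
  induction ha using Submodule.span_induction with
  | mem a ha =>
    obtain ⟨ℓ, h, rfl⟩ := ha
    have hℓp : ¬ (ℓ : ℕ) ∣ p := fun hd => h (Dvd.dvd.mul_right hd _)
    have hℓp1 : ¬ (ℓ : ℕ) ∣ p - 1 := fun hd => h (Dvd.dvd.mul_left hd _)
    have hcop : Nat.Coprime (p - 1) ℓ := ((Nat.Prime.coprime_iff_not_dvd ℓ.2).mpr hℓp1).symm
    have hne : p - 1 ≠ 0 := (Nat.sub_pos_of_lt hp.one_lt).ne'
    have hT := m15i_hecke_rational_torsion p ℓ hℓp (p - 1) hne hcop x hx hx'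
    rw [sub_smul, sub_smul, one_smul, m15i_natCast_smul, m15i_smul_def, m15i_val_T, hT, add_nsmul,
      one_nsmul]
    abel
  | zero => exact zero_smul (m15i_R p) x
  | add a b _ _ ha hb => rw [add_smul, ha, hb, add_zero]
  | smul r a _ ha => rw [smul_eq_mul, mul_smul, ha, smul_zero]

/-- the constructor of the good Hecke ring. -/
def m15i_mk (T : Module.End ℤ (JZero p)) (hT : T ∈ m15_Tg p) : m15i_R p := ⟨T, hT⟩

theorem m15i_val_mk (T : Module.End ℤ (JZero p)) (hT : T ∈ m15_Tg p) :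
    m15i_val p (m15i_mk p T hT) = T := rfl

/-- **every element of the good Hecke ring is an integer modulo the Eisenstein ideal.** -/
theorem m15i_int_aux [Fact p.Prime] (T : Module.End ℤ (JZero p))
    (hT : T ∈ Algebra.adjoin ℤ (heckeOperatorBar p '' {ℓ : Nat.Primes | ¬ (ℓ : ℕ) ∣ p * (p - 1)})) :
    ∃ m : ℤ, m15i_mk p T hT - (m : m15i_R p) ∈ m15i_I p := by
  induction hT using Algebra.adjoin_induction with
  | mem T hT =>
    obtain ⟨ℓ, h, rfl⟩ := hT
    refine ⟨1 + ((ℓ : ℕ) : ℤ), ?_⟩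
    have := m15i_eta_mem p ℓ h
    have e : m15i_mk p (heckeOperatorBar p ℓ) (Algebra.subset_adjoin ⟨ℓ, h, rfl⟩) -
        ((1 + ((ℓ : ℕ) : ℤ) : ℤ) : m15i_R p) =
        m15i_T p ℓ h - 1 - ((ℓ : ℕ) : m15i_R p) := by
      push_cast
      rw [sub_sub]
      rfl
    rw [e]
    exact this
  | algebraMap n =>
    refine ⟨n, ?_⟩
    have e : m15i_mk p (algebraMap ℤ (Module.End ℤ (JZero p)) n) (Subalgebra.algebraMap_mem _ n) =
        (n : m15i_R p) := by
      apply m15i_val_injective
      rw [map_intCast]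
      rfl
    rw [e, sub_self]
    exact zero_mem _
  | add a b ha hb iha ihb =>
    obtain ⟨m, hm⟩ := iha
    obtain ⟨n, hn⟩ := ihb
    refine ⟨m + n, ?_⟩
    have e : m15i_mk p (a + b) (add_mem ha hb) - ((m + n : ℤ) : m15i_R p) =
        (m15i_mk p a ha - (m : m15i_R p)) + (m15i_mk p b hb - (n : m15i_R p)) := by
      push_cast
      have : m15i_mk p (a + b) (add_mem ha hb) = m15i_mk p a ha + m15i_mk p b hb := rfl
      rw [this]
      ring
    rw [e]
    exact add_mem hm hn
  | mul a b ha hb iha ihb =>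
    obtain ⟨m, hm⟩ := iha
    obtain ⟨n, hn⟩ := ihb
    refine ⟨m * n, ?_⟩
    have e : m15i_mk p (a * b) (mul_mem ha hb) - ((m * n : ℤ) : m15i_R p) =
        m15i_mk p a ha * (m15i_mk p b hb - (n : m15i_R p)) +
          (n : m15i_R p) * (m15i_mk p a ha - (m : m15i_R p)) := by
      push_cast
      have : m15i_mk p (a * b) (mul_mem ha hb) = m15i_mk p a ha * m15i_mk p b hb := rfl
      rw [this]
      ring
    rw [e]
    exact add_mem (Ideal.mul_mem_left _ _ hn) (Ideal.mul_mem_left _ _ hm)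

theorem m15i_int [Fact p.Prime] (b : m15i_R p) : ∃ m : ℤ, b - (m : m15i_R p) ∈ m15i_I p :=
  m15i_int_aux p b.1 b.2

end Fermat.Agent.Lib.S15
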