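/-
(M) glue (helper7, prefix `m15i_`), instantiation part 4: **THE WALL [EIS] FROM ITS NODES.**
`m15i_eis : m15_OggLe → m15_ClNe → m15_Div → m15_Aconj → m15_Piece → m15_Eis''`, where `m15_Eis''`
is `m15_Eis'` for RATIONAL cusps with all places of degree one (what `m15_CuspNode` provides).
-/
import Fermat.Agent.Lib.S15.MInst2
import Fermat.Agent.Lib.S15.MInst3
import Fermat.Agent.Lib.S15.MEis3
import Fermat.Agent.S17

set_option autoImplicit false
set_option linter.unusedSectionVars false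
set_option linter.unusedVariables false
set_option linter.style.haveILetI false

noncomputable section

namespace Fermat.Agent.Lib.S15

open ModularCurve AlgebraicCurve Fermat.Agent.Lib.S19 Fermat.Agent.Lib.S29

local notation "Kb" => AlgebraicClosure ℚ
local notation "GQ" => (AlgebraicClosure ℚ ≃ₐ[ℚ] AlgebraicClosure ℚ)

/-- **(PIECE)** the bound for the pieces of the dévissage (helper8: `s15e_piece_uncond`). -/
def m15_Piece : Prop :=
  ∀ (S : Finset ℕ) (p p' : ℕ) [Fact p'.Prime], p.Prime → p ≠ p' →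
    ∀ A : ValuationSubring Kb, A.LiesOverPrime p → ∀ V : s15e_Mod.{0} GQ, s15e_PieceC S p p' V →
      s15e_PieceBound (A.inertiaSubgroupIn ℚ) (Subgroup.zpowers complexConjugation)
        (s15e_LA (s15e_AdmC S p p') s15e_admC_prod s15e_admC_quot) V

/-- **[EIS'']** = `m15_Eis'` for rational cusps, all places of degree one. -/
def m15_Eis'' : Prop :=
  ∀ (p : ℕ) [NeZero p], p.Prime → p ∉ ({2, 3, 5, 7, 13} : Finset ℕ) → ∀ c : m15_Cusps p,
    (∀ σ : GQ, m15_gal p σ c.inf = c.inf) → (∀ σ : GQ, m15_gal p σ c.zero = c.zero) →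
    (∀ P : m15_Pl p, P.deg = 1) →
    ∃ t ∈ m15_Tg p, (∀ z : JZero p, (∀ σ : GQ, σ • z = z) → ∃ m : ℕ, m ≠ 0 ∧ m • t z = 0) ∧
      t (m15_cl p c.zero c.inf) ≠ 0

variable (p : ℕ) [NeZero p]

/-- `V = e J[n]` in the two languages. -/
theorem m15i_V_eq [Fact p.Prime] (e : m15i_R p) (n : ℕ) :
    m15x_V (m15x_act (J := JZero p) e) n =
      (m15_tors p n).map ((m15i_val p e : JZero p →ₗ[ℤ] JZero p).toAddMonoidHom) := by
  ext x
  constructor
  · rintro ⟨y, hy, rfl⟩
    exact ⟨y, hy, rfl⟩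
  · rintro ⟨y, hy, rfl⟩
    exact ⟨y, hy, rfl⟩

/-- Mordell–Weil in the form needed. -/
theorem m15i_fg (hp : p.Prime) (hp5 : 5 ≤ p) : AddGroup.FG ↥(m15x_fix GQ (JZero p)) := by
  have h := Fermat.Agent.S17.result p hp hp5
  let f : ↥(FixedPoints.addSubgroup GQ (JZero p)) →+ ↥(m15x_fix GQ (JZero p)) :=
    { toFun := fun z => ⟨(z : JZero p), fun g => (FixedPoints.mem_addSubgroup _ _ _).mp z.2 g⟩
      map_zero' := rfl
      map_add' := fun a b => rfl }
  have hf : Function.Surjective f := by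
    intro z
    exact ⟨⟨(z : JZero p), (FixedPoints.mem_addSubgroup _ _ _).mpr z.2⟩, rfl⟩
  exact AddGroup.fg_of_surjective (hG := h) hf

/-- divisibility by prime powers. -/
theorem m15i_div (hDiv : m15_Div) (ℓ : ℕ) (hℓ : ℓ.Prime) (r : ℕ) (z : JZero p) :
    ∃ y : JZero p, ℓ ^ r • y = z := by
  induction r generalizing z with
  | zero => exact ⟨z, by rw [pow_zero, one_nsmul]⟩
  | succ r ih =>
    obtain ⟨y₁, hy₁⟩ := ih z
    obtain ⟨y, hy⟩ := hDiv p ℓ hℓ y₁
    refine ⟨y, ?_⟩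
    rw [pow_succ', mul_nsmul, hy, hy₁]

/-- **(A-conj) in the form needed by the abstract descent.** -/
theorem m15i_aconj [Fact p.Prime] (p' : ℕ) (hp' : p'.Prime) (B : ℕ)
    (hB : ∀ (r : ℕ) (t : Module.End ℤ (JZero p)), t ∈ m15_T p →
      Nat.card ↥((m15_tors p (p' ^ r)).map (t : JZero p →ₗ[ℤ] JZero p).toAddMonoidHom) ≤
        B * Nat.card ↥((m15_tors p (p' ^ r)).map (t : JZero p →ₗ[ℤ] JZero p).toAddMonoidHom ⊓
          m15_eig (JZero p) complexConjugation 1) ^ 2)
    (hfin : ∀ r : ℕ, Finite (m15x_X (JZero p) (p' ^ r))) (r : ℕ) (e : m15i_R p) :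
    Nat.card (m15x_Vr (m15i_setup p p' hp') e r) ≤
      B * Nat.card (s15e_inv (Subgroup.zpowers complexConjugation)
        (m15x_Vr (m15i_setup p p' hp') e r)) ^ 2 := by
  classical
  haveI := hfin r
  haveI : Finite (m15x_Vr (m15i_setup p p' hp') e r) :=
    Finite.of_surjective _ (m15x_piV_surjective (m15i_setup p p' hp') e r)
  have h1 := hB r (m15i_val p e) (m15_Tg_le p (m15i_val_mem p e))
  rw [← m15i_V_eq p e (p' ^ r)] at h1
  have h2 : Nat.card (m15x_Vr (m15i_setup p p' hp') e r) =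
      Nat.card ↥(m15x_V (m15x_act (J := JZero p) e) (p' ^ r)) := rfl
  rw [h2]
  refine h1.trans (Nat.mul_le_mul_left _ (Nat.pow_le_pow_left ?_ 2))
  -- the injection `V ∩ J^{c=1} → V^{H₂}`
  let f : ↥(m15x_V (m15x_act (J := JZero p) e) (p' ^ r) ⊓
      m15_eig (JZero p) complexConjugation 1) →
      s15e_inv (Subgroup.zpowers complexConjugation) (m15x_Vr (m15i_setup p p' hp') e r) :=
    fun v => ⟨m15x_Sub.mk (v : JZero p) v.2.1, by
      rw [s15e_mem_inv]
      intro h
      apply m15x_Sub.val_injective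
      rw [m15x_Sub.val_smul, m15x_Sub.val_mk]
      rcases m15i_zpowers_invol _ complexConjugation_mul_self (h : GQ) h.2 with h1 | h1
      · rw [h1, one_smul]
      · rw [h1]
        have := v.2.2
        have h3 : complexConjugation • (v : JZero p) = (1 : ℤ) • (v : JZero p) := this
        rw [h3, one_zsmul]⟩
  apply Nat.card_le_card_of_injective f
  intro a b hab
  apply Subtype.ext
  have := congrArg (fun w : s15e_inv (Subgroup.zpowers complexConjugation)
    (m15x_Vr (m15i_setup p p' hp') e r) => m15x_Sub.val (w : m15x_Vr (m15i_setup p p' hp') e r)) hab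
  exact this

/-- **THE WALL [EIS] FROM ITS NODES.** -/
theorem m15i_eis (hOgg : m15_OggLe) (hNe : m15_ClNe) (hDiv : m15_Div) (hA : m15_Aconj)
    (hPc : m15_Piece) : m15_Eis'' := by
  intro p _ hp hp13 c hinf hzero hdeg
  haveI : Fact p.Prime := ⟨hp⟩
  -- arithmetic of `p`
  have hp5 : 5 ≤ p := by
    by_contra hlt
    rw [not_le] at hlt
    have h2' := hp.two_le
    simp only [Finset.mem_insert, Finset.mem_singleton, not_or] at hp13
    interval_cases p
    · exact hp13.1 rfl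
    · exact hp13.2.1 rfl
    · exact absurd hp (by norm_num)
  -- the cuspidal class
  set c₀ : JZero p := m15_cl p c.zero c.inf with hc₀def
  have hc₀fix : ∀ σ : GQ, σ • c₀ = c₀ := by
    intro σ
    rw [hc₀def, m15_gal_cl hdeg, hzero, hinf]
  have hc₀ogg : (p - 1) • c₀ = 0 := hOgg p hp c
  have hc₀ne : c₀ ≠ 0 := hNe p hp hp13 c
  -- the prime `p'`
  set n := addOrderOf c₀ with hn
  have hndvd : n ∣ p - 1 := addOrderOf_dvd_of_nsmul_eq_zero hc₀ogg
  have hn1 : n ≠ 1 := fun h => hc₀ne (AddMonoid.addOrderOf_eq_one_iff.mp h)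
  set p' := n.minFac with hp'def
  have hp' : p'.Prime := Nat.minFac_prime hn1
  have hp'n : p' ∣ n := Nat.minFac_dvd n
  haveI : Fact p'.Prime := ⟨hp'⟩
  have hp1pos : 0 < p - 1 := Nat.sub_pos_of_lt hp.one_lt
  have hne : p' ≠ p := by
    intro h
    have h1 : p' ∣ p - 1 := hp'n.trans hndvd
    have h2 := Nat.le_of_dvd hp1pos h1
    omega
  -- the place over `p` and its Frobenius
  obtain ⟨P, hP⟩ := Fermat.Agent.Lib.Frobenius.exists_liesOverPrime p hp
  obtain ⟨φ, hφ⟩ := Fermat.Agent.Lib.Frobenius.exists_isFrobeniusAt_of_liesOverPrime P p hp hP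
  have hS := m15i_setup p p' hp'
  have hS2 := m15i_setup2 p p' hp' hne P hP φ hφ
  obtain ⟨B, -, hB⟩ := hA p hp p' hp' hne
  obtain ⟨t, hkill, htc⟩ := m15x_main_cusp (m15i_setup p p' hp') hS2
    (fun V' hV' => hPc _ p p' hp hne.symm P hP V' hV') (m15i_fg p hp hp5)
    (fun r z _ => m15i_div p hDiv p' hp' r z) B
    (m15i_aconj p p' hp' B hB hS2.finX) (m15i_int p) c₀
    (m15i_I_kills p c₀ hc₀fix hc₀ogg)
    (fun m hm => by
      have h1 : ((n : ℕ) : ℤ) ∣ m := by
        rw [hn]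
        exact (addOrderOf_dvd_iff_zsmul_eq_zero).mpr hm
      exact (Int.natCast_dvd_natCast.mpr hp'n).trans h1)
  refine ⟨m15i_val p t, m15i_val_mem p t, ?_, ?_⟩
  · intro z hz
    obtain ⟨m, hm, h0⟩ := hkill z hz
    exact ⟨m, hm, h0⟩
  · exact htc

end Fermat.Agent.Lib.S15
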