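/-
(M) [D-TR] (helper5, prefix `s15da_`): the contract `s15d_AnKb`: transport of [D-AN] from `ℂ` to
`ℚ̄` along an embedding `ℚ̄ → ℂ`.
-/
import Mathlib
import Fermat.Agent.Lib.S15.DAnFinal

set_option autoImplicit false

open WeierstrassCurve Fermat.Agent.Lib.FF

noncomputable section

namespace Fermat.Agent.Lib.S15

section pmap

variable {K F : Type*} [Field K] [Field F] [DecidableEq K] [DecidableEq F]
  (W : WeierstrassCurve K) (f : K →+* F)

/-- the map on points induced by a field homomorphism. -/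
def s15da_pmap : W.toAffine.Point →+ (W.map f).toAffine.Point where
  toFun P := match P with
    | .zero => 0
    | .some x y h => .some (f x) (f y) ((W.toAffine.map_nonsingular f.injective x y).mpr h)
  map_zero' := rfl
  map_add' := by
    rintro (_ | ⟨x₁, y₁, h₁⟩) (_ | ⟨x₂, y₂, h₂⟩)
    any_goals rfl
    by_cases hxy : x₁ = x₂ ∧ y₁ = W.toAffine.negY x₂ y₂
    · rw [Affine.Point.add_of_Y_eq hxy.left hxy.right]
      exact (Affine.Point.add_of_Y_eq (congr_arg _ hxy.left)
        (by rw [hxy.right, Affine.map_negY])).symm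
    · simpa only [Affine.Point.add_some hxy, ← Affine.map_addX, ← Affine.map_addY,
        ← Affine.map_slope] using!
        (Affine.Point.add_some fun h ↦ hxy ⟨f.injective h.1,
          f.injective (W.toAffine.map_negY f .. ▸ h).2⟩).symm

theorem s15da_pmap_zero : s15da_pmap W f 0 = 0 := rfl

theorem s15da_pmap_some {x y : K} (h : W.toAffine.Nonsingular x y) :
    s15da_pmap W f (.some x y h) =
      .some (f x) (f y) ((W.toAffine.map_nonsingular f.injective x y).mpr h) := rfl

theorem s15da_pmap_injective : Function.Injective (s15da_pmap W f) := by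
  rintro (_ | ⟨x₁, y₁, h₁⟩) (_ | ⟨x₂, y₂, h₂⟩) h
  · rfl
  · exact absurd h (by simp [s15da_pmap])
  · exact absurd h (by simp [s15da_pmap])
  · simp only [s15da_pmap_some, Affine.Point.some.injEq] at h
    obtain ⟨hx, hy⟩ := h
    have hx' := f.injective hx
    have hy' := f.injective hy
    subst hx'; subst hy'; rfl

theorem s15da_px_pmap (P : W.toAffine.Point) :
    s15d_px (W.map f) (s15da_pmap W f P) = f (s15d_px W P) := by
  rcases P with _ | ⟨x, y, h⟩
  · exact (map_zero f).symm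
  · rfl

theorem s15da_py_pmap (P : W.toAffine.Point) :
    s15d_py (W.map f) (s15da_pmap W f P) = f (s15d_py W P) := by
  rcases P with _ | ⟨x, y, h⟩
  · exact (map_zero f).symm
  · rfl

theorem s15da_t1_pmap (P : W.toAffine.Point) :
    s15d_t1 (W.map f) (s15da_pmap W f P) = f (s15d_t1 W P) := by
  unfold s15d_t1
  rw [s15da_px_pmap, map_b₂, map_b₄]
  simp only [map_add, map_mul, map_pow, map_ofNat]

theorem s15da_u1_pmap (P : W.toAffine.Point) :
    s15d_u1 (W.map f) (s15da_pmap W f P) = f (s15d_u1 W P) := by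
  unfold s15d_u1
  rw [s15da_px_pmap, map_b₂, map_b₄, map_b₆]
  simp only [map_add, map_mul, map_pow, map_ofNat]

theorem s15da_psi2_pmap (P : W.toAffine.Point) :
    s15d_psi2 (W.map f) (s15da_pmap W f P) = f (s15d_psi2 W P) := by
  unfold s15d_psi2
  rw [s15da_px_pmap, s15da_py_pmap, map_a₁, map_a₃]
  simp only [map_add, map_mul, map_ofNat]

theorem s15da_vt_pmap (Q : W.toAffine.Point) (p : ℕ) :
    s15d_vt (W.map f) (s15da_pmap W f Q) p = f (s15d_vt W Q p) := by
  unfold s15d_vt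
  rw [map_sum]
  refine Finset.sum_congr rfl fun k _ => ?_
  rw [← map_nsmul, s15da_t1_pmap]

theorem s15da_vw_pmap (Q : W.toAffine.Point) (p : ℕ) :
    s15d_vw (W.map f) (s15da_pmap W f Q) p = f (s15d_vw W Q p) := by
  unfold s15d_vw
  rw [map_sum]
  refine Finset.sum_congr rfl fun k _ => ?_
  rw [← map_nsmul, s15da_t1_pmap, s15da_u1_pmap, s15da_px_pmap, map_add, map_mul]

theorem s15da_psiProd_pmap (Q : W.toAffine.Point) (p : ℕ) :
    s15d_psiProd (W.map f) (s15da_pmap W f Q) p = f (s15d_psiProd W Q p) := by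
  unfold s15d_psiProd
  rw [map_prod]
  refine Finset.prod_congr rfl fun k _ => ?_
  rw [← map_nsmul, s15da_psi2_pmap]

theorem s15da_c4'_pmap (Q : W.toAffine.Point) (p : ℕ) :
    s15d_c4' (W.map f) (s15da_pmap W f Q) p = f (s15d_c4' W Q p) := by
  unfold s15d_c4'
  rw [s15da_vt_pmap, map_c₄]
  simp only [map_add, map_mul, map_ofNat]

theorem s15da_c6'_pmap (Q : W.toAffine.Point) (p : ℕ) :
    s15d_c6' (W.map f) (s15da_pmap W f Q) p = f (s15d_c6' W Q p) := by
  unfold s15d_c6'
  rw [s15da_vt_pmap, s15da_vw_pmap, map_c₆, map_b₂]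
  simp only [map_add, map_mul, map_ofNat]

theorem s15da_j'_pmap (Q : W.toAffine.Point) (p : ℕ) :
    s15d_j' (W.map f) (s15da_pmap W f Q) p = f (s15d_j' W Q p) := by
  unfold s15d_j'
  rw [s15da_c4'_pmap, s15da_c6'_pmap]
  simp only [map_div₀, map_sub, map_mul, map_pow, map_ofNat]

theorem s15da_AN1_pmap (Q : W.toAffine.Point) (p : ℕ)
    (h : s15d_AN1 (W.map f) (s15da_pmap W f Q) p) : s15d_AN1 W Q p := by
  unfold s15d_AN1 at h ⊢
  rw [s15da_c4'_pmap, s15da_c6'_pmap, s15da_psiProd_pmap, map_Δ] at h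
  apply f.injective
  simp only [map_sub, map_mul, map_pow, map_ofNat]
  exact h

end pmap

local notation "Kb" => AlgebraicClosure ℚ

/-- **[D-TR]**. -/
theorem s15da_AnKb : s15d_AnKb := by
  intro p _ hp hp2 W hΔ Q hQ
  let ι : Kb →ₐ[ℚ] ℂ := IsAlgClosed.lift
  have hΔ' : (W.map ι.toRingHom).Δ ≠ 0 := by
    rw [map_Δ]
    exact (map_ne_zero_iff _ ι.toRingHom.injective).mpr hΔ
  have hQ' : addOrderOf (s15da_pmap W ι.toRingHom Q) = p := by
    rw [addOrderOf_injective (s15da_pmap W ι.toRingHom) (s15da_pmap_injective W ι.toRingHom) Q, hQ]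
  obtain ⟨h1, τ, h2, h3⟩ := s15da_An p hp hp2 (W.map ι.toRingHom) hΔ' _ hQ'
  refine ⟨s15da_AN1_pmap W ι.toRingHom Q p h1, ι, τ, ?_, ?_⟩
  · rw [h2, map_c₄, map_Δ]
    simp only [map_div₀, map_pow]
    rfl
  · rw [h3, s15da_j'_pmap]
    rfl

end Fermat.Agent.Lib.S15
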