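/-
(M) [D-RAT] (helper5, prefix `s15da_`): the contract `s15d_Rat`: Vélu's `j'` of a Galois-fixed
point is rational.
-/
import Mathlib
import Fermat.Agent.Lib.S15.DMod

set_option autoImplicit false

open WeierstrassCurve WeierstrassCurve.Affine

noncomputable section

namespace Fermat.Agent.Lib.S15

local notation "Kb" => AlgebraicClosure ℚ
local notation "GQ" => (AlgebraicClosure ℚ ≃ₐ[ℚ] AlgebraicClosure ℚ)

variable (V : WeierstrassCurve ℚ)

theorem s15da_px_smul (σ : GQ) (P : (V⁄Kb).Point) :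
    s15d_px (V.baseChange Kb) (σ • P) = σ (s15d_px (V.baseChange Kb) P) := by
  rcases P with _ | ⟨x, y, h⟩
  · exact (map_zero σ).symm
  · rfl

theorem s15da_py_smul (σ : GQ) (P : (V⁄Kb).Point) :
    s15d_py (V.baseChange Kb) (σ • P) = σ (s15d_py (V.baseChange Kb) P) := by
  rcases P with _ | ⟨x, y, h⟩
  · exact (map_zero σ).symm
  · rfl

theorem s15da_sigma_a₁ (σ : GQ) : σ (V.baseChange Kb).a₁ = (V.baseChange Kb).a₁ := by
  show σ (algebraMap ℚ Kb V.a₁) = _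
  rw [σ.commutes]; rfl

theorem s15da_sigma_a₃ (σ : GQ) : σ (V.baseChange Kb).a₃ = (V.baseChange Kb).a₃ := by
  show σ (algebraMap ℚ Kb V.a₃) = _
  rw [σ.commutes]; rfl

theorem s15da_sigma_b₂ (σ : GQ) : σ (V.baseChange Kb).b₂ = (V.baseChange Kb).b₂ := by
  unfold WeierstrassCurve.baseChange
  rw [map_b₂, σ.commutes]

theorem s15da_sigma_b₄ (σ : GQ) : σ (V.baseChange Kb).b₄ = (V.baseChange Kb).b₄ := by
  unfold WeierstrassCurve.baseChange
  rw [map_b₄, σ.commutes]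

theorem s15da_sigma_b₆ (σ : GQ) : σ (V.baseChange Kb).b₆ = (V.baseChange Kb).b₆ := by
  unfold WeierstrassCurve.baseChange
  rw [map_b₆, σ.commutes]

theorem s15da_sigma_c₄ (σ : GQ) : σ (V.baseChange Kb).c₄ = (V.baseChange Kb).c₄ := by
  unfold WeierstrassCurve.baseChange
  rw [map_c₄, σ.commutes]

theorem s15da_sigma_c₆ (σ : GQ) : σ (V.baseChange Kb).c₆ = (V.baseChange Kb).c₆ := by
  unfold WeierstrassCurve.baseChange
  rw [map_c₆, σ.commutes]

theorem s15da_t1_smul (σ : GQ) (P : (V⁄Kb).Point) :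
    s15d_t1 (V.baseChange Kb) (σ • P) = σ (s15d_t1 (V.baseChange Kb) P) := by
  unfold s15d_t1
  rw [s15da_px_smul]
  simp only [map_add, map_mul, map_pow, map_ofNat, s15da_sigma_b₂, s15da_sigma_b₄]

theorem s15da_u1_smul (σ : GQ) (P : (V⁄Kb).Point) :
    s15d_u1 (V.baseChange Kb) (σ • P) = σ (s15d_u1 (V.baseChange Kb) P) := by
  unfold s15d_u1
  rw [s15da_px_smul]
  simp only [map_add, map_mul, map_pow, map_ofNat, s15da_sigma_b₂, s15da_sigma_b₄,
    s15da_sigma_b₆]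

theorem s15da_smul_nsmul (σ : GQ) (k : ℕ) (P : (V⁄Kb).Point) : σ • (k • P) = k • (σ • P) :=
  (Point.map σ.toAlgHom).map_nsmul k P

theorem s15da_vt_smul (σ : GQ) (Q : (V⁄Kb).Point) (p : ℕ) :
    s15d_vt (V.baseChange Kb) (σ • Q) p = σ (s15d_vt (V.baseChange Kb) Q p) := by
  unfold s15d_vt
  rw [map_sum]
  refine Finset.sum_congr rfl fun k _ => ?_
  rw [← s15da_smul_nsmul, s15da_t1_smul]

theorem s15da_vw_smul (σ : GQ) (Q : (V⁄Kb).Point) (p : ℕ) :
    s15d_vw (V.baseChange Kb) (σ • Q) p = σ (s15d_vw (V.baseChange Kb) Q p) := by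
  unfold s15d_vw
  rw [map_sum]
  refine Finset.sum_congr rfl fun k _ => ?_
  rw [← s15da_smul_nsmul, s15da_t1_smul, s15da_u1_smul, s15da_px_smul, map_add, map_mul]

theorem s15da_j'_smul (σ : GQ) (Q : (V⁄Kb).Point) (p : ℕ) :
    s15d_j' (V.baseChange Kb) (σ • Q) p = σ (s15d_j' (V.baseChange Kb) Q p) := by
  unfold s15d_j' s15d_c4' s15d_c6'
  rw [s15da_vt_smul, s15da_vw_smul]
  simp only [map_div₀, map_sub, map_add, map_mul, map_pow, map_ofNat, s15da_sigma_c₄,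
    s15da_sigma_c₆, s15da_sigma_b₂]

theorem s15da_isGalois_Qbar : IsGalois ℚ Kb := by
  have h0 : (DivisionRing.toRatAlgebra : Algebra ℚ Kb) =
      AlgebraicClosure.instAlgebra ℚ := Subsingleton.elim _ _
  have h1 : Algebra.IsAlgebraic ℚ Kb := by
    have h := AlgebraicClosure.isAlgebraic ℚ
    rw [← h0] at h
    exact h
  have h2 : IsAlgClosure ℚ Kb := ⟨inferInstance, inferInstance⟩
  exact IsAlgClosure.isGalois ℚ Kb

/-- **[D-RAT]**. -/
theorem s15da_Rat : s15d_Rat := by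
  intro p W Q hQ
  have := s15da_isGalois_Qbar
  have hfix : ∀ σ : GQ,
      σ (s15d_j' ((W.map (Int.castRingHom ℚ)).baseChange Kb) Q p) =
        s15d_j' ((W.map (Int.castRingHom ℚ)).baseChange Kb) Q p := by
    intro σ
    rw [← s15da_j'_smul, hQ σ]
  obtain ⟨j₂, hj₂⟩ := (InfiniteGalois.mem_range_algebraMap_iff_fixed (k := ℚ) (K := Kb) _).mpr hfix
  exact ⟨j₂, hj₂⟩

end Fermat.Agent.Lib.S15
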