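import Fermat.Agent.Lib.S15.BCusp
import Fermat.Agent.Lib.S15.DMod
import Fermat.Agent.Lib.S29.DCInj
import Fermat.Agent.Lib.S17.IVal

set_option autoImplicit false
set_option linter.unusedSectionVars false
set_option linter.unusedVariables false
set_option linter.style.haveILetI false
set_option synthInstance.maxHeartbeats 400000

noncomputable section

namespace Fermat.Agent.Lib.S15

open ModularCurve AlgebraicCurve Fermat.Agent.Lib.FF Fermat.Agent.Lib.S29 Fermat.Agent.Lib.S17

local notation "Kb" => AlgebraicClosure ℚ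

/-! ### Relations over `ℚ` imply relations over `ℚ̄` (linear disjointness) -/

section Relations

variable {σ : Type*}

/-- decomposition of a polynomial over `ℚ̄` along a `ℚ`-basis of `ℚ̄`. -/
theorem s15b_decomp {I : Type*} (b : Module.Basis I ℚ Kb) (G : MvPolynomial σ Kb) :
    ∃ (s : Finset I) (Gi : I → MvPolynomial σ ℚ),
      G = ∑ i ∈ s, MvPolynomial.C (b i) * MvPolynomial.map (algebraMap ℚ Kb) (Gi i) := by
  classical
  let s : Finset I := G.support.biUnion (fun m => (b.repr (G.coeff m)).support)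
  let Gi : I → MvPolynomial σ ℚ := fun i =>
    ∑ m ∈ G.support, MvPolynomial.monomial m (b.repr (G.coeff m) i)
  have hcoeff : ∀ i m, (Gi i).coeff m = b.repr (G.coeff m) i := by
    intro i m
    simp only [Gi, MvPolynomial.coeff_sum, MvPolynomial.coeff_monomial]
    rw [Finset.sum_ite_eq' G.support m]
    split_ifs with hm
    · rfl
    · rw [MvPolynomial.notMem_support_iff.mp hm, map_zero]
      rfl
  refine ⟨s, Gi, ?_⟩
  ext m
  rw [MvPolynomial.coeff_sum]
  simp only [MvPolynomial.coeff_C_mul, MvPolynomial.coeff_map, hcoeff]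
  by_cases hm : m ∈ G.support
  · have hsub : (b.repr (G.coeff m)).support ⊆ s := by
      intro i hi
      exact Finset.mem_biUnion.mpr ⟨m, hm, hi⟩
    conv_lhs => rw [← b.linearCombination_repr (G.coeff m)]
    rw [Finsupp.linearCombination_apply, Finsupp.sum, Finset.sum_subset hsub (fun i _ hi => by
      rw [Finsupp.notMem_support_iff.mp hi, zero_smul])]
    refine Finset.sum_congr rfl (fun i _ => ?_)
    rw [Algebra.smul_def, mul_comm]
  · rw [MvPolynomial.notMem_support_iff.mp hm]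
    simp

variable {p : ℕ} [NeZero p]

/-- **relations over `ℚ` between `j(q)`, `j(q^p)` extend to `ℚ̄`.** -/
theorem s15b_rel_Kb {j₁ j₂ : Kb} (hrel : s15d_Rel p j₁ j₂) (G : MvPolynomial (Fin 2) Kb)
    (hG : MvPolynomial.aeval ![coeffEmb Kb jq, coeffEmb Kb (qExpand ℚ p jq)] G = 0) :
    MvPolynomial.aeval ![j₁, j₂] G = 0 := by
  classical
  obtain ⟨s, Gi, hdec⟩ := s15b_decomp (Module.Basis.ofVectorSpace ℚ Kb) G
  set b := Module.Basis.ofVectorSpace ℚ Kb with hb
  -- evaluation along the decomposition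
  have key : ∀ {R : Type} [CommRing R] (φ : Kb →+* R) (pt : Fin 2 → R),
      MvPolynomial.eval₂ φ pt G =
        ∑ i ∈ s, φ (b i) * MvPolynomial.eval₂ (φ.comp (algebraMap ℚ Kb)) pt (Gi i) := by
    intro R _ φ pt
    conv_lhs => rw [hdec]
    rw [MvPolynomial.eval₂_sum]
    refine Finset.sum_congr rfl (fun i _ => ?_)
    rw [MvPolynomial.eval₂_mul, MvPolynomial.eval₂_C, MvPolynomial.eval₂_map]
  -- the rational series
  have hser : ∀ i, MvPolynomial.eval₂ ((algebraMap Kb (LaurentSeries Kb)).comp (algebraMap ℚ Kb))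
      ![coeffEmb Kb jq, coeffEmb Kb (qExpand ℚ p jq)] (Gi i) =
      coeffEmb Kb (MvPolynomial.aeval ![jq, qExpand ℚ p jq] (Gi i)) := by
    intro i
    rw [MvPolynomial.aeval_def, MvPolynomial.eval₂_comp_left (coeffEmb Kb)]
    congr 1
    · exact RingHom.ext_rat _ _
    · funext k
      fin_cases k <;> rfl
  have hzero : ∀ i ∈ s, MvPolynomial.aeval ![jq, qExpand ℚ p jq] (Gi i) = 0 := by
    apply s29c_ld_series b s (fun i => MvPolynomial.aeval ![jq, qExpand ℚ p jq] (Gi i))
    rw [MvPolynomial.aeval_def, key] at hG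
    rw [← hG]
    refine Finset.sum_congr rfl (fun i _ => ?_)
    rw [hser, mul_comm]
    rfl
  rw [MvPolynomial.aeval_def, key]
  refine Finset.sum_eq_zero (fun i hi => ?_)
  have h1 := hrel (Gi i) (hzero i hi)
  rw [MvPolynomial.aeval_def] at h1
  have h2 : (algebraMap Kb Kb).comp (algebraMap ℚ Kb) = algebraMap ℚ Kb := RingHom.ext_rat _ _
  rw [h2, h1, mul_zero]

end Relations

/-! ### Existence of a place with given values -/

section Exists

theorem s15b_J1_sub_ne_zero (N : ℕ) [NeZero N] (c : Kb) :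
    s15d_J1 N - algebraMap Kb ↥(modularFunctionFieldBar N) c ≠ 0 := by
  intro h0
  have h1 : s15d_J1 N = algebraMap Kb ↥(modularFunctionFieldBar N) c := sub_eq_zero.mp h0
  have h2 := congrArg (s15b_inf N).ord h1
  rw [s15b_inf_ord_J1, ff_ord_algebraMap] at h2
  norm_num at h2

theorem s15b_J2_sub_ne_zero (N : ℕ) [NeZero N] (c : Kb) :
    s15d_J2 N - algebraMap Kb ↥(modularFunctionFieldBar N) c ≠ 0 := by
  intro h0
  have h1 : s15d_J2 N = algebraMap Kb ↥(modularFunctionFieldBar N) c := sub_eq_zero.mp h0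
  have h2 := congrArg (s15b_inf N).ord h1
  rw [s15b_inf_ord_J2, ff_ord_algebraMap] at h2
  have : (N : ℤ) ≠ 0 := by exact_mod_cast NeZero.ne N
  omega

/-- **[D-PLX]** `s15d_PlaceExists`. -/
theorem s15b_PlaceExists : s15d_PlaceExists := by
  intro p _ hp j₁ j₂ hrel
  classical
  set ev : MvPolynomial (Fin 2) Kb →ₐ[Kb] ↥(modularFunctionFieldBar p) :=
    MvPolynomial.aeval ![s15d_J1 p, s15d_J2 p] with hev
  let B : Subalgebra Kb ↥(modularFunctionFieldBar p) := ev.range
  let A : Subring ↥(modularFunctionFieldBar p) := B.toSubring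
  have e1 : ev (MvPolynomial.X 0) = s15d_J1 p := by rw [hev, MvPolynomial.aeval_X]; rfl
  have e2 : ev (MvPolynomial.X 1) = s15d_J2 p := by rw [hev, MvPolynomial.aeval_X]; rfl
  have hJ1 : s15d_J1 p ∈ A := ⟨MvPolynomial.X 0, e1⟩
  have hJ2 : s15d_J2 p ∈ A := ⟨MvPolynomial.X 1, e2⟩
  have hc : ∀ c : Kb, algebraMap Kb ↥(modularFunctionFieldBar p) c ∈ A :=
    fun c => B.algebraMap_mem c
  let f₁ : A := ⟨s15d_J1 p - algebraMap Kb ↥(modularFunctionFieldBar p) j₁,
    A.sub_mem hJ1 (hc j₁)⟩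
  let f₂ : A := ⟨s15d_J2 p - algebraMap Kb ↥(modularFunctionFieldBar p) j₂,
    A.sub_mem hJ2 (hc j₂)⟩
  let I : Ideal A := Ideal.span {f₁, f₂}
  have hI : I ≠ ⊤ := by
    intro htop
    have h1 : (1 : A) ∈ I := by rw [htop]; trivial
    obtain ⟨a, a', haa'⟩ := Ideal.mem_span_pair.mp h1
    obtain ⟨Pa, hPa⟩ := a.2
    obtain ⟨Pa', hPa'⟩ := a'.2
    let G : MvPolynomial (Fin 2) Kb :=
      Pa * (MvPolynomial.X 0 - MvPolynomial.C j₁) + Pa' * (MvPolynomial.X 1 - MvPolynomial.C j₂) - 1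
    have hGF : ev G = 0 := by
      have h2 := congrArg (fun y : A => (y : ↥(modularFunctionFieldBar p))) haa'
      simp only [Subring.coe_add, Subring.coe_mul, Subring.coe_one, f₁, f₂] at h2
      simp only [G, map_sub, map_add, map_mul, map_one]
      have e3 : ∀ c : Kb, ev (MvPolynomial.C c) =
          algebraMap Kb ↥(modularFunctionFieldBar p) c := fun c => by
        rw [hev, MvPolynomial.aeval_C]
      have hPa2 : ev Pa = (a : ↥(modularFunctionFieldBar p)) := hPa
      have hPa2' : ev Pa' = (a' : ↥(modularFunctionFieldBar p)) := hPa'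
      rw [e1, e2, e3, e3, hPa2, hPa2', h2, sub_self]
    have hGS : MvPolynomial.aeval ![coeffEmb Kb jq, coeffEmb Kb (qExpand ℚ p jq)] G = 0 := by
      have h3 : (MvPolynomial.aeval ![coeffEmb Kb jq, coeffEmb Kb (qExpand ℚ p jq)] :
          MvPolynomial (Fin 2) Kb →ₐ[Kb] LaurentSeries Kb) =
          (modularFunctionFieldBar p).val.comp ev := by
        rw [hev, MvPolynomial.comp_aeval]
        congr 1
        funext k
        fin_cases k <;> rfl
      rw [h3, AlgHom.comp_apply, hGF, map_zero]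
    have h4 := s15b_rel_Kb hrel G hGS
    simp only [G, map_sub, map_add, map_mul, map_one, MvPolynomial.aeval_X, MvPolynomial.aeval_C,
      Matrix.cons_val_zero, Matrix.cons_val_one] at h4
    simp at h4
  obtain ⟨O, hAO, hnon⟩ := Ideal.image_subset_nonunits_valuationSubring I hI
  have hf₁ : s15d_J1 p - algebraMap Kb ↥(modularFunctionFieldBar p) j₁ ∈ O.nonunits :=
    hnon ⟨f₁, Ideal.subset_span (by simp), rfl⟩
  have hf₂ : s15d_J2 p - algebraMap Kb ↥(modularFunctionFieldBar p) j₂ ∈ O.nonunits :=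
    hnon ⟨f₂, Ideal.subset_span (by simp), rfl⟩
  have hK : ∀ a : Kb, algebraMap Kb ↥(modularFunctionFieldBar p) a ∈ O := fun a => hAO (hc a)
  have hinv₁ := ((O.mem_nonunits_iff_or).mp hf₁).resolve_left (s15b_J1_sub_ne_zero p j₁)
  have hinv₂ := ((O.mem_nonunits_iff_or).mp hf₂).resolve_left (s15b_J2_sub_ne_zero p j₂)
  have hO : O ≠ ⊤ := by
    intro h
    exact hinv₁ (h ▸ ValuationSubring.mem_top _)
  obtain ⟨P, hP⟩ := s17i_val (s15d_J1 p) O hK hO
  refine ⟨P, ?_, ?_⟩
  · rw [ff_ord_pos_iff P (s15b_J1_sub_ne_zero p j₁), hP]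
    exact ⟨ValuationSubring.nonunits_subset hf₁, hinv₁⟩
  · rw [ff_ord_pos_iff P (s15b_J2_sub_ne_zero p j₂), hP]
    exact ⟨ValuationSubring.nonunits_subset hf₂, hinv₂⟩

end Exists

end Fermat.Agent.Lib.S15
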