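import Fermat.Agent.Lib.S15.BPlace

set_option autoImplicit false
set_option linter.unusedSectionVars false
set_option linter.unusedVariables false
set_option linter.style.haveILetI false

noncomputable section

namespace Fermat.Agent.Lib.S15

open ModularCurve AlgebraicCurve WeierstrassCurve WeierstrassCurve.Affine

local notation "Kb" => AlgebraicClosure ℚ
local notation "GQ" => (AlgebraicClosure ℚ ≃ₐ[ℚ] AlgebraicClosure ℚ)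

/-- **[D] from [RED23] and [D-MOD]** (the value lemma, the dichotomy and the place lemma are
proved: `s15b_Val`, `s15b_Dich`, `s15b_Place`).  Same wiring as `s15d_D_of`, with `s15d_Place`
used only for `p ≥ 5`. -/
theorem s15b_D_of (h23 : m15_Red23) (hM : s15d_Mod) : m15_D := by
  intro p _ hp hp5 c W hΔ Q hQfix hQord
  obtain ⟨j₂, ⟨x, hx⟩, hdich⟩ := hM p hp hp5 W hΔ Q hQfix hQord
  by_cases hex : ∃ ℓ : ℕ, ℓ.Prime ∧ ℓ ≠ p ∧ (ℓ : ℤ) ∣ W.Δ ∧ ¬ (ℓ : ℤ) ∣ W.c₄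
  · obtain ⟨ℓ₀, hℓ₀, hℓ₀p, hℓ₀Δ, hℓ₀c₄⟩ := hex
    refine ⟨x, s15b_Place h23 p hp hp5 (s15d_j W) j₂ x hx
      ⟨ℓ₀, hℓ₀, hℓ₀p, s15d_padicValRat_j_neg hΔ hℓ₀ hℓ₀Δ hℓ₀c₄⟩, ?_⟩
    intro ℓ hℓ hℓp hℓΔ hℓc₄ A hA h
    have hval := s15b_Val p hp c ℓ hℓ hℓp A hA h x _ _ hx (s15d_j_not_mem hΔ hℓ hℓΔ hℓc₄ hA)
    have hd := hdich ℓ hℓ hℓp hℓΔ hℓc₄ A hA h
    exact ⟨fun hin => hval.1 (hd.1 hin), fun hnin => hval.2 (hd.2 hnin)⟩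
  · obtain ⟨c', hc'inf, -, -⟩ := s15b_cuspNode p hp
    refine ⟨c'.inf, hc'inf, ?_⟩
    intro ℓ hℓ hℓp hℓΔ hℓc₄
    exact absurd ⟨ℓ, hℓ, hℓp, hℓΔ, hℓc₄⟩ hex

end Fermat.Agent.Lib.S15
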