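/-
(M) [D-BR] (helper5, prefix `s15da_`): the contract `s15d_Bridge`: every polynomial relation over
`ℚ` between the formal series `jq`, `jq(q^p)` holds for `j(τ)`, `j(pτ)`.
-/
import Mathlib
import Fermat.Agent.Lib.S15.DMod

set_option autoImplicit false

open ModularCurve Fermat.Agent.Lib.FF UpperHalfPlane

noncomputable section

namespace Fermat.Agent.Lib.S15

/-- evaluation of a polynomial relation on the two analytic functions. -/
def s15da_evalFun (p : ℕ) [NeZero p] (G : MvPolynomial (Fin 2) ℚ) : ℍ → ℂ :=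
  fun z => MvPolynomial.aeval ![ffj_j z, ffb_jd p z] G

theorem s15da_isLaurent_evalFun (p : ℕ) [NeZero p] (G : MvPolynomial (Fin 2) ℚ) :
    ffb_IsLaurent (s15da_evalFun p G)
      (coeffMap (algebraMap ℚ ℂ) (MvPolynomial.aeval ![jq, qExpand ℚ p jq] G)) := by
  induction G using MvPolynomial.induction_on with
  | C a =>
    have e1 : s15da_evalFun p (MvPolynomial.C a) = fun _ => (algebraMap ℚ ℂ a) := by
      funext z
      simp [s15da_evalFun]
    have e2 : coeffMap (algebraMap ℚ ℂ)
        (MvPolynomial.aeval ![jq, qExpand ℚ p jq] (MvPolynomial.C a)) =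
          HahnSeries.C (algebraMap ℚ ℂ a) := by
      have hC : (algebraMap ℚ (LaurentSeries ℚ)) a = HahnSeries.C a :=
        (eq_ratCast _ a).trans (eq_ratCast (HahnSeries.C : ℚ →+* LaurentSeries ℚ) a).symm
      rw [MvPolynomial.aeval_C, hC, HahnSeries.C_apply, HahnSeries.C_apply, coeffMap_single]
    rw [e1, e2]
    exact ffb_IsLaurent.const _
  | add G₁ G₂ h₁ h₂ =>
    have e1 : s15da_evalFun p (G₁ + G₂) = s15da_evalFun p G₁ + s15da_evalFun p G₂ := by
      funext z
      simp [s15da_evalFun]
    rw [e1, map_add, map_add]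
    exact h₁.add h₂
  | mul_X G i h =>
    have e1 : s15da_evalFun p (G * MvPolynomial.X i) =
        s15da_evalFun p G * (fun z => ![ffj_j z, ffb_jd p z] i) := by
      funext z
      simp [s15da_evalFun]
    rw [e1, map_mul, map_mul, MvPolynomial.aeval_X]
    refine h.mul ?_
    fin_cases i
    · exact ffb_isLaurent_j
    · exact ffb_isLaurent_jd p

/-- **[D-BR]**. -/
theorem s15da_Bridge : s15d_Bridge := by
  intro p _ τ G hG
  have h := s15da_isLaurent_evalFun p G
  rw [hG, map_zero] at h
  have h0 := h.eq_zero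
  have := congrFun h0 τ
  exact this

end Fermat.Agent.Lib.S15
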