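/-
(M) [D-MOD] wiring (helper5): `s15d_Mod` from the three remaining external contracts
`s15d_PlaceExists`, `s15d_Dich`, `s15d_Red`; the contracts `s15d_AnKb`, `s15d_Bridge`, `s15d_Rat`
are discharged here.
-/
import Mathlib
import Fermat.Agent.Lib.S15.DTransfer
import Fermat.Agent.Lib.S15.DBridge
import Fermat.Agent.Lib.S15.DRat

set_option autoImplicit false

namespace Fermat.Agent.Lib.S15

/-- **[D-MOD]** from place existence, the dichotomy and the reduction step. -/
theorem s15da_Mod_of (hPlx : s15d_PlaceExists) (hDich : s15d_Dich) (hRed : s15d_Red) : s15d_Mod :=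
  s15d_Mod_of s15da_AnKb s15da_Bridge hPlx s15da_Rat hDich hRed

end Fermat.Agent.Lib.S15
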