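/-
(M) node [D] (`m15_D` of `MGraph.lean`) from `m15_Red23` alone: assembly of helper5's [D-MOD]
contracts (`DWire.lean`) with helper2's (`BVal`, `BPlace`, `BPlx`, `BRedD`, `BWire`).
-/
import Fermat.Agent.Lib.S15.BWire
import Fermat.Agent.Lib.S15.BPlx
import Fermat.Agent.Lib.S15.BRedD
import Fermat.Agent.Lib.S15.DWire

set_option autoImplicit false

namespace Fermat.Agent.Lib.S15

/-- **[D]** the moduli dictionary, from the place reductions at `2` and `3`. -/
theorem s15b_D (h23 : m15_Red23) : m15_D :=
  s15b_D_of h23 (s15da_Mod_of s15b_PlaceExists s15b_Dich s15b_Red)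

end Fermat.Agent.Lib.S15
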