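/-
(M) programme, node [RED23] (helper3, prefix `m15g_`), part A: ABSTRACT DESCENT OF A PLACE REDUCTION
along a finite extension (idea of helper9, #3105).

Setting: function fields `F ⊆ F'` over `K` and `E ⊆ E'` over `k` (all places of degree one), a map
`r' : Place K F' → Place k E'` which is a "place reduction" for a family `Red'` of pairs
`(z, z̄) ∈ F' × E'`.  With `C = π^* π_*` on `Div F'` and `C̄ = π̄^* π̄_*` on `Div E'` the difference
`δ' = r'_* C - C̄ r'_*` kills the principal divisors (norm formulas + `Red'` closed under norms), is
bounded, hence constant on points (bounded-homomorphism lemma), hence `0`; so `r'` maps the fibre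
over a place of `F` into ONE fibre over a place of `E`: `r' ` descends to `r : Place K F → Place k E`,
and `r` is a place reduction for every family `Red` which maps into `Red'`.

This file: generalities on finitely supported functions and effective divisors.
-/
import Mathlib
import Fermat.Prelude.Def_AlgebraicCurve_DivisorPushPull

set_option autoImplicit false
set_option linter.unusedSectionVars false
set_option linter.unusedVariables false

noncomputable section

namespace Fermat.Agent.Lib.S15

open AlgebraicCurve

section Finsupp

variable {X Y : Type*}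

theorem m15g_mapDomain_apply [DecidableEq Y] (r : X → Y) (D : X →₀ ℤ) (R : Y) :
    Finsupp.mapDomain r D R = ∑ w ∈ D.support, if r w = R then D w else 0 := by
  rw [Finsupp.mapDomain, Finsupp.sum_apply, Finsupp.sum]
  refine Finset.sum_congr rfl fun w _ => ?_
  rw [Finsupp.single_apply]

theorem m15g_mapDomain_nonneg (r : X → Y) {D : X →₀ ℤ} (hD : ∀ w, 0 ≤ D w) (R : Y) :
    0 ≤ Finsupp.mapDomain r D R := by
  classical
  rw [m15g_mapDomain_apply]
  refine Finset.sum_nonneg fun w _ => ?_
  split_ifs
  · exact hD w
  · exact le_rfl

theorem m15g_le_mapDomain (r : X → Y) {D : X →₀ ℤ} (hD : ∀ w, 0 ≤ D w) (w : X) :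
    D w ≤ Finsupp.mapDomain r D (r w) := by
  classical
  rw [m15g_mapDomain_apply]
  by_cases hw : w ∈ D.support
  · have := Finset.single_le_sum (f := fun w' => if r w' = r w then D w' else 0)
      (fun w' _ => by
        show 0 ≤ if r w' = r w then D w' else 0
        split_ifs
        · exact hD w'
        · exact le_rfl) hw
    simpa using this
  · rw [Finsupp.notMem_support_iff] at hw
    rw [hw]
    refine Finset.sum_nonneg fun w' _ => ?_
    split_ifs
    · exact hD w'
    · exact le_rfl

end Finsupp

section Effective

variable {K F : Type*} [Field K] [Field F] [Algebra K F]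

theorem m15g_degree_eq_sum (hdeg : ∀ v : Place K F, v.deg = 1) (D : Divisor K F) :
    Divisor.degree D = ∑ v ∈ D.support, D v := by
  rw [Divisor.degree, Finsupp.liftAddHom_apply, Finsupp.sum]
  refine Finset.sum_congr rfl fun v _ => ?_
  rw [AddMonoidHom.mulRight_apply, hdeg, Nat.cast_one, mul_one]

theorem m15g_le_degree (hdeg : ∀ v : Place K F, v.deg = 1) {D : Divisor K F}
    (hD : ∀ v, 0 ≤ D v) (v : Place K F) : D v ≤ Divisor.degree D := by
  classical
  rw [m15g_degree_eq_sum hdeg]
  by_cases hv : v ∈ D.support
  · exact Finset.single_le_sum (f := fun v => D v) (fun v' _ => hD v') hv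
  · rw [Finsupp.notMem_support_iff] at hv
    rw [hv]
    exact Finset.sum_nonneg fun v' _ => hD v'

theorem m15g_eq_zero_of_degree (hdeg : ∀ v : Place K F, v.deg = 1) {D : Divisor K F}
    (hD : ∀ v, 0 ≤ D v) (h0 : Divisor.degree D = 0) : D = 0 := by
  ext v
  have h1 := m15g_le_degree hdeg hD v
  rw [h0] at h1
  exact le_antisymm h1 (hD v)

variable {k E : Type*} [Field k] [Field E] [Algebra k E]

theorem m15g_degree_mapDomain (hdeg : ∀ v : Place K F, v.deg = 1)
    (hdegE : ∀ v : Place k E, v.deg = 1) (r : Place K F → Place k E) (D : Divisor K F) :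
    Divisor.degree (Finsupp.mapDomain r D) = Divisor.degree D := by
  induction D using Finsupp.induction with
  | zero => simp
  | single_add P n D _ _ ih =>
    rw [Finsupp.mapDomain_add, map_add, map_add, ih, Finsupp.mapDomain_single,
      Divisor.degree_single, Divisor.degree_single, hdeg, hdegE]

end Effective

end Fermat.Agent.Lib.S15
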