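/-
(M) programme, node [RED23] (helper3, prefix `m15g_`), part B: the operator `C = π^* π_*` on the
divisors of the upper field of a finite extension of function fields all of whose places have degree
one: values on points, effectivity, degree, action on principal divisors.
-/
import Mathlib
import Fermat.Prelude.Def_AlgebraicCurve_DivisorPushPull
import Fermat.Agent.Lib.S15.GDescA

set_option autoImplicit false
set_option linter.unusedSectionVars false
set_option linter.unusedVariables false

noncomputable section

namespace Fermat.Agent.Lib.S15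

open AlgebraicCurve

section COp

variable {K F F' : Type*} [Field K] [Field F] [Field F']
  [Algebra K F] [Algebra K F'] [Algebra F F'] [IsScalarTower K F F']
  [Algebra.IsIntegral F F'] [HasPrincipalDivisors K F']

variable (F) in
/-- `C = π^* π_*`. -/
def m15g_C : Divisor K F' →+ Divisor K F' :=
  (Divisor.pullback F').comp (Divisor.pushforward F)

theorem m15g_inertiaDeg_eq_one (hdeg' : ∀ w : Place K F', w.deg = 1) (w : Place K F') :
    w.inertiaDeg F = 1 := by
  have h := w.deg_restrict_mul_inertiaDeg (F := F)
  rw [hdeg' w] at h
  exact Nat.eq_one_of_mul_eq_one_left h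

theorem m15g_deg_restrict_eq_one (hdeg' : ∀ w : Place K F', w.deg = 1) (w : Place K F') :
    (w.restrict F).deg = 1 := by
  have h := w.deg_restrict_mul_inertiaDeg (F := F)
  rw [hdeg' w] at h
  exact Nat.eq_one_of_mul_eq_one_right h

theorem m15g_C_single (hdeg' : ∀ w : Place K F', w.deg = 1) (w : Place K F') :
    m15g_C F (Finsupp.single w 1) = Divisor.pullback F' (Finsupp.single (w.restrict F) 1) := by
  rw [m15g_C, AddMonoidHom.comp_apply, Divisor.pushforward_single, m15g_inertiaDeg_eq_one hdeg',
    Nat.cast_one, mul_one]

theorem m15g_pullback_single_nonneg (v : Place K F) (w : Place K F') :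
    0 ≤ Divisor.pullback F' (Finsupp.single v 1) w := by
  classical
  rw [Divisor.pullback_apply]
  refine mul_nonneg (Nat.cast_nonneg _) ?_
  rw [Finsupp.single_apply]
  split_ifs <;> norm_num

theorem m15g_pullback_single_pos (w : Place K F') :
    0 < Divisor.pullback F' (Finsupp.single (w.restrict F) 1) w := by
  rw [Divisor.pullback_single_apply_of_restrict_eq rfl, one_mul]
  exact_mod_cast w.ramificationIndex_pos (F := F)

theorem m15g_C_single_nonneg (hdeg' : ∀ w : Place K F', w.deg = 1) (w w' : Place K F') :
    0 ≤ m15g_C F (Finsupp.single w 1) w' := by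
  rw [m15g_C_single hdeg']
  exact m15g_pullback_single_nonneg _ _

theorem m15g_C_single_pos (hdeg' : ∀ w : Place K F', w.deg = 1) {w w' : Place K F'}
    (h : w'.restrict F = w.restrict F) : 0 < m15g_C F (Finsupp.single w 1) w' := by
  rw [m15g_C_single hdeg', ← h]
  exact m15g_pullback_single_pos w'

theorem m15g_C_single_eq_zero (hdeg' : ∀ w : Place K F', w.deg = 1) {w w' : Place K F'}
    (h : w'.restrict F ≠ w.restrict F) : m15g_C F (Finsupp.single w 1) w' = 0 := by
  rw [m15g_C_single hdeg']
  exact Divisor.pullback_single_apply_of_restrict_ne h 1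

theorem m15g_degree_C_single [FundamentalIdentity K F F'] (hdeg' : ∀ w : Place K F', w.deg = 1)
    (w : Place K F') :
    Divisor.degree (m15g_C F (Finsupp.single w 1)) = (Module.finrank F F' : ℤ) := by
  rw [m15g_C_single hdeg', Divisor.degree_pullback, Divisor.degree_single,
    m15g_deg_restrict_eq_one hdeg', Nat.cast_one, mul_one, mul_one]

/-- `C (div z) = div (N z)`. -/
theorem m15g_C_principal [Module.Finite F F'] (hN : Divisor.PushforwardNormFormula K F F')
    {z : F'} (hz : z ≠ 0) {D : Divisor K F'} (hD : ∀ w, D w = w.ord z) (w : Place K F') :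
    m15g_C F D w = w.ord (algebraMap F F' (Algebra.norm F z)) := by
  rw [m15g_C, AddMonoidHom.comp_apply]
  exact Divisor.pullback_apply_eq_ord (fun v => hN z hz D hD v) w

end COp

end Fermat.Agent.Lib.S15
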