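/-
(M) programme, node [RED23] (helper3, prefix `m15g_`), part C: THE ABSTRACT DESCENT LEMMA
(idea of helper9, #3105; see the header of `GDescA.lean`).
-/
import Mathlib
import Fermat.Prelude.Def_AlgebraicCurve_DivisorPushPull
import Fermat.Agent.Lib.S15.GDescB

set_option autoImplicit false
set_option linter.unusedSectionVars false
set_option linter.unusedVariables false

noncomputable section

namespace Fermat.Agent.Lib.S15

open AlgebraicCurve

section Descent

variable {K F F' : Type*} [Field K] [Field F] [Field F']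
  [Algebra K F] [Algebra K F'] [Algebra F F'] [IsScalarTower K F F']
  [Algebra.IsIntegral F F'] [HasPrincipalDivisors K F'] [Module.Finite F F']
  [FundamentalIdentity K F F']
variable {k E E' : Type*} [Field k] [Field E] [Field E']
  [Algebra k E] [Algebra k E'] [Algebra E E'] [IsScalarTower k E E']
  [Algebra.IsIntegral E E'] [HasPrincipalDivisors k E'] [Module.Finite E E']
  [FundamentalIdentity k E E']

/-- every place of the lower field has a place above it. -/
theorem m15g_exists_above (hdegF : ∀ v : Place K F, v.deg = 1) (v : Place K F) :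
    ∃ w : Place K F', w.restrict F = v := by
  by_contra hno
  push Not at hno
  have hempty : v.fiber F' = ∅ := by
    rw [Finset.eq_empty_iff_forall_notMem]
    intro w hw
    exact hno w (Place.mem_fiber.mp hw)
  have h := FundamentalIdentity.sum_ramificationIndex_mul_deg (K := K) (F := F) (F' := F') v
  rw [hempty, Finset.sum_empty, hdegF, Nat.cast_one, mul_one] at h
  have hpos : 0 < Module.finrank F F' := Module.finrank_pos
  have : (Module.finrank F F' : ℤ) = 0 := h.symm
  omega

/-- `∑_{w | v} e(w | v) = [F' : F]`. -/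
theorem m15g_sum_ramificationIndex (hdegF : ∀ v : Place K F, v.deg = 1)
    (hdegF' : ∀ w : Place K F', w.deg = 1) (v : Place K F) :
    ∑ w ∈ v.fiber F', (w.ramificationIndex F : ℤ) = (Module.finrank F F' : ℤ) := by
  have h := FundamentalIdentity.sum_ramificationIndex_mul_deg (K := K) (F := F) (F' := F') v
  rw [hdegF, Nat.cast_one, mul_one] at h
  rw [← h]
  refine Finset.sum_congr rfl fun w _ => ?_
  rw [hdegF', Nat.cast_one, mul_one]

set_option maxHeartbeats 1000000 in
/-- **The abstract descent lemma.** -/
theorem m15g_descent_abstract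
    (hN : Divisor.PushforwardNormFormula K F F') (hNb : Divisor.PushforwardNormFormula k E E')
    (hd : Module.finrank F F' = Module.finrank E E')
    (hdegF : ∀ v : Place K F, v.deg = 1)
    (hdegF' : ∀ w : Place K F', w.deg = 1) (hdegE' : ∀ w : Place k E', w.deg = 1)
    (r' : Place K F' → Place k E')
    (hBC : ∀ δ : Divisor K F' →+ Divisor k E',
      (∀ D ∈ Divisor.principal (K := K) (F := F'), δ D = 0) →
      (∃ C : ℤ, ∀ (P : Place K F') (Q : Place k E'), |δ (Finsupp.single P 1) Q| ≤ C) →
      ∀ P P' : Place K F', δ (Finsupp.single P 1) = δ (Finsupp.single P' 1))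
    (Red' : F' → E' → Prop)
    (hne' : ∀ z zb, Red' z zb → z ≠ 0 ∧ zb ≠ 0)
    (hcons' : ∀ z zb, Red' z zb → ∀ D : Divisor K F', (∀ w, D w = w.ord z) →
      ∀ R, Finsupp.mapDomain r' D R = R.ord zb)
    (hgen' : Divisor.principal (K := K) (F := F') ≤
      AddSubgroup.closure {D | ∃ z zb, Red' z zb ∧ ∀ w, D w = w.ord z})
    (hnorm : ∀ z zb, Red' z zb →
      Red' (algebraMap F F' (Algebra.norm F z)) (algebraMap E E' (Algebra.norm E zb)))
    (hnc : ∃ w₁ w₂ : Place K F', (r' w₁).restrict E ≠ (r' w₂).restrict E) :
    ∃ r : Place K F → Place k E, (∀ w : Place K F', r (w.restrict F) = (r' w).restrict E) ∧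
      ∀ (y : F) (yb : E), Red' (algebraMap F F' y) (algebraMap E E' yb) →
        ∀ D : Divisor K F, (∀ v, D v = v.ord y) →
          ∀ Q, Finsupp.mapDomain r D Q = Q.ord yb := by
  classical
  set d : ℤ := (Module.finrank F F' : ℤ) with hddef
  have hdb : (Module.finrank E E' : ℤ) = d := by rw [hddef, hd]
  have hdpos : 0 < d := by
    rw [hddef]
    exact_mod_cast (Module.finrank_pos : 0 < Module.finrank F F')
  set rmap : Divisor K F' →+ Divisor k E' := Finsupp.mapDomain.addMonoidHom r' with hrmap
  have hrmap_apply : ∀ D, rmap D = Finsupp.mapDomain r' D := fun D => rfl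
  set δ : Divisor K F' →+ Divisor k E' := rmap.comp (m15g_C F) - (m15g_C E).comp rmap with hδ
  have hδ_apply : ∀ D, δ D = Finsupp.mapDomain r' (m15g_C F D) -
      m15g_C E (Finsupp.mapDomain r' D) := fun D => rfl
  -- (a) `δ` kills the principal divisors
  have hδprin : ∀ D ∈ Divisor.principal (K := K) (F := F'), δ D = 0 := by
    intro D hD
    have hD' := hgen' hD
    clear hD
    induction hD' using AddSubgroup.closure_induction with
    | mem D hD =>
      obtain ⟨z, zb, hR, hDz⟩ := hD
      obtain ⟨hz, hzb⟩ := hne' z zb hR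
      rw [hδ_apply]
      ext R
      have h1 : Finsupp.mapDomain r' (m15g_C F D) R =
          R.ord (algebraMap E E' (Algebra.norm E zb)) :=
        hcons' _ _ (hnorm z zb hR) (m15g_C F D) (fun w => m15g_C_principal hN hz hDz w) R
      have h2 : m15g_C E (Finsupp.mapDomain r' D) R =
          R.ord (algebraMap E E' (Algebra.norm E zb)) :=
        m15g_C_principal hNb hzb (fun R' => hcons' z zb hR D hDz R') R
      rw [Finsupp.sub_apply, h1, h2, sub_self]
      rfl
    | zero => exact map_zero δ
    | add D D' _ _ h h' => rw [map_add, h, h', add_zero]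
    | neg D _ h => rw [map_neg, h, neg_zero]
  -- (b) the two effective divisors attached to a point
  have hX0 : ∀ w R, 0 ≤ Finsupp.mapDomain r' (m15g_C F (Finsupp.single w 1)) R := fun w R =>
    m15g_mapDomain_nonneg r' (m15g_C_single_nonneg hdegF' w) R
  have hXdeg : ∀ w, Divisor.degree (Finsupp.mapDomain r' (m15g_C F (Finsupp.single w 1))) = d :=
    fun w => by
      rw [m15g_degree_mapDomain hdegF' hdegE', m15g_degree_C_single hdegF']
  have hXd : ∀ w R, Finsupp.mapDomain r' (m15g_C F (Finsupp.single w 1)) R ≤ d := fun w R => by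
    have := m15g_le_degree hdegE' (hX0 w) R
    rwa [hXdeg] at this
  have hYeq : ∀ w : Place K F', m15g_C E (Finsupp.mapDomain r' (Finsupp.single w 1)) =
      m15g_C E (Finsupp.single (r' w) 1) := fun w => by rw [Finsupp.mapDomain_single]
  have hY0 : ∀ w R, 0 ≤ m15g_C E (Finsupp.mapDomain r' (Finsupp.single w 1)) R := fun w R => by
    rw [hYeq]
    exact m15g_C_single_nonneg hdegE' _ _
  have hYdeg : ∀ w : Place K F',
      Divisor.degree (m15g_C E (Finsupp.mapDomain r' (Finsupp.single w 1))) = d := fun w => by
    rw [hYeq, m15g_degree_C_single hdegE', hdb]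
  have hYd : ∀ w R, m15g_C E (Finsupp.mapDomain r' (Finsupp.single w 1)) R ≤ d := fun w R => by
    have := m15g_le_degree hdegE' (hY0 w) R
    rwa [hYdeg] at this
  -- (c) `δ` is constant on points
  have hconst := hBC δ hδprin ⟨d, fun w R => by
    rw [hδ_apply, Finsupp.sub_apply, abs_le]
    constructor
    · linarith [hX0 w R, hYd w R]
    · linarith [hXd w R, hY0 w R]⟩
  -- (d) the constant is `0`
  obtain ⟨w₁, w₂, hw12⟩ := hnc
  have hE₀nn : ∀ R, 0 ≤ δ (Finsupp.single w₁ 1) R := by
    intro R
    by_cases h : R.restrict E = (r' w₁).restrict E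
    · have h2 : R.restrict E ≠ (r' w₂).restrict E := fun h' => hw12 (h.symm.trans h')
      rw [hconst w₁ w₂, hδ_apply, Finsupp.sub_apply, hYeq, m15g_C_single_eq_zero hdegE' h2,
        sub_zero]
      exact hX0 w₂ R
    · rw [hδ_apply, Finsupp.sub_apply, hYeq, m15g_C_single_eq_zero hdegE' h, sub_zero]
      exact hX0 w₁ R
  have hE₀ : δ (Finsupp.single w₁ 1) = 0 := by
    apply m15g_eq_zero_of_degree hdegE' hE₀nn
    rw [hδ_apply, map_sub, hXdeg, hYdeg, sub_self]
  have hkey : ∀ w : Place K F', Finsupp.mapDomain r' (m15g_C F (Finsupp.single w 1)) =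
      m15g_C E (Finsupp.single (r' w) 1) := by
    intro w
    have h := hconst w w₁
    rw [hE₀, hδ_apply, sub_eq_zero, hYeq] at h
    exact h
  -- (e) `r'` respects the fibres
  have hwell : ∀ w w' : Place K F', w'.restrict F = w.restrict F →
      (r' w').restrict E = (r' w).restrict E := by
    intro w w' hww'
    by_contra h
    have h0 : m15g_C E (Finsupp.single (r' w) 1) (r' w') = 0 := m15g_C_single_eq_zero hdegE' h
    have hpos : 0 < m15g_C F (Finsupp.single w 1) w' := m15g_C_single_pos hdegF' hww'
    have hle := m15g_le_mapDomain r' (m15g_C_single_nonneg (F := F) hdegF' w) w'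
    rw [hkey, h0] at hle
    omega
  -- (f) the descended map
  have hex : ∀ v : Place K F, ∃ w : Place K F', w.restrict F = v := m15g_exists_above hdegF
  refine ⟨fun v => (r' (hex v).choose).restrict E, fun w => ?_, ?_⟩
  · exact hwell w _ (hex (w.restrict F)).choose_spec
  -- (g) conservation of number
  set r : Place K F → Place k E := fun v => (r' (hex v).choose).restrict E with hr
  have hrw : ∀ w : Place K F', (r' w).restrict E = r (w.restrict F) := fun w =>
    (hwell w _ (hex (w.restrict F)).choose_spec).symm
  have hA : (Divisor.pushforward E).comp (rmap.comp (Divisor.pullback F')) =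
      d • Finsupp.mapDomain.addMonoidHom r := by
    apply Finsupp.addHom_ext
    intro v n
    rw [AddMonoidHom.comp_apply, AddMonoidHom.comp_apply, Divisor.pullback_single, map_sum,
      map_sum, AddMonoidHom.smul_apply, Finsupp.mapDomain.addMonoidHom_apply,
      Finsupp.mapDomain_single, Finsupp.smul_single, smul_eq_mul]
    have hterm : ∀ w ∈ v.fiber F',
        Divisor.pushforward E (rmap (Finsupp.single w (n * (w.ramificationIndex F : ℤ)))) =
          Finsupp.single (r v) (n * (w.ramificationIndex F : ℤ)) := by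
      intro w hw
      rw [hrmap_apply, Finsupp.mapDomain_single, Divisor.pushforward_single,
        m15g_inertiaDeg_eq_one hdegE', Nat.cast_one, mul_one, hrw, Place.mem_fiber.mp hw]
    rw [Finset.sum_congr rfl hterm, ← Finsupp.single_finsetSum, ← Finset.mul_sum,
      m15g_sum_ramificationIndex hdegF hdegF' v, mul_comm]
  intro y yb hR D hD Q
  obtain ⟨hy, hyb⟩ := hne' _ _ hR
  have hD' : ∀ w, Divisor.pullback F' D w = w.ord (algebraMap F F' y) := fun w =>
    Divisor.pullback_apply_eq_ord hD w
  have hG : ∀ R, Finsupp.mapDomain r' (Divisor.pullback F' D) R = R.ord (algebraMap E E' yb) :=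
    hcons' _ _ hR _ hD'
  have hB : Divisor.pushforward E (Finsupp.mapDomain r' (Divisor.pullback F' D)) Q =
      Q.ord (Algebra.norm E (algebraMap E E' yb)) := hNb _ hyb _ hG Q
  have hA' := congrArg (fun φ : Divisor K F →+ Divisor k E => φ D Q) hA
  simp only [AddMonoidHom.comp_apply, AddMonoidHom.smul_apply,
    Finsupp.mapDomain.addMonoidHom_apply, Finsupp.smul_apply, smul_eq_mul] at hA'
  rw [hrmap_apply, hB, Algebra.norm_algebraMap, ← zpow_natCast, Place.ord_zpow, hdb] at hA'
  exact (mul_left_cancel₀ hdpos.ne' hA').symm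

end Descent

end Fermat.Agent.Lib.S15
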