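/-
(M) programme (S15), brick [SF1] (helper9), part 2: CHARACTERISTIC-FREE port of `Lib/S37/HNorm.lean`:
the NORM FORMULA  `ord_v (N_{F'/F} f) = sum_{w | v} f(w|v) ord_w f`  (`Divisor.PushforwardNormFormula`)
for a finite SEPARABLE extension of function fields over an algebraically closed field, via the
local dictionary of `RLocal`.  The only change of substance: `ord_v (N pi) = 1` for a prime element
`pi` of `S` is obtained from the fundamental identity (`N t = t ^ n` for a uniformizer `t` of `v`,
`pi ∣ t`, `a ∣ N a`) instead of Mathlib's `Ideal.relNorm_eq_pow_of_isMaximal` (perfect fields only).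
All names prefixed `m15r_`, namespace `Fermat.Agent.Lib.S15`.
-/
import Mathlib
import Fermat.Prelude.Def_AlgebraicCurve_DivisorPushPull
import Fermat.Agent.Lib.FF.FFBasicPlace
import Fermat.Agent.Lib.S15.RLocal

set_option autoImplicit false
set_option linter.style.haveILetI false
set_option linter.unusedSectionVars false
set_option linter.deprecated false

noncomputable section

open IsDedekindDomain WithZero IsLocalRing AlgebraicCurve
open Fermat.Agent.Lib.FF

namespace Fermat.Agent.Lib.S15

section Primes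

variable {K F F' : Type*} [Field K] [Field F] [Field F'] [Algebra K F] [Algebra K F']
  [Algebra F F'] [IsScalarTower K F F'] [FiniteDimensional F F'] [Algebra.IsSeparable F F']

attribute [local instance 10] m15r_algRF' m15r_algKS

/-- `primeOf` is a left inverse of `placeOf` -/
theorem m15r_primeOf_placeOf (v : Place K F) (P : HeightOneSpectrum (m15r_S (F' := F') v)) :
    m15r_primeOf (m15r_placeOf_restrict v P) = P :=
  m15r_placeOf_injective v (m15r_placeOf_primeOf (m15r_placeOf_restrict v P))

/-- every nonzero prime of `S` lies over the maximal ideal of `O_v` -/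
theorem m15r_liesOver (v : Place K F) (P : HeightOneSpectrum (m15r_S (F' := F') v)) :
    P.asIdeal.LiesOver (m15r_p v) := by
  have h := m15r_primeOf_liesOver (m15r_placeOf_restrict v P)
  rwa [m15r_primeOf_placeOf] at h

/-- `S` has finitely many primes -/
theorem m15r_finite_primes (v : Place K F) :
    {I : Ideal (m15r_S (F' := F') v) | I.IsPrime}.Finite := by
  classical
  have hsub : {I : Ideal (m15r_S (F' := F') v) | I.IsPrime} ⊆
      insert ⊥ ((IsDedekindDomain.primesOverFinset (m15r_p v) (m15r_S (F' := F') v) :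
        Finset (Ideal (m15r_S (F' := F') v))) : Set (Ideal (m15r_S (F' := F') v))) := by
    intro I hI
    by_cases hb : I = ⊥
    · exact Or.inl hb
    · right
      rw [Finset.mem_coe, IsDedekindDomain.mem_primesOverFinset_iff (A := v.toValuationSubring)
        (p := m15r_p v) (m15r_p_ne_bot v) (m15r_S (F' := F') v)]
      exact ⟨hI, m15r_liesOver v ⟨I, hI, hb⟩⟩
  exact (Set.Finite.insert _ (Finset.finite_toSet _)).subset hsub

instance m15r_S_isPrincipalIdealRing (v : Place K F) :
    IsPrincipalIdealRing (m15r_S (F' := F') v) :=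
  IsPrincipalIdealRing.of_finite_primes (m15r_finite_primes v)

end Primes

section Key

variable {K F F' : Type*} [Field K] [Field F] [Field F'] [Algebra K F] [Algebra K F']
  [Algebra F F'] [IsScalarTower K F F'] [FiniteDimensional F F'] [Algebra.IsSeparable F F']

attribute [local instance 10] m15r_algRF' m15r_algKS

/-- the order at `placeOf Q` of an element of `S` -/
theorem m15r_ord_placeOf_coe (v : Place K F) (Q : HeightOneSpectrum (m15r_S (F' := F') v))
    (a : m15r_S (F' := F') v) :
    (m15r_placeOf v Q).ord (a : F') = -(WithZero.log (Q.intValuation a)) := by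
  have h1 : Q.valuation F' (a : F') = Q.intValuation a := by
    rw [← Q.valuation_of_algebraMap (K := F')]; rfl
  rw [m15r_placeOf, m15r_ofHeightOneSpectrum_ord, h1]

/-- norms of elements of `S` are (images of) elements of `O_v` -/
theorem m15r_norm_coe (v : Place K F) (a : m15r_S (F' := F') v) :
    Algebra.norm F (a : F') =
      ((Algebra.intNorm v.toValuationSubring (m15r_S (F' := F') v) a : v.toValuationSubring) : F) :=
  (Algebra.algebraMap_intNorm (A := v.toValuationSubring) (K := F) (L := F')
    (B := m15r_S (F' := F') v) a).symm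

end Key

section SumOrd

variable {K F F' : Type*} [Field K] [Field F] [Field F'] [Algebra K F] [Algebra K F']
  [Algebra F F'] [IsScalarTower K F F'] [FiniteDimensional F F'] [Algebra.IsSeparable F F']
  [HasPrincipalDivisors K F']

attribute [local instance 10] m15r_algRF' m15r_algKS

/-- `∑_{w | v} ord_w f` -/
def m15r_sumOrd (v : Place K F) (f : F') : ℤ := ∑ w ∈ v.fiber F', w.ord f

theorem m15r_sumOrd_mul (v : Place K F) {f g : F'} (hf : f ≠ 0) (hg : g ≠ 0) :
    m15r_sumOrd v (f * g) = m15r_sumOrd v f + m15r_sumOrd v g := by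
  unfold m15r_sumOrd
  rw [← Finset.sum_add_distrib]
  exact Finset.sum_congr rfl fun w _ => w.ord_mul hf hg

theorem m15r_sumOrd_inv (v : Place K F) (f : F') :
    m15r_sumOrd v f⁻¹ = - m15r_sumOrd v f := by
  unfold m15r_sumOrd
  rw [← Finset.sum_neg_distrib]
  exact Finset.sum_congr rfl fun w _ => w.ord_inv f

/-- every place in the fibre is `placeOf` of a prime -/
theorem m15r_exists_placeOf_eq {v : Place K F} {w : Place K F'} (hw : w ∈ v.fiber F') :
    ∃ Q : HeightOneSpectrum (m15r_S (F' := F') v), m15r_placeOf v Q = w :=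
  ⟨m15r_primeOf (Place.mem_fiber.mp hw), m15r_placeOf_primeOf (Place.mem_fiber.mp hw)⟩

theorem m15r_placeOf_mem_fiber (v : Place K F) (Q : HeightOneSpectrum (m15r_S (F' := F') v)) :
    m15r_placeOf v Q ∈ v.fiber F' :=
  Place.mem_fiber.mpr (m15r_placeOf_restrict v Q)

/-- units of `S` have order zero at every place over `v` -/
theorem m15r_sumOrd_unit (v : Place K F) {u : m15r_S (F' := F') v} (hu : IsUnit u) :
    m15r_sumOrd v (u : F') = 0 := by
  unfold m15r_sumOrd
  refine Finset.sum_eq_zero fun w hw => ?_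
  obtain ⟨Q, rfl⟩ := m15r_exists_placeOf_eq hw
  rw [m15r_ord_placeOf_coe]
  have : Q.intValuation u = 1 := by
    rw [HeightOneSpectrum.intValuation_eq_one_iff]
    intro hmem
    exact Q.isPrime.ne_top (Ideal.eq_top_of_isUnit_mem _ hmem hu)
  rw [this, WithZero.log_one, neg_zero]

/-- a prime element of `S` has total order one over `v` -/
theorem m15r_sumOrd_prime (v : Place K F) {ϖ : m15r_S (F' := F') v} (hϖ : Prime ϖ) :
    m15r_sumOrd v (ϖ : F') = 1 := by
  classical
  let P : HeightOneSpectrum (m15r_S (F' := F') v) :=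
    ⟨Ideal.span {ϖ}, (Ideal.span_singleton_prime hϖ.ne_zero).mpr hϖ, by
      simpa using hϖ.ne_zero⟩
  unfold m15r_sumOrd
  rw [Finset.sum_eq_single_of_mem (m15r_placeOf v P) (m15r_placeOf_mem_fiber v P)]
  · rw [m15r_ord_placeOf_coe, HeightOneSpectrum.intValuation_singleton P hϖ.ne_zero rfl,
      WithZero.log_exp, neg_neg]
  · intro w hw hne
    obtain ⟨Q, rfl⟩ := m15r_exists_placeOf_eq hw
    rw [m15r_ord_placeOf_coe]
    have hQP : Q ≠ P := fun h => hne (by rw [h])
    have : Q.intValuation ϖ = 1 := by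
      rw [HeightOneSpectrum.intValuation_eq_one_iff]
      intro hmem
      apply hQP
      have hle : P.asIdeal ≤ Q.asIdeal := (Ideal.span_singleton_le_iff_mem _).mpr hmem
      exact HeightOneSpectrum.ext (P.isMaximal.eq_of_le Q.isPrime.ne_top hle).symm
    rw [this, WithZero.log_one, neg_zero]

end SumOrd

section Formula

variable {K F F' : Type*} [Field K] [Field F] [Field F'] [Algebra K F] [Algebra K F']
  [Algebra F F'] [IsScalarTower K F F'] [FiniteDimensional F F'] [Algebra.IsSeparable F F']
  [HasPrincipalDivisors K F'] [IsAlgClosed K]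

attribute [local instance 10] m15r_algRF' m15r_algKS

/-- the norm of a unit of `S` has order zero at `v` -/
theorem m15r_ord_norm_unit (v : Place K F) {u : m15r_S (F' := F') v} (hu : IsUnit u) :
    v.ord (Algebra.norm F (u : F')) = 0 := by
  rw [m15r_norm_coe]
  have h := hu.map (Algebra.intNorm v.toValuationSubring (m15r_S (F' := F') v))
  obtain ⟨u', hu'⟩ := h
  rw [← hu']
  exact v.ord_coe_unit u'

/-- a non-unit of `O_v` has positive order. -/
theorem m15r_ord_pos_of_not_isUnit (v : Place K F) (r : v.toValuationSubring) (hr0 : r ≠ 0)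
    (hr : ¬ IsUnit r) : 0 < v.ord (r : F) := by
  have hr0' : (r : F) ≠ 0 := by simpa [ne_eq, ZeroMemClass.coe_eq_zero] using hr0
  have h1 : 0 ≤ v.ord (r : F) := (ff_mem_iff_ord_nonneg v hr0').mp r.2
  rcases eq_or_lt_of_le h1 with h0 | h0
  · exfalso
    apply hr
    have hinv : ((r : F))⁻¹ ∈ v.toValuationSubring := by
      rw [ff_mem_iff_ord_nonneg v (inv_ne_zero hr0'), v.ord_inv, ← h0, neg_zero]
    exact ⟨⟨r, ⟨_, hinv⟩, Subtype.ext (mul_inv_cancel₀ hr0'), Subtype.ext (inv_mul_cancel₀ hr0')⟩,
      rfl⟩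
  · exact h0

/-- the norm of a prime element of `S` has positive order at `v`. -/
theorem m15r_one_le_ord_norm_prime (v : Place K F) {ϖ : m15r_S (F' := F') v} (hϖ : Prime ϖ) :
    1 ≤ v.ord (Algebra.norm F (ϖ : F')) := by
  rw [m15r_norm_coe]
  set r := Algebra.intNorm v.toValuationSubring (m15r_S (F' := F') v) ϖ with hr
  have hr0 : r ≠ 0 := by
    rw [hr, Ne, Algebra.intNorm_eq_zero]
    exact hϖ.ne_zero
  have hnu : ¬ IsUnit r := by
    intro hu
    have hdvd : ϖ ∣ algebraMap v.toValuationSubring (m15r_S (F' := F') v) r :=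
      Algebra.dvd_algebraMap_intNorm_self _ _ ϖ
    exact hϖ.not_unit (isUnit_of_dvd_unit hdvd (hu.map _))
  have := m15r_ord_pos_of_not_isUnit v r hr0 hnu
  omega

/-- the easy inequality `∑_{w | v} ord_w a ≤ ord_v (N a)` for `0 ≠ a ∈ S`. -/
theorem m15r_sumOrd_le_ord_norm (v : Place K F) (a : m15r_S (F' := F') v) (ha : a ≠ 0) :
    m15r_sumOrd v (a : F') ≤ v.ord (Algebra.norm F (a : F')) := by
  revert ha
  induction a using UniqueFactorizationMonoid.induction_on_prime with
  | h₁ => intro h; exact absurd rfl h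
  | h₂ x hx => intro _; rw [m15r_ord_norm_unit v hx, m15r_sumOrd_unit v hx]
  | h₃ a ϖ ha0 hϖ ih =>
    intro _
    have hϖ0 : ((ϖ : m15r_S (F' := F') v) : F') ≠ 0 := by
      simpa [ne_eq, ZeroMemClass.coe_eq_zero] using hϖ.ne_zero
    have ha0' : ((a : m15r_S (F' := F') v) : F') ≠ 0 := by
      simpa [ne_eq, ZeroMemClass.coe_eq_zero] using ha0
    have hcoe : ((ϖ * a : m15r_S (F' := F') v) : F') = (ϖ : F') * (a : F') := rfl
    rw [hcoe, map_mul, v.ord_mul (Algebra.norm_ne_zero_iff.mpr hϖ0)
      (Algebra.norm_ne_zero_iff.mpr ha0'), m15r_sumOrd_mul v hϖ0 ha0', m15r_sumOrd_prime v hϖ]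
    have h1 := m15r_one_le_ord_norm_prime v hϖ
    have h2 := ih ha0
    omega

/-- for `c ∈ F`: `ord_v (N c) = [F' : F] ord_v c = ∑_{w | v} ord_w c` (fundamental identity). -/
theorem m15r_ord_norm_algebraMap
    (hF : ∀ v : Place K F, Function.Surjective (algebraMap K v.ResidueField))
    (hF' : ∀ w : Place K F', w.deg = 1) (v : Place K F) (c : F) (hc : c ≠ 0) :
    v.ord (Algebra.norm F (algebraMap F F' c)) = m15r_sumOrd v (algebraMap F F' c) := by
  have hinert : ∀ w : Place K F', w.inertiaDeg F = 1 := by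
    intro w
    have h := w.deg_restrict_mul_inertiaDeg (F := F)
    rw [hF' w] at h
    exact Nat.eq_one_of_mul_eq_one_left h
  have hFI := m15r_sum_ramificationIndex_mul_inertiaDeg (F' := F') hF hF' v
  rw [Algebra.norm_algebraMap, ← zpow_natCast, v.ord_zpow]
  unfold m15r_sumOrd
  have h1 : ∀ w ∈ v.fiber F', w.ord (algebraMap F F' c) =
      (w.ramificationIndex F : ℤ) * (w.inertiaDeg F : ℤ) * v.ord c := by
    intro w hw
    rw [w.ord_restrict c, Place.mem_fiber.mp hw, hinert, Nat.cast_one, mul_one]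
  rw [Finset.sum_congr rfl h1, ← Finset.sum_mul, hFI]

/-- the norm of a prime element of `S` is a uniformizer at `v`. -/
theorem m15r_ord_norm_prime
    (hF : ∀ v : Place K F, Function.Surjective (algebraMap K v.ResidueField))
    (hF' : ∀ w : Place K F', w.deg = 1)
    (v : Place K F) {ϖ : m15r_S (F' := F') v} (hϖ : Prime ϖ) :
    v.ord (Algebra.norm F (ϖ : F')) = 1 := by
  obtain ⟨t, ht⟩ := IsDiscreteValuationRing.exists_irreducible v.toValuationSubring
  let P : HeightOneSpectrum (m15r_S (F' := F') v) :=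
    ⟨Ideal.span {ϖ}, (Ideal.span_singleton_prime hϖ.ne_zero).mpr hϖ, by
      simpa using hϖ.ne_zero⟩
  haveI := m15r_liesOver v P
  have htP : algebraMap v.toValuationSubring (m15r_S (F' := F') v) t ∈ P.asIdeal := by
    have h1 : t ∈ m15r_p v := by
      rw [IsLocalRing.mem_maximalIdeal]
      exact ht.not_isUnit
    have h2 : m15r_p v = P.asIdeal.under v.toValuationSubring := Ideal.LiesOver.over
    rw [h2] at h1
    exact h1
  obtain ⟨a, hta⟩ := Ideal.mem_span_singleton.mp htP
  have ht0 : (t : F) ≠ 0 := by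
    simpa [ne_eq, ZeroMemClass.coe_eq_zero] using ht.ne_zero
  have htF' : ((algebraMap v.toValuationSubring (m15r_S (F' := F') v) t :
      m15r_S (F' := F') v) : F') = algebraMap F F' (t : F) := rfl
  have ht0' : algebraMap F F' (t : F) ≠ 0 := by simpa using ht0
  have ha0 : a ≠ 0 := by
    rintro rfl
    rw [mul_zero] at hta
    apply ht0'
    rw [← htF', hta]
    rfl
  have hϖ0 : ((ϖ : m15r_S (F' := F') v) : F') ≠ 0 := by
    simpa [ne_eq, ZeroMemClass.coe_eq_zero] using hϖ.ne_zero
  have ha0' : ((a : m15r_S (F' := F') v) : F') ≠ 0 := by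
    simpa [ne_eq, ZeroMemClass.coe_eq_zero] using ha0
  have hprod : algebraMap F F' (t : F) = (ϖ : F') * (a : F') := by
    rw [← htF', hta]
    rfl
  have hC := m15r_ord_norm_algebraMap (F' := F') hF hF' v (t : F) ht0
  rw [hprod, map_mul, v.ord_mul (Algebra.norm_ne_zero_iff.mpr hϖ0)
    (Algebra.norm_ne_zero_iff.mpr ha0'), m15r_sumOrd_mul v hϖ0 ha0', m15r_sumOrd_prime v hϖ] at hC
  have h1 := m15r_one_le_ord_norm_prime v hϖ
  have h2 := m15r_sumOrd_le_ord_norm v a ha0
  omega

/-- key: `ord_v (N a) = ∑_{w | v} ord_w a` for `0 ≠ a ∈ S` -/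
theorem m15r_ord_norm_coe
    (hF : ∀ v : Place K F, Function.Surjective (algebraMap K v.ResidueField))
    (hF' : ∀ w : Place K F', w.deg = 1)
    (v : Place K F) (a : m15r_S (F' := F') v) (ha : a ≠ 0) :
    v.ord (Algebra.norm F (a : F')) = m15r_sumOrd v (a : F') := by
  revert ha
  induction a using UniqueFactorizationMonoid.induction_on_prime with
  | h₁ => intro h; exact absurd rfl h
  | h₂ x hx => intro _; rw [m15r_ord_norm_unit v hx, m15r_sumOrd_unit v hx]
  | h₃ a ϖ ha0 hϖ ih =>
    intro _
    have hϖ0 : ((ϖ : m15r_S (F' := F') v) : F') ≠ 0 := by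
      simpa [ne_eq, ZeroMemClass.coe_eq_zero] using hϖ.ne_zero
    have ha0' : ((a : m15r_S (F' := F') v) : F') ≠ 0 := by
      simpa [ne_eq, ZeroMemClass.coe_eq_zero] using ha0
    have hcoe : ((ϖ * a : m15r_S (F' := F') v) : F') = (ϖ : F') * (a : F') := rfl
    rw [hcoe, map_mul, v.ord_mul (Algebra.norm_ne_zero_iff.mpr hϖ0)
      (Algebra.norm_ne_zero_iff.mpr ha0'), m15r_sumOrd_mul v hϖ0 ha0', ih ha0,
      m15r_ord_norm_prime hF hF' v hϖ, m15r_sumOrd_prime v hϖ]

/-- `ord_v (N f) = ∑_{w | v} ord_w f` for every `f ≠ 0` in `F'` -/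
theorem m15r_ord_norm
    (hF : ∀ v : Place K F, Function.Surjective (algebraMap K v.ResidueField))
    (hF' : ∀ w : Place K F', w.deg = 1)
    (v : Place K F) (f : F') (hf : f ≠ 0) :
    v.ord (Algebra.norm F f) = m15r_sumOrd v f := by
  obtain ⟨a, b, hb, rfl⟩ := IsFractionRing.div_surjective (A := m15r_S (F' := F') v) f
  have hb0 : b ≠ 0 := nonZeroDivisors.ne_zero hb
  have ha0 : a ≠ 0 := by
    rintro rfl
    simp at hf
  have hb0' : ((b : m15r_S (F' := F') v) : F') ≠ 0 := by
    simpa [ne_eq, ZeroMemClass.coe_eq_zero] using hb0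
  have ha0' : ((a : m15r_S (F' := F') v) : F') ≠ 0 := by
    simpa [ne_eq, ZeroMemClass.coe_eq_zero] using ha0
  have hcoe : algebraMap (m15r_S (F' := F') v) F' a / algebraMap (m15r_S (F' := F') v) F' b
      = (a : F') * (b : F')⁻¹ := by rw [div_eq_mul_inv]; rfl
  have hNinv : Algebra.norm F ((b : F')⁻¹) = (Algebra.norm F (b : F'))⁻¹ := by
    apply eq_inv_of_mul_eq_one_left
    rw [← map_mul, inv_mul_cancel₀ hb0', map_one]
  rw [hcoe, map_mul, hNinv, v.ord_mul (Algebra.norm_ne_zero_iff.mpr ha0')
    (inv_ne_zero (Algebra.norm_ne_zero_iff.mpr hb0')), v.ord_inv,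
    m15r_sumOrd_mul v ha0' (inv_ne_zero hb0'), m15r_sumOrd_inv,
    m15r_ord_norm_coe hF hF' v a ha0, m15r_ord_norm_coe hF hF' v b hb0]

/-- **Norm formula** (`Divisor.PushforwardNormFormula`) for a finite extension of function fields
over an algebraically closed field all of whose places have degree one. -/
theorem m15r_pushforwardNormFormula
    (hF : ∀ v : Place K F, Function.Surjective (algebraMap K v.ResidueField))
    (hF' : ∀ w : Place K F', w.deg = 1) :
    Divisor.PushforwardNormFormula K F F' := by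
  classical
  intro f hf D hD v
  rw [m15r_ord_norm hF hF' v f hf, Divisor.pushforward_apply]
  have hinert : ∀ w : Place K F', w.inertiaDeg F = 1 := by
    intro w
    have h := w.deg_restrict_mul_inertiaDeg (F := F)
    rw [hF' w] at h
    exact Nat.eq_one_of_mul_eq_one_left h
  unfold m15r_sumOrd
  rw [← Finset.sum_filter]
  have hsub : D.support.filter (fun w => w.restrict F = v) ⊆ v.fiber F' := by
    intro w hw
    exact Place.mem_fiber.mpr (Finset.mem_filter.mp hw).2
  rw [Finset.sum_subset hsub]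
  · refine Finset.sum_congr rfl fun w _ => ?_
    rw [hinert, Nat.cast_one, mul_one, hD]
  · intro w hw hnot
    have hwv : w.restrict F = v := Place.mem_fiber.mp hw
    have : w ∉ D.support := fun h => hnot (Finset.mem_filter.mpr ⟨h, hwv⟩)
    rw [Finsupp.notMem_support_iff] at this
    rw [this, zero_mul]

end Formula

end Fermat.Agent.Lib.S15
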