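/-
(M) programme (S15), brick [SF3] (helper9), abstract part: the GAUSS LEMMA for a finite extension
`F'/F` of fields with valuation subrings `O ⊆ F`, `O' ⊆ F'` (`O ⊆ O'`), reductions
`red : O →+* Fb`, `red' : O' →+* Fb'` (compatible, `ker red` = non-units, `red'` onto):
* `m15r_lift_linearIndependent` : lifts of an `Fb`-independent family of `Fb'` are `F`-independent;
* `m15r_finrank_le`             : `[Fb' : Fb] ≤ [F' : F]`;
* `m15r_norm_red`               : if `[Fb' : Fb] = [F' : F]`, then for `z ∈ O'`: `N_{F'/F} z ∈ O` and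
                                  `red (N z) = N_{Fb'/Fb} (red' z)`.
All names prefixed `m15r_`, namespace `Fermat.Agent.Lib.S15`.
-/
import Mathlib

set_option autoImplicit false
set_option linter.unusedSectionVars false
set_option linter.unusedVariables false

noncomputable section

namespace Fermat.Agent.Lib.S15

open Module

variable {F F' Fb Fb' : Type*} [Field F] [Field F'] [Field Fb] [Field Fb'] [Algebra F F']
  [Algebra Fb Fb']

/-- the data of a compatible pair of "Gauss" valuation subrings with their reductions. -/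
structure m15r_GaussPair (O : ValuationSubring F) (O' : ValuationSubring F') (red : ↥O →+* Fb)
    (red' : ↥O' →+* Fb') : Prop where
  /-- `O ⊆ O'`. -/
  incl : ∀ f : F, f ∈ O → algebraMap F F' f ∈ O'
  /-- the reductions are compatible. -/
  compat : ∀ (f : F) (hf : f ∈ O),
    red' ⟨algebraMap F F' f, incl f hf⟩ = algebraMap Fb Fb' (red ⟨f, hf⟩)
  /-- `ker red` consists of the non-units. -/
  inv_mem : ∀ y : ↥O, red y ≠ 0 → ((y : F))⁻¹ ∈ O
  /-- `red'` is onto. -/
  surj : Function.Surjective red'

variable {O : ValuationSubring F} {O' : ValuationSubring F'} {red : ↥O →+* Fb}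
  {red' : ↥O' →+* Fb'}

namespace m15r_GaussPair

variable (h : m15r_GaussPair O O' red red')

include h

/-- an element outside `O` has inverse in `O` with zero reduction. -/
theorem red_inv_eq_zero {c : F} (hc : c ∉ O) :
    ∃ hc' : c⁻¹ ∈ O, red ⟨c⁻¹, hc'⟩ = 0 := by
  have hc' : c⁻¹ ∈ O := (O.mem_or_inv_mem c).resolve_left hc
  refine ⟨hc', ?_⟩
  by_contra h0
  apply hc
  have := h.inv_mem ⟨c⁻¹, hc'⟩ h0
  simpa using this

/-- the embedding `O → O'`. -/
def toO' : ↥O →+* ↥O' where
  toFun f := ⟨algebraMap F F' (f : F), h.incl _ f.2⟩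
  map_one' := Subtype.ext (map_one _)
  map_mul' a b := Subtype.ext (map_mul _ _ _)
  map_zero' := Subtype.ext (map_zero _)
  map_add' a b := Subtype.ext (map_add _ _ _)

theorem coe_toO' (f : ↥O) : ((h.toO' f : ↥O') : F') = algebraMap F F' (f : F) := rfl

theorem red'_toO' (f : ↥O) : red' (h.toO' f) = algebraMap Fb Fb' (red f) :=
  h.compat (f : F) f.2

/-- **normalisation**: a finite family of elements of `F`, not all in ... : there is an index of
maximal valuation. -/
theorem exists_max {ι : Type*} (s : Finset ι) (hs : s.Nonempty) (c : ι → F) :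
    ∃ i₀ ∈ s, ∀ i ∈ s, O.valuation (c i) ≤ O.valuation (c i₀) := by
  obtain ⟨i₀, hi₀, hmax⟩ := Finset.exists_max_image s (fun i => O.valuation (c i)) hs
  exact ⟨i₀, hi₀, hmax⟩

/-- the key computation: if `∑ d i • y i` (with `d i ∈ O`, `y i ∈ O'`) is in `O'` with reduction
`ρ`, then `ρ = ∑ red (d i) • red' (y i)`. -/
theorem red'_sum {ι : Type*} (s : Finset ι) (d : ι → ↥O) (y : ι → ↥O') :
    red' (∑ i ∈ s, h.toO' (d i) * y i) = ∑ i ∈ s, red (d i) • red' (y i) := by
  rw [map_sum]
  refine Finset.sum_congr rfl fun i _ => ?_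
  rw [map_mul, h.red'_toO', Algebra.smul_def]

/-- **lifts of independent families are independent.** -/
theorem lift_linearIndependent {ι : Type*} (y : ι → ↥O')
    (hy : LinearIndependent Fb fun i => red' (y i)) :
    LinearIndependent F fun i => ((y i : ↥O') : F') := by
  classical
  rw [linearIndependent_iff']
  intro s c hsum
  by_contra hne
  push_neg at hne
  obtain ⟨j, hjs, hj⟩ := hne
  obtain ⟨i₀, hi₀, hmax⟩ := h.exists_max s ⟨j, hjs⟩ c
  have hci₀ : c i₀ ≠ 0 := by
    intro h0
    have h1 := hmax j hjs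
    rw [h0, map_zero] at h1
    exact hj ((map_eq_zero _).mp (le_antisymm h1 zero_le'))
  -- the normalised coefficients
  have hdmem : ∀ i ∈ s, c i / c i₀ ∈ O := by
    intro i hi
    rw [← O.valuation_le_one_iff, map_div₀]
    exact div_le_one_of_le₀ (hmax i hi) zero_le'
  let d : ι → ↥O := fun i => if hi : i ∈ s then ⟨c i / c i₀, hdmem i hi⟩ else 0
  have hd : ∀ i ∈ s, ((d i : ↥O) : F) = c i / c i₀ := by
    intro i hi
    simp only [d, dif_pos hi]
  have hsum' : (∑ i ∈ s, h.toO' (d i) * y i : ↥O') = 0 := by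
    apply Subtype.ext
    rw [ZeroMemClass.coe_zero]
    have : ((∑ i ∈ s, h.toO' (d i) * y i : ↥O') : F') =
        ∑ i ∈ s, algebraMap F F' (c i / c i₀) * ((y i : ↥O') : F') := by
      rw [← O'.subtype_apply, map_sum]
      refine Finset.sum_congr rfl fun i hi => ?_
      rw [map_mul, O'.subtype_apply, O'.subtype_apply, h.coe_toO', hd i hi]
    rw [this]
    have h2 : ∑ i ∈ s, algebraMap F F' (c i / c i₀) * ((y i : ↥O') : F') =
        algebraMap F F' (c i₀)⁻¹ * ∑ i ∈ s, c i • ((y i : ↥O') : F') := by
      rw [Finset.mul_sum]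
      refine Finset.sum_congr rfl fun i _ => ?_
      rw [Algebra.smul_def, ← mul_assoc, ← map_mul, div_eq_inv_mul]
    rw [h2, hsum, mul_zero]
  have hred := h.red'_sum s d y
  rw [hsum', map_zero] at hred
  have h0 := (linearIndependent_iff'.mp hy) s (fun i => red (d i)) hred.symm i₀ hi₀
  have h1 : d i₀ = 1 := by
    apply Subtype.ext
    rw [hd i₀ hi₀, div_self hci₀]
    rfl
  rw [h1, map_one] at h0
  exact one_ne_zero h0

/-- **`[Fb' : Fb] ≤ [F' : F]`**, and `Fb'/Fb` is finite. -/
theorem finite_and_finrank_le [FiniteDimensional F F'] :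
    Module.Finite Fb Fb' ∧ finrank Fb Fb' ≤ finrank F F' := by
  classical
  have hbound : ∀ s : Finset Fb', LinearIndependent Fb (fun i : s => (i : Fb')) →
      s.card ≤ finrank F F' := by
    intro s hs
    choose y hy using h.surj
    have hli : LinearIndependent Fb fun i : s => red' (y (i : Fb')) := by
      have : (fun i : s => red' (y (i : Fb'))) = fun i : s => (i : Fb') := by
        funext i; exact hy _
      rw [this]; exact hs
    have hF := h.lift_linearIndependent (fun i : s => y (i : Fb')) hli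
    have := hF.fintype_card_le_finrank
    simpa using this
  have hrank : Module.rank Fb Fb' ≤ (finrank F F' : ℕ) := rank_le hbound
  have hlt : Module.rank Fb Fb' < Cardinal.aleph0 :=
    lt_of_le_of_lt hrank (Cardinal.nat_lt_aleph0 _)
  have hfin : Module.Finite Fb Fb' := Module.rank_lt_aleph0_iff.mp hlt
  refine ⟨hfin, ?_⟩
  rw [← Module.finrank_eq_rank] at hrank
  exact_mod_cast hrank

/-- **coefficients in a lifted basis are integral**: if `y` lifts an `Fb`-independent family and
`u = ∑ c i • y i ∈ O'`, then all `c i ∈ O`. -/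
theorem coeff_mem {ι : Type*} [Fintype ι] (y : ι → ↥O')
    (hy : LinearIndependent Fb fun i => red' (y i)) (u : ↥O') (c : ι → F)
    (hu : (u : F') = ∑ i, c i • ((y i : ↥O') : F')) (i : ι) : c i ∈ O := by
  classical
  by_contra hci
  obtain ⟨i₀, -, hmax⟩ := h.exists_max (Finset.univ : Finset ι) ⟨i, Finset.mem_univ i⟩ c
  have hci₀ : c i₀ ∉ O := by
    intro hmem
    apply hci
    rw [← O.valuation_le_one_iff] at hmem ⊢
    exact le_trans (hmax i (Finset.mem_univ i)) hmem
  have hci₀0 : c i₀ ≠ 0 := fun h0 => hci₀ (h0 ▸ O.zero_mem)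
  obtain ⟨hinv, hred0⟩ := h.red_inv_eq_zero hci₀
  have hdmem : ∀ j, c j / c i₀ ∈ O := by
    intro j
    rw [← O.valuation_le_one_iff, map_div₀]
    exact div_le_one_of_le₀ (hmax j (Finset.mem_univ j)) zero_le'
  let d : ι → ↥O := fun j => ⟨c j / c i₀, hdmem j⟩
  have hsum' : h.toO' ⟨(c i₀)⁻¹, hinv⟩ * u = ∑ j, h.toO' (d j) * y j := by
    apply Subtype.ext
    have h1 : ((∑ j, h.toO' (d j) * y j : ↥O') : F') =
        ∑ j, algebraMap F F' (c j / c i₀) * ((y j : ↥O') : F') := by
      rw [← O'.subtype_apply, map_sum]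
      refine Finset.sum_congr rfl fun j _ => ?_
      rw [map_mul, O'.subtype_apply, O'.subtype_apply, h.coe_toO']
    rw [h1]
    show algebraMap F F' (c i₀)⁻¹ * (u : F') = _
    rw [hu, Finset.mul_sum]
    refine Finset.sum_congr rfl fun j _ => ?_
    rw [Algebra.smul_def, ← mul_assoc, ← map_mul, div_eq_inv_mul]
  have hred := h.red'_sum Finset.univ d y
  rw [← hsum', map_mul, h.red'_toO', hred0, map_zero, zero_mul] at hred
  have h0 := (linearIndependent_iff'.mp hy) Finset.univ (fun j => red (d j)) hred.symm i₀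
    (Finset.mem_univ i₀)
  have h1 : d i₀ = 1 := by
    apply Subtype.ext
    show c i₀ / c i₀ = 1
    exact div_self hci₀0
  rw [h1, map_one] at h0
  exact one_ne_zero h0

/-- … and the reduction is computed coefficientwise. -/
theorem red'_eq_sum {ι : Type*} [Fintype ι] (y : ι → ↥O')
    (hy : LinearIndependent Fb fun i => red' (y i)) (u : ↥O') (c : ι → F)
    (hu : (u : F') = ∑ i, c i • ((y i : ↥O') : F')) :
    red' u = ∑ i, red ⟨c i, h.coeff_mem y hy u c hu i⟩ • red' (y i) := by
  have h1 : u = ∑ i, h.toO' ⟨c i, h.coeff_mem y hy u c hu i⟩ * y i := by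
    apply Subtype.ext
    rw [hu, ← O'.subtype_apply, map_sum]
    refine Finset.sum_congr rfl fun i _ => ?_
    rw [map_mul, O'.subtype_apply, O'.subtype_apply, h.coe_toO', Algebra.smul_def]
  conv_lhs => rw [h1]
  exact h.red'_sum Finset.univ _ y

variable [FiniteDimensional F F']

/-- **the Gauss lemma for norms**: if the residue degree equals the degree, the norm of an element
of `O'` lies in `O` and its reduction is the norm of the reduction. -/
theorem norm_red (hn : finrank Fb Fb' = finrank F F') (z : ↥O') :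
    ∃ hz : Algebra.norm F (z : F') ∈ O,
      red ⟨Algebra.norm F (z : F'), hz⟩ = Algebra.norm Fb (red' z) := by
  classical
  obtain ⟨hfin, -⟩ := h.finite_and_finrank_le
  set n := finrank F F' with hndef
  let bb : Basis (Fin n) Fb Fb' := Module.finBasisOfFinrankEq Fb Fb' hn
  choose lift hlift using h.surj
  let y : Fin n → ↥O' := fun i => lift (bb i)
  have hyb : ∀ i, red' (y i) = bb i := fun i => hlift _
  have hy : LinearIndependent Fb fun i => red' (y i) := by
    have : (fun i => red' (y i)) = bb := funext hyb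
    rw [this]; exact bb.linearIndependent
  have hli := h.lift_linearIndependent y hy
  haveI : Nonempty (Fin n) := ⟨⟨0, hndef ▸ Module.finrank_pos⟩⟩
  let b : Basis (Fin n) F F' :=
    basisOfLinearIndependentOfCardEqFinrank hli (by rw [Fintype.card_fin])
  have hb : ∀ i, b i = ((y i : ↥O') : F') := fun i => by
    show (basisOfLinearIndependentOfCardEqFinrank hli _) i = _
    rw [coe_basisOfLinearIndependentOfCardEqFinrank]
  -- the coefficients of an element of `O'`
  have hrepr : ∀ u : ↥O', (u : F') = ∑ i, b.repr (u : F') i • ((y i : ↥O') : F') := by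
    intro u
    conv_lhs => rw [← b.sum_repr (u : F')]
    exact Finset.sum_congr rfl fun i _ => by rw [hb]
  have hmem : ∀ (u : ↥O') (i : Fin n), b.repr (u : F') i ∈ O := fun u i =>
    h.coeff_mem y hy u _ (hrepr u) i
  have hredu : ∀ (u : ↥O') (i : Fin n),
      bb.repr (red' u) i = red ⟨b.repr (u : F') i, hmem u i⟩ := by
    intro u i
    have h1 := h.red'_eq_sum y hy u _ (hrepr u)
    have h2 : red' u = ∑ j, red ⟨b.repr (u : F') j, hmem u j⟩ • bb j := by
      rw [h1]
      exact Finset.sum_congr rfl fun j _ => by rw [hyb]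
    rw [h2, map_sum, Finset.sum_apply']
    simp only [map_smul, Basis.repr_self, Finsupp.smul_single, smul_eq_mul, mul_one]
    rw [Finset.sum_eq_single i]
    · rw [Finsupp.single_eq_same]
    · intro j _ hji
      rw [Finsupp.single_apply, if_neg hji]
    · intro hi
      exact absurd (Finset.mem_univ i) hi
  -- the matrix over `O`
  let M₀ : Matrix (Fin n) (Fin n) ↥O := fun i j => ⟨b.repr ((z * y j : ↥O') : F') i, hmem _ i⟩
  have hM : Algebra.leftMulMatrix b (z : F') = M₀.map O.subtype := by
    ext i j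
    rw [Algebra.leftMulMatrix_eq_repr_mul, Matrix.map_apply, hb]
    rfl
  have hMb : Algebra.leftMulMatrix bb (red' z) = M₀.map red := by
    ext i j
    rw [Algebra.leftMulMatrix_eq_repr_mul, Matrix.map_apply, ← hyb j, ← map_mul, hredu]
  have hdet : Algebra.norm F (z : F') = ((M₀.det : ↥O) : F) := by
    rw [Algebra.norm_eq_matrix_det b, hM, ← RingHom.mapMatrix_apply, ← RingHom.map_det]
    rfl
  refine ⟨hdet ▸ (M₀.det).2, ?_⟩
  have h3 : (⟨Algebra.norm F (z : F'), hdet ▸ (M₀.det).2⟩ : ↥O) = M₀.det := Subtype.ext hdet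
  rw [h3, Algebra.norm_eq_matrix_det bb, hMb, ← RingHom.mapMatrix_apply, ← RingHom.map_det]

end m15r_GaussPair

end Fermat.Agent.Lib.S15
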