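/-
(M) programme (S15), bricks [SF2]/[SF3] (helper9), concrete part: the tower of modular function
fields `F(N) ⊆ F(N')` (`N ∣ N'`, over `ℚ̄`) with Gauss valuation rings `O_N = s37r_OF`, and the tower
of special fibres `Fb(N) ⊆ Fb(N')` (`Fb(M) = modularFunctionFieldFullC κ M`, `κ = A/𝔪`, `ℓ ∤ N'`):
* `m15r_redF_surjective`  : `s37r_redF : O_N → Fb(N)` is onto (any level prime to `ℓ`);
* `m15r_gaussPair`        : the abstract Gauss pair of `RGaussAbs`;
* `m15r_finrank_eq`       : `[Fb(N') : Fb(N)] = [F(N') : F(N)]`;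
* `m15r_norm_redF`        : `red_N (N_{F(N')/F(N)} z) = N_{Fb(N')/Fb(N)} (red_{N'} z)` for `z ∈ O_{N'}`.
All names prefixed `m15r_`, namespace `Fermat.Agent.Lib.S15`.
-/
import Fermat.Agent.Lib.S15.RGaussAbs
import Fermat.Agent.Lib.S37.RInst
import Fermat.Agent.Lib.S37.LLevel
import Fermat.Agent.Lib.S18.NLift
import Fermat.Agent.Lib.S18.NResidue
import Fermat.Agent.Lib.S18.TIndepJ
import Fermat.Agent.Lib.S18.GDegree

set_option autoImplicit false
set_option linter.style.haveILetI false
set_option linter.unusedSectionVars false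
set_option linter.unusedVariables false
set_option synthInstance.maxHeartbeats 400000
set_option maxHeartbeats 800000

noncomputable section

namespace Fermat.Agent.Lib.S15

open ModularCurve HahnSeries AlgebraicCurve Fermat.Agent.Lib.S18 Fermat.Agent.Lib.S37
  Fermat.Agent.Lib.FF Polynomial

local notation "Qbar" => AlgebraicClosure ℚ

variable (A : ValuationSubring Qbar) {ℓ : ℕ} [Fact ℓ.Prime] (hA : A.LiesOverPrime ℓ)

local notation "κ" => IsLocalRing.ResidueField A

/-! ### Surjectivity of the reduction -/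

section Surj

variable (N : ℕ) [NeZero N] (hℓN : ¬ ℓ ∣ N)

/-- **the reduction `O_N → Fb(N)` is onto.** -/
theorem m15r_redF_surjective : Function.Surjective (s37r_redF A N hA hℓN) := by
  intro z
  obtain ⟨P, Q, hP, hQ, -, -, hz⟩ := s18n_exists_lift_div (A := A) (L := Qbar)
    (π := IsLocalRing.residue ↥A) (N := N) IsLocalRing.residue_surjective z.2
  by_cases hQ0 : coeffMap (IsLocalRing.residue ↥A) Q = 0
  · refine ⟨0, ?_⟩
    rw [map_zero]
    apply Subtype.ext
    rw [hz, hQ0, div_zero]
    rfl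
  · have hιQ : coeffMap A.subtype Q ≠ 0 := by
      intro h0
      apply hQ0
      have : Q = 0 := s37r_iota_injective A (by rw [h0, map_zero])
      rw [this, map_zero]
    set fP : ↥(modularFunctionFieldBar N) := ⟨coeffMap A.subtype P, hP⟩ with hfP
    set fQ : ↥(modularFunctionFieldBar N) := ⟨coeffMap A.subtype Q, hQ⟩ with hfQ
    have hfQ0 : fQ ≠ 0 := fun h0 => hιQ (congrArg Subtype.val h0)
    have hrel : coeffMap A.subtype Q * ((fP / fQ : ↥(modularFunctionFieldBar N)) :
        LaurentSeries Qbar) = coeffMap A.subtype P := by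
      have h1 : fQ * (fP / fQ) = fP := mul_div_cancel₀ fP hfQ0
      have h2 := congrArg (fun e : ↥(modularFunctionFieldBar N) => (e : LaurentSeries Qbar)) h1
      exact h2
    have hmem : fP / fQ ∈ s37r_OF A N hA := by
      rw [s37r_mem_OF_iff]
      exact ⟨P, Q, hQ0, hrel⟩
    refine ⟨⟨fP / fQ, hmem⟩, ?_⟩
    apply Subtype.ext
    rw [s37r_coe_redF, hz]
    exact s37r_red_eq A (IsLocalRing.residue ↥A) (s37r_OFtoO A N hA ⟨fP / fQ, hmem⟩) P Q hQ0 hrel

end Surj

/-! ### The special inclusion and the Gauss pair -/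

section Pair

variable (N N' : ℕ) [NeZero N] [NeZero N'] (hℓN : ¬ ℓ ∣ N) (hℓN' : ¬ ℓ ∣ N')

/-- the inclusion of special fibres for `N ∣ N'`. -/
def m15r_inclC (k : Type*) [Field k] (h : N ∣ N') :
    ↥(modularFunctionFieldFullC k N) →ₐ[k] ↥(modularFunctionFieldFullC k N') :=
  IntermediateField.inclusion (full_degeneracyC_le k h)

@[simp]
theorem m15r_coe_inclC (k : Type*) [Field k] (h : N ∣ N') (x : ↥(modularFunctionFieldFullC k N)) :
    ((m15r_inclC N N' k h x : ↥(modularFunctionFieldFullC k N')) : LaurentSeries k) =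
      (x : LaurentSeries k) :=
  IntermediateField.coe_inclusion _ x

variable (φ : ↥(modularFunctionFieldBar N) →ₐ[Qbar] ↥(modularFunctionFieldBar N'))
  (hφ : ∀ x, ((φ x : ↥(modularFunctionFieldBar N')) : LaurentSeries Qbar) = (x : LaurentSeries Qbar))
  (hdvd : N ∣ N')

include hφ in
/-- **the Gauss pair** of the tower `F(N) ⊆ F(N')`. -/
theorem m15r_gaussPair :
    letI := algebraAlong φ
    letI := algebraAlong (m15r_inclC N N' κ hdvd)
    m15r_GaussPair (s37r_OF A N hA) (s37r_OF A N' hA) (s37r_redF A N hA hℓN)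
      (s37r_redF A N' hA hℓN') := by
  letI := algebraAlong φ
  letI := algebraAlong (m15r_inclC N N' κ hdvd)
  have hincl : ∀ f : ↥(modularFunctionFieldBar N), f ∈ s37r_OF A N hA →
      φ f ∈ s37r_OF A N' hA := by
    intro f hf
    rw [s37r_mem_OF_iff, hφ]
    exact hf
  refine ⟨hincl, ?_, s37r9_inv_mem A N hA hℓN, m15r_redF_surjective A hA N' hℓN'⟩
  intro f hf
  apply Subtype.ext
  show ((s37r_redF A N' hA hℓN' ⟨φ f, hincl f hf⟩ : ↥(modularFunctionFieldFullC κ N')) :
      LaurentSeries κ) =
    ((m15r_inclC N N' κ hdvd (s37r_redF A N hA hℓN ⟨f, hf⟩) : ↥(modularFunctionFieldFullC κ N')) :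
      LaurentSeries κ)
  rw [m15r_coe_inclC, s37r_coe_redF, s37r_coe_redF]
  show s37r_red A _ (s37r_OFtoO A N' hA ⟨φ f, hincl f hf⟩) =
    s37r_red A _ (s37r_OFtoO A N hA ⟨f, hf⟩)
  congr 1
  exact Subtype.ext (hφ f)

end Pair

/-! ### Degrees over the `j`-line (level one) -/

section Degree

variable (M : ℕ) [NeZero M]

/-- generic side: any `G₁`-independent family of `F(M)` has at most `ψ(M)` elements. -/
theorem m15r_generic_card_le {n : ℕ} (f : Fin n → ↥(modularFunctionFieldBar M))
    (hf : letI := algebraAlong (s37l_incl 1 M (one_dvd M))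
      LinearIndependent ↥(modularFunctionFieldBar 1) f) : n ≤ dedekindPsi M := by
  letI := algebraAlong (s37l_incl 1 M (one_dvd M))
  by_contra hlt
  rw [not_le] at hlt
  obtain ⟨p, ⟨i₀, hi₀⟩, hrel⟩ := s18g_exists_relation_bar M hlt f
  let c : Fin n → ↥(modularFunctionFieldBar 1) := fun i => Polynomial.aeval (ffd_jBar 1) (p i)
  have hc : ∀ i, ((c i : ↥(modularFunctionFieldBar 1)) : LaurentSeries Qbar) =
      Polynomial.aeval ffd_jSeries (p i) := fun i =>
    (Polynomial.aeval_algHom_apply (modularFunctionFieldBar 1).val (ffd_jBar 1) (p i)).symm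
  have hsum : ∑ i, c i • f i = 0 := by
    apply Subtype.ext
    rw [ZeroMemClass.coe_zero, ← hrel, AddSubmonoidClass.coe_finsetSum]
    refine Finset.sum_congr rfl fun i _ => ?_
    show ((s37l_incl 1 M (one_dvd M) (c i) * f i : ↥(modularFunctionFieldBar M)) :
      LaurentSeries Qbar) = _
    rw [MulMemClass.coe_mul, s37l_coe_incl, hc]
  have h0 := (Fintype.linearIndependent_iff.mp hf) c hsum i₀
  have h1 : Polynomial.aeval ffd_jSeries (p i₀) = 0 := by
    rw [← hc, h0]; rfl
  exact hi₀ ((transcendental_iff.mp ffg_transcendental_jSeries) (p i₀) h1)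

/-- generic side: `F(M)` is finite over `F(1)`, of degree at most `ψ(M)`. -/
theorem m15r_generic_finite_and_finrank_le :
    letI := algebraAlong (s37l_incl 1 M (one_dvd M))
    Module.Finite ↥(modularFunctionFieldBar 1) ↥(modularFunctionFieldBar M) ∧
      Module.finrank ↥(modularFunctionFieldBar 1) ↥(modularFunctionFieldBar M) ≤ dedekindPsi M := by
  classical
  letI := algebraAlong (s37l_incl 1 M (one_dvd M))
  have hbound : ∀ s : Finset ↥(modularFunctionFieldBar M),
      LinearIndependent ↥(modularFunctionFieldBar 1)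
        (fun i : s => (i : ↥(modularFunctionFieldBar M))) → s.card ≤ dedekindPsi M := by
    intro s hs
    have h1 := (linearIndependent_equiv (s.equivFin).symm).mpr hs
    exact m15r_generic_card_le M _ h1
  have hrank : Module.rank ↥(modularFunctionFieldBar 1) ↥(modularFunctionFieldBar M) ≤
      (dedekindPsi M : ℕ) := rank_le hbound
  have hlt : Module.rank ↥(modularFunctionFieldBar 1) ↥(modularFunctionFieldBar M) <
      Cardinal.aleph0 := lt_of_le_of_lt hrank (Cardinal.nat_lt_aleph0 _)
  have hfin : Module.Finite ↥(modularFunctionFieldBar 1) ↥(modularFunctionFieldBar M) :=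
    Module.rank_lt_aleph0_iff.mp hlt
  refine ⟨hfin, ?_⟩
  rw [← Module.finrank_eq_rank] at hrank
  exact_mod_cast hrank

/-- the level-one special fibre is `k(j̄)`: every element is a quotient of polynomials in `j̄`. -/
theorem m15r_levelOne_rep (k : Type*) [Field k] (c : ↥(modularFunctionFieldFullC k 1)) :
    ∃ r s : k[X], s ≠ 0 ∧
      (c : LaurentSeries k) * Polynomial.aeval (jqModC k) s = Polynomial.aeval (jqModC k) r := by
  have hset : divisorExpansionsC k 1 = {jqModC k} := by
    ext x
    constructor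
    · rintro ⟨d, hd, hd1, rfl⟩
      have : d = 1 := Nat.dvd_one.mp hd1
      subst this
      rw [qExpand_one_apply]
      rfl
    · rintro rfl
      exact ⟨1, ⟨one_ne_zero⟩, dvd_rfl, (qExpand_one_apply _).symm⟩
  have hc : (c : LaurentSeries k) ∈ IntermediateField.adjoin k {jqModC k} := by
    rw [← hset]
    exact c.2
  obtain ⟨r, s, hrs⟩ := (IntermediateField.mem_adjoin_simple_iff k _).mp hc
  by_cases hs : Polynomial.aeval (jqModC k) s = 0
  · refine ⟨0, 1, one_ne_zero, ?_⟩
    rw [hrs, hs, div_zero, zero_mul, map_zero]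
  · refine ⟨r, s, fun h0 => hs (by rw [h0, map_zero]), ?_⟩
    rw [hrs, div_mul_cancel₀ _ hs]

/-- special side: `ψ(M) ≤ [Fb(M) : Fb(1)]` provided `Fb(M)` is finite over `Fb(1)`. -/
theorem m15r_special_le_finrank (k : Type*) [Field k] [CharP k ℓ] (hℓM : ¬ ℓ ∣ M)
    (hfin : letI := algebraAlong (m15r_inclC 1 M k (one_dvd M))
      Module.Finite ↥(modularFunctionFieldFullC k 1) ↥(modularFunctionFieldFullC k M)) :
    letI := algebraAlong (m15r_inclC 1 M k (one_dvd M))
    dedekindPsi M ≤
      Module.finrank ↥(modularFunctionFieldFullC k 1) ↥(modularFunctionFieldFullC k M) := by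
  classical
  letI := algebraAlong (m15r_inclC 1 M k (one_dvd M))
  haveI := hfin
  obtain ⟨m, θ, hm, hθ, hind⟩ := s18t_indep_j ℓ M hℓM k
  let θ' : Fin m → ↥(modularFunctionFieldFullC k M) := fun i => ⟨θ i, s18g_closure_le_fullC M (hθ i)⟩
  have htr := Fermat.Agent.Lib.S28.s28v_transcendental_jqModC k
  have hli : LinearIndependent ↥(modularFunctionFieldFullC k 1) θ' := by
    rw [Fintype.linearIndependent_iff]
    intro c hsum
    choose r s hs hrs using fun i => m15r_levelOne_rep k (c i)
    -- the relation in `k((q))`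
    have hsumL : ∑ i, (c i : LaurentSeries k) * θ i = 0 := by
      have h1 := congrArg (fun e : ↥(modularFunctionFieldFullC k M) => (e : LaurentSeries k)) hsum
      simp only [ZeroMemClass.coe_zero] at h1
      rw [← h1, AddSubmonoidClass.coe_finsetSum]
      refine Finset.sum_congr rfl fun i _ => ?_
      show _ = ((m15r_inclC 1 M k (one_dvd M) (c i) * θ' i : ↥(modularFunctionFieldFullC k M)) :
        LaurentSeries k)
      rw [MulMemClass.coe_mul, m15r_coe_inclC]
    let T : Fin m → k[X] := fun i => r i * ∏ j ∈ Finset.univ.erase i, s j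
    have hT : ∀ i, Polynomial.aeval (jqModC k) (T i) * θ i =
        Polynomial.aeval (jqModC k) (∏ j, s j) * ((c i : LaurentSeries k) * θ i) := by
      intro i
      have h1 : (∏ j, s j) = s i * ∏ j ∈ Finset.univ.erase i, s j :=
        (Finset.mul_prod_erase Finset.univ s (Finset.mem_univ i)).symm
      rw [h1]
      simp only [T, map_mul]
      rw [← hrs i]
      ring
    have hrel : ∑ i, Polynomial.aeval (jqModC k) (T i) * θ i = 0 := by
      rw [Finset.sum_congr rfl fun i _ => hT i, ← Finset.mul_sum, hsumL, mul_zero]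
    have hT0 := hind T hrel
    intro i
    have hTi : T i = 0 := congrFun hT0 i
    have hprod : (∏ j ∈ Finset.univ.erase i, s j) ≠ 0 :=
      Finset.prod_ne_zero_iff.mpr fun j _ => hs j
    have hri : r i = 0 := by
      rcases mul_eq_zero.mp hTi with h | h
      · exact h
      · exact absurd h hprod
    have h2 := hrs i
    rw [hri, map_zero] at h2
    have hsi : Polynomial.aeval (jqModC k) (s i) ≠ 0 := fun h0 =>
      hs i ((transcendental_iff.mp htr) (s i) h0)
    have h3 : (c i : LaurentSeries k) = 0 := (mul_eq_zero.mp h2).resolve_right hsi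
    exact Subtype.ext h3
  have := hli.fintype_card_le_finrank
  rw [Fintype.card_fin] at this
  omega

end Degree

/-! ### The degree of the special tower and the Gauss lemma for norms -/

section Main

variable (N N' : ℕ) [NeZero N] [NeZero N'] (hℓN' : ¬ ℓ ∣ N')
  (φ : ↥(modularFunctionFieldBar N) →ₐ[Qbar] ↥(modularFunctionFieldBar N'))
  (hφ : ∀ x, ((φ x : ↥(modularFunctionFieldBar N')) : LaurentSeries Qbar) = (x : LaurentSeries Qbar))
  (hdvd : N ∣ N')

set_option maxHeartbeats 3200000 in
include hA hℓN' hφ in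
/-- **`F(N')/F(N)` is finite and `[Fb(N') : Fb(N)] = [F(N') : F(N)]`.** -/
theorem m15r_finite_and_finrank_eq :
    letI := algebraAlong φ
    letI := algebraAlong (m15r_inclC N N' κ hdvd)
    Module.Finite ↥(modularFunctionFieldBar N) ↥(modularFunctionFieldBar N') ∧
      Module.Finite ↥(modularFunctionFieldFullC κ N) ↥(modularFunctionFieldFullC κ N') ∧
      Module.finrank ↥(modularFunctionFieldFullC κ N) ↥(modularFunctionFieldFullC κ N') =
        Module.finrank ↥(modularFunctionFieldBar N) ↥(modularFunctionFieldBar N') := by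
  have hℓ : ℓ.Prime := Fact.out
  have hℓN : ¬ ℓ ∣ N := fun h => hℓN' (h.trans hdvd)
  have hℓ1 : ¬ ℓ ∣ 1 := fun h => hℓ.one_lt.ne' (Nat.dvd_one.mp h)
  haveI : CharP κ ℓ := s18x_charP_residueField A hℓ hA
  -- the generic tower
  letI g₁ : Algebra ↥(modularFunctionFieldBar 1) ↥(modularFunctionFieldBar N) :=
    algebraAlong (s37l_incl 1 N (one_dvd N))
  letI g₂ : Algebra ↥(modularFunctionFieldBar N) ↥(modularFunctionFieldBar N') := algebraAlong φ
  letI g₃ : Algebra ↥(modularFunctionFieldBar 1) ↥(modularFunctionFieldBar N') :=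
    algebraAlong (s37l_incl 1 N' (one_dvd N'))
  haveI gt : IsScalarTower ↥(modularFunctionFieldBar 1) ↥(modularFunctionFieldBar N)
      ↥(modularFunctionFieldBar N') := IsScalarTower.of_algebraMap_eq fun x => by
    apply Subtype.ext
    show ((s37l_incl 1 N' (one_dvd N') x : ↥(modularFunctionFieldBar N')) : LaurentSeries Qbar) =
      ((φ (s37l_incl 1 N (one_dvd N) x) : ↥(modularFunctionFieldBar N')) : LaurentSeries Qbar)
    rw [hφ, s37l_coe_incl, s37l_coe_incl]
  obtain ⟨hfinN, hleN⟩ := m15r_generic_finite_and_finrank_le N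
  obtain ⟨hfinN', hleN'⟩ := m15r_generic_finite_and_finrank_le N'
  haveI := hfinN
  haveI := hfinN'
  haveI hfin₂ : Module.Finite ↥(modularFunctionFieldBar N) ↥(modularFunctionFieldBar N') :=
    Module.Finite.right ↥(modularFunctionFieldBar 1) ↥(modularFunctionFieldBar N)
      ↥(modularFunctionFieldBar N')
  have hgen := Module.finrank_mul_finrank ↥(modularFunctionFieldBar 1) ↥(modularFunctionFieldBar N)
    ↥(modularFunctionFieldBar N')
  -- the special tower
  letI s₁ : Algebra ↥(modularFunctionFieldFullC κ 1) ↥(modularFunctionFieldFullC κ N) :=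
    algebraAlong (m15r_inclC 1 N κ (one_dvd N))
  letI s₂ : Algebra ↥(modularFunctionFieldFullC κ N) ↥(modularFunctionFieldFullC κ N') :=
    algebraAlong (m15r_inclC N N' κ hdvd)
  letI s₃ : Algebra ↥(modularFunctionFieldFullC κ 1) ↥(modularFunctionFieldFullC κ N') :=
    algebraAlong (m15r_inclC 1 N' κ (one_dvd N'))
  haveI st : IsScalarTower ↥(modularFunctionFieldFullC κ 1) ↥(modularFunctionFieldFullC κ N)
      ↥(modularFunctionFieldFullC κ N') := IsScalarTower.of_algebraMap_eq fun x => by
    apply Subtype.ext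
    show ((m15r_inclC 1 N' κ (one_dvd N') x : ↥(modularFunctionFieldFullC κ N')) : LaurentSeries κ) =
      ((m15r_inclC N N' κ hdvd (m15r_inclC 1 N κ (one_dvd N) x) :
        ↥(modularFunctionFieldFullC κ N')) : LaurentSeries κ)
    rw [m15r_coe_inclC, m15r_coe_inclC, m15r_coe_inclC]
  -- the three Gauss pairs
  have hP₁ := m15r_gaussPair A hA 1 N hℓ1 hℓN (s37l_incl 1 N (one_dvd N))
    (fun x => s37l_coe_incl 1 N _ x) (one_dvd N)
  have hP₃ := m15r_gaussPair A hA 1 N' hℓ1 hℓN' (s37l_incl 1 N' (one_dvd N'))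
    (fun x => s37l_coe_incl 1 N' _ x) (one_dvd N')
  have hP₂ := m15r_gaussPair A hA N N' hℓN hℓN' φ hφ hdvd
  obtain ⟨hsfin₁, hsle₁⟩ := hP₁.finite_and_finrank_le
  obtain ⟨hsfin₃, hsle₃⟩ := hP₃.finite_and_finrank_le
  obtain ⟨hsfin₂, hsle₂⟩ := hP₂.finite_and_finrank_le
  haveI := hsfin₁
  haveI := hsfin₃
  haveI := hsfin₂
  have hspec := Module.finrank_mul_finrank ↥(modularFunctionFieldFullC κ 1)
    ↥(modularFunctionFieldFullC κ N) ↥(modularFunctionFieldFullC κ N')
  have hlow := m15r_special_le_finrank (ℓ := ℓ) N' κ hℓN' hsfin₃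
  have hpos : 0 < Module.finrank ↥(modularFunctionFieldFullC κ 1) ↥(modularFunctionFieldFullC κ N) :=
    Module.finrank_pos
  refine ⟨hfin₂, hsfin₂, le_antisymm hsle₂ ?_⟩
  -- `n̄ f̄_N = f̄_{N'} ≥ ψ(N') ≥ f_{N'} = n f_N ≥ n f̄_N`
  have h1 : Module.finrank ↥(modularFunctionFieldFullC κ 1) ↥(modularFunctionFieldFullC κ N) *
      Module.finrank ↥(modularFunctionFieldBar N) ↥(modularFunctionFieldBar N') ≤
      Module.finrank ↥(modularFunctionFieldFullC κ 1) ↥(modularFunctionFieldFullC κ N) *
      Module.finrank ↥(modularFunctionFieldFullC κ N) ↥(modularFunctionFieldFullC κ N') := by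
    calc _ ≤ Module.finrank ↥(modularFunctionFieldBar 1) ↥(modularFunctionFieldBar N) *
          Module.finrank ↥(modularFunctionFieldBar N) ↥(modularFunctionFieldBar N') :=
          Nat.mul_le_mul_right _ hsle₁
      _ = Module.finrank ↥(modularFunctionFieldBar 1) ↥(modularFunctionFieldBar N') := hgen
      _ ≤ dedekindPsi N' := hleN'
      _ ≤ Module.finrank ↥(modularFunctionFieldFullC κ 1) ↥(modularFunctionFieldFullC κ N') := hlow
      _ = _ := hspec.symm
  exact Nat.le_of_mul_le_mul_left h1 hpos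

include hA hℓN' hφ in
/-- **the Gauss lemma for norms in the modular tower**: for `z ∈ O_{N'}`, the norm of `z` to `F(N)`
is Gauss-integral and reduces to the norm of the reduction of `z`. -/
theorem m15r_norm_redF (z : ↥(s37r_OF A N' hA)) :
    letI := algebraAlong φ
    letI := algebraAlong (m15r_inclC N N' κ hdvd)
    ∃ hz : Algebra.norm ↥(modularFunctionFieldBar N) (z : ↥(modularFunctionFieldBar N')) ∈
        s37r_OF A N hA,
      s37r_redF A N hA (fun h => hℓN' (h.trans hdvd))
          ⟨Algebra.norm ↥(modularFunctionFieldBar N) (z : ↥(modularFunctionFieldBar N')), hz⟩ =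
        Algebra.norm ↥(modularFunctionFieldFullC κ N) (s37r_redF A N' hA hℓN' z) := by
  letI := algebraAlong φ
  letI := algebraAlong (m15r_inclC N N' κ hdvd)
  have hℓN : ¬ ℓ ∣ N := fun h => hℓN' (h.trans hdvd)
  obtain ⟨hfin, -, hn⟩ := m15r_finite_and_finrank_eq A hA N N' hℓN' φ hφ hdvd
  haveI := hfin
  exact (m15r_gaussPair A hA N N' hℓN hℓN' φ hφ hdvd).norm_red hn z

end Main

end Fermat.Agent.Lib.S15
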