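/-
(M) programme (S15), node [R] (helper9): the SPECIAL FIBRE side of the degeneracy maps.
`κ` algebraically closed of characteristic `ℓ`, `Fb(M) = modularFunctionFieldFullC κ M`.

* `m15r_psi`, `m15r_finite_separable_along` : abstract: if `E'` is finite separable over `κ(φ x)` for some
  `x ∈ E`, then `E'` is finite separable over `E` along `φ : E →ₐ[κ] E'`;
* `m15r_betaC`                 : the special `β̄ : Fb(N) → Fb(N·q)`, `f(T) ↦ f(T^q)`;
* `m15r_special_finite_separable` : any `φ : Fb(N) →ₐ[κ] Fb(N')` with `ℓ ∤ ord_T (φ j̄)` is finite separable;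
* `m15r_special_fundamentalIdentityAlong`, `m15r_special_normFormulaAlong` : fundamental identity and norm
  formula along such a `φ` (Prelude `…Along` forms), via [SF1] (`RLocal`, `RNorm`);
* instances: `m15r_inclC` (order `-1`), `m15r_betaC` (order `-q`, `q ≠ ℓ` prime).
-/
import Fermat.Agent.Lib.S15.RNorm
import Fermat.Agent.Lib.S15.RTower
import Fermat.Agent.Lib.S44.RSepDiv
import Fermat.Agent.Lib.S37.DegOne
import Fermat.Agent.Lib.S34.XKron
import Fermat.Prelude.Def_AlgebraicCurve_Correspondence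

set_option autoImplicit false
set_option linter.style.haveILetI false
set_option linter.unusedSectionVars false
set_option linter.unusedVariables false
set_option synthInstance.maxHeartbeats 400000
set_option maxHeartbeats 800000

noncomputable section

namespace Fermat.Agent.Lib.S15

open ModularCurve HahnSeries AlgebraicCurve IntermediateField Fermat.Agent.Lib.S18
  Fermat.Agent.Lib.S37 Fermat.Agent.Lib.S44 Fermat.Agent.Lib.S34 Fermat.Agent.Lib.FF

/-! ### Abstract: finite separable along a homomorphism -/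

section Abs

variable {κ E E' : Type*} [Field κ] [Field E] [Field E'] [Algebra κ E] [Algebra κ E']

theorem m15r_adjoin_le_range (φ : E →ₐ[κ] E') (x : E) : (κ⟮φ x⟯).toSubalgebra ≤ φ.range := by
  intro y hy
  have h1 : κ⟮φ x⟯ ≤ φ.fieldRange := by
    rw [IntermediateField.adjoin_simple_le_iff]
    exact ⟨x, rfl⟩
  obtain ⟨e, he⟩ := h1 hy
  exact ⟨e, he⟩

/-- the section `κ(φ x) → E` of `φ`. -/
def m15r_psi (φ : E →ₐ[κ] E') (x : E) : ↥κ⟮φ x⟯ →ₐ[κ] E :=
  ((AlgEquiv.ofInjectiveField φ).symm : ↥φ.range →ₐ[κ] E).comp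
    (Subalgebra.inclusion (m15r_adjoin_le_range φ x))

theorem m15r_phi_psi (φ : E →ₐ[κ] E') (x : E) (c : ↥κ⟮φ x⟯) :
    φ (m15r_psi φ x c) = (c : E') := by
  set y : ↥φ.range := Subalgebra.inclusion (m15r_adjoin_le_range φ x) c with hy
  have h1 : (AlgEquiv.ofInjectiveField φ) ((AlgEquiv.ofInjectiveField φ).symm y) = y :=
    AlgEquiv.apply_symm_apply _ y
  have h2 := congrArg (fun z : ↥φ.range => (z : E')) h1
  exact h2

/-- **finite separable over `κ(φ x)` ⇒ finite separable along `φ`.** -/
theorem m15r_finite_separable_along (φ : E →ₐ[κ] E') (x : E) [Module.Finite ↥κ⟮φ x⟯ E']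
    [Algebra.IsSeparable ↥κ⟮φ x⟯ E'] :
    letI := algebraAlong φ
    Module.Finite E E' ∧ Algebra.IsSeparable E E' := by
  letI := algebraAlong φ
  letI : Algebra ↥κ⟮φ x⟯ E := (m15r_psi φ x).toRingHom.toAlgebra
  haveI : IsScalarTower ↥κ⟮φ x⟯ E E' :=
    IsScalarTower.of_algebraMap_eq fun c => (m15r_phi_psi φ x c).symm
  exact ⟨Module.Finite.of_restrictScalars_finite ↥κ⟮φ x⟯ E E',
    Algebra.isSeparable_tower_top_of_isSeparable ↥κ⟮φ x⟯ E E'⟩

end Abs

/-! ### The special `β̄` -/

section Beta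

variable (k : Type*) [Field k] (N q : ℕ) [NeZero N] [NeZero q]

/-- the ring homomorphism `f(T) ↦ f(T^q)` from `Fb(N)` to `Fb(N·q)`. -/
def m15r_betaCRingHom :
    ↥(modularFunctionFieldFullC k N) →+* ↥(modularFunctionFieldFullC k (N * q)) where
  toFun x := ⟨qExpand k q (x : LaurentSeries k),
    full_degeneracyC_map_le k N q ⟨(x : LaurentSeries k), x.2, rfl⟩⟩
  map_one' := Subtype.ext (map_one (qExpand k q))
  map_mul' _ _ := Subtype.ext (map_mul (qExpand k q) _ _)
  map_zero' := Subtype.ext (map_zero (qExpand k q))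
  map_add' _ _ := Subtype.ext (map_add (qExpand k q) _ _)

/-- **the special `β̄`**. -/
def m15r_betaC :
    ↥(modularFunctionFieldFullC k N) →ₐ[k] ↥(modularFunctionFieldFullC k (N * q)) :=
  { m15r_betaCRingHom k N q with
    commutes' := fun a => Subtype.ext <| by
      show qExpand k q (algebraMap k (LaurentSeries k) a) = algebraMap k (LaurentSeries k) a
      rw [algebraMap_laurentSeries_eq_single, qExpand_single, mul_zero] }

@[simp]
theorem m15r_coe_betaC (x : ↥(modularFunctionFieldFullC k N)) :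
    ((m15r_betaC k N q x : ↥(modularFunctionFieldFullC k (N * q))) : LaurentSeries k) =
      qExpand k q (x : LaurentSeries k) :=
  rfl

end Beta

/-! ### Finite separable homomorphisms of special fibres -/

section Special

variable (κ : Type*) [Field κ] [IsAlgClosed κ] (ℓ : ℕ) [Fact ℓ.Prime] [CharP κ ℓ]
  (N N' : ℕ) [NeZero N] [NeZero N']

/-- a `κ`-homomorphism `φ : Fb(N) → Fb(N')` such that `φ j̄` has `T`-order prime to `ℓ` is finite
separable. -/
theorem m15r_special_finite_separable
    (φ : ↥(modularFunctionFieldFullC κ N) →ₐ[κ] ↥(modularFunctionFieldFullC κ N'))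
    (hord : ¬ (ℓ : ℤ) ∣ ((φ (s44rq_jbar κ N) : ↥(modularFunctionFieldFullC κ N')) :
      LaurentSeries κ).order) :
    letI := algebraAlong φ
    Module.Finite ↥(modularFunctionFieldFullC κ N) ↥(modularFunctionFieldFullC κ N') ∧
      Algebra.IsSeparable ↥(modularFunctionFieldFullC κ N) ↥(modularFunctionFieldFullC κ N') := by
  have hf := s37b_not_pow κ N' ℓ (φ (s44rq_jbar κ N)) hord
  haveI := s44rq_jbar_ffGen κ N'
  obtain ⟨hgen, hsep⟩ := s44rq_sep_of_not_pow (K := κ) (s44rq_jbar κ N') ℓ hf
  haveI : Module.Finite ↥κ⟮φ (s44rq_jbar κ N)⟯ ↥(modularFunctionFieldFullC κ N') := hgen.finite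
  haveI := hsep
  exact m15r_finite_separable_along φ (s44rq_jbar κ N)

/-- such a `φ` is finite. -/
theorem m15r_special_finiteAlong
    (φ : ↥(modularFunctionFieldFullC κ N) →ₐ[κ] ↥(modularFunctionFieldFullC κ N'))
    (hord : ¬ (ℓ : ℤ) ∣ ((φ (s44rq_jbar κ N) : ↥(modularFunctionFieldFullC κ N')) :
      LaurentSeries κ).order) : FiniteAlong κ φ :=
  (m15r_special_finite_separable κ ℓ N N' φ hord).1

/-- such a `φ` is integral. -/
theorem m15r_special_isIntegral
    (φ : ↥(modularFunctionFieldFullC κ N) →ₐ[κ] ↥(modularFunctionFieldFullC κ N'))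
    (hord : ¬ (ℓ : ℤ) ∣ ((φ (s44rq_jbar κ N) : ↥(modularFunctionFieldFullC κ N')) :
      LaurentSeries κ).order) : φ.toRingHom.IsIntegral := by
  letI := algebraAlong φ
  haveI : Module.Finite ↥(modularFunctionFieldFullC κ N) ↥(modularFunctionFieldFullC κ N') :=
    m15r_special_finiteAlong κ ℓ N N' φ hord
  exact (Algebra.IsIntegral.of_finite ↥(modularFunctionFieldFullC κ N)
    ↥(modularFunctionFieldFullC κ N')).isIntegral

/-- residue fields of places of the special fibre are `κ`. -/
theorem m15r_special_residue_surjective (v : Place κ ↥(modularFunctionFieldFullC κ N)) :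
    Function.Surjective (algebraMap κ v.ResidueField) :=
  haveI := s44rq_jbar_ffGen κ N
  s37dg_residue_surjective (s44rq_jbar κ N) v

/-- **[SF1] on the special fibre: the fundamental identity along `φ`.** -/
theorem m15r_special_fundamentalIdentityAlong
    (φ : ↥(modularFunctionFieldFullC κ N) →ₐ[κ] ↥(modularFunctionFieldFullC κ N'))
    (hord : ¬ (ℓ : ℤ) ∣ ((φ (s44rq_jbar κ N) : ↥(modularFunctionFieldFullC κ N')) :
      LaurentSeries κ).order) (hφ : φ.toRingHom.IsIntegral) :
    haveI := s44rq_fbar_hasPrincipalDivisors κ N' ℓ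
    FundamentalIdentityAlong κ φ hφ := by
  haveI := s44rq_fbar_hasPrincipalDivisors κ N' ℓ
  letI := algebraAlong φ
  haveI := isScalarTower_along φ
  haveI := isIntegral_along φ hφ
  obtain ⟨hfin, hsep⟩ := m15r_special_finite_separable κ ℓ N N' φ hord
  haveI : FiniteDimensional ↥(modularFunctionFieldFullC κ N) ↥(modularFunctionFieldFullC κ N') :=
    hfin
  haveI := hsep
  haveI := m15r_sumRamificationInertia (K := κ) (F := ↥(modularFunctionFieldFullC κ N))
    (F' := ↥(modularFunctionFieldFullC κ N')) (m15r_special_residue_surjective κ N)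
    (s44rq_fbar_deg_eq_one κ N')
  show FundamentalIdentity κ ↥(modularFunctionFieldFullC κ N) ↥(modularFunctionFieldFullC κ N')
  infer_instance

/-- **[SF1] on the special fibre: the norm formula along `φ`.** -/
theorem m15r_special_normFormulaAlong
    (φ : ↥(modularFunctionFieldFullC κ N) →ₐ[κ] ↥(modularFunctionFieldFullC κ N'))
    (hord : ¬ (ℓ : ℤ) ∣ ((φ (s44rq_jbar κ N) : ↥(modularFunctionFieldFullC κ N')) :
      LaurentSeries κ).order) (hfin : FiniteAlong κ φ) :
    NormFormulaAlong κ φ hfin := by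
  haveI := s44rq_fbar_hasPrincipalDivisors κ N' ℓ
  letI := algebraAlong φ
  haveI := isScalarTower_along φ
  obtain ⟨-, hsep⟩ := m15r_special_finite_separable κ ℓ N N' φ hord
  haveI : FiniteDimensional ↥(modularFunctionFieldFullC κ N) ↥(modularFunctionFieldFullC κ N') :=
    hfin
  haveI := hsep
  exact m15r_pushforwardNormFormula (K := κ) (F := ↥(modularFunctionFieldFullC κ N))
    (F' := ↥(modularFunctionFieldFullC κ N')) (m15r_special_residue_surjective κ N)
    (s44rq_fbar_deg_eq_one κ N')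

/-! ### The two instances -/

/-- the order condition for the inclusion. -/
theorem m15r_hord_inclC (h : N ∣ N') :
    ¬ (ℓ : ℤ) ∣ ((m15r_inclC N N' κ h (s44rq_jbar κ N) : ↥(modularFunctionFieldFullC κ N')) :
      LaurentSeries κ).order := by
  rw [m15r_coe_inclC]
  exact (s37b_coord_jq κ ℓ).2.1

/-- the order condition for `β̄` (`q ≠ ℓ` prime). -/
theorem m15r_hord_betaC (q : ℕ) [NeZero q] (hq : q.Prime) (hqℓ : q ≠ ℓ) :
    ¬ (ℓ : ℤ) ∣ ((m15r_betaC κ N q (s44rq_jbar κ N) : ↥(modularFunctionFieldFullC κ (N * q))) :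
      LaurentSeries κ).order := by
  rw [m15r_coe_betaC]
  show ¬ (ℓ : ℤ) ∣ (qExpand κ q (jqModC κ)).order
  rw [s34x_order_qExpand q (jqModC_ne_zero_of_nontrivial κ), s18t_order_jqModC, mul_neg, mul_one,
    dvd_neg]
  intro h
  have h1 : ℓ ∣ q := by exact_mod_cast h
  exact hqℓ ((Nat.prime_dvd_prime_iff_eq (Fact.out : ℓ.Prime) hq).mp h1).symm

end Special

end Fermat.Agent.Lib.S15
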