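/-
(M) programme (S15), node [R] (helper9), brick [SF4]: **conservation of number for ALL Gauss units**.
From the Prelude's `IsPlaceReductionModL A M r` (conservation for integral Laurent series) and
`PrincipalGeneratedByIntegral` we get, for every `y ∈ O_M` (Gauss valuation ring `s37r_OF`) with
non-zero reduction: `r_*(div y) = div(red y)`.
Proof: the divisors `div y` (`y` a Gauss unit satisfying conservation) form a subgroup containing the
integral principal divisors, hence all principal divisors; so `div y = div y'` for a Gauss unit `y'`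
satisfying conservation, `y = c y'` with `c` a constant, a Gauss unit, hence `c ∈ Aˣ`.
-/
import Fermat.Agent.Lib.S37.RBridge
import Fermat.Agent.Lib.S37.RInst
import Fermat.Agent.Lib.S18.EConst
import Fermat.Agent.Lib.FF.FFBasicPlace

set_option autoImplicit false
set_option linter.style.haveILetI false
set_option linter.unusedSectionVars false
set_option linter.unusedVariables false
set_option synthInstance.maxHeartbeats 400000
set_option maxHeartbeats 800000

noncomputable section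

namespace Fermat.Agent.Lib.S15

open ModularCurve HahnSeries AlgebraicCurve Fermat.Agent.Lib.S18 Fermat.Agent.Lib.S37
  Fermat.Agent.Lib.FF

local notation "Qbar" => AlgebraicClosure ℚ

variable (A : ValuationSubring Qbar) (M : ℕ) [NeZero M] {ℓ : ℕ} [Fact ℓ.Prime]
  (hA : A.LiesOverPrime ℓ) (hℓM : ¬ ℓ ∣ M)

local notation "κ" => IsLocalRing.ResidueField A

variable (r : Place Qbar ↥(modularFunctionFieldBar M) →
  Place (IsLocalRing.ResidueField A) ↥(modularFunctionFieldFullC (IsLocalRing.ResidueField A) M))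

/-- a Gauss unit is non-zero. -/
theorem m15r_ne_zero_of_red_ne_zero (y : ↥(modularFunctionFieldBar M)) (hy : y ∈ s37r_OF A M hA)
    (hne : s37r_redF A M hA hℓM ⟨y, hy⟩ ≠ 0) : y ≠ 0 := by
  intro h0
  apply hne
  have : (⟨y, hy⟩ : ↥(s37r_OF A M hA)) = 0 := Subtype.ext h0
  rw [this, map_zero]

/-- the subgroup of divisors of Gauss units for which conservation of number holds. -/
def m15r_consGroup : AddSubgroup (Divisor Qbar ↥(modularFunctionFieldBar M)) where
  carrier := {D | ∃ (y : ↥(modularFunctionFieldBar M)) (hy : y ∈ s37r_OF A M hA),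
    s37r_redF A M hA hℓM ⟨y, hy⟩ ≠ 0 ∧ (∀ P, D P = P.ord y) ∧
      ∀ Q, Finsupp.mapDomain r D Q = Q.ord (s37r_redF A M hA hℓM ⟨y, hy⟩)}
  zero_mem' := by
    refine ⟨1, one_mem (s37r_OF A M hA), ?_, fun P => ?_, fun Q => ?_⟩
    · have : (⟨1, one_mem (s37r_OF A M hA)⟩ : ↥(s37r_OF A M hA)) = 1 := rfl
      rw [this, map_one]
      exact one_ne_zero
    · rw [Finsupp.zero_apply, Place.ord_one]
    · have : (⟨1, one_mem (s37r_OF A M hA)⟩ : ↥(s37r_OF A M hA)) = 1 := rfl
      rw [this, map_one, Finsupp.mapDomain_zero, Finsupp.zero_apply, Place.ord_one]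
  add_mem' := by
    rintro D₁ D₂ ⟨y₁, hy₁, hne₁, hD₁, hc₁⟩ ⟨y₂, hy₂, hne₂, hD₂, hc₂⟩
    have h10 := m15r_ne_zero_of_red_ne_zero A M hA hℓM y₁ hy₁ hne₁
    have h20 := m15r_ne_zero_of_red_ne_zero A M hA hℓM y₂ hy₂ hne₂
    have hmul : (⟨y₁ * y₂, mul_mem hy₁ hy₂⟩ : ↥(s37r_OF A M hA)) =
        ⟨y₁, hy₁⟩ * ⟨y₂, hy₂⟩ := rfl
    refine ⟨y₁ * y₂, mul_mem hy₁ hy₂, ?_, fun P => ?_, fun Q => ?_⟩
    · rw [hmul, map_mul]
      exact mul_ne_zero hne₁ hne₂
    · rw [Finsupp.add_apply, hD₁, hD₂, P.ord_mul h10 h20]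
    · rw [hmul, map_mul, Q.ord_mul hne₁ hne₂, Finsupp.mapDomain_add, Finsupp.add_apply, hc₁, hc₂]
  neg_mem' := by
    rintro D ⟨y, hy, hne, hD, hc⟩
    have h0 := m15r_ne_zero_of_red_ne_zero A M hA hℓM y hy hne
    have hinv := s37r9_inv_mem A M hA hℓM ⟨y, hy⟩ hne
    have hmul : (⟨y⁻¹, hinv⟩ : ↥(s37r_OF A M hA)) * ⟨y, hy⟩ = 1 :=
      Subtype.ext (inv_mul_cancel₀ h0)
    have hred : s37r_redF A M hA hℓM ⟨y⁻¹, hinv⟩ = (s37r_redF A M hA hℓM ⟨y, hy⟩)⁻¹ := by
      apply eq_inv_of_mul_eq_one_left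
      rw [← map_mul, hmul, map_one]
    refine ⟨y⁻¹, hinv, ?_, fun P => ?_, fun Q => ?_⟩
    · rw [hred]
      exact inv_ne_zero hne
    · rw [Finsupp.neg_apply, hD, P.ord_inv]
    · rw [hred, Q.ord_inv, ← Finsupp.mapDomain.addMonoidHom_apply, map_neg,
        Finsupp.mapDomain.addMonoidHom_apply, Finsupp.neg_apply, hc]

variable {r}

include hA hℓM in
/-- integral principal divisors satisfy conservation. -/
theorem m15r_integral_le_consGroup (hr : IsPlaceReductionModL A M r) :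
    integralPrincipalDivisors A (IsLocalRing.residue ↥A) M ⊆ (m15r_consGroup A M hA hℓM r : Set _) := by
  rintro D ⟨Y, hY, hYk, hne, hD⟩
  have hyO := s37r_iota_mem_OF A M hA Y hY
  have hred : s37r_redF A M hA hℓM ⟨⟨coeffMap A.subtype Y, hY⟩, hyO⟩ =
      ⟨coeffMap (IsLocalRing.residue ↥A) Y, hYk⟩ :=
    Subtype.ext (s37r_redV_iota A M hA Y hY)
  refine ⟨⟨coeffMap A.subtype Y, hY⟩, hyO, ?_, hD, fun Q => ?_⟩
  · rw [hred]
    exact fun h0 => hne (congrArg Subtype.val h0)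
  · rw [hred]
    exact hr.2 Y hY hYk hne D hD Q

include hA hℓM in
/-- a constant which is a Gauss unit lies in `A`. -/
theorem m15r_const_mem_of_unit (c : Qbar) (hc0 : c ≠ 0)
    (hc : algebraMap Qbar ↥(modularFunctionFieldBar M) c ∈ s37r_OF A M hA) : c ∈ A := by
  by_contra hcA
  have hinvA : c⁻¹ ∈ A := (A.mem_or_inv_mem c).resolve_left hcA
  have hres : IsLocalRing.residue ↥A ⟨c⁻¹, hinvA⟩ = 0 :=
    s37r9_residue_eq_zero A c⁻¹ hinvA (by rwa [inv_inv])
  have hred := s37r9_red_const A M hA hℓM ⟨c⁻¹, hinvA⟩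
  rw [hres, map_zero] at hred
  have hmul : (⟨algebraMap Qbar ↥(modularFunctionFieldBar M) ((⟨c⁻¹, hinvA⟩ : ↥A) : Qbar),
      s37r4_const_mem_OF A M hA ((⟨c⁻¹, hinvA⟩ : ↥A) : Qbar) hinvA⟩ : ↥(s37r_OF A M hA)) *
      ⟨algebraMap Qbar ↥(modularFunctionFieldBar M) c, hc⟩ = 1 := by
    apply Subtype.ext
    show algebraMap Qbar ↥(modularFunctionFieldBar M) c⁻¹ *
      algebraMap Qbar ↥(modularFunctionFieldBar M) c = 1
    rw [← map_mul, inv_mul_cancel₀ hc0, map_one]
  have h1 := congrArg (s37r_redF A M hA hℓM) hmul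
  rw [map_mul, hred, zero_mul, map_one] at h1
  exact zero_ne_one h1

include hA hℓM in
/-- **[SF4] conservation of number for every Gauss unit.** -/
theorem m15r_cons_units (hr : IsPlaceReductionModL A M r)
    (hgen : PrincipalGeneratedByIntegral A (IsLocalRing.residue ↥A) M)
    (y : ↥(modularFunctionFieldBar M)) (hy : y ∈ s37r_OF A M hA)
    (hne : s37r_redF A M hA hℓM ⟨y, hy⟩ ≠ 0)
    (Dv : Divisor Qbar ↥(modularFunctionFieldBar M)) (hDv : ∀ P, Dv P = P.ord y)
    (Q : Place κ ↥(modularFunctionFieldFullC κ M)) :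
    Finsupp.mapDomain r Dv Q = Q.ord (s37r_redF A M hA hℓM ⟨y, hy⟩) := by
  have hy0 := m15r_ne_zero_of_red_ne_zero A M hA hℓM y hy hne
  have hprin : Dv ∈ Divisor.principal (K := Qbar) (F := ↥(modularFunctionFieldBar M)) :=
    ⟨y, hy0, hDv⟩
  have hcl : AddSubgroup.closure (integralPrincipalDivisors A (IsLocalRing.residue ↥A) M) ≤
      m15r_consGroup A M hA hℓM r :=
    (AddSubgroup.closure_le _).mpr (m15r_integral_le_consGroup A M hA hℓM hr)
  obtain ⟨y', hy', hne', hD', hc'⟩ := hcl (hgen hprin)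
  have hy'0 := m15r_ne_zero_of_red_ne_zero A M hA hℓM y' hy' hne'
  have hinv' := s37r9_inv_mem A M hA hℓM ⟨y', hy'⟩ hne'
  -- the quotient is a constant
  have hord : ∀ P : Place Qbar ↥(modularFunctionFieldBar M), 0 ≤ P.ord (y * y'⁻¹) := by
    intro P
    rw [P.ord_mul hy0 (inv_ne_zero hy'0), P.ord_inv, ← hDv, ← hD', add_neg_cancel]
  obtain ⟨c, hc⟩ := s18e_const_of_ord_nonneg M (y * y'⁻¹) hord
  have hc0 : c ≠ 0 := by
    intro h0
    rw [h0, map_zero] at hc
    exact mul_ne_zero hy0 (inv_ne_zero hy'0) hc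
  have hcO : algebraMap Qbar ↥(modularFunctionFieldBar M) c ∈ s37r_OF A M hA := by
    rw [← hc]
    exact mul_mem hy hinv'
  have hcA : c ∈ A := m15r_const_mem_of_unit A M hA hℓM c hc0 hcO
  have hredc := s37r9_red_const A M hA hℓM ⟨c, hcA⟩
  have hyeq : (⟨y, hy⟩ : ↥(s37r_OF A M hA)) =
      ⟨algebraMap Qbar ↥(modularFunctionFieldBar M) ((⟨c, hcA⟩ : ↥A) : Qbar),
        s37r4_const_mem_OF A M hA ((⟨c, hcA⟩ : ↥A) : Qbar) hcA⟩ * ⟨y', hy'⟩ := by
    apply Subtype.ext
    show y = algebraMap Qbar ↥(modularFunctionFieldBar M) c * y'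
    rw [← hc, mul_assoc, inv_mul_cancel₀ hy'0, mul_one]
  have hredy : s37r_redF A M hA hℓM ⟨y, hy⟩ =
      algebraMap κ ↥(modularFunctionFieldFullC κ M) (IsLocalRing.residue ↥A ⟨c, hcA⟩) *
        s37r_redF A M hA hℓM ⟨y', hy'⟩ := by
    rw [hyeq, map_mul, hredc]
  have hcb : algebraMap κ ↥(modularFunctionFieldFullC κ M) (IsLocalRing.residue ↥A ⟨c, hcA⟩) ≠ 0 := by
    intro h0
    rw [hredy, h0, zero_mul] at hne
    exact hne rfl
  rw [hredy, Q.ord_mul hcb hne', ff_ord_algebraMap, zero_add]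
  exact hc' Q

end Fermat.Agent.Lib.S15
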