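/-
(M) programme, node [RED23] (helper3, prefix `m15g_`), part D: DESCENT OF THE PLACE REDUCTION from
level `M` to level `N ∣ M` (`ℓ ∤ M`): instantiation of the abstract lemma `m15g_descent_abstract`
with helper9's bricks [SF1]–[SF4] (`RLocal/RNorm/RGaussAbs/RTower/RSpecial/RUnits`).
-/
import Mathlib
import Fermat.Agent.Lib.S15.GDescC
import Fermat.Agent.Lib.S15.RTower
import Fermat.Agent.Lib.S15.RSpecial
import Fermat.Agent.Lib.S15.RUnits
import Fermat.Agent.Lib.S37.UFinal
import Fermat.Agent.Lib.S37.LLevel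
import Fermat.Agent.Lib.S37.GGen
import Fermat.Agent.Lib.S37.RBridge
import Fermat.Agent.Lib.S44.RSepDiv
import Fermat.Prelude.Def_ModularCurve_ReductionModL

set_option autoImplicit false
set_option linter.unusedSectionVars false
set_option linter.unusedVariables false
set_option linter.style.haveILetI false
set_option synthInstance.maxHeartbeats 400000
set_option maxHeartbeats 1600000

noncomputable section

namespace Fermat.Agent.Lib.S15

open ModularCurve AlgebraicCurve Fermat.Agent.Lib.FF Fermat.Agent.Lib.S18 Fermat.Agent.Lib.S37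
  Fermat.Agent.Lib.S44 Fermat.Agent.Lib.S28

local notation "Qbar" => AlgebraicClosure ℚ

section NonConst

variable {X Y : Type*}

theorem m15g_exists_of_mapDomain_ne_zero (r : X → Y) (D : X →₀ ℤ) (R : Y)
    (h : Finsupp.mapDomain r D R ≠ 0) : ∃ w, r w = R := by
  classical
  rw [m15g_mapDomain_apply] at h
  obtain ⟨w, -, hw⟩ := Finset.exists_ne_zero_of_sum_ne_zero h
  by_cases hr : r w = R
  · exact ⟨w, hr⟩
  · rw [if_neg hr] at hw
    exact absurd rfl hw

end NonConst

section Descent

variable (A : ValuationSubring Qbar) {ℓ : ℕ} [Fact ℓ.Prime] (hA : A.LiesOverPrime ℓ)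
  (N M : ℕ) [NeZero N] [NeZero M] (hℓM : ¬ ℓ ∣ M) (hdvd : N ∣ M)

/-- `j̄` has a zero and a pole on the special fibre. -/
theorem m15g_jbar_zero_pole (κ : Type*) [Field κ] [IsAlgClosed κ] [CharP κ ℓ] (hℓM : ¬ ℓ ∣ M) :
    (∃ R : Place κ ↥(modularFunctionFieldFullC κ M), 0 < R.ord (s44rq_jbar κ M)) ∧
      ∃ R : Place κ ↥(modularFunctionFieldFullC κ M), R.ord (s44rq_jbar κ M) < 0 := by
  have htr : Transcendental κ (s44rq_jbar κ M) := (s44rq_jbar_ffGen κ M).transc
  have hPL := s28t_primeLevelAll κ ℓ M hℓM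
  constructor
  · by_contra hno
    push Not at hno
    obtain ⟨c, hc⟩ := s18n_const_of_primeLevelAll κ M hPL (s44rq_jbar κ M)⁻¹ (fun Q => by
      rw [Q.ord_inv]
      have := hno Q
      omega)
    apply htr
    have : s44rq_jbar κ M = algebraMap κ ↥(modularFunctionFieldFullC κ M) c⁻¹ := by
      rw [map_inv₀, ← hc, inv_inv]
    rw [this]
    exact isAlgebraic_algebraMap _
  · by_contra hno
    push Not at hno
    obtain ⟨c, hc⟩ := s18n_const_of_primeLevelAll κ M hPL (s44rq_jbar κ M) hno
    apply htr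
    rw [hc]
    exact isAlgebraic_algebraMap _

/-- the Gauss pairs at level `M`. -/
def m15g_Red (z : ↥(modularFunctionFieldBar M))
    (zb : ↥(modularFunctionFieldFullC (IsLocalRing.ResidueField A) M)) : Prop :=
  ∃ hz : z ∈ s37r_OF A M hA, s37r_redF A M hA hℓM ⟨z, hz⟩ = zb ∧ zb ≠ 0

theorem m15g_Red_ne (z : ↥(modularFunctionFieldBar M))
    (zb : ↥(modularFunctionFieldFullC (IsLocalRing.ResidueField A) M))
    (h : m15g_Red A hA M hℓM z zb) : z ≠ 0 ∧ zb ≠ 0 := by
  obtain ⟨hz, hred, hzb⟩ := h
  exact ⟨m15r_ne_zero_of_red_ne_zero A M hA hℓM z hz (by rw [hred]; exact hzb), hzb⟩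

theorem m15g_Red_cons
    {r' : Place Qbar ↥(modularFunctionFieldBar M) →
      Place (IsLocalRing.ResidueField A) ↥(modularFunctionFieldFullC (IsLocalRing.ResidueField A) M)}
    (hr' : IsPlaceReductionModL A M r')
    (z : ↥(modularFunctionFieldBar M))
    (zb : ↥(modularFunctionFieldFullC (IsLocalRing.ResidueField A) M))
    (h : m15g_Red A hA M hℓM z zb) (D : Divisor Qbar ↥(modularFunctionFieldBar M))
    (hD : ∀ w, D w = w.ord z)
    (R : Place (IsLocalRing.ResidueField A)
      ↥(modularFunctionFieldFullC (IsLocalRing.ResidueField A) M)) :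
    Finsupp.mapDomain r' D R = R.ord zb := by
  obtain ⟨hz, hred, hzb⟩ := h
  have := m15r_cons_units A M hA hℓM hr' (s37g_principalGenerated M hℓM A hA) z hz
    (by rw [hred]; exact hzb) D hD R
  rw [this, hred]

theorem m15g_Red_gen :
    Divisor.principal (K := Qbar) (F := ↥(modularFunctionFieldBar M)) ≤
      AddSubgroup.closure {D | ∃ z zb, m15g_Red A hA M hℓM z zb ∧ ∀ w, D w = w.ord z} := by
  refine le_trans (s37g_principalGenerated M hℓM A hA) (AddSubgroup.closure_mono ?_)
  rintro D ⟨y, hy, hyk, hne, hD⟩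
  have hyO := s37r_iota_mem_OF A M hA y hy
  have hred : s37r_redF A M hA hℓM ⟨⟨coeffMap A.subtype y, hy⟩, hyO⟩ =
      ⟨coeffMap (IsLocalRing.residue ↥A) y, hyk⟩ :=
    Subtype.ext (s37r_redV_iota A M hA y hy)
  exact ⟨⟨_, hy⟩, ⟨_, hyk⟩, ⟨hyO, hred, fun h0 => hne (congrArg Subtype.val h0)⟩, hD⟩

/-- the Gauss pairs are stable under the norm to level `N`. -/
theorem m15g_Red_norm (z : ↥(modularFunctionFieldBar M))
    (zb : ↥(modularFunctionFieldFullC (IsLocalRing.ResidueField A) M))
    (h : m15g_Red A hA M hℓM z zb) :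
    letI := algebraAlong (s37l_incl N M hdvd)
    letI := algebraAlong (m15r_inclC N M (IsLocalRing.ResidueField A) hdvd)
    m15g_Red A hA M hℓM
      (algebraMap ↥(modularFunctionFieldBar N) ↥(modularFunctionFieldBar M)
        (Algebra.norm ↥(modularFunctionFieldBar N) z))
      (algebraMap ↥(modularFunctionFieldFullC (IsLocalRing.ResidueField A) N)
        ↥(modularFunctionFieldFullC (IsLocalRing.ResidueField A) M)
        (Algebra.norm ↥(modularFunctionFieldFullC (IsLocalRing.ResidueField A) N) zb)) := by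
  letI := algebraAlong (s37l_incl N M hdvd)
  letI := algebraAlong (m15r_inclC N M (IsLocalRing.ResidueField A) hdvd)
  obtain ⟨hz, hred, hzb⟩ := h
  have hℓN : ¬ ℓ ∣ N := fun h' => hℓM (h'.trans hdvd)
  obtain ⟨hz', hnr⟩ := m15r_norm_redF A hA N M hℓM (s37l_incl N M hdvd)
    (fun x => s37l_coe_incl N M hdvd x) hdvd ⟨z, hz⟩
  have hP := m15r_gaussPair A hA N M hℓN hℓM (s37l_incl N M hdvd)
    (fun x => s37l_coe_incl N M hdvd x) hdvd
  refine ⟨hP.incl _ hz', ?_, ?_⟩
  · rw [hP.compat _ hz', hnr, hred]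
  · intro h0
    have h1 : Algebra.norm ↥(modularFunctionFieldFullC (IsLocalRing.ResidueField A) N) zb = 0 :=
      (algebraMap ↥(modularFunctionFieldFullC (IsLocalRing.ResidueField A) N)
        ↥(modularFunctionFieldFullC (IsLocalRing.ResidueField A) M)).injective
        (by rw [h0, map_zero])
    haveI : Module.Finite ↥(modularFunctionFieldFullC (IsLocalRing.ResidueField A) N)
        ↥(modularFunctionFieldFullC (IsLocalRing.ResidueField A) M) :=
      (m15r_finite_and_finrank_eq A hA N M hℓM (s37l_incl N M hdvd)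
        (fun x => s37l_coe_incl N M hdvd x) hdvd).2.1
    exact hzb (Algebra.norm_eq_zero_iff.mp h1)

include hA hℓM in
/-- `r'` followed by the restriction to level `N` is not constant. -/
theorem m15g_nonconst
    (hintC : (m15r_inclC N M (IsLocalRing.ResidueField A) hdvd).toRingHom.IsIntegral)
    {r' : Place Qbar ↥(modularFunctionFieldBar M) →
      Place (IsLocalRing.ResidueField A) ↥(modularFunctionFieldFullC (IsLocalRing.ResidueField A) M)}
    (hr' : IsPlaceReductionModL A M r') :
    ∃ w₁ w₂ : Place Qbar ↥(modularFunctionFieldBar M),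
      (r' w₁).restrictAlong (m15r_inclC N M (IsLocalRing.ResidueField A) hdvd) hintC ≠
        (r' w₂).restrictAlong (m15r_inclC N M (IsLocalRing.ResidueField A) hdvd) hintC := by
  classical
  have hℓ : ℓ.Prime := Fact.out
  haveI : IsAlgClosed (IsLocalRing.ResidueField A) := s18n_isAlgClosed_residueField A
  haveI : CharP (IsLocalRing.ResidueField A) ℓ := s18n_charP_residueField A hℓ hA
  obtain ⟨⟨R₁, hR₁⟩, ⟨R₂, hR₂⟩⟩ :=
    m15g_jbar_zero_pole (ℓ := ℓ) M (IsLocalRing.ResidueField A) hℓM
  set Y : LaurentSeries A := jqModC A with hY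
  have hYK : coeffMap A.subtype Y = jqModC Qbar := coeffMap_jqModC _
  have hYk : coeffMap (IsLocalRing.residue A) Y = jqModC (IsLocalRing.ResidueField A) :=
    coeffMap_jqModC _
  have hy : coeffMap A.subtype Y ∈ laurentBaseChange Qbar (modularFunctionFieldFull M) := by
    rw [hYK]
    have := s18n_jqd_mem_bar (L := Qbar) (N := M) (d := 1) (one_dvd M)
    rwa [qExpand_one_apply] at this
  have hyk : coeffMap (IsLocalRing.residue A) Y ∈
      modularFunctionFieldFullC (IsLocalRing.ResidueField A) M := by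
    rw [hYk]; exact jqModC_mem_full _ M
  have hjb : (⟨coeffMap (IsLocalRing.residue A) Y, hyk⟩ :
      ↥(modularFunctionFieldFullC (IsLocalRing.ResidueField A) M)) =
      s44rq_jbar (IsLocalRing.ResidueField A) M := Subtype.ext hYk
  have hne : coeffMap (IsLocalRing.residue A) Y ≠ 0 := by
    rw [hYk]
    exact jqModC_ne_zero_of_nontrivial _
  have hz0 : (⟨coeffMap A.subtype Y, hy⟩ : ↥(modularFunctionFieldBar M)) ≠ 0 := by
    intro h0
    have h1 : coeffMap A.subtype Y = 0 := congrArg Subtype.val h0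
    rw [hYK] at h1
    exact jqModC_ne_zero_of_nontrivial Qbar h1
  obtain ⟨D, hD, -⟩ := s18r_exists_divisor M ⟨coeffMap A.subtype Y, hy⟩ hz0
  have hc : ∀ R, Finsupp.mapDomain r' D R = R.ord (s44rq_jbar (IsLocalRing.ResidueField A) M) := by
    intro R
    rw [hr'.2 Y hy hyk hne D hD R, hjb]
  obtain ⟨w₁, hw₁⟩ := m15g_exists_of_mapDomain_ne_zero r' D R₁ (by rw [hc]; omega)
  obtain ⟨w₂, hw₂⟩ := m15g_exists_of_mapDomain_ne_zero r' D R₂ (by rw [hc]; omega)
  refine ⟨w₁, w₂, fun heq => ?_⟩
  rw [hw₁, hw₂] at heq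
  have hmap : m15r_inclC N M (IsLocalRing.ResidueField A) hdvd
      (s44rq_jbar (IsLocalRing.ResidueField A) N) = s44rq_jbar (IsLocalRing.ResidueField A) M :=
    Subtype.ext rfl
  have h1 := R₁.ord_restrictAlong (m15r_inclC N M (IsLocalRing.ResidueField A) hdvd) hintC
    (s44rq_jbar (IsLocalRing.ResidueField A) N)
  have h2 := R₂.ord_restrictAlong (m15r_inclC N M (IsLocalRing.ResidueField A) hdvd) hintC
    (s44rq_jbar (IsLocalRing.ResidueField A) N)
  rw [hmap] at h1 h2
  rw [heq] at h1
  have e1 : 0 < (R₁.ramificationIndexAlong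
      (m15r_inclC N M (IsLocalRing.ResidueField A) hdvd) : ℤ) := by
    letI := algebraAlong (m15r_inclC N M (IsLocalRing.ResidueField A) hdvd)
    haveI := isScalarTower_along (m15r_inclC N M (IsLocalRing.ResidueField A) hdvd)
    haveI := isIntegral_along _ hintC
    exact_mod_cast R₁.ramificationIndex_pos
      (F := ↥(modularFunctionFieldFullC (IsLocalRing.ResidueField A) N))
  have e2 : 0 < (R₂.ramificationIndexAlong
      (m15r_inclC N M (IsLocalRing.ResidueField A) hdvd) : ℤ) := by
    letI := algebraAlong (m15r_inclC N M (IsLocalRing.ResidueField A) hdvd)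
    haveI := isScalarTower_along (m15r_inclC N M (IsLocalRing.ResidueField A) hdvd)
    haveI := isIntegral_along _ hintC
    exact_mod_cast R₂.ramificationIndex_pos
      (F := ↥(modularFunctionFieldFullC (IsLocalRing.ResidueField A) N))
  rw [h1] at hR₁
  rw [h2] at hR₂
  have p1 : 0 < (R₂.restrictAlong (m15r_inclC N M (IsLocalRing.ResidueField A) hdvd) hintC).ord
      (s44rq_jbar (IsLocalRing.ResidueField A) N) := pos_of_mul_pos_right hR₁ e1.le
  have p2 := mul_pos e2 p1
  omega

include hA hℓM hdvd in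
set_option maxHeartbeats 3200000 in
/-- **Descent of the place reduction along `N ∣ M`** (`ℓ ∤ M`): a place reduction at level `M`
restricts to a place reduction at level `N`. -/
theorem m15g_descent
    {r' : Place Qbar ↥(modularFunctionFieldBar M) →
      Place (IsLocalRing.ResidueField A) ↥(modularFunctionFieldFullC (IsLocalRing.ResidueField A) M)}
    (hr' : IsPlaceReductionModL A M r') :
    ∃ r : Place Qbar ↥(modularFunctionFieldBar N) →
      Place (IsLocalRing.ResidueField A) ↥(modularFunctionFieldFullC (IsLocalRing.ResidueField A) N),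
      IsPlaceReductionModL A N r := by
  classical
  have hℓ : ℓ.Prime := Fact.out
  have hℓN : ¬ ℓ ∣ N := fun h' => hℓM (h'.trans hdvd)
  haveI : IsAlgClosed (IsLocalRing.ResidueField A) := s18n_isAlgClosed_residueField A
  haveI : CharP (IsLocalRing.ResidueField A) ℓ := s18n_charP_residueField A hℓ hA
  obtain ⟨hfin, hfinC, hd⟩ := m15r_finite_and_finrank_eq A hA N M hℓM (s37l_incl N M hdvd)
    (fun x => s37l_coe_incl N M hdvd x) hdvd
  have hint : (s37l_incl N M hdvd).toRingHom.IsIntegral := s37l_isIntegral_of_finite _ hfin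
  have hord := m15r_hord_inclC (IsLocalRing.ResidueField A) ℓ N M hdvd
  have hintC := m15r_special_isIntegral (IsLocalRing.ResidueField A) ℓ N M _ hord
  haveI := s44rq_fbar_hasPrincipalDivisors (IsLocalRing.ResidueField A) M ℓ
  letI algF := algebraAlong (s37l_incl N M hdvd)
  haveI := isScalarTower_along (s37l_incl N M hdvd)
  haveI := isIntegral_along _ hint
  haveI : Module.Finite ↥(modularFunctionFieldBar N) ↥(modularFunctionFieldBar M) := hfin
  haveI : FundamentalIdentity Qbar ↥(modularFunctionFieldBar N) ↥(modularFunctionFieldBar M) :=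
    s37l_fundamentalIdentityAlong _ hint hfin
  have hN : Divisor.PushforwardNormFormula Qbar ↥(modularFunctionFieldBar N)
      ↥(modularFunctionFieldBar M) := s37l_normFormulaAlong _ hfin
  letI algE := algebraAlong (m15r_inclC N M (IsLocalRing.ResidueField A) hdvd)
  haveI := isScalarTower_along (m15r_inclC N M (IsLocalRing.ResidueField A) hdvd)
  haveI := isIntegral_along _ hintC
  haveI : Module.Finite ↥(modularFunctionFieldFullC (IsLocalRing.ResidueField A) N)
      ↥(modularFunctionFieldFullC (IsLocalRing.ResidueField A) M) := hfinC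
  haveI : FundamentalIdentity (IsLocalRing.ResidueField A)
      ↥(modularFunctionFieldFullC (IsLocalRing.ResidueField A) N)
      ↥(modularFunctionFieldFullC (IsLocalRing.ResidueField A) M) :=
    m15r_special_fundamentalIdentityAlong (IsLocalRing.ResidueField A) ℓ N M _ hord hintC
  have hNb : Divisor.PushforwardNormFormula (IsLocalRing.ResidueField A)
      ↥(modularFunctionFieldFullC (IsLocalRing.ResidueField A) N)
      ↥(modularFunctionFieldFullC (IsLocalRing.ResidueField A) M) :=
    m15r_special_normFormulaAlong (IsLocalRing.ResidueField A) ℓ N M _ hord hfinC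
  obtain ⟨r, -, hr2⟩ := m15g_descent_abstract hN hNb hd.symm (s37l_deg_eq_one N)
    (s37l_deg_eq_one M) (s44rq_fbar_deg_eq_one (IsLocalRing.ResidueField A) M) r'
    (s37u_boundedConst_bar M _) (m15g_Red A hA M hℓM) (m15g_Red_ne A hA M hℓM)
    (fun z zb h => m15g_Red_cons A hA M hℓM hr' z zb h) (m15g_Red_gen A hA M hℓM)
    (fun z zb h => m15g_Red_norm A hA N M hℓM hdvd z zb h)
    (m15g_nonconst A hA N M hℓM hdvd hintC hr')
  refine ⟨r, s37r10_isPlaceReduction A N hA hℓN r ?_⟩
  intro y hy hne Dv hDv Q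
  have hP := m15r_gaussPair A hA N M hℓN hℓM (s37l_incl N M hdvd)
    (fun x => s37l_coe_incl N M hdvd x) hdvd
  refine hr2 y (s37r_redF A N hA hℓN ⟨y, hy⟩) ⟨hP.incl y hy, hP.compat y hy, ?_⟩ Dv hDv Q
  intro h0
  exact hne ((algebraMap ↥(modularFunctionFieldFullC (IsLocalRing.ResidueField A) N)
    ↥(modularFunctionFieldFullC (IsLocalRing.ResidueField A) M)).injective (by rw [h0, map_zero]))

end Descent

end Fermat.Agent.Lib.S15
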