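/-
(M) programme, node [RED23] (helper3, prefix `m15g_`), top: **`m15g_red23 : m15_Red23`**: place
reductions of `X₀(p)` (`p ≥ 5` prime) at `ℓ = 2` and `ℓ = 3`, by descent (`m15g_descent`) from the
good levels `3p` resp. `2p` (`s37r12_exists`).  More generally `m15g_exists`: a place reduction
exists at EVERY level `N` prime to `ℓ`, for every prime `ℓ`.
-/
import Fermat.Agent.Lib.S15.GRed
import Fermat.Agent.Lib.S15.MGraph
import Fermat.Agent.Lib.S37.RClose

set_option autoImplicit false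
set_option linter.unusedSectionVars false
set_option linter.unusedVariables false
set_option linter.style.haveILetI false

noncomputable section

namespace Fermat.Agent.Lib.S15

open ModularCurve AlgebraicCurve Fermat.Agent.Lib.S37 Fermat.Agent.Lib.S18

local notation "Qbar" => AlgebraicClosure ℚ

/-- **a place reduction exists at every level prime to `ℓ`.** -/
theorem m15g_exists (N : ℕ) [NeZero N] (ℓ : ℕ) (hℓ : ℓ.Prime) (hℓN : ¬ ℓ ∣ N)
    (A : ValuationSubring Qbar) (hA : A.LiesOverPrime ℓ) :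
    ∃ r, IsPlaceReductionModL A N r := by
  haveI : Fact ℓ.Prime := ⟨hℓ⟩
  by_cases h5 : 5 ≤ ℓ
  · exact s37r12_exists N ℓ hℓ ⟨hℓN, Or.inl h5⟩ A hA
  · have h2 := hℓ.two_le
    have hcases : ℓ = 2 ∨ ℓ = 3 := by
      rw [not_le] at h5
      interval_cases ℓ
      · exact Or.inl rfl
      · exact Or.inr rfl
      · exact absurd hℓ (by norm_num)
    rcases hcases with rfl | rfl
    · -- `ℓ = 2`: level `3 N`
      haveI : NeZero (3 * N) := ⟨Nat.mul_ne_zero (by norm_num) (NeZero.ne N)⟩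
      have h2M : ¬ 2 ∣ 3 * N := fun h =>
        hℓN ((Nat.Coprime.dvd_mul_left (by norm_num : Nat.Coprime 2 3)).mp h)
      obtain ⟨r', hr'⟩ := s37r12_exists (3 * N) 2 hℓ
        ⟨h2M, Or.inr (Or.inr ⟨rfl, dvd_mul_right 3 N⟩)⟩ A hA
      exact m15g_descent A hA N (3 * N) h2M (dvd_mul_left N 3) hr'
    · -- `ℓ = 3`: level `2 N`
      haveI : NeZero (2 * N) := ⟨Nat.mul_ne_zero (by norm_num) (NeZero.ne N)⟩
      have h3M : ¬ 3 ∣ 2 * N := fun h =>
        hℓN ((Nat.Coprime.dvd_mul_left (by norm_num : Nat.Coprime 3 2)).mp h)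
      obtain ⟨r', hr'⟩ := s37r12_exists (2 * N) 3 hℓ
        ⟨h3M, Or.inr (Or.inl ⟨rfl, dvd_mul_right 2 N⟩)⟩ A hA
      exact m15g_descent A hA N (2 * N) h3M (dvd_mul_left N 2) hr'

/-- **[RED23]**. -/
theorem m15g_red23 : m15_Red23 := by
  intro p _ hp hp5 ℓ hℓ A hA
  have hℓp : ℓ.Prime := by
    rcases hℓ with rfl | rfl
    · exact Nat.prime_two
    · exact Nat.prime_three
  have hℓN : ¬ ℓ ∣ p := by
    intro h
    have := (Nat.prime_dvd_prime_iff_eq hℓp hp).mp h
    rcases hℓ with rfl | rfl <;> omega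
  exact m15g_exists p ℓ hℓp hℓN A hA

end Fermat.Agent.Lib.S15
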