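/-
(M) node **(A1)** (helper4, prefix `m15c_`), part 1 (analysis): the anti-holomorphic involution
`f ↦ f^*`, `f^*(τ) = conj (f (-conj τ))`, on functions on the upper half plane.

* `m15c_star f`; it preserves holomorphy (`m15c_star_mdiff`), niceness, and conjugates the
  coefficients of `q`-expansions (`m15c_qExpansion_star`, `m15c_isLaurent_star`);
* `m15c_iotaSL : SL(2, ℤ) →* SL(2, ℤ)`, conjugation by `diag(1, -1)`, with
  `J • (γ • τ) = (ι γ) • (J • τ)` (`m15c_J_smul_smul`); it preserves `Γ₀(N)` (`m15c_iota N`).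
-/
import Fermat.Agent.Lib.FF.Bridge
import Fermat.Prelude.Def_ModularCurve_LaurentCoeff

set_option autoImplicit false
set_option linter.unusedSectionVars false
set_option linter.unusedVariables false

namespace Fermat.Agent.Lib.S15

open Complex Filter Topology ModularForm UpperHalfPlane Function CongruenceSubgroup
open Fermat.Agent.Lib.FF
open scoped Manifold MatrixGroups ComplexConjugate

local notation "𝕢" => Periodic.qParam

noncomputable section

/-- `f^*(τ) = conj (f (-conj τ))`. -/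
def m15c_star (f : ℍ → ℂ) : ℍ → ℂ := fun τ => conj (f (J • τ))

@[simp] theorem m15c_star_apply (f : ℍ → ℂ) (τ : ℍ) : m15c_star f τ = conj (f (J • τ)) := rfl

theorem m15c_J_J (τ : ℍ) : J • (J • τ) = τ := by
  rw [← mul_smul, ← sq, J_sq, one_smul]

theorem m15c_star_star (f : ℍ → ℂ) : m15c_star (m15c_star f) = f := by
  funext τ
  simp only [m15c_star_apply, m15c_J_J, Complex.conj_conj]

theorem m15c_star_mul (f g : ℍ → ℂ) : m15c_star (f * g) = m15c_star f * m15c_star g := by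
  funext τ
  simp only [m15c_star_apply, Pi.mul_apply, map_mul]

theorem m15c_star_add (f g : ℍ → ℂ) : m15c_star (f + g) = m15c_star f + m15c_star g := by
  funext τ
  simp only [m15c_star_apply, Pi.add_apply, map_add]

theorem m15c_star_pow (f : ℍ → ℂ) (n : ℕ) : m15c_star (f ^ n) = m15c_star f ^ n := by
  funext τ
  simp only [m15c_star_apply, Pi.pow_apply, map_pow]

theorem m15c_star_const (c : ℂ) : m15c_star (fun _ => c) = fun _ => conj c := rfl

theorem m15c_coe_J (τ : ℍ) : ((J • τ : ℍ) : ℂ) = -conj (τ : ℂ) := coe_J_smul τ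

theorem m15c_im_J (τ : ℍ) : (J • τ : ℍ).im = τ.im := by
  have h := congrArg Complex.im (m15c_coe_J τ)
  simpa using h

/-- `f^*` is holomorphic if `f` is. -/
theorem m15c_star_mdiff {f : ℍ → ℂ} (hf : MDiff f) : MDiff (m15c_star f) := by
  intro τ
  rw [mdifferentiableAt_iff]
  have h1 : DifferentiableAt ℂ (f ∘ ofComplex) ((J • τ : ℍ) : ℂ) := mdifferentiableAt_iff.mp (hf _)
  rw [m15c_coe_J] at h1
  -- `F ∘ neg` is differentiable at `conj τ`
  have h2 : DifferentiableAt ℂ ((f ∘ ofComplex) ∘ fun z : ℂ => -z) (conj (τ : ℂ)) :=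
    DifferentiableAt.comp (conj (τ : ℂ)) h1 differentiableAt_id.neg
  have h3 := h2.conj_conj
  rw [Complex.conj_conj] at h3
  refine h3.congr_of_eventuallyEq ?_
  have hopen : {z : ℂ | 0 < z.im} ∈ 𝓝 (τ : ℂ) := isOpen_upperHalfPlaneSet.mem_nhds τ.im_pos
  filter_upwards [hopen] with z hz
  simp only [Function.comp_apply, m15c_star_apply]
  rw [J_smul, ofComplex_apply_of_im_pos hz]

/-- `𝕢(-conj τ) = conj 𝕢(τ)`. -/
theorem m15c_qParam_J (τ : ℍ) : 𝕢 1 ((J • τ : ℍ) : ℂ) = conj (𝕢 1 (τ : ℂ)) := by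
  rw [m15c_coe_J]
  unfold Periodic.qParam
  rw [← Complex.exp_conj]
  congr 1
  simp only [map_div₀, map_mul, Complex.conj_ofReal, Complex.conj_I, map_ofNat]
  ring

theorem m15c_star_Q : m15c_star ffb_Q = ffb_Q := by
  funext τ
  simp only [m15c_star_apply, ffb_Q]
  rw [m15c_qParam_J, Complex.conj_conj]

/-- `f^*` is nice if `f` is. -/
theorem m15c_nice_star {f : ℍ → ℂ} (hf : ffb_Nice f) : ffb_Nice (m15c_star f) where
  hol := m15c_star_mdiff hf.hol
  per := by
    intro w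
    simp only [Function.comp_apply, m15c_star_apply]
    by_cases hw : 0 < w.im
    · have hw1 : 0 < (w + 1).im := by simpa using hw
      congr 1
      rw [J_smul, J_smul, ofComplex_apply_of_im_pos hw, ofComplex_apply_of_im_pos hw1]
      have h := hf.per (-conj (w + 1))
      simp only [Function.comp_apply] at h
      have e : -conj (w + 1) + 1 = -conj w := by
        simp only [map_add, map_one]; ring
      rw [e] at h
      exact h.symm
    · have hw1 : ¬ 0 < (w + 1).im := by simpa using hw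
      rw [ofComplex_apply_of_im_nonpos (not_lt.mp hw),
        ofComplex_apply_of_im_nonpos (not_lt.mp hw1)]
  bdd := by
    have h := hf.bdd
    rw [isBoundedAtImInfty_iff] at h ⊢
    obtain ⟨M, A, hMA⟩ := h
    refine ⟨M, A, fun z hz => ?_⟩
    rw [m15c_star_apply, Complex.norm_conj]
    exact hMA (J • z) (by rw [m15c_im_J]; exact hz)

/-- the `q`-expansion of `f^*` has the conjugate coefficients. -/
theorem m15c_qExpansion_star {f : ℍ → ℂ} (hf : ffb_Nice f) :
    qExpansion 1 (m15c_star f) = PowerSeries.map (starRingEnd ℂ) (qExpansion 1 f) := by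
  have h := (m15c_nice_star hf).qExpansion_eq_mk
    (c := fun m => conj ((qExpansion 1 f).coeff m)) (fun τ => by
      have h1 := hf.hasSum (J • τ)
      have h2 := (Complex.hasSum_conj').mpr h1
      rw [m15c_star_apply]
      convert h2 using 2 with m
      rw [smul_eq_mul, smul_eq_mul, map_mul, map_pow, m15c_qParam_J, Complex.conj_conj])
  rw [h]
  ext m
  rw [PowerSeries.coeff_mk, PowerSeries.coeff_map]

theorem m15c_coeffMap_ofPowerSeries (f : ℂ →+* ℂ) (p : PowerSeries ℂ) :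
    ModularCurve.coeffMap f (HahnSeries.ofPowerSeries ℤ ℂ p) =
      HahnSeries.ofPowerSeries ℤ ℂ (PowerSeries.map f p) := by
  ext i
  rw [ModularCurve.coeffMap_coeff, PowerSeries.coeff_coe, PowerSeries.coeff_coe]
  split_ifs with h
  · exact map_zero f
  · rw [PowerSeries.coeff_map]

/-- **the Laurent expansion of `f^*` is the coefficientwise conjugate.** -/
theorem m15c_isLaurent_star {f : ℍ → ℂ} {x : LaurentSeries ℂ} (h : ffb_IsLaurent f x) :
    ffb_IsLaurent (m15c_star f) (ModularCurve.coeffMap (starRingEnd ℂ) x) := by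
  obtain ⟨M, h1, rfl⟩ := h
  have e : ffb_Q ^ M * m15c_star f = m15c_star (ffb_Q ^ M * f) := by
    rw [m15c_star_mul, m15c_star_pow, m15c_star_Q]
  refine ⟨M, e ▸ m15c_nice_star h1, ?_⟩
  rw [e, m15c_qExpansion_star h1, map_mul, ModularCurve.coeffMap_single, map_one,
    m15c_coeffMap_ofPowerSeries]

/-! ### Conjugation by `diag(1, -1)` -/

/-- `ι γ = diag(1,-1) γ diag(1,-1)`. -/
def m15c_iotaSL : SL(2, ℤ) →* SL(2, ℤ) where
  toFun γ := ⟨!![γ 0 0, -γ 0 1; -γ 1 0, γ 1 1], by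
    have h := γ.2
    rw [Matrix.det_fin_two] at h
    rw [Matrix.det_fin_two_of]
    linarith⟩
  map_one' := by
    ext i j
    fin_cases i <;> fin_cases j <;> simp
  map_mul' γ δ := by
    ext i j
    fin_cases i <;> fin_cases j <;>
      simp [Matrix.mul_apply, Fin.sum_univ_two] <;> ring

@[simp] theorem m15c_iotaSL_00 (γ : SL(2, ℤ)) : m15c_iotaSL γ 0 0 = γ 0 0 := rfl
@[simp] theorem m15c_iotaSL_01 (γ : SL(2, ℤ)) : m15c_iotaSL γ 0 1 = -γ 0 1 := rfl
@[simp] theorem m15c_iotaSL_10 (γ : SL(2, ℤ)) : m15c_iotaSL γ 1 0 = -γ 1 0 := rfl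
@[simp] theorem m15c_iotaSL_11 (γ : SL(2, ℤ)) : m15c_iotaSL γ 1 1 = γ 1 1 := rfl

theorem m15c_iotaSL_iotaSL (γ : SL(2, ℤ)) : m15c_iotaSL (m15c_iotaSL γ) = γ := by
  ext i j
  fin_cases i <;> fin_cases j <;> simp

/-- **`-conj (γ τ) = (ι γ) (-conj τ)`.** -/
theorem m15c_J_smul_smul (γ : SL(2, ℤ)) (τ : ℍ) : J • (γ • τ) = m15c_iotaSL γ • (J • τ) := by
  apply UpperHalfPlane.ext
  rw [m15c_coe_J, coe_specialLinearGroup_apply, coe_specialLinearGroup_apply, m15c_coe_J]
  simp only [m15c_iotaSL_00, m15c_iotaSL_01, m15c_iotaSL_10, m15c_iotaSL_11, map_div₀, map_add,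
    map_mul, algebraMap_int_eq, Int.coe_castRingHom,
    Complex.ofReal_neg, Complex.ofReal_intCast, map_intCast, map_neg]
  rw [← neg_div]
  congr 1 <;> ring

theorem m15c_iotaSL_mem_Gamma0 {N : ℕ} {γ : SL(2, ℤ)} (h : γ ∈ Gamma0 N) :
    m15c_iotaSL γ ∈ Gamma0 N := by
  rw [Gamma0_mem] at h ⊢
  rw [m15c_iotaSL_10, Int.cast_neg, h, neg_zero]

/-- `ι` on `Γ₀(N)`. -/
def m15c_iota (N : ℕ) : Gamma0 N →* Gamma0 N where
  toFun γ := ⟨m15c_iotaSL (γ : SL(2, ℤ)), m15c_iotaSL_mem_Gamma0 γ.2⟩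
  map_one' := Subtype.ext (map_one m15c_iotaSL)
  map_mul' γ δ := Subtype.ext (map_mul m15c_iotaSL (γ : SL(2, ℤ)) (δ : SL(2, ℤ)))

@[simp] theorem m15c_iota_coe (N : ℕ) (γ : Gamma0 N) :
    ((m15c_iota N γ : Gamma0 N) : SL(2, ℤ)) = m15c_iotaSL (γ : SL(2, ℤ)) := rfl

theorem m15c_iota_iota (N : ℕ) (γ : Gamma0 N) : m15c_iota N (m15c_iota N γ) = γ :=
  Subtype.ext (m15c_iotaSL_iotaSL _)

end

end Fermat.Agent.Lib.S15
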