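/-
(M) node **(A1)** (helper4, prefix `m15c_`), part 2: complex conjugation on the field `s29m_M` of
meromorphic functions on `ℍ` and its compatibility with the formal ↔ analytic bridge `s29bp_phi`.

* `m15c_conjO : s29m_O ≃+* s29m_O`, `m15c_conjM : s29m_M ≃+* s29m_M` (`f ↦ f^*`), with
  `m15c_conjM (γ • u) = (ι γ) • m15c_conjM u` and `m15c_conjM ζ_n = ζ_n⁻¹`;
* `m15c_Phi_conj`: the bridge sends the coefficientwise conjugate of `h ∈ ℂ(X₀(N))` to
  `m15c_conjM` of the image of `h`.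
-/
import Fermat.Agent.Lib.S15.AConj1
import Fermat.Agent.Lib.S30.KN

set_option autoImplicit false
set_option linter.unusedSectionVars false
set_option linter.unusedVariables false
set_option linter.style.haveILetI false

namespace Fermat.Agent.Lib.S15

open Complex UpperHalfPlane CongruenceSubgroup ModularCurve
open Fermat.Agent.Lib.FF Fermat.Agent.Lib.S29
open scoped Manifold MatrixGroups ComplexConjugate

noncomputable section

/-- `f ↦ f^*` on holomorphic functions. -/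
def m15c_conjO : s29m_O ≃+* s29m_O where
  toFun f := ⟨m15c_star (f : ℍ → ℂ), m15c_star_mdiff f.2⟩
  invFun f := ⟨m15c_star (f : ℍ → ℂ), m15c_star_mdiff f.2⟩
  left_inv f := Subtype.ext (m15c_star_star _)
  right_inv f := Subtype.ext (m15c_star_star _)
  map_mul' f g := Subtype.ext (m15c_star_mul _ _)
  map_add' f g := Subtype.ext (m15c_star_add _ _)

@[simp] theorem m15c_conjO_coe (f : s29m_O) :
    ((m15c_conjO f : s29m_O) : ℍ → ℂ) = m15c_star (f : ℍ → ℂ) := rfl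

/-- `f ↦ f^*` on meromorphic functions. -/
def m15c_conjM : s29m_M ≃+* s29m_M := IsFractionRing.ringEquivOfRingEquiv m15c_conjO

theorem m15c_conjM_algebraMap (f : s29m_O) :
    m15c_conjM (algebraMap s29m_O s29m_M f) = algebraMap s29m_O s29m_M (m15c_conjO f) :=
  IsFractionRing.ringEquivOfRingEquiv_algebraMap m15c_conjO f

theorem m15c_conjM_ofFun (f : ℍ → ℂ) (hf : MDiff f) :
    m15c_conjM (s29m_ofFun f hf) = s29m_ofFun (m15c_star f) (m15c_star_mdiff hf) :=
  m15c_conjM_algebraMap _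

theorem m15c_conjM_const (c : ℂ) :
    m15c_conjM (algebraMap ℂ s29m_M c) = algebraMap ℂ s29m_M (conj c) := by
  rw [IsScalarTower.algebraMap_apply ℂ s29m_O s29m_M, m15c_conjM_algebraMap,
    IsScalarTower.algebraMap_apply ℂ s29m_O s29m_M]
  rfl

theorem m15c_conjO_smul (γ : SL(2, ℤ)) (f : s29m_O) :
    m15c_conjO (γ • f) = m15c_iotaSL γ • m15c_conjO f := by
  apply Subtype.ext
  funext τ
  show conj ((f : ℍ → ℂ) (γ⁻¹ • (J • τ))) = conj ((f : ℍ → ℂ) (J • ((m15c_iotaSL γ)⁻¹ • τ)))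
  rw [m15c_J_smul_smul, ← map_inv, m15c_iotaSL_iotaSL]

theorem m15c_conjM_smul (γ : SL(2, ℤ)) (u : s29m_M) :
    m15c_conjM (γ • u) = m15c_iotaSL γ • m15c_conjM u := by
  obtain ⟨a, b, hb, rfl⟩ := IsFractionRing.div_surjective (A := s29m_O) u
  rw [smul_div₀', s29m_smul_algebraMap, s29m_smul_algebraMap, map_div₀, map_div₀, smul_div₀',
    m15c_conjM_algebraMap, m15c_conjM_algebraMap, m15c_conjM_algebraMap, m15c_conjM_algebraMap,
    s29m_smul_algebraMap, s29m_smul_algebraMap, m15c_conjO_smul, m15c_conjO_smul]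

/-- `ζ_n^* = ζ_n⁻¹`. -/
theorem m15c_conjM_zeta (n : ℕ) : m15c_conjM (s29m_zetaM n) = (s29m_zetaM n)⁻¹ := by
  unfold s29m_zetaM
  rw [m15c_conjM_const, ← map_inv₀, ← Complex.exp_conj, ← Complex.exp_neg]
  congr 2
  simp only [map_div₀, map_mul, Complex.conj_ofReal, Complex.conj_I, map_ofNat, map_natCast]
  ring

/-! ### Coefficientwise conjugation on `ℂ[J_d : d ∣ N]` and the bridge -/

theorem m15c_conj_coeffEmb (y : LaurentSeries ℚ) :
    coeffMap (starRingEnd ℂ) (coeffEmb ℂ y) = coeffEmb ℂ y := by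
  rw [coeffEmb, coeffMap_coeffMap]
  exact coeffMap_congr (Subsingleton.elim _ _) y

/-- coefficientwise conjugation preserves `ℂ[J_d : d ∣ N]`. -/
theorem m15c_conj_mem_A (N : ℕ) {a : LaurentSeries ℂ} (ha : a ∈ s29bp_A ℂ N) :
    coeffMap (starRingEnd ℂ) a ∈ s29bp_A ℂ N := by
  induction ha using Algebra.adjoin_induction with
  | mem x hx =>
    obtain ⟨y, hy, rfl⟩ := hx
    rw [m15c_conj_coeffEmb]
    exact Algebra.subset_adjoin ⟨y, hy, rfl⟩
  | algebraMap c =>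
    rw [algebraMap_laurentSeries_eq_single, coeffMap_single, ← algebraMap_laurentSeries_eq_single]
    exact (s29bp_A ℂ N).algebraMap_mem _
  | add x y hx hy ihx ihy => rw [map_add]; exact add_mem ihx ihy
  | mul x y hx hy ihx ihy => rw [map_mul]; exact mul_mem ihx ihy

/-- coefficientwise conjugation on `ℂ[J_d : d ∣ N]`. -/
def m15c_conjA (N : ℕ) (a : s29bp_A ℂ N) : s29bp_A ℂ N :=
  ⟨coeffMap (starRingEnd ℂ) (a : LaurentSeries ℂ), m15c_conj_mem_A N a.2⟩

@[simp] theorem m15c_conjA_coe (N : ℕ) (a : s29bp_A ℂ N) :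
    ((m15c_conjA N a : s29bp_A ℂ N) : LaurentSeries ℂ) =
      coeffMap (starRingEnd ℂ) (a : LaurentSeries ℂ) := rfl

/-- **`ψ (ā) = (ψ a)^*`.** -/
theorem m15c_psi_conjA (N : ℕ) (a : s29bp_A ℂ N) :
    (s29bp_psi (RingHom.id ℂ) N (m15c_conjA N a) : ℍ → ℂ) =
      m15c_star (s29bp_psi (RingHom.id ℂ) N a : ℍ → ℂ) := by
  have h1 := s29bp_psi_isLaurent (RingHom.id ℂ) N (m15c_conjA N a)
  have h2 := m15c_isLaurent_star (s29bp_psi_isLaurent (RingHom.id ℂ) N a)
  rw [coeffMap_id] at h1 h2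
  rw [m15c_conjA_coe] at h1
  exact h1.ext h2

theorem m15c_inclE_algebraMap (N : ℕ) (r : ffm_R N) :
    s29m_inclE N (algebraMap (ffm_R N) (ffm_E N) r) = s29m_ofFun (r : ℍ → ℂ) r.2.mdiff := by
  rw [s29m_inclE_algebraMap]
  rfl

/-- **the bridge commutes with conjugation**: if `h'` is the coefficientwise conjugate of `h`,
then `Φ h' = (Φ h)^*`. -/
theorem m15c_Phi_conj (N : ℕ) (h h' : ↥(s29bp_FK ℂ N))
    (hh' : (h' : LaurentSeries ℂ) = coeffMap (starRingEnd ℂ) (h : LaurentSeries ℂ)) :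
    s29m_inclE N (s29bp_phi (RingHom.id ℂ) N h') =
      m15c_conjM (s29m_inclE N (s29bp_phi (RingHom.id ℂ) N h)) := by
  obtain ⟨a, b, hb0, hab, hφ⟩ := s29bp_exists_frac (RingHom.id ℂ) N h
  -- the conjugate relation
  have hab' : h' * algebraMap (s29bp_A ℂ N) ↥(s29bp_FK ℂ N) (m15c_conjA N b) =
      algebraMap (s29bp_A ℂ N) ↥(s29bp_FK ℂ N) (m15c_conjA N a) := by
    apply Subtype.ext
    show (h' : LaurentSeries ℂ) * coeffMap (starRingEnd ℂ) (b : LaurentSeries ℂ) =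
      coeffMap (starRingEnd ℂ) (a : LaurentSeries ℂ)
    rw [hh', ← map_mul, hab]
  have hφ' := congrArg (s29bp_phi (RingHom.id ℂ) N) hab'
  rw [map_mul, s29bp_phi_algebraMap, s29bp_phi_algebraMap] at hφ'
  have h1 := congrArg (s29m_inclE N) hφ'
  have h2 : m15c_conjM (s29m_inclE N (s29bp_phi (RingHom.id ℂ) N h *
      algebraMap (ffm_R N) (ffm_E N) (s29bp_psi (RingHom.id ℂ) N b))) =
      m15c_conjM (s29m_inclE N (algebraMap (ffm_R N) (ffm_E N) (s29bp_psi (RingHom.id ℂ) N a))) :=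
    congrArg (fun x => m15c_conjM (s29m_inclE N x)) hφ
  rw [map_mul, m15c_inclE_algebraMap, m15c_inclE_algebraMap] at h1
  rw [map_mul, map_mul, m15c_inclE_algebraMap, m15c_inclE_algebraMap, m15c_conjM_ofFun,
    m15c_conjM_ofFun] at h2
  -- `b' ≠ 0`
  have hb' : m15c_conjA N b ≠ 0 := by
    intro h0
    apply hb0
    have h3 : coeffMap (starRingEnd ℂ) (b : LaurentSeries ℂ) = 0 := congrArg Subtype.val h0
    apply Subtype.ext
    have h4 := congrArg (coeffMap (starRingEnd ℂ)) h3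
    rw [coeffMap_coeffMap, map_zero] at h4
    rw [coeffMap_congr (g := RingHom.id ℂ) (RingHom.ext fun z => Complex.conj_conj z),
      coeffMap_id] at h4
    exact h4
  have hψb' : s29bp_psi (RingHom.id ℂ) N (m15c_conjA N b) ≠ 0 := fun h0 =>
    hb' (s29bp_psi_injective (RingHom.id ℂ) N (by rw [h0, map_zero]))
  have hne : s29m_ofFun (s29bp_psi (RingHom.id ℂ) N (m15c_conjA N b) : ℍ → ℂ)
      (s29bp_psi (RingHom.id ℂ) N (m15c_conjA N b)).2.mdiff ≠ 0 :=
    s29m_ofFun_ne_zero _ (s29m_ne_zero_of_R _ hψb')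
  -- compare
  have e1 : s29m_ofFun (m15c_star (s29bp_psi (RingHom.id ℂ) N b : ℍ → ℂ))
      (m15c_star_mdiff (s29bp_psi (RingHom.id ℂ) N b).2.mdiff) =
      s29m_ofFun (s29bp_psi (RingHom.id ℂ) N (m15c_conjA N b) : ℍ → ℂ)
        (s29bp_psi (RingHom.id ℂ) N (m15c_conjA N b)).2.mdiff := by
    unfold s29m_ofFun
    congr 1
    exact Subtype.ext (m15c_psi_conjA N b).symm
  have e2 : s29m_ofFun (m15c_star (s29bp_psi (RingHom.id ℂ) N a : ℍ → ℂ))
      (m15c_star_mdiff (s29bp_psi (RingHom.id ℂ) N a).2.mdiff) =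
      s29m_ofFun (s29bp_psi (RingHom.id ℂ) N (m15c_conjA N a) : ℍ → ℂ)
        (s29bp_psi (RingHom.id ℂ) N (m15c_conjA N a)).2.mdiff := by
    unfold s29m_ofFun
    congr 1
    exact Subtype.ext (m15c_psi_conjA N a).symm
  rw [e1, e2, ← h1] at h2
  exact (mul_right_cancel₀ hne h2).symm

end

end Fermat.Agent.Lib.S15
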