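/-
(M) node **(A1)** (helper4, prefix `m15c_`), part 3: **complex conjugation on the Kummer map**,

  `κ_n (c • x) (γ) = - κ_n x (ι γ)`,   `ι γ = diag(1,-1) γ diag(1,-1)`,

for `x ∈ J₀(N)(ℚ̄)[n]`, `κ_n = s30k_kappa N n`, `c = complexConjugation` (`m15c_kappa_conj`).
-/
import Fermat.Agent.Lib.S15.AConj2

set_option autoImplicit false
set_option linter.unusedSectionVars false
set_option linter.unusedVariables false
set_option linter.style.haveILetI false

namespace Fermat.Agent.Lib.S15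

open Complex UpperHalfPlane CongruenceSubgroup ModularCurve AlgebraicCurve
open Fermat.Agent.Lib.FF Fermat.Agent.Lib.S18 Fermat.Agent.Lib.S29 Fermat.Agent.Lib.S30
open scoped Manifold MatrixGroups ComplexConjugate

noncomputable section

local notation "Kb" => AlgebraicClosure ℚ

attribute [local instance] s29a_algebraC

variable (N : ℕ) [NeZero N] (n : ℕ) [NeZero n]

/-- base change to `ℂ` turns the Galois action of `c` into coefficientwise conjugation. -/
theorem m15c_j_conj (f : ffi_F N) :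
    ((s29a_j (K1 := ℂ) N
        (arithmeticGalois (modularFunctionFieldFull N) complexConjugation • f) :
        ↥(s29bp_FK ℂ N)) : LaurentSeries ℂ) =
      coeffMap (starRingEnd ℂ) ((s29a_j (K1 := ℂ) N f : ↥(s29bp_FK ℂ N)) : LaurentSeries ℂ) := by
  rw [s18q_map_coe, s18q_map_coe, coe_arithmeticGalois_smul, coeffMap_coeffMap, coeffMap_coeffMap]
  exact coeffMap_congr (RingHom.ext fun a => complexEmbedding_complexConjugation a) _

/-- `ζ ^ (-k).val = (ζ⁻¹) ^ k.val`. -/
theorem m15c_pow_neg_val {M : Type*} [Field M] {ζ : M} (hζ : IsPrimitiveRoot ζ n) (k : ZMod n) :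
    ζ ^ (-k).val = (ζ⁻¹) ^ k.val := by
  have h := s29m_pow_val_add hζ (-k) k
  rw [neg_add_cancel, ZMod.val_zero, pow_zero] at h
  rw [inv_pow]
  exact eq_inv_of_mul_eq_one_left h.symm

/-- **(A1)** complex conjugation on the Kummer map. -/
theorem m15c_kappa_conj_aux (x x' : s29k_Jp N n)
    (hx' : (x' : JZero N) = complexConjugation • (x : JZero N)) (γ : Gamma0 N) :
    s30k_kappa N n x' (Additive.ofMul γ) =
      - s30k_kappa N n x (Additive.ofMul (m15c_iota N γ)) := by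
  haveI := s30k_ffGenKb N
  haveI := s30k_ffGenC N
  set g := arithmeticGalois (modularFunctionFieldFull N) complexConjugation with hg
  -- a divisor and a function for `x`
  obtain ⟨D₀, hD₀x⟩ := Pic0.mk_surjective (x : JZero N)
  have hx := Pic0.mem_torsion.mp x.2
  have h1 : Pic0.mk ((n : ℤ) • D₀) = 0 := by
    rw [← hD₀x] at hx; exact hx
  have h2 : ((n : ℤ) • D₀) ∈ (Divisor.principal (K := Kb) (F := ffi_F N)).addSubgroupOf
      (Divisor.degZero (K := Kb) (F := ffi_F N)) := (QuotientAddGroup.eq_zero_iff _).mp h1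
  obtain ⟨f₀, hf₀, hD⟩ := h2
  have hD₀ : ∀ v : Place Kb (ffi_F N), v.ord f₀ = (n : ℤ) * (D₀ : Divisor Kb (ffi_F N)) v := by
    intro v
    rw [← hD v]
    simp
  -- the conjugates
  have hf₀' : g • f₀ ≠ 0 := by
    intro h0
    apply hf₀
    have := congrArg (fun y => g⁻¹ • y) h0
    simpa using this
  have hD₀' : ∀ w : Place Kb (ffi_F N),
      w.ord (g • f₀) = (n : ℤ) * (SemilinearAut.degZeroSMulHom g D₀ : Divisor Kb (ffi_F N)) w := by
    intro w
    rw [SemilinearAut.coe_degZeroSMulHom, SemilinearAut.divisor_smul_apply, ← hD₀ (g⁻¹ • w)]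
    have h := SemilinearAut.ord_smul g (g⁻¹ • w) f₀
    rw [smul_inv_smul] at h
    exact h
  have hx'mk : Pic0.mk (SemilinearAut.degZeroSMulHom g D₀) = (x' : JZero N) := by
    rw [hx', ← hD₀x, galois_smul_pic0_def, SemilinearAut.pic0_smul_mk]
  -- base change to `ℂ`
  obtain ⟨D', hcD', hord'⟩ := s29a_hc (K1 := ℂ) N n D₀ f₀ hf₀ hD₀
  obtain ⟨D'', hcD'', hord''⟩ := s29a_hc (K1 := ℂ) N n (SemilinearAut.degZeroSMulHom g D₀)
    (g • f₀) hf₀' hD₀'
  have hjf₀ : s29a_j (K1 := ℂ) N f₀ ≠ 0 := (map_ne_zero _).mpr hf₀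
  have hjf₀' : s29a_j (K1 := ℂ) N (g • f₀) ≠ 0 := (map_ne_zero _).mpr hf₀'
  -- the Kummer data
  set hB := s30k_hB N n with hhB
  have H := s29m_kappaHyp_of_bridge hB
  obtain ⟨u, hu⟩ := H.root (s29a_j (K1 := ℂ) N f₀) hjf₀ D' hord'
  have hdata : s29m_IsKData n ((s29m_inclE N).comp (s29bp_phi (RingHom.id ℂ) N))
      ((s30k_ct N n x : Pic0.torsion ℂ ↥(s29bp_FK ℂ N) n) : Pic0 ℂ ↥(s29bp_FK ℂ N)) u := by
    refine ⟨D', s29a_j (K1 := ℂ) N f₀, hjf₀, ?_, hord', hu⟩
    rw [s30k_ct_coe, ← hD₀x]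
    exact hcD'.symm
  have hu' : (m15c_conjM u) ^ n =
      ((s29m_inclE N).comp (s29bp_phi (RingHom.id ℂ) N)) (s29a_j (K1 := ℂ) N (g • f₀)) := by
    rw [← map_pow, hu]
    exact (m15c_Phi_conj N _ _ (m15c_j_conj N f₀)).symm
  have hdata' : s29m_IsKData n ((s29m_inclE N).comp (s29bp_phi (RingHom.id ℂ) N))
      ((s30k_ct N n x' : Pic0.torsion ℂ ↥(s29bp_FK ℂ N) n) : Pic0 ℂ ↥(s29bp_FK ℂ N))
      (m15c_conjM u) := by
    refine ⟨D'', s29a_j (K1 := ℂ) N (g • f₀), hjf₀', ?_, hord'', hu'⟩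
    rw [s30k_ct_coe, ← hx'mk]
    exact hcD''.symm
  -- the transformation law of `u` under `ι γ`
  set k : ZMod n := s30k_kappa N n x (Additive.ofMul (m15c_iota N γ)) with hk
  have hspec := s29m_kummerFun_spec H.prim hdata.ne_zero (hdata.smul_pow H) (m15c_iota N γ)
  rw [← s29m_kappa_apply H (s30k_ct N n x) hdata (m15c_iota N γ)] at hspec
  change ((m15c_iota N γ)⁻¹ : Gamma0 N) • u = s29m_zetaM n ^ k.val * u at hspec
  -- apply the conjugation
  show s29m_kappa _ H (s30k_ct N n x') (Additive.ofMul γ) = -k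
  refine s29m_kappa_eq H (s30k_ct N n x') hdata' γ (-k) ?_
  have h3 := congrArg m15c_conjM hspec
  have e1 : (((m15c_iota N γ)⁻¹ : Gamma0 N) • u : s29m_M) =
      ((m15c_iotaSL (γ : SL(2, ℤ)))⁻¹ : SL(2, ℤ)) • u := rfl
  rw [e1, m15c_conjM_smul, map_inv, m15c_iotaSL_iotaSL, map_mul, map_pow, m15c_conjM_zeta] at h3
  rw [m15c_pow_neg_val n H.prim k]
  exact h3

/-- **(A1)** in terms of the Prelude's Galois action on the torsion. -/
theorem m15c_kappa_conj (x : s29k_Jp N n) (γ : Gamma0 N) :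
    s30k_kappa N n (JZero.torsionGaloisRep N n complexConjugation x) (Additive.ofMul γ) =
      - s30k_kappa N n x (Additive.ofMul (m15c_iota N γ)) :=
  m15c_kappa_conj_aux N n x _ (JZero.coe_torsionGaloisRep_apply N complexConjugation x) γ

end

end Fermat.Agent.Lib.S15
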