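/-
Programme M (S15), node (A1'), part 1 (helper4): the abstract dimension bound of
`Lib/Period/ParDimAbstract.lean` (S21 WP D, hard-wired to `ℂ` there) over an ARBITRARY FIELD `k` in
which `2`, `3` and `n` are invertible.  Verbatim port: `pmD_X` becomes `m15c_dX`, with the field
as an explicit first argument of the definitions.
-/
import Fermat.Agent.Lib.Period.ParDimAbstract

set_option autoImplicit false
set_option linter.unusedSectionVars false
set_option linter.unusedVariables false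

namespace Fermat.Agent.Lib.S15

open Module Fermat.Agent.Lib.Period

section Shapiro

variable {G : Type*} [Group G] (Γ : Subgroup G)

/-- The permutation operator `v ↦ v ∘ (g • ·)` on functions on a `G`-set. -/
def m15c_dP (k : Type*) [Field k] {X : Type*} [MulAction G X] (g : G) : (X → k) →ₗ[k] (X → k) :=
  LinearMap.funLeft k k (fun x => g • x)

@[simp] theorem m15c_dP_apply {k : Type*} [Field k] {X : Type*} [MulAction G X] (g : G) (v : X → k) (x : X) :
    m15c_dP k g v x = v (g • x) := rfl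

theorem m15c_dP_mul {k : Type*} [Field k] {X : Type*} [MulAction G X] (g h : G) :
    (m15c_dP k (g * h) : (X → k) →ₗ[k] (X → k)) = m15c_dP k h ∘ₗ m15c_dP k g := by
  refine LinearMap.ext fun v => funext fun x => ?_
  simp [mul_smul]

theorem m15c_dP_one {k : Type*} [Field k] {X : Type*} [MulAction G X] :
    (m15c_dP k (1 : G) : (X → k) →ₗ[k] (X → k)) = LinearMap.id := by
  refine LinearMap.ext fun v => funext fun x => ?_
  simp

/-- The explicit Shapiro cocycle attached to a homomorphism `ψ : Γ → k`, as a linear map in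
`ψ`. -/
noncomputable def m15c_dcoc (k : Type*) [Field k] {G : Type*} [Group G] (Γ : Subgroup G) (g : G) : (Additive Γ →+ k) →ₗ[k] ((G ⧸ Γ) → k) where
  toFun ψ := fun x => ψ (Additive.ofMul (pmD_kappa Γ g x))
  map_add' _ _ := rfl
  map_smul' _ _ := rfl

theorem m15c_dcoc_apply {k : Type*} [Field k] (g : G) (ψ : Additive Γ →+ k) (x : G ⧸ Γ) :
    m15c_dcoc k Γ g ψ x = ψ (Additive.ofMul (pmD_kappa Γ g x)) := rfl

/-- The cocycle identity `c(gh) = c(g)·h + c(h)`. -/
theorem m15c_dcoc_mul {k : Type*} [Field k] (g h : G) (ψ : Additive Γ →+ k) :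
    m15c_dcoc k Γ (g * h) ψ = m15c_dP k h (m15c_dcoc k Γ g ψ) + m15c_dcoc k Γ h ψ := by
  funext x
  rw [Pi.add_apply, m15c_dP_apply, m15c_dcoc_apply, m15c_dcoc_apply, m15c_dcoc_apply, pmD_kappa_mul,
    ofMul_mul, map_add]

/-- On `Γ`, at the base coset, the cocycle recovers `ψ`. -/
theorem m15c_dcoc_base {k : Type*} [Field k] (γ : Γ) (ψ : Additive Γ →+ k) :
    m15c_dcoc k Γ (γ : G) ψ ((1 : G) : G ⧸ Γ) = ψ (Additive.ofMul γ) := by
  have hfix : (γ : G) • ((1 : G) : G ⧸ Γ) = ((1 : G) : G ⧸ Γ) := by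
    rw [MulAction.Quotient.smul_coe, smul_eq_mul, mul_one, QuotientGroup.eq, mul_one]
    exact Γ.inv_mem γ.2
  have hr : (((1 : G) : G ⧸ Γ).out : G) ∈ Γ := by
    have := QuotientGroup.out_eq' (((1 : G) : G ⧸ Γ))
    rw [QuotientGroup.eq] at this
    simpa using Γ.inv_mem this
  set r : Γ := ⟨_, hr⟩ with hrdef
  have hk : pmD_kappa Γ (γ : G) ((1 : G) : G ⧸ Γ) = r⁻¹ * γ * r := by
    apply Subtype.ext
    simp only [pmD_kappa, hfix, Subgroup.coe_mul, Subgroup.coe_inv, hrdef]
  rw [m15c_dcoc_apply, hk, ofMul_mul, ofMul_mul, map_add, map_add, ofMul_inv, map_neg]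
  ring

end Shapiro

section Cocycle

variable {G : Type*} [Group G] {X : Type*} [MulAction G X]

/-- Right cocycles `G → (X → k)`: `c(gh) = c(g)·h + c(h)`. -/
def m15c_dIsCoc (k : Type*) [Field k] (c : G → X → k) : Prop := ∀ g h, c (g * h) = m15c_dP k h (c g) + c h

theorem m15c_dIsCoc.one {k : Type*} [Field k] {c : G → X → k} (hc : m15c_dIsCoc k c) : c 1 = 0 := by
  have h := hc 1 1
  rw [mul_one, m15c_dP_one, LinearMap.id_apply] at h
  exact left_eq_add.mp h

theorem m15c_dIsCoc.inv {k : Type*} [Field k] {c : G → X → k} (hc : m15c_dIsCoc k c) (g : G) :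
    c g⁻¹ = -m15c_dP k g⁻¹ (c g) := by
  have h := hc g g⁻¹
  rw [mul_inv_cancel, hc.one] at h
  exact eq_neg_of_add_eq_zero_right h.symm

theorem m15c_dIsCoc.sub {k : Type*} [Field k] {c c' : G → X → k} (hc : m15c_dIsCoc k c) (hc' : m15c_dIsCoc k c') :
    m15c_dIsCoc k (fun g => c g - c' g) := by
  intro g h
  simp only [hc g h, hc' g h, map_sub]
  abel

/-- Coboundaries are cocycles. -/
theorem m15c_disCoc_cob {k : Type*} [Field k] (v : X → k) : m15c_dIsCoc k (fun g : G => m15c_dP k g v - v) := by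
  intro g h
  simp only [m15c_dP_mul, LinearMap.comp_apply, map_sub]
  abel

/-- A cocycle vanishing on a generating set vanishes identically. -/
theorem m15c_dIsCoc.eq_zero_of_closure {k : Type*} [Field k] {c : G → X → k} (hc : m15c_dIsCoc k c) {s : Set G}
    (hs : Subgroup.closure s = ⊤) (h0 : ∀ g ∈ s, c g = 0) (g : G) : c g = 0 := by
  have hg : g ∈ Subgroup.closure s := by rw [hs]; trivial
  induction hg using Subgroup.closure_induction with
  | mem x hx => exact h0 x hx
  | one => exact hc.one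
  | mul x y _ _ hx hy => rw [hc x y, hx, hy, map_zero, add_zero]
  | inv x _ hx => rw [hc.inv, hx, map_zero, neg_zero]

/-- `c(tⁿ) = ∑_{j<n} c(t)·tʲ`. -/
theorem m15c_dIsCoc.pow {k : Type*} [Field k] {c : G → X → k} (hc : m15c_dIsCoc k c) (t : G) (n : ℕ) :
    c (t ^ n) = ∑ j ∈ Finset.range n, m15c_dP k (t ^ j) (c t) := by
  induction n with
  | zero => rw [pow_zero, hc.one, Finset.range_zero, Finset.sum_empty]
  | succ n ih =>
    rw [pow_succ', hc t (t ^ n), Finset.sum_range_succ, ih, add_comm]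

end Cocycle

section LinAlg

variable {G : Type*} [Group G] {X : Type*} [MulAction G X]

/-- The norm operator `∑_{j<n} P(tʲ)` of the cyclic group generated by `t`. -/
def m15c_dnorm (k : Type*) [Field k] (t : G) (n : ℕ) : (X → k) →ₗ[k] (X → k) := ∑ j ∈ Finset.range n, m15c_dP k (t ^ j)

theorem m15c_dnorm_apply {k : Type*} [Field k] (t : G) (n : ℕ) (v : X → k) :
    m15c_dnorm k t n v = ∑ j ∈ Finset.range n, m15c_dP k (t ^ j) v := by
  rw [m15c_dnorm, LinearMap.sum_apply]

theorem m15c_dP_eq_id_of_smul {k : Type*} [Field k] {g : G} (hg : ∀ x : X, g • x = x) :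
    (m15c_dP k g : (X → k) →ₗ[k] (X → k)) = LinearMap.id := by
  refine LinearMap.ext fun v => funext fun x => ?_
  rw [m15c_dP_apply, hg, LinearMap.id_apply]

/-- `N_t ∘ P_t = N_t` when `tⁿ` acts trivially. -/
theorem m15c_dnorm_P {k : Type*} [Field k] (t : G) (n : ℕ) (ht : ∀ x : X, t ^ n • x = x) (v : X → k) :
    m15c_dnorm k t n (m15c_dP k t v) = m15c_dnorm k t n v := by
  rw [m15c_dnorm_apply, m15c_dnorm_apply]
  have h1 : ∀ j, m15c_dP k (t ^ j) (m15c_dP k t v) = m15c_dP k (t ^ (j + 1)) v := by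
    intro j
    rw [pow_succ', m15c_dP_mul, LinearMap.comp_apply]
  simp only [h1]
  have h2 := Finset.sum_range_succ' (fun j => m15c_dP k (t ^ j) v) n
  have h3 := Finset.sum_range_succ (fun j => m15c_dP k (t ^ j) v) n
  rw [h3] at h2
  simp only [pow_zero, m15c_dP_one, LinearMap.id_apply, m15c_dP_eq_id_of_smul ht] at h2
  exact (add_right_cancel h2).symm

theorem m15c_dnorm_P_sub {k : Type*} [Field k] (t : G) (n : ℕ) (ht : ∀ x : X, t ^ n • x = x) (v : X → k) :
    m15c_dnorm k t n (m15c_dP k t v - v) = 0 := by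
  rw [map_sub, m15c_dnorm_P t n ht, sub_self]

/-- If a submodule contains `P_g u - u` for `g` in a generating set, it contains them all. -/
theorem m15c_dP_sub_mem_of_closure {k : Type*} [Field k] {s : Set G} (hs : Subgroup.closure s = ⊤)
    (E : Submodule k (X → k)) (hE : ∀ g ∈ s, ∀ u : X → k, m15c_dP k g u - u ∈ E) (g : G)
    (u : X → k) : m15c_dP k g u - u ∈ E := by
  have hg : g ∈ Subgroup.closure s := by rw [hs]; trivial
  induction hg using Subgroup.closure_induction generalizing u with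
  | mem x hx => exact hE x hx u
  | one => rw [m15c_dP_one, LinearMap.id_apply, sub_self]; exact E.zero_mem
  | mul x y _ _ hx hy =>
    rw [m15c_dP_mul, LinearMap.comp_apply]
    have := E.add_mem (hy (m15c_dP k x u)) (hx u)
    rwa [sub_add_sub_cancel] at this
  | inv x _ hx =>
    have h1 : m15c_dP k x (m15c_dP k x⁻¹ u) = u := by
      rw [← LinearMap.comp_apply, ← m15c_dP_mul, inv_mul_cancel, m15c_dP_one, LinearMap.id_apply]
    have := E.neg_mem (hx (m15c_dP k x⁻¹ u))
    rwa [h1, neg_sub] at this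

theorem m15c_dP_single {k : Type*} [Field k] [DecidableEq X] (g : G) (y : X) :
    m15c_dP k g (Pi.single y (1 : k)) = Pi.single (g⁻¹ • y) (1 : k) := by
  funext x
  rw [m15c_dP_apply, Pi.single_apply, Pi.single_apply]
  refine if_congr ?_ rfl rfl
  rw [eq_inv_smul_iff]

/-- If `G` acts transitively, every function is a multiple of `δ_{x₀}` modulo the span of the
`P_g u - u`. -/
theorem m15c_dmem_sup_span {k : Type*} [Field k] [DecidableEq X] [Fintype X] [MulAction.IsPretransitive G X]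
    (E : Submodule k (X → k)) (hE : ∀ (g : G) (u : X → k), m15c_dP k g u - u ∈ E) (x₀ : X)
    (v : X → k) : v ∈ E ⊔ Submodule.span k {(Pi.single x₀ (1 : k) : X → k)} := by
  have hsingle : ∀ x : X, (Pi.single x (1 : k) : X → k) ∈
      E ⊔ Submodule.span k {(Pi.single x₀ (1 : k) : X → k)} := by
    intro x
    obtain ⟨g, rfl⟩ := MulAction.exists_smul_eq G x₀ x
    have h1 := hE g⁻¹ (Pi.single x₀ (1 : k))
    rw [m15c_dP_single, inv_inv] at h1
    have h2 : (Pi.single (g • x₀) (1 : k) : X → k) =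
        (Pi.single (g • x₀) (1 : k) - Pi.single x₀ (1 : k)) + Pi.single x₀ (1 : k) := by abel
    rw [h2]
    exact Submodule.add_mem_sup h1 (Submodule.mem_span_singleton_self _)
  have hv : v = ∑ x, v x • (Pi.single x (1 : k) : X → k) := by
    funext y
    simp [Finset.sum_apply, Pi.single_apply]
  rw [hv]
  exact Submodule.sum_mem _ fun x _ => Submodule.smul_mem _ _ (hsingle x)

/-- The number of orbits of `t` is at most the rank of the norm operator. -/
theorem m15c_dcard_orbits_le_finrank_range_norm {k : Type*} [Field k] [Finite X] (t : G) (n : ℕ)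
    (hn : (n : k) ≠ 0) :
    Nat.card (MulAction.orbitRel.Quotient (Subgroup.zpowers t) X) ≤
      finrank k (LinearMap.range (m15c_dnorm k t n : (X → k) →ₗ[k] (X → k))) := by
  classical
  set Ω := MulAction.orbitRel.Quotient (Subgroup.zpowers t) X with hΩ
  have : Fintype Ω := Fintype.ofFinite _
  set π : X → Ω := Quotient.mk'' with hπ
  have hπsurj : Function.Surjective π := Quotient.mk''_surjective
  have hπt : ∀ (j : ℕ) (x : X), π (t ^ j • x) = π x := by
    intro j x
    refine Quotient.sound' ?_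
    exact ⟨⟨t ^ j, Subgroup.pow_mem _ (Subgroup.mem_zpowers t) j⟩, rfl⟩
  let ι : (Ω → k) →ₗ[k] (X → k) := LinearMap.funLeft k k π
  have hιinj : Function.Injective ι := LinearMap.funLeft_injective_of_surjective k k π hπsurj
  have hle : LinearMap.range ι ≤ LinearMap.range (m15c_dnorm k t n : (X → k) →ₗ[k] (X → k)) := by
    rintro _ ⟨l, rfl⟩
    refine ⟨(n : k)⁻¹ • ι l, ?_⟩
    rw [map_smul, m15c_dnorm_apply]
    have h1 : ∀ j ∈ Finset.range n, m15c_dP k (t ^ j) (ι l) = ι l := by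
      intro j _
      funext x
      rw [m15c_dP_apply]
      show l (π (t ^ j • x)) = l (π x)
      rw [hπt]
    rw [Finset.sum_congr rfl h1, Finset.sum_const, Finset.card_range, ← Nat.cast_smul_eq_nsmul k,
      smul_smul, inv_mul_cancel₀ hn, one_smul]
  calc Nat.card Ω = finrank k (Ω → k) := by
        rw [Module.finrank_fintype_fun_eq_card, Nat.card_eq_fintype_card]
    _ = finrank k (LinearMap.range ι) := (LinearMap.finrank_range_of_inj hιinj).symm
    _ ≤ _ := Submodule.finrank_mono hle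

/-- **Main rank count**: if `s, t` generate `G`, `G` acts transitively on the finite set `X` and
`tⁿ` acts trivially, then `dim ker (N_t ∘ (P_s - 1)) + #(t-orbits) ≤ |X| + 1`. -/
theorem m15c_dfinrank_ker_add_card_orbits_le {k : Type*} [Field k] [Fintype X] [MulAction.IsPretransitive G X] (s t : G)
    (hst : Subgroup.closure {s, t} = ⊤) (n : ℕ) (hn : (n : k) ≠ 0) (ht : ∀ x : X, t ^ n • x = x)
    (x₀ : X) :
    finrank k (LinearMap.ker (m15c_dnorm k t n ∘ₗ (m15c_dP k s - LinearMap.id) :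
        (X → k) →ₗ[k] (X → k))) +
      Nat.card (MulAction.orbitRel.Quotient (Subgroup.zpowers t) X) ≤ Fintype.card X + 1 := by
  classical
  set D : (X → k) →ₗ[k] (X → k) := m15c_dnorm k t n ∘ₗ (m15c_dP k s - LinearMap.id) with hD
  set E : Submodule k (X → k) :=
    LinearMap.range (m15c_dP k s - LinearMap.id : (X → k) →ₗ[k] (X → k)) ⊔
      LinearMap.range (m15c_dP k t - LinearMap.id : (X → k) →ₗ[k] (X → k)) with hEdef
  have hE : ∀ (g : G) (u : X → k), m15c_dP k g u - u ∈ E := by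
    refine m15c_dP_sub_mem_of_closure hst E ?_
    intro g hg u
    rcases hg with rfl | hg
    · exact Submodule.mem_sup_left ⟨u, rfl⟩
    · rw [Set.mem_singleton_iff] at hg
      subst hg
      exact Submodule.mem_sup_right ⟨u, rfl⟩
  have htop := m15c_dmem_sup_span E hE x₀
  have hrange : LinearMap.range (m15c_dnorm k t n : (X → k) →ₗ[k] (X → k)) ≤
      LinearMap.range D ⊔ Submodule.span k {m15c_dnorm k t n (Pi.single x₀ (1 : k))} := by
    rintro _ ⟨v, rfl⟩
    obtain ⟨e, he, w, hw, rfl⟩ := Submodule.mem_sup.mp (htop v)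
    obtain ⟨e₁, ⟨u₁, rfl⟩, e₂, ⟨u₂, rfl⟩, rfl⟩ := Submodule.mem_sup.mp he
    obtain ⟨kk, rfl⟩ := Submodule.mem_span_singleton.mp hw
    have h2 : m15c_dnorm k t n ((m15c_dP k t - LinearMap.id : (X → k) →ₗ[k] (X → k)) u₂) = 0 := by
      rw [LinearMap.sub_apply, LinearMap.id_apply]
      exact m15c_dnorm_P_sub t n ht u₂
    rw [map_add, map_add, h2, add_zero, map_smul]
    exact Submodule.add_mem_sup ⟨u₁, rfl⟩
      (Submodule.smul_mem _ _ (Submodule.mem_span_singleton_self _))
  have h1 := m15c_dcard_orbits_le_finrank_range_norm (X := X) t n hn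
  have h2 := Submodule.finrank_mono hrange
  have h3 := Submodule.finrank_add_le_finrank_add_finrank (LinearMap.range D)
    (Submodule.span k {m15c_dnorm k t n (Pi.single x₀ (1 : k))})
  have h4 : finrank k (Submodule.span k {m15c_dnorm k t n (Pi.single x₀ (1 : k))}) ≤ 1 := by
    have := finrank_span_le_card (R := k) ({m15c_dnorm k t n (Pi.single x₀ (1 : k))} : Set (X → k))
    simpa using this
  have h5 := LinearMap.finrank_range_add_finrank_ker D
  rw [Module.finrank_fintype_fun_eq_card] at h5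
  omega

end LinAlg

section Bound

variable {G : Type*} [Group G] (Γ : Subgroup G)

theorem m15c_disCoc_coc {k : Type*} [Field k] (ψ : Additive Γ →+ k) : m15c_dIsCoc k (fun g => m15c_dcoc k Γ g ψ) :=
  fun g h => m15c_dcoc_mul Γ g h ψ

/-- A homomorphism whose Shapiro cocycle is a coboundary is zero. -/
theorem m15c_deq_zero_of_coc_eq_cob {k : Type*} [Field k] {ψ : Additive Γ →+ k} {y : (G ⧸ Γ) → k}
    (h : ∀ g : G, m15c_dcoc k Γ g ψ = m15c_dP k g y - y) : ψ = 0 := by
  refine AddMonoidHom.ext fun γ => ?_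
  obtain ⟨γ, rfl⟩ : ∃ γ' : Γ, Additive.ofMul γ' = γ := ⟨Additive.toMul γ, rfl⟩
  rw [← m15c_dcoc_base, h, AddMonoidHom.zero_apply, Pi.sub_apply, m15c_dP_apply]
  have hfix : (γ : G) • ((1 : G) : G ⧸ Γ) = ((1 : G) : G ⧸ Γ) := by
    rw [MulAction.Quotient.smul_coe, smul_eq_mul, mul_one, QuotientGroup.eq, mul_one]
    exact Γ.inv_mem γ.2
  rw [hfix, sub_self]

/-- `Hom(Γ, k)` embeds into `V × V` via the values of the Shapiro cocycle on two generators. -/
theorem m15c_dcoc_pair_injective {k : Type*} [Field k] (s t : G) (hst : Subgroup.closure {s, t} = ⊤) :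
    Function.Injective ((m15c_dcoc k Γ s).prod (m15c_dcoc k Γ t)) := by
  rw [← LinearMap.ker_eq_bot, LinearMap.ker_eq_bot']
  intro ψ hψ
  rw [LinearMap.prod_apply, Prod.ext_iff] at hψ
  change m15c_dcoc k Γ s ψ = 0 ∧ m15c_dcoc k Γ t ψ = 0 at hψ
  refine m15c_deq_zero_of_coc_eq_cob Γ (y := 0) fun g => ?_
  rw [map_zero, sub_zero]
  refine (m15c_disCoc_coc Γ ψ).eq_zero_of_closure hst ?_ g
  intro g hg
  rcases hg with rfl | hg
  · exact hψ.1
  · rw [Set.mem_singleton_iff] at hg
    subst hg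
    exact hψ.2

theorem m15c_dfinite_hom {k : Type*} [Field k] [Finite (G ⧸ Γ)] (s t : G) (hst : Subgroup.closure {s, t} = ⊤) :
    Module.Finite k (Additive Γ →+ k) :=
  Module.Finite.of_injective _ (m15c_dcoc_pair_injective Γ s t hst)

section formulas

theorem m15c_dalpha_formula {k : Type*} [Field k] {V : Type*} [AddCommGroup V] [Module k V]
    (h2 : (2 : k) ≠ 0) (P : V →ₗ[k] V) (a : V) (h : P a + a = 0) :
    P ((-(1 / 2 : k)) • a) - (-(1 / 2 : k)) • a = a := by
  rw [map_smul]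
  have h' : P a = -a := eq_neg_of_add_eq_zero_left h
  rw [h']
  have e : (-(1 / 2 : k)) • (-a) - (-(1 / 2 : k)) • a = ((1 / 2 : k) + 1 / 2) • a := by module
  have e2 : ((1 / 2 : k) + 1 / 2) = 1 := by
    field_simp
    norm_num
  rw [e, e2, one_smul]

theorem m15c_dbeta_formula {k : Type*} [Field k] {V : Type*} [AddCommGroup V] [Module k V]
    (h3 : (3 : k) ≠ 0) (P : V →ₗ[k] V) (b : V) (h : P (P b) + P b + b = 0) :
    P ((-(1 / 3 : k)) • ((2 : k) • b + P b)) - (-(1 / 3 : k)) • ((2 : k) • b + P b) = b := by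
  rw [map_smul, map_add, map_smul]
  have h' : P (P b) = -P b - b := by
    rw [sub_eq_add_neg, eq_comm, ← sub_eq_zero, ← neg_eq_zero]
    rw [← h]; abel
  rw [h']
  have e : (-(1 / 3 : k)) • ((2 : k) • P b + (-P b - b)) - (-(1 / 3 : k)) • ((2 : k) • b + P b) =
      ((-(1 / 3 : k)) * (-3)) • b := by module
  have e2 : (-(1 / 3 : k)) * (-3) = 1 := by
    field_simp
  rw [e, e2, one_smul]

end formulas

variable (s t : G)

/-- `α_ψ = -c_ψ(s)/2`, a solution of `(P_s - 1) α = c_ψ(s)`. -/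
noncomputable def m15c_dalpha (k : Type*) [Field k] {G : Type*} [Group G] (Γ : Subgroup G) (s : G) : (Additive Γ →+ k) →ₗ[k] ((G ⧸ Γ) → k) :=
  (-(1 / 2 : k)) • m15c_dcoc k Γ s

/-- `β_ψ = -(2 c_ψ(u) + P_u c_ψ(u))/3`, `u = s t`, a solution of `(P_u - 1) β = c_ψ(u)`. -/
noncomputable def m15c_dbeta (k : Type*) [Field k] {G : Type*} [Group G] (Γ : Subgroup G) (s t : G) : (Additive Γ →+ k) →ₗ[k] ((G ⧸ Γ) → k) :=
  (-(1 / 3 : k)) • ((2 : k) • m15c_dcoc k Γ (s * t) + m15c_dP k (s * t) ∘ₗ m15c_dcoc k Γ (s * t))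

theorem m15c_dalpha_spec {k : Type*} [Field k] (h2 : (2 : k) ≠ 0) {ψ : Additive Γ →+ k}
    (h : m15c_dcoc k Γ (s * s) ψ = 0) :
    m15c_dP k s (m15c_dalpha k Γ s ψ) - m15c_dalpha k Γ s ψ = m15c_dcoc k Γ s ψ := by
  rw [m15c_dcoc_mul] at h
  exact m15c_dalpha_formula h2 (m15c_dP k s) _ h

theorem m15c_dbeta_spec {k : Type*} [Field k] (h3 : (3 : k) ≠ 0) {ψ : Additive Γ →+ k}
    (h : m15c_dcoc k Γ (s * t * (s * t) * (s * t)) ψ = 0) :
    m15c_dP k (s * t) (m15c_dbeta k Γ s t ψ) - m15c_dbeta k Γ s t ψ = m15c_dcoc k Γ (s * t) ψ := by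
  rw [m15c_dcoc_mul, m15c_dcoc_mul, map_add] at h
  exact m15c_dbeta_formula h3 (m15c_dP k (s * t)) _ h

/-- The class `w_ψ = α_ψ - β_ψ`. -/
noncomputable def m15c_dw (k : Type*) [Field k] {G : Type*} [Group G] (Γ : Subgroup G) (s t : G) : (Additive Γ →+ k) →ₗ[k] ((G ⧸ Γ) → k) :=
  m15c_dalpha k Γ s - m15c_dbeta k Γ s t

theorem m15c_dnorm_w {k : Type*} [Field k] (h2' : (2 : k) ≠ 0) (h3' : (3 : k) ≠ 0) {n : ℕ} (ht : ∀ x : G ⧸ Γ, t ^ n • x = x) {ψ : Additive Γ →+ k}
    (hzs : m15c_dcoc k Γ (s * s) ψ = 0) (hzu : m15c_dcoc k Γ (s * t * (s * t) * (s * t)) ψ = 0)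
    (hpar : m15c_dnorm k t n (m15c_dcoc k Γ t ψ) = 0) :
    m15c_dnorm k t n (m15c_dP k s (m15c_dw k Γ s t ψ) - m15c_dw k Γ s t ψ) = 0 := by
  have hA := m15c_dalpha_spec Γ s h2' hzs
  have hB := m15c_dbeta_spec Γ s t h3' hzu
  have hcoc := m15c_dcoc_mul Γ s t ψ
  rw [m15c_dP_mul, LinearMap.comp_apply] at hB
  set β := m15c_dbeta k Γ s t ψ with hβ
  set α := m15c_dalpha k Γ s ψ with hα
  have h1 : m15c_dP k s (m15c_dw k Γ s t ψ) - m15c_dw k Γ s t ψ = m15c_dcoc k Γ s ψ - (m15c_dP k s β - β) := by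
    rw [m15c_dw, LinearMap.sub_apply, ← hA, map_sub]
    abel
  have h2 : m15c_dP k t (m15c_dcoc k Γ s ψ) = m15c_dP k t (m15c_dP k s β) - β - m15c_dcoc k Γ t ψ := by
    rw [hB, hcoc]; abel
  rw [h1, map_sub, ← m15c_dnorm_P t n ht (m15c_dcoc k Γ s ψ), h2, map_sub, map_sub, map_sub, hpar,
    m15c_dnorm_P t n ht]
  abel

/-- A function on a `G`-set fixed by a generating set is fixed by every element. -/
theorem m15c_dP_eq_self_of_closure {k : Type*} [Field k] {X : Type*} [MulAction G X] {gens : Set G}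
    (hs : Subgroup.closure gens = ⊤) {p : X → k} (hp : ∀ g ∈ gens, m15c_dP k g p = p) (g : G) :
    m15c_dP k g p = p := by
  have hg : g ∈ Subgroup.closure gens := by rw [hs]; trivial
  induction hg using Subgroup.closure_induction with
  | mem x hx => exact hp x hx
  | one => rw [m15c_dP_one, LinearMap.id_apply]
  | mul x y _ _ hx hy => rw [m15c_dP_mul, LinearMap.comp_apply, hx, hy]
  | inv x _ hx =>
    conv_lhs => rw [← hx]
    rw [← LinearMap.comp_apply, ← m15c_dP_mul, mul_inv_cancel, m15c_dP_one, LinearMap.id_apply]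

theorem m15c_dker_aux {k : Type*} [Field k] (h2' : (2 : k) ≠ 0) (h3' : (3 : k) ≠ 0) (hst : Subgroup.closure {s, t} = ⊤) {ψ : Additive Γ →+ k}
    (hzs : m15c_dcoc k Γ (s * s) ψ = 0) (hzu : m15c_dcoc k Γ (s * t * (s * t) * (s * t)) ψ = 0)
    {p q : (G ⧸ Γ) → k} (hp : m15c_dP k s p = p) (hq : m15c_dP k (s * t) q = q)
    (h : m15c_dw k Γ s t ψ + p + q = 0) :
    ψ = 0 ∧ ∀ x, p x = p ((1 : G) : G ⧸ Γ) := by
  have hA := m15c_dalpha_spec Γ s h2' hzs
  have hB := m15c_dbeta_spec Γ s t h3' hzu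
  rw [m15c_dw, LinearMap.sub_apply] at h
  set β := m15c_dbeta k Γ s t ψ with hβ
  set α := m15c_dalpha k Γ s ψ with hα
  have hy : β - q = α + p := by
    linear_combination (norm := module) -h
  have hcoc : m15c_dIsCoc k (fun g => m15c_dcoc k Γ g ψ - (m15c_dP k g (β - q) - (β - q))) :=
    (m15c_disCoc_coc Γ ψ).sub (m15c_disCoc_cob (β - q))
  have h_u : m15c_dcoc k Γ (s * t) ψ - (m15c_dP k (s * t) (β - q) - (β - q)) = 0 := by
    rw [map_sub, hq, ← hB]; abel
  have h_s : m15c_dcoc k Γ s ψ - (m15c_dP k s (β - q) - (β - q)) = 0 := by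
    rw [hy, map_add, hp, ← hA]; abel
  have h_t : m15c_dcoc k Γ t ψ - (m15c_dP k t (β - q) - (β - q)) = 0 := by
    have := hcoc s t
    simp only [h_u, h_s, map_zero, zero_add] at this
    exact this.symm
  have hzero : ∀ g : G, m15c_dcoc k Γ g ψ - (m15c_dP k g (β - q) - (β - q)) = 0 := by
    refine hcoc.eq_zero_of_closure hst ?_
    intro g hg
    rcases hg with rfl | hg
    · exact h_s
    · rw [Set.mem_singleton_iff] at hg
      subst hg
      exact h_t
  have hψ : ψ = 0 := m15c_deq_zero_of_coc_eq_cob Γ (y := β - q) fun g => sub_eq_zero.mp (hzero g)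
  refine ⟨hψ, ?_⟩
  have hα0 : α = 0 := by rw [hα, hψ, map_zero]
  have hβ0 : β = 0 := by rw [hβ, hψ, map_zero]
  have hqp : q = -p := by
    rw [hα0, hβ0] at hy
    linear_combination (norm := module) -hy
  have hpu : m15c_dP k (s * t) p = p := by
    have := hq
    rw [hqp, map_neg, neg_inj] at this
    exact this
  have hpt : m15c_dP k t p = p := by
    rw [m15c_dP_mul, LinearMap.comp_apply, hp] at hpu
    exact hpu
  have hall : ∀ g : G, m15c_dP k g p = p := by
    refine m15c_dP_eq_self_of_closure hst ?_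
    intro g hg
    rcases hg with rfl | hg
    · exact hp
    · rw [Set.mem_singleton_iff] at hg
      subst hg
      exact hpt
  intro x
  induction x using QuotientGroup.induction_on with
  | H g =>
    have := congrFun (hall g) ((1 : G) : G ⧸ Γ)
    rw [m15c_dP_apply, MulAction.Quotient.smul_coe, smul_eq_mul, mul_one] at this
    exact this

theorem m15c_dfinrank_ker_le_one {k : Type*} [Field k] {M M' : Type*} [AddCommGroup M] [Module k M] [AddCommGroup M']
    [Module k M'] (Φ : M →ₗ[k] M') (ev : M →ₗ[k] k)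
    (h : ∀ a, Φ a = 0 → ev a = 0 → a = 0) : finrank k (LinearMap.ker Φ) ≤ 1 := by
  have hinj : Function.Injective (ev.domRestrict (LinearMap.ker Φ)) := by
    refine LinearMap.ker_eq_bot.mp (LinearMap.ker_eq_bot'.mpr ?_)
    rintro ⟨a, ha⟩ h0
    exact Subtype.ext (h a (LinearMap.mem_ker.mp ha) h0)
  have := LinearMap.finrank_le_finrank_of_injective hinj
  rwa [Module.finrank_self] at this

end Bound

end Fermat.Agent.Lib.S15
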