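/-
Programme M (S15), node (A1'), part 2 (helper4): the abstract dimension bound over a field `k`
with `2`, `3`, `n` invertible (port of `pmD_abstract_bound`), the vanishing of the Shapiro cocycle
on central elements.
-/
import Fermat.Agent.Lib.S15.AConj4
import Fermat.Agent.Lib.Period.ParDim

set_option autoImplicit false
set_option linter.unusedSectionVars false
set_option linter.unusedVariables false

namespace Fermat.Agent.Lib.S15

open Module Fermat.Agent.Lib.Period

section Bound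

variable {G : Type*} [Group G] (Γ : Subgroup G) (s t : G)

/-- **Abstract dimension bound** for "parabolic" homomorphisms, over a field in which `2`, `3`, `n`
are invertible.  The space of homomorphisms is presented as an abstract vector space `M` with an
injective linear map `j` to `Hom(Γ, k)` (this keeps the instances on `M` opaque). -/
theorem m15c_dabstract_bound {k : Type*} [Field k] [Fintype (G ⧸ Γ)]
    (hst : Subgroup.closure {s, t} = ⊤) {n : ℕ}
    (h2 : (2 : k) ≠ 0) (h3 : (3 : k) ≠ 0)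
    (hn : (n : k) ≠ 0) (ht : ∀ x : G ⧸ Γ, t ^ n • x = x)
    {M : Type*} [AddCommGroup M] [Module k M] (j : M →ₗ[k] (Additive Γ →+ k))
    (hj : ∀ m : M, j m = 0 → m = 0)
    (hzs : ∀ m : M, m15c_dcoc k Γ (s * s) (j m) = 0)
    (hzu : ∀ m : M, m15c_dcoc k Γ (s * t * (s * t) * (s * t)) (j m) = 0)
    (hpar : ∀ m : M, m15c_dnorm k t n (m15c_dcoc k Γ t (j m)) = 0) :
    finrank k M +
        finrank k (LinearMap.ker (m15c_dP k s - LinearMap.id : ((G ⧸ Γ) → k) →ₗ[k] ((G ⧸ Γ) → k))) +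
        finrank k (LinearMap.ker
          (m15c_dP k (s * t) - LinearMap.id : ((G ⧸ Γ) → k) →ₗ[k] ((G ⧸ Γ) → k))) +
        Nat.card (MulAction.orbitRel.Quotient (Subgroup.zpowers t) (G ⧸ Γ)) ≤
      Fintype.card (G ⧸ Γ) + 2 := by
  classical
  have hfin : Module.Finite k M := by
    have hinj : Function.Injective (((m15c_dcoc k Γ s).prod (m15c_dcoc k Γ t)) ∘ₗ j) := by
      intro a b hab
      have h0 : j (a - b) = 0 := by
        apply m15c_dcoc_pair_injective Γ s t hst
        rw [map_zero, map_sub]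
        exact sub_eq_zero.mpr hab
      exact sub_eq_zero.mp (hj _ h0)
    exact Module.Finite.of_injective _ hinj
  set VS := LinearMap.ker (m15c_dP k s - LinearMap.id : ((G ⧸ Γ) → k) →ₗ[k] ((G ⧸ Γ) → k)) with hVS
  set VU := LinearMap.ker
    (m15c_dP k (s * t) - LinearMap.id : ((G ⧸ Γ) → k) →ₗ[k] ((G ⧸ Γ) → k)) with hVU
  set D : ((G ⧸ Γ) → k) →ₗ[k] ((G ⧸ Γ) → k) := m15c_dnorm k t n ∘ₗ (m15c_dP k s - LinearMap.id) with hD
  obtain ⟨Φ, hΦ⟩ : ∃ Φ : (M × (VS × VU)) →ₗ[k] ((G ⧸ Γ) → k), ∀ a : M × (VS × VU),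
      Φ a = m15c_dw k Γ s t (j a.1) +
        ((a.2.1 : (G ⧸ Γ) → k) + (a.2.2 : (G ⧸ Γ) → k)) :=
    ⟨(m15c_dw k Γ s t ∘ₗ j).coprod (VS.subtype.coprod VU.subtype), fun a => rfl⟩
  have hmemS : ∀ p : VS, m15c_dP k s (p : (G ⧸ Γ) → k) = p := by
    intro p
    have := LinearMap.mem_ker.mp p.2
    rw [LinearMap.sub_apply, LinearMap.id_apply, sub_eq_zero] at this
    exact this
  have hmemU : ∀ q : VU, m15c_dP k (s * t) (q : (G ⧸ Γ) → k) = q := by
    intro q
    have := LinearMap.mem_ker.mp q.2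
    rw [LinearMap.sub_apply, LinearMap.id_apply, sub_eq_zero] at this
    exact this
  -- the range of `Φ` lies in `ker D`
  have hrange : LinearMap.range Φ ≤ LinearMap.ker D := by
    rintro _ ⟨a, rfl⟩
    rw [LinearMap.mem_ker, hΦ, hD, LinearMap.comp_apply, LinearMap.sub_apply, LinearMap.id_apply,
      map_add, map_add, add_sub_add_comm, add_sub_add_comm, map_add, map_add,
      m15c_dnorm_w Γ s t h2 h3 ht (hzs a.1) (hzu a.1) (hpar a.1), hmemS, sub_self, map_zero,
      zero_add, zero_add]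
    have hq := hmemU a.2.2
    rw [m15c_dP_mul, LinearMap.comp_apply] at hq
    have : m15c_dnorm k t n (m15c_dP k s (a.2.2 : (G ⧸ Γ) → k)) = m15c_dnorm k t n (a.2.2 : (G ⧸ Γ) → k) := by
      conv_rhs => rw [← hq]
      rw [m15c_dnorm_P t n ht]
    rw [map_sub, this, sub_self]
  -- the kernel of `Φ` is at most one-dimensional
  have hker : finrank k (LinearMap.ker Φ) ≤ 1 := by
    refine m15c_dfinrank_ker_le_one Φ
      ((LinearMap.proj ((1 : G) : G ⧸ Γ) : ((G ⧸ Γ) → k) →ₗ[k] k) ∘ₗ VS.subtype ∘ₗ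
        (LinearMap.fst k VS VU) ∘ₗ (LinearMap.snd k M (VS × VU))) ?_
    intro a ha h0
    change (a.2.1 : (G ⧸ Γ) → k) ((1 : G) : G ⧸ Γ) = 0 at h0
    rw [hΦ, ← add_assoc] at ha
    obtain ⟨hψ, hconst⟩ := m15c_dker_aux Γ s t h2 h3 hst (hzs a.1) (hzu a.1) (hmemS a.2.1)
      (hmemU a.2.2) ha
    have hp0 : (a.2.1 : (G ⧸ Γ) → k) = 0 := by
      funext x
      rw [hconst x]
      exact h0
    rw [hψ, map_zero, hp0, zero_add, zero_add] at ha
    apply Prod.ext
    · exact hj _ hψ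
    · apply Prod.ext
      · exact Subtype.ext hp0
      · exact Subtype.ext ha
  have h1 := LinearMap.finrank_range_add_finrank_ker Φ
  rw [Module.finrank_prod, Module.finrank_prod] at h1
  have h2' := Submodule.finrank_mono hrange
  have h3' : finrank k (LinearMap.ker D) +
      Nat.card (MulAction.orbitRel.Quotient (Subgroup.zpowers t) (G ⧸ Γ)) ≤
        Fintype.card (G ⧸ Γ) + 1 :=
    m15c_dfinrank_ker_add_card_orbits_le (X := G ⧸ Γ) s t hst n hn ht ((1 : G) : G ⧸ Γ)
  omega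

end Bound

section Central

variable {G : Type*} [Group G] (Γ : Subgroup G)

/-- The Shapiro cocycle vanishes on central elements of order two lying in `Γ`. -/
theorem m15c_dcoc_central {k : Type*} [Field k] (h2k : (2 : k) ≠ 0) {z : G} (hzc : ∀ g, g * z = z * g) (hzΓ : z ∈ Γ) (hz2 : z * z = 1)
    (ψ : Additive Γ →+ k) : m15c_dcoc k Γ z ψ = 0 := by
  funext x
  have hk : pmD_kappa Γ z x = ⟨z, hzΓ⟩ := by
    apply Subtype.ext
    simp only [pmD_kappa, pmD_smul_eq_of_central Γ hzc hzΓ]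
    rw [mul_assoc, ← hzc, inv_mul_cancel_left]
  rw [m15c_dcoc_apply, hk, Pi.zero_apply]
  have h2 : ψ (Additive.ofMul ((⟨z, hzΓ⟩ : Γ) * ⟨z, hzΓ⟩)) = 0 := by
    have : ((⟨z, hzΓ⟩ : Γ) * ⟨z, hzΓ⟩) = 1 := Subtype.ext hz2
    rw [this, ofMul_one, map_zero]
  rw [ofMul_mul, map_add] at h2
  have h3 : (2 : k) * ψ (Additive.ofMul (⟨z, hzΓ⟩ : Γ)) = 0 := by linear_combination h2
  exact (mul_eq_zero.mp h3).resolve_left h2k

/-- The value of the Shapiro cocycle at an element fixing the coset `x`. -/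
theorem m15c_dcoc_apply_of_smul_eq {k : Type*} [Field k] {g : G} {x : G ⧸ Γ} (hx : g • x = x) (ψ : Additive Γ →+ k)
    (hmem : x.out⁻¹ * g * x.out ∈ Γ) :
    m15c_dcoc k Γ g ψ x = ψ (Additive.ofMul (⟨x.out⁻¹ * g * x.out, hmem⟩ : Γ)) := by
  rw [m15c_dcoc_apply]
  congr 2
  apply Subtype.ext
  simp only [pmD_kappa, hx]

end Central

section PermDims

variable {k : Type*} [Field k] {G : Type*} [Group G] {X : Type*} [MulAction G X]

/-- Over any field, the invariants of a permutation operator are the functions on the orbits. -/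
theorem m15c_dfinrank_ker_eq_card_orbits [Finite X] (g : G) :
    finrank k (LinearMap.ker (m15c_dP k g - LinearMap.id : (X → k) →ₗ[k] (X → k))) =
      Nat.card (MulAction.orbitRel.Quotient (Subgroup.zpowers g) X) := by
  classical
  set Ω := MulAction.orbitRel.Quotient (Subgroup.zpowers g) X with hΩ
  have : Fintype Ω := Fintype.ofFinite _
  set π : X → Ω := Quotient.mk'' with hπ
  have hπsurj : Function.Surjective π := Quotient.mk''_surjective
  let ι : (Ω → k) →ₗ[k] (X → k) := LinearMap.funLeft k k π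
  have hιinj : Function.Injective ι := LinearMap.funLeft_injective_of_surjective k k π hπsurj
  have hrange : LinearMap.range ι =
      LinearMap.ker (m15c_dP k g - LinearMap.id : (X → k) →ₗ[k] (X → k)) := by
    apply le_antisymm
    · rintro _ ⟨l, rfl⟩
      rw [LinearMap.mem_ker, LinearMap.sub_apply, LinearMap.id_apply, sub_eq_zero]
      funext x
      show l (π (g • x)) = l (π x)
      congr 1
      exact Quotient.sound' ⟨⟨g, Subgroup.mem_zpowers g⟩, rfl⟩
    · intro v hv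
      rw [LinearMap.mem_ker, LinearMap.sub_apply, LinearMap.id_apply, sub_eq_zero] at hv
      have hv1 : ∀ x, v (g • x) = v x := fun x => congrFun hv x
      let S : Subgroup G :=
        { carrier := {h | ∀ x, v (h • x) = v x}
          one_mem' := fun x => by rw [one_smul]
          mul_mem' := fun {a b} ha hb x => by rw [mul_smul, ha, hb]
          inv_mem' := fun {a} ha x => by
            have := ha (a⁻¹ • x)
            rw [smul_inv_smul] at this
            exact this.symm }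
      have hS : Subgroup.zpowers g ≤ S := (Subgroup.zpowers_le).mpr hv1
      refine ⟨fun ω => Quotient.liftOn' ω v ?_, ?_⟩
      · intro a b hab
        obtain ⟨h, rfl⟩ := hab
        exact hS h.2 b
      · funext x
        rfl
  calc finrank k (LinearMap.ker (m15c_dP k g - LinearMap.id : (X → k) →ₗ[k] (X → k)))
      = finrank k (LinearMap.range ι) := by rw [hrange]
    _ = finrank k (Ω → k) := LinearMap.finrank_range_of_inj hιinj
    _ = Nat.card Ω := by
        rw [Module.finrank_fintype_fun_eq_card, Nat.card_eq_fintype_card]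

/-- If `g²` acts trivially then `2 dim V^g = |X| + #Fix(g)`, over any field. -/
theorem m15c_dtwo_mul_finrank_ker [Fintype X] (g : G) (hg : ∀ x : X, (g * g) • x = x) :
    2 * finrank k (LinearMap.ker (m15c_dP k g - LinearMap.id : (X → k) →ₗ[k] (X → k))) =
      Fintype.card X + Nat.card (MulAction.fixedBy X g) := by
  rw [m15c_dfinrank_ker_eq_card_orbits, ← m15c_dfinrank_ker_eq_card_orbits (k := ℂ) g]
  exact pmD_two_mul_finrank_ker g hg

/-- If `g³` acts trivially then `3 dim V^g = |X| + 2 #Fix(g)`, over any field. -/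
theorem m15c_dthree_mul_finrank_ker [Fintype X] (g : G) (hg : ∀ x : X, (g * g * g) • x = x) :
    3 * finrank k (LinearMap.ker (m15c_dP k g - LinearMap.id : (X → k) →ₗ[k] (X → k))) =
      Fintype.card X + 2 * Nat.card (MulAction.fixedBy X g) := by
  rw [m15c_dfinrank_ker_eq_card_orbits, ← m15c_dfinrank_ker_eq_card_orbits (k := ℂ) g]
  exact pmD_three_mul_finrank_ker g hg

end PermDims

section Concrete

open Matrix Matrix.SpecialLinearGroup CongruenceSubgroup ModularGroup ModularCurve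

open scoped MatrixGroups

/-- **Dimension bound over a field `k` with `6N ∈ kˣ`**: a `k`-vector space `M` of homomorphisms
`Γ₀(N) → k` vanishing on all `g⁻¹ T^N g ∈ Γ₀(N)` has dimension `≤ 2 g(X₀(N))`. -/
theorem m15c_dconcrete_bound (N : ℕ) [NeZero N] {k : Type*} [Field k] (h2 : (2 : k) ≠ 0)
    (h3 : (3 : k) ≠ 0) (hN : (N : k) ≠ 0)
    {M : Type*} [AddCommGroup M] [Module k M] (j : M →ₗ[k] (Additive (Gamma0 N) →+ k))
    (hj : ∀ m : M, j m = 0 → m = 0)
    (hcusp : ∀ (m : M) (g : SL(2, ℤ)) (h : g⁻¹ * T ^ N * g ∈ Gamma0 N),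
      j m (Additive.ofMul (⟨g⁻¹ * T ^ N * g, h⟩ : Gamma0 N)) = 0) :
    (finrank k M : ℚ) ≤ 2 * genusFormula N := by
  classical
  have : Fintype (SL(2, ℤ) ⧸ Gamma0 N) := Fintype.ofFinite _
  have hneg : ∀ x : SL(2, ℤ) ⧸ Gamma0 N, (-1 : SL(2, ℤ)) • x = x :=
    pmD_smul_eq_of_central (Gamma0 N) pmD_neg_one_central (pmD_neg_one_mem_Gamma0 N)
  have hcoc : ∀ ψ : Additive (Gamma0 N) →+ k, m15c_dcoc k (Gamma0 N) (-1) ψ = 0 :=
    m15c_dcoc_central (Gamma0 N) h2 pmD_neg_one_central (pmD_neg_one_mem_Gamma0 N) pmD_neg_one_sq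
  have hpar : ∀ m : M, m15c_dnorm k T N (m15c_dcoc k (Gamma0 N) T (j m)) = 0 := by
    intro m
    have hc := (m15c_disCoc_coc (Gamma0 N) (j m)).pow T N
    rw [m15c_dnorm_apply, ← hc]
    funext x
    have hx : T ^ N • x = x := Fermat.Agent.Lib.RR.Cosets.T_pow_smul N x
    have hmem : x.out⁻¹ * T ^ N * x.out ∈ Gamma0 N := by
      have := (pmD_kappa (Gamma0 N) (T ^ N) x).2
      simp only [pmD_kappa, hx] at this
      exact this
    rw [m15c_dcoc_apply_of_smul_eq (Gamma0 N) hx (j m) hmem, Pi.zero_apply]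
    exact hcusp m x.out hmem
  have h := m15c_dabstract_bound (Gamma0 N) S T SpecialLinearGroup.SL2Z_generators h2 h3 hN
    (Fermat.Agent.Lib.RR.Cosets.T_pow_smul N) j hj
    (fun m => by rw [pmD_S_mul_S]; exact hcoc _)
    (fun m => by rw [pmD_ST_cube]; exact hcoc _)
    hpar
  have hS := m15c_dtwo_mul_finrank_ker (k := k) (X := SL(2, ℤ) ⧸ Gamma0 N) S
    (fun x => by rw [pmD_S_mul_S]; exact hneg x)
  have hU := m15c_dthree_mul_finrank_ker (k := k) (X := SL(2, ℤ) ⧸ Gamma0 N) (S * T)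
    (fun x => by rw [pmD_ST_cube]; exact hneg x)
  rw [Fermat.Agent.Lib.RR.Cosets.card_fixedBy_S] at hS
  rw [Fermat.Agent.Lib.RR.Cosets.card_fixedBy_ST] at hU
  rw [Fermat.Agent.Lib.RR.Cosets.card_orbits_T] at h
  have hcard : Fintype.card (SL(2, ℤ) ⧸ Gamma0 N) = dedekindPsi N := by
    rw [← Nat.card_eq_fintype_card, Fermat.Agent.Lib.RR.Cosets.card_quotient_Gamma0]
  rw [hcard] at h hS hU
  have hq : (finrank k M : ℚ) +
      (finrank k (LinearMap.ker (m15c_dP k S - LinearMap.id :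
        ((SL(2, ℤ) ⧸ Gamma0 N) → k) →ₗ[k] ((SL(2, ℤ) ⧸ Gamma0 N) → k))) : ℚ) +
      (finrank k (LinearMap.ker (m15c_dP k (S * T) - LinearMap.id :
        ((SL(2, ℤ) ⧸ Gamma0 N) → k) →ₗ[k] ((SL(2, ℤ) ⧸ Gamma0 N) → k))) : ℚ) +
      (cuspCount N : ℚ) ≤ (dedekindPsi N : ℚ) + 2 := by
    exact_mod_cast h
  have hSq : (2 : ℚ) * (finrank k (LinearMap.ker (m15c_dP k S - LinearMap.id :
        ((SL(2, ℤ) ⧸ Gamma0 N) → k) →ₗ[k] ((SL(2, ℤ) ⧸ Gamma0 N) → k))) : ℚ) =
      (dedekindPsi N : ℚ) + (nuTwo N : ℚ) := by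
    exact_mod_cast hS
  have hUq : (3 : ℚ) * (finrank k (LinearMap.ker (m15c_dP k (S * T) - LinearMap.id :
        ((SL(2, ℤ) ⧸ Gamma0 N) → k) →ₗ[k] ((SL(2, ℤ) ⧸ Gamma0 N) → k))) : ℚ) =
      (dedekindPsi N : ℚ) + 2 * (nuThree N : ℚ) := by
    exact_mod_cast hU
  rw [genusFormula]
  linarith

end Concrete

end Fermat.Agent.Lib.S15
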