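/-
Programme M (S15), node (A1'), part 3 (helper4): **`J₀(N)(ℚ̄)[q] = Λ / q Λ` for every prime
`q ∤ 6N`**, `Λ = s29s_M N = H_par(Γ₀(N), ℤ)`.

* `m15c_finrank_lattice` : `rank_ℤ Λ = 2 g(X₀(N))` (S20 + S21 + `s30e_basisC`);
* `m15c_finrank_Jq_le`   : `dim_{𝔽_q} J[q] ≤ 2 g` (`κ_q` is injective with parabolic values
  (`s35p_kappa_parabolic`), and the dimension bound `m15c_dconcrete_bound` over `𝔽_q`);
* `m15c_level_one`       : every `x ∈ J[q]` has `κ_q x = χ mod q` for some `χ ∈ Λ`.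
-/
import Fermat.Agent.Lib.S15.AConj5
import Fermat.Agent.Lib.S35.ParTate
import Fermat.Agent.Lib.S31.IotaDiv
import Fermat.Agent.Lib.S30.EigLattice
import Fermat.Agent.Lib.S30.TateLevel
import Fermat.Agent.Lib.Period.Assembly
import Fermat.Agent.S20

set_option autoImplicit false
set_option linter.unusedSectionVars false
set_option linter.unusedVariables false
set_option linter.style.haveILetI false

namespace Fermat.Agent.Lib.S15

open Module CongruenceSubgroup ModularCurve ModularCurve.Period AlgebraicCurve ModularGroup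
open Fermat.Agent.Lib.Period Fermat.Agent.Lib.S29 Fermat.Agent.Lib.S30 Fermat.Agent.Lib.S31
  Fermat.Agent.Lib.S35
open scoped MatrixGroups

noncomputable section

variable (N : ℕ) [NeZero N]

/-- **`rank_ℤ H_par(Γ₀(N), ℤ) = 2 g(X₀(N))`.** -/
theorem m15c_finrank_lattice :
    (finrank ℤ ↥(s29s_M N) : ℚ) = 2 * genusFormula N := by
  set r := finrank ℤ ↥(s29s_M N) with hr
  let b : Module.Basis (Fin r) ℤ ↥(s29s_M N) := Module.finBasis ℤ _
  have h1 : finrank ℂ ↥(s30e_P N) = r := by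
    rw [Module.finrank_eq_card_basis (s30e_basisC b), Fintype.card_fin]
  have h2 : finrank ℂ (CuspForm (Gamma0 N) 2 × CuspForm (Gamma0 N) 2) = finrank ℂ ↥(s30e_P N) :=
    (s30e_Phi N).finrank_eq
  rw [Module.finrank_prod, h1] at h2
  have h3 := Fermat.Agent.S20.result N
  rw [← h3]
  have h4 : (r : ℚ) = ((finrank ℂ (CuspForm (Gamma0 N) 2) + finrank ℂ (CuspForm (Gamma0 N) 2) : ℕ) : ℚ) := by
    rw [h2]
  rw [h4]
  push_cast
  ring

variable (q : ℕ) [hq : Fact q.Prime]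

/-- `κ_q` as an `𝔽_q`-linear map. -/
def m15c_kappaLin : (s29k_Jp N q) →ₗ[ZMod q] (Additive (Gamma0 N) →+ ZMod q) :=
  haveI : NeZero q := ⟨hq.out.ne_zero⟩
  AddMonoidHom.toZModLinearMap q (s30k_kappa N q)

theorem m15c_kappaLin_apply (x : (s29k_Jp N q)) :
    m15c_kappaLin N q x =
      (haveI : NeZero q := ⟨hq.out.ne_zero⟩; s30k_kappa N q x) := rfl

/-- **`dim_{𝔽_q} J₀(N)[q] ≤ 2 g`** for `q ∤ 6N`. -/
theorem m15c_finrank_Jq_le (hq6 : ¬ q ∣ 6 * N) :
    (finrank (ZMod q) (s29k_Jp N q) : ℚ) ≤ 2 * genusFormula N := by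
  haveI : NeZero q := ⟨hq.out.ne_zero⟩
  have hcast : ∀ m : ℕ, m ∣ 6 * N → ((m : ℕ) : ZMod q) ≠ 0 := by
    intro m hm h0
    rw [ZMod.natCast_eq_zero_iff] at h0
    exact hq6 (h0.trans hm)
  have h2 : (2 : ZMod q) ≠ 0 := by
    have := hcast 2 ⟨3 * N, by ring⟩
    exact_mod_cast this
  have h3 : (3 : ZMod q) ≠ 0 := by
    have := hcast 3 ⟨2 * N, by ring⟩
    exact_mod_cast this
  have hN : ((N : ℕ) : ZMod q) ≠ 0 := hcast N ⟨6, by ring⟩
  refine m15c_dconcrete_bound N h2 h3 hN (m15c_kappaLin N q) ?_ ?_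
  · intro m hm
    have : s30k_kappa N q m = s30k_kappa N q 0 := by
      rw [map_zero]; exact hm
    exact s30k_kappa_injective N q this
  · intro m g h
    refine s35p_kappa_parabolic N q m _ ?_
    show ((g⁻¹ * T ^ N * g : SL(2, ℤ)) : Matrix (Fin 2) (Fin 2) ℤ).trace ^ 2 = 4
    rw [pmD_trace_conj_T_pow]
    norm_num

/-- the reduction mod `q` of an integral combination. -/
theorem m15c_cast_sum {r : ℕ} (b : Fin r → ↥(s29s_M N)) (g : Fin r → ZMod q) :
    s29s_cast (ZMod q)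
        ((∑ i, ((g i).val : ℤ) • b i : ↥(s29s_M N)) : Additive (Gamma0 N) →+ ℤ) =
      ∑ i, g i • s29s_cast (ZMod q) ((b i : ↥(s29s_M N)) : Additive (Gamma0 N) →+ ℤ) := by
  rw [Submodule.coe_sum, map_sum]
  refine Finset.sum_congr rfl fun i _ => ?_
  rw [Submodule.coe_smul, s29s_cast_zsmul, Int.cast_natCast, ZMod.natCast_zmod_val]

/-- **`J₀(N)[q] = Λ / q Λ`**: for `q ∤ 6N` every `q`-torsion point has an integral parabolic
Kummer class. -/
theorem m15c_level_one (hq6 : ¬ q ∣ 6 * N) (x : s29k_Jp N q) :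
    ∃ χ : ↥(s29s_M N), s30k_kappa N q x =
      s29s_cast (ZMod q) (χ : Additive (Gamma0 N) →+ ℤ) := by
  classical
  haveI : Finite (s29k_Jp N q) := s30a_finite_torsion N q
  set r := finrank ℤ ↥(s29s_M N) with hr
  let b : Module.Basis (Fin r) ℤ ↥(s29s_M N) := Module.finBasis ℤ _
  have hex : ∀ i : Fin r, ∃ y : s29k_Jp N q, s30k_kappa N q y =
      s29s_cast (ZMod q) ((b i : ↥(s29s_M N)) : Additive (Gamma0 N) →+ ℤ) := fun i =>
    s30k_kappa_surj N q _ (s29s_cast_mem_Hpar (ZMod q) (ZMod q) (b i).2)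
  choose v hv using hex
  have hκsum : ∀ g : Fin r → ZMod q, m15c_kappaLin N q (∑ i, g i • v i) =
      s29s_cast (ZMod q)
        ((∑ i, ((g i).val : ℤ) • b i : ↥(s29s_M N)) : Additive (Gamma0 N) →+ ℤ) := by
    intro g
    rw [m15c_cast_sum, map_sum]
    refine Finset.sum_congr rfl fun i _ => ?_
    rw [map_smul, m15c_kappaLin_apply, hv i]
  -- linear independence
  have hli : LinearIndependent (ZMod q) v := by
    rw [Fintype.linearIndependent_iff]
    intro g hg i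
    have h1 := hκsum g
    rw [hg, map_zero] at h1
    set χ₀ : ↥(s29s_M N) := ∑ i, ((g i).val : ℤ) • b i with hχ₀
    have hdiv : ∀ γ : Additive (Gamma0 N), (q : ℤ) ∣ (χ₀ : Additive (Gamma0 N) →+ ℤ) γ := by
      intro γ
      have h2 := congrArg (fun ψ : Additive (Gamma0 N) →+ ZMod q => ψ γ) h1
      simp only [AddMonoidHom.zero_apply, s29s_cast_apply] at h2
      exact (ZMod.intCast_zmod_eq_zero_iff_dvd _ _).mp h2.symm
    obtain ⟨ψ, hψ⟩ := s31d_exists_div N (q : ℤ) χ₀ hdiv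
    have h3 : b.repr χ₀ i = ((g i).val : ℤ) := by
      rw [hχ₀, b.repr_sum_self]
    have h4 : b.repr χ₀ i = (q : ℤ) * b.repr ψ i := by
      rw [hψ, map_smul, Finsupp.smul_apply, smul_eq_mul]
    have h5 : (q : ℤ) ∣ ((g i).val : ℤ) := ⟨_, h3.symm.trans h4⟩
    have h6 : q ∣ (g i).val := by exact_mod_cast h5
    have h7 : (g i).val = 0 := Nat.eq_zero_of_dvd_of_lt h6 (ZMod.val_lt (g i))
    exact (ZMod.val_eq_zero (g i)).mp h7
  -- the dimension count
  have hle : r ≤ finrank (ZMod q) (s29k_Jp N q) := by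
    have := hli.fintype_card_le_finrank
    rwa [Fintype.card_fin] at this
  have hge : finrank (ZMod q) (s29k_Jp N q) ≤ r := by
    have h1 := m15c_finrank_Jq_le N q hq6
    rw [← m15c_finrank_lattice N] at h1
    exact_mod_cast h1
  have hcard : Fintype.card (Fin r) = finrank (ZMod q) (s29k_Jp N q) := by
    rw [Fintype.card_fin]
    exact le_antisymm hle hge
  have hspan := hli.span_eq_top_of_card_eq_finrank' hcard
  have hx : x ∈ Submodule.span (ZMod q) (Set.range v) := by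
    rw [hspan]; trivial
  obtain ⟨g, hg⟩ := (Submodule.mem_span_range_iff_exists_fun (ZMod q)).mp hx
  refine ⟨∑ i, ((g i).val : ℤ) • b i, ?_⟩
  rw [← hκsum g, hg, m15c_kappaLin_apply]

end

end Fermat.Agent.Lib.S15
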