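/-
Programme M (S15), node (A1') (helper4): **the `Λ`-package**.  `Λ = s29s_M N = H_par(Γ₀(N), ℤ)`,
`ℓ ∤ 6N` prime, `k` arbitrary:

  `m15c_phi N ℓ k : Λ →+ J₀(N)(ℚ̄)[ℓ^k]`,   `κ_{ℓ^k} (φ_k χ) = χ mod ℓ^k`  (S30's `s30i_level`),

is SURJECTIVE (`m15c_phi_surjective`) with kernel `ℓ^k Λ` (`m15c_phi_eq_zero_iff`), commutes with
the Hecke operators `T_q`, `q ∤ N` (`m15c_phi_hecke`), and intertwines `ι^*` (Prelude's
`charInvolution N ℤ ℤ`) with MINUS complex conjugation (`m15c_phi_conj`).  Summary: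
`m15c_package`.
-/
import Fermat.Agent.Lib.S15.AConj6
import Fermat.Agent.Lib.S15.AConj3

set_option autoImplicit false
set_option linter.unusedSectionVars false
set_option linter.unusedVariables false
set_option linter.style.haveILetI false

namespace Fermat.Agent.Lib.S15

open Module CongruenceSubgroup ModularCurve ModularCurve.Period AlgebraicCurve ModularGroup
open Fermat.Agent.Lib.Period Fermat.Agent.Lib.S29 Fermat.Agent.Lib.S30 Fermat.Agent.Lib.S31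
  Fermat.Agent.Lib.S35
open scoped MatrixGroups

noncomputable section

local notation "Kb" => AlgebraicClosure ℚ

/-- my `ι` is the Prelude's `jConjGamma0`. -/
theorem m15c_iota_eq (N : ℕ) (γ : Gamma0 N) : m15c_iota N γ = jConjGamma0 N γ := by
  apply Subtype.ext
  rw [m15c_iota_coe, jConjGamma0_coe]
  ext i j
  fin_cases i <;> fin_cases j <;> simp [jConjSL, jConjMat]

variable (N : ℕ) [NeZero N] (ℓ : ℕ) [Fact ℓ.Prime]

/-- **`φ_k : Λ →+ J[ℓ^k]`**, `κ_{ℓ^k} ∘ φ_k = (mod ℓ^k)`. -/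
def m15c_phi (k : ℕ) : ↥(s29s_M N) →+ s29k_Jp N (ℓ ^ k) :=
  AddMonoidHom.mk' (s30i_level N ℓ k) (s30i_level_add N ℓ k)

theorem m15c_phi_apply (k : ℕ) (χ : ↥(s29s_M N)) : m15c_phi N ℓ k χ = s30i_level N ℓ k χ := rfl

theorem m15c_kappa_phi (k : ℕ) (χ : ↥(s29s_M N)) :
    s30k_kappa N (ℓ ^ k) (m15c_phi N ℓ k χ) =
      s29s_cast (ZMod (ℓ ^ k)) (χ : Additive (Gamma0 N) →+ ℤ) :=
  s30i_level_spec N ℓ k χ

theorem m15c_phi_unique (k : ℕ) (χ : ↥(s29s_M N)) (x : s29k_Jp N (ℓ ^ k))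
    (hx : s30k_kappa N (ℓ ^ k) x = s29s_cast (ZMod (ℓ ^ k)) (χ : Additive (Gamma0 N) →+ ℤ)) :
    x = m15c_phi N ℓ k χ :=
  s30i_level_unique N ℓ k χ x hx

/-- `ℓ • φ_{k+1} χ = φ_k χ` in `J₀(N)`. -/
theorem m15c_phi_succ (k : ℕ) (χ : ↥(s29s_M N)) :
    ℓ • ((m15c_phi N ℓ (k + 1) χ : s29k_Jp N (ℓ ^ (k + 1))) : JZero N) =
      ((m15c_phi N ℓ k χ : s29k_Jp N (ℓ ^ k)) : JZero N) :=
  s30i_level_succ N ℓ k χ

/-- **the kernel of `φ_k` is `ℓ^k Λ`.** -/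
theorem m15c_phi_eq_zero_iff (k : ℕ) (χ : ↥(s29s_M N)) :
    m15c_phi N ℓ k χ = 0 ↔ ∃ χ' : ↥(s29s_M N), χ = ((ℓ : ℤ) ^ k) • χ' := by
  constructor
  · intro h0
    have h2 := m15c_kappa_phi N ℓ k χ
    rw [h0, map_zero] at h2
    apply s31d_exists_div N _ χ
    intro γ
    have h3 := congrArg (fun ψ : Additive (Gamma0 N) →+ ZMod (ℓ ^ k) => ψ γ) h2
    simp only [AddMonoidHom.zero_apply, s29s_cast_apply] at h3
    have h4 := (ZMod.intCast_zmod_eq_zero_iff_dvd _ _).mp h3.symm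
    have e : ((ℓ ^ k : ℕ) : ℤ) = (ℓ : ℤ) ^ k := by push_cast; rfl
    rwa [e] at h4
  · rintro ⟨χ', rfl⟩
    rw [map_zsmul]
    apply Subtype.ext
    have h := Pic0.mem_torsion.mp (m15c_phi N ℓ k χ').2
    have e : ((ℓ ^ k : ℕ) : ℤ) = (ℓ : ℤ) ^ k := by push_cast; rfl
    rw [e] at h
    rw [AddSubgroup.coe_zsmul]
    exact h

/-- level one: `J[ℓ] = φ₁(Λ)` for `ℓ ∤ 6N`. -/
theorem m15c_phi_one_surj (hℓ : ¬ ℓ ∣ 6 * N) (x : JZero N) (hx : ℓ • x = 0) :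
    ∃ χ : ↥(s29s_M N), ((m15c_phi N ℓ 1 χ : s29k_Jp N (ℓ ^ 1)) : JZero N) = x := by
  haveI : Fact (ℓ ^ 1).Prime := ⟨by rw [pow_one]; exact Fact.out⟩
  have hmem : x ∈ Pic0.torsion Kb (modularFunctionFieldBar N) (ℓ ^ 1) := by
    rw [Pic0.mem_torsion, pow_one, natCast_zsmul]
    exact hx
  have h6 : ¬ (ℓ ^ 1) ∣ 6 * N := by rwa [pow_one]
  obtain ⟨χ, hχ⟩ := m15c_level_one N (ℓ ^ 1) h6 ⟨x, hmem⟩
  exact ⟨χ, by rw [← m15c_phi_unique N ℓ 1 χ ⟨x, hmem⟩ hχ]⟩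

theorem m15c_phi_surj_aux (hℓ : ¬ ℓ ∣ 6 * N) : ∀ (k : ℕ) (x : JZero N), ℓ ^ (k + 1) • x = 0 →
    ∃ χ : ↥(s29s_M N),
      ((m15c_phi N ℓ (k + 1) χ : s29k_Jp N (ℓ ^ (k + 1))) : JZero N) = x := by
  intro k
  induction k with
  | zero =>
    intro x hx
    exact m15c_phi_one_surj N ℓ hℓ x (by simpa using hx)
  | succ k ih =>
    intro x hx
    obtain ⟨χ, hχ⟩ := ih (ℓ • x) (by rw [← mul_smul, ← pow_succ]; exact hx)
    set y : JZero N := ((m15c_phi N ℓ (k + 1 + 1) χ : s29k_Jp N (ℓ ^ (k + 1 + 1))) : JZero N)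
      with hy0
    have hy : ℓ • y = ℓ • x := by rw [hy0, m15c_phi_succ, hχ]
    have h1 : ℓ • (x - y) = 0 := by rw [nsmul_sub, hy, sub_self]
    have h2 : ℓ ^ (k + 1) • (x - y) = 0 := by rw [pow_succ, mul_smul, h1, smul_zero]
    obtain ⟨χ₂, hχ₂⟩ := ih (x - y) h2
    refine ⟨χ + ℓ • χ₂, ?_⟩
    rw [map_add, map_nsmul, AddSubgroup.coe_add, AddSubgroup.coe_nsmul, m15c_phi_succ, hχ₂,
      ← hy0]
    abel

/-- **`φ_k` is surjective** for `ℓ ∤ 6N`. -/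
theorem m15c_phi_surjective (hℓ : ¬ ℓ ∣ 6 * N) (k : ℕ) :
    Function.Surjective (m15c_phi N ℓ k) := by
  intro x
  cases k with
  | zero =>
    refine ⟨0, ?_⟩
    apply Subtype.ext
    rw [map_zero]
    have h := Pic0.mem_torsion.mp x.2
    have e : ((ℓ ^ 0 : ℕ) : ℤ) = 1 := by norm_num
    have h' : (1 : ℤ) • (x : JZero N) = 0 := e ▸ h
    rw [one_smul] at h'
    exact h'.symm
  | succ k =>
    have hx : ℓ ^ (k + 1) • (x : JZero N) = 0 := by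
      have h := Pic0.mem_torsion.mp x.2
      rwa [natCast_zsmul] at h
    obtain ⟨χ, hχ⟩ := m15c_phi_surj_aux N ℓ hℓ k x hx
    exact ⟨χ, Subtype.ext hχ⟩

/-- **`φ_k` is Hecke-equivariant.** -/
theorem m15c_phi_hecke (k : ℕ) (q : ℕ) [hq : Fact q.Prime] (hqN : ¬ q ∣ N) (χ : ↥(s29s_M N)) :
    m15c_phi N ℓ k (s29h_heckeHpar N q ℤ ℤ χ) =
      s29k_Tl N (ℓ ^ k) ⟨q, hq.out⟩ (m15c_phi N ℓ k χ) := by
  symm
  apply m15c_phi_unique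
  rw [s30k_kappa_hecke N (ℓ ^ k) q hqN, m15c_kappa_phi, s29s_heckeHom_cast, s29h_heckeHpar_coe]

/-- **`φ_k` intertwines `ι^*` with minus the complex conjugation.** -/
theorem m15c_phi_conj (k : ℕ) (χ χ' : ↥(s29s_M N))
    (h : (χ' : Additive (Gamma0 N) →+ ℤ) =
      charInvolution N ℤ ℤ (χ : Additive (Gamma0 N) →+ ℤ)) :
    m15c_phi N ℓ k χ' =
      - JZero.torsionGaloisRep N (ℓ ^ k) complexConjugation (m15c_phi N ℓ k χ) := by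
  symm
  apply m15c_phi_unique
  refine AddMonoidHom.ext fun γ => ?_
  obtain ⟨γ, rfl⟩ := Additive.ofMul.surjective γ
  rw [map_neg, AddMonoidHom.neg_apply, m15c_kappa_conj, neg_neg, m15c_kappa_phi, s29s_cast_apply,
    s29s_cast_apply, h, charInvolution_apply, m15c_iota_eq]
  rfl

/-- **(A1') the `Λ`-package.** -/
theorem m15c_package (hℓ : ¬ ℓ ∣ 6 * N) (k : ℕ) :
    ∃ φ : ↥(s29s_M N) →+ s29k_Jp N (ℓ ^ k), Function.Surjective φ ∧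
      (∀ χ, φ χ = 0 ↔ ∃ χ' : ↥(s29s_M N), χ = ((ℓ : ℤ) ^ k) • χ') ∧
      (∀ (q : ℕ) [hq : Fact q.Prime], ¬ q ∣ N → ∀ χ,
        φ (s29h_heckeHpar N q ℤ ℤ χ) = s29k_Tl N (ℓ ^ k) ⟨q, hq.out⟩ (φ χ)) ∧
      (∀ χ χ' : ↥(s29s_M N), (χ' : Additive (Gamma0 N) →+ ℤ) =
          charInvolution N ℤ ℤ (χ : Additive (Gamma0 N) →+ ℤ) →
        φ χ' = - JZero.torsionGaloisRep N (ℓ ^ k) complexConjugation (φ χ)) :=
  ⟨m15c_phi N ℓ k, m15c_phi_surjective N ℓ hℓ k, m15c_phi_eq_zero_iff N ℓ k,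
    fun q _ hqN χ => m15c_phi_hecke N ℓ k q hqN χ, m15c_phi_conj N ℓ k⟩

end

end Fermat.Agent.Lib.S15
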