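import Fermat.Agent.Lib.S15.DIface
import Fermat.Agent.Lib.S44.GInf
import Fermat.Agent.Lib.S44.HResInf
import Fermat.Agent.Lib.S36.PIndep
import Fermat.Agent.Lib.S37.WAtkin
import Fermat.Agent.Lib.S37.IRiemannBar
import Fermat.Agent.Lib.S18.RData
import Fermat.Agent.Lib.S18.LChange

set_option autoImplicit false
set_option linter.unusedSectionVars false
set_option linter.unusedVariables false
set_option linter.style.haveILetI false

noncomputable section

namespace Fermat.Agent.Lib.S15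

open ModularCurve AlgebraicCurve Fermat.Agent.Lib.FF Fermat.Agent.Lib.S44 Fermat.Agent.Lib.S37
  Fermat.Agent.Lib.S36 Fermat.Agent.Lib.S18

local notation "Kb" => AlgebraicClosure ℚ
local notation "GQ" => (AlgebraicClosure ℚ ≃ₐ[ℚ] AlgebraicClosure ℚ)

section Level

variable (N : ℕ) [NeZero N]

theorem s15b_J1_coe : ((s15d_J1 N : ↥(modularFunctionFieldBar N)) : LaurentSeries Kb) =
    coeffEmb Kb jq := rfl

theorem s15b_J2_coe : ((s15d_J2 N : ↥(modularFunctionFieldBar N)) : LaurentSeries Kb) =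
    coeffEmb Kb (qExpand ℚ N jq) := rfl

theorem s15b_J1_order : ((s15d_J1 N : ↥(modularFunctionFieldBar N)) : LaurentSeries Kb).order = -1 := by
  rw [s15b_J1_coe]
  have h := s36p_order_coeffEmb_jd Kb 1
  rw [qExpand_one_apply] at h
  simpa using h

theorem s15b_J2_order :
    ((s15d_J2 N : ↥(modularFunctionFieldBar N)) : LaurentSeries Kb).order = -(N : ℤ) := by
  rw [s15b_J2_coe]
  exact s36p_order_coeffEmb_jd Kb N

theorem s15b_J1_ne_zero : s15d_J1 N ≠ 0 := by
  intro h
  have h1 := s15b_J1_order N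
  rw [h] at h1
  simp at h1

theorem s15b_J2_ne_zero : s15d_J2 N ≠ 0 := by
  intro h
  have h1 := s15b_J2_order N
  rw [h] at h1
  simp at h1
  exact NeZero.ne N h1

theorem s15b_hne : ∃ y : ↥(modularFunctionFieldBar N),
    (y : LaurentSeries Kb) ∉ s44h_LA (κ := Kb) 0 := by
  refine ⟨s15d_J1 N, fun h => ?_⟩
  have h1 := h (-1) (by norm_num)
  rw [s15b_J1_coe, coeffEmb_coeff, coeff_jq_neg_one, map_one] at h1
  exact one_ne_zero h1

/-- the cusp `∞`: the place `q = 0`. -/
def s15b_inf : m15_Pl N := s44h_infPlace (modularFunctionFieldBar N) (s15b_hne N)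

theorem s15b_mem_inf (f : ↥(modularFunctionFieldBar N)) :
    f ∈ (s15b_inf N).toValuationSubring ↔ ∀ n : ℤ, n < 0 → (f : LaurentSeries Kb).coeff n = 0 :=
  s44h_mem_infPlace (s15b_hne N) f

/-- the order at `∞` is the `q`-order. -/
theorem s15b_inf_ord {f : ↥(modularFunctionFieldBar N)} (hf : f ≠ 0) :
    (s15b_inf N).ord f = (f : LaurentSeries Kb).order :=
  s44g_i_ord (s15b_inf N) (s15b_mem_inf N) (s15d_J1 N) (s15b_J1_order N) hf

theorem s15b_inf_ord_J1 : (s15b_inf N).ord (s15d_J1 N) = -1 := by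
  rw [s15b_inf_ord N (s15b_J1_ne_zero N), s15b_J1_order]

theorem s15b_inf_ord_J2 : (s15b_inf N).ord (s15d_J2 N) = -(N : ℤ) := by
  rw [s15b_inf_ord N (s15b_J2_ne_zero N), s15b_J2_order]

/-! ### The Atkin–Lehner involution -/

/-- `w` is an Atkin–Lehner involution at level `N`: it swaps `j(q)` and `j(q^N)`. -/
def s15b_IsAL (w : ↥(modularFunctionFieldBar N) ≃ₐ[Kb] ↥(modularFunctionFieldBar N)) : Prop :=
  w (s15d_J1 N) = s15d_J2 N ∧ w (s15d_J2 N) = s15d_J1 N

end Level

theorem s15b_exists_al_congr (M M' : ℕ) [NeZero M] [NeZero M'] (h : M = M')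
    (hw : ∃ w, s15b_IsAL M w) : ∃ w, s15b_IsAL M' w := by
  subst h
  exact hw

theorem s15b_exists_al_aux (p : ℕ) [NeZero p] (hp : p.Prime) :
    haveI : NeZero (1 * p) := ⟨by rw [one_mul]; exact NeZero.ne p⟩
    ∃ w, s15b_IsAL (1 * p) w := by
  haveI : NeZero (1 * p) := ⟨by rw [one_mul]; exact NeZero.ne p⟩
  have hp1 : ¬ p ∣ 1 := fun h => hp.one_lt.ne' (Nat.dvd_one.mp h)
  set w := s37w_al 1 p hp hp1 with hw
  have h1 : w (s15d_J1 (1 * p)) = s15d_J2 (1 * p) := by
    apply Subtype.ext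
    have hx : ((s15d_J1 (1 * p) : ↥(modularFunctionFieldBar (1 * p))) : LaurentSeries Kb) =
        s37w_gen (1 * p) ⟨1, one_dvd _⟩ := by
      rw [s15b_J1_coe, s37w_gen, qExpand_one_apply]
    rw [hw, s37w_al_gen 1 p hp hp1 ⟨1, one_dvd _⟩ _ hx, s15b_J2_coe, s37w_gen]
    have h2 : (s37w_alCo 1 p hp ⟨1, one_dvd _⟩).1 = 1 * p :=
      s37w_alCo_of_not_dvd 1 p hp ⟨1, one_dvd _⟩ hp1
    exact congrArg _ (qExpand_congr h2 jq)
  refine ⟨w, h1, ?_⟩
  rw [← h1, hw, s37w_al_al]

/-- **the Atkin–Lehner involution at a prime level.** -/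
theorem s15b_exists_al (p : ℕ) [NeZero p] (hp : p.Prime) : ∃ w, s15b_IsAL p w := by
  haveI : NeZero (1 * p) := ⟨by rw [one_mul]; exact NeZero.ne p⟩
  exact s15b_exists_al_congr (1 * p) p (one_mul p) (s15b_exists_al_aux p hp)

/-! ### The cusp `0` and the poles of `j(q)`, `j(q^p)` at a prime level -/

section Zero

variable (N : ℕ) [NeZero N] (w : ↥(modularFunctionFieldBar N) ≃ₐ[Kb] ↥(modularFunctionFieldBar N))

/-- the cusp `0`: the image of `∞` under the Atkin–Lehner involution. -/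
def s15b_zero : m15_Pl N := SemilinearAut.ofAlgAut w • s15b_inf N

theorem s15b_ord_smul (v : m15_Pl N) (f : ↥(modularFunctionFieldBar N)) :
    (SemilinearAut.ofAlgAut w • v).ord (w f) = v.ord f :=
  SemilinearAut.ord_smul (SemilinearAut.ofAlgAut w) v f

variable {N w} (hw : s15b_IsAL N w)

include hw in
theorem s15b_zero_ord_J1 : (s15b_zero N w).ord (s15d_J1 N) = -(N : ℤ) := by
  rw [← hw.2, s15b_zero, s15b_ord_smul, s15b_inf_ord_J2]

include hw in
theorem s15b_zero_ord_J2 : (s15b_zero N w).ord (s15d_J2 N) = -1 := by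
  rw [← hw.1, s15b_zero, s15b_ord_smul, s15b_inf_ord_J1]

end Zero

section Prime

variable {p : ℕ} [NeZero p] (hp : p.Prime)
  {w : ↥(modularFunctionFieldBar p) ≃ₐ[Kb] ↥(modularFunctionFieldBar p)} (hw : s15b_IsAL p w)

instance s15b_ffGen_J1 (N : ℕ) [NeZero N] : FFGen Kb (s15d_J1 N) := s18r_ffGen N

include hp in
theorem s15b_finrank_J1 :
    Module.finrank ↥(IntermediateField.adjoin Kb {s15d_J1 p}) ↥(modularFunctionFieldBar p) = p + 1 := by
  have h := s18r_finrank p
  rw [s18l_dedekindPsi_prime hp] at h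
  exact h

include hp hw in
theorem s15b_zero_ne_inf : s15b_zero p w ≠ s15b_inf p := by
  intro h
  have h1 := s15b_zero_ord_J1 hw
  rw [h, s15b_inf_ord_J1] at h1
  have := hp.two_le
  omega

include hp hw in
/-- **the poles of `j(q)` are the two cusps.** -/
theorem s15b_pole_J1 (v : m15_Pl p) (hv : v.ord (s15d_J1 p) < 0) :
    v = s15b_inf p ∨ v = s15b_zero p w := by
  classical
  obtain ⟨P, hP, hsum⟩ := ff_fibreSum_poles (K := Kb) (s15d_J1 p)
  rw [s15b_finrank_J1 hp] at hsum
  by_contra hne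
  rw [not_or] at hne
  have hinfP : s15b_inf p ∈ P := (hP _).mpr (by rw [s15b_inf_ord_J1]; norm_num)
  have hzeroP : s15b_zero p w ∈ P := (hP _).mpr (by
    rw [s15b_zero_ord_J1 hw]
    have : (0 : ℤ) < p := by exact_mod_cast hp.pos
    omega)
  have hvP : v ∈ P := (hP _).mpr hv
  have hsub : ({v, s15b_inf p, s15b_zero p w} : Finset (m15_Pl p)) ⊆ P := by
    intro x hx
    simp only [Finset.mem_insert, Finset.mem_singleton] at hx
    rcases hx with rfl | rfl | rfl
    · exact hvP
    · exact hinfP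
    · exact hzeroP
  have hle : ∑ x ∈ P, x.ord (s15d_J1 p) ≤
      ∑ x ∈ ({v, s15b_inf p, s15b_zero p w} : Finset (m15_Pl p)), x.ord (s15d_J1 p) := by
    have := Finset.sum_le_sum_of_subset_of_nonneg (f := fun x : m15_Pl p => -x.ord (s15d_J1 p)) hsub
      (fun x hx _ => by
        have := (hP x).mp hx
        show 0 ≤ -x.ord (s15d_J1 p)
        omega)
    rw [Finset.sum_neg_distrib, Finset.sum_neg_distrib] at this
    linarith
  have hne' : s15b_inf p ≠ s15b_zero p w := fun h => s15b_zero_ne_inf hp hw h.symm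
  rw [Finset.sum_insert (by
      simp only [Finset.mem_insert, Finset.mem_singleton, not_or]
      exact ⟨hne.1, hne.2⟩),
    Finset.sum_pair hne', s15b_inf_ord_J1, s15b_zero_ord_J1 hw, hsum] at hle
  push_cast at hle
  omega

include hp hw in
theorem s15b_smul_zero : SemilinearAut.ofAlgAut w • s15b_zero p w = s15b_inf p := by
  have h1 : (SemilinearAut.ofAlgAut w • s15b_zero p w).ord (s15d_J1 p) = -1 := by
    rw [← hw.2, s15b_ord_smul, s15b_zero_ord_J2 hw]
  rcases s15b_pole_J1 hp hw _ (by rw [h1]; norm_num) with h | h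
  · exact h
  · rw [h, s15b_zero_ord_J1 hw] at h1
    have := hp.two_le
    omega

include hp hw in
/-- **the poles of `j(q^p)` are the two cusps.** -/
theorem s15b_pole_J2 (v : m15_Pl p) (hv : v.ord (s15d_J2 p) < 0) :
    v = s15b_inf p ∨ v = s15b_zero p w := by
  set g := SemilinearAut.ofAlgAut w with hg
  have h1 : (g⁻¹ • v).ord (s15d_J1 p) = v.ord (s15d_J2 p) := by
    have := s15b_ord_smul p w (g⁻¹ • v) (s15d_J1 p)
    rw [← hg, smul_inv_smul, hw.1] at this
    exact this.symm
  rcases s15b_pole_J1 hp hw (g⁻¹ • v) (by rw [h1]; exact hv) with h | h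
  · right
    have : v = g • s15b_inf p := by rw [← h, smul_inv_smul]
    exact this
  · left
    have : v = g • s15b_zero p w := by rw [← h, smul_inv_smul]
    rw [this, hg, s15b_smul_zero hp hw]

/-! ### Galois -/

theorem s15b_gal_J1 (N : ℕ) [NeZero N] (σ : GQ) :
    arithmeticGalois (modularFunctionFieldFull N) σ • s15d_J1 N = s15d_J1 N := by
  apply Subtype.ext
  rw [coe_arithmeticGalois_smul, s15b_J1_coe, coeffMap_coeffEmb]

include hp hw in
theorem s15b_gal_inf (σ : GQ) : m15_gal p σ (s15b_inf p) = s15b_inf p := by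
  unfold m15_gal
  set g := arithmeticGalois (modularFunctionFieldFull p) σ with hg
  have h1 : (g • s15b_inf p).ord (s15d_J1 p) = -1 := by
    have := SemilinearAut.ord_smul g (s15b_inf p) (s15d_J1 p)
    rw [hg, s15b_gal_J1, ← hg, s15b_inf_ord_J1] at this
    exact this
  rcases s15b_pole_J1 hp hw _ (by rw [h1]; norm_num) with h | h
  · exact h
  · rw [h, s15b_zero_ord_J1 hw] at h1
    have := hp.two_le
    omega

include hp hw in
theorem s15b_gal_zero (σ : GQ) : m15_gal p σ (s15b_zero p w) = s15b_zero p w := by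
  unfold m15_gal
  set g := arithmeticGalois (modularFunctionFieldFull p) σ with hg
  have h1 : (g • s15b_zero p w).ord (s15d_J1 p) = -(p : ℤ) := by
    have := SemilinearAut.ord_smul g (s15b_zero p w) (s15d_J1 p)
    rw [hg, s15b_gal_J1, ← hg, s15b_zero_ord_J1 hw] at this
    exact this
  have hpos : (0 : ℤ) < p := by exact_mod_cast hp.pos
  rcases s15b_pole_J1 hp hw _ (by rw [h1]; omega) with h | h
  · rw [h, s15b_inf_ord_J1] at h1
    have := hp.two_le
    omega
  · exact h

/-! ### Any pair of cusps in the sense of `m15_Cusps` is this pair -/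

theorem s15b_cusps_inf (c : m15_Cusps p) : c.inf = s15b_inf p := by
  apply Place.ext
  ext f
  by_cases hf : f = 0
  · rw [hf]
    exact ⟨fun _ => (s15b_inf p).toValuationSubring.zero_mem,
      fun _ => c.inf.toValuationSubring.zero_mem⟩
  · rw [ff_mem_iff_ord_nonneg c.inf hf, ff_mem_iff_ord_nonneg (s15b_inf p) hf, c.inf_ord f hf,
      s15b_inf_ord p hf]

include hp hw in
theorem s15b_cusps_zero (c : m15_Cusps p) : c.zero = s15b_zero p w := by
  obtain ⟨h, hpole⟩ := c.zero_pole
  rcases s15b_pole_J1 hp hw c.zero hpole with h1 | h1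
  · exact absurd (h1.trans (s15b_cusps_inf c).symm) c.zero_ne
  · exact h1

/-- the two cusps as a `m15_Cusps`. -/
def s15b_cusps (hp : p.Prime) (hw : s15b_IsAL p w) : m15_Cusps p where
  inf := s15b_inf p
  zero := s15b_zero p w
  inf_ord := fun f hf => s15b_inf_ord p hf
  zero_ne := s15b_zero_ne_inf hp hw
  zero_pole := ⟨s15d_J1_mem p, by
    have h := s15b_zero_ord_J1 hw
    have hpos : (0 : ℤ) < p := by exact_mod_cast hp.pos
    show (s15b_zero p w).ord (s15d_J1 p) < 0
    omega⟩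

end Prime

/-- **[CUSP]** `m15_CuspNode`. -/
theorem s15b_cuspNode : m15_CuspNode := by
  intro p _ hp
  obtain ⟨w, hw⟩ := s15b_exists_al p hp
  exact ⟨s15b_cusps hp hw, s15b_gal_inf hp hw, s15b_gal_zero hp hw,
    fun P => s37i_deg_eq_one_bar p P⟩

end Fermat.Agent.Lib.S15
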