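import Fermat.Agent.Lib.S15.BCuspL
import Fermat.Agent.Lib.S15.DMod

set_option autoImplicit false
set_option linter.unusedSectionVars false
set_option linter.unusedVariables false
set_option linter.style.haveILetI false
set_option synthInstance.maxHeartbeats 400000

noncomputable section

namespace Fermat.Agent.Lib.S15

open ModularCurve AlgebraicCurve Fermat.Agent.Lib.FF Fermat.Agent.Lib.S44 Fermat.Agent.Lib.S37
  Fermat.Agent.Lib.S36 Fermat.Agent.Lib.S18 Fermat.Agent.Lib.S28 Fermat.Agent.Lib.S34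

local notation "Kb" => AlgebraicClosure ℚ
local notation "GQ" => (AlgebraicClosure ℚ ≃ₐ[ℚ] AlgebraicClosure ℚ)

attribute [local instance] Fermat.Agent.Lib.S18.s18n_isAlgClosed_residueField

/-! ### The series `j(q^N) / j(q)^N = 1 + O(q)` -/

section Series

variable (κ : Type*) [Field κ] (N : ℕ) [NeZero N]

theorem s15b_lc_jq : (jqModC κ).leadingCoeff = 1 := by
  rw [HahnSeries.leadingCoeff_eq, s18t_order_jqModC, coeff_jqModC_neg_one]

theorem s15b_lc_jqN : (qExpand κ N (jqModC κ)).leadingCoeff = 1 := by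
  rw [HahnSeries.leadingCoeff_eq, s34x_order_qExpand N (jqModC_ne_zero_of_nontrivial κ),
    s18t_order_jqModC, qExpand_coeff_mul, coeff_jqModC_neg_one]

variable {κ}

theorem s15b_inv_order_lc {x : LaurentSeries κ} (hx : x ≠ 0) :
    x⁻¹.order = -x.order ∧ x⁻¹.leadingCoeff = x.leadingCoeff⁻¹ := by
  have h1 : x * x⁻¹ = 1 := mul_inv_cancel₀ hx
  have h2 := HahnSeries.order_mul hx (inv_ne_zero hx)
  rw [h1, HahnSeries.order_one] at h2
  have h3 := HahnSeries.leadingCoeff_mul x x⁻¹
  rw [h1, HahnSeries.leadingCoeff_one] at h3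
  refine ⟨by omega, ?_⟩
  exact eq_inv_of_mul_eq_one_right h3.symm

theorem s15b_pow_order_lc {x : LaurentSeries κ} (hx : x ≠ 0) (n : ℕ) :
    (x ^ n).order = n * x.order ∧ (x ^ n).leadingCoeff = x.leadingCoeff ^ n := by
  induction n with
  | zero => simp
  | succ n ih =>
    rw [pow_succ, HahnSeries.order_mul (pow_ne_zero n hx) hx, HahnSeries.leadingCoeff_mul, ih.1,
      ih.2, pow_succ]
    refine ⟨?_, rfl⟩
    push_cast
    ring

variable (κ)

/-- the series `U = j(q^N) · j(q)^{-N}` has order `0` and constant coefficient `1`. -/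
theorem s15b_useries :
    (qExpand κ N (jqModC κ) * ((jqModC κ)⁻¹) ^ N).order = 0 ∧
      (qExpand κ N (jqModC κ) * ((jqModC κ)⁻¹) ^ N).leadingCoeff = 1 := by
  have hj : jqModC κ ≠ 0 := jqModC_ne_zero_of_nontrivial κ
  have hjN : qExpand κ N (jqModC κ) ≠ 0 := by
    intro h0
    have := s15b_lc_jqN κ N
    rw [h0] at this
    simp at this
  obtain ⟨hi1, hi2⟩ := s15b_inv_order_lc hj
  obtain ⟨hp1, hp2⟩ := s15b_pow_order_lc (inv_ne_zero hj) N
  rw [HahnSeries.order_mul hjN (pow_ne_zero N (inv_ne_zero hj)), HahnSeries.leadingCoeff_mul,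
    hp1, hp2, hi1, hi2, s15b_lc_jq, s15b_lc_jqN, s34x_order_qExpand N hj, s18t_order_jqModC]
  refine ⟨by ring, by simp⟩

/-- a series of order `0` with constant coefficient `1`: `W - 1` is zero or of positive order. -/
theorem s15b_sub_one_order {W : LaurentSeries κ} (h0 : W.order = 0) (h1 : W.leadingCoeff = 1) :
    W - 1 = 0 ∨ 0 < (W - 1).order := by
  by_cases hW : W - 1 = 0
  · exact Or.inl hW
  · right
    have : (1 : ℤ) ≤ (W - 1).order := by
      rw [HahnSeries.le_order_iff_forall hW]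
      intro j hj
      rw [HahnSeries.coeff_sub, HahnSeries.coeff_one]
      by_cases hj0 : j = 0
      · rw [if_pos hj0, hj0]
        rw [HahnSeries.leadingCoeff_eq, h0] at h1
        rw [h1, sub_self]
      · rw [if_neg hj0, sub_zero]
        apply HahnSeries.coeff_eq_zero_of_lt_order
        rw [h0]
        omega
    omega

end Series

/-! ### The functions `U = J₂/J₁^N`, `U′ = J₁/J₂^N` -/

section Generic

variable (N : ℕ) [NeZero N]

/-- `U = J₂ / J₁^N`. -/
def s15b_U : ↥(modularFunctionFieldBar N) := s15d_J2 N * ((s15d_J1 N)⁻¹) ^ N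

/-- `U′ = J₁ / J₂^N`. -/
def s15b_U' : ↥(modularFunctionFieldBar N) := s15d_J1 N * ((s15d_J2 N)⁻¹) ^ N

theorem s15b_U_coe : ((s15b_U N : ↥(modularFunctionFieldBar N)) : LaurentSeries Kb) =
    qExpand Kb N (jqModC Kb) * ((jqModC Kb)⁻¹) ^ N := by
  unfold s15b_U
  rw [MulMemClass.coe_mul, SubmonoidClass.coe_pow, IntermediateField.coe_inv, s15b_J2_coe,
    s15b_J1_coe, s18n_coeffEmb_jqd, s15b_coeffEmb_jq]

theorem s15b_U_inv : (s15b_U N)⁻¹ = (s15d_J2 N)⁻¹ * (s15d_J1 N) ^ N := by
  unfold s15b_U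
  rw [mul_inv, ← inv_pow, inv_inv]

theorem s15b_U'_inv : (s15b_U' N)⁻¹ = (s15d_J1 N)⁻¹ * (s15d_J2 N) ^ N := by
  unfold s15b_U'
  rw [mul_inv, ← inv_pow, inv_inv]

theorem s15b_cong_of_series {v : m15_Pl N}
    (hv : ∀ f : ↥(modularFunctionFieldBar N), f ≠ 0 → v.ord f = (f : LaurentSeries Kb).order)
    (f : ↥(modularFunctionFieldBar N))
    (h : (f : LaurentSeries Kb) - 1 = 0 ∨ 0 < ((f : LaurentSeries Kb) - 1).order) :
    s15b_Cong v f 1 := by
  have hcoe : ((f - 1 : ↥(modularFunctionFieldBar N)) : LaurentSeries Kb) =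
      (f : LaurentSeries Kb) - 1 := rfl
  by_cases hne : f - 1 = 0
  · unfold s15b_Cong
    rw [hne, map_zero]
    exact zero_lt_one
  · apply s15b_cong_of_ord
    rw [hv _ hne, hcoe]
    rcases h with h | h
    · exact absurd (Subtype.ext (by rw [hcoe, h]; rfl)) hne
    · exact h

theorem s15b_cong_inf_U : s15b_Cong (s15b_inf N) (s15b_U N) 1 := by
  obtain ⟨h0, h1⟩ := s15b_useries Kb N
  refine s15b_cong_of_series N (fun f hf => s15b_inf_ord N hf) _ ?_
  rw [s15b_U_coe]
  exact s15b_sub_one_order Kb h0 h1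

variable {N} {w : ↥(modularFunctionFieldBar N) ≃ₐ[Kb] ↥(modularFunctionFieldBar N)}
  (hw : s15b_IsAL N w)

include hw in
theorem s15b_al_U : w (s15b_U N) = s15b_U' N := by
  unfold s15b_U s15b_U'
  rw [map_mul, map_pow, map_inv₀, hw.1, hw.2]

include hw in
theorem s15b_cong_zero_U' : s15b_Cong (s15b_zero N w) (s15b_U' N) 1 := by
  by_cases hne : s15b_U' N - 1 = 0
  · unfold s15b_Cong
    rw [hne, map_zero]
    exact zero_lt_one
  · apply s15b_cong_of_ord
    have h1 : w (s15b_U N - 1) = s15b_U' N - 1 := by rw [map_sub, map_one, s15b_al_U hw]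
    have hne' : s15b_U N - 1 ≠ 0 := by
      intro h0
      rw [h0, map_zero] at h1
      exact hne h1.symm
    rw [← h1, s15b_zero, s15b_ord_smul]
    exact (s15b_val_lt_one_iff_ord hne').mp (s15b_cong_inf_U N)

end Generic

/-! ### Their reductions -/

section SpecialU

variable (A : ValuationSubring Kb) (N : ℕ) [NeZero N]

/-- `Ū = J̄₂ / J̄₁^N`. -/
def s15b_Ub : ↥(modularFunctionFieldFullC (IsLocalRing.ResidueField A) N) :=
  s15b_Jb2 (IsLocalRing.ResidueField A) N * ((s15b_Jb1 (IsLocalRing.ResidueField A) N)⁻¹) ^ N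

/-- `Ū′ = J̄₁ / J̄₂^N`. -/
def s15b_Ub' : ↥(modularFunctionFieldFullC (IsLocalRing.ResidueField A) N) :=
  s15b_Jb1 (IsLocalRing.ResidueField A) N * ((s15b_Jb2 (IsLocalRing.ResidueField A) N)⁻¹) ^ N

theorem s15b_Ub_coe : ((s15b_Ub A N : ↥(modularFunctionFieldFullC (IsLocalRing.ResidueField A) N)) :
      LaurentSeries (IsLocalRing.ResidueField A)) =
    qExpand (IsLocalRing.ResidueField A) N (jqModC (IsLocalRing.ResidueField A)) *
      ((jqModC (IsLocalRing.ResidueField A))⁻¹) ^ N := by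
  unfold s15b_Ub
  rw [MulMemClass.coe_mul, SubmonoidClass.coe_pow, IntermediateField.coe_inv, s15b_Jb2_coe,
    s15b_Jb1_coe]

theorem s15b_Ub_inv : (s15b_Ub A N)⁻¹ =
    (s15b_Jb2 (IsLocalRing.ResidueField A) N)⁻¹ * (s15b_Jb1 (IsLocalRing.ResidueField A) N) ^ N := by
  unfold s15b_Ub
  rw [mul_inv, ← inv_pow, inv_inv]

theorem s15b_Ub'_inv : (s15b_Ub' A N)⁻¹ =
    (s15b_Jb1 (IsLocalRing.ResidueField A) N)⁻¹ * (s15b_Jb2 (IsLocalRing.ResidueField A) N) ^ N := by
  unfold s15b_Ub'
  rw [mul_inv, ← inv_pow, inv_inv]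

theorem s15b_isInt_U : s15b_IsInt A N (s15b_U N) (s15b_Ub A N) :=
  s15b_isInt_mul (s15b_isInt_J2 A N) (s15b_isInt_pow (s15b_isInt_J1_inv A N) N)

theorem s15b_isInt_U_inv : s15b_IsInt A N (s15b_U N)⁻¹ (s15b_Ub A N)⁻¹ := by
  rw [s15b_U_inv, s15b_Ub_inv]
  exact s15b_isInt_mul (s15b_isInt_J2_inv A N) (s15b_isInt_pow (s15b_isInt_J1 A N) N)

theorem s15b_isInt_U' : s15b_IsInt A N (s15b_U' N) (s15b_Ub' A N) :=
  s15b_isInt_mul (s15b_isInt_J1 A N) (s15b_isInt_pow (s15b_isInt_J2_inv A N) N)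

theorem s15b_isInt_U'_inv : s15b_IsInt A N (s15b_U' N)⁻¹ (s15b_Ub' A N)⁻¹ := by
  rw [s15b_U'_inv, s15b_Ub'_inv]
  exact s15b_isInt_mul (s15b_isInt_J1_inv A N) (s15b_isInt_pow (s15b_isInt_J2 A N) N)

theorem s15b_cong_infb_Ub : s15b_Cong (s15b_infb A N) (s15b_Ub A N) 1 := by
  obtain ⟨h0, h1⟩ := s15b_useries (IsLocalRing.ResidueField A) N
  have h2 := s15b_sub_one_order (IsLocalRing.ResidueField A) h0 h1
  rw [← s15b_Ub_coe] at h2
  have hcoe : ((s15b_Ub A N - 1 : ↥(modularFunctionFieldFullC (IsLocalRing.ResidueField A) N)) :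
      LaurentSeries (IsLocalRing.ResidueField A)) =
      (s15b_Ub A N : LaurentSeries (IsLocalRing.ResidueField A)) - 1 := rfl
  by_cases hne : s15b_Ub A N - 1 = 0
  · unfold s15b_Cong
    rw [hne, map_zero]
    exact zero_lt_one
  · apply s15b_cong_of_ord
    rw [s15b_infb_ord A N hne, hcoe]
    rcases h2 with h | h
    · exact absurd (Subtype.ext (by rw [hcoe, h]; rfl)) hne
    · exact h

end SpecialU

/-! ### The dichotomy, with the location of the reduction -/

section Helpers

variable {K F : Type*} [Field K] [Field F] [Algebra K F] {v : Place K F}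

theorem s15b_val_le_one_of_ord {f : F} (h : 0 ≤ v.ord f) : v.adicValuation f ≤ 1 := by
  by_cases hf : f = 0
  · rw [hf, map_zero]; exact zero_le_one
  · exact (s15b_val_le_one_iff_ord hf).mpr h

theorem s15b_val_mul_pow_le {a b : F} (ha : v.adicValuation a ≤ 1) (hb : v.adicValuation b ≤ 1)
    (n : ℕ) : v.adicValuation (a * b ^ n) ≤ 1 := by
  rw [map_mul, map_pow]
  exact mul_le_one' ha (pow_le_one₀ zero_le hb)

theorem s15b_cong_mul_pow {a b : F} {α β : K} (ha : s15b_Cong v a (algebraMap K F α))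
    (hb : s15b_Cong v b (algebraMap K F β)) (n : ℕ) :
    s15b_Cong v (a * b ^ n) (algebraMap K F (α * β ^ n)) := by
  rw [map_mul, map_pow]
  have h1 := s15b_cong_pow hb (s15b_val_const β) n
  refine s15b_cong_mul ha h1 (s15b_val_const α) (s15b_val_le_of_cong h1 ?_)
  rw [map_pow]
  exact pow_le_one₀ zero_le (s15b_val_const β)

end Helpers

section Dichotomy

variable {p : ℕ} [NeZero p] (hp : p.Prime) {ℓ : ℕ} (hℓ : ℓ.Prime) (hℓp : ℓ ≠ p)
  {A : ValuationSubring Kb} (hA : A.LiesOverPrime ℓ) (h : ReductionInputsModL A p)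
  {w : ↥(modularFunctionFieldBar p) ≃ₐ[Kb] ↥(modularFunctionFieldBar p)} (hw : s15b_IsAL p w)

theorem s15b_J1_inv_sub_ne_zero (N : ℕ) [NeZero N] (c : Kb) :
    (s15d_J1 N)⁻¹ - algebraMap Kb ↥(modularFunctionFieldBar N) c ≠ 0 := by
  intro h0
  have h1 : (s15d_J1 N)⁻¹ = algebraMap Kb ↥(modularFunctionFieldBar N) c := sub_eq_zero.mp h0
  have h2 := congrArg (s15b_inf N).ord h1
  rw [Place.ord_inv, s15b_inf_ord_J1, ff_ord_algebraMap] at h2
  norm_num at h2

include hp hℓ hℓp hA hw in
/-- **the dichotomy with location**: a place over a non-integral value `j₁` of `j` reduces to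
`∞̄` with `|j₂| = |j₁|^p`, or to `r(0)` with `|j₂|^p = |j₁|`. -/
theorem s15b_dich {x : m15_Pl p} {j₁ j₂ : Kb} (hx : s15d_HasValues p x j₁ j₂) (hj₁ : j₁ ∉ A) :
    (placeReductionModL h x = s15b_infb A p ∧ A.valuation j₂ = A.valuation j₁ ^ p) ∨
    (placeReductionModL h x = placeReductionModL h (s15b_zero p w) ∧
      A.valuation j₂ ^ p = A.valuation j₁) := by
  classical
  obtain ⟨hB1, hB2, hB3, hB4, hB5⟩ := s15b_cuspL hp hℓ hℓp hA h hw
  obtain ⟨hC12, hC3⟩ := s15b_cuspL2 hp hℓ hℓp hA h hw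
  have hc1 : s15b_Cong x (s15d_J1 p) (algebraMap Kb ↥(modularFunctionFieldBar p) j₁) :=
    s15b_cong_of_ord hx.1
  have hc2 : s15b_Cong x (s15d_J2 p) (algebraMap Kb ↥(modularFunctionFieldBar p) j₂) :=
    s15b_cong_of_ord hx.2
  have hj₁0 : j₁ ≠ 0 := fun h0 => hj₁ (h0 ▸ A.zero_mem)
  have hlt : 1 < A.valuation j₁ := by
    rw [← not_le, A.valuation_le_one_iff]
    exact hj₁
  have hv0 : A.valuation j₁ ≠ 0 := (Valuation.ne_zero_iff _).mpr hj₁0
  have hinvlt : A.valuation j₁⁻¹ < 1 := by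
    rw [map_inv₀]
    exact inv_lt_one_of_one_lt₀ hlt
  have hinvA : j₁⁻¹ ∈ A := (A.valuation_le_one_iff _).mp hinvlt.le
  have hc1i : s15b_Cong x (s15d_J1 p)⁻¹ (algebraMap Kb ↥(modularFunctionFieldBar p) j₁⁻¹) := by
    rw [map_inv₀]
    exact s15b_cong_inv hc1 (s15b_val_const_eq hj₁0)
  -- (D1) the reduction is one of the two cusps
  have hD1 : placeReductionModL h x = s15b_infb A p ∨
      placeReductionModL h x = placeReductionModL h (s15b_zero p w) := by
    obtain ⟨D, S, hD, hcons, hnm⟩ := s15b_cons_J1inv hp hℓ hℓp hA h ⟨j₁⁻¹, hinvA⟩ hinvlt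
    have hDx : 0 < D x := by
      rw [hD]
      exact (s15b_val_lt_one_iff_ord (s15b_J1_inv_sub_ne_zero p _)).mp hc1i
    have h1 := s15b_le_of_pos (placeReductionModL h) D S hnm hDx
    rw [hcons] at h1
    exact hB5 _ (lt_of_lt_of_le hDx h1)
  rcases hD1 with hxi | hxz
  · left
    refine ⟨hxi, ?_⟩
    have hreg : ∀ v : m15_Pl p, placeReductionModL h v = s15b_infb A p →
        v.adicValuation (s15b_U p) ≤ 1 := by
      intro v hv
      by_cases hvi : v = s15b_inf p
      · rw [hvi]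
        exact s15b_val_le_of_cong (s15b_cong_inf_U p) (by rw [map_one])
      · unfold s15b_U
        refine s15b_val_mul_pow_le ?_ ?_ p
        · apply s15b_val_le_one_of_ord
          by_contra hneg
          rw [not_le] at hneg
          rcases s15b_pole_J2 hp hw v hneg with rfl | rfl
          · exact hvi rfl
          · exact hB2 hv
        · apply s15b_val_le_one_of_ord
          rw [Place.ord_inv]
          by_contra hneg
          exact (hB3 v (by omega)).1 hv
    have hregi : ∀ v : m15_Pl p, placeReductionModL h v = s15b_infb A p →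
        v.adicValuation (s15b_U p)⁻¹ ≤ 1 := by
      intro v hv
      by_cases hvi : v = s15b_inf p
      · rw [hvi]
        have h1 := s15b_cong_inv (s15b_cong_inf_U p) (map_one _)
        rw [inv_one] at h1
        exact s15b_val_le_of_cong h1 (by rw [map_one])
      · rw [s15b_U_inv]
        refine s15b_val_mul_pow_le ?_ ?_ p
        · apply s15b_val_le_one_of_ord
          rw [Place.ord_inv]
          by_contra hneg
          exact (hC12 v (by omega)).1 hv
        · apply s15b_val_le_one_of_ord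
          by_contra hneg
          rw [not_le] at hneg
          rcases s15b_pole_J1 hp hw v hneg with rfl | rfl
          · exact hvi rfl
          · exact hB2 hv
    have hcU : s15b_Cong x (s15b_U p)
        (algebraMap Kb ↥(modularFunctionFieldBar p) (j₂ * j₁⁻¹ ^ p)) := by
      unfold s15b_U
      exact s15b_cong_mul_pow hc2 hc1i p
    have hunit := s15b_unit_of_cong h (s15b_isInt_U A p) (s15b_isInt_U_inv A p) hreg hregi
      (s15b_cong_infb_Ub A p) hxi hcU
    rw [map_mul, map_pow, map_inv₀, inv_pow, mul_inv_eq_one₀ (pow_ne_zero p hv0)] at hunit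
    exact hunit
  · right
    refine ⟨hxz, ?_⟩
    have hj₂0 : j₂ ≠ 0 := by
      rintro rfl
      have h1 := hx.2
      rw [map_zero, sub_zero] at h1
      exact (hC12 x h1).2 hxz
    have hc2i : s15b_Cong x (s15d_J2 p)⁻¹ (algebraMap Kb ↥(modularFunctionFieldBar p) j₂⁻¹) := by
      rw [map_inv₀]
      exact s15b_cong_inv hc2 (s15b_val_const_eq hj₂0)
    have hinf_ne : ∀ v : m15_Pl p,
        placeReductionModL h v = placeReductionModL h (s15b_zero p w) → v ≠ s15b_inf p := by
      rintro v hv rfl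
      exact hB2 (hv.symm.trans hB1)
    have hreg : ∀ v : m15_Pl p,
        placeReductionModL h v = placeReductionModL h (s15b_zero p w) →
          v.adicValuation (s15b_U' p) ≤ 1 := by
      intro v hv
      by_cases hvz : v = s15b_zero p w
      · rw [hvz]
        exact s15b_val_le_of_cong (s15b_cong_zero_U' hw) (by rw [map_one])
      · unfold s15b_U'
        refine s15b_val_mul_pow_le ?_ ?_ p
        · apply s15b_val_le_one_of_ord
          by_contra hneg
          rw [not_le] at hneg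
          rcases s15b_pole_J1 hp hw v hneg with rfl | rfl
          · exact hinf_ne _ hv rfl
          · exact hvz rfl
        · apply s15b_val_le_one_of_ord
          rw [Place.ord_inv]
          by_contra hneg
          exact (hC12 v (by omega)).2 hv
    have hregi : ∀ v : m15_Pl p,
        placeReductionModL h v = placeReductionModL h (s15b_zero p w) →
          v.adicValuation (s15b_U' p)⁻¹ ≤ 1 := by
      intro v hv
      by_cases hvz : v = s15b_zero p w
      · rw [hvz]
        have h1 := s15b_cong_inv (s15b_cong_zero_U' hw) (map_one _)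
        rw [inv_one] at h1
        exact s15b_val_le_of_cong h1 (by rw [map_one])
      · rw [s15b_U'_inv]
        refine s15b_val_mul_pow_le ?_ ?_ p
        · apply s15b_val_le_one_of_ord
          rw [Place.ord_inv]
          by_contra hneg
          exact (hB3 v (by omega)).2 hv
        · apply s15b_val_le_one_of_ord
          by_contra hneg
          rw [not_le] at hneg
          rcases s15b_pole_J2 hp hw v hneg with rfl | rfl
          · exact hinf_ne _ hv rfl
          · exact hvz rfl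
    have hQ : s15b_Cong (placeReductionModL h (s15b_zero p w)) (s15b_Ub' A p) 1 := by
      have h1 := s15b_red_cong h (s15b_isInt_U' A p) hreg rfl (1 : A) (by
        rw [OneMemClass.coe_one, map_one]
        exact s15b_cong_zero_U' hw)
      rwa [map_one, map_one] at h1
    have hcU : s15b_Cong x (s15b_U' p)
        (algebraMap Kb ↥(modularFunctionFieldBar p) (j₁ * j₂⁻¹ ^ p)) := by
      unfold s15b_U'
      exact s15b_cong_mul_pow hc1 hc2i p
    have hunit := s15b_unit_of_cong h (s15b_isInt_U' A p) (s15b_isInt_U'_inv A p) hreg hregi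
      hQ hxz hcU
    have hv20 : A.valuation j₂ ≠ 0 := (Valuation.ne_zero_iff _).mpr hj₂0
    rw [map_mul, map_pow, map_inv₀, inv_pow, mul_inv_eq_one₀ (pow_ne_zero p hv20)] at hunit
    exact hunit.symm

end Dichotomy

/-! ### The contracts `s15d_Dich` and `s15d_Val` -/

/-- **[D-NP]** `s15d_Dich`. -/
theorem s15b_Dich : s15d_Dich := by
  intro p _ hp ℓ hℓ hℓp A hA h x j₁ j₂ hx hj₁
  obtain ⟨w, hw⟩ := s15b_exists_al p hp
  rcases s15b_dich hp hℓ hℓp hA h hw hx hj₁ with ⟨-, h1⟩ | ⟨-, h1⟩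
  · exact Or.inl h1
  · exact Or.inr h1

/-- **[D-VAL]** `s15d_Val`. -/
theorem s15b_Val : s15d_Val := by
  intro p _ hp c ℓ hℓ hℓp A hA h x j₁ j₂ hx hj₁
  obtain ⟨w, hw⟩ := s15b_exists_al p hp
  rw [s15b_cusps_inf c, s15b_cusps_zero hp hw c]
  obtain ⟨hB1, hB2, -⟩ := s15b_cuspL hp hℓ hℓp hA h hw
  have hlt : 1 < A.valuation j₁ := by
    rw [← not_le, A.valuation_le_one_iff]
    exact hj₁
  have hexcl : A.valuation j₂ = A.valuation j₁ ^ p → A.valuation j₂ ^ p = A.valuation j₁ →
      False := by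
    intro h1 h2
    rw [h1, ← pow_mul] at h2
    have h3 : A.valuation j₁ < A.valuation j₁ ^ (p * p) := by
      calc A.valuation j₁ = A.valuation j₁ ^ 1 := (pow_one _).symm
        _ < A.valuation j₁ ^ (p * p) := pow_lt_pow_right₀ hlt (by nlinarith [hp.two_le])
    rw [h2] at h3
    exact lt_irrefl _ h3
  rcases s15b_dich hp hℓ hℓp hA h hw hx hj₁ with ⟨hr, h1⟩ | ⟨hr, h1⟩
  · exact ⟨fun _ => by rw [hr, hB1], fun h2 => (hexcl h1 h2).elim⟩
  · exact ⟨fun h2 => (hexcl h2 h1).elim, fun _ => hr⟩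

end Fermat.Agent.Lib.S15
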