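/-
Programme M (S15), node (DEV) (helper8, prefix `s15e_`), part 1: hands-on first cohomology of a
subgroup `H` of a group `G` with values in a `G`-module `V` (abstract cocycles; continuity and all
arithmetic conditions are carried by the Selmer structure of part 2).

* `s15e_Z1 H V`, `s15e_cob`, `s15e_B1`, `s15e_H1 H V = Z¹ / B¹`;
* `s15e_inv H V` : the `H`-invariants;
* `s15e_H1map H f hf` : functoriality in `V`;  `s15e_res` : restriction to a smaller subgroup;
* for a short exact sequence `0 → V' → V → V'' → 0` of `G`-modules (`s15e_SES`): the connecting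
  map `s15e_delta`, and exactness of
  `0 → V'^H → V^H → V''^H → H¹(H,V') → H¹(H,V) → H¹(H,V'')`.
Mathlib only.
-/
import Mathlib

set_option autoImplicit false
set_option linter.unusedSectionVars false
set_option linter.unusedVariables false

noncomputable section

namespace Fermat.Agent.Lib.S15

variable {G : Type*} [Group G]

section Basic

variable (H : Subgroup G) (V : Type*) [AddCommGroup V] [DistribMulAction G V]

/-- `1`-cocycles of the subgroup `H` with values in the `G`-module `V`. -/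
def s15e_Z1 : AddSubgroup (H → V) where
  carrier := {ξ | ∀ h k : H, ξ (h * k) = ξ h + (h : G) • ξ k}
  zero_mem' := by
    intro h k
    simp
  add_mem' := by
    intro a b ha hb h k
    simp only [Pi.add_apply, ha h k, hb h k, smul_add]
    abel
  neg_mem' := by
    intro a ha h k
    simp only [Pi.neg_apply, ha h k, smul_neg, neg_add]

theorem s15e_mem_Z1 {ξ : H → V} :
    ξ ∈ s15e_Z1 H V ↔ ∀ h k : H, ξ (h * k) = ξ h + (h : G) • ξ k := Iff.rfl

/-- the coboundary of `v`, as a function. -/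
def s15e_cobFun (v : V) : H → V := fun h => (h : G) • v - v

theorem s15e_cobFun_mem (v : V) : s15e_cobFun H V v ∈ s15e_Z1 H V := by
  intro h k
  simp only [s15e_cobFun, Subgroup.coe_mul, mul_smul, smul_sub]
  abel

/-- the coboundary map `V → Z¹`. -/
def s15e_cob : V →+ s15e_Z1 H V where
  toFun v := ⟨s15e_cobFun H V v, s15e_cobFun_mem H V v⟩
  map_zero' := by
    apply Subtype.ext
    funext h
    simp [s15e_cobFun]
  map_add' := by
    intro v w
    apply Subtype.ext
    funext h
    simp only [s15e_cobFun, smul_add, AddSubgroup.coe_add, Pi.add_apply]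
    abel

theorem s15e_cob_apply (v : V) (h : H) : (s15e_cob H V v : H → V) h = (h : G) • v - v := rfl

/-- coboundaries. -/
def s15e_B1 : AddSubgroup (s15e_Z1 H V) := (s15e_cob H V).range

/-- first cohomology. -/
abbrev s15e_H1 : Type _ := s15e_Z1 H V ⧸ s15e_B1 H V

/-- the class of a cocycle. -/
def s15e_cls : s15e_Z1 H V →+ s15e_H1 H V := QuotientAddGroup.mk' (s15e_B1 H V)

theorem s15e_cls_surjective : Function.Surjective (s15e_cls H V) :=
  QuotientAddGroup.mk'_surjective _

theorem s15e_cls_eq_zero_iff (ξ : s15e_Z1 H V) :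
    s15e_cls H V ξ = 0 ↔ ∃ v : V, ∀ h : H, (ξ : H → V) h = (h : G) • v - v := by
  unfold s15e_cls
  rw [QuotientAddGroup.mk'_apply, QuotientAddGroup.eq_zero_iff]
  constructor
  · rintro ⟨v, rfl⟩
    exact ⟨v, fun h => rfl⟩
  · rintro ⟨v, hv⟩
    refine ⟨v, ?_⟩
    apply Subtype.ext
    funext h
    exact (hv h).symm

/-- the `H`-invariants of `V`. -/
def s15e_inv : AddSubgroup V where
  carrier := {v | ∀ h : H, (h : G) • v = v}
  zero_mem' := by
    intro h
    simp
  add_mem' := by
    intro a b ha hb h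
    rw [smul_add, ha h, hb h]
  neg_mem' := by
    intro a ha h
    rw [smul_neg, ha h]

theorem s15e_mem_inv {v : V} : v ∈ s15e_inv H V ↔ ∀ h : H, (h : G) • v = v := Iff.rfl

end Basic

section Functorial

variable (H : Subgroup G) {V W : Type*} [AddCommGroup V] [DistribMulAction G V]
  [AddCommGroup W] [DistribMulAction G W]

/-- functoriality of cocycles in the module. -/
def s15e_Z1map (f : V →+ W) (hf : ∀ (g : G) (v : V), f (g • v) = g • f v) :
    s15e_Z1 H V →+ s15e_Z1 H W where
  toFun ξ := ⟨fun h => f ((ξ : H → V) h), by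
    intro h k
    show f ((ξ : H → V) (h * k)) = f ((ξ : H → V) h) + (h : G) • f ((ξ : H → V) k)
    rw [ξ.2 h k, map_add, hf]⟩
  map_zero' := by
    apply Subtype.ext
    funext h
    simp
  map_add' := by
    intro a b
    apply Subtype.ext
    funext h
    simp

theorem s15e_Z1map_apply (f : V →+ W) (hf : ∀ (g : G) (v : V), f (g • v) = g • f v)
    (ξ : s15e_Z1 H V) (h : H) :
    (s15e_Z1map H f hf ξ : H → W) h = f ((ξ : H → V) h) := rfl

theorem s15e_Z1map_cob (f : V →+ W) (hf : ∀ (g : G) (v : V), f (g • v) = g • f v) (v : V) :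
    s15e_Z1map H f hf (s15e_cob H V v) = s15e_cob H W (f v) := by
  apply Subtype.ext
  funext h
  rw [s15e_Z1map_apply, s15e_cob_apply, s15e_cob_apply, map_sub, hf]

/-- functoriality of `H¹` in the module. -/
def s15e_H1map (f : V →+ W) (hf : ∀ (g : G) (v : V), f (g • v) = g • f v) :
    s15e_H1 H V →+ s15e_H1 H W :=
  QuotientAddGroup.map _ _ (s15e_Z1map H f hf) (by
    rintro _ ⟨v, rfl⟩
    rw [AddSubgroup.mem_comap, s15e_Z1map_cob]
    exact ⟨f v, rfl⟩)

theorem s15e_H1map_cls (f : V →+ W) (hf : ∀ (g : G) (v : V), f (g • v) = g • f v)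
    (ξ : s15e_Z1 H V) :
    s15e_H1map H f hf (s15e_cls H V ξ) = s15e_cls H W (s15e_Z1map H f hf ξ) := rfl

/-- functoriality of invariants. -/
theorem s15e_map_mem_inv (f : V →+ W) (hf : ∀ (g : G) (v : V), f (g • v) = g • f v) {v : V}
    (hv : v ∈ s15e_inv H V) : f v ∈ s15e_inv H W := by
  intro h
  rw [← hf, hv h]

end Functorial

section Restriction

variable {H H' : Subgroup G} (hle : H' ≤ H) (V : Type*) [AddCommGroup V] [DistribMulAction G V]

/-- restriction of cocycles to a smaller subgroup. -/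
def s15e_Z1res : s15e_Z1 H V →+ s15e_Z1 H' V where
  toFun ξ := ⟨fun h => (ξ : H → V) (Subgroup.inclusion hle h), by
    intro h k
    show (ξ : H → V) (Subgroup.inclusion hle (h * k)) = _
    rw [map_mul, ξ.2]
    rfl⟩
  map_zero' := by
    apply Subtype.ext
    funext h
    simp
  map_add' := by
    intro a b
    apply Subtype.ext
    funext h
    simp

theorem s15e_Z1res_apply (ξ : s15e_Z1 H V) (h : H') :
    (s15e_Z1res hle V ξ : H' → V) h = (ξ : H → V) (Subgroup.inclusion hle h) := rfl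

/-- restriction on `H¹`. -/
def s15e_res : s15e_H1 H V →+ s15e_H1 H' V :=
  QuotientAddGroup.map _ _ (s15e_Z1res hle V) (by
    rintro _ ⟨v, rfl⟩
    rw [AddSubgroup.mem_comap]
    refine ⟨v, ?_⟩
    apply Subtype.ext
    funext h
    rfl)

theorem s15e_res_cls (ξ : s15e_Z1 H V) :
    s15e_res hle V (s15e_cls H V ξ) = s15e_cls H' V (s15e_Z1res hle V ξ) := rfl

end Restriction

section Natural

variable {H H' : Subgroup G} (hle : H' ≤ H) {V W : Type*} [AddCommGroup V] [DistribMulAction G V]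
  [AddCommGroup W] [DistribMulAction G W]

theorem s15e_res_H1map (f : V →+ W) (hf : ∀ (g : G) (v : V), f (g • v) = g • f v)
    (x : s15e_H1 H V) :
    s15e_res hle W (s15e_H1map H f hf x) = s15e_H1map H' f hf (s15e_res hle V x) := by
  obtain ⟨ξ, rfl⟩ := s15e_cls_surjective H V x
  rfl

end Natural

/-! ### short exact sequences -/

/-- a short exact sequence `0 → V' → V → V'' → 0` of `G`-modules. -/
structure s15e_SES (G : Type*) [Group G] (V' V V'' : Type*) [AddCommGroup V']
    [DistribMulAction G V'] [AddCommGroup V] [DistribMulAction G V] [AddCommGroup V'']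
    [DistribMulAction G V''] where
  ι : V' →+ V
  π : V →+ V''
  hι : ∀ (g : G) (v : V'), ι (g • v) = g • ι v
  hπ : ∀ (g : G) (v : V), π (g • v) = g • π v
  inj : Function.Injective ι
  surj : Function.Surjective π
  exact : ∀ v : V, π v = 0 ↔ ∃ w : V', ι w = v

section Exact

variable {V' V V'' : Type*} [AddCommGroup V'] [DistribMulAction G V'] [AddCommGroup V]
  [DistribMulAction G V] [AddCommGroup V''] [DistribMulAction G V'']
  (S : s15e_SES G V' V V'') (H : Subgroup G)

theorem s15e_SES.π_ι (w : V') : S.π (S.ι w) = 0 := (S.exact _).mpr ⟨w, rfl⟩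

/-- the elements of `V` whose image in `V''` is `H`-invariant. -/
def s15e_SES.pre : AddSubgroup V := (s15e_inv H V'').comap S.π

theorem s15e_SES.exists_ι_eq {v : V} (hv : v ∈ S.pre H) (h : H) :
    ∃ w : V', S.ι w = (h : G) • v - v := by
  apply (S.exact _).mp
  rw [map_sub, S.hπ]
  have := hv h
  rw [this, sub_self]

/-- the `V'`-valued cocycle `h ↦ h v - v` of an element `v` with `H`-invariant image in `V''`. -/
def s15e_SES.liftFun (v : S.pre H) : H → V' := fun h => Classical.choose (S.exists_ι_eq H v.2 h)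

theorem s15e_SES.ι_liftFun (v : S.pre H) (h : H) :
    S.ι (S.liftFun H v h) = (h : G) • (v : V) - v :=
  Classical.choose_spec (S.exists_ι_eq H v.2 h)

theorem s15e_SES.liftFun_mem (v : S.pre H) : S.liftFun H v ∈ s15e_Z1 H V' := by
  intro h k
  apply S.inj
  rw [map_add, S.hι, S.ι_liftFun, S.ι_liftFun, S.ι_liftFun, Subgroup.coe_mul, mul_smul, smul_sub]
  abel

/-- the class of the lifted cocycle, as a homomorphism. -/
def s15e_SES.liftCls : S.pre H →+ s15e_H1 H V' :=
  AddMonoidHom.mk' (fun v => s15e_cls H V' ⟨S.liftFun H v, S.liftFun_mem H v⟩) (by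
    intro a b
    rw [← map_add]
    congr 1
    apply Subtype.ext
    funext h
    apply S.inj
    show S.ι (S.liftFun H (a + b) h) = S.ι (S.liftFun H a h + S.liftFun H b h)
    rw [map_add, S.ι_liftFun, S.ι_liftFun, S.ι_liftFun, AddSubgroup.coe_add, smul_add]
    abel)

theorem s15e_SES.liftCls_apply (v : S.pre H) :
    S.liftCls H v = s15e_cls H V' ⟨S.liftFun H v, S.liftFun_mem H v⟩ := rfl

/-- the lifted class vanishes iff `v` is an invariant up to `V'`. -/
theorem s15e_SES.liftCls_eq_zero_iff (v : S.pre H) :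
    S.liftCls H v = 0 ↔ ∃ w : V', (v : V) - S.ι w ∈ s15e_inv H V := by
  rw [S.liftCls_apply, s15e_cls_eq_zero_iff]
  constructor
  · rintro ⟨w, hw⟩
    refine ⟨w, fun h => ?_⟩
    have h1 := congrArg S.ι (hw h)
    rw [S.ι_liftFun, map_sub, S.hι] at h1
    rw [smul_sub]
    have : (h : G) • (v : V) - (h : G) • S.ι w = ((h : G) • (v : V) - v) - ((h : G) • S.ι w - S.ι w)
        + (v - S.ι w) := by abel
    rw [this, h1, sub_self, zero_add]
  · rintro ⟨w, hw⟩
    refine ⟨w, fun h => ?_⟩
    apply S.inj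
    rw [S.ι_liftFun, map_sub, S.hι]
    have h1 := hw h
    rw [smul_sub] at h1
    have : (h : G) • (v : V) - v = ((h : G) • (v : V) - (h : G) • S.ι w) - (v - S.ι w)
        + ((h : G) • S.ι w - S.ι w) := by abel
    rw [this, h1, sub_self, zero_add]

/-- elements of `V'` have trivial lifted class. -/
theorem s15e_SES.liftCls_ι (w : V') (hw : S.ι w ∈ S.pre H) : S.liftCls H ⟨S.ι w, hw⟩ = 0 := by
  rw [S.liftCls_eq_zero_iff]
  exact ⟨w, by simp⟩

/-- **the connecting homomorphism** `V''^H → H¹(H, V')`. -/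
def s15e_SES.delta : s15e_inv H V'' →+ s15e_H1 H V' :=
  AddMonoidHom.mk' (fun x => S.liftCls H ⟨Function.surjInv S.surj (x : V''), by
      show S.π _ ∈ s15e_inv H V''
      rw [Function.surjInv_eq S.surj]
      exact x.2⟩) (by
    intro a b
    rw [← map_add, ← sub_eq_zero, ← map_sub]
    set u : S.pre H := ⟨Function.surjInv S.surj ((a + b : s15e_inv H V'') : V''), by
      show S.π _ ∈ s15e_inv H V''
      rw [Function.surjInv_eq S.surj]
      exact (a + b).2⟩ - (⟨Function.surjInv S.surj (a : V''), by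
      show S.π _ ∈ s15e_inv H V''
      rw [Function.surjInv_eq S.surj]
      exact a.2⟩ + ⟨Function.surjInv S.surj (b : V''), by
      show S.π _ ∈ s15e_inv H V''
      rw [Function.surjInv_eq S.surj]
      exact b.2⟩) with hu
    have hπ : S.π (u : V) = 0 := by
      rw [hu]
      simp only [AddSubgroup.coe_sub, AddSubgroup.coe_add, map_sub, map_add,
        Function.surjInv_eq S.surj]
      abel
    obtain ⟨w, hw⟩ := (S.exact _).mp hπ
    have : u = ⟨S.ι w, by rw [hw]; exact u.2⟩ := Subtype.ext hw.symm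
    rw [this]
    exact S.liftCls_ι H w _)

/-- `δ` of the image of an element with invariant image. -/
theorem s15e_SES.delta_π (v : S.pre H) : S.delta H ⟨S.π v, v.2⟩ = S.liftCls H v := by
  show S.liftCls H _ = S.liftCls H v
  rw [← sub_eq_zero, ← map_sub]
  set u : S.pre H := ⟨Function.surjInv S.surj (S.π (v : V)), by
      show S.π _ ∈ s15e_inv H V''
      rw [Function.surjInv_eq S.surj]
      exact v.2⟩ - v with hu
  have hπ : S.π (u : V) = 0 := by
    rw [hu]
    simp only [AddSubgroup.coe_sub, map_sub, Function.surjInv_eq S.surj]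
    abel
  obtain ⟨w, hw⟩ := (S.exact _).mp hπ
  have : u = ⟨S.ι w, by rw [hw]; exact u.2⟩ := Subtype.ext hw.symm
  rw [this]
  exact S.liftCls_ι H w _

/-- **exactness at `V''^H`**. -/
theorem s15e_SES.delta_eq_zero_iff (x : s15e_inv H V'') :
    S.delta H x = 0 ↔ ∃ v ∈ s15e_inv H V, S.π v = x := by
  obtain ⟨v0, hv0⟩ := S.surj (x : V'')
  have hv0mem : v0 ∈ S.pre H := by
    show S.π v0 ∈ s15e_inv H V''
    rw [hv0]
    exact x.2
  have hx : x = ⟨S.π v0, hv0mem⟩ := Subtype.ext hv0.symm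
  rw [hx, S.delta_π H ⟨v0, hv0mem⟩, S.liftCls_eq_zero_iff]
  constructor
  · rintro ⟨w, hw⟩
    refine ⟨v0 - S.ι w, hw, ?_⟩
    rw [map_sub, S.π_ι, sub_zero]
  · rintro ⟨v, hv, hπv⟩
    have h0 : S.π (v0 - v) = 0 := by
      rw [map_sub, hπv, sub_self]
    obtain ⟨w, hw⟩ := (S.exact _).mp h0
    refine ⟨w, ?_⟩
    show v0 - S.ι w ∈ s15e_inv H V
    rw [hw, sub_sub_cancel]
    exact hv

/-- **exactness at `V^H`**. -/
theorem s15e_SES.mem_inv_of_π_eq_zero {v : V} (hv : v ∈ s15e_inv H V) (h0 : S.π v = 0) :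
    ∃ w ∈ s15e_inv H V', S.ι w = v := by
  obtain ⟨w, hw⟩ := (S.exact _).mp h0
  refine ⟨w, fun h => ?_, hw⟩
  apply S.inj
  rw [S.hι, hw]
  exact hv h

/-- `ι_* ∘ δ = 0`. -/
theorem s15e_SES.H1map_delta (x : s15e_inv H V'') :
    s15e_H1map H S.ι S.hι (S.delta H x) = 0 := by
  obtain ⟨v0, hv0⟩ := S.surj (x : V'')
  have hv0mem : v0 ∈ S.pre H := by
    show S.π v0 ∈ s15e_inv H V''
    rw [hv0]
    exact x.2
  have hx : x = ⟨S.π v0, hv0mem⟩ := Subtype.ext hv0.symm
  rw [hx, S.delta_π H ⟨v0, hv0mem⟩, S.liftCls_apply, s15e_H1map_cls, s15e_cls_eq_zero_iff]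
  refine ⟨v0, fun h => ?_⟩
  rw [s15e_Z1map_apply]
  exact S.ι_liftFun H ⟨v0, hv0mem⟩ h

/-- **exactness at `H¹(H, V')`**. -/
theorem s15e_SES.H1map_ι_eq_zero_iff (x : s15e_H1 H V') :
    s15e_H1map H S.ι S.hι x = 0 ↔ ∃ y : s15e_inv H V'', S.delta H y = x := by
  constructor
  · intro hx
    obtain ⟨ξ, rfl⟩ := s15e_cls_surjective H V' x
    rw [s15e_H1map_cls, s15e_cls_eq_zero_iff] at hx
    obtain ⟨v, hv⟩ := hx
    have hvmem : v ∈ S.pre H := by
      intro h
      have h1 := congrArg S.π (hv h)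
      rw [s15e_Z1map_apply, S.π_ι, map_sub, S.hπ] at h1
      exact (sub_eq_zero.mp h1.symm)
    refine ⟨⟨S.π v, hvmem⟩, ?_⟩
    rw [S.delta_π H ⟨v, hvmem⟩, S.liftCls_apply]
    congr 1
    apply Subtype.ext
    funext h
    apply S.inj
    rw [S.ι_liftFun]
    exact (hv h).symm
  · rintro ⟨y, rfl⟩
    exact S.H1map_delta H y

/-- `π_* ∘ ι_* = 0`. -/
theorem s15e_SES.H1map_π_ι (x : s15e_H1 H V') :
    s15e_H1map H S.π S.hπ (s15e_H1map H S.ι S.hι x) = 0 := by
  obtain ⟨ξ, rfl⟩ := s15e_cls_surjective H V' x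
  rw [s15e_H1map_cls, s15e_H1map_cls, s15e_cls_eq_zero_iff]
  refine ⟨0, fun h => ?_⟩
  rw [s15e_Z1map_apply, s15e_Z1map_apply, S.π_ι]
  simp

/-- **exactness at `H¹(H, V)`**. -/
theorem s15e_SES.H1map_π_eq_zero_iff (x : s15e_H1 H V) :
    s15e_H1map H S.π S.hπ x = 0 ↔ ∃ y : s15e_H1 H V', s15e_H1map H S.ι S.hι y = x := by
  constructor
  · intro hx
    obtain ⟨ξ, rfl⟩ := s15e_cls_surjective H V x
    rw [s15e_H1map_cls, s15e_cls_eq_zero_iff] at hx
    obtain ⟨v'', hv''⟩ := hx
    obtain ⟨v, rfl⟩ := S.surj v''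
    -- `ξ - ∂v` has values in `V'`
    have hval : ∀ h : H, ∃ w : V', S.ι w = (ξ : H → V) h - ((h : G) • v - v) := by
      intro h
      apply (S.exact _).mp
      have := hv'' h
      rw [s15e_Z1map_apply] at this
      rw [map_sub, this, map_sub, S.hπ, sub_self]
    choose η hη using hval
    have hηmem : η ∈ s15e_Z1 H V' := by
      intro h k
      apply S.inj
      rw [map_add, S.hι, hη, hη, hη, ξ.2 h k, Subgroup.coe_mul, mul_smul, smul_sub, smul_sub]
      abel
    refine ⟨s15e_cls H V' ⟨η, hηmem⟩, ?_⟩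
    rw [s15e_H1map_cls]
    unfold s15e_cls
    rw [QuotientAddGroup.mk'_apply, QuotientAddGroup.mk'_apply, QuotientAddGroup.eq]
    refine ⟨v, ?_⟩
    apply Subtype.ext
    funext h
    show (h : G) • v - v = (-(s15e_Z1map H S.ι S.hι ⟨η, hηmem⟩) + ξ : s15e_Z1 H V).1 h
    rw [AddSubgroup.coe_add, AddSubgroup.coe_neg, Pi.add_apply, Pi.neg_apply, s15e_Z1map_apply]
    show _ = -S.ι (η h) + (ξ : H → V) h
    rw [hη]
    abel
  · rintro ⟨y, rfl⟩
    exact S.H1map_π_ι H y

end Exact

end Fermat.Agent.Lib.S15
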