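/-
Programme M (S15), node (DEV) (helper8, prefix `s15e_`), part 2: the two counting identities behind
the dévissage of Selmer groups along a short exact sequence `0 → V' → V → V'' → 0`.

* `s15e_SES.card_local` (I2): for a local condition `𝓜 ⊆ H¹(H, V)` with preimage `𝓜'` in
  `H¹(H, V')` and image `𝓜''` in `H¹(H, V'')`:
  `|𝓜'| · |𝓜''| · |V^H| = |𝓜| · |V'^H| · |V''^H|`;
* `s15e_SES.card_sel` (I1): for Selmer groups cut out by closed global conditions `L', L, L''`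
  (pushed forward by `ι`, `π`, pulled back along `ι`) and local conditions at `H₁`, `H₂`:
  `|Sel V| · |V'^G| · |V''^G| ≤ |Sel V'| · |Sel V''| · |V^G|`, and `Sel V` is finite.
Mathlib only.
-/
import Fermat.Agent.Lib.S15.EDev1

set_option autoImplicit false
set_option linter.unusedSectionVars false
set_option linter.unusedVariables false

noncomputable section

namespace Fermat.Agent.Lib.S15

variable {G : Type*} [Group G]

section Count

variable {A B : Type*} [AddCommGroup A] [AddCommGroup B]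

theorem s15e_card_ker_mul_range (f : A →+ B) : Nat.card f.ker * Nat.card f.range = Nat.card A := by
  rw [← AddSubgroup.index_ker]
  exact AddSubgroup.card_mul_index f.ker

theorem s15e_card_range_of_injective (f : A →+ B) (hf : Function.Injective f) :
    Nat.card f.range = Nat.card A :=
  (Nat.card_congr (AddMonoidHom.ofInjective hf).toEquiv).symm

end Count

section Local

variable {V' V V'' : Type*} [AddCommGroup V'] [DistribMulAction G V'] [AddCommGroup V]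
  [DistribMulAction G V] [AddCommGroup V''] [DistribMulAction G V'']
  (S : s15e_SES G V' V V'') (H : Subgroup G)

/-- `ι` on invariants. -/
def s15e_SES.invι : s15e_inv H V' →+ s15e_inv H V :=
  AddMonoidHom.codRestrict (S.ι.comp (s15e_inv H V').subtype) (s15e_inv H V)
    (fun x => s15e_map_mem_inv H S.ι S.hι x.2)

/-- `π` on invariants. -/
def s15e_SES.invπ : s15e_inv H V →+ s15e_inv H V'' :=
  AddMonoidHom.codRestrict (S.π.comp (s15e_inv H V).subtype) (s15e_inv H V'')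
    (fun x => s15e_map_mem_inv H S.π S.hπ x.2)

theorem s15e_SES.invι_injective : Function.Injective (S.invι H) := by
  intro a b hab
  apply Subtype.ext
  apply S.inj
  exact congrArg Subtype.val hab

theorem s15e_SES.ker_invπ : (S.invπ H).ker = (S.invι H).range := by
  ext x
  rw [AddMonoidHom.mem_ker, AddMonoidHom.mem_range]
  constructor
  · intro hx
    have h0 : S.π (x : V) = 0 := congrArg Subtype.val hx
    obtain ⟨w, hw, hwx⟩ := S.mem_inv_of_π_eq_zero H x.2 h0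
    exact ⟨⟨w, hw⟩, Subtype.ext hwx⟩
  · rintro ⟨w, rfl⟩
    apply Subtype.ext
    exact S.π_ι (w : V')

theorem s15e_SES.ker_delta : (S.delta H).ker = (S.invπ H).range := by
  ext x
  rw [AddMonoidHom.mem_ker, AddMonoidHom.mem_range, S.delta_eq_zero_iff]
  constructor
  · rintro ⟨v, hv, hπ⟩
    exact ⟨⟨v, hv⟩, Subtype.ext hπ⟩
  · rintro ⟨v, rfl⟩
    exact ⟨v, v.2, rfl⟩

theorem s15e_SES.range_delta : (S.delta H).range = (s15e_H1map H S.ι S.hι).ker := by
  ext x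
  rw [AddMonoidHom.mem_ker, AddMonoidHom.mem_range, S.H1map_ι_eq_zero_iff]

/-- `|V^H| · |ker(H¹(V') → H¹(V))| = |V'^H| · |V''^H|`. -/
theorem s15e_SES.card_inv :
    Nat.card (s15e_inv H V) * Nat.card (s15e_H1map H S.ι S.hι).ker =
      Nat.card (s15e_inv H V') * Nat.card (s15e_inv H V'') := by
  have h1 := s15e_card_ker_mul_range (S.delta H)
  have h2 := s15e_card_ker_mul_range (S.invπ H)
  have h3 := s15e_card_range_of_injective (S.invι H) (S.invι_injective H)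
  rw [S.ker_delta, S.range_delta] at h1
  rw [S.ker_invπ, h3] at h2
  rw [← h1, ← h2]
  ring

/-- the preimage of a local condition. -/
def s15e_SES.preM (M : AddSubgroup (s15e_H1 H V)) : AddSubgroup (s15e_H1 H V') :=
  M.comap (s15e_H1map H S.ι S.hι)

/-- the image of a local condition. -/
def s15e_SES.imgM (M : AddSubgroup (s15e_H1 H V)) : AddSubgroup (s15e_H1 H V'') :=
  M.map (s15e_H1map H S.π S.hπ)

/-- `𝓜' → 𝓜`. -/
def s15e_SES.preToM (M : AddSubgroup (s15e_H1 H V)) : S.preM H M →+ M :=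
  AddMonoidHom.codRestrict ((s15e_H1map H S.ι S.hι).comp (S.preM H M).subtype) M (fun x => x.2)

/-- `𝓜 → H¹(V'')`. -/
def s15e_SES.MToImg (M : AddSubgroup (s15e_H1 H V)) : M →+ s15e_H1 H V'' :=
  (s15e_H1map H S.π S.hπ).comp M.subtype

theorem s15e_SES.range_MToImg (M : AddSubgroup (s15e_H1 H V)) :
    (S.MToImg H M).range = S.imgM H M := by
  ext x
  rw [AddMonoidHom.mem_range]
  unfold s15e_SES.imgM
  rw [AddSubgroup.mem_map]
  constructor
  · rintro ⟨y, rfl⟩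
    exact ⟨y, y.2, rfl⟩
  · rintro ⟨y, hy, rfl⟩
    exact ⟨⟨y, hy⟩, rfl⟩

theorem s15e_SES.ker_MToImg (M : AddSubgroup (s15e_H1 H V)) :
    (S.MToImg H M).ker = (S.preToM H M).range := by
  ext x
  rw [AddMonoidHom.mem_ker, AddMonoidHom.mem_range]
  constructor
  · intro hx
    obtain ⟨y, hy⟩ := (S.H1map_π_eq_zero_iff H (x : s15e_H1 H V)).mp hx
    refine ⟨⟨y, ?_⟩, Subtype.ext hy⟩
    show s15e_H1map H S.ι S.hι y ∈ M
    rw [hy]
    exact x.2
  · rintro ⟨y, rfl⟩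
    exact S.H1map_π_ι H (y : s15e_H1 H V')

/-- `ker(𝓜' → 𝓜) ≃ ker(H¹(V') → H¹(V))`. -/
def s15e_SES.kerEquiv (M : AddSubgroup (s15e_H1 H V)) :
    (S.preToM H M).ker ≃ (s15e_H1map H S.ι S.hι).ker where
  toFun x := ⟨(x : S.preM H M), by
    have := x.2
    rw [AddMonoidHom.mem_ker] at this ⊢
    exact congrArg Subtype.val this⟩
  invFun y := ⟨⟨(y : s15e_H1 H V'), by
    show s15e_H1map H S.ι S.hι (y : s15e_H1 H V') ∈ M
    have := y.2
    rw [AddMonoidHom.mem_ker] at this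
    rw [this]
    exact M.zero_mem⟩, by
    rw [AddMonoidHom.mem_ker]
    apply Subtype.ext
    have := y.2
    rw [AddMonoidHom.mem_ker] at this
    exact this⟩
  left_inv x := rfl
  right_inv y := rfl

/-- **(I2)** the local counting identity. -/
theorem s15e_SES.card_local (M : AddSubgroup (s15e_H1 H V)) :
    Nat.card (S.preM H M) * Nat.card (S.imgM H M) * Nat.card (s15e_inv H V) =
      Nat.card M * Nat.card (s15e_inv H V') * Nat.card (s15e_inv H V'') := by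
  have h1 := s15e_card_ker_mul_range (S.preToM H M)
  have h2 := s15e_card_ker_mul_range (S.MToImg H M)
  rw [S.ker_MToImg, S.range_MToImg] at h2
  rw [Nat.card_congr (S.kerEquiv H M)] at h1
  have h3 := S.card_inv H
  calc Nat.card (S.preM H M) * Nat.card (S.imgM H M) * Nat.card (s15e_inv H V)
      = Nat.card (s15e_H1map H S.ι S.hι).ker * Nat.card (S.preToM H M).range *
          Nat.card (S.imgM H M) * Nat.card (s15e_inv H V) := by rw [h1]
    _ = (Nat.card (S.preToM H M).range * Nat.card (S.imgM H M)) *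
          (Nat.card (s15e_inv H V) * Nat.card (s15e_H1map H S.ι S.hι).ker) := by ring
    _ = Nat.card M * (Nat.card (s15e_inv H V') * Nat.card (s15e_inv H V'')) := by rw [h2, h3]
    _ = _ := by ring

/-- the preimage of a finite local condition is finite when `V''` is finite. -/
theorem s15e_SES.finite_preM [Finite V''] (M : AddSubgroup (s15e_H1 H V)) [Finite M] :
    Finite (S.preM H M) := by
  rw [(S.preToM H M).finite_iff_finite_ker_range]
  constructor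
  · have : Finite (s15e_H1map H S.ι S.hι).ker := by
      rw [← S.range_delta]
      exact Finite.of_surjective (S.delta H).rangeRestrict (S.delta H).rangeRestrict_surjective
    exact Finite.of_equiv _ (S.kerEquiv H M).symm
  · infer_instance

end Local

section Global

/-- **the Selmer group**: classes in `L` whose restrictions to `H₁`, `H₂` lie in `M₁`, `M₂`. -/
def s15e_Sel (H₁ H₂ : Subgroup G) (V : Type*) [AddCommGroup V] [DistribMulAction G V]
    (L : AddSubgroup (s15e_H1 (⊤ : Subgroup G) V)) (M₁ : AddSubgroup (s15e_H1 H₁ V))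
    (M₂ : AddSubgroup (s15e_H1 H₂ V)) : AddSubgroup (s15e_H1 (⊤ : Subgroup G) V) :=
  L ⊓ (M₁.comap (s15e_res le_top V) ⊓ M₂.comap (s15e_res le_top V))

theorem s15e_mem_Sel {H₁ H₂ : Subgroup G} {V : Type*} [AddCommGroup V] [DistribMulAction G V]
    {L : AddSubgroup (s15e_H1 (⊤ : Subgroup G) V)} {M₁ : AddSubgroup (s15e_H1 H₁ V)}
    {M₂ : AddSubgroup (s15e_H1 H₂ V)} {x : s15e_H1 (⊤ : Subgroup G) V} :
    x ∈ s15e_Sel H₁ H₂ V L M₁ M₂ ↔
      x ∈ L ∧ s15e_res le_top V x ∈ M₁ ∧ s15e_res le_top V x ∈ M₂ := by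
  unfold s15e_Sel
  rw [AddSubgroup.mem_inf, AddSubgroup.mem_inf, AddSubgroup.mem_comap, AddSubgroup.mem_comap]

variable {V' V V'' : Type*} [AddCommGroup V'] [DistribMulAction G V'] [AddCommGroup V]
  [DistribMulAction G V] [AddCommGroup V''] [DistribMulAction G V'']
  (S : s15e_SES G V' V V'') (H₁ H₂ : Subgroup G)
  (L' : AddSubgroup (s15e_H1 (⊤ : Subgroup G) V')) (L : AddSubgroup (s15e_H1 (⊤ : Subgroup G) V))
  (L'' : AddSubgroup (s15e_H1 (⊤ : Subgroup G) V''))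
  (M₁ : AddSubgroup (s15e_H1 H₁ V)) (M₂ : AddSubgroup (s15e_H1 H₂ V))

/-- the three compatibilities of the closed conditions with a short exact sequence. -/
structure s15e_SES.Closed : Prop where
  pushι : ∀ x ∈ L', s15e_H1map ⊤ S.ι S.hι x ∈ L
  pushπ : ∀ x ∈ L, s15e_H1map ⊤ S.π S.hπ x ∈ L''
  pull : ∀ x : s15e_H1 (⊤ : Subgroup G) V', s15e_H1map ⊤ S.ι S.hι x ∈ L → x ∈ L'

variable (hC : S.Closed L' L L'')

/-- abbreviation: the Selmer group of the sub. -/
abbrev s15e_SES.SelSub : AddSubgroup (s15e_H1 (⊤ : Subgroup G) V') :=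
  s15e_Sel H₁ H₂ V' L' (S.preM H₁ M₁) (S.preM H₂ M₂)

/-- abbreviation: the Selmer group of the quotient. -/
abbrev s15e_SES.SelQuot : AddSubgroup (s15e_H1 (⊤ : Subgroup G) V'') :=
  s15e_Sel H₁ H₂ V'' L'' (S.imgM H₁ M₁) (S.imgM H₂ M₂)

include hC in
theorem s15e_SES.map_ι_mem_Sel {x : s15e_H1 (⊤ : Subgroup G) V'}
    (hx : x ∈ S.SelSub H₁ H₂ L' M₁ M₂) :
    s15e_H1map ⊤ S.ι S.hι x ∈ s15e_Sel H₁ H₂ V L M₁ M₂ := by
  rw [s15e_mem_Sel] at hx ⊢
  refine ⟨hC.pushι x hx.1, ?_, ?_⟩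
  · rw [s15e_res_H1map]
    exact hx.2.1
  · rw [s15e_res_H1map]
    exact hx.2.2

include hC in
theorem s15e_SES.map_π_mem_Sel {x : s15e_H1 (⊤ : Subgroup G) V}
    (hx : x ∈ s15e_Sel H₁ H₂ V L M₁ M₂) :
    s15e_H1map ⊤ S.π S.hπ x ∈ S.SelQuot H₁ H₂ L'' M₁ M₂ := by
  rw [s15e_mem_Sel] at hx ⊢
  refine ⟨hC.pushπ x hx.1, ?_, ?_⟩
  · rw [s15e_res_H1map]
    exact ⟨_, hx.2.1, rfl⟩
  · rw [s15e_res_H1map]
    exact ⟨_, hx.2.2, rfl⟩

include hC in
theorem s15e_SES.delta_mem_Sel (y : s15e_inv (⊤ : Subgroup G) V'') :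
    S.delta ⊤ y ∈ S.SelSub H₁ H₂ L' M₁ M₂ := by
  rw [s15e_mem_Sel]
  refine ⟨hC.pull _ ?_, ?_, ?_⟩
  · rw [S.H1map_delta]
    exact L.zero_mem
  · show s15e_H1map H₁ S.ι S.hι (s15e_res le_top V' (S.delta ⊤ y)) ∈ M₁
    rw [← s15e_res_H1map, S.H1map_delta, map_zero]
    exact M₁.zero_mem
  · show s15e_H1map H₂ S.ι S.hι (s15e_res le_top V' (S.delta ⊤ y)) ∈ M₂
    rw [← s15e_res_H1map, S.H1map_delta, map_zero]
    exact M₂.zero_mem

/-- `Sel V' → Sel V`. -/
def s15e_SES.selι : S.SelSub H₁ H₂ L' M₁ M₂ →+ s15e_Sel H₁ H₂ V L M₁ M₂ :=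
  AddMonoidHom.codRestrict ((s15e_H1map ⊤ S.ι S.hι).comp (S.SelSub H₁ H₂ L' M₁ M₂).subtype) _
    (fun x => S.map_ι_mem_Sel H₁ H₂ L' L L'' M₁ M₂ hC x.2)

/-- `Sel V → H¹(V'')`. -/
def s15e_SES.selπ : s15e_Sel H₁ H₂ V L M₁ M₂ →+ s15e_H1 (⊤ : Subgroup G) V'' :=
  (s15e_H1map ⊤ S.π S.hπ).comp (s15e_Sel H₁ H₂ V L M₁ M₂).subtype

/-- `V''^G → Sel V'`. -/
def s15e_SES.selδ : s15e_inv (⊤ : Subgroup G) V'' →+ S.SelSub H₁ H₂ L' M₁ M₂ :=
  AddMonoidHom.codRestrict (S.delta ⊤) _ (fun y => S.delta_mem_Sel H₁ H₂ L' L L'' M₁ M₂ hC y)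

include hC in
theorem s15e_SES.range_selπ_le :
    (S.selπ H₁ H₂ L M₁ M₂).range ≤ S.SelQuot H₁ H₂ L'' M₁ M₂ := by
  rintro _ ⟨x, rfl⟩
  exact S.map_π_mem_Sel H₁ H₂ L' L L'' M₁ M₂ hC x.2

theorem s15e_SES.ker_selπ :
    (S.selπ H₁ H₂ L M₁ M₂).ker = (S.selι H₁ H₂ L' L L'' M₁ M₂ hC).range := by
  ext x
  rw [AddMonoidHom.mem_ker, AddMonoidHom.mem_range]
  constructor
  · intro hx
    obtain ⟨y, hy⟩ := (S.H1map_π_eq_zero_iff ⊤ (x : s15e_H1 (⊤ : Subgroup G) V)).mp hx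
    have hxS := x.2
    rw [s15e_mem_Sel] at hxS
    refine ⟨⟨y, ?_⟩, Subtype.ext hy⟩
    rw [s15e_mem_Sel]
    refine ⟨hC.pull y (by rw [hy]; exact hxS.1), ?_, ?_⟩
    · show s15e_H1map H₁ S.ι S.hι (s15e_res le_top V' y) ∈ M₁
      rw [← s15e_res_H1map, hy]
      exact hxS.2.1
    · show s15e_H1map H₂ S.ι S.hι (s15e_res le_top V' y) ∈ M₂
      rw [← s15e_res_H1map, hy]
      exact hxS.2.2
  · rintro ⟨y, rfl⟩
    exact S.H1map_π_ι ⊤ (y : s15e_H1 (⊤ : Subgroup G) V')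

theorem s15e_SES.ker_selι :
    (S.selι H₁ H₂ L' L L'' M₁ M₂ hC).ker = (S.selδ H₁ H₂ L' L L'' M₁ M₂ hC).range := by
  ext x
  rw [AddMonoidHom.mem_ker, AddMonoidHom.mem_range]
  constructor
  · intro hx
    have h0 : s15e_H1map ⊤ S.ι S.hι (x : s15e_H1 (⊤ : Subgroup G) V') = 0 :=
      congrArg Subtype.val hx
    obtain ⟨y, hy⟩ := (S.H1map_ι_eq_zero_iff ⊤ _).mp h0
    exact ⟨y, Subtype.ext hy⟩
  · rintro ⟨y, rfl⟩
    apply Subtype.ext
    exact S.H1map_delta ⊤ y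

theorem s15e_SES.ker_selδ :
    (S.selδ H₁ H₂ L' L L'' M₁ M₂ hC).ker = (S.invπ ⊤).range := by
  rw [← S.ker_delta]
  ext y
  rw [AddMonoidHom.mem_ker, AddMonoidHom.mem_ker]
  constructor
  · intro h
    exact congrArg Subtype.val h
  · intro h
    exact Subtype.ext h

include hC in
/-- **(I1)** the global counting inequality, with finiteness. -/
theorem s15e_SES.card_sel [Finite V] [Finite (S.SelSub H₁ H₂ L' M₁ M₂)]
    [Finite (S.SelQuot H₁ H₂ L'' M₁ M₂)] :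
    Finite (s15e_Sel H₁ H₂ V L M₁ M₂) ∧
      Nat.card (s15e_Sel H₁ H₂ V L M₁ M₂) * Nat.card (s15e_inv (⊤ : Subgroup G) V') *
          Nat.card (s15e_inv (⊤ : Subgroup G) V'') ≤
        Nat.card (S.SelSub H₁ H₂ L' M₁ M₂) * Nat.card (S.SelQuot H₁ H₂ L'' M₁ M₂) *
          Nat.card (s15e_inv (⊤ : Subgroup G) V) := by
  have hfin_rb : Finite (S.selπ H₁ H₂ L M₁ M₂).range :=
    Finite.of_injective (AddSubgroup.inclusion (S.range_selπ_le H₁ H₂ L' L L'' M₁ M₂ hC))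
      (AddSubgroup.inclusion_injective _)
  have hfin_kb : Finite (S.selπ H₁ H₂ L M₁ M₂).ker := by
    rw [S.ker_selπ H₁ H₂ L' L L'' M₁ M₂ hC]
    exact Finite.of_surjective (S.selι H₁ H₂ L' L L'' M₁ M₂ hC).rangeRestrict
      (AddMonoidHom.rangeRestrict_surjective _)
  have hfin : Finite (s15e_Sel H₁ H₂ V L M₁ M₂) :=
    ((S.selπ H₁ H₂ L M₁ M₂).finite_iff_finite_ker_range).mpr ⟨hfin_kb, hfin_rb⟩
  refine ⟨hfin, ?_⟩
  have hb := s15e_card_ker_mul_range (S.selπ H₁ H₂ L M₁ M₂)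
  have ha := s15e_card_ker_mul_range (S.selι H₁ H₂ L' L L'' M₁ M₂ hC)
  have hd := s15e_card_ker_mul_range (S.selδ H₁ H₂ L' L L'' M₁ M₂ hC)
  have he := s15e_card_ker_mul_range (S.invπ (⊤ : Subgroup G))
  have hi := s15e_card_range_of_injective (S.invι (⊤ : Subgroup G)) (S.invι_injective ⊤)
  rw [S.ker_selπ H₁ H₂ L' L L'' M₁ M₂ hC] at hb
  rw [S.ker_selι H₁ H₂ L' L L'' M₁ M₂ hC] at ha
  rw [S.ker_selδ H₁ H₂ L' L L'' M₁ M₂ hC] at hd
  rw [S.ker_invπ, hi] at he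
  have hle : Nat.card (S.selπ H₁ H₂ L M₁ M₂).range ≤ Nat.card (S.SelQuot H₁ H₂ L'' M₁ M₂) :=
    AddSubgroup.card_le_of_le (S.range_selπ_le H₁ H₂ L' L L'' M₁ M₂ hC)
  rw [← hb, ← ha, ← hd, ← he]
  calc Nat.card (S.selι H₁ H₂ L' L L'' M₁ M₂ hC).range * Nat.card (S.selπ H₁ H₂ L M₁ M₂).range *
        Nat.card (s15e_inv (⊤ : Subgroup G) V') *
        (Nat.card (S.invπ (⊤ : Subgroup G)).range *
          Nat.card (S.selδ H₁ H₂ L' L L'' M₁ M₂ hC).range)
      = Nat.card (S.selπ H₁ H₂ L M₁ M₂).range *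
          (Nat.card (S.selι H₁ H₂ L' L L'' M₁ M₂ hC).range *
            Nat.card (s15e_inv (⊤ : Subgroup G) V') *
            (Nat.card (S.invπ (⊤ : Subgroup G)).range *
              Nat.card (S.selδ H₁ H₂ L' L L'' M₁ M₂ hC).range)) := by ring
    _ ≤ Nat.card (S.SelQuot H₁ H₂ L'' M₁ M₂) *
          (Nat.card (S.selι H₁ H₂ L' L L'' M₁ M₂ hC).range *
            Nat.card (s15e_inv (⊤ : Subgroup G) V') *
            (Nat.card (S.invπ (⊤ : Subgroup G)).range *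
              Nat.card (S.selδ H₁ H₂ L' L L'' M₁ M₂ hC).range)) :=
        Nat.mul_le_mul_right _ hle
    _ = _ := by ring

end Global

end Fermat.Agent.Lib.S15
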