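/-
Programme M (S15), node (DEV) (helper8, prefix `s15e_`), part 3: **the dévissage inequality**
(Mazur's Proposition I.1.7 of the Eisenstein-ideal paper, in Selmer form, topology-free).

`G` a group, `H₁ H₂ ≤ G`, `L` a family of "closed" global conditions `L V ⊆ H¹(G, V)` on bundled
`G`-modules, `P` a class of "pieces".  If `V` has a filtration of length `n` (`s15e_Filt`) whose
pieces lie in `P`, whose short exact sequences are compatible with `L` (`s15e_SES.Closed`), and if
every piece `V'` satisfies `s15e_PieceBound` (`H₁` acts trivially on `V'` and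
`|Sel(V'; M₁, M₂)| · |V'^{H₂}| ≤ |V'^G| · |M₁| · |M₂|` for all finite local conditions), then for
all finite local conditions `M₁ ⊆ H¹(H₁, V)`, `M₂ ⊆ H¹(H₂, V)`:

  `|Sel(V; L, M₁, M₂)| · |V^{H₁}| · |V^{H₂}| ≤ |V^G| · |M₁| · |M₂| · |V|`   (`s15e_dev`),

and in particular (`M₁ = M₂ = 0`, `Sel ∋ 0`): `|V^{H₁}| · |V^{H₂}| ≤ |V^G| · |V|` (`s15e_adm`).
Mathlib only.
-/
import Fermat.Agent.Lib.S15.EDev2

set_option autoImplicit false
set_option linter.unusedSectionVars false
set_option linter.unusedVariables false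

noncomputable section

universe u v

namespace Fermat.Agent.Lib.S15

/-- the arithmetic of one dévissage step. -/
theorem s15e_arith {s s' s'' g g' g'' a1 a1' a1'' a2 a2' a2'' m1 m1' m1'' m2 m2' m2'' v v' v'' : ℕ}
    (hI1 : s * g' * g'' ≤ s' * s'' * g)
    (hI21 : m1' * m1'' * a1 = m1 * a1' * a1'')
    (hI22 : m2' * m2'' * a2 = m2 * a2' * a2'')
    (hpc : s' * a2' ≤ g' * m1' * m2')
    (hih : s'' * a1'' * a2'' ≤ g'' * m1'' * m2'' * v'')
    (ha1' : a1' = v') (hv : v = v' * v'')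
    (hK : 0 < g' * g'' * a1' * a1'' * a2' * a2'') :
    s * a1 * a2 ≤ g * m1 * m2 * v := by
  refine Nat.le_of_mul_le_mul_right ?_ hK
  calc s * a1 * a2 * (g' * g'' * a1' * a1'' * a2' * a2'')
      = (s * g' * g'') * (a1 * a2 * a1' * a1'' * a2' * a2'') := by ring
    _ ≤ (s' * s'' * g) * (a1 * a2 * a1' * a1'' * a2' * a2'') := Nat.mul_le_mul_right _ hI1
    _ = g * (s' * a2') * (s'' * a1'' * a2'') * (a1 * a2 * a1') := by ring
    _ ≤ g * (g' * m1' * m2') * (g'' * m1'' * m2'' * v'') * (a1 * a2 * a1') := by gcongr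
    _ = g * g' * g'' * v'' * a1' * ((m1' * m1'' * a1) * (m2' * m2'' * a2)) := by ring
    _ = g * g' * g'' * v'' * a1' * ((m1 * a1' * a1'') * (m2 * a2' * a2'')) := by rw [hI21, hI22]
    _ = g * m1 * m2 * (a1' * v'') * (g' * g'' * a1' * a1'' * a2' * a2'') := by ring
    _ = g * m1 * m2 * v * (g' * g'' * a1' * a1'' * a2' * a2'') := by rw [ha1', ← hv]

section Aux

variable {G : Type*} [Group G]

theorem s15e_subsingleton_H1 (H : Subgroup G) (V : Type*) [AddCommGroup V] [DistribMulAction G V]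
    [Subsingleton V] : Subsingleton (s15e_H1 H V) := by
  refine ⟨fun a b => ?_⟩
  obtain ⟨x, rfl⟩ := s15e_cls_surjective H V a
  obtain ⟨y, rfl⟩ := s15e_cls_surjective H V b
  congr 1
  apply Subtype.ext
  funext h
  exact Subsingleton.elim _ _

variable {V' V V'' : Type*} [AddCommGroup V'] [DistribMulAction G V'] [AddCommGroup V]
  [DistribMulAction G V] [AddCommGroup V''] [DistribMulAction G V'']
  (S : s15e_SES G V' V V'')

include S in
theorem s15e_SES.card_eq : Nat.card V = Nat.card V' * Nat.card V'' := by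
  have h := s15e_card_ker_mul_range S.π
  have hr : S.π.range = ⊤ := AddMonoidHom.range_eq_top.mpr S.surj
  have hk : S.π.ker = S.ι.range := by
    ext x
    rw [AddMonoidHom.mem_ker, AddMonoidHom.mem_range]
    exact S.exact x
  rw [hr, hk, s15e_card_range_of_injective S.ι S.inj, AddSubgroup.card_top] at h
  exact h.symm

include S in
theorem s15e_SES.finite_sub [Finite V] : Finite V' := Finite.of_injective S.ι S.inj

include S in
theorem s15e_SES.finite_quot [Finite V] : Finite V'' := Finite.of_surjective S.π S.surj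

theorem s15e_SES.finite_imgM (H : Subgroup G) (M : AddSubgroup (s15e_H1 H V)) [Finite M] :
    Finite (S.imgM H M) := by
  have : Function.Surjective (fun x : M => (⟨s15e_H1map H S.π S.hπ x, ⟨x, x.2, rfl⟩⟩ : S.imgM H M)) := by
    rintro ⟨_, ⟨y, hy, rfl⟩⟩
    exact ⟨⟨y, hy⟩, rfl⟩
  exact Finite.of_surjective _ this

end Aux

/-- bundled `G`-modules. -/
structure s15e_Mod (G : Type v) [Group G] where
  carrier : Type u
  [grp : AddCommGroup carrier]
  [act : DistribMulAction G carrier]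

attribute [instance] s15e_Mod.grp s15e_Mod.act

section Dev

variable {G : Type v} [Group G] (H₁ H₂ : Subgroup G)
  (L : ∀ V : s15e_Mod.{u} G, AddSubgroup (s15e_H1 (⊤ : Subgroup G) V.carrier))
  (P : s15e_Mod.{u} G → Prop)

/-- filtrations of length `n` with pieces in `P`, compatible with the closed conditions `L`. -/
def s15e_Filt : ℕ → s15e_Mod.{u} G → Prop
  | 0, V => Subsingleton V.carrier
  | n + 1, V => ∃ (V' V'' : s15e_Mod.{u} G) (S : s15e_SES G V'.carrier V.carrier V''.carrier),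
      P V' ∧ S.Closed (L V') (L V) (L V'') ∧ s15e_Filt n V''

/-- the bound required of a piece. -/
def s15e_PieceBound (V' : s15e_Mod.{u} G) : Prop :=
  (∀ (h : H₁) (w : V'.carrier), (h : G) • w = w) ∧
    ∀ (M₁ : AddSubgroup (s15e_H1 H₁ V'.carrier)) (M₂ : AddSubgroup (s15e_H1 H₂ V'.carrier))
      [Finite M₁] [Finite M₂],
      Finite (s15e_Sel H₁ H₂ V'.carrier (L V') M₁ M₂) ∧
        Nat.card (s15e_Sel H₁ H₂ V'.carrier (L V') M₁ M₂) * Nat.card (s15e_inv H₂ V'.carrier) ≤
          Nat.card (s15e_inv (⊤ : Subgroup G) V'.carrier) * Nat.card M₁ * Nat.card M₂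

/-- **the dévissage inequality.** -/
theorem s15e_dev (hP : ∀ V', P V' → s15e_PieceBound H₁ H₂ L V') :
    ∀ (n : ℕ) (V : s15e_Mod.{u} G) [Finite V.carrier], s15e_Filt L P n V →
      ∀ (M₁ : AddSubgroup (s15e_H1 H₁ V.carrier)) (M₂ : AddSubgroup (s15e_H1 H₂ V.carrier))
        [Finite M₁] [Finite M₂],
        Finite (s15e_Sel H₁ H₂ V.carrier (L V) M₁ M₂) ∧
          Nat.card (s15e_Sel H₁ H₂ V.carrier (L V) M₁ M₂) * Nat.card (s15e_inv H₁ V.carrier) *
              Nat.card (s15e_inv H₂ V.carrier) ≤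
            Nat.card (s15e_inv (⊤ : Subgroup G) V.carrier) * Nat.card M₁ * Nat.card M₂ *
              Nat.card V.carrier := by
  intro n
  induction n with
  | zero =>
    intro V _ hV M₁ M₂ _ _
    have hsub : Subsingleton V.carrier := hV
    have h1 : Subsingleton (s15e_H1 (⊤ : Subgroup G) V.carrier) := s15e_subsingleton_H1 _ _
    have h2 : Subsingleton (s15e_H1 H₁ V.carrier) := s15e_subsingleton_H1 _ _
    have h3 : Subsingleton (s15e_H1 H₂ V.carrier) := s15e_subsingleton_H1 _ _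
    refine ⟨inferInstance, ?_⟩
    simp only [Nat.card_unique, mul_one, le_refl]
  | succ n ih =>
    intro V _ hV M₁ M₂ _ _
    obtain ⟨V', V'', S, hPV', hC, hF⟩ := hV
    have : Finite V'.carrier := S.finite_sub
    have : Finite V''.carrier := S.finite_quot
    have := S.finite_preM H₁ M₁
    have := S.finite_preM H₂ M₂
    have := S.finite_imgM H₁ M₁
    have := S.finite_imgM H₂ M₂
    obtain ⟨htriv, hbound⟩ := hP V' hPV'
    obtain ⟨hfin', hpc⟩ := hbound (S.preM H₁ M₁) (S.preM H₂ M₂)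
    obtain ⟨hfin'', hih⟩ := ih V'' hF (S.imgM H₁ M₁) (S.imgM H₂ M₂)
    have : Finite (S.SelSub H₁ H₂ (L V') M₁ M₂) := hfin'
    have : Finite (S.SelQuot H₁ H₂ (L V'') M₁ M₂) := hfin''
    obtain ⟨hfin, hI1⟩ := S.card_sel H₁ H₂ (L V') (L V) (L V'') M₁ M₂ hC
    refine ⟨hfin, ?_⟩
    have hI21 := S.card_local H₁ M₁
    have hI22 := S.card_local H₂ M₂
    have ha1' : Nat.card (s15e_inv H₁ V'.carrier) = Nat.card V'.carrier := by
      have : s15e_inv H₁ V'.carrier = ⊤ := by
        ext w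
        simp only [AddSubgroup.mem_top, iff_true]
        exact fun h => htriv h w
      rw [this, AddSubgroup.card_top]
    have hK : 0 < Nat.card (s15e_inv (⊤ : Subgroup G) V'.carrier) *
        Nat.card (s15e_inv (⊤ : Subgroup G) V''.carrier) * Nat.card (s15e_inv H₁ V'.carrier) *
        Nat.card (s15e_inv H₁ V''.carrier) * Nat.card (s15e_inv H₂ V'.carrier) *
        Nat.card (s15e_inv H₂ V''.carrier) := by
      have p1 : 0 < Nat.card (s15e_inv (⊤ : Subgroup G) V'.carrier) := Nat.card_pos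
      have p2 : 0 < Nat.card (s15e_inv (⊤ : Subgroup G) V''.carrier) := Nat.card_pos
      have p3 : 0 < Nat.card (s15e_inv H₁ V'.carrier) := Nat.card_pos
      have p4 : 0 < Nat.card (s15e_inv H₁ V''.carrier) := Nat.card_pos
      have p5 : 0 < Nat.card (s15e_inv H₂ V'.carrier) := Nat.card_pos
      have p6 : 0 < Nat.card (s15e_inv H₂ V''.carrier) := Nat.card_pos
      positivity
    exact s15e_arith hI1 hI21 hI22 hpc hih ha1' S.card_eq hK

/-- **[ADM] in abstract form**: `|V^{H₁}| · |V^{H₂}| ≤ |V^G| · |V|`. -/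
theorem s15e_adm (hP : ∀ V', P V' → s15e_PieceBound H₁ H₂ L V') (n : ℕ) (V : s15e_Mod.{u} G)
    [Finite V.carrier] (hV : s15e_Filt L P n V) :
    Nat.card (s15e_inv H₁ V.carrier) * Nat.card (s15e_inv H₂ V.carrier) ≤
      Nat.card (s15e_inv (⊤ : Subgroup G) V.carrier) * Nat.card V.carrier := by
  obtain ⟨hfin, h⟩ := s15e_dev H₁ H₂ L P hP n V hV ⊥ ⊥
  have := hfin
  have hpos : 0 < Nat.card (s15e_Sel H₁ H₂ V.carrier (L V) ⊥ ⊥) := Nat.card_pos
  simp only [AddSubgroup.card_bot, mul_one] at h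
  calc Nat.card (s15e_inv H₁ V.carrier) * Nat.card (s15e_inv H₂ V.carrier)
      ≤ Nat.card (s15e_Sel H₁ H₂ V.carrier (L V) ⊥ ⊥) *
          (Nat.card (s15e_inv H₁ V.carrier) * Nat.card (s15e_inv H₂ V.carrier)) :=
        Nat.le_mul_of_pos_left _ hpos
    _ = Nat.card (s15e_Sel H₁ H₂ V.carrier (L V) ⊥ ⊥) * Nat.card (s15e_inv H₁ V.carrier) *
          Nat.card (s15e_inv H₂ V.carrier) := by ring
    _ ≤ _ := h

end Dev

end Fermat.Agent.Lib.S15
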