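/-
Programme M (S15), node [ADM] (helper8, prefix `s15e_`), part 4: the closed family of conditions
attached to a class `𝒜` of `G`-modules.

For a class `𝒜` of (bundled) `G`-modules which is closed under products and quotients, a class
`x ∈ H¹(G, V)` is `𝒜`-*trivialisable* if it dies in `H¹(G, E)` for some `E ∈ 𝒜` containing `V`.
(`𝒜` = finite flat, continuous, unramified outside `p p'`:  `x` is the class of an extension of a
cyclic trivial module by `V` inside a module of `𝒜`.)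

* `s15e_quotMod`, `s15e_prodMod` : quotients and products of bundled modules;
* `s15e_LA 𝒜 V : AddSubgroup (H¹(G, V))` : `0` and the trivialisable classes;
* `s15e_LA_closed` : for a short exact sequence `0 → V' → V → V'' → 0` with `V ∈ 𝒜`, the family
  `s15e_LA 𝒜` is `Closed` (push-forward along `ι`, `π`, pull-back along `ι`).
Mathlib only.
-/
import Fermat.Agent.Lib.S15.EDev3

set_option autoImplicit false
set_option linter.unusedSectionVars false
set_option linter.unusedVariables false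

noncomputable section

universe u v

namespace Fermat.Agent.Lib.S15

variable {G : Type v} [Group G]

/-! ### quotients and products of modules -/

section Quot

variable {E : Type u} [AddCommGroup E] [DistribMulAction G E] (N : AddSubgroup E)
  (hN : ∀ (g : G), ∀ n ∈ N, g • n ∈ N)

/-- the action of `g` on `E ⧸ N`. -/
def s15e_quotSmul (g : G) : E ⧸ N →+ E ⧸ N :=
  QuotientAddGroup.map N N (DistribSMul.toAddMonoidHom E g) (fun n hn => hN g n hn)

theorem s15e_quotSmul_mk (g : G) (e : E) :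
    s15e_quotSmul N hN g (QuotientAddGroup.mk e) = QuotientAddGroup.mk (g • e) := rfl

/-- the `G`-module structure on a quotient by a stable subgroup. -/
@[reducible] def s15e_quotAction : DistribMulAction G (E ⧸ N) where
  smul g x := s15e_quotSmul N hN g x
  one_smul x := by
    induction x using QuotientAddGroup.induction_on with
    | H e =>
      show s15e_quotSmul N hN 1 (QuotientAddGroup.mk e) = _
      rw [s15e_quotSmul_mk, one_smul]
  mul_smul g h x := by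
    induction x using QuotientAddGroup.induction_on with
    | H e =>
      show s15e_quotSmul N hN (g * h) (QuotientAddGroup.mk e) =
        s15e_quotSmul N hN g (s15e_quotSmul N hN h (QuotientAddGroup.mk e))
      rw [s15e_quotSmul_mk, s15e_quotSmul_mk, s15e_quotSmul_mk, mul_smul]
  smul_zero g := map_zero (s15e_quotSmul N hN g)
  smul_add g x y := map_add (s15e_quotSmul N hN g) x y

end Quot

/-- the quotient of a bundled module by a stable subgroup. -/
def s15e_quotMod (E : s15e_Mod.{u} G) (N : AddSubgroup E.carrier)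
    (hN : ∀ (g : G), ∀ n ∈ N, g • n ∈ N) : s15e_Mod.{u} G :=
  @s15e_Mod.mk G _ (E.carrier ⧸ N) inferInstance (s15e_quotAction N hN)

/-- the projection onto the quotient module. -/
def s15e_quotMk (E : s15e_Mod.{u} G) (N : AddSubgroup E.carrier)
    (hN : ∀ (g : G), ∀ n ∈ N, g • n ∈ N) : E.carrier →+ (s15e_quotMod E N hN).carrier :=
  QuotientAddGroup.mk' N

theorem s15e_quotMk_smul (E : s15e_Mod.{u} G) (N : AddSubgroup E.carrier)
    (hN : ∀ (g : G), ∀ n ∈ N, g • n ∈ N) (g : G) (e : E.carrier) :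
    s15e_quotMk E N hN (g • e) = g • s15e_quotMk E N hN e := rfl

theorem s15e_quotMk_surjective (E : s15e_Mod.{u} G) (N : AddSubgroup E.carrier)
    (hN : ∀ (g : G), ∀ n ∈ N, g • n ∈ N) : Function.Surjective (s15e_quotMk E N hN) :=
  QuotientAddGroup.mk'_surjective N

theorem s15e_quotMk_eq_zero_iff (E : s15e_Mod.{u} G) (N : AddSubgroup E.carrier)
    (hN : ∀ (g : G), ∀ n ∈ N, g • n ∈ N) (e : E.carrier) :
    s15e_quotMk E N hN e = 0 ↔ e ∈ N :=
  QuotientAddGroup.eq_zero_iff e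

/-- the product of two bundled modules. -/
abbrev s15e_prodMod (E₁ E₂ : s15e_Mod.{u} G) : s15e_Mod.{u} G :=
  @s15e_Mod.mk G _ (E₁.carrier × E₂.carrier) inferInstance inferInstance

/-! ### push-outs -/

section Pushout

variable {V E₁ E₂ : Type u} [AddCommGroup V] [DistribMulAction G V] [AddCommGroup E₁]
  [DistribMulAction G E₁] [AddCommGroup E₂] [DistribMulAction G E₂]
  (i₁ : V →+ E₁) (i₂ : V →+ E₂)

/-- the anti-diagonal copy of `V` in `E₁ × E₂`. -/
def s15e_poKer : AddSubgroup (E₁ × E₂) := (i₁.prod (-i₂)).range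

theorem s15e_mem_poKer {e : E₁ × E₂} :
    e ∈ s15e_poKer i₁ i₂ ↔ ∃ v : V, i₁ v = e.1 ∧ -i₂ v = e.2 := by
  unfold s15e_poKer
  rw [AddMonoidHom.mem_range]
  constructor
  · rintro ⟨v, rfl⟩
    exact ⟨v, rfl, rfl⟩
  · rintro ⟨v, h1, h2⟩
    exact ⟨v, Prod.ext h1 h2⟩

theorem s15e_poKer_stable (h₁ : ∀ (g : G) (v : V), i₁ (g • v) = g • i₁ v)
    (h₂ : ∀ (g : G) (v : V), i₂ (g • v) = g • i₂ v) (g : G) (n : E₁ × E₂)
    (hn : n ∈ s15e_poKer i₁ i₂) : g • n ∈ s15e_poKer i₁ i₂ := by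
  rw [s15e_mem_poKer] at hn ⊢
  obtain ⟨v, h1, h2⟩ := hn
  refine ⟨g • v, ?_, ?_⟩
  · rw [h₁, h1]
    rfl
  · rw [h₂, ← smul_neg, h2]
    rfl

end Pushout

/-- the push-out of two bundled modules along two equivariant maps. -/
def s15e_po {V E₁ E₂ : s15e_Mod.{u} G} (i₁ : V.carrier →+ E₁.carrier)
    (i₂ : V.carrier →+ E₂.carrier) (h₁ : ∀ (g : G) (v : V.carrier), i₁ (g • v) = g • i₁ v)
    (h₂ : ∀ (g : G) (v : V.carrier), i₂ (g • v) = g • i₂ v) : s15e_Mod.{u} G :=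
  s15e_quotMod (s15e_prodMod E₁ E₂) (s15e_poKer i₁ i₂) (s15e_poKer_stable i₁ i₂ h₁ h₂)

section PushoutMaps

variable {V E₁ E₂ : s15e_Mod.{u} G} (i₁ : V.carrier →+ E₁.carrier)
  (i₂ : V.carrier →+ E₂.carrier) (h₁ : ∀ (g : G) (v : V.carrier), i₁ (g • v) = g • i₁ v)
  (h₂ : ∀ (g : G) (v : V.carrier), i₂ (g • v) = g • i₂ v)

/-- the projection of the product onto the push-out. -/
def s15e_poMk : (s15e_prodMod E₁ E₂).carrier →+ (s15e_po i₁ i₂ h₁ h₂).carrier :=
  s15e_quotMk (s15e_prodMod E₁ E₂) (s15e_poKer i₁ i₂) (s15e_poKer_stable i₁ i₂ h₁ h₂)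

theorem s15e_poMk_smul (g : G) (e : (s15e_prodMod E₁ E₂).carrier) :
    s15e_poMk i₁ i₂ h₁ h₂ (g • e) = g • s15e_poMk i₁ i₂ h₁ h₂ e := rfl

theorem s15e_poMk_surjective : Function.Surjective (s15e_poMk i₁ i₂ h₁ h₂) :=
  s15e_quotMk_surjective _ _ _

theorem s15e_poMk_eq_zero_iff (e : (s15e_prodMod E₁ E₂).carrier) :
    s15e_poMk i₁ i₂ h₁ h₂ e = 0 ↔ e ∈ s15e_poKer i₁ i₂ :=
  s15e_quotMk_eq_zero_iff _ _ _ e

/-- the first structure map of the push-out. -/
def s15e_poL : E₁.carrier →+ (s15e_po i₁ i₂ h₁ h₂).carrier :=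
  (s15e_poMk i₁ i₂ h₁ h₂).comp (AddMonoidHom.inl E₁.carrier E₂.carrier)

/-- the second structure map of the push-out. -/
def s15e_poR : E₂.carrier →+ (s15e_po i₁ i₂ h₁ h₂).carrier :=
  (s15e_poMk i₁ i₂ h₁ h₂).comp (AddMonoidHom.inr E₁.carrier E₂.carrier)

theorem s15e_poL_smul (g : G) (e : E₁.carrier) :
    s15e_poL i₁ i₂ h₁ h₂ (g • e) = g • s15e_poL i₁ i₂ h₁ h₂ e := by
  show s15e_poMk i₁ i₂ h₁ h₂ ((g • e, 0) : E₁.carrier × E₂.carrier) =
    g • s15e_poMk i₁ i₂ h₁ h₂ ((e, 0) : E₁.carrier × E₂.carrier)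
  rw [← s15e_poMk_smul]
  congr 1
  show ((g • e, 0) : E₁.carrier × E₂.carrier) = (g • e, g • (0 : E₂.carrier))
  rw [smul_zero]

theorem s15e_poR_smul (g : G) (e : E₂.carrier) :
    s15e_poR i₁ i₂ h₁ h₂ (g • e) = g • s15e_poR i₁ i₂ h₁ h₂ e := by
  show s15e_poMk i₁ i₂ h₁ h₂ ((0, g • e) : E₁.carrier × E₂.carrier) =
    g • s15e_poMk i₁ i₂ h₁ h₂ ((0, e) : E₁.carrier × E₂.carrier)
  rw [← s15e_poMk_smul]
  congr 1
  show ((0, g • e) : E₁.carrier × E₂.carrier) = (g • (0 : E₁.carrier), g • e)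
  rw [smul_zero]

/-- the push-out square commutes. -/
theorem s15e_po_comm (v : V.carrier) :
    s15e_poL i₁ i₂ h₁ h₂ (i₁ v) = s15e_poR i₁ i₂ h₁ h₂ (i₂ v) := by
  rw [← sub_eq_zero]
  show s15e_poMk i₁ i₂ h₁ h₂ ((i₁ v, 0) : E₁.carrier × E₂.carrier) -
    s15e_poMk i₁ i₂ h₁ h₂ ((0, i₂ v) : E₁.carrier × E₂.carrier) = 0
  rw [← map_sub]
  rw [s15e_poMk_eq_zero_iff, s15e_mem_poKer]
  refine ⟨v, ?_, ?_⟩
  · show i₁ v = i₁ v - 0
    rw [sub_zero]
  · show -i₂ v = 0 - i₂ v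
    rw [zero_sub]

theorem s15e_poR_injective (hi₁ : Function.Injective i₁) :
    Function.Injective (s15e_poR i₁ i₂ h₁ h₂) := by
  rw [injective_iff_map_eq_zero]
  intro e he
  have he' : s15e_poMk i₁ i₂ h₁ h₂ ((0, e) : E₁.carrier × E₂.carrier) = 0 := he
  rw [s15e_poMk_eq_zero_iff, s15e_mem_poKer] at he'
  obtain ⟨v, h1, h2⟩ := he'
  have hv : v = 0 := by
    apply hi₁
    rw [map_zero]
    exact h1
  rw [hv, map_zero, neg_zero] at h2
  exact h2.symm

theorem s15e_poL_injective (hi₂ : Function.Injective i₂) :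
    Function.Injective (s15e_poL i₁ i₂ h₁ h₂) := by
  rw [injective_iff_map_eq_zero]
  intro e he
  have he' : s15e_poMk i₁ i₂ h₁ h₂ ((e, 0) : E₁.carrier × E₂.carrier) = 0 := he
  rw [s15e_poMk_eq_zero_iff, s15e_mem_poKer] at he'
  obtain ⟨v, h1, h2⟩ := he'
  have hv : v = 0 := by
    apply hi₂
    rw [map_zero]
    have h2' : -i₂ v = 0 := h2
    exact neg_eq_zero.mp h2'
  rw [hv, map_zero] at h1
  exact h1.symm

end PushoutMaps

/-! ### functoriality of `H¹` for composites -/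

theorem s15e_H1map_comp' (H : Subgroup G) {V W X : Type*} [AddCommGroup V] [DistribMulAction G V]
    [AddCommGroup W] [DistribMulAction G W] [AddCommGroup X] [DistribMulAction G X]
    (f : V →+ W) (hf : ∀ (g : G) (v : V), f (g • v) = g • f v)
    (k : W →+ X) (hk : ∀ (g : G) (v : W), k (g • v) = g • k v)
    (c : V →+ X) (hc : ∀ (g : G) (v : V), c (g • v) = g • c v)
    (hckf : ∀ v, c v = k (f v)) (x : s15e_H1 H V) :
    s15e_H1map H c hc x = s15e_H1map H k hk (s15e_H1map H f hf x) := by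
  obtain ⟨ξ, rfl⟩ := s15e_cls_surjective H V x
  rw [s15e_H1map_cls, s15e_H1map_cls, s15e_H1map_cls]
  congr 1
  apply Subtype.ext
  funext h
  exact hckf _

theorem s15e_H1map_id (H : Subgroup G) {V : Type*} [AddCommGroup V] [DistribMulAction G V]
    (c : V →+ V) (hc : ∀ (g : G) (v : V), c (g • v) = g • c v) (hid : ∀ v, c v = v)
    (x : s15e_H1 H V) : s15e_H1map H c hc x = x := by
  obtain ⟨ξ, rfl⟩ := s15e_cls_surjective H V x
  rw [s15e_H1map_cls]
  congr 1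
  apply Subtype.ext
  funext h
  exact hid _

/-! ### the family of `𝒜`-trivialisable classes -/

section Family

variable (𝒜 : s15e_Mod.{u} G → Prop)

/-- `x ∈ H¹(G, V)` dies in `H¹(G, E)` for some `E ∈ 𝒜` containing `V`. -/
def s15e_Triv (V : s15e_Mod.{u} G) (x : s15e_H1 (⊤ : Subgroup G) V.carrier) : Prop :=
  ∃ (E : s15e_Mod.{u} G) (j : V.carrier →+ E.carrier)
    (hj : ∀ (g : G) (v : V.carrier), j (g • v) = g • j v),
    𝒜 E ∧ Function.Injective j ∧ s15e_H1map (⊤ : Subgroup G) j hj x = 0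

/-- closure of the class `𝒜` under products. -/
def s15e_ClosedProd : Prop :=
  ∀ E₁ E₂ : s15e_Mod.{u} G, 𝒜 E₁ → 𝒜 E₂ → 𝒜 (s15e_prodMod E₁ E₂)

/-- closure of the class `𝒜` under quotients. -/
def s15e_ClosedQuot : Prop :=
  ∀ E E' : s15e_Mod.{u} G, 𝒜 E → ∀ q : E.carrier →+ E'.carrier,
    (∀ (g : G) (e : E.carrier), q (g • e) = g • q e) → Function.Surjective q → 𝒜 E'

variable {𝒜}

theorem s15e_po_mem (hprod : s15e_ClosedProd 𝒜) (hquot : s15e_ClosedQuot 𝒜)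
    {V E₁ E₂ : s15e_Mod.{u} G} (i₁ : V.carrier →+ E₁.carrier)
    (i₂ : V.carrier →+ E₂.carrier) (h₁ : ∀ (g : G) (v : V.carrier), i₁ (g • v) = g • i₁ v)
    (h₂ : ∀ (g : G) (v : V.carrier), i₂ (g • v) = g • i₂ v) (hE₁ : 𝒜 E₁) (hE₂ : 𝒜 E₂) :
    𝒜 (s15e_po i₁ i₂ h₁ h₂) :=
  hquot _ _ (hprod E₁ E₂ hE₁ hE₂) (s15e_poMk i₁ i₂ h₁ h₂) (s15e_poMk_smul i₁ i₂ h₁ h₂)
    (s15e_poMk_surjective i₁ i₂ h₁ h₂)

theorem s15e_Triv_zero {V : s15e_Mod.{u} G} (hV : 𝒜 V) : s15e_Triv 𝒜 V 0 :=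
  ⟨V, AddMonoidHom.id _, fun _ _ => rfl, hV, Function.injective_id, map_zero _⟩

theorem s15e_Triv_neg {V : s15e_Mod.{u} G} {x : s15e_H1 (⊤ : Subgroup G) V.carrier}
    (hx : s15e_Triv 𝒜 V x) : s15e_Triv 𝒜 V (-x) := by
  obtain ⟨E, j, hj, hE, hinj, h0⟩ := hx
  exact ⟨E, j, hj, hE, hinj, by rw [map_neg, h0, neg_zero]⟩

theorem s15e_Triv_add (hprod : s15e_ClosedProd 𝒜) (hquot : s15e_ClosedQuot 𝒜)
    {V : s15e_Mod.{u} G} {x y : s15e_H1 (⊤ : Subgroup G) V.carrier}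
    (hx : s15e_Triv 𝒜 V x) (hy : s15e_Triv 𝒜 V y) : s15e_Triv 𝒜 V (x + y) := by
  obtain ⟨E₁, i₁, h₁, hE₁, hinj₁, hx0⟩ := hx
  obtain ⟨E₂, i₂, h₂, hE₂, hinj₂, hy0⟩ := hy
  have hjeq : ∀ (g : G) (v : V.carrier),
      ((s15e_poL i₁ i₂ h₁ h₂).comp i₁) (g • v) = g • ((s15e_poL i₁ i₂ h₁ h₂).comp i₁) v := by
    intro g v
    show s15e_poL i₁ i₂ h₁ h₂ (i₁ (g • v)) = g • s15e_poL i₁ i₂ h₁ h₂ (i₁ v)
    rw [h₁, s15e_poL_smul]
  refine ⟨s15e_po i₁ i₂ h₁ h₂, (s15e_poL i₁ i₂ h₁ h₂).comp i₁, hjeq,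
    s15e_po_mem hprod hquot i₁ i₂ h₁ h₂ hE₁ hE₂,
    (s15e_poL_injective i₁ i₂ h₁ h₂ hinj₂).comp hinj₁, ?_⟩
  rw [map_add]
  have e1 := s15e_H1map_comp' (⊤ : Subgroup G) i₁ h₁ (s15e_poL i₁ i₂ h₁ h₂)
    (s15e_poL_smul i₁ i₂ h₁ h₂) ((s15e_poL i₁ i₂ h₁ h₂).comp i₁) hjeq (fun _ => rfl) x
  have e2 := s15e_H1map_comp' (⊤ : Subgroup G) i₂ h₂ (s15e_poR i₁ i₂ h₁ h₂)
    (s15e_poR_smul i₁ i₂ h₁ h₂) ((s15e_poL i₁ i₂ h₁ h₂).comp i₁) hjeq
    (fun v => s15e_po_comm i₁ i₂ h₁ h₂ v) y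
  rw [e1, e2, hx0, hy0, map_zero, map_zero, add_zero]

variable (𝒜)

/-- **the `𝒜`-trivialisable classes** (and `0`). -/
def s15e_LA (hprod : s15e_ClosedProd 𝒜) (hquot : s15e_ClosedQuot 𝒜) (V : s15e_Mod.{u} G) :
    AddSubgroup (s15e_H1 (⊤ : Subgroup G) V.carrier) where
  carrier := {x | x = 0 ∨ s15e_Triv 𝒜 V x}
  zero_mem' := Or.inl rfl
  add_mem' := by
    rintro x y (rfl | hx) (rfl | hy)
    · exact Or.inl (add_zero _)
    · rw [zero_add]
      exact Or.inr hy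
    · rw [add_zero]
      exact Or.inr hx
    · exact Or.inr (s15e_Triv_add hprod hquot hx hy)
  neg_mem' := by
    rintro x (rfl | hx)
    · exact Or.inl neg_zero
    · exact Or.inr (s15e_Triv_neg hx)

variable {𝒜}

theorem s15e_mem_LA (hprod : s15e_ClosedProd 𝒜) (hquot : s15e_ClosedQuot 𝒜) {V : s15e_Mod.{u} G}
    {x : s15e_H1 (⊤ : Subgroup G) V.carrier} :
    x ∈ s15e_LA 𝒜 hprod hquot V ↔ x = 0 ∨ s15e_Triv 𝒜 V x := Iff.rfl

theorem s15e_mem_LA_iff (hprod : s15e_ClosedProd 𝒜) (hquot : s15e_ClosedQuot 𝒜)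
    {V : s15e_Mod.{u} G} (hV : 𝒜 V) {x : s15e_H1 (⊤ : Subgroup G) V.carrier} :
    x ∈ s15e_LA 𝒜 hprod hquot V ↔ s15e_Triv 𝒜 V x := by
  rw [s15e_mem_LA]
  constructor
  · rintro (rfl | h)
    · exact s15e_Triv_zero hV
    · exact h
  · exact Or.inr

/-- **the family `s15e_LA 𝒜` is closed** along every short exact sequence whose middle term lies
in `𝒜`. -/
theorem s15e_LA_closed (hprod : s15e_ClosedProd 𝒜) (hquot : s15e_ClosedQuot 𝒜)
    {V' V V'' : s15e_Mod.{u} G} (S : s15e_SES G V'.carrier V.carrier V''.carrier) (hV : 𝒜 V) :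
    S.Closed (s15e_LA 𝒜 hprod hquot V') (s15e_LA 𝒜 hprod hquot V)
      (s15e_LA 𝒜 hprod hquot V'') := by
  refine ⟨?_, ?_, ?_⟩
  · -- push-forward along `ι`
    rintro x (rfl | hx)
    · exact Or.inl (map_zero _)
    · obtain ⟨E', i', h', hE', hinj', hx0⟩ := hx
      refine Or.inr ⟨s15e_po i' S.ι h' S.hι, s15e_poR i' S.ι h' S.hι, s15e_poR_smul i' S.ι h' S.hι,
        s15e_po_mem hprod hquot i' S.ι h' S.hι hE' hV, s15e_poR_injective i' S.ι h' S.hι hinj', ?_⟩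
      have hceq : ∀ (g : G) (v : V'.carrier),
          ((s15e_poR i' S.ι h' S.hι).comp S.ι) (g • v) =
            g • ((s15e_poR i' S.ι h' S.hι).comp S.ι) v := by
        intro g v
        show s15e_poR i' S.ι h' S.hι (S.ι (g • v)) = g • s15e_poR i' S.ι h' S.hι (S.ι v)
        rw [S.hι, s15e_poR_smul]
      have e1 := s15e_H1map_comp' (⊤ : Subgroup G) S.ι S.hι (s15e_poR i' S.ι h' S.hι)
        (s15e_poR_smul i' S.ι h' S.hι) ((s15e_poR i' S.ι h' S.hι).comp S.ι) hceq (fun _ => rfl) x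
      have e2 := s15e_H1map_comp' (⊤ : Subgroup G) i' h' (s15e_poL i' S.ι h' S.hι)
        (s15e_poL_smul i' S.ι h' S.hι) ((s15e_poR i' S.ι h' S.hι).comp S.ι) hceq
        (fun v => (s15e_po_comm i' S.ι h' S.hι v).symm) x
      rw [← e1, e2, hx0, map_zero]
  · -- push-forward along `π`
    rintro x (rfl | hx)
    · exact Or.inl (map_zero _)
    · obtain ⟨E, i, hi, hE, hinj, hx0⟩ := hx
      -- the subgroup `i (ι V')` of `E`
      have hNst : ∀ (g : G), ∀ n ∈ (i.comp S.ι).range, g • n ∈ (i.comp S.ι).range := by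
        rintro g _ ⟨w, rfl⟩
        refine ⟨g • w, ?_⟩
        show i (S.ι (g • w)) = g • i (S.ι w)
        rw [S.hι, hi]
      set E'' : s15e_Mod.{u} G := s15e_quotMod E (i.comp S.ι).range hNst with hE''
      set q : E.carrier →+ E''.carrier := s15e_quotMk E (i.comp S.ι).range hNst with hq
      have hqs : ∀ (g : G) (e : E.carrier), q (g • e) = g • q e := s15e_quotMk_smul E _ hNst
      have hker : S.π.ker ≤ (q.comp i).ker := by
        intro v hv
        rw [AddMonoidHom.mem_ker] at hv ⊢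
        obtain ⟨w, rfl⟩ := (S.exact v).mp hv
        show q (i (S.ι w)) = 0
        rw [hq, s15e_quotMk_eq_zero_iff]
        exact ⟨w, rfl⟩
      set j : V''.carrier →+ E''.carrier :=
        S.π.liftOfRightInverse (Function.surjInv S.surj) (Function.rightInverse_surjInv S.surj)
          ⟨q.comp i, hker⟩ with hj
      have hjπ : ∀ v : V.carrier, j (S.π v) = q (i v) := fun v =>
        AddMonoidHom.liftOfRightInverse_comp_apply S.π _ (Function.rightInverse_surjInv S.surj)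
          ⟨q.comp i, hker⟩ v
      have hjs : ∀ (g : G) (v : V''.carrier), j (g • v) = g • j v := by
        intro g v
        obtain ⟨v0, rfl⟩ := S.surj v
        rw [← S.hπ, hjπ, hjπ, hi, hqs]
      have hjinj : Function.Injective j := by
        rw [injective_iff_map_eq_zero]
        intro v hv
        obtain ⟨v0, rfl⟩ := S.surj v
        rw [hjπ, hq, s15e_quotMk_eq_zero_iff] at hv
        obtain ⟨w, hw⟩ := hv
        have : S.ι w = v0 := hinj hw
        rw [← this, S.π_ι]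
      refine Or.inr ⟨E'', j, hjs, hquot E E'' hE q hqs (s15e_quotMk_surjective E _ hNst), hjinj, ?_⟩
      have hceq : ∀ (g : G) (v : V.carrier), (j.comp S.π) (g • v) = g • (j.comp S.π) v := by
        intro g v
        show j (S.π (g • v)) = g • j (S.π v)
        rw [S.hπ, hjs]
      have e1 := s15e_H1map_comp' (⊤ : Subgroup G) S.π S.hπ j hjs (j.comp S.π) hceq
        (fun _ => rfl) x
      have e2 := s15e_H1map_comp' (⊤ : Subgroup G) i hi q hqs (j.comp S.π) hceq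
        (fun v => hjπ v) x
      rw [← e1, e2, hx0, map_zero]
  · -- pull-back along `ι`
    rintro x (h0 | hx)
    · -- `ι_* x = 0`: `x` dies in `V ∈ 𝒜`
      exact Or.inr ⟨V, S.ι, S.hι, hV, S.inj, h0⟩
    · obtain ⟨E, i, hi, hE, hinj, hx0⟩ := hx
      have hceq : ∀ (g : G) (v : V'.carrier), (i.comp S.ι) (g • v) = g • (i.comp S.ι) v := by
        intro g v
        show i (S.ι (g • v)) = g • i (S.ι v)
        rw [S.hι, hi]
      refine Or.inr ⟨E, i.comp S.ι, hceq, hE, hinj.comp S.inj, ?_⟩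
      rw [s15e_H1map_comp' (⊤ : Subgroup G) S.ι S.hι i hi (i.comp S.ι) hceq (fun _ => rfl) x]
      exact hx0

end Family

end Fermat.Agent.Lib.S15
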