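/-
Programme M (S15), node [ADM] (helper8, prefix `s15e_`), part 5: existence of filtrations, and the
abstract admissibility inequality for a class `𝒜` of modules.

If `𝒜` is closed under products and quotients and every non-zero finite `V ∈ 𝒜` contains a
non-zero piece `V' ∈ P` with `V / V' ∈ 𝒜`, then every finite `V ∈ 𝒜` has a filtration
(`s15e_Filt`) with pieces in `P`, compatible with the closed family `s15e_LA 𝒜`; hence, if the
pieces satisfy `s15e_PieceBound`, `|V^{H₁}| · |V^{H₂}| ≤ |V^G| · |V|` (`s15e_adm_class`).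
Mathlib only.
-/
import Fermat.Agent.Lib.S15.EAdm1

set_option autoImplicit false
set_option linter.unusedSectionVars false
set_option linter.unusedVariables false

noncomputable section

universe u v

namespace Fermat.Agent.Lib.S15

variable {G : Type v} [Group G] {𝒜 : s15e_Mod.{u} G → Prop} (P : s15e_Mod.{u} G → Prop)
  (hprod : s15e_ClosedProd 𝒜) (hquot : s15e_ClosedQuot 𝒜)

/-- the dévissage step required of the class `𝒜`: a non-zero finite module of `𝒜` contains a
non-zero piece with quotient in `𝒜`. -/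
def s15e_HasStep (𝒜 P : s15e_Mod.{u} G → Prop) : Prop :=
  ∀ V : s15e_Mod.{u} G, 𝒜 V → Finite V.carrier → Nontrivial V.carrier →
    ∃ (V' V'' : s15e_Mod.{u} G) (_ : s15e_SES G V'.carrier V.carrier V''.carrier),
      P V' ∧ 𝒜 V'' ∧ Nontrivial V'.carrier

/-- **existence of filtrations.** -/
theorem s15e_filt_exists (hstep : s15e_HasStep 𝒜 P) :
    ∀ (N : ℕ) (V : s15e_Mod.{u} G), 𝒜 V → Finite V.carrier → Nat.card V.carrier ≤ N →
      ∃ n, s15e_Filt (s15e_LA 𝒜 hprod hquot) P n V := by
  intro N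
  induction N with
  | zero =>
    intro V hV hfin hcard
    have : 0 < Nat.card V.carrier := Nat.card_pos
    omega
  | succ N ih =>
    intro V hV hfin hcard
    by_cases hsub : Subsingleton V.carrier
    · exact ⟨0, hsub⟩
    · have hnt : Nontrivial V.carrier := not_subsingleton_iff_nontrivial.mp hsub
      obtain ⟨V', V'', S, hPV', hV'', hnt'⟩ := hstep V hV hfin hnt
      have hfin' : Finite V'.carrier := S.finite_sub
      have hfin'' : Finite V''.carrier := S.finite_quot
      have hc := S.card_eq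
      have h2 : 2 ≤ Nat.card V'.carrier := by
        have := Finite.one_lt_card (α := V'.carrier)
        omega
      have hpos'' : 0 < Nat.card V''.carrier := Nat.card_pos
      have hlt : Nat.card V''.carrier ≤ N := by
        have h3 : 2 * Nat.card V''.carrier ≤ Nat.card V.carrier := by
          rw [hc]
          exact Nat.mul_le_mul_right _ h2
        omega
      obtain ⟨n, hn⟩ := ih V'' hV'' hfin'' hlt
      exact ⟨n + 1, V', V'', S, hPV', s15e_LA_closed hprod hquot S hV, hn⟩

/-- **[ADM] for a class of modules**: if the class has dévissage steps with pieces in `P` and the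
pieces satisfy the bound, then `|V^{H₁}| · |V^{H₂}| ≤ |V^G| · |V|` for all finite `V ∈ 𝒜`. -/
theorem s15e_adm_class (H₁ H₂ : Subgroup G) (hstep : s15e_HasStep 𝒜 P)
    (hP : ∀ V', P V' → s15e_PieceBound H₁ H₂ (s15e_LA 𝒜 hprod hquot) V')
    (V : s15e_Mod.{u} G) (hV : 𝒜 V) [Finite V.carrier] :
    Nat.card (s15e_inv H₁ V.carrier) * Nat.card (s15e_inv H₂ V.carrier) ≤
      Nat.card (s15e_inv (⊤ : Subgroup G) V.carrier) * Nat.card V.carrier := by
  obtain ⟨n, hn⟩ := s15e_filt_exists P hprod hquot hstep (Nat.card V.carrier) V hV inferInstance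
    le_rfl
  exact s15e_adm H₁ H₂ (s15e_LA 𝒜 hprod hquot) P hP n V hn

/-- **the bound for a piece from the vanishing of its strict Selmer group**: if `H₁` acts
trivially on `V'`, the `H₂`-invariants are `G`-invariant, and a class of `L V'` which is trivial
on `H₁` and on `H₂` vanishes, then `V'` satisfies `s15e_PieceBound`. -/
theorem s15e_pieceBound_of_strict (H₁ H₂ : Subgroup G)
    (L : ∀ V : s15e_Mod.{u} G, AddSubgroup (s15e_H1 (⊤ : Subgroup G) V.carrier))
    (V' : s15e_Mod.{u} G) [Finite V'.carrier]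
    (htriv : ∀ (h : H₁) (w : V'.carrier), (h : G) • w = w)
    (hinv : s15e_inv H₂ V'.carrier ≤ s15e_inv (⊤ : Subgroup G) V'.carrier)
    (hK : ∀ x ∈ L V', s15e_res (le_top : H₁ ≤ ⊤) V'.carrier x = 0 →
      s15e_res (le_top : H₂ ≤ ⊤) V'.carrier x = 0 → x = 0) :
    s15e_PieceBound H₁ H₂ L V' := by
  refine ⟨htriv, ?_⟩
  intro M₁ M₂ _ _
  set Sel := s15e_Sel H₁ H₂ V'.carrier (L V') M₁ M₂ with hSel
  -- the localisation map
  let f : Sel → M₁ × M₂ := fun x =>
    (⟨s15e_res le_top V'.carrier (x : s15e_H1 (⊤ : Subgroup G) V'.carrier),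
        (s15e_mem_Sel.mp x.2).2.1⟩,
      ⟨s15e_res le_top V'.carrier (x : s15e_H1 (⊤ : Subgroup G) V'.carrier),
        (s15e_mem_Sel.mp x.2).2.2⟩)
  have hf : Function.Injective f := by
    intro x y hxy
    have h1 : s15e_res (le_top : H₁ ≤ ⊤) V'.carrier (x : s15e_H1 (⊤ : Subgroup G) V'.carrier) =
        s15e_res (le_top : H₁ ≤ ⊤) V'.carrier (y : s15e_H1 (⊤ : Subgroup G) V'.carrier) :=
      congrArg (fun z : M₁ × M₂ => (z.1 : s15e_H1 H₁ V'.carrier)) hxy
    have h2 : s15e_res (le_top : H₂ ≤ ⊤) V'.carrier (x : s15e_H1 (⊤ : Subgroup G) V'.carrier) =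
        s15e_res (le_top : H₂ ≤ ⊤) V'.carrier (y : s15e_H1 (⊤ : Subgroup G) V'.carrier) :=
      congrArg (fun z : M₁ × M₂ => (z.2 : s15e_H1 H₂ V'.carrier)) hxy
    have hmem : ((x - y : Sel) : s15e_H1 (⊤ : Subgroup G) V'.carrier) ∈ L V' :=
      (s15e_mem_Sel.mp (x - y).2).1
    have h0 := hK _ hmem (by rw [AddSubgroup.coe_sub, map_sub, h1, sub_self])
      (by rw [AddSubgroup.coe_sub, map_sub, h2, sub_self])
    have : x - y = 0 := Subtype.ext h0
    exact sub_eq_zero.mp this
  have hfin : Finite Sel := Finite.of_injective f hf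
  refine ⟨hfin, ?_⟩
  have hc : Nat.card Sel ≤ Nat.card M₁ * Nat.card M₂ := by
    rw [← Nat.card_prod]
    exact Nat.card_le_card_of_injective f hf
  have hi : Nat.card (s15e_inv H₂ V'.carrier) ≤ Nat.card (s15e_inv (⊤ : Subgroup G) V'.carrier) :=
    AddSubgroup.card_le_of_le hinv
  calc Nat.card Sel * Nat.card (s15e_inv H₂ V'.carrier)
      ≤ (Nat.card M₁ * Nat.card M₂) * Nat.card (s15e_inv (⊤ : Subgroup G) V'.carrier) :=
        Nat.mul_le_mul hc hi
    _ = Nat.card (s15e_inv (⊤ : Subgroup G) V'.carrier) * Nat.card M₁ * Nat.card M₂ := by ring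

end Fermat.Agent.Lib.S15
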