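/-
Programme M (S15), node [ADM] (helper8, prefix `s15e_`), part 6: **the class of Eisenstein
admissible Galois modules** and its closure properties.

`s15e_IsAdm S p p' W` : `W` is `p'`-primary, unramified outside `p p'`, flat at `p'`
(`∃ H, s19_IsOrder p' W H`), and Eisenstein outside the finite set `S`: for every Frobenius element
`σ` at a prime `q ∉ S ∪ {p, p'}` the operator `(σ - 1)(σ - q)` is nilpotent on `W`.

* `s15e_cont_of_order`   : a module with a function order has a finite level (continuity);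
* `s15e_AdmC S p p'`     : the class of finite admissible bundled modules;
* `s15e_admC_prod`, `s15e_admC_quot`, `s15e_admC_sub` : closure under products, quotients
  and submodules (from `s19c_orderProd`, `s19c_orderQuot`, `s19c_orderSub`).
-/
import Fermat.Agent.Lib.S15.EAdm2
import Fermat.Agent.Lib.S19.CSubProd
import Fermat.Prelude.Def_EllipticCurve_FrobeniusTrace

set_option autoImplicit false
set_option linter.unusedSectionVars false
set_option linter.unusedVariables false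

noncomputable section

namespace Fermat.Agent.Lib.S15

open Fermat.Agent.Lib.S19

local notation "Kb" => AlgebraicClosure ℚ
local notation "GQ" => (AlgebraicClosure ℚ ≃ₐ[ℚ] AlgebraicClosure ℚ)

/-! ### the Eisenstein operator -/

section Op

variable (W : Type) [AddCommGroup W] [DistribMulAction GQ W]

/-- the operator `(σ - 1)(σ - q)` on `W`. -/
def s15e_eisOp (σ : GQ) (q : ℕ) : AddMonoid.End W :=
  (DistribMulAction.toAddMonoidEnd GQ W σ - 1) *
    (DistribMulAction.toAddMonoidEnd GQ W σ - (q : AddMonoid.End W))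

theorem s15e_end_mul_apply (f g : AddMonoid.End W) (w : W) : (f * g) w = f (g w) := rfl

theorem s15e_end_sub_apply (f g : AddMonoid.End W) (w : W) : (f - g) w = f w - g w := rfl

theorem s15e_end_one_apply (w : W) : (1 : AddMonoid.End W) w = w := rfl

theorem s15e_end_smul_apply (σ : GQ) (w : W) :
    DistribMulAction.toAddMonoidEnd GQ W σ w = σ • w := rfl

theorem s15e_eisOp_apply (σ : GQ) (q : ℕ) (w : W) :
    s15e_eisOp W σ q w = σ • (σ • w - q • w) - (σ • w - q • w) := by
  unfold s15e_eisOp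
  rw [s15e_end_mul_apply, s15e_end_sub_apply, s15e_end_sub_apply, s15e_end_one_apply,
    s15e_end_smul_apply, s15e_end_smul_apply, AddMonoid.End.natCast_apply]

variable {W}

/-- equivariant maps intertwine the Eisenstein operators. -/
theorem s15e_eisOp_pow_map {W' : Type} [AddCommGroup W'] [DistribMulAction GQ W'] (f : W →+ W')
    (hf : ∀ (σ : GQ) (w : W), f (σ • w) = σ • f w) (σ : GQ) (q : ℕ) (k : ℕ) (w : W) :
    f ((s15e_eisOp W σ q ^ k) w) = (s15e_eisOp W' σ q ^ k) (f w) := by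
  induction k generalizing w with
  | zero => simp
  | succ k ih =>
    rw [pow_succ, pow_succ, s15e_end_mul_apply, s15e_end_mul_apply, ih]
    congr 1
    rw [s15e_eisOp_apply, s15e_eisOp_apply]
    simp only [map_sub, hf, map_nsmul]

/-- nilpotency persists for larger exponents. -/
theorem s15e_eisOp_pow_of_le (σ : GQ) (q : ℕ) {k k' : ℕ} (hk : k ≤ k') {w : W}
    (h : (s15e_eisOp W σ q ^ k) w = 0) : (s15e_eisOp W σ q ^ k') w = 0 := by
  obtain ⟨d, rfl⟩ := Nat.exists_eq_add_of_le hk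
  rw [add_comm, pow_add, s15e_end_mul_apply, h, map_zero]

end Op

/-! ### admissible modules -/

/-- **an Eisenstein-admissible module** for `(p, p')`, Eisenstein outside `S`. -/
structure s15e_IsAdm (S : Finset ℕ) (p p' : ℕ) (W : Type) [AddCommGroup W]
    [DistribMulAction GQ W] : Prop where
  primary : ∀ w : W, ∃ k : ℕ, p' ^ k • w = 0
  eis : ∀ q : ℕ, q.Prime → q ∉ S → q ≠ p → q ≠ p' → ∀ A : ValuationSubring Kb,
    A.LiesOverPrime q → ∀ σ : GQ, A.IsFrobeniusAt σ q → ∀ w : W, ∃ k : ℕ,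
      (((DistribMulAction.toAddMonoidEnd GQ W σ - 1) *
        (DistribMulAction.toAddMonoidEnd GQ W σ - (q : AddMonoid.End W))) ^ k) w = 0
  unram : ∀ ℓ : ℕ, ℓ.Prime → ℓ ≠ p → ℓ ≠ p' → ∀ A : ValuationSubring Kb, A.LiesOverPrime ℓ →
    ∀ σ ∈ A.inertiaSubgroupIn ℚ, ∀ w : W, σ • w = w
  flat : ∃ H, s19_IsOrder p' W H

/-- **continuity**: a finite module with a function order is fixed by the Galois group of a number
field. -/
theorem s15e_cont_of_order {ℓ : ℕ} {T : Type} [AddCommGroup T] [Finite T] [DistribMulAction GQ T]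
    {H : Subalgebra ↥(GaloisRep.ratLocalizedAt ℓ) (T → Kb)} (hH : s19_IsOrder ℓ T H) :
    ∃ E : IntermediateField ℚ Kb, FiniteDimensional ℚ E ∧
      ∀ σ : GQ, (∀ e ∈ E, σ e = e) → ∀ x : T, σ • x = x := by
  classical
  obtain ⟨s, hs⟩ := hH.fg
  set X : Set Kb := (fun ax : (T → Kb) × T => ax.1 ax.2) '' ((s : Set (T → Kb)) ×ˢ Set.univ)
    with hX
  have hXfin : X.Finite := (s.finite_toSet.prod Set.finite_univ).image _
  have : Finite X := hXfin.to_subtype
  refine ⟨IntermediateField.adjoin ℚ X,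
    IntermediateField.finiteDimensional_adjoin
      (fun y _ => isAlgebraic_iff_isIntegral.mp ((AlgebraicClosure.isAlgebraic ℚ).isAlgebraic y)),
    ?_⟩
  intro σ hσ x
  by_contra hne
  obtain ⟨a, ha, hax⟩ := hH.sep (σ • x) x hne
  apply hax
  rw [hH.equiv a ha σ x]
  apply hσ
  -- `a x ∈ E` for all `a ∈ H`
  have hmem : a ∈ Submodule.span ↥(GaloisRep.ratLocalizedAt ℓ) (s : Set (T → Kb)) := by
    rw [hs]
    exact ha
  refine Submodule.span_induction (p := fun b _ => ∀ y : T, b y ∈ IntermediateField.adjoin ℚ X)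
    ?_ ?_ ?_ ?_ hmem x
  · intro b hb y
    exact IntermediateField.subset_adjoin ℚ X ⟨(b, y), ⟨hb, Set.mem_univ _⟩, rfl⟩
  · intro y
    exact zero_mem _
  · intro b c _ _ hb hc y
    exact add_mem (hb y) (hc y)
  · intro r b _ hb y
    have : (r • b) y = (r : ℚ) • b y := rfl
    rw [this]
    exact (IntermediateField.adjoin ℚ X).smul_mem (hb y)

/-- the class of finite admissible bundled modules. -/
def s15e_AdmC (S : Finset ℕ) (p p' : ℕ) : s15e_Mod.{0} GQ → Prop :=
  fun V => Finite V.carrier ∧ s15e_IsAdm S p p' V.carrier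

section Closure

variable {S : Finset ℕ} {p p' : ℕ} [Fact p'.Prime]

/-- admissible modules pass to quotients. -/
theorem s15e_isAdm_quot {W W' : Type} [AddCommGroup W] [Finite W] [DistribMulAction GQ W]
    [AddCommGroup W'] [DistribMulAction GQ W'] (hW : s15e_IsAdm S p p' W) (f : W →+ W')
    (hf : ∀ (σ : GQ) (w : W), f (σ • w) = σ • f w) (hsurj : Function.Surjective f) :
    s15e_IsAdm S p p' W' := by
  refine ⟨?_, ?_, ?_, ?_⟩
  · intro w'
    obtain ⟨w, rfl⟩ := hsurj w'
    obtain ⟨k, hk⟩ := hW.primary w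
    exact ⟨k, by rw [← map_nsmul, hk, map_zero]⟩
  · intro q hq hqS hqp hqp' A hA σ hσ w'
    obtain ⟨w, rfl⟩ := hsurj w'
    obtain ⟨k, hk⟩ := hW.eis q hq hqS hqp hqp' A hA σ hσ w
    refine ⟨k, ?_⟩
    have := s15e_eisOp_pow_map f hf σ q k w
    unfold s15e_eisOp at this
    rw [← this, hk, map_zero]
  · intro ℓ hℓ hℓp hℓp' A hA σ hσ w'
    obtain ⟨w, rfl⟩ := hsurj w'
    rw [← hf, hW.unram ℓ hℓ hℓp hℓp' A hA σ hσ w]
  · exact s19c_orderQuot p' W W' f hsurj hf hW.flat

/-- admissible modules pass to submodules. -/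
theorem s15e_isAdm_sub {W W' : Type} [AddCommGroup W] [Finite W] [DistribMulAction GQ W]
    [AddCommGroup W'] [DistribMulAction GQ W'] (hW : s15e_IsAdm S p p' W) (f : W' →+ W)
    (hf : ∀ (σ : GQ) (w : W'), f (σ • w) = σ • f w) (hinj : Function.Injective f) :
    s15e_IsAdm S p p' W' := by
  refine ⟨?_, ?_, ?_, ?_⟩
  · intro w'
    obtain ⟨k, hk⟩ := hW.primary (f w')
    refine ⟨k, hinj ?_⟩
    rw [map_nsmul, hk, map_zero]
  · intro q hq hqS hqp hqp' A hA σ hσ w'
    obtain ⟨k, hk⟩ := hW.eis q hq hqS hqp hqp' A hA σ hσ (f w')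
    refine ⟨k, hinj ?_⟩
    have := s15e_eisOp_pow_map f hf σ q k w'
    unfold s15e_eisOp at this
    rw [this, hk, map_zero]
  · intro ℓ hℓ hℓp hℓp' A hA σ hσ w'
    apply hinj
    rw [hf, hW.unram ℓ hℓ hℓp hℓp' A hA σ hσ (f w')]
  · exact s19c_orderSub p' W W' f hinj hf hW.flat

/-- admissible modules pass to products. -/
theorem s15e_isAdm_prod {W W' : Type} [AddCommGroup W] [Finite W] [DistribMulAction GQ W]
    [AddCommGroup W'] [Finite W'] [DistribMulAction GQ W'] (hW : s15e_IsAdm S p p' W)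
    (hW' : s15e_IsAdm S p p' W') : s15e_IsAdm S p p' (W × W') := by
  refine ⟨?_, ?_, ?_, ?_⟩
  · rintro ⟨w, w'⟩
    obtain ⟨k, hk⟩ := hW.primary w
    obtain ⟨k', hk'⟩ := hW'.primary w'
    refine ⟨k + k', ?_⟩
    ext
    · show p' ^ (k + k') • w = 0
      rw [pow_add, mul_comm, mul_smul, hk, smul_zero]
    · show p' ^ (k + k') • w' = 0
      rw [pow_add, mul_smul, hk', smul_zero]
  · rintro q hq hqS hqp hqp' A hA σ hσ ⟨w, w'⟩
    obtain ⟨k, hk⟩ := hW.eis q hq hqS hqp hqp' A hA σ hσ w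
    obtain ⟨k', hk'⟩ := hW'.eis q hq hqS hqp hqp' A hA σ hσ w'
    refine ⟨k + k', ?_⟩
    have h1 := s15e_eisOp_pow_map (AddMonoidHom.fst W W') (fun _ _ => rfl) σ q (k + k') (w, w')
    have h2 := s15e_eisOp_pow_map (AddMonoidHom.snd W W') (fun _ _ => rfl) σ q (k + k') (w, w')
    have e1 : (s15e_eisOp W σ q ^ (k + k')) w = 0 :=
      s15e_eisOp_pow_of_le σ q (Nat.le_add_right k k') hk
    have e2 : (s15e_eisOp W' σ q ^ (k + k')) w' = 0 :=
      s15e_eisOp_pow_of_le σ q (Nat.le_add_left k' k) hk'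
    unfold s15e_eisOp at h1 h2 e1 e2
    ext
    · exact h1.trans e1
    · exact h2.trans e2
  · rintro ℓ hℓ hℓp hℓp' A hA σ hσ ⟨w, w'⟩
    show (σ • w, σ • w') = (w, w')
    rw [hW.unram ℓ hℓ hℓp hℓp' A hA σ hσ w, hW'.unram ℓ hℓ hℓp hℓp' A hA σ hσ w']
  · exact s19c_orderProd p' W W' hW.flat hW'.flat

theorem s15e_admC_prod : s15e_ClosedProd (s15e_AdmC S p p') := by
  intro E₁ E₂ h₁ h₂
  have := h₁.1
  have := h₂.1
  exact ⟨inferInstanceAs (Finite (E₁.carrier × E₂.carrier)), s15e_isAdm_prod h₁.2 h₂.2⟩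

theorem s15e_admC_quot : s15e_ClosedQuot (s15e_AdmC S p p') := by
  intro E E' hE q hq hsurj
  have := hE.1
  exact ⟨Finite.of_surjective q hsurj, s15e_isAdm_quot hE.2 q hq hsurj⟩

theorem s15e_admC_sub {E E' : s15e_Mod.{0} GQ} (hE : s15e_AdmC S p p' E)
    (f : E'.carrier →+ E.carrier) (hf : ∀ (σ : GQ) (w : E'.carrier), f (σ • w) = σ • f w)
    (hinj : Function.Injective f) : s15e_AdmC S p p' E' := by
  have := hE.1
  exact ⟨Finite.of_injective f hinj, s15e_isAdm_sub hE.2 f hf hinj⟩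

end Closure

end Fermat.Agent.Lib.S15
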