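/-
Programme M (S15), node [ADM] (helper8, prefix `s15e_`), part 7: **a non-zero Eisenstein module
contains a Galois-stable line.**

`W` a finite non-zero `G_ℚ`-module killed by `p'`, of finite level, such that `(φ - 1)(φ - q)` is
nilpotent on `W` for every Frobenius element `φ` at a prime `q` outside a finite set.  Then
(`s15e_exists_line_elem`) `W` contains a Galois-stable subgroup of order `p'`.

Proof.  Chebotarev (`s56h_cheb`, for `σ ↦ (σ|W, χ_{p'}(σ))`): for EVERY `σ` the operator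
`(σ - 1)(σ - q)` is nilpotent for some `q ≡ χ(σ)`.  Hence `ker χ` acts unipotently, its image in
`Perm W` is a `p'`-group and has a non-zero fixed vector; on the fixed vectors `G_ℚ` acts through
the cyclic group `χ(G_ℚ)`, and a generator `σ₁` has an eigenvector there (the last non-zero term of
`u, (σ₁ - q)u, (σ₁ - 1)(σ₁ - q)u, …`).
-/
import Fermat.Agent.Lib.S15.EAdm3
import Fermat.Agent.Lib.S56.HCheb
import Fermat.Agent.Lib.S29.Cyclo

set_option autoImplicit false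
set_option linter.unusedSectionVars false
set_option linter.unusedVariables false
set_option linter.style.haveILetI false

noncomputable section

namespace Fermat.Agent.Lib.S15

open Fermat.Agent.Lib.S19 Fermat.Agent.Lib.S29 Fermat.Agent.Lib.CFT Fermat.Agent.Lib.S56

local notation "Kb" => AlgebraicClosure ℚ
local notation "GQ" => (AlgebraicClosure ℚ ≃ₐ[ℚ] AlgebraicClosure ℚ)

section Line

variable {W : Type} [AddCommGroup W] [DistribMulAction GQ W]

/-- twisted intertwining of the Eisenstein operators. -/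
theorem s15e_eisOp_pow_map' {W' : Type} [AddCommGroup W'] [DistribMulAction GQ W'] (f : W →+ W')
    (σ σ' : GQ) (hf : ∀ w : W, f (σ • w) = σ' • f w) (q k : ℕ) (w : W) :
    f ((s15e_eisOp W σ q ^ k) w) = (s15e_eisOp W' σ' q ^ k) (f w) := by
  induction k generalizing w with
  | zero => simp
  | succ k ih =>
    rw [pow_succ, pow_succ, s15e_end_mul_apply, s15e_end_mul_apply, ih]
    congr 1
    rw [s15e_eisOp_apply, s15e_eisOp_apply]
    simp only [map_sub, hf, map_nsmul]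

/-- the last non-zero term: if `(A B)^k u = 0` and `u ≠ 0`, some non-zero `u'` obtained from `u`
by applying `A` and `B` is killed by `A` or by `B`. -/
theorem s15e_exists_killed (A B : AddMonoid.End W) (Q : W → Prop) (hQA : ∀ w, Q w → Q (A w))
    (hQB : ∀ w, Q w → Q (B w)) :
    ∀ (k : ℕ) (u : W), Q u → u ≠ 0 → ((A * B) ^ k) u = 0 →
      ∃ u' : W, Q u' ∧ u' ≠ 0 ∧ (A u' = 0 ∨ B u' = 0) := by
  intro k
  induction k with
  | zero =>
    intro u _ hu h0
    rw [pow_zero, s15e_end_one_apply] at h0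
    exact absurd h0 hu
  | succ k ih =>
    intro u hQu hu h0
    rw [pow_succ, s15e_end_mul_apply, s15e_end_mul_apply] at h0
    by_cases hB : B u = 0
    · exact ⟨u, hQu, hu, Or.inr hB⟩
    · by_cases hAB : A (B u) = 0
      · exact ⟨B u, hQB u hQu, hB, Or.inl hAB⟩
      · exact ih (A (B u)) (hQA _ (hQB u hQu)) hAB h0

/-- a unipotent operator on a module killed by `p'` has `p'`-power order. -/
theorem s15e_pow_smul_of_unipotent (p' : ℕ) (hp : p'.Prime) (hkill : ∀ w : W, p' • w = 0)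
    (σ : GQ) (w : W) (n : ℕ)
    (hn : ((DistribMulAction.toAddMonoidEnd GQ W σ - 1) ^ n) w = 0) :
    ∃ m : ℕ, (σ ^ (p' ^ m)) • w = w := by
  set s : AddMonoid.End W := DistribMulAction.toAddMonoidEnd GQ W σ with hs
  refine ⟨n, ?_⟩
  have hle : n ≤ p' ^ n := (Nat.lt_pow_self hp.one_lt).le
  have hN : ((s - 1) ^ (p' ^ n)) w = 0 := by
    obtain ⟨d, hd⟩ := Nat.exists_eq_add_of_le hle
    rw [hd, add_comm, pow_add, s15e_end_mul_apply, hn, map_zero]
  have hcomm : Commute (s - 1) (1 : AddMonoid.End W) := Commute.one_right _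
  have h1 := hcomm.add_pow_prime_pow_eq hp n
  rw [sub_add_cancel, one_pow] at h1
  have h2 : (s ^ (p' ^ n)) w = (σ ^ (p' ^ n)) • w := by
    rw [hs, ← map_pow]
    rfl
  rw [← h2, h1]
  show ((s - 1) ^ p' ^ n) w + (1 : AddMonoid.End W) w + ((p' : AddMonoid.End W) * (s - 1) * 1 * _) w
    = w
  rw [hN, zero_add, s15e_end_one_apply, mul_assoc, mul_assoc, s15e_end_mul_apply,
    AddMonoid.End.natCast_apply, hkill, add_zero]

/-- `q • w = w` on a module killed by `p'` when `q ≡ 1`. -/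
theorem s15e_nsmul_eq_of_cast_eq (p' : ℕ) [Fact p'.Prime] (hkill : ∀ w : W, p' • w = 0)
    {a b : ℕ} (hab : (a : ZMod p') = (b : ZMod p')) (w : W) : a • w = b • w := by
  have h1 : (p' : ℤ) ∣ (a : ℤ) - (b : ℤ) := by
    rw [← ZMod.intCast_zmod_eq_zero_iff_dvd]
    push_cast
    rw [hab, sub_self]
  obtain ⟨j, hj⟩ := h1
  have h2 : ((a : ℤ) - (b : ℤ)) • w = 0 := by
    rw [hj, mul_smul, natCast_zsmul, hkill]
  rw [sub_smul, sub_eq_zero, natCast_zsmul, natCast_zsmul] at h2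
  exact h2

/-- **the stable line in an elementary Eisenstein module.** -/
theorem s15e_exists_line_elem (p' : ℕ) [Fact p'.Prime] (S' : Finset ℕ) [Finite W] [Nontrivial W]
    (hkill : ∀ w : W, p' • w = 0)
    (hcont : ∃ E : IntermediateField ℚ Kb, FiniteDimensional ℚ E ∧
      ∀ σ : GQ, (∀ e ∈ E, σ e = e) → ∀ x : W, σ • x = x)
    (heis : ∀ q : ℕ, q.Prime → q ∉ S' → ∀ A : ValuationSubring Kb, A.LiesOverPrime q →
      ∀ σ : GQ, A.IsFrobeniusAt σ q → ∀ w : W, ∃ k : ℕ, (s15e_eisOp W σ q ^ k) w = 0)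
    (hp'S : p' ∈ S') :
    ∃ V : AddSubgroup W, (∀ (σ : GQ), ∀ v ∈ V, σ • v ∈ V) ∧ Nat.card V = p' := by
  classical
  have hp : p'.Prime := Fact.out
  haveI : NeZero p' := ⟨hp.ne_zero⟩
  obtain ⟨E₀, hE₀fd, hE₀⟩ := hcont
  obtain ⟨L₁, hL₁fd, -, -, -, hL₁⟩ := s29y_exists_level p'
  set ρ : GQ →* Equiv.Perm W := MulAction.toPermHom GQ W with hρ
  set t : GQ →* Equiv.Perm W × (ZMod p')ˣ := ρ.prod (cff_chi p') with ht
  have hfin : GaloisFactorsThroughFiniteLevel t := by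
    haveI := hE₀fd
    haveI := hL₁fd
    refine ⟨E₀ ⊔ L₁, IntermediateField.finiteDimensional_sup E₀ L₁, fun σ hσ => ?_⟩
    have h0 : ∀ x : W, σ • x = x := hE₀ σ fun y hy => hσ y ((le_sup_left : E₀ ≤ E₀ ⊔ L₁) hy)
    have h1 : cff_chi p' σ = 1 := hL₁ σ fun y hy => hσ y ((le_sup_right : L₁ ≤ E₀ ⊔ L₁) hy)
    rw [ht, MonoidHom.prod_apply, h1]
    refine Prod.ext ?_ rfl
    exact Equiv.ext fun x => h0 x
  -- (∗) universal nilpotency
  have hstar : ∀ σ₀ : GQ, ∃ q : ℕ,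
      (q : ZMod p') = ((cff_chi p' σ₀ : (ZMod p')ˣ) : ZMod p') ∧
        ∀ w : W, ∃ k : ℕ, (s15e_eisOp W σ₀ q ^ k) w = 0 := by
    intro σ₀
    obtain ⟨q, hq, hqS, hfr⟩ := s56h_cheb t hfin S' σ₀
    have hqp' : q ≠ p' := fun h => hqS (h ▸ hp'S)
    obtain ⟨A, φ, hA, hφ⟩ := Fermat.Agent.Lib.Frobenius.exists_isFrobeniusAt q hq
    obtain ⟨g, hg⟩ := hfr A hA φ hφ
    have hg1 : ∀ w : W, φ • w = (g * σ₀ * g⁻¹) • w := by
      intro w
      have h1 : (t φ).1 = (t (g * σ₀ * g⁻¹)).1 := by rw [hg]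
      exact congrArg (fun e : Equiv.Perm W => e w) h1
    have hg2 : cff_chi p' φ = cff_chi p' σ₀ := by
      have h1 : (t φ).2 = (t (g * σ₀ * g⁻¹)).2 := by rw [hg]
      have h2 : cff_chi p' φ = cff_chi p' (g * σ₀ * g⁻¹) := h1
      rw [h2, map_mul, map_mul, map_inv, mul_comm (cff_chi p' g), mul_assoc, mul_inv_cancel,
        mul_one]
    refine ⟨q, ?_, fun w => ?_⟩
    · rw [← hg2]
      exact (s29y_chi_frob p' hq hqp' A hA φ hφ).symm
    · obtain ⟨k, hk⟩ := heis q hq hqS A hA φ hφ (g • w)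
      refine ⟨k, ?_⟩
      have h1 := s15e_eisOp_pow_map' (DistribSMul.toAddMonoidHom W g) σ₀ φ (fun w => by
        show g • σ₀ • w = φ • g • w
        rw [hg1, mul_smul, mul_smul, inv_smul_smul]) q k w
      have h2 : g • ((s15e_eisOp W σ₀ q ^ k) w) = 0 := by
        have h3 : (DistribSMul.toAddMonoidHom W g) w = g • w := rfl
        rw [h3, hk] at h1
        exact h1
      exact (smul_eq_zero_iff_eq g).mp h2
  -- `ker χ` acts through a `p'`-group
  have hunip : ∀ σ : GQ, cff_chi p' σ = 1 → ∀ w : W, ∃ m : ℕ, (σ ^ (p' ^ m)) • w = w := by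
    intro σ hσ w
    obtain ⟨q, hq1, hnil⟩ := hstar σ
    rw [hσ, Units.val_one] at hq1
    have hqw : ∀ w : W, q • w = w := by
      intro w
      have := s15e_nsmul_eq_of_cast_eq p' hkill (a := q) (b := 1) (by rw [hq1, Nat.cast_one]) w
      rw [this, one_smul]
    obtain ⟨k, hk⟩ := hnil w
    have hop : s15e_eisOp W σ q = (DistribMulAction.toAddMonoidEnd GQ W σ - 1) ^ 2 := by
      ext w
      rw [s15e_eisOp_apply, hqw, pow_two, s15e_end_mul_apply, s15e_end_sub_apply,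
        s15e_end_sub_apply, s15e_end_one_apply, s15e_end_smul_apply, s15e_end_smul_apply]
      rfl
    rw [hop, ← pow_mul] at hk
    exact s15e_pow_smul_of_unipotent p' hp hkill σ w (2 * k) hk
  -- uniform exponent
  have hunip' : ∀ σ : GQ, cff_chi p' σ = 1 → ∃ m : ℕ, ∀ w : W, (σ ^ (p' ^ m)) • w = w := by
    intro σ hσ
    choose m hm using hunip σ hσ
    haveI := Fintype.ofFinite W
    refine ⟨∑ w : W, m w, fun w => ?_⟩
    have hle : m w ≤ ∑ w : W, m w := Finset.single_le_sum (f := m) (fun _ _ => Nat.zero_le _)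
      (Finset.mem_univ w)
    obtain ⟨d, hd⟩ := Nat.exists_eq_add_of_le hle
    rw [hd, pow_add, pow_mul]
    -- `(σ^(p'^m w))^(p'^d) • w = w`
    have : ∀ j : ℕ, ((σ ^ p' ^ m w) ^ j) • w = w := by
      intro j
      induction j with
      | zero => rw [pow_zero, one_smul]
      | succ j ih => rw [pow_succ, mul_smul, hm w, ih]
    exact this _
  set K₁ : Subgroup (Equiv.Perm W) := (cff_chi p').ker.map ρ with hK₁
  have hpg : IsPGroup p' K₁ := by
    rintro ⟨g, hg⟩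
    obtain ⟨σ, hσ, rfl⟩ := Subgroup.mem_map.mp hg
    obtain ⟨m, hm⟩ := hunip' σ (MonoidHom.mem_ker.mp hσ)
    refine ⟨m, Subtype.ext ?_⟩
    show (ρ σ) ^ (p' ^ m) = 1
    rw [← map_pow]
    exact Equiv.ext fun w => hm w
  -- a non-zero vector fixed by `ker χ`
  obtain ⟨w₀, hw₀⟩ := exists_ne (0 : W)
  have hdvd : p' ∣ Nat.card W := by
    have h1 := addOrderOf_eq_prime (hkill w₀) hw₀
    rw [← h1]
    exact addOrderOf_dvd_natCard w₀
  have h0fix : (0 : W) ∈ MulAction.fixedPoints K₁ W := by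
    rintro ⟨g, hg⟩
    obtain ⟨σ, hσ, rfl⟩ := Subgroup.mem_map.mp hg
    show σ • (0 : W) = 0
    exact smul_zero σ
  obtain ⟨u₁, hu₁fix, hu₁⟩ :=
    hpg.exists_fixed_point_of_prime_dvd_card_of_fixed_point W hdvd h0fix
  -- the invariants of `ker χ`
  set Q : W → Prop := fun w => ∀ γ : GQ, cff_chi p' γ = 1 → γ • w = w with hQ
  have hQu₁ : Q u₁ := by
    intro γ hγ
    have h1 : ρ γ ∈ K₁ := Subgroup.mem_map.mpr ⟨γ, MonoidHom.mem_ker.mpr hγ, rfl⟩
    exact hu₁fix ⟨ρ γ, h1⟩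
  have hQsmul : ∀ (σ : GQ) (w : W), Q w → Q (σ • w) := by
    intro σ w hw γ hγ
    have h1 : cff_chi p' (σ⁻¹ * γ * σ) = 1 := by
      rw [map_mul, map_mul, map_inv, hγ, mul_one, inv_mul_cancel]
    have h2 := hw (σ⁻¹ * γ * σ) h1
    rw [mul_smul, mul_smul] at h2
    calc γ • σ • w = σ • (σ⁻¹ • γ • σ • w) := by rw [smul_inv_smul]
      _ = σ • w := by rw [h2]
  have hQsub : ∀ w w' : W, Q w → Q w' → Q (w - w') := by
    intro w w' hw hw' γ hγ
    rw [smul_sub, hw γ hγ, hw' γ hγ]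
  have hQnsmul : ∀ (n : ℕ) (w : W), Q w → Q (n • w) := by
    intro n w hw γ hγ
    rw [smul_comm, hw γ hγ]
  -- a generator of `χ(G_ℚ)`
  haveI : IsCyclic (cff_chi p').range := Subgroup.isCyclic _
  obtain ⟨⟨g₁, hg₁⟩, hgen⟩ := IsCyclic.exists_monoid_generator (α := (cff_chi p').range)
  obtain ⟨σ₁, rfl⟩ := MonoidHom.mem_range.mp hg₁
  have hdecomp : ∀ σ : GQ, ∃ n : ℕ, cff_chi p' (σ * (σ₁ ^ n)⁻¹) = 1 := by
    intro σ
    obtain ⟨n, hn⟩ := (Submonoid.mem_powers_iff _ _).mp (hgen ⟨cff_chi p' σ, ⟨σ, rfl⟩⟩)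
    refine ⟨n, ?_⟩
    have h1 : cff_chi p' σ₁ ^ n = cff_chi p' σ := by
      have := congrArg (fun z : (cff_chi p').range => (z : (ZMod p')ˣ)) hn
      simpa using this
    rw [map_mul, map_inv, map_pow, h1, mul_inv_cancel]
  -- an eigenvector of `σ₁`
  obtain ⟨q₁, -, hnil₁⟩ := hstar σ₁
  obtain ⟨k₁, hk₁⟩ := hnil₁ u₁
  obtain ⟨u', hQu', hu'0, hu'⟩ := s15e_exists_killed
    (DistribMulAction.toAddMonoidEnd GQ W σ₁ - 1)
    (DistribMulAction.toAddMonoidEnd GQ W σ₁ - (q₁ : AddMonoid.End W)) Q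
    (fun w hw => by
      rw [s15e_end_sub_apply, s15e_end_one_apply, s15e_end_smul_apply]
      exact hQsub _ _ (hQsmul σ₁ w hw) hw)
    (fun w hw => by
      rw [s15e_end_sub_apply, s15e_end_smul_apply, AddMonoid.End.natCast_apply]
      exact hQsub _ _ (hQsmul σ₁ w hw) (hQnsmul q₁ w hw))
    k₁ u₁ hQu₁ (Ne.symm hu₁) hk₁
  have heig : ∃ c : ℕ, σ₁ • u' = c • u' := by
    rcases hu' with h | h
    · refine ⟨1, ?_⟩
      rw [s15e_end_sub_apply, s15e_end_one_apply, s15e_end_smul_apply, sub_eq_zero] at h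
      rw [h, one_smul]
    · refine ⟨q₁, ?_⟩
      rw [s15e_end_sub_apply, s15e_end_smul_apply, AddMonoid.End.natCast_apply, sub_eq_zero] at h
      exact h
  obtain ⟨c, hc⟩ := heig
  have hpow : ∀ n : ℕ, (σ₁ ^ n) • u' = (c ^ n) • u' := by
    intro n
    induction n with
    | zero => rw [pow_zero, pow_zero, one_smul, one_smul]
    | succ n ih =>
      calc (σ₁ ^ (n + 1)) • u' = (σ₁ ^ n) • (σ₁ • u') := by rw [pow_succ, mul_smul]
        _ = c • ((σ₁ ^ n) • u') := by rw [hc, smul_comm]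
        _ = c • (c ^ n • u') := by rw [ih]
        _ = (c ^ (n + 1)) • u' := by rw [pow_succ, mul_comm, mul_smul]
  have hσu' : ∀ σ : GQ, ∃ n : ℕ, σ • u' = n • u' := by
    intro σ
    obtain ⟨n, hn⟩ := hdecomp σ
    refine ⟨c ^ n, ?_⟩
    have h1 : σ • u' = (σ * (σ₁ ^ n)⁻¹) • (σ₁ ^ n) • u' := by
      rw [← mul_smul, inv_mul_cancel_right]
    rw [h1, hpow, smul_comm, hQu' _ hn]
  refine ⟨AddSubgroup.zmultiples u', ?_, ?_⟩
  · intro σ v hv
    obtain ⟨j, rfl⟩ := AddSubgroup.mem_zmultiples_iff.mp hv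
    obtain ⟨n, hn⟩ := hσu' σ
    rw [smul_comm, hn]
    exact AddSubgroup.zsmul_mem _ (AddSubgroup.nsmul_mem _ (AddSubgroup.mem_zmultiples u') n) j
  · rw [Nat.card_zmultiples]
    exact addOrderOf_eq_prime (hkill u') hu'0

end Line

end Fermat.Agent.Lib.S15
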