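/-
Programme M (S15), node [ADM] (helper8, prefix `s15e_`), part 8: **the dévissage inequality for
Eisenstein-admissible Galois modules**, with the bound for the pieces as only hypothesis.

* `s15e_subMod`, `s15e_subQuotSES` : the sub-module of a stable subgroup and the short exact
  sequence `0 → U → E → E/U → 0`;
* `s15e_exists_line` : a non-zero admissible module contains a Galois-stable line;
* `s15e_hasStep` : the class `s15e_AdmC S p p'` has dévissage steps whose pieces are the admissible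
  modules of order `p'` (`s15e_PieceC`);
* **`s15e_dev_GQ`** : `|Sel(V; M₁, M₂)| · |V^{H₁}| · |V^{H₂}| ≤ |V^G| · |M₁| · |M₂| · |V|` for every
  admissible `V`, subgroups `H₁`, `H₂` of `G_ℚ` and finite local conditions, if every admissible
  module of order `p'` satisfies `s15e_PieceBound`;  **`s15e_adm_GQ`** : `|V^{H₁}||V^{H₂}| ≤ |V^G||V|`.
-/
import Fermat.Agent.Lib.S15.EAdm4

set_option autoImplicit false
set_option linter.unusedSectionVars false
set_option linter.unusedVariables false
set_option linter.style.haveILetI false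

noncomputable section

universe u v

namespace Fermat.Agent.Lib.S15

open Fermat.Agent.Lib.S19

local notation "Kb" => AlgebraicClosure ℚ
local notation "GQ" => (AlgebraicClosure ℚ ≃ₐ[ℚ] AlgebraicClosure ℚ)

/-! ### sub-modules -/

section Sub

variable {G : Type v} [Group G]

/-- the `G`-module structure on a stable subgroup. -/
@[reducible] def s15e_subAction {E : Type u} [AddCommGroup E] [DistribMulAction G E]
    (U : AddSubgroup E) (hU : ∀ (g : G), ∀ n ∈ U, g • n ∈ U) : DistribMulAction G U where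
  smul g x := ⟨g • (x : E), hU g x x.2⟩
  one_smul x := Subtype.ext (one_smul G (x : E))
  mul_smul g h x := Subtype.ext (mul_smul g h (x : E))
  smul_zero g := Subtype.ext (smul_zero g)
  smul_add g x y := Subtype.ext (smul_add g (x : E) (y : E))

/-- the sub-module of a bundled module on a stable subgroup. -/
def s15e_subMod (E : s15e_Mod.{u} G) (U : AddSubgroup E.carrier)
    (hU : ∀ (g : G), ∀ n ∈ U, g • n ∈ U) : s15e_Mod.{u} G :=
  @s15e_Mod.mk G _ U inferInstance (s15e_subAction U hU)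

/-- the inclusion of the sub-module. -/
def s15e_subIncl (E : s15e_Mod.{u} G) (U : AddSubgroup E.carrier)
    (hU : ∀ (g : G), ∀ n ∈ U, g • n ∈ U) : (s15e_subMod E U hU).carrier →+ E.carrier :=
  U.subtype

theorem s15e_subIncl_smul (E : s15e_Mod.{u} G) (U : AddSubgroup E.carrier)
    (hU : ∀ (g : G), ∀ n ∈ U, g • n ∈ U) (g : G) (x : (s15e_subMod E U hU).carrier) :
    s15e_subIncl E U hU (g • x) = g • s15e_subIncl E U hU x := rfl

theorem s15e_subIncl_injective (E : s15e_Mod.{u} G) (U : AddSubgroup E.carrier)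
    (hU : ∀ (g : G), ∀ n ∈ U, g • n ∈ U) : Function.Injective (s15e_subIncl E U hU) :=
  Subtype.val_injective

theorem s15e_subIncl_mem (E : s15e_Mod.{u} G) (U : AddSubgroup E.carrier)
    (hU : ∀ (g : G), ∀ n ∈ U, g • n ∈ U) (x : (s15e_subMod E U hU).carrier) :
    s15e_subIncl E U hU x ∈ U := x.2

theorem s15e_exists_subIncl_eq (E : s15e_Mod.{u} G) (U : AddSubgroup E.carrier)
    (hU : ∀ (g : G), ∀ n ∈ U, g • n ∈ U) {e : E.carrier} (he : e ∈ U) :
    ∃ x : (s15e_subMod E U hU).carrier, s15e_subIncl E U hU x = e := ⟨⟨e, he⟩, rfl⟩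

theorem s15e_card_subMod (E : s15e_Mod.{u} G) (U : AddSubgroup E.carrier)
    (hU : ∀ (g : G), ∀ n ∈ U, g • n ∈ U) : Nat.card (s15e_subMod E U hU).carrier = Nat.card U :=
  rfl

/-- the short exact sequence `0 → U → E → E/U → 0`. -/
def s15e_subQuotSES (E : s15e_Mod.{u} G) (U : AddSubgroup E.carrier)
    (hU : ∀ (g : G), ∀ n ∈ U, g • n ∈ U) :
    s15e_SES G (s15e_subMod E U hU).carrier E.carrier (s15e_quotMod E U hU).carrier where
  ι := s15e_subIncl E U hU
  π := s15e_quotMk E U hU
  hι := s15e_subIncl_smul E U hU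
  hπ := s15e_quotMk_smul E U hU
  inj := s15e_subIncl_injective E U hU
  surj := s15e_quotMk_surjective E U hU
  exact := fun v => by
    rw [s15e_quotMk_eq_zero_iff]
    constructor
    · intro hv
      exact s15e_exists_subIncl_eq E U hU hv
    · rintro ⟨w, rfl⟩
      exact s15e_subIncl_mem E U hU w

end Sub

/-! ### the stable line -/

section LineAdm

variable {S : Finset ℕ} {p p' : ℕ} [Fact p'.Prime]

/-- **a non-zero admissible module contains a Galois-stable line.** -/
theorem s15e_exists_line {W : Type} [AddCommGroup W] [Finite W] [Nontrivial W]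
    [DistribMulAction GQ W] (hW : s15e_IsAdm S p p' W) :
    ∃ V : AddSubgroup W, (∀ (σ : GQ), ∀ v ∈ V, σ • v ∈ V) ∧ Nat.card V = p' := by
  classical
  have hp : p'.Prime := Fact.out
  -- the `p'`-torsion
  set U : AddSubgroup W :=
    { carrier := {w | p' • w = 0}
      zero_mem' := smul_zero _
      add_mem' := fun {a b} ha hb => by
        show p' • (a + b) = 0
        rw [smul_add, ha, hb, add_zero]
      neg_mem' := fun {a} ha => by
        show p' • (-a) = 0
        rw [smul_neg, ha, neg_zero] } with hUdef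
  have hUst : ∀ (σ : GQ), ∀ n ∈ U, σ • n ∈ U := by
    intro σ n hn
    show p' • (σ • n) = 0
    rw [smul_comm, hn, smul_zero]
  letI : DistribMulAction GQ U := s15e_subAction U hUst
  have hUadm : s15e_IsAdm S p p' U := s15e_isAdm_sub hW U.subtype (fun _ _ => rfl)
    Subtype.val_injective
  -- `U ≠ 0`
  have hUnt : Nontrivial U := by
    obtain ⟨w, hw⟩ := exists_ne (0 : W)
    obtain ⟨k, hk⟩ := hW.primary w
    have hex : ∃ k : ℕ, p' ^ k • w = 0 := ⟨k, hk⟩
    set k₀ := Nat.find hex with hk₀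
    have hk₀spec : p' ^ k₀ • w = 0 := Nat.find_spec hex
    have hk₀pos : k₀ ≠ 0 := by
      intro h0
      rw [h0, pow_zero, one_smul] at hk₀spec
      exact hw hk₀spec
    obtain ⟨j, hj⟩ := Nat.exists_eq_succ_of_ne_zero hk₀pos
    have hjne : p' ^ j • w ≠ 0 := by
      intro h0
      have := Nat.find_min' hex h0
      omega
    have hjU : p' ^ j • w ∈ U := by
      show p' • (p' ^ j • w) = 0
      rw [← mul_smul, ← pow_succ']
      have : j + 1 = k₀ := hj.symm
      rw [this]
      exact hk₀spec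
    refine ⟨⟨⟨p' ^ j • w, hjU⟩, 0, ?_⟩⟩
    intro h
    exact hjne (congrArg Subtype.val h)
  obtain ⟨H, hH⟩ := hUadm.flat
  obtain ⟨V₁, hV₁st, hV₁card⟩ := s15e_exists_line_elem (W := U) p' (insert p' (insert p S))
    (fun w => Subtype.ext w.2) (s15e_cont_of_order hH)
    (fun q hq hqS A hA σ hσ w => by
      have hqp' : q ≠ p' := fun h => hqS (h ▸ Finset.mem_insert_self _ _)
      have hqp : q ≠ p := fun h => hqS (h ▸ Finset.mem_insert_of_mem (Finset.mem_insert_self _ _))
      have hqS' : q ∉ S := fun h =>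
        hqS (Finset.mem_insert_of_mem (Finset.mem_insert_of_mem h))
      exact hUadm.eis q hq hqS' hqp hqp' A hA σ hσ w)
    (Finset.mem_insert_self _ _)
  refine ⟨V₁.map U.subtype, ?_, ?_⟩
  · rintro σ _ ⟨v, hv, rfl⟩
    exact ⟨σ • v, hV₁st σ v hv, rfl⟩
  · rw [← hV₁card]
    exact Nat.card_congr (V₁.equivMapOfInjective U.subtype Subtype.val_injective).symm.toEquiv

/-- the pieces: admissible modules of order `p'`. -/
def s15e_PieceC (S : Finset ℕ) (p p' : ℕ) : s15e_Mod.{0} GQ → Prop :=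
  fun V => s15e_AdmC S p p' V ∧ Nat.card V.carrier = p'

/-- **the dévissage steps of the admissible class.** -/
theorem s15e_hasStep : s15e_HasStep (s15e_AdmC S p p') (s15e_PieceC S p p') := by
  intro V hV hfin hnt
  have hp : p'.Prime := Fact.out
  obtain ⟨V₀, hV₀st, hV₀card⟩ := s15e_exists_line hV.2
  refine ⟨s15e_subMod V V₀ hV₀st, s15e_quotMod V V₀ hV₀st, s15e_subQuotSES V V₀ hV₀st, ⟨?_, ?_⟩,
    ?_, ?_⟩
  · exact s15e_admC_sub hV (s15e_subIncl V V₀ hV₀st) (s15e_subIncl_smul V V₀ hV₀st)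
      (s15e_subIncl_injective V V₀ hV₀st)
  · rw [s15e_card_subMod, hV₀card]
  · exact s15e_admC_quot V _ hV (s15e_quotMk V V₀ hV₀st) (s15e_quotMk_smul V V₀ hV₀st)
      (s15e_quotMk_surjective V V₀ hV₀st)
  · have hfin' : Finite (s15e_subMod V V₀ hV₀st).carrier :=
      Finite.of_injective _ (s15e_subIncl_injective V V₀ hV₀st)
    have h1 : 1 < Nat.card (s15e_subMod V V₀ hV₀st).carrier := by
      rw [s15e_card_subMod, hV₀card]
      exact hp.one_lt
    exact (Finite.one_lt_card_iff_nontrivial).mp h1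

/-- **the dévissage inequality over `G_ℚ`** (all finite local conditions). -/
theorem s15e_dev_GQ (H₁ H₂ : Subgroup GQ)
    (hpiece : ∀ V', s15e_PieceC S p p' V' →
      s15e_PieceBound H₁ H₂ (s15e_LA (s15e_AdmC S p p') s15e_admC_prod s15e_admC_quot) V')
    (V : s15e_Mod.{0} GQ) (hV : s15e_AdmC S p p' V)
    (M₁ : AddSubgroup (s15e_H1 H₁ V.carrier)) (M₂ : AddSubgroup (s15e_H1 H₂ V.carrier))
    [Finite M₁] [Finite M₂] :
    Finite (s15e_Sel H₁ H₂ V.carrier
        (s15e_LA (s15e_AdmC S p p') s15e_admC_prod s15e_admC_quot V) M₁ M₂) ∧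
      Nat.card (s15e_Sel H₁ H₂ V.carrier
          (s15e_LA (s15e_AdmC S p p') s15e_admC_prod s15e_admC_quot V) M₁ M₂) *
          Nat.card (s15e_inv H₁ V.carrier) * Nat.card (s15e_inv H₂ V.carrier) ≤
        Nat.card (s15e_inv (⊤ : Subgroup GQ) V.carrier) * Nat.card M₁ * Nat.card M₂ *
          Nat.card V.carrier := by
  haveI := hV.1
  obtain ⟨n, hn⟩ := s15e_filt_exists (s15e_PieceC S p p') s15e_admC_prod s15e_admC_quot
    s15e_hasStep (Nat.card V.carrier) V hV hV.1 le_rfl
  exact s15e_dev H₁ H₂ _ (s15e_PieceC S p p') hpiece n V hn M₁ M₂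

/-- **[ADM] over `G_ℚ`**: `|V^{H₁}| · |V^{H₂}| ≤ |V^G| · |V|`. -/
theorem s15e_adm_GQ (H₁ H₂ : Subgroup GQ)
    (hpiece : ∀ V', s15e_PieceC S p p' V' →
      s15e_PieceBound H₁ H₂ (s15e_LA (s15e_AdmC S p p') s15e_admC_prod s15e_admC_quot) V')
    (V : s15e_Mod.{0} GQ) (hV : s15e_AdmC S p p' V) :
    Nat.card (s15e_inv H₁ V.carrier) * Nat.card (s15e_inv H₂ V.carrier) ≤
      Nat.card (s15e_inv (⊤ : Subgroup GQ) V.carrier) * Nat.card V.carrier := by
  haveI := hV.1
  exact s15e_adm_class (s15e_PieceC S p p') s15e_admC_prod s15e_admC_quot H₁ H₂ s15e_hasStep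
    hpiece V hV

end LineAdm

end Fermat.Agent.Lib.S15
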