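/-
Programme M (S15), node (PIECE) (helper8, prefix `s15e_`), part 1: **the admissible modules of order
`p'` are `ℤ/p'` and `μ_{p'}`.**

* `s15e_nilp_all` : (Chebotarev) on a finite Eisenstein module of finite level, for EVERY `σ` the
  operator `(σ - 1)(σ - q)` is nilpotent for some `q ≡ χ_{p'}(σ)`;
* `s15e_piece_dichotomy` : an admissible module of order `p'` has trivial action or the action
  through the mod-`p'` cyclotomic character;
* `s15e_piece_inertia_trivial` : the inertia groups at `p ≠ p'` act trivially on it;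
* `s15e_piece_conj_inv` : its invariants under complex conjugation are Galois-invariant.
-/
import Fermat.Agent.Lib.S15.EAdm5
import Fermat.Agent.Lib.S30.CycConj

set_option autoImplicit false
set_option linter.unusedSectionVars false
set_option linter.unusedVariables false
set_option linter.style.haveILetI false

noncomputable section

namespace Fermat.Agent.Lib.S15

open Fermat.Agent.Lib.S19 Fermat.Agent.Lib.S29 Fermat.Agent.Lib.CFT Fermat.Agent.Lib.S56

local notation "Kb" => AlgebraicClosure ℚ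
local notation "GQ" => (AlgebraicClosure ℚ ≃ₐ[ℚ] AlgebraicClosure ℚ)

theorem s15e_zmod_two_units : ∀ u : (ZMod 2)ˣ, u = 1 := by decide

section Nilp

variable {W : Type} [AddCommGroup W] [DistribMulAction GQ W]

/-- **universal nilpotency** (Chebotarev). -/
theorem s15e_nilp_all (p' : ℕ) [Fact p'.Prime] (S' : Finset ℕ) [Finite W]
    (hcont : ∃ E : IntermediateField ℚ Kb, FiniteDimensional ℚ E ∧
      ∀ σ : GQ, (∀ e ∈ E, σ e = e) → ∀ x : W, σ • x = x)
    (heis : ∀ q : ℕ, q.Prime → q ∉ S' → ∀ A : ValuationSubring Kb, A.LiesOverPrime q →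
      ∀ σ : GQ, A.IsFrobeniusAt σ q → ∀ w : W, ∃ k : ℕ, (s15e_eisOp W σ q ^ k) w = 0)
    (hp'S : p' ∈ S') (σ₀ : GQ) :
    ∃ q : ℕ, (q : ZMod p') = ((cff_chi p' σ₀ : (ZMod p')ˣ) : ZMod p') ∧
      ∀ w : W, ∃ k : ℕ, (s15e_eisOp W σ₀ q ^ k) w = 0 := by
  classical
  have hp : p'.Prime := Fact.out
  obtain ⟨E₀, hE₀fd, hE₀⟩ := hcont
  obtain ⟨L₁, hL₁fd, -, -, -, hL₁⟩ := s29y_exists_level p'
  set ρ : GQ →* Equiv.Perm W := MulAction.toPermHom GQ W with hρ
  set t : GQ →* Equiv.Perm W × (ZMod p')ˣ := ρ.prod (cff_chi p') with ht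
  have hfin : GaloisFactorsThroughFiniteLevel t := by
    haveI := hE₀fd
    haveI := hL₁fd
    refine ⟨E₀ ⊔ L₁, IntermediateField.finiteDimensional_sup E₀ L₁, fun σ hσ => ?_⟩
    have h0 : ∀ x : W, σ • x = x := hE₀ σ fun y hy => hσ y ((le_sup_left : E₀ ≤ E₀ ⊔ L₁) hy)
    have h1 : cff_chi p' σ = 1 := hL₁ σ fun y hy => hσ y ((le_sup_right : L₁ ≤ E₀ ⊔ L₁) hy)
    rw [ht, MonoidHom.prod_apply, h1]
    refine Prod.ext ?_ rfl
    exact Equiv.ext fun x => h0 x
  obtain ⟨q, hq, hqS, hfr⟩ := s56h_cheb t hfin S' σ₀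
  have hqp' : q ≠ p' := fun h => hqS (h ▸ hp'S)
  obtain ⟨A, φ, hA, hφ⟩ := Fermat.Agent.Lib.Frobenius.exists_isFrobeniusAt q hq
  obtain ⟨g, hg⟩ := hfr A hA φ hφ
  have hg1 : ∀ w : W, φ • w = (g * σ₀ * g⁻¹) • w := by
    intro w
    have h1 : (t φ).1 = (t (g * σ₀ * g⁻¹)).1 := by rw [hg]
    exact congrArg (fun e : Equiv.Perm W => e w) h1
  have hg2 : cff_chi p' φ = cff_chi p' σ₀ := by
    have h1 : (t φ).2 = (t (g * σ₀ * g⁻¹)).2 := by rw [hg]
    have h2 : cff_chi p' φ = cff_chi p' (g * σ₀ * g⁻¹) := h1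
    rw [h2, map_mul, map_mul, map_inv, mul_comm (cff_chi p' g), mul_assoc, mul_inv_cancel,
      mul_one]
  refine ⟨q, ?_, fun w => ?_⟩
  · rw [← hg2]
    exact (s29y_chi_frob p' hq hqp' A hA φ hφ).symm
  · obtain ⟨k, hk⟩ := heis q hq hqS A hA φ hφ (g • w)
    refine ⟨k, ?_⟩
    have h1 := s15e_eisOp_pow_map' (DistribSMul.toAddMonoidHom W g) σ₀ φ (fun w => by
      show g • σ₀ • w = φ • g • w
      rw [hg1, mul_smul, mul_smul, inv_smul_smul]) q k w
    have h2 : g • ((s15e_eisOp W σ₀ q ^ k) w) = 0 := by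
      have h3 : (DistribSMul.toAddMonoidHom W g) w = g • w := rfl
      rw [h3, hk] at h1
      exact h1
    exact (smul_eq_zero_iff_eq g).mp h2

end Nilp

section Piece

variable {S : Finset ℕ} {p p' : ℕ} [Fact p'.Prime]
  {V : Type} [AddCommGroup V] [Finite V] [DistribMulAction GQ V]

/-- a module of order `p'` is killed by `p'`. -/
theorem s15e_piece_kill (hcard : Nat.card V = p') (v : V) : p' • v = 0 := by
  rw [← hcard]
  exact card_nsmul_eq_zero'

/-- a non-zero element of a module of prime order generates it. -/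
theorem s15e_piece_gen (hcard : Nat.card V = p') {u : V} (hu : u ≠ 0) (v : V) :
    ∃ k : ℤ, v = k • u := by
  have h1 : Nat.card (AddSubgroup.zmultiples u) = Nat.card V := by
    rw [Nat.card_zmultiples, hcard]
    exact addOrderOf_eq_prime (s15e_piece_kill hcard u) hu
  have h2 : AddSubgroup.zmultiples u = ⊤ := (AddSubgroup.card_eq_iff_eq_top _).mp h1
  have h3 : v ∈ AddSubgroup.zmultiples u := by
    rw [h2]
    exact AddSubgroup.mem_top v
  obtain ⟨k, hk⟩ := AddSubgroup.mem_zmultiples_iff.mp h3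
  exact ⟨k, hk.symm⟩

/-- **the dichotomy**: an admissible module of order `p'` is `ℤ/p'` or `μ_{p'}`. -/
theorem s15e_piece_dichotomy (hadm : s15e_IsAdm S p p' V) (hcard : Nat.card V = p') :
    (∀ (σ : GQ) (v : V), σ • v = v) ∨
      (∀ (σ : GQ) (v : V), σ • v = ((cff_chi p' σ : (ZMod p')ˣ) : ZMod p').val • v) := by
  classical
  have hp : p'.Prime := Fact.out
  haveI : NeZero p' := ⟨hp.ne_zero⟩
  have hkill := s15e_piece_kill (V := V) hcard
  obtain ⟨H, hH⟩ := hadm.flat
  have hcont := s15e_cont_of_order hH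
  have hnt : Nontrivial V := by
    apply (Finite.one_lt_card_iff_nontrivial).mp
    rw [hcard]
    exact hp.one_lt
  obtain ⟨v₀, hv₀⟩ := exists_ne (0 : V)
  -- pointwise alternative
  have hpt : ∀ σ : GQ, (∀ v : V, σ • v = v) ∨
      (∀ v : V, σ • v = ((cff_chi p' σ : (ZMod p')ˣ) : ZMod p').val • v) := by
    intro σ
    obtain ⟨q, hq, hnil⟩ := s15e_nilp_all p' (insert p' (insert p S)) hcont
      (fun q hq hqS A hA σ hσ w => by
        have hqp' : q ≠ p' := fun h => hqS (h ▸ Finset.mem_insert_self _ _)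
        have hqp : q ≠ p := fun h =>
          hqS (h ▸ Finset.mem_insert_of_mem (Finset.mem_insert_self _ _))
        have hqS' : q ∉ S := fun h =>
          hqS (Finset.mem_insert_of_mem (Finset.mem_insert_of_mem h))
        exact hadm.eis q hq hqS' hqp hqp' A hA σ hσ w)
      (Finset.mem_insert_self _ _) σ
    obtain ⟨k, hk⟩ := hnil v₀
    obtain ⟨u', -, hu'0, hu'⟩ := s15e_exists_killed
      (DistribMulAction.toAddMonoidEnd GQ V σ - 1)
      (DistribMulAction.toAddMonoidEnd GQ V σ - (q : AddMonoid.End V)) (fun _ => True)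
      (fun _ _ => trivial) (fun _ _ => trivial) k v₀ trivial hv₀ hk
    rcases hu' with h | h
    · left
      rw [s15e_end_sub_apply, s15e_end_one_apply, s15e_end_smul_apply, sub_eq_zero] at h
      intro v
      obtain ⟨j, rfl⟩ := s15e_piece_gen hcard hu'0 v
      rw [smul_comm, h]
    · right
      rw [s15e_end_sub_apply, s15e_end_smul_apply, AddMonoid.End.natCast_apply, sub_eq_zero] at h
      intro v
      obtain ⟨j, rfl⟩ := s15e_piece_gen hcard hu'0 v
      rw [smul_comm σ j u', h, smul_comm j q u']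
      refine s15e_nsmul_eq_of_cast_eq p' hkill ?_ (j • u')
      rw [hq, ZMod.natCast_zmod_val]
  -- the two subgroups
  let Ha : Subgroup GQ :=
    { carrier := {σ | ∀ v : V, σ • v = v}
      mul_mem' := fun {a b} ha hb v => by rw [mul_smul, hb, ha]
      one_mem' := fun v => one_smul _ v
      inv_mem' := fun {a} ha v => by
        have := ha v
        rw [inv_smul_eq_iff, this] }
  let Hb : Subgroup GQ :=
    { carrier := {σ | ∀ v : V, σ • v = ((cff_chi p' σ : (ZMod p')ˣ) : ZMod p').val • v}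
      mul_mem' := fun {a b} ha hb v => by
        rw [mul_smul, hb, smul_comm, ha, ← mul_smul]
        refine s15e_nsmul_eq_of_cast_eq p' hkill ?_ v
        rw [Nat.cast_mul, ZMod.natCast_zmod_val, ZMod.natCast_zmod_val, ZMod.natCast_zmod_val,
          map_mul, Units.val_mul, mul_comm]
      one_mem' := fun v => by
        rw [one_smul, map_one, Units.val_one]
        have : ((1 : ZMod p').val : ZMod p') = ((1 : ℕ) : ZMod p') := by
          rw [ZMod.natCast_zmod_val, Nat.cast_one]
        rw [s15e_nsmul_eq_of_cast_eq p' hkill this v, one_smul]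
      inv_mem' := fun {a} ha v => by
        rw [inv_smul_eq_iff, smul_comm, ha, ← mul_smul]
        have : ((((cff_chi p' a⁻¹ : (ZMod p')ˣ) : ZMod p').val *
            ((cff_chi p' a : (ZMod p')ˣ) : ZMod p').val : ℕ) : ZMod p') = ((1 : ℕ) : ZMod p') := by
          rw [Nat.cast_mul, ZMod.natCast_zmod_val, ZMod.natCast_zmod_val, Nat.cast_one,
            ← Units.val_mul, ← map_mul, inv_mul_cancel, map_one, Units.val_one]
        rw [s15e_nsmul_eq_of_cast_eq p' hkill this v, one_smul] }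
  by_contra hcon
  rw [not_or] at hcon
  obtain ⟨hna, hnb⟩ := hcon
  obtain ⟨σ, hσ'⟩ := not_forall.mp hna
  obtain ⟨τ, hτ'⟩ := not_forall.mp hnb
  have hσ : σ ∉ Ha := hσ'
  have hτ : τ ∉ Hb := hτ'
  have hσb : σ ∈ Hb := (hpt σ).resolve_left hσ
  have hτa : τ ∈ Ha := (hpt τ).resolve_right hτ
  rcases hpt (σ * τ) with h | h
  · have h1 : σ * τ ∈ Ha := h
    have h2 : σ = (σ * τ) * τ⁻¹ := by rw [mul_inv_cancel_right]
    exact hσ (h2 ▸ Ha.mul_mem h1 (Ha.inv_mem hτa))
  · have h1 : σ * τ ∈ Hb := h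
    have h2 : τ = σ⁻¹ * (σ * τ) := by rw [inv_mul_cancel_left]
    exact hτ (h2 ▸ Hb.mul_mem (Hb.inv_mem hσb) h1)

/-- the inertia groups at `p ≠ p'` act trivially on a piece. -/
theorem s15e_piece_inertia_trivial (hadm : s15e_IsAdm S p p' V) (hcard : Nat.card V = p')
    (hp : p.Prime) (hpp' : p ≠ p') (A : ValuationSubring Kb) (hA : A.LiesOverPrime p)
    (σ : GQ) (hσ : σ ∈ A.inertiaSubgroupIn ℚ) (v : V) : σ • v = v := by
  have hp' : p'.Prime := Fact.out
  haveI : NeZero p' := ⟨hp'.ne_zero⟩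
  rcases s15e_piece_dichotomy hadm hcard with h | h
  · exact h σ v
  · rw [h σ v, s29y_chi_inertia p' hp hpp' A hA σ hσ, Units.val_one]
    have : ((1 : ZMod p').val : ZMod p') = ((1 : ℕ) : ZMod p') := by
      rw [ZMod.natCast_zmod_val, Nat.cast_one]
    rw [s15e_nsmul_eq_of_cast_eq p' (s15e_piece_kill hcard) this v, one_smul]

/-- the vectors of a piece fixed by complex conjugation are fixed by `G_ℚ`. -/
theorem s15e_piece_conj_inv (hadm : s15e_IsAdm S p p' V) (hcard : Nat.card V = p') (v : V)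
    (hv : complexConjugation • v = v) (σ : GQ) : σ • v = v := by
  have hp' : p'.Prime := Fact.out
  haveI : NeZero p' := ⟨hp'.ne_zero⟩
  have hkill := s15e_piece_kill (V := V) hcard
  rcases s15e_piece_dichotomy hadm hcard with h | h
  · exact h σ v
  · -- `c v = (p' - 1) v`
    obtain ⟨ζ, hζ⟩ := s29y_exists_primitiveRoot p'
    have hc : ((p' - 1 : ℕ) : ZMod p') =
        ((cff_chi p' complexConjugation : (ZMod p')ˣ) : ZMod p') :=
      cff_chi_eq_of_pow hζ complexConjugation (p' - 1)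
        (Fermat.Agent.Lib.S30.s30c2_conj_root ζ p' hζ.pow_eq_one hp'.ne_zero)
    have h1 : complexConjugation • v = (p' - 1) • v := by
      rw [h complexConjugation v]
      refine s15e_nsmul_eq_of_cast_eq p' hkill ?_ v
      rw [ZMod.natCast_zmod_val, hc]
    rw [hv] at h1
    -- `2 v = 0`
    have h2 : 2 • v = 0 := by
      have h3 : p' • v = (p' - 1) • v + v := by
        rw [← succ_nsmul, Nat.sub_add_cancel hp'.one_le]
      rw [hkill, ← h1] at h3
      rw [two_nsmul]
      exact h3.symm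
    by_cases h2p : p' = 2
    · -- the character is trivial
      rw [h σ v]
      have hu : ((cff_chi p' σ : (ZMod p')ˣ) : ZMod p') = 1 := by
        subst h2p
        rw [s15e_zmod_two_units (cff_chi 2 σ), Units.val_one]
      rw [hu]
      have : ((1 : ZMod p').val : ZMod p') = ((1 : ℕ) : ZMod p') := by
        rw [ZMod.natCast_zmod_val, Nat.cast_one]
      rw [s15e_nsmul_eq_of_cast_eq p' hkill this v, one_smul]
    · -- `v = 0`
      have hcop : Nat.Coprime 2 p' := by
        rw [Nat.coprime_primes Nat.prime_two hp']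
        exact fun h => h2p h.symm
      have hv0 : v = 0 := by
        have h4 : addOrderOf v ∣ 2 := addOrderOf_dvd_of_nsmul_eq_zero h2
        have h5 : addOrderOf v ∣ p' := addOrderOf_dvd_of_nsmul_eq_zero (hkill v)
        have h6 : addOrderOf v ∣ Nat.gcd 2 p' := Nat.dvd_gcd h4 h5
        rw [hcop.gcd_eq_one, Nat.dvd_one] at h6
        exact AddMonoid.addOrderOf_eq_one_iff.mp h6
      rw [hv0, smul_zero]

end Piece

end Fermat.Agent.Lib.S15
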