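/-
Programme M (S15), node (PIECE) (helper8, prefix `s15e_`), part 2: **trivial modules are admissible**
(the functions with values in `ℤ_(ℓ)` form a function order on a finite module with trivial
action).
-/
import Fermat.Agent.Lib.S15.EPiece1

set_option autoImplicit false
set_option linter.unusedSectionVars false
set_option linter.unusedVariables false
set_option linter.style.haveILetI false

noncomputable section

namespace Fermat.Agent.Lib.S15

open Fermat.Agent.Lib.S19

local notation "Kb" => AlgebraicClosure ℚ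
local notation "GQ" => (AlgebraicClosure ℚ ≃ₐ[ℚ] AlgebraicClosure ℚ)

/-- the trivial `G_ℚ`-module structure. -/
@[reducible] def s15e_trivAction (Z : Type) [AddCommGroup Z] : DistribMulAction GQ Z where
  smul _ z := z
  one_smul _ := rfl
  mul_smul _ _ _ := rfl
  smul_zero _ := rfl
  smul_add _ _ _ := rfl

/-- the bundled trivial module. -/
def s15e_trivMod (Z : Type) [AddCommGroup Z] : s15e_Mod.{0} GQ :=
  @s15e_Mod.mk GQ _ Z inferInstance (s15e_trivAction Z)

theorem s15e_trivMod_smul (Z : Type) [AddCommGroup Z] (σ : GQ) (z : (s15e_trivMod Z).carrier) :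
    σ • z = z := rfl

section Order

variable (ℓ : ℕ) (Z : Type) [AddCommGroup Z] [Finite Z]

/-- the `ℤ_(ℓ)`-valued functions. -/
def s15e_trivOrder : Subalgebra ↥(GaloisRep.ratLocalizedAt ℓ) (Z → Kb) :=
  (AlgHom.compLeft (Algebra.ofId ↥(GaloisRep.ratLocalizedAt ℓ) Kb) Z).range

theorem s15e_mem_trivOrder {a : Z → Kb} :
    a ∈ s15e_trivOrder ℓ Z ↔
      ∃ g : Z → ↥(GaloisRep.ratLocalizedAt ℓ), ∀ z, a z = algebraMap ℚ Kb ((g z : ℚ)) := by
  unfold s15e_trivOrder
  rw [AlgHom.mem_range]
  constructor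
  · rintro ⟨g, rfl⟩
    exact ⟨g, fun z => rfl⟩
  · rintro ⟨g, hg⟩
    refine ⟨g, ?_⟩
    funext z
    exact (hg z).symm

/-- **the trivial module has a function order.** -/
theorem s15e_triv_isOrder :
    @s19_IsOrder ℓ Z _ (s15e_trivAction Z) (s15e_trivOrder ℓ Z) := by
  classical
  letI := s15e_trivAction Z
  haveI := Fintype.ofFinite Z
  refine ⟨?_, ?_, ?_, ?_⟩
  · intro a ha σ x
    obtain ⟨g, hg⟩ := (s15e_mem_trivOrder ℓ Z).mp ha
    have h1 : σ • x = x := rfl
    rw [h1, hg x, σ.commutes]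
  · have h1 : Subalgebra.toSubmodule (s15e_trivOrder ℓ Z) =
        (⊤ : Submodule ↥(GaloisRep.ratLocalizedAt ℓ) (Z → ↥(GaloisRep.ratLocalizedAt ℓ))).map
          (AlgHom.compLeft (Algebra.ofId ↥(GaloisRep.ratLocalizedAt ℓ) Kb) Z).toLinearMap := by
      ext a
      constructor
      · rintro ⟨g, rfl⟩
        exact ⟨g, Submodule.mem_top, rfl⟩
      · rintro ⟨g, -, rfl⟩
        exact ⟨g, rfl⟩
    rw [h1]
    exact (Module.Finite.fg_top).map _
  · intro x y hxy
    refine ⟨fun z => if z = x then 1 else 0, ?_, ?_⟩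
    · rw [s15e_mem_trivOrder]
      refine ⟨fun z => if z = x then 1 else 0, fun z => ?_⟩
      by_cases hz : z = x
      · simp [hz]
      · simp [hz]
    · simp only [if_true]
      rw [if_neg (Ne.symm hxy)]
      exact one_ne_zero
  · intro a ha
    obtain ⟨g, hg⟩ := (s15e_mem_trivOrder ℓ Z).mp ha
    let e : Fin (Fintype.card Z) ≃ Z := (Fintype.equivFin Z).symm
    refine ⟨Fintype.card Z, fun i z => if z = e i then 1 else 0, fun i y => a (e i + y), ?_, ?_, ?_⟩
    · intro i
      rw [s15e_mem_trivOrder]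
      refine ⟨fun z => if z = e i then 1 else 0, fun z => ?_⟩
      by_cases hz : z = e i
      · simp [hz]
      · simp [hz]
    · intro i
      rw [s15e_mem_trivOrder]
      exact ⟨fun y => g (e i + y), fun y => hg _⟩
    · intro x y
      rw [Finset.sum_eq_single (e.symm x)]
      · simp
      · intro i _ hi
        have : x ≠ e i := fun h => hi (by rw [h, Equiv.symm_apply_apply])
        simp [this]
      · intro h
        exact absurd (Finset.mem_univ _) h

end Order

/-- **trivial `p'`-primary finite modules are admissible.** -/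
theorem s15e_trivMod_adm (S : Finset ℕ) (p p' : ℕ) (Z : Type) [AddCommGroup Z] [Finite Z]
    (hZ : ∀ z : Z, ∃ k : ℕ, p' ^ k • z = 0) : s15e_AdmC S p p' (s15e_trivMod Z) := by
  refine ⟨inferInstanceAs (Finite Z), ?_, ?_, ?_, ?_⟩
  · exact hZ
  · intro q _ _ _ _ A _ σ _ w
    refine ⟨1, ?_⟩
    rw [pow_one]
    show s15e_eisOp (s15e_trivMod Z).carrier σ q w = 0
    rw [s15e_eisOp_apply, s15e_trivMod_smul, s15e_trivMod_smul, sub_self]
  · intro _ _ _ _ _ _ σ _ w
    rfl
  · exact ⟨s15e_trivOrder p' Z, s15e_triv_isOrder p' Z⟩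

end Fermat.Agent.Lib.S15
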