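/-
Programme M (S15), node (PIECE) (helper8, prefix `s15e_`), part 3: **reduction to extensions of
order `p'^2`.**

If a cocycle `ξ : G_ℚ → V` (`V` a piece of order `p'`) becomes the coboundary of `e ∈ E` in an
admissible module `E ⊇ V`, then it also becomes the coboundary of an element `f` of an admissible
module `E₁ ⊇ V` which is killed by `p'`, generated by `V` and `f`, with `f ∉ V`
(`E₁ = V + ℤ f̄ ⊆ (E × ℤ/p'^M)/⟨p'·(e, 1)⟩`).
-/
import Fermat.Agent.Lib.S15.EPiece2

set_option autoImplicit false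
set_option linter.unusedSectionVars false
set_option linter.unusedVariables false
set_option linter.style.haveILetI false

noncomputable section

namespace Fermat.Agent.Lib.S15

open Fermat.Agent.Lib.S19

local notation "Kb" => AlgebraicClosure ℚ
local notation "GQ" => (AlgebraicClosure ℚ ≃ₐ[ℚ] AlgebraicClosure ℚ)

/-- a finite primary module has a uniform exponent. -/
theorem s15e_exists_exponent (p' : ℕ) {W : Type} [AddCommGroup W] [Finite W]
    (h : ∀ w : W, ∃ k : ℕ, p' ^ k • w = 0) : ∃ m : ℕ, ∀ w : W, p' ^ m • w = 0 := by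
  classical
  choose k hk using h
  haveI := Fintype.ofFinite W
  refine ⟨∑ w : W, k w, fun w => ?_⟩
  have hle : k w ≤ ∑ w : W, k w := Finset.single_le_sum (f := k) (fun _ _ => Nat.zero_le _)
    (Finset.mem_univ w)
  obtain ⟨d, hd⟩ := Nat.exists_eq_add_of_le hle
  rw [hd, pow_add, mul_comm, mul_smul, hk, smul_zero]

section Reduce

variable {S : Finset ℕ} {p p' : ℕ} [Fact p'.Prime]

/-- **the reduction to order `p'^2`.** -/
theorem s15e_reduce_ext (V E : s15e_Mod.{0} GQ) (hV : s15e_PieceC S p p' V)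
    (hE : s15e_AdmC S p p' E) (j : V.carrier →+ E.carrier)
    (hj : ∀ (σ : GQ) (v : V.carrier), j (σ • v) = σ • j v) (hinj : Function.Injective j)
    (e : E.carrier) (ξ : GQ → V.carrier) (hξ : ∀ σ : GQ, j (ξ σ) = σ • e - e) :
    ∃ (E₁ : s15e_Mod.{0} GQ) (j₁ : V.carrier →+ E₁.carrier) (f : E₁.carrier),
      s15e_AdmC S p p' E₁ ∧ (∀ w : E₁.carrier, p' • w = 0) ∧
      (∀ (σ : GQ) (v : V.carrier), j₁ (σ • v) = σ • j₁ v) ∧ Function.Injective j₁ ∧
      (∀ σ : GQ, j₁ (ξ σ) = σ • f - f) ∧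
      (∀ b : ℕ, (∃ v, j₁ v = b • f) → p' ∣ b) ∧
      (∀ w : E₁.carrier, ∃ (v : V.carrier) (b : ℕ), w = j₁ v + b • f) := by
  classical
  have hp : p'.Prime := Fact.out
  haveI := hV.1.1
  haveI := hE.1
  have hVkill : ∀ v : V.carrier, p' • v = 0 := s15e_piece_kill hV.2
  obtain ⟨m, hm⟩ := s15e_exists_exponent p' hE.2.primary
  set M := m + 1 with hM
  have hMkill : ∀ w : E.carrier, p' ^ M • w = 0 := by
    intro w
    rw [hM, pow_succ, mul_comm, mul_smul, hm, smul_zero]
  haveI : NeZero (p' ^ M) := ⟨pow_ne_zero _ hp.ne_zero⟩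
  set Zm : s15e_Mod.{0} GQ := s15e_trivMod (ZMod (p' ^ M)) with hZm
  have hZadm : s15e_AdmC S p p' Zm := by
    refine s15e_trivMod_adm S p p' (ZMod (p' ^ M)) (fun z => ⟨M, ?_⟩)
    rw [nsmul_eq_mul, ZMod.natCast_self, zero_mul]
  set P : s15e_Mod.{0} GQ := s15e_prodMod E Zm with hP
  have hPadm : s15e_AdmC S p p' P := s15e_admC_prod E Zm hE hZadm
  let one : Zm.carrier := (1 : ZMod (p' ^ M))
  let f₀ : P.carrier := (e, one)
  have hσf₀ : ∀ σ : GQ, σ • f₀ = ((σ • e, one) : E.carrier × Zm.carrier) := fun σ => rfl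
  have hσpf₀ : ∀ σ : GQ, σ • (p' • f₀) = p' • f₀ := by
    intro σ
    rw [smul_comm, hσf₀]
    have h1 : σ • e = e + j (ξ σ) := by rw [hξ]; abel
    rw [h1]
    show p' • ((e + j (ξ σ), one) : E.carrier × Zm.carrier) = p' • ((e, one) : E.carrier × Zm.carrier)
    rw [Prod.smul_mk, Prod.smul_mk, smul_add, ← map_nsmul, hVkill, map_zero, add_zero]
  set N : AddSubgroup P.carrier := AddSubgroup.zmultiples (p' • f₀) with hN
  have hNst : ∀ (σ : GQ), ∀ n ∈ N, σ • n ∈ N := by
    intro σ n hn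
    obtain ⟨k, rfl⟩ := AddSubgroup.mem_zmultiples_iff.mp hn
    rw [smul_comm, hσpf₀]
    exact AddSubgroup.zsmul_mem _ (AddSubgroup.mem_zmultiples _) k
  set Q : s15e_Mod.{0} GQ := s15e_quotMod P N hNst with hQ
  have hQadm : s15e_AdmC S p p' Q := s15e_admC_quot P Q hPadm (s15e_quotMk P N hNst)
    (s15e_quotMk_smul P N hNst) (s15e_quotMk_surjective P N hNst)
  set mk : P.carrier →+ Q.carrier := s15e_quotMk P N hNst with hmk
  have hmks : ∀ (σ : GQ) (x : P.carrier), mk (σ • x) = σ • mk x := s15e_quotMk_smul P N hNst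
  have hmk0 : ∀ x : P.carrier, mk x = 0 ↔ x ∈ N := s15e_quotMk_eq_zero_iff P N hNst
  -- membership in `N`, in coordinates
  have hNmem : ∀ x : P.carrier, x ∈ N →
      ∃ k : ℤ, (k * p') • e = x.1 ∧ ((k * p' : ℤ) : ZMod (p' ^ M)) = x.2 := by
    intro x hx
    obtain ⟨k, rfl⟩ := AddSubgroup.mem_zmultiples_iff.mp hx
    refine ⟨k, ?_, ?_⟩
    · show (k * p') • e = (k • p' • f₀).1
      rw [mul_smul, natCast_zsmul]
      rfl
    · show ((k * p' : ℤ) : ZMod (p' ^ M)) = (k • p' • f₀).2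
      show ((k * p' : ℤ) : ZMod (p' ^ M)) = k • p' • (1 : ZMod (p' ^ M))
      rw [zsmul_eq_mul, nsmul_eq_mul]
      push_cast
      ring
  set j' : V.carrier →+ Q.carrier :=
    mk.comp ((AddMonoidHom.inl E.carrier Zm.carrier).comp j) with hj'
  have hj'apply : ∀ v, j' v = mk ((j v, 0) : E.carrier × Zm.carrier) := fun v => rfl
  have hj's : ∀ (σ : GQ) (v : V.carrier), j' (σ • v) = σ • j' v := by
    intro σ v
    rw [hj'apply, hj'apply, ← hmks, hj]
    rfl
  have hj'inj : Function.Injective j' := by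
    rw [injective_iff_map_eq_zero]
    intro v hv
    rw [hj'apply, hmk0] at hv
    obtain ⟨k, h1, h2⟩ := hNmem _ hv
    have h3 : ((p' ^ M : ℕ) : ℤ) ∣ k * p' := by
      rw [← ZMod.intCast_zmod_eq_zero_iff_dvd]
      exact h2
    obtain ⟨t, ht⟩ := h3
    have h4 : j v = 0 := by
      have : (j v, (0 : Zm.carrier)).1 = j v := rfl
      rw [← this, ← h1, ht, mul_comm, mul_smul, natCast_zsmul, hMkill, smul_zero]
    apply hinj
    rw [h4, map_zero]
  set f' : Q.carrier := mk f₀ with hf'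
  have hpf' : p' • f' = 0 := by
    rw [hf', ← map_nsmul, hmk0]
    exact AddSubgroup.mem_zmultiples _
  have hσf' : ∀ σ : GQ, j' (ξ σ) = σ • f' - f' := by
    intro σ
    rw [hf', ← hmks, ← map_sub, hj'apply, hσf₀, hξ]
    congr 1
    show ((σ • e - e, (0 : Zm.carrier)) : E.carrier × Zm.carrier) = (σ • e, one) - (e, one)
    rw [Prod.mk_sub_mk, sub_self]
  have hindep : ∀ (b : ℤ) (v : V.carrier), j' v = b • f' → (p' : ℤ) ∣ b := by
    intro b v hb
    have h1 : mk (b • f₀ - ((j v, 0) : E.carrier × Zm.carrier)) = 0 := by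
      rw [map_sub, map_zsmul, ← hj'apply, hb, sub_self]
    rw [hmk0] at h1
    obtain ⟨k, -, h2⟩ := hNmem _ h1
    have h3 : (b • f₀ - ((j v, 0) : E.carrier × Zm.carrier)).2 = (b : ZMod (p' ^ M)) := by
      show b • (1 : ZMod (p' ^ M)) - 0 = (b : ZMod (p' ^ M))
      rw [sub_zero, zsmul_eq_mul, mul_one]
    rw [h3] at h2
    have h4 : ((p' ^ M : ℕ) : ℤ) ∣ k * p' - b := by
      rw [← ZMod.intCast_zmod_eq_zero_iff_dvd]
      push_cast
      push_cast at h2
      rw [h2, sub_self]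
    have h5 : (p' : ℤ) ∣ ((p' ^ M : ℕ) : ℤ) := by
      rw [hM, pow_succ]
      push_cast
      exact Dvd.intro_left _ rfl
    have h6 : (p' : ℤ) ∣ k * p' - b := h5.trans h4
    have h7 : (p' : ℤ) ∣ k * p' := Dvd.intro_left _ rfl
    have := (Int.dvd_iff_dvd_of_dvd_sub h6).mp h7
    exact this
  -- the sub-module generated by `V` and `f'`
  set g : V.carrier × ℤ →+ Q.carrier :=
    j'.coprod (zmultiplesHom Q.carrier f') with hg
  have hgapply : ∀ x : V.carrier × ℤ, g x = j' x.1 + x.2 • f' := fun x => by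
    rw [hg, AddMonoidHom.coprod_apply]
    rfl
  set U : AddSubgroup Q.carrier := g.range with hU
  have hUst : ∀ (σ : GQ), ∀ n ∈ U, σ • n ∈ U := by
    rintro σ _ ⟨⟨v, b⟩, rfl⟩
    refine ⟨(σ • v + b • ξ σ, b), ?_⟩
    rw [hgapply, hgapply, smul_add, smul_comm σ b f']
    have h1 : σ • f' = f' + j' (ξ σ) := by rw [hσf']; abel
    rw [h1, map_add, hj's, map_zsmul, smul_add]
    abel
  set E₁ : s15e_Mod.{0} GQ := s15e_subMod Q U hUst with hE₁
  have hE₁adm : s15e_AdmC S p p' E₁ := s15e_admC_sub hQadm (s15e_subIncl Q U hUst)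
    (s15e_subIncl_smul Q U hUst) (s15e_subIncl_injective Q U hUst)
  set inc : E₁.carrier →+ Q.carrier := s15e_subIncl Q U hUst with hinc
  have hincinj : Function.Injective inc := s15e_subIncl_injective Q U hUst
  have hincs : ∀ (σ : GQ) (x : E₁.carrier), inc (σ • x) = σ • inc x := s15e_subIncl_smul Q U hUst
  have hj'U : ∀ v, j' v ∈ U := fun v => ⟨(v, 0), by rw [hgapply, zero_smul, add_zero]⟩
  have hf'U : f' ∈ U := ⟨(0, 1), by rw [hgapply, map_zero, zero_add, one_smul]⟩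
  -- the lifts
  have hlift : ∀ x : Q.carrier, x ∈ U → ∃ y : E₁.carrier, inc y = x :=
    fun x hx => s15e_exists_subIncl_eq Q U hUst hx
  choose j₁f hj₁f using fun v => hlift (j' v) (hj'U v)
  obtain ⟨f, hf⟩ := hlift f' hf'U
  let j₁ : V.carrier →+ E₁.carrier :=
    { toFun := j₁f
      map_zero' := by
        apply hincinj
        rw [hj₁f, map_zero, map_zero]
      map_add' := fun a b => by
        apply hincinj
        rw [hj₁f, map_add, map_add, hj₁f, hj₁f] }
  have hj₁ : ∀ v, inc (j₁ v) = j' v := hj₁f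
  refine ⟨E₁, j₁, f, hE₁adm, ?_, ?_, ?_, ?_, ?_, ?_⟩
  · intro w
    apply hincinj
    rw [map_nsmul, map_zero]
    obtain ⟨⟨v, b⟩, hvb⟩ := s15e_subIncl_mem Q U hUst w
    rw [← hinc] at hvb
    rw [← hvb, hgapply, smul_add, ← map_nsmul, hVkill, map_zero, zero_add, smul_comm, hpf',
      smul_zero]
  · intro σ v
    apply hincinj
    rw [hincs, hj₁, hj₁, hj's]
  · intro a b hab
    apply hj'inj
    rw [← hj₁, ← hj₁, hab]
  · intro σ
    apply hincinj
    rw [hj₁, map_sub, hincs, hf, hσf']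
  · rintro b ⟨v, hv⟩
    have h1 : j' v = (b : ℤ) • f' := by
      rw [← hj₁, hv, map_nsmul, hf, natCast_zsmul]
    exact Int.natCast_dvd_natCast.mp (hindep b v h1)
  · intro w
    obtain ⟨⟨v, b⟩, hvb⟩ := s15e_subIncl_mem Q U hUst w
    rw [← hinc, hgapply] at hvb
    -- reduce `b` modulo `p'`
    have hb : b • f' = ((b % p').toNat : ℕ) • f' := by
      have h1 : b = (b % p') + p' * (b / p') := (Int.emod_add_mul_ediv b p').symm
      have h2 : 0 ≤ b % (p' : ℤ) := Int.emod_nonneg b (by exact_mod_cast hp.ne_zero)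
      conv_lhs => rw [h1]
      rw [add_smul, mul_smul, natCast_zsmul, smul_comm, hpf', smul_zero, add_zero,
        ← natCast_zsmul, Int.toNat_of_nonneg h2]
    refine ⟨v, (b % p').toNat, ?_⟩
    apply hincinj
    rw [map_add, hj₁, map_nsmul, hf, ← hb]
    exact hvb.symm

end Reduce

end Fermat.Agent.Lib.S15
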