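/-
Programme M (S15), node (PIECE) (helper8, prefix `s15e_`), part 4: **valuations of Kummer generators
at unramified primes.**

* `s15e_vQ_int_of_fixed` : an element of `ℚ̄ˣ` fixed by a Frobenius element and by the inertia group
  at `A | ℓ` has integral `ℓ`-adic valuation (density of `ℚ` in the decomposition field,
  `s19b_density`);
* `s15e_padicVal_dvd_of_inertia_fixed` : if `β ^ p' = b ∈ ℚˣ`, `ℓ ≠ p'`, and `β` is fixed by the
  inertia group at `A | ℓ`, then `p' ∣ v_ℓ(b)` (twist `β` by a root of unity `ω` of order prime to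
  `ℓ` with `ω^{ℓ-1} = β / φ β`: then `ω β` is also fixed by the Frobenius element `φ`).
-/
import Mathlib
import Fermat.Agent.Lib.S19.GDescG
import Fermat.Agent.Lib.Frobenius.Exists

set_option autoImplicit false
set_option linter.unusedSectionVars false
set_option linter.unusedVariables false
set_option linter.style.haveILetI false

noncomputable section

namespace Fermat.Agent.Lib.S15

open Fermat.Agent.Lib.S19 Fermat.Agent.Lib.Frey

local notation "Kb" => AlgebraicClosure ℚ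
local notation "GQ" => (AlgebraicClosure ℚ ≃ₐ[ℚ] AlgebraicClosure ℚ)

/-- **integrality of the valuation on the decomposition field.** -/
theorem s15e_vQ_int_of_fixed {ℓ : ℕ} (hℓ : ℓ.Prime) {A : ValuationSubring Kb}
    (hA : (ℓ : Kb) ∈ A.nonunits) (φ : GQ) (hφ : A.IsFrobeniusAt φ ℓ) (γ : Kb) (hγ0 : γ ≠ 0)
    (hγφ : φ γ = γ) (hγI : ∀ τ ∈ A.inertiaSubgroupIn ℚ, τ γ = γ) :
    ∃ z : ℤ, ford_vQ A hℓ hA γ = ((z : ℚ) : WithTop ℚ) := by
  haveI := Fermat.Agent.Lib.Frobenius.isGalois_QBar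
  set v := ford_vQ A hℓ hA with hv
  have hvne : v γ ≠ ⊤ := by
    intro h
    exact hγ0 ((AddValuation.top_iff v).mp h)
  obtain ⟨r, hr⟩ := WithTop.ne_top_iff_exists.mp hvne
  -- scale into `A`
  set N : ℕ := ⌈-r⌉.toNat with hN
  have hNr : 0 ≤ (N : ℚ) + r := by
    have h1 : -r ≤ (⌈-r⌉ : ℚ) := Int.le_ceil _
    have h2 : (⌈-r⌉ : ℤ) ≤ ((⌈-r⌉.toNat : ℕ) : ℤ) := Int.self_le_toNat _
    have h3 : ((⌈-r⌉ : ℤ) : ℚ) ≤ (((⌈-r⌉.toNat : ℕ) : ℤ) : ℚ) := by exact_mod_cast h2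
    have h4 : (((⌈-r⌉.toNat : ℕ) : ℤ) : ℚ) = (N : ℚ) := by rw [hN]; push_cast; rfl
    linarith
  set x : Kb := (ℓ : Kb) ^ N * γ with hx
  have hvx : v x = (((N : ℚ) + r : ℚ) : WithTop ℚ) := by
    rw [hx, AddValuation.map_mul, AddValuation.map_pow, hv, ford_vQ_q, ← hv, ← hr]
    push_cast
    rw [nsmul_one]
  have hxA : x ∈ A := by
    rw [← ford_vQ_nonneg_iff hℓ hA, ← hv, hvx]
    exact_mod_cast hNr
  have hxφ : φ x = x := by rw [hx, map_mul, map_pow, map_natCast, hγφ]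
  have hxI : ∀ τ ∈ A.inertiaSubgroupIn ℚ, τ x = x := by
    intro τ hτ
    rw [hx, map_mul, map_pow, map_natCast, hγI τ hτ]
  set n : ℕ := ⌈(N : ℚ) + r⌉.toNat + 1 with hn
  have hnlt : (N : ℚ) + r < (n : ℚ) := by
    have h1 : (N : ℚ) + r ≤ (⌈(N : ℚ) + r⌉ : ℚ) := Int.le_ceil _
    have h2 : (⌈(N : ℚ) + r⌉ : ℤ) ≤ ((⌈(N : ℚ) + r⌉.toNat : ℕ) : ℤ) := Int.self_le_toNat _
    have h3 : ((⌈(N : ℚ) + r⌉ : ℤ) : ℚ) ≤ (((⌈(N : ℚ) + r⌉.toNat : ℕ) : ℤ) : ℚ) := by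
      exact_mod_cast h2
    have h4 : (n : ℚ) = (((⌈(N : ℚ) + r⌉.toNat : ℕ) : ℤ) : ℚ) + 1 := by rw [hn]; push_cast; rfl
    linarith
  obtain ⟨q, -, hq⟩ := s19b_density A hℓ hA φ hφ x hxA hxφ hxI n
  rw [← hv] at hq
  -- `v q = v x`
  have hlt : v x < v (x - algebraMap ℚ Kb q) := by
    refine lt_of_lt_of_le ?_ hq
    rw [hvx]
    exact_mod_cast hnlt
  have hvq : v (algebraMap ℚ Kb q) = v x := by
    have h1 : algebraMap ℚ Kb q = x + -(x - algebraMap ℚ Kb q) := by ring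
    rw [h1]
    apply AddValuation.map_add_eq_of_lt_left
    rw [AddValuation.map_neg]
    exact hlt
  have hq0 : q ≠ 0 := by
    rintro rfl
    rw [map_zero, AddValuation.map_zero, hvx] at hvq
    exact WithTop.coe_ne_top hvq.symm
  rw [hv, ford_vQ_algebraMap hℓ hA hq0, ← hv, hvx] at hvq
  have h5 : ((padicValRat ℓ q : ℤ) : ℚ) = (N : ℚ) + r := by exact_mod_cast hvq
  refine ⟨padicValRat ℓ q - N, ?_⟩
  rw [← hr]
  have : r = ((padicValRat ℓ q - (N : ℤ) : ℤ) : ℚ) := by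
    push_cast
    linarith
  rw [← this]

/-- **the valuation of a Kummer radicand at an unramified prime is divisible by `p'`.** -/
theorem s15e_padicVal_dvd_of_inertia_fixed {ℓ p' : ℕ} (hℓ : ℓ.Prime) (hp' : p'.Prime)
    (hne : ℓ ≠ p') (A : ValuationSubring Kb) (hA : A.LiesOverPrime ℓ) (β : Kb) (b : ℚ)
    (hb : b ≠ 0) (hβ : β ^ p' = algebraMap ℚ Kb b)
    (hI : ∀ τ ∈ A.inertiaSubgroupIn ℚ, τ β = β) : (p' : ℤ) ∣ padicValRat ℓ b := by
  have hA' : (ℓ : Kb) ∈ A.nonunits := hA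
  obtain ⟨φ, hφ⟩ := Fermat.Agent.Lib.Frobenius.exists_isFrobeniusAt_of_liesOverPrime A ℓ hℓ hA
  have hβ0 : β ≠ 0 := by
    rintro rfl
    rw [zero_pow hp'.ne_zero] at hβ
    exact hb ((map_eq_zero (algebraMap ℚ Kb)).mp hβ.symm)
  -- `η = φ β / β` is a `p'`-th root of unity
  set η : Kb := φ β / β with hη
  have hηp : η ^ p' = 1 := by
    rw [hη, div_pow, ← map_pow, hβ, φ.commutes, div_self]
    rw [← hβ]
    exact pow_ne_zero _ hβ0
  have hη0 : η ≠ 0 := by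
    intro h
    rw [h, zero_pow hp'.ne_zero] at hηp
    exact zero_ne_one hηp
  -- `ω ^ (ℓ - 1) = η⁻¹`
  have hℓ1 : 0 < ℓ - 1 := Nat.sub_pos_of_lt hℓ.one_lt
  obtain ⟨ω, hω⟩ := IsAlgClosed.exists_pow_nat_eq (η⁻¹ : Kb) hℓ1
  set n₀ : ℕ := (ℓ - 1) * p' with hn₀
  have hωn : ω ^ n₀ = 1 := by
    rw [hn₀, pow_mul, hω, inv_pow, hηp, inv_one]
  have hndvd : ¬ ℓ ∣ n₀ := by
    intro h
    rcases (Nat.Prime.dvd_mul hℓ).mp h with h1 | h1
    · have := Nat.le_of_dvd hℓ1 h1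
      omega
    · exact hne ((Nat.prime_dvd_prime_iff_eq hℓ hp').mp h1)
  have hn₀A : (n₀ : Kb) ∉ A.nonunits := by
    intro h
    have h1 := ford_val_natCast_of_not_dvd (A := A) hℓ hA' hndvd
    rw [A.mem_nonunits_iff, h1] at h
    exact lt_irrefl _ h
  have hωW := s19g_root_mem_W hℓ hA' hn₀A hωn
  have hωφ := s19g_frob_root hℓ hA' hn₀A φ hφ hωn
  have hω0 : ω ≠ 0 := by
    rintro rfl
    have hn₀pos : n₀ ≠ 0 := Nat.mul_ne_zero hℓ1.ne' hp'.ne_zero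
    rw [zero_pow hn₀pos] at hωn
    exact zero_ne_one hωn
  -- `γ = ω β`
  set γ : Kb := ω * β with hγ
  have hγ0 : γ ≠ 0 := mul_ne_zero hω0 hβ0
  have hγφ : φ γ = γ := by
    have h1 : φ β = η * β := by rw [hη, div_mul_cancel₀ _ hβ0]
    have h2 : ω ^ ℓ = ω * ω ^ (ℓ - 1) := by
      rw [← pow_succ', Nat.sub_add_cancel hℓ.one_le]
    rw [hγ, map_mul, hωφ, h1, h2, hω]
    field_simp
  have hγI : ∀ τ ∈ A.inertiaSubgroupIn ℚ, τ γ = γ := by
    intro τ hτ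
    rw [hγ, map_mul, hωW.2 τ hτ, hI τ hτ]
  obtain ⟨z, hz⟩ := s15e_vQ_int_of_fixed hℓ hA' φ hφ γ hγ0 hγφ hγI
  -- `v ω = 0`
  set v := ford_vQ A hℓ hA' with hv
  have hvω : v ω = 0 := by
    have h1 : 0 ≤ v ω := (ford_vQ_nonneg_iff hℓ hA' ω).mpr hωW.1
    have hωinv : ω⁻¹ ^ n₀ = 1 := by rw [inv_pow, hωn, inv_one]
    have h2 : 0 ≤ v ω⁻¹ := (ford_vQ_nonneg_iff hℓ hA' ω⁻¹).mpr
      (s19g_root_mem A (Nat.mul_ne_zero hℓ1.ne' hp'.ne_zero) hωinv)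
    have h3 : v ω + v ω⁻¹ = 0 := by
      rw [← AddValuation.map_mul, mul_inv_cancel₀ hω0, AddValuation.map_one]
    exact le_antisymm (by
      calc v ω ≤ v ω + v ω⁻¹ := le_add_of_nonneg_right h2
        _ = 0 := h3) h1
  have hvβ : v β = ((z : ℚ) : WithTop ℚ) := by
    rw [← hz, hγ, AddValuation.map_mul, hvω, zero_add]
  -- `p' v(β) = v(b)`
  have h4 : v (β ^ p') = ((padicValRat ℓ b : ℚ) : WithTop ℚ) := by
    rw [hβ, hv, ford_vQ_algebraMap hℓ hA' hb]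
  rw [AddValuation.map_pow, hvβ] at h4
  have h5 : (p' : ℚ) * (z : ℚ) = (padicValRat ℓ b : ℚ) := by
    have : ((p' • (z : ℚ) : ℚ) : WithTop ℚ) = ((padicValRat ℓ b : ℚ) : WithTop ℚ) := by
      rw [← h4]
      push_cast
      rfl
    have h6 := WithTop.coe_injective this
    rw [nsmul_eq_mul] at h6
    exact h6
  refine ⟨z, ?_⟩
  have : ((padicValRat ℓ b : ℤ) : ℚ) = (((p' : ℤ) * z : ℤ) : ℚ) := by
    push_cast
    exact h5.symm
  exact_mod_cast this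

end Fermat.Agent.Lib.S15
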