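/-
Programme M (S15), node (PIECE) (helper8, prefix `s15e_`), part 5: a non-zero rational number all of
whose valuations are divisible by `n` is `±` an `n`-th power.  Mathlib only.
-/
import Mathlib

set_option autoImplicit false
set_option linter.unusedSectionVars false
set_option linter.unusedVariables false

namespace Fermat.Agent.Lib.S15

/-- a positive natural number all of whose valuations are divisible by `n` is an `n`-th power. -/
theorem s15e_nat_eq_pow (n : ℕ) (a : ℕ) (ha : a ≠ 0)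
    (h : ∀ ℓ : ℕ, ℓ.Prime → n ∣ padicValNat ℓ a) : ∃ c : ℕ, c ≠ 0 ∧ a = c ^ n := by
  refine ⟨a.factorization.prod fun ℓ e => ℓ ^ (e / n), ?_, ?_⟩
  · rw [Finsupp.prod]
    refine Finset.prod_ne_zero_iff.mpr fun ℓ hℓ => pow_ne_zero _ ?_
    exact (Nat.prime_of_mem_primeFactors (Nat.support_factorization a ▸ hℓ)).ne_zero
  · conv_lhs => rw [← Nat.prod_factorization_pow_eq_self ha]
    rw [Finsupp.prod, Finsupp.prod, ← Finset.prod_pow]
    refine Finset.prod_congr rfl fun ℓ hℓ => ?_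
    have hℓp : ℓ.Prime := Nat.prime_of_mem_primeFactors (Nat.support_factorization a ▸ hℓ)
    rw [← pow_mul]
    congr 1
    have h1 : n ∣ a.factorization ℓ := by
      rw [Nat.factorization_def a hℓp]
      exact h ℓ hℓp
    exact (Nat.div_mul_cancel h1).symm

/-- **a rational number all of whose valuations are divisible by `n` is `±` an `n`-th power.** -/
theorem s15e_rat_eq_pow (n : ℕ) (b : ℚ) (hb : b ≠ 0)
    (h : ∀ ℓ : ℕ, ℓ.Prime → (n : ℤ) ∣ padicValRat ℓ b) :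
    ∃ c : ℚ, c ≠ 0 ∧ (b = c ^ n ∨ b = -c ^ n) := by
  have hnum0 : b.num ≠ 0 := Rat.num_ne_zero.mpr hb
  have hden0 : b.den ≠ 0 := b.den_nz
  have hcop : Nat.Coprime b.num.natAbs b.den := b.reduced
  -- the two valuations
  have hsplit : ∀ ℓ : ℕ, ℓ.Prime →
      n ∣ padicValNat ℓ b.num.natAbs ∧ n ∣ padicValNat ℓ b.den := by
    intro ℓ hℓ
    have : Fact ℓ.Prime := ⟨hℓ⟩
    have h1 := h ℓ hℓ
    rw [padicValRat_def] at h1
    have h2 : padicValInt ℓ b.num = padicValNat ℓ b.num.natAbs := rfl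
    rw [h2] at h1
    by_cases hd : ℓ ∣ b.den
    · have hn' : ¬ ℓ ∣ b.num.natAbs := fun hn' =>
        hℓ.one_lt.ne' (Nat.eq_one_of_dvd_coprimes hcop hn' hd)
      have h3 : padicValNat ℓ b.num.natAbs = 0 := padicValNat.eq_zero_of_not_dvd hn'
      rw [h3] at h1 ⊢
      refine ⟨dvd_zero _, ?_⟩
      have h4 : (n : ℤ) ∣ (padicValNat ℓ b.den : ℤ) := by
        have := (dvd_neg (a := (n : ℤ))).mpr h1
        simpa using this
      exact Int.natCast_dvd_natCast.mp h4
    · have h3 : padicValNat ℓ b.den = 0 := padicValNat.eq_zero_of_not_dvd hd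
      rw [h3] at h1 ⊢
      refine ⟨?_, dvd_zero _⟩
      have h4 : (n : ℤ) ∣ (padicValNat ℓ b.num.natAbs : ℤ) := by simpa using h1
      exact Int.natCast_dvd_natCast.mp h4
  obtain ⟨c₁, hc₁0, hc₁⟩ := s15e_nat_eq_pow n b.num.natAbs (Int.natAbs_ne_zero.mpr hnum0)
    (fun ℓ hℓ => (hsplit ℓ hℓ).1)
  obtain ⟨c₂, hc₂0, hc₂⟩ := s15e_nat_eq_pow n b.den hden0 (fun ℓ hℓ => (hsplit ℓ hℓ).2)
  refine ⟨(c₁ : ℚ) / (c₂ : ℚ), div_ne_zero (Nat.cast_ne_zero.mpr hc₁0) (Nat.cast_ne_zero.mpr hc₂0),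
    ?_⟩
  have hb' : b = (b.num : ℚ) / (b.den : ℚ) := (Rat.num_div_den b).symm
  have hden : (b.den : ℚ) = (c₂ : ℚ) ^ n := by rw [hc₂]; push_cast; rfl
  rcases Int.natAbs_eq b.num with hpos | hneg
  · left
    have hnum : (b.num : ℚ) = (c₁ : ℚ) ^ n := by
      rw [hpos, hc₁]
      push_cast
      rfl
    rw [div_pow, ← hnum, ← hden]
    exact hb'
  · right
    have hnum : (b.num : ℚ) = -(c₁ : ℚ) ^ n := by
      rw [hneg, hc₁]
      push_cast
      rfl
    rw [div_pow, ← hden, ← neg_div, ← hnum]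
    exact hb'

end Fermat.Agent.Lib.S15
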