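/-
Programme M (S15), node (PIECE) (helper8, prefix `s15e_`), part 6: **Kummer theory of `ℚ`** for
cocycles with values in `μ_{p'}`.

* `s15e_exists_kummer` : a map `n : G_ℚ → ℕ` of finite level with
  `n(στ) ≡ n(σ) + χ(σ) n(τ) mod p'` (i.e. `σ ↦ ζ^{n σ}` is a cocycle with values in `μ_{p'}`) has a
  Kummer generator: `β ∈ ℚ̄ˣ` with `σ β = ζ^{n σ} β`, and `β^{p'} = b ∈ ℚˣ` (Hilbert 90,
  `ptg_hilbert90_open`);
* `s15e_kummer_coboundary` : if `b` is a `p'`-th power in `ℚ`, then `n(σ) ≡ i (χ(σ) - 1)`.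
-/
import Mathlib
import Fermat.Agent.Lib.PT.BridgeL
import Fermat.Agent.Lib.PT.GLevelField
import Fermat.Agent.Lib.CFT.GalRedChi

set_option autoImplicit false
set_option linter.unusedSectionVars false
set_option linter.unusedVariables false
set_option linter.style.haveILetI false

noncomputable section

namespace Fermat.Agent.Lib.S15

open Fermat.Agent.Lib.PT Fermat.Agent.Lib.CFT

local notation "Kb" => AlgebraicClosure ℚ
local notation "GQ" => (AlgebraicClosure ℚ ≃ₐ[ℚ] AlgebraicClosure ℚ)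

section Kummer

variable (p' : ℕ) [Fact p'.Prime] {ζ : Kb} (hζ : IsPrimitiveRoot ζ p')

include hζ

/-- powers of `ζ` only depend on the exponent modulo `p'`. -/
theorem s15e_zeta_pow_eq {a b : ℕ} (hab : (a : ZMod p') = (b : ZMod p')) : ζ ^ a = ζ ^ b := by
  have hfin : IsOfFinOrder ζ :=
    isOfFinOrder_iff_pow_eq_one.mpr ⟨p', (Fact.out : p'.Prime).pos, hζ.pow_eq_one⟩
  rw [hfin.pow_eq_pow_iff_modEq, ← hζ.eq_orderOf]
  exact (ZMod.natCast_eq_natCast_iff a b p').mp hab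

theorem s15e_zeta_pow_inj {a b : ℕ} (hab : ζ ^ a = ζ ^ b) : (a : ZMod p') = (b : ZMod p') := by
  have hfin : IsOfFinOrder ζ :=
    isOfFinOrder_iff_pow_eq_one.mpr ⟨p', (Fact.out : p'.Prime).pos, hζ.pow_eq_one⟩
  rw [hfin.pow_eq_pow_iff_modEq, ← hζ.eq_orderOf] at hab
  exact (ZMod.natCast_eq_natCast_iff a b p').mpr hab

/-- **Kummer theory, existence.** -/
theorem s15e_exists_kummer (n : GQ → ℕ)
    (hcoc : ∀ σ τ : GQ, (n (σ * τ) : ZMod p') =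
      n σ + ((cff_chi p' σ : (ZMod p')ˣ) : ZMod p') * n τ)
    (F : IntermediateField ℚ Kb) [FiniteDimensional ℚ F]
    (hF : ∀ ν : GQ, ν ∈ F.fixingSubgroup → (n ν : ZMod p') = 0) :
    ∃ β : Kb, β ≠ 0 ∧ (∀ σ : GQ, σ β = ζ ^ (n σ) * β) ∧
      ∃ b : ℚ, b ≠ 0 ∧ β ^ p' = algebraMap ℚ Kb b := by
  have hp : p'.Prime := Fact.out
  haveI : NeZero p' := ⟨hp.ne_zero⟩
  haveI : F.fixingSubgroup.FiniteIndex := pta_finiteIndex_fixingSubgroup F
  haveI := Fermat.Agent.Lib.CFT.cff_isGalois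
  have hζ0 : ζ ≠ 0 := hζ.ne_zero hp.ne_zero
  let φ : (⊤ : Subgroup GQ) → Kbˣ := fun g => Units.mk0 (ζ ^ n (g : GQ)) (pow_ne_zero _ hζ0)
  obtain ⟨b₀, hb₀⟩ := ptg_hilbert90_open F (⊤ : Subgroup GQ) φ
    (fun g h => by
      apply Units.ext
      rw [Units.val_mul, AlgEquiv.smul_units_def]
      show ζ ^ n ((g : GQ) * (h : GQ)) = (g : GQ) (ζ ^ n (h : GQ)) * ζ ^ n (g : GQ)
      rw [map_pow, cff_chi_spec p' (g : GQ) hζ.pow_eq_one, ← pow_mul, ← pow_add]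
      apply s15e_zeta_pow_eq p' hζ
      rw [hcoc]
      push_cast
      rw [ZMod.natCast_zmod_val]
      ring)
    (fun g ν hν => by
      apply Units.ext
      show ζ ^ n ((g : GQ) * (ν : GQ)) = ζ ^ n (g : GQ)
      apply s15e_zeta_pow_eq p' hζ
      rw [hcoc, hF _ hν, mul_zero, add_zero])
  have hβ : ∀ σ : GQ, σ (b₀ : Kb) = ζ ^ (n σ) * (b₀ : Kb) := by
    intro σ
    have h1 := hb₀ ⟨σ, Subgroup.mem_top σ⟩
    have h2 : φ ⟨σ, Subgroup.mem_top σ⟩ * b₀ = σ • b₀ := by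
      rw [h1, div_mul_cancel]
    have h3 := congrArg (fun u : Kbˣ => (u : Kb)) h2
    simp only [Units.val_mul, AlgEquiv.smul_units_def] at h3
    exact h3.symm
  refine ⟨(b₀ : Kb), b₀.ne_zero, hβ, ?_⟩
  have hfix : ∀ σ : GQ, σ ((b₀ : Kb) ^ p') = (b₀ : Kb) ^ p' := by
    intro σ
    rw [map_pow, hβ, mul_pow, ← pow_mul, mul_comm (n σ) p', pow_mul, hζ.pow_eq_one, one_pow,
      one_mul]
  obtain ⟨b, hb⟩ := (InfiniteGalois.mem_range_algebraMap_iff_fixed ((b₀ : Kb) ^ p')).mpr hfix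
  refine ⟨b, ?_, hb.symm⟩
  rintro rfl
  rw [map_zero] at hb
  exact pow_ne_zero _ b₀.ne_zero hb.symm

/-- if the radicand is a `p'`-th power in `ℚ`, the Kummer cocycle is a coboundary. -/
theorem s15e_kummer_coboundary (n : GQ → ℕ) (β : Kb) (hβ0 : β ≠ 0)
    (hβ : ∀ σ : GQ, σ β = ζ ^ (n σ) * β) (c : ℚ) (hc : β ^ p' = algebraMap ℚ Kb (c ^ p')) :
    ∃ i : ℕ, ∀ σ : GQ, ((n σ : ZMod p') + i) =
      (i : ZMod p') * ((cff_chi p' σ : (ZMod p')ˣ) : ZMod p') := by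
  have hp : p'.Prime := Fact.out
  haveI : NeZero p' := ⟨hp.ne_zero⟩
  have hc0 : algebraMap ℚ Kb c ≠ 0 := by
    intro h
    rw [map_pow, h, zero_pow hp.ne_zero] at hc
    exact pow_ne_zero _ hβ0 hc
  -- `η = β / c` is a root of unity
  have hη : (β / algebraMap ℚ Kb c) ^ p' = 1 := by
    rw [div_pow, hc, map_pow, div_self (pow_ne_zero _ hc0)]
  obtain ⟨i, -, hi⟩ := hζ.eq_pow_of_pow_eq_one hη
  refine ⟨i, fun σ => ?_⟩
  have hβeq : β = ζ ^ i * algebraMap ℚ Kb c := by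
    rw [hi, div_mul_cancel₀ _ hc0]
  have h1 : σ β = ζ ^ (i * ((cff_chi p' σ : (ZMod p')ˣ) : ZMod p').val) * algebraMap ℚ Kb c := by
    rw [hβeq, map_mul, map_pow, σ.commutes, cff_chi_spec p' σ hζ.pow_eq_one, ← pow_mul,
      mul_comm i]
  have h2 : σ β = ζ ^ (n σ + i) * algebraMap ℚ Kb c := by
    rw [hβ σ, hβeq, pow_add, mul_assoc]
  have h3 : ζ ^ (n σ + i) = ζ ^ (i * ((cff_chi p' σ : (ZMod p')ˣ) : ZMod p').val) :=
    mul_right_cancel₀ hc0 (h2.symm.trans h1)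
  have h4 := s15e_zeta_pow_inj p' hζ h3
  push_cast at h4
  rw [ZMod.natCast_zmod_val] at h4
  exact h4

end Kummer

end Fermat.Agent.Lib.S15
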