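/-
Programme M (S15), node (PIECE) (helper8, prefix `s15e_`), part 7: **the strict Selmer group of a
piece vanishes**, given the two local facts at `p'` (`s15e_Loc1`, `s15e_LocChi`).

`V` an admissible module of order `p'`, `ξ : G_ℚ → V` a cocycle which becomes a coboundary in an
admissible module, is trivial on an inertia group at `p` and a coboundary on `⟨c⟩`.  Then `ξ` is a
coboundary:
* trivial action, `p'` odd: `ξ` is an everywhere unramified character (`s15e_Loc1` at `p'`), hence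
  trivial (Minkowski, `kwn_char_eq_one`);
* cyclotomic action (or `p' = 2`): Kummer theory gives `β`, `β^{p'} = b ∈ ℚˣ`; all valuations of `b`
  are divisible by `p'` (`s15e_padicVal_dvd_of_inertia_fixed` at `ℓ ≠ p'`, `s15e_LocChi` at `p'`), so
  `b = ± c^{p'}`; for `p' = 2` the sign is `+` since `β` is real.
-/
import Fermat.Agent.Lib.S15.EPiece3
import Fermat.Agent.Lib.S15.EPiece4
import Fermat.Agent.Lib.S15.EPiece5
import Fermat.Agent.Lib.S15.EPiece6
import Fermat.Agent.Lib.KW.Char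
import Fermat.Agent.Lib.Mz.ValConj

set_option autoImplicit false
set_option linter.unusedSectionVars false
set_option linter.unusedVariables false
set_option linter.style.haveILetI false

noncomputable section

namespace Fermat.Agent.Lib.S15

open Fermat.Agent.Lib.S19 Fermat.Agent.Lib.S29 Fermat.Agent.Lib.CFT Fermat.Agent.Lib.Mz
  Fermat.Agent.Lib.KW

local notation "Kb" => AlgebraicClosure ℚ
local notation "GQ" => (AlgebraicClosure ℚ ≃ₐ[ℚ] AlgebraicClosure ℚ)

/-- **(LOC-1)** a flat extension of `ℤ/p'` by `ℤ/p'` killed by `p'` is unramified at `p'`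
(`p'` odd). -/
def s15e_Loc1 (p' : ℕ) : Prop :=
  ∀ (E : Type) [AddCommGroup E] [Finite E] [DistribMulAction GQ E],
    (∃ H, s19_IsOrder p' E H) → (∀ w : E, p' • w = 0) →
    ∀ v₀ f : E, v₀ ≠ 0 → (∀ σ : GQ, σ • v₀ = v₀) →
    (∀ w : E, ∃ a b : ℕ, w = a • v₀ + b • f) →
    (∀ b : ℕ, (∃ a : ℕ, b • f = a • v₀) → p' ∣ b) →
    (∀ σ : GQ, ∃ n : ℕ, σ • f - f = n • v₀) →
    ∀ A : ValuationSubring Kb, A.LiesOverPrime p' → ∀ σ ∈ A.inertiaSubgroupIn ℚ, σ • f = f

/-- **(LOC-χ)** the Kummer class of a flat extension of `ℤ/p'` by `μ_{p'}` killed by `p'` is a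
unit class at `p'`. -/
def s15e_LocChi (p' : ℕ) [Fact p'.Prime] : Prop :=
  ∀ (E : Type) [AddCommGroup E] [Finite E] [DistribMulAction GQ E],
    (∃ H, s19_IsOrder p' E H) → (∀ w : E, p' • w = 0) →
    ∀ v₀ f : E, v₀ ≠ 0 →
    (∀ σ : GQ, σ • v₀ = ((cff_chi p' σ : (ZMod p')ˣ) : ZMod p').val • v₀) →
    (∀ w : E, ∃ a b : ℕ, w = a • v₀ + b • f) →
    (∀ b : ℕ, (∃ a : ℕ, b • f = a • v₀) → p' ∣ b) →
    ∀ (ζ β : Kb) (b : ℚ), IsPrimitiveRoot ζ p' → b ≠ 0 → β ^ p' = algebraMap ℚ Kb b →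
    (∀ σ : GQ, ∃ n : ℕ, σ • f - f = n • v₀ ∧ σ β = ζ ^ n * β) →
    (p' : ℤ) ∣ padicValRat p' b

section Core

variable {S : Finset ℕ} {p p' : ℕ} [Fact p'.Prime]
  {V : Type} [AddCommGroup V] [Finite V] [DistribMulAction GQ V]

/-- natural-number multiples of a non-zero element exhaust a module of prime order. -/
theorem s15e_piece_gen_nat (hcard : Nat.card V = p') {u : V} (hu : u ≠ 0) (v : V) :
    ∃ a : ℕ, v = a • u := by
  have hp : p'.Prime := Fact.out
  obtain ⟨k, rfl⟩ := s15e_piece_gen hcard hu v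
  refine ⟨(k % p').toNat, ?_⟩
  have h1 : k = (k % p') + p' * (k / p') := (Int.emod_add_mul_ediv k p').symm
  have h2 : 0 ≤ k % (p' : ℤ) := Int.emod_nonneg k (by exact_mod_cast hp.ne_zero)
  conv_lhs => rw [h1]
  rw [add_smul, mul_smul, natCast_zsmul, s15e_piece_kill hcard, add_zero, ← natCast_zsmul,
    Int.toNat_of_nonneg h2]

/-- equality of multiples of a non-zero element of a module killed by `p'`. -/
theorem s15e_cast_eq_of_nsmul_eq (hkill : ∀ v : V, p' • v = 0) {u : V} (hu : u ≠ 0) {a b : ℕ}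
    (h : a • u = b • u) : (a : ZMod p') = (b : ZMod p') := by
  have h1 : addOrderOf u = p' := addOrderOf_eq_prime (hkill u) hu
  rw [nsmul_eq_nsmul_iff_modEq, h1] at h
  exact (ZMod.natCast_eq_natCast_iff a b p').mpr h

/-- **the strict Selmer group of a piece vanishes** (cocycle form). -/
theorem s15e_cocycle_coboundary (hp : p.Prime) (hpp' : p ≠ p')
    (hloc1 : p' ≠ 2 → s15e_Loc1 p') (hlocχ : s15e_LocChi p')
    (A : ValuationSubring Kb) (hA : A.LiesOverPrime p)
    (hVadm : s15e_IsAdm S p p' V) (hcard : Nat.card V = p') (ξ : GQ → V)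
    (hcoc : ∀ σ τ : GQ, ξ (σ * τ) = ξ σ + σ • ξ τ)
    (F : IntermediateField ℚ Kb) (hFfd : FiniteDimensional ℚ F)
    (hF : ∀ ν : GQ, (∀ y ∈ F, ν y = y) → ξ ν = 0)
    (hunr : ∀ ℓ : ℕ, ℓ.Prime → ℓ ≠ p → ℓ ≠ p' → ∀ A' : ValuationSubring Kb, A'.LiesOverPrime ℓ →
      ∀ τ ∈ A'.inertiaSubgroupIn ℚ, ξ τ = 0)
    (hstrp : ∀ τ ∈ A.inertiaSubgroupIn ℚ, ξ τ = 0)
    (hstrc : ∃ v₂ : V, ξ complexConjugation = complexConjugation • v₂ - v₂)
    (E₁ : Type) [AddCommGroup E₁] [Finite E₁] [DistribMulAction GQ E₁]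
    (hE₁ : s15e_IsAdm S p p' E₁) (hkill₁ : ∀ w : E₁, p' • w = 0) (j₁ : V →+ E₁)
    (hj₁s : ∀ (σ : GQ) (v : V), j₁ (σ • v) = σ • j₁ v) (hj₁inj : Function.Injective j₁)
    (f : E₁) (hf : ∀ σ : GQ, j₁ (ξ σ) = σ • f - f)
    (hindep : ∀ b : ℕ, (∃ v, j₁ v = b • f) → p' ∣ b)
    (hgen : ∀ w : E₁, ∃ (v : V) (b : ℕ), w = j₁ v + b • f) :
    ∃ w : V, ∀ σ : GQ, ξ σ = σ • w - w := by
  classical
  have hp' : p'.Prime := Fact.out
  haveI : NeZero p' := ⟨hp'.ne_zero⟩
  have hkill := s15e_piece_kill (V := V) hcard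
  have hnt : Nontrivial V := by
    apply (Finite.one_lt_card_iff_nontrivial).mp
    rw [hcard]
    exact hp'.one_lt
  obtain ⟨v₀, hv₀⟩ := exists_ne (0 : V)
  have hgenV : ∀ v : V, ∃ a : ℕ, v = a • v₀ := s15e_piece_gen_nat hcard hv₀
  choose n hn using fun σ => hgenV (ξ σ)
  have hjv₀ : j₁ v₀ ≠ 0 := fun h => hv₀ (hj₁inj (by rw [h, map_zero]))
  -- the data of `E₁` in the shape of the local hypotheses
  have hgen' : ∀ w : E₁, ∃ a b : ℕ, w = a • j₁ v₀ + b • f := by
    intro w
    obtain ⟨v, b, rfl⟩ := hgen w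
    obtain ⟨a, rfl⟩ := hgenV v
    exact ⟨a, b, by rw [map_nsmul]⟩
  have hindep' : ∀ b : ℕ, (∃ a : ℕ, b • f = a • j₁ v₀) → p' ∣ b := by
    rintro b ⟨a, ha⟩
    exact hindep b ⟨a • v₀, by rw [map_nsmul, ha]⟩
  have hfn : ∀ σ : GQ, σ • f - f = n σ • j₁ v₀ := by
    intro σ
    rw [← hf, hn σ, map_nsmul]
  have hξ0 : ∀ τ : GQ, ξ τ = 0 → (n τ : ZMod p') = 0 := by
    intro τ hτ
    have h1 : n τ • v₀ = 0 • v₀ := by rw [← hn, hτ, zero_smul]
    have := s15e_cast_eq_of_nsmul_eq hkill hv₀ h1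
    rwa [Nat.cast_zero] at this
  -- the Kummer branch
  have hmain : (∀ (σ : GQ) (v : V), σ • v = ((cff_chi p' σ : (ZMod p')ˣ) : ZMod p').val • v) →
      ∃ w : V, ∀ σ : GQ, ξ σ = σ • w - w := by
    intro hchi
    obtain ⟨ζ, hζ⟩ := s29y_exists_primitiveRoot p'
    have hcocn : ∀ σ τ : GQ, (n (σ * τ) : ZMod p') =
        n σ + ((cff_chi p' σ : (ZMod p')ˣ) : ZMod p') * n τ := by
      intro σ τ
      have h1 : n (σ * τ) • v₀ =
          (n σ + ((cff_chi p' σ : (ZMod p')ˣ) : ZMod p').val * n τ) • v₀ := by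
        rw [← hn, hcoc, hn σ, hn τ, hchi, add_smul, mul_smul]
      have h2 := s15e_cast_eq_of_nsmul_eq hkill hv₀ h1
      push_cast at h2
      rw [ZMod.natCast_zmod_val] at h2
      exact h2
    haveI := hFfd
    obtain ⟨β, hβ0, hβ, b, hb0, hbβ⟩ := s15e_exists_kummer p' hζ n hcocn F
      (fun ν hν => hξ0 ν (hF ν ((IntermediateField.mem_fixingSubgroup_iff F ν).mp hν)))
    have hfixβ : ∀ τ : GQ, ξ τ = 0 → τ β = β := by
      intro τ hτ
      rw [hβ τ, s15e_zeta_pow_eq p' hζ (a := n τ) (b := 0) (by rw [hξ0 τ hτ, Nat.cast_zero]),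
        pow_zero, one_mul]
    -- all valuations of `b` are divisible by `p'`
    have hval : ∀ ℓ : ℕ, ℓ.Prime → (p' : ℤ) ∣ padicValRat ℓ b := by
      intro ℓ hℓ
      by_cases hℓp' : ℓ = p'
      · subst hℓp'
        exact hlocχ E₁ hE₁.flat hkill₁ (j₁ v₀) f hjv₀
          (fun σ => by rw [← hj₁s, hchi, map_nsmul]) hgen' hindep' ζ β b hζ hb0 hbβ
          (fun σ => ⟨n σ, hfn σ, hβ σ⟩)
      · by_cases hℓp : ℓ = p
        · subst hℓp
          exact s15e_padicVal_dvd_of_inertia_fixed hℓ hp' hℓp' A hA β b hb0 hbβ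
            (fun τ hτ => hfixβ τ (hstrp τ hτ))
        · obtain ⟨A', hA'⟩ := Fermat.Agent.Lib.Frobenius.exists_liesOverPrime ℓ hℓ
          exact s15e_padicVal_dvd_of_inertia_fixed hℓ hp' hℓp' A' hA' β b hb0 hbβ
            (fun τ hτ => hfixβ τ (hunr ℓ hℓ hℓp hℓp' A' hA' τ hτ))
    obtain ⟨c, hc0, hcb⟩ := s15e_rat_eq_pow p' b hb0 hval
    -- `b` is a `p'`-th power
    have hpow : ∃ c' : ℚ, b = c' ^ p' := by
      by_cases h2 : p' = 2
      · rcases hcb with h | h
        · exact ⟨c, h⟩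
        · exfalso
          -- `β` is real
          obtain ⟨v₂, hv₂⟩ := hstrc
          have hc1 : ξ complexConjugation = 0 := by
            rw [hv₂, hchi]
            have hu : ((cff_chi p' complexConjugation : (ZMod p')ˣ) : ZMod p') = 1 := by
              subst h2
              rw [s15e_zmod_two_units (cff_chi 2 complexConjugation), Units.val_one]
            rw [hu]
            have : ((1 : ZMod p').val : ZMod p') = ((1 : ℕ) : ZMod p') := by
              rw [ZMod.natCast_zmod_val, Nat.cast_one]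
            rw [s15e_nsmul_eq_of_cast_eq p' hkill this v₂, one_smul, sub_self]
          have hreal := hfixβ _ hc1
          have h3 := congrArg complexEmbedding hreal
          rw [complexEmbedding_complexConjugation] at h3
          obtain ⟨r, hr⟩ := Complex.conj_eq_iff_real.mp h3
          have h4 : ((r ^ 2 : ℝ) : ℂ) = ((b : ℝ) : ℂ) := by
            have h5 := congrArg complexEmbedding hbβ
            rw [map_pow, hr, AlgHom.commutes, h2] at h5
            rw [Complex.ofReal_pow, h5]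
            simp
          have h6 : r ^ 2 = (b : ℝ) := Complex.ofReal_injective h4
          have h7 : (0 : ℝ) ≤ (b : ℝ) := by rw [← h6]; positivity
          have h8 : (b : ℝ) < 0 := by
            rw [h, h2]
            push_cast
            have : (0 : ℝ) < (c : ℝ) ^ 2 := by
              have hc0' : (c : ℝ) ≠ 0 := by exact_mod_cast hc0
              positivity
            linarith
          linarith
      · rcases hcb with h | h
        · exact ⟨c, h⟩
        · refine ⟨-c, ?_⟩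
          have hodd : Odd p' := hp'.odd_of_ne_two h2
          rw [hodd.neg_pow]
          exact h
    obtain ⟨c', hc'⟩ := hpow
    obtain ⟨i, hi⟩ := s15e_kummer_coboundary p' hζ n β hβ0 hβ c' (by rw [hbβ, hc'])
    refine ⟨i • v₀, fun σ => ?_⟩
    rw [hchi, eq_sub_iff_add_eq, hn σ, ← add_smul, ← mul_smul]
    refine s15e_nsmul_eq_of_cast_eq p' hkill ?_ v₀
    push_cast
    rw [ZMod.natCast_zmod_val, hi σ, mul_comm]
  rcases s15e_piece_dichotomy hVadm hcard with htriv | hchi
  · by_cases h2 : p' = 2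
    · refine hmain (fun σ v => ?_)
      rw [htriv]
      have hu : ((cff_chi p' σ : (ZMod p')ˣ) : ZMod p') = 1 := by
        subst h2
        rw [s15e_zmod_two_units (cff_chi 2 σ), Units.val_one]
      rw [hu]
      have : ((1 : ZMod p').val : ZMod p') = ((1 : ℕ) : ZMod p') := by
        rw [ZMod.natCast_zmod_val, Nat.cast_one]
      rw [s15e_nsmul_eq_of_cast_eq p' hkill this v, one_smul]
    · -- Minkowski
      have hξ1 : ξ 1 = 0 := by
        have := hcoc 1 1
        rw [mul_one, one_smul] at this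
        exact left_eq_add.mp this
      let χ₀ : GQ →* Multiplicative V :=
        { toFun := fun σ => Multiplicative.ofAdd (ξ σ)
          map_one' := by rw [hξ1]; rfl
          map_mul' := fun σ τ => by
            rw [hcoc, htriv]
            rfl }
      have hχ₀ : ∀ σ : GQ, χ₀ σ = 1 ↔ ξ σ = 0 := fun σ => Iff.rfl
      have hone : χ₀ = 1 := by
        refine kwn_char_eq_one χ₀ ⟨F, hFfd, fun ν hν => ?_⟩ ?_
        · rw [MonoidHom.mem_ker, hχ₀]
          exact hF ν ((IntermediateField.mem_fixingSubgroup_iff F ν).mp hν)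
        · intro ℓ hℓ A' hA' τ hτ
          rw [MonoidHom.mem_ker, hχ₀]
          by_cases hℓp' : ℓ = p'
          · subst hℓp'
            have h1 := hloc1 h2 E₁ hE₁.flat hkill₁ (j₁ v₀) f hjv₀
              (fun σ => by rw [← hj₁s, htriv]) hgen' hindep' (fun σ => ⟨n σ, hfn σ⟩) A' hA' τ hτ
            apply hj₁inj
            rw [hf, h1, sub_self, map_zero]
          · by_cases hℓp : ℓ = p
            · subst hℓp
              obtain ⟨g, hg⟩ := ptm_inertia_conj hℓ A A' hA hA'
              have h1 := hstrp _ (hg τ hτ)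
              rw [← hχ₀, map_mul, map_mul, map_inv, mul_comm (χ₀ g), mul_assoc, mul_inv_cancel,
                mul_one, hχ₀] at h1
              exact h1
            · exact hunr ℓ hℓ hℓp hℓp' A' hA' τ hτ
      refine ⟨0, fun σ => ?_⟩
      rw [smul_zero, sub_zero, ← hχ₀, hone]
      rfl
  · exact hmain hchi

end Core

end Fermat.Agent.Lib.S15
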