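/-
Programme M (S15), node (PIECE)-local (helper8, prefix `s15e_`), part 1: **(LOC-1)**.

A finite flat extension of `ℤ/p'` by `ℤ/p'` over `ℚ` killed by `p'` is unramified at `p'`
(`p'` odd).  Proof: an order gives a finite flat Hopf algebra (`s19c_hopf_main`); the reduction
kernel `U` of its points contains `(σ - 1) f = n • v₀` for `σ` in the inertia group
(`s56o_redKer_inertia`), this element is fixed by inertia and killed by `p'`, hence zero by the
"small points" lemma (`s56o_redKer_spq` with `Z = ⊥`).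
-/
import Fermat.Agent.Lib.S15.EPiece7
import Fermat.Agent.Lib.S19.CHopfD
import Fermat.Agent.Lib.S56.FHopf

set_option autoImplicit false
set_option linter.unusedSectionVars false
set_option linter.unusedVariables false
set_option linter.style.haveILetI false

noncomputable section

namespace Fermat.Agent.Lib.S15

open Fermat.Agent.Lib.S19 Fermat.Agent.Lib.S56

local notation "Kb" => AlgebraicClosure ℚ
local notation "GQ" => (AlgebraicClosure ℚ ≃ₐ[ℚ] AlgebraicClosure ℚ)

/-- **(LOC-1)**, for odd `p'`. -/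
theorem s15e_loc1 (p' : ℕ) [Fact p'.Prime] (hp2 : p' ≠ 2) : s15e_Loc1 p' := by
  intro E _ _ _ hord hkill v₀ f hv₀ hv₀fix hgen hindep hcoc A hA σ hσ
  have hp : p'.Prime := Fact.out
  obtain ⟨H₀, hH₀⟩ := hord
  obtain ⟨H, instCR, instHopf, hfin, hflat, hcc, e, hmul, hequiv⟩ :=
    s19c_hopf_main p' E H₀ hH₀
  let act : GQ →* AddMonoid.End E := DistribMulAction.toAddMonoidEnd GQ E
  have hact : ∀ (τ : GQ) (x : E), act τ x = τ • x := fun τ x => rfl
  have hequiv' : ∀ (τ : GQ) (g₁ g₂ : WithConv (H →ₐ[↥(GaloisRep.ratLocalizedAt p')] Kb)),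
      (∀ h : H, g₂ h = τ (g₁ h)) → e g₂ = act τ (e g₁) := fun τ g₁ g₂ h => hequiv τ g₁ g₂ h
  have h1 : act σ f - f ∈ s56o_redKer hp hA e hmul :=
    s56o_redKer_inertia e hmul act hequiv' hp hA hσ f
  have h2 : act σ f - f ∈ (⊥ : AddSubgroup E) := by
    refine s56o_redKer_spq e hmul act hequiv' hp hA hp2 ⊥ ?_ h1 (hkill _) ?_
    · intro τ _ z hz
      rw [AddSubgroup.mem_bot] at hz ⊢
      rw [hz, map_zero]
    · intro τ _
      rw [AddSubgroup.mem_bot, hact σ f]
      obtain ⟨n, hn⟩ := hcoc σ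
      rw [hn, hact, smul_comm, hv₀fix, sub_self]
  rw [AddSubgroup.mem_bot, hact, sub_eq_zero] at h2
  exact h2

end Fermat.Agent.Lib.S15
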