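/-
Programme M (S15), node (PIECE)-local (helper8, prefix `s15e_`), part 2: **auxiliary facts for
(LOC-χ)**.

* `s15e_vQ_one_add` : `v(1 + ℓ w) = 0` for `w` integral;
* `s15e_vQ_prod_const` : `v(∏_{y ∈ S} y) = |S| • a` if `v y = a` on `S`;
* `s15e_orbit_norm` : the norm over the orbit under the decomposition group `D` of an element `z`
  fixed by `D ∩ G₁` (`G₁` normal of finite index) is `D`-fixed of valuation `c • v z`, `c ∣ [G : G₁]`;
* `s15e_cyc_finite`, `s15e_cyc_normal`, `s15e_cyc_finrank_le` : the field `ℚ(ζ_{p'})`.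
-/
import Fermat.Agent.Lib.S15.EPiece4

set_option autoImplicit false
set_option linter.unusedSectionVars false
set_option linter.unusedVariables false
set_option linter.style.haveILetI false

noncomputable section

namespace Fermat.Agent.Lib.S15

open Fermat.Agent.Lib.Frey

local notation "Kb" => AlgebraicClosure ℚ
local notation "GQ" => (AlgebraicClosure ℚ ≃ₐ[ℚ] AlgebraicClosure ℚ)

section Val

variable {ℓ : ℕ} (hℓ : ℓ.Prime) {P : ValuationSubring Kb} (hP : (ℓ : Kb) ∈ P.nonunits)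

/-- `v(1 + ℓ w) = 0` for integral `w`. -/
theorem s15e_vQ_one_add {w : Kb} (hw : w ∈ P) :
    ford_vQ P hℓ hP (1 + (ℓ : Kb) * w) = 0 := by
  have h1 : (ℓ : Kb) * w ∈ P.nonunits := by
    rw [← ford_vQ_pos_iff hℓ hP, AddValuation.map_mul, ford_vQ_q]
    have h2 : 0 ≤ ford_vQ P hℓ hP w := (ford_vQ_nonneg_iff hℓ hP w).mpr hw
    calc (0 : WithTop ℚ) < 1 := zero_lt_one
      _ ≤ 1 + ford_vQ P hℓ hP w := le_add_of_nonneg_right h2
  have h3 : (1 + (ℓ : Kb) * w) ∈ P := P.add_mem _ _ P.one_mem (P.nonunits_le h1)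
  have h4 : (1 + (ℓ : Kb) * w) ∉ P.nonunits := by
    intro h5
    have h6 : (1 : Kb) ∈ P.nonunits := by
      have h7 : (1 : Kb) = (1 + (ℓ : Kb) * w) - (ℓ : Kb) * w := by ring
      rw [h7, ← ford_vQ_pos_iff hℓ hP]
      have h8 : 0 < ford_vQ P hℓ hP (1 + (ℓ : Kb) * w) := (ford_vQ_pos_iff hℓ hP _).mpr h5
      have h9 : 0 < ford_vQ P hℓ hP ((ℓ : Kb) * w) := (ford_vQ_pos_iff hℓ hP _).mpr h1
      exact lt_of_lt_of_le (lt_min h8 h9) (AddValuation.map_sub _ _ _)
    rw [ValuationSubring.mem_nonunits_iff] at h6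
    rw [map_one] at h6
    exact lt_irrefl _ h6
  have h5 : 0 ≤ ford_vQ P hℓ hP (1 + (ℓ : Kb) * w) := (ford_vQ_nonneg_iff hℓ hP _).mpr h3
  have h6 : ¬ 0 < ford_vQ P hℓ hP (1 + (ℓ : Kb) * w) := fun h => h4 ((ford_vQ_pos_iff hℓ hP _).mp h)
  exact le_antisymm (not_lt.mp h6) h5

/-- the valuation of a product of elements of the same valuation. -/
theorem s15e_vQ_prod_const (S : Finset Kb) (a : WithTop ℚ)
    (hS : ∀ y ∈ S, ford_vQ P hℓ hP y = a) :
    ford_vQ P hℓ hP (∏ y ∈ S, y) = S.card • a := by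
  classical
  induction S using Finset.induction_on with
  | empty => rw [Finset.prod_empty, AddValuation.map_one, Finset.card_empty, zero_smul]
  | insert y S hy ih =>
    rw [Finset.prod_insert hy, AddValuation.map_mul, Finset.card_insert_of_notMem hy,
      ih (fun y' hy' => hS y' (Finset.mem_insert_of_mem hy')),
      hS y (Finset.mem_insert_self y S), succ_nsmul, add_comm]

/-- **the norm over the orbit under the decomposition group.** -/
theorem s15e_orbit_norm (G₁ : Subgroup GQ) [G₁.Normal] [G₁.FiniteIndex] (z : Kb) (hz0 : z ≠ 0)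
    (hz : ∀ g ∈ P.decompositionSubgroup ℚ, g ∈ G₁ → g z = z) :
    ∃ (N : Kb) (c : ℕ), N ≠ 0 ∧ c ≠ 0 ∧ c ∣ G₁.index ∧
      (∀ g ∈ P.decompositionSubgroup ℚ, g N = N) ∧
      ford_vQ P hℓ hP N = c • ford_vQ P hℓ hP z := by
  classical
  set D : Subgroup GQ := P.decompositionSubgroup ℚ with hD
  set O : Set Kb := MulAction.orbit ↥D z with hO
  have hsmul : ∀ (g : ↥D) (y : Kb), g • y = (g : GQ) y := fun g y => rfl
  have hmemO : ∀ y : Kb, y ∈ O ↔ ∃ g ∈ D, g z = y := by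
    intro y
    constructor
    · rintro ⟨g, rfl⟩
      exact ⟨(g : GQ), g.2, rfl⟩
    · rintro ⟨g, hg, rfl⟩
      exact ⟨⟨g, hg⟩, rfl⟩
  -- the index of the stabilizer
  have hle : G₁.subgroupOf D ≤ MulAction.stabilizer ↥D z := by
    intro g hg
    rw [MulAction.mem_stabilizer_iff, hsmul]
    exact hz (g : GQ) g.2 (Subgroup.mem_subgroupOf.mp hg)
  have hdvd1 : (MulAction.stabilizer ↥D z).index ∣ (G₁.subgroupOf D).index :=
    Subgroup.index_dvd_of_le hle
  have hdvd2 : (G₁.subgroupOf D).index ∣ G₁.index := Subgroup.relIndex_dvd_index_of_normal G₁ D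
  have hdvd : O.ncard ∣ G₁.index := by
    rw [hO, ← MulAction.index_stabilizer]
    exact hdvd1.trans hdvd2
  have hne : O.ncard ≠ 0 := by
    intro h0
    rw [h0, zero_dvd_iff] at hdvd
    exact Subgroup.FiniteIndex.index_ne_zero hdvd
  have hfin : O.Finite := Set.finite_of_ncard_ne_zero hne
  set S : Finset Kb := hfin.toFinset with hS
  have hmemS : ∀ y : Kb, y ∈ S ↔ ∃ g ∈ D, g z = y := by
    intro y
    rw [hS, Set.Finite.mem_toFinset]
    exact hmemO y
  refine ⟨∏ y ∈ S, y, O.ncard, ?_, hne, hdvd, ?_, ?_⟩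
  · rw [Finset.prod_ne_zero_iff]
    intro y hy
    obtain ⟨g, _, rfl⟩ := (hmemS y).mp hy
    exact (map_ne_zero g).mpr hz0
  · intro g hg
    rw [map_prod]
    refine Finset.prod_nbij (fun y => g y) ?_ ?_ ?_ (fun _ _ => rfl)
    · intro y hy
      obtain ⟨h, hh, rfl⟩ := (hmemS y).mp hy
      exact (hmemS _).mpr ⟨g * h, D.mul_mem hg hh, rfl⟩
    · intro y _ y' _ hyy'
      exact g.injective hyy'
    · intro y hy
      obtain ⟨h, hh, rfl⟩ := (hmemS y).mp (Finset.mem_coe.mp hy)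
      refine ⟨(g⁻¹ * h) z, Finset.mem_coe.mpr ((hmemS _).mpr
        ⟨g⁻¹ * h, D.mul_mem (D.inv_mem hg) hh, rfl⟩), ?_⟩
      show g ((g⁻¹ * h) z) = h z
      rw [AlgEquiv.mul_apply, ← AlgEquiv.mul_apply, mul_inv_cancel, AlgEquiv.one_apply]
  · rw [s15e_vQ_prod_const hℓ hP S (ford_vQ P hℓ hP z), hS, ← Set.ncard_eq_toFinset_card O hfin]
    intro y hy
    obtain ⟨g, hg, rfl⟩ := (hmemS y).mp hy
    exact ford_vQ_decomposition hℓ hP g hg z

end Val

/-! ### the field `ℚ(ζ_{p'})` -/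

section Cyc

variable {p' : ℕ} (hp : p'.Prime) {ζ : Kb} (hζ : IsPrimitiveRoot ζ p')

theorem s15e_cyc_integral (x : Kb) : IsIntegral ℚ x :=
  ((AlgebraicClosure.isAlgebraic ℚ).isAlgebraic x).isIntegral

theorem s15e_cyc_finite : FiniteDimensional ℚ ↥(IntermediateField.adjoin ℚ ({ζ} : Set Kb)) :=
  IntermediateField.adjoin.finiteDimensional (s15e_cyc_integral ζ)

include hp hζ in
theorem s15e_cyc_normal : Normal ℚ ↥(IntermediateField.adjoin ℚ ({ζ} : Set Kb)) := by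
  have hcl : IsAlgClosure ℚ Kb := ⟨inferInstance, AlgebraicClosure.isAlgebraic ℚ⟩
  have hn : Normal ℚ Kb := IsAlgClosure.normal ℚ Kb
  refine (IntermediateField.normal_iff_forall_map_le' (F := ℚ) (L := Kb)
    (K := IntermediateField.adjoin ℚ ({ζ} : Set Kb))).2 ?_
  intro σ
  rw [IntermediateField.adjoin_map, IntermediateField.adjoin_le_iff]
  rintro _ ⟨y, hy, rfl⟩
  rw [Set.mem_singleton_iff] at hy
  subst hy
  have h1 : (σ y) ^ p' = 1 := by
    show ((σ : Kb →ₐ[ℚ] Kb) y) ^ p' = 1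
    rw [← map_pow, hζ.pow_eq_one, map_one]
  haveI : NeZero p' := ⟨hp.ne_zero⟩
  obtain ⟨i, _, hi⟩ := hζ.eq_pow_of_pow_eq_one h1
  show (σ : Kb →ₐ[ℚ] Kb) y ∈ _
  have h2 : (σ : Kb →ₐ[ℚ] Kb) y = y ^ i := hi.symm
  rw [h2]
  exact pow_mem (IntermediateField.subset_adjoin ℚ _ (Set.mem_singleton y)) i

include hp hζ in
theorem s15e_cyc_finrank_le :
    Module.finrank ℚ ↥(IntermediateField.adjoin ℚ ({ζ} : Set Kb)) ≤ p' - 1 := by
  haveI : NeZero (p' : Kb) := ⟨by exact_mod_cast hp.ne_zero⟩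
  rw [IntermediateField.adjoin.finrank (s15e_cyc_integral ζ)]
  have h1 : Polynomial.aeval ζ (Polynomial.cyclotomic p' ℚ) = 0 := by
    rw [Polynomial.aeval_def, Polynomial.eval₂_eq_eval_map, Polynomial.map_cyclotomic]
    exact (Polynomial.isRoot_cyclotomic_iff).mpr hζ
  have h2 : minpoly ℚ ζ ∣ Polynomial.cyclotomic p' ℚ := minpoly.dvd ℚ ζ h1
  have h3 := Polynomial.natDegree_le_of_dvd h2 (Polynomial.cyclotomic_ne_zero p' ℚ)
  rw [Polynomial.natDegree_cyclotomic, Nat.totient_prime hp] at h3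
  exact h3

end Cyc

end Fermat.Agent.Lib.S15
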