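/-
Programme M (S15), node (PIECE)-local (helper8, prefix `s15e_`), part 3: **(LOC-χ)**.

A finite flat extension `0 → μ_{p'} → E → ℤ/p' → 0` over `ℚ` killed by `p'`, with Kummer class
`b ∈ ℚˣ/p'`, has `p' ∣ v_{p'}(b)`.  Proof: an order gives a finite flat Hopf algebra `H`
(`s19c_hopf_main`) whose point field `L` has Fontaine's property `(P_m)` for `m > p'/(p'-1)`
(`s56l_Pm_points`); `β = b^{1/p'} ∈ L(ζ)`, so by the Kummer bound (`s56r_ifaceKummer`)
`b = z^{p'} (1 + p' w)` with `z, w` in the henselisation of `K₁ = ℚ(ζ)` at `p'`, `w` integral.  So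
`v(b) = p' v(z)`, and the norm of `z` to the decomposition field has integral valuation
`c • v(z)` with `c ∣ [K₁ : ℚ] ≤ p' - 1`.
-/
import Fermat.Agent.Lib.S15.EPiece7
import Fermat.Agent.Lib.S15.ELoc2
import Fermat.Agent.Lib.S19.CHopfD
import Fermat.Agent.Lib.S56.LFlat
import Fermat.Agent.Lib.S56.RFinal

set_option autoImplicit false
set_option linter.unusedSectionVars false
set_option linter.unusedVariables false
set_option linter.style.haveILetI false

noncomputable section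

namespace Fermat.Agent.Lib.S15

open Fermat.Agent.Lib.S19 Fermat.Agent.Lib.S56 Fermat.Agent.Lib.CFT Fermat.Agent.Lib.Frey
  Fermat.Agent.Lib.PT GaloisRep

local notation "Kb" => AlgebraicClosure ℚ
local notation "GQ" => (AlgebraicClosure ℚ ≃ₐ[ℚ] AlgebraicClosure ℚ)

/-- the arithmetic end of (LOC-χ): `b = z^{p'}(1 + p' w)` with `z` in the henselisation of
`ℚ(ζ_{p'})` forces `p' ∣ v_{p'}(b)`. -/
theorem s15e_locChi_arith {p' : ℕ} (hp : p'.Prime) (P : ValuationSubring Kb)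
    (hP : P.LiesOverPrime p') {ζ : Kb} (hζ : IsPrimitiveRoot ζ p') (b : ℚ) (hb : b ≠ 0)
    (z w : Kb)
    (hz : ∀ g ∈ P.decompositionSubgroup ℚ,
      (∀ x ∈ IntermediateField.adjoin ℚ ({ζ} : Set Kb), g x = x) → g z = z)
    (hw : w ∈ P) (hbz : algebraMap ℚ Kb b = z ^ p' * (1 + (p' : Kb) * w)) :
    (p' : ℤ) ∣ padicValRat p' b := by
  haveI := Fermat.Agent.Lib.Frobenius.isGalois_QBar
  have hP' : (p' : Kb) ∈ P.nonunits := hP
  set v := ford_vQ P hp hP' with hv
  set K₁ : IntermediateField ℚ Kb := IntermediateField.adjoin ℚ ({ζ} : Set Kb) with hK₁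
  haveI hK₁fin : FiniteDimensional ℚ ↥K₁ := s15e_cyc_finite
  haveI hK₁norm : Normal ℚ ↥K₁ := s15e_cyc_normal hp hζ
  have hz0 : z ≠ 0 := by
    rintro rfl
    rw [zero_pow hp.ne_zero, zero_mul] at hbz
    exact hb ((map_eq_zero (algebraMap ℚ Kb)).mp hbz)
  -- `v b = p' • v z`
  have h1 : ((padicValRat p' b : ℚ) : WithTop ℚ) = p' • v z := by
    rw [← ford_vQ_algebraMap hp hP' hb, hbz, AddValuation.map_mul, AddValuation.map_pow,
      s15e_vQ_one_add hp hP' hw, add_zero]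
  -- the norm
  set G₁ : Subgroup GQ := K₁.fixingSubgroup with hG₁
  have hK₁gal : IsGalois ℚ ↥K₁ := ⟨⟩
  haveI : G₁.Normal := @IsGalois.fixingSubgroup_normal_of_isGalois ℚ Kb _ _ _ K₁ _ hK₁gal
  have hidx : G₁.index = Module.finrank ℚ ↥K₁ :=
    (IntermediateField.finrank_eq_fixingSubgroup_index (F := ℚ) (E' := Kb) K₁).symm
  have hfr : 0 < Module.finrank ℚ ↥K₁ := Module.finrank_pos
  haveI : G₁.FiniteIndex := ⟨by rw [hidx]; exact hfr.ne'⟩
  obtain ⟨N, c, hN0, hc0, hcdvd, hNfix, hvN⟩ := s15e_orbit_norm hp hP' G₁ z hz0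
    (fun g hg hg₁ => hz g hg ((IntermediateField.mem_fixingSubgroup_iff K₁ g).mp hg₁))
  obtain ⟨φ, hφ⟩ := Fermat.Agent.Lib.Frobenius.exists_isFrobeniusAt_of_liesOverPrime P p' hp hP
  obtain ⟨k, hk⟩ := s15e_vQ_int_of_fixed hp hP' φ hφ N hN0
    (hNfix φ hφ.mem_decompositionSubgroup)
    (fun τ hτ => hNfix τ (by
      obtain ⟨g, -, rfl⟩ := Subgroup.mem_map.mp hτ
      exact g.2))
  -- `c < p'`
  have hcle : c ≤ p' - 1 := by
    have h2 : c ≤ G₁.index := Nat.le_of_dvd (by rw [hidx]; exact hfr) hcdvd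
    rw [hidx] at h2
    exact h2.trans (s15e_cyc_finrank_le hp hζ)
  have hcop : Nat.Coprime p' c := by
    rw [Nat.Prime.coprime_iff_not_dvd hp]
    intro hdvd
    have := Nat.le_of_dvd (Nat.pos_of_ne_zero hc0) hdvd
    have h3 := hp.one_lt
    omega
  -- conclude in `ℚ`
  have hvz : v z ≠ ⊤ := fun h => hz0 ((AddValuation.top_iff v).mp h)
  obtain ⟨r, hr⟩ := WithTop.ne_top_iff_exists.mp hvz
  rw [← hr] at h1
  rw [hvN, ← hr] at hk
  have h1' : (padicValRat p' b : ℚ) = (p' : ℚ) * r := by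
    have : ((padicValRat p' b : ℚ) : WithTop ℚ) = (((p' : ℚ) * r : ℚ) : WithTop ℚ) := by
      rw [h1, ← WithTop.coe_nsmul, nsmul_eq_mul]
    exact WithTop.coe_injective this
  have hk' : (c : ℚ) * r = (k : ℚ) := by
    have : (((c : ℚ) * r : ℚ) : WithTop ℚ) = ((k : ℚ) : WithTop ℚ) := by
      rw [← hk, ← WithTop.coe_nsmul, nsmul_eq_mul]
    exact WithTop.coe_injective this
  have h4 : (c : ℤ) * padicValRat p' b = (p' : ℤ) * k := by
    have : ((c : ℤ) * padicValRat p' b : ℚ) = ((p' : ℤ) * k : ℚ) := by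
      push_cast
      rw [h1', ← hk']
      ring
    exact_mod_cast this
  have h5 : (p' : ℤ) ∣ (c : ℤ) * padicValRat p' b := ⟨k, h4⟩
  have h6 : IsCoprime (p' : ℤ) (c : ℤ) := Nat.isCoprime_iff_coprime.mpr hcop
  exact h6.dvd_of_dvd_mul_left h5

/-- **(LOC-χ)**, for every prime `p'`. -/
theorem s15e_locChi (p' : ℕ) [Fact p'.Prime] : s15e_LocChi p' := by
  intro E _ _ _ hord hkill v₀ f hv₀ hv₀act hgen hindep ζ β b hζ hb hβ hcoc
  have hp : p'.Prime := Fact.out
  obtain ⟨H₀, hH₀⟩ := hord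
  obtain ⟨H, instCR, instHopf, hfin, hflat, hcc, e, hmul, hequiv⟩ :=
    s19c_hopf_main p' E H₀ hH₀
  -- the points are killed by `p'`
  have he1 : e 1 = 0 := by
    have := hmul 1 1
    rw [mul_one] at this
    exact left_eq_add.mp this
  have hpow : ∀ (x : WithConv (H →ₐ[ratLocalizedAt p'] Kb)) (n : ℕ), e (x ^ n) = n • e x := by
    intro x n
    induction n with
    | zero => rw [pow_zero, zero_smul, he1]
    | succ n ih => rw [pow_succ, hmul, ih, succ_nsmul]
  have hkillH : ∀ x : WithConv (H →ₐ[ratLocalizedAt p'] Kb), x ^ p' = 1 := by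
    intro x
    apply e.injective
    rw [hpow, he1, hkill]
  set P : ValuationSubring Kb := padicPlace p' with hPdef
  have hP : P.LiesOverPrime p' := ptg_padicPlace_liesOver p'
  have hP' : (p' : Kb) ∈ P.nonunits := hP
  set L : IntermediateField ℚ Kb := s56l_pointField p' (H := H) with hL
  have hLfin : FiniteDimensional ℚ ↥L := s56l_pointField_finite p'
  have hLnorm : Normal ℚ ↥L := s56l_pointField_normal p'
  have hPm : ∀ m : ℚ, (p' : ℚ) / ((p' : ℚ) - 1) < m → s56r_Pm p' hp P hP' L m :=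
    fun m hm => s56l_Pm_points p' hkillH hp m hm
  set K₁ : IntermediateField ℚ Kb := IntermediateField.adjoin ℚ ({ζ} : Set Kb) with hK₁
  have hK₁fin : FiniteDimensional ℚ ↥K₁ := s15e_cyc_finite
  have hK₁norm : Normal ℚ ↥K₁ := s15e_cyc_normal hp hζ
  have hβ0 : β ≠ 0 := by
    rintro rfl
    rw [zero_pow hp.ne_zero] at hβ
    exact hb ((map_eq_zero (algebraMap ℚ Kb)).mp hβ.symm)
  -- `β ∈ L(ζ)`
  have hfixβ : ∀ g ∈ P.decompositionSubgroup ℚ, (∀ x ∈ L, g x = x) → (∀ x ∈ K₁, g x = x) →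
      g β = β := by
    intro g _ hgL _
    have hgE : ∀ y : E, g • y = y := by
      intro y
      obtain ⟨x, rfl⟩ := e.surjective y
      exact (hequiv g x x fun h => (hgL _ (s56l_mem_pointField p' x.ofConv h)).symm).symm
    obtain ⟨n, hn, hnβ⟩ := hcoc g
    rw [hgE f, sub_self] at hn
    have h1 : n • v₀ = 0 • v₀ := by rw [← hn, zero_smul]
    have h2 := s15e_cast_eq_of_nsmul_eq hkill hv₀ h1
    rw [Nat.cast_zero, ZMod.natCast_eq_zero_iff] at h2
    obtain ⟨k, rfl⟩ := h2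
    rw [hnβ, pow_mul, hζ.pow_eq_one, one_pow, one_mul]
  have hfixβp : ∀ g ∈ P.decompositionSubgroup ℚ, (∀ x ∈ K₁, g x = x) → g (β ^ p') = β ^ p' := by
    intro g _ _
    rw [hβ]
    exact g.commutes b
  obtain ⟨z, w, hzw, hwP, hbz⟩ := s56r_ifaceKummer p' hp P hP' L K₁ hLfin hLnorm hK₁fin hK₁norm
    hPm ⟨ζ, IntermediateField.subset_adjoin ℚ _ (Set.mem_singleton ζ), hζ⟩ β hβ0 hfixβ hfixβp
  exact s15e_locChi_arith hp P hP hζ b hb z w (fun g hg hgK => (hzw g hg hgK).1) hwP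
    (by rw [← hβ, hbz])

end Fermat.Agent.Lib.S15
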