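/-
Programme M (S15), node [ADM]/(DEV) (helper8, prefix `s15e_`), FINAL: **the dévissage inequality for
Eisenstein-admissible Galois modules**, with the two local facts at `p'` as only hypotheses.

* `s15e_strict_vanish` : the strict Selmer group of an admissible module of order `p'` vanishes;
* `s15e_piece` : every such module satisfies `s15e_PieceBound` for `H₁` = an inertia group at `p`,
  `H₂ = ⟨c⟩`;
* **`s15e_dev_final`** : for every finite admissible `V` and all finite local conditions `M₁`, `M₂`: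
  `|Sel(V; M₁, M₂)| · |V^{I_p}| · |V^{c}| ≤ |V^{G_ℚ}| · |M₁| · |M₂| · |V|`;
* **`s15e_adm_final`** : `|V^{I_p}| · |V^{c}| ≤ |V^{G_ℚ}| · |V|`  ([ADM]).
-/
import Fermat.Agent.Lib.S15.EPiece7

set_option autoImplicit false
set_option linter.unusedSectionVars false
set_option linter.unusedVariables false
set_option linter.style.haveILetI false

noncomputable section

namespace Fermat.Agent.Lib.S15

open Fermat.Agent.Lib.S19 Fermat.Agent.Lib.CFT

local notation "Kb" => AlgebraicClosure ℚ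
local notation "GQ" => (AlgebraicClosure ℚ ≃ₐ[ℚ] AlgebraicClosure ℚ)

variable {S : Finset ℕ} {p p' : ℕ} [Fact p'.Prime]

/-- the closed family of conditions of the admissible class. -/
abbrev s15e_LAdm (S : Finset ℕ) (p p' : ℕ) [Fact p'.Prime] (V : s15e_Mod.{0} GQ) :
    AddSubgroup (s15e_H1 (⊤ : Subgroup GQ) V.carrier) :=
  s15e_LA (s15e_AdmC S p p') s15e_admC_prod s15e_admC_quot V

/-- **the strict Selmer group of a piece vanishes.** -/
theorem s15e_strict_vanish (hp : p.Prime) (hpp' : p ≠ p')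
    (hloc1 : p' ≠ 2 → s15e_Loc1 p') (hlocχ : s15e_LocChi p')
    (A : ValuationSubring Kb) (hA : A.LiesOverPrime p)
    (V : s15e_Mod.{0} GQ) (hV : s15e_PieceC S p p' V)
    (x : s15e_H1 (⊤ : Subgroup GQ) V.carrier) (hx : x ∈ s15e_LAdm S p p' V)
    (h1 : s15e_res (le_top : A.inertiaSubgroupIn ℚ ≤ ⊤) V.carrier x = 0)
    (h2 : s15e_res (le_top : Subgroup.zpowers complexConjugation ≤ ⊤) V.carrier x = 0) :
    x = 0 := by
  rcases (s15e_mem_LA s15e_admC_prod s15e_admC_quot).mp hx with h0 | ⟨E, j, hj, hE, hinj, hjx⟩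
  · exact h0
  obtain ⟨ξc, rfl⟩ := s15e_cls_surjective (⊤ : Subgroup GQ) V.carrier x
  rw [s15e_H1map_cls, s15e_cls_eq_zero_iff] at hjx
  obtain ⟨e, he⟩ := hjx
  rw [s15e_res_cls, s15e_cls_eq_zero_iff] at h1 h2
  obtain ⟨v₁, hv₁⟩ := h1
  obtain ⟨v₂, hv₂⟩ := h2
  haveI := hE.1
  haveI := hV.1.1
  set ξ : GQ → V.carrier := fun σ => (ξc : (⊤ : Subgroup GQ) → V.carrier) ⟨σ, Subgroup.mem_top σ⟩
    with hξdef
  have hcoc : ∀ σ τ : GQ, ξ (σ * τ) = ξ σ + σ • ξ τ := fun σ τ =>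
    ξc.2 ⟨σ, Subgroup.mem_top σ⟩ ⟨τ, Subgroup.mem_top τ⟩
  have hξe : ∀ σ : GQ, j (ξ σ) = σ • e - e := fun σ => he ⟨σ, Subgroup.mem_top σ⟩
  obtain ⟨H, hH⟩ := hE.2.flat
  obtain ⟨F, hFfd, hFE⟩ := s15e_cont_of_order hH
  have hF : ∀ ν : GQ, (∀ y ∈ F, ν y = y) → ξ ν = 0 := fun ν hν =>
    hinj (by rw [hξe, hFE ν hν e, sub_self, map_zero])
  have hunr : ∀ ℓ : ℕ, ℓ.Prime → ℓ ≠ p → ℓ ≠ p' → ∀ A' : ValuationSubring Kb,
      A'.LiesOverPrime ℓ → ∀ τ ∈ A'.inertiaSubgroupIn ℚ, ξ τ = 0 :=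
    fun ℓ hℓ hℓp hℓp' A' hA' τ hτ =>
      hinj (by rw [hξe, hE.2.unram ℓ hℓ hℓp hℓp' A' hA' τ hτ e, sub_self, map_zero])
  have hstrp : ∀ τ ∈ A.inertiaSubgroupIn ℚ, ξ τ = 0 := by
    intro τ hτ
    have h3 : ξ τ = τ • v₁ - v₁ := hv₁ ⟨τ, hτ⟩
    rw [h3, s15e_piece_inertia_trivial hV.1.2 hV.2 hp hpp' A hA τ hτ v₁, sub_self]
  have hstrc : ∃ v₂ : V.carrier, ξ complexConjugation = complexConjugation • v₂ - v₂ :=
    ⟨v₂, hv₂ ⟨complexConjugation, Subgroup.mem_zpowers complexConjugation⟩⟩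
  obtain ⟨E₁, j₁, f, hE₁adm, hkill₁, hj₁s, hj₁inj, hf, hindep, hgen⟩ :=
    s15e_reduce_ext V E hV hE j hj hinj e ξ hξe
  haveI := hE₁adm.1
  obtain ⟨w, hw⟩ := s15e_cocycle_coboundary hp hpp' hloc1 hlocχ A hA hV.1.2 hV.2 ξ hcoc F hFfd hF
    hunr hstrp hstrc E₁.carrier hE₁adm.2 hkill₁ j₁ hj₁s hj₁inj f hf hindep hgen
  rw [s15e_cls_eq_zero_iff]
  exact ⟨w, fun h => hw (h : GQ)⟩

/-- **(PIECE)**: the bound for the admissible modules of order `p'`. -/
theorem s15e_piece (hp : p.Prime) (hpp' : p ≠ p')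
    (hloc1 : p' ≠ 2 → s15e_Loc1 p') (hlocχ : s15e_LocChi p')
    (A : ValuationSubring Kb) (hA : A.LiesOverPrime p)
    (V : s15e_Mod.{0} GQ) (hV : s15e_PieceC S p p' V) :
    s15e_PieceBound (A.inertiaSubgroupIn ℚ) (Subgroup.zpowers complexConjugation)
      (s15e_LAdm S p p') V := by
  haveI := hV.1.1
  refine s15e_pieceBound_of_strict _ _ _ V ?_ ?_ ?_
  · intro h w
    exact s15e_piece_inertia_trivial hV.1.2 hV.2 hp hpp' A hA (h : GQ) h.2 w
  · intro v hv σ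
    have hc : complexConjugation • v = v :=
      hv ⟨complexConjugation, Subgroup.mem_zpowers complexConjugation⟩
    exact s15e_piece_conj_inv hV.1.2 hV.2 v hc (σ : GQ)
  · intro x hx h1 h2
    exact s15e_strict_vanish hp hpp' hloc1 hlocχ A hA V hV x hx h1 h2

/-- **(DEV), final form.** -/
theorem s15e_dev_final (hp : p.Prime) (hpp' : p ≠ p')
    (hloc1 : p' ≠ 2 → s15e_Loc1 p') (hlocχ : s15e_LocChi p')
    (A : ValuationSubring Kb) (hA : A.LiesOverPrime p)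
    (V : s15e_Mod.{0} GQ) (hV : s15e_AdmC S p p' V)
    (M₁ : AddSubgroup (s15e_H1 (A.inertiaSubgroupIn ℚ) V.carrier))
    (M₂ : AddSubgroup (s15e_H1 (Subgroup.zpowers complexConjugation) V.carrier))
    [Finite M₁] [Finite M₂] :
    Finite (s15e_Sel (A.inertiaSubgroupIn ℚ) (Subgroup.zpowers complexConjugation) V.carrier
        (s15e_LAdm S p p' V) M₁ M₂) ∧
      Nat.card (s15e_Sel (A.inertiaSubgroupIn ℚ) (Subgroup.zpowers complexConjugation) V.carrier
          (s15e_LAdm S p p' V) M₁ M₂) *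
          Nat.card (s15e_inv (A.inertiaSubgroupIn ℚ) V.carrier) *
          Nat.card (s15e_inv (Subgroup.zpowers complexConjugation) V.carrier) ≤
        Nat.card (s15e_inv (⊤ : Subgroup GQ) V.carrier) * Nat.card M₁ * Nat.card M₂ *
          Nat.card V.carrier :=
  s15e_dev_GQ _ _ (fun V' hV' => s15e_piece hp hpp' hloc1 hlocχ A hA V' hV') V hV M₁ M₂

/-- **[ADM], final form.** -/
theorem s15e_adm_final (hp : p.Prime) (hpp' : p ≠ p')
    (hloc1 : p' ≠ 2 → s15e_Loc1 p') (hlocχ : s15e_LocChi p')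
    (A : ValuationSubring Kb) (hA : A.LiesOverPrime p)
    (V : s15e_Mod.{0} GQ) (hV : s15e_AdmC S p p' V) :
    Nat.card (s15e_inv (A.inertiaSubgroupIn ℚ) V.carrier) *
        Nat.card (s15e_inv (Subgroup.zpowers complexConjugation) V.carrier) ≤
      Nat.card (s15e_inv (⊤ : Subgroup GQ) V.carrier) * Nat.card V.carrier :=
  s15e_adm_GQ _ _ (fun V' hV' => s15e_piece hp hpp' hloc1 hlocχ A hA V' hV') V hV

end Fermat.Agent.Lib.S15
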