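/-
Programme M (S15), node (PIECE) / (DEV) / [ADM] (helper8, prefix `s15e_`): **UNCONDITIONAL forms.**

With (LOC-1) (`s15e_loc1`, `p'` odd) and (LOC-χ) (`s15e_locChi`, every `p'`) proved, the statements of
`EPiece8.lean` hold without local hypotheses:

* `s15e_piece_uncond` : (PIECE) — every admissible module of order `p'` satisfies `s15e_PieceBound`
  for `H₁ = I_p`, `H₂ = ⟨c⟩`;
* `s15e_dev_uncond` : (DEV) — `|Sel(V; M₁, M₂)| · |V^{I_p}| · |V^{c}| ≤ |V^{G_ℚ}| · |M₁| · |M₂| · |V|`;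
* `s15e_adm_uncond` : [ADM] — `|V^{I_p}| · |V^{c}| ≤ |V^{G_ℚ}| · |V|`.
-/
import Fermat.Agent.Lib.S15.EPiece8
import Fermat.Agent.Lib.S15.ELoc1
import Fermat.Agent.Lib.S15.ELoc3

set_option autoImplicit false
set_option linter.unusedSectionVars false
set_option linter.unusedVariables false
set_option linter.style.haveILetI false

noncomputable section

namespace Fermat.Agent.Lib.S15

open Fermat.Agent.Lib.S19 Fermat.Agent.Lib.CFT

local notation "Kb" => AlgebraicClosure ℚ
local notation "GQ" => (AlgebraicClosure ℚ ≃ₐ[ℚ] AlgebraicClosure ℚ)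

variable {S : Finset ℕ} {p p' : ℕ} [Fact p'.Prime]

/-- **(PIECE)**, unconditionally. -/
theorem s15e_piece_uncond (hp : p.Prime) (hpp' : p ≠ p')
    (A : ValuationSubring Kb) (hA : A.LiesOverPrime p)
    (V : s15e_Mod.{0} GQ) (hV : s15e_PieceC S p p' V) :
    s15e_PieceBound (A.inertiaSubgroupIn ℚ) (Subgroup.zpowers complexConjugation)
      (s15e_LAdm S p p') V :=
  s15e_piece hp hpp' (fun h2 => s15e_loc1 p' h2) (s15e_locChi p') A hA V hV

/-- **(DEV)**, unconditionally. -/
theorem s15e_dev_uncond (hp : p.Prime) (hpp' : p ≠ p')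
    (A : ValuationSubring Kb) (hA : A.LiesOverPrime p)
    (V : s15e_Mod.{0} GQ) (hV : s15e_AdmC S p p' V)
    (M₁ : AddSubgroup (s15e_H1 (A.inertiaSubgroupIn ℚ) V.carrier))
    (M₂ : AddSubgroup (s15e_H1 (Subgroup.zpowers complexConjugation) V.carrier))
    [Finite M₁] [Finite M₂] :
    Finite (s15e_Sel (A.inertiaSubgroupIn ℚ) (Subgroup.zpowers complexConjugation) V.carrier
        (s15e_LAdm S p p' V) M₁ M₂) ∧
      Nat.card (s15e_Sel (A.inertiaSubgroupIn ℚ) (Subgroup.zpowers complexConjugation) V.carrier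
          (s15e_LAdm S p p' V) M₁ M₂) *
          Nat.card (s15e_inv (A.inertiaSubgroupIn ℚ) V.carrier) *
          Nat.card (s15e_inv (Subgroup.zpowers complexConjugation) V.carrier) ≤
        Nat.card (s15e_inv (⊤ : Subgroup GQ) V.carrier) * Nat.card M₁ * Nat.card M₂ *
          Nat.card V.carrier :=
  s15e_dev_final hp hpp' (fun h2 => s15e_loc1 p' h2) (s15e_locChi p') A hA V hV M₁ M₂

/-- **[ADM]**, unconditionally. -/
theorem s15e_adm_uncond (hp : p.Prime) (hpp' : p ≠ p')
    (A : ValuationSubring Kb) (hA : A.LiesOverPrime p)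
    (V : s15e_Mod.{0} GQ) (hV : s15e_AdmC S p p' V) :
    Nat.card (s15e_inv (A.inertiaSubgroupIn ℚ) V.carrier) *
        Nat.card (s15e_inv (Subgroup.zpowers complexConjugation) V.carrier) ≤
      Nat.card (s15e_inv (⊤ : Subgroup GQ) V.carrier) * Nat.card V.carrier :=
  s15e_adm_final hp hpp' (fun h2 => s15e_loc1 p' h2) (s15e_locChi p') A hA V hV

end Fermat.Agent.Lib.S15
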