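/-
(M) programme for S15, node [NW-p], part 1 (helper1, prefix `m15k_`): **`J₀(1) = 0`**.

`F̄(1) = ℚ̄(j)` has degree `dedekindPsi 1 = 1` over `ℚ̄(j)`, so every `j - c` has exactly one zero,
which is simple, and `j` has exactly one pole; hence every divisor of degree `0` is the divisor of
a product of powers of the `j - c`.
-/
import Fermat.Agent.Lib.S18.RData
import Fermat.Agent.Lib.S18.IInvLocal
import Fermat.Agent.Lib.S37.IRiemannBar

set_option autoImplicit false
set_option linter.unusedSectionVars false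
set_option linter.unusedVariables false

noncomputable section

namespace Fermat.Agent.Lib.S15

open AlgebraicCurve ModularCurve Fermat.Agent.Lib.FF Fermat.Agent.Lib.S18 Fermat.Agent.Lib.S37

local notation "Kb" => AlgebraicClosure ℚ

/-- a finite sum of positive integers equal to `1` has exactly one term. -/
theorem m15k_unique_of_sum_eq_one {α : Type*} (P : Finset α) (f : α → ℤ)
    (hpos : ∀ v ∈ P, 0 < f v) (hsum : ∑ v ∈ P, f v = 1) :
    ∃ v₀ ∈ P, f v₀ = 1 ∧ ∀ v ∈ P, v = v₀ := by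
  classical
  have hne : P.Nonempty := by
    rw [Finset.nonempty_iff_ne_empty]
    rintro rfl
    simp at hsum
  obtain ⟨v₀, hv₀⟩ := hne
  have hsplit : ∑ v ∈ P, f v = f v₀ + ∑ v ∈ P.erase v₀, f v :=
    (Finset.add_sum_erase P f hv₀).symm
  have hrest : 0 ≤ ∑ v ∈ P.erase v₀, f v :=
    Finset.sum_nonneg fun v hv => (hpos v (Finset.mem_of_mem_erase hv)).le
  have h0 := hpos v₀ hv₀
  have hf1 : f v₀ = 1 := by omega
  have hrest0 : ∑ v ∈ P.erase v₀, f v = 0 := by omega
  refine ⟨v₀, hv₀, hf1, fun v hv => ?_⟩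
  by_contra hne
  have hmem : v ∈ P.erase v₀ := Finset.mem_erase.mpr ⟨hne, hv⟩
  have := (Finset.sum_eq_zero_iff_of_nonneg
    (fun w hw => (hpos w (Finset.mem_of_mem_erase hw)).le)).mp hrest0 v hmem
  have := hpos v hv
  omega

/-- the zero of `j - c` at level one is unique and simple. -/
theorem m15k_zero_unique (c : Kb) : ∃ v₀ : Place Kb (ffi_F 1),
    v₀.ord (ffd_jBar 1 - algebraMap Kb (ffi_F 1) c) = 1 ∧
      ∀ v : Place Kb (ffi_F 1), 0 < v.ord (ffd_jBar 1 - algebraMap Kb (ffi_F 1) c) → v = v₀ := by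
  obtain ⟨P, hP, hsum⟩ := s18r_fibre 1 c
  rw [dedekindPsi_one, Nat.cast_one] at hsum
  obtain ⟨v₀, -, h1, h2⟩ := m15k_unique_of_sum_eq_one P _ (fun v hv => (hP v).mp hv) hsum
  exact ⟨v₀, h1, fun v hv => h2 v ((hP v).mpr hv)⟩

/-- the pole of `j` at level one is unique. -/
theorem m15k_pole_unique : ∃ v₀ : Place Kb (ffi_F 1),
    ∀ v : Place Kb (ffi_F 1), v.ord (ffd_jBar 1) < 0 → v = v₀ := by
  obtain ⟨P, hP, hsum⟩ := s18r_fibre_poles 1
  rw [dedekindPsi_one, Nat.cast_one] at hsum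
  have hsum' : ∑ v ∈ P, (-(v.ord (ffd_jBar 1))) = 1 := by
    rw [Finset.sum_neg_distrib, hsum, neg_neg]
  obtain ⟨v₀, -, -, h2⟩ := m15k_unique_of_sum_eq_one P (fun v => -(v.ord (ffd_jBar 1)))
    (fun v hv => by have := (hP v).mp hv; omega) hsum'
  exact ⟨v₀, fun v hv => h2 v ((hP v).mpr hv)⟩

/-- `j - c ≠ 0`. -/
theorem m15k_sub_ne_zero (c : Kb) : ffd_jBar 1 - algebraMap Kb (ffi_F 1) c ≠ 0 := by
  haveI : FFGen ffi_K (ffd_jBar 1) := s18r_ffGen 1
  exact ff_sub_ne_zero (K := ffi_K) (x := ffd_jBar 1) c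

/-- `ord_w (j - c) ≥ 0` at the places where `j` is regular. -/
theorem m15k_ord_sub_nonneg (w : Place Kb (ffi_F 1)) (hw : 0 ≤ w.ord (ffd_jBar 1)) (c : Kb) :
    0 ≤ w.ord (ffd_jBar 1 - algebraMap Kb (ffi_F 1) c) := by
  have hj0 : ffd_jBar 1 ≠ 0 := by
    have := m15k_sub_ne_zero 0
    simpa using this
  rw [← ff_mem_iff_ord_nonneg w (m15k_sub_ne_zero c)]
  exact sub_mem ((ff_mem_iff_ord_nonneg w hj0).mpr hw) (w.algebraMap_mem' c)

/-- **every divisor of degree zero on `X₀(1)` is principal.** -/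
theorem m15k_principal_of_degree_zero (D : Divisor Kb (ffi_F 1)) (hD : Divisor.degree D = 0) :
    D ∈ Divisor.principal (K := Kb) (F := ffi_F 1) := by
  classical
  haveI : FFGen ffi_K (ffd_jBar 1) := s18r_ffGen 1
  obtain ⟨vinf, hvinf⟩ := m15k_pole_unique
  -- the centres
  have hcen : ∀ v : Place Kb (ffi_F 1), ∃ c : Kb, 0 ≤ v.ord (ffd_jBar 1) →
      0 < v.ord ((ffd_jBar 1) - algebraMap Kb (ffi_F 1) c) := by
    intro v
    rcases ff_centre ffi_K (ffd_jBar 1) v with ⟨c, hc⟩ | h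
    · exact ⟨c, fun _ => hc⟩
    · exact ⟨0, fun h' => absurd h (not_lt.mpr h')⟩
  choose cen hcen using hcen
  set S : Finset (Place Kb (ffi_F 1)) := D.support.filter fun v => 0 ≤ v.ord (ffd_jBar 1) with hS
  set f : ffi_F 1 := ∏ v ∈ S, ((ffd_jBar 1) - algebraMap Kb (ffi_F 1) (cen v)) ^ (D v) with hf
  have hf0 : f ≠ 0 :=
    Finset.prod_ne_zero_iff.mpr fun v _ => zpow_ne_zero _ (m15k_sub_ne_zero (cen v))
  -- the order of `f` at the finite places
  have hord : ∀ w : Place Kb (ffi_F 1), 0 ≤ w.ord (ffd_jBar 1) → w.ord f = D w := by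
    intro w hw
    rw [hf, s18i_ord_prod_zpow w S _ _ (fun v _ => m15k_sub_ne_zero (cen v))]
    have hterm : ∀ v ∈ S, D v * w.ord ((ffd_jBar 1) - algebraMap Kb (ffi_F 1) (cen v)) =
        if v = w then D w else 0 := by
      intro v hv
      have hv0 : 0 ≤ v.ord (ffd_jBar 1) := (Finset.mem_filter.mp hv).2
      obtain ⟨v₀, h1, h2⟩ := m15k_zero_unique (cen v)
      have hvv₀ : v = v₀ := h2 v (hcen v hv0)
      by_cases hvw : v = w
      · have h1' := h1
        rw [← hvv₀] at h1'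
        rw [if_pos hvw, ← hvw, h1', mul_one]
      · rw [if_neg hvw]
        have h3 : ¬ 0 < w.ord ((ffd_jBar 1) - algebraMap Kb (ffi_F 1) (cen v)) := fun h =>
          hvw (hvv₀.trans (h2 w h).symm)
        have h4 := m15k_ord_sub_nonneg w hw (cen v)
        have h5 : w.ord ((ffd_jBar 1) - algebraMap Kb (ffi_F 1) (cen v)) = 0 := by omega
        rw [h5, mul_zero]
    rw [Finset.sum_congr rfl hterm, Finset.sum_ite_eq' S w]
    by_cases hwS : w ∈ S
    · rw [if_pos hwS]
    · rw [if_neg hwS]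
      have : w ∉ D.support := fun h => hwS (Finset.mem_filter.mpr ⟨h, hw⟩)
      exact (Finsupp.notMem_support_iff.mp this).symm
  -- compare with the divisor of `f`
  obtain ⟨D', hD', hdeg'⟩ := s18r_exists_divisor 1 f hf0
  have hE : ∀ w : Place Kb (ffi_F 1), w ≠ vinf → (D - D') w = 0 := by
    intro w hw
    have hw0 : 0 ≤ w.ord (ffd_jBar 1) := by
      by_contra h
      exact hw (hvinf w (not_le.mp h))
    rw [Finsupp.sub_apply, hD' w, hord w hw0, sub_self]
  have hEs : D - D' = Finsupp.single vinf ((D - D') vinf) := by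
    ext w
    by_cases hw : w = vinf
    · rw [hw, Finsupp.single_eq_same]
    · rw [hE w hw, Finsupp.single_eq_of_ne hw]
  have hdegE : Divisor.degree (D - D') = 0 := by rw [map_sub, hD, hdeg', sub_zero]
  rw [hEs, Divisor.degree_single, s37i_deg_eq_one_bar 1 vinf, Nat.cast_one, mul_one] at hdegE
  have hDD' : D = D' := by
    have : D - D' = 0 := by rw [hEs, hdegE, Finsupp.single_zero]
    exact sub_eq_zero.mp this
  rw [hDD']
  exact ⟨f, hf0, hD'⟩

/-- **`J₀(1) = 0`.** -/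
theorem m15k_jzero_one (x : JZero 1) : x = 0 := by
  obtain ⟨D, rfl⟩ := Pic0.mk_surjective x
  refine (QuotientAddGroup.eq_zero_iff _).mpr ?_
  rw [AddSubgroup.mem_addSubgroupOf]
  exact m15k_principal_of_degree_zero D.1 D.2

end Fermat.Agent.Lib.S15
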