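/-
(M) programme for S15, node [C≠0] (helper1, prefix `m15k_`): **the cuspidal class `(0) - (∞)` of
`X₀(p)` is not zero for `p ∉ {2, 3, 5, 7, 13}`.**

If `(0) - (∞) = div f`, then `f` has exactly one pole, which is simple, so `[F̄(p) : ℚ̄(f)] = 1`
(fundamental identity), every `f - c` has exactly one zero, which is simple, and every divisor of
degree `0` is principal: `J₀(p) = 0`.  Then `J₀(p)[2] = 0`, so `H_par(Γ₀(p), ℤ/2) = 0` (S30:
`s30k_kappa_surj`), so the lattice `Λ = Hom_par(Γ₀(p), ℤ)` satisfies `Λ = 2Λ`, hence `Λ = 0`, hence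
`2 g ≤ rank Λ = 0` (S21 + S20: `s16c_two_genus_le_finrank_X`); but `g = genusFormula p > 0`.
-/
import Fermat.Agent.Lib.S15.MGraph
import Fermat.Agent.Lib.S15.KTriv
import Fermat.Agent.Lib.S30.KN
import Fermat.Agent.Lib.S16.CRank
import Fermat.Agent.Lib.S16.FSmall

set_option autoImplicit false
set_option linter.unusedSectionVars false
set_option linter.unusedVariables false
set_option linter.style.haveILetI false

noncomputable section

namespace Fermat.Agent.Lib.S15

open AlgebraicCurve ModularCurve Fermat.Agent.Lib.FF Fermat.Agent.Lib.S18 Fermat.Agent.Lib.S37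
open Fermat.Agent.Lib.S29 Fermat.Agent.Lib.S30 Fermat.Agent.Lib.S16 CongruenceSubgroup
open IntermediateField ModularCurve.Period

local notation "Kb" => AlgebraicClosure ℚ

/-! ### Part A: a function with a unique simple pole -/

section SimplePole

variable (N : ℕ) [NeZero N]

/-- a function with a pole is transcendental. -/
theorem m15k_sp_transc (f : ffi_F N) (vinf : Place Kb (ffi_F N)) (h1 : vinf.ord f = -1) :
    Transcendental Kb f := by
  intro halg
  obtain ⟨a, rfl⟩ := ff_mem_range_of_isAlgebraic halg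
  rw [ff_ord_algebraMap] at h1
  omega

/-- a function with a unique pole, which is simple, has degree one. -/
theorem m15k_sp_finrank (f : ffi_F N) [FFGen ffi_K f] (vinf : Place Kb (ffi_F N))
    (h1 : vinf.ord f = -1) (h2 : ∀ v : Place Kb (ffi_F N), v.ord f < 0 → v = vinf) :
    Module.finrank (ffi_K)⟮f⟯ (ffi_F N) = 1 := by
  classical
  obtain ⟨P, hP, hsum⟩ := ff_fibreSum_poles ffi_K f
  have hPeq : P = {vinf} := by
    ext v
    rw [hP, Finset.mem_singleton]
    exact ⟨h2 v, fun h => by rw [h, h1]; norm_num⟩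
  rw [hPeq, Finset.sum_singleton, h1] at hsum
  omega

/-- the zero of `f - c` is unique and simple. -/
theorem m15k_sp_zero_unique (f : ffi_F N) [FFGen ffi_K f]
    (hdeg : Module.finrank (ffi_K)⟮f⟯ (ffi_F N) = 1) (c : Kb) :
    ∃ v₀ : Place Kb (ffi_F N), v₀.ord (f - algebraMap Kb (ffi_F N) c) = 1 ∧
      ∀ v : Place Kb (ffi_F N), 0 < v.ord (f - algebraMap Kb (ffi_F N) c) → v = v₀ := by
  obtain ⟨P, hP, hsum⟩ := ff_fibreSum_sub_const ffi_K f c
  rw [hdeg, Nat.cast_one] at hsum
  obtain ⟨v₀, -, h1, h2⟩ := m15k_unique_of_sum_eq_one P _ (fun v hv => (hP v).mp hv) hsum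
  exact ⟨v₀, h1, fun v hv => h2 v ((hP v).mpr hv)⟩

/-- `ord_w (f - c) ≥ 0` at the places where `f` is regular. -/
theorem m15k_sp_ord_sub_nonneg (f : ffi_F N) [FFGen ffi_K f] (w : Place Kb (ffi_F N))
    (hw : 0 ≤ w.ord f) (c : Kb) : 0 ≤ w.ord (f - algebraMap Kb (ffi_F N) c) := by
  have hf0 : f ≠ 0 := by
    have := ff_sub_ne_zero (K := ffi_K) (x := f) 0
    simpa using this
  rw [← ff_mem_iff_ord_nonneg w (ff_sub_ne_zero (K := ffi_K) (x := f) c)]
  exact sub_mem ((ff_mem_iff_ord_nonneg w hf0).mpr hw) (w.algebraMap_mem' c)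

/-- **if some function has a unique pole, which is simple, every divisor of degree zero is
principal.** -/
theorem m15k_sp_principal (f : ffi_F N) (vinf : Place Kb (ffi_F N))
    (h1 : vinf.ord f = -1) (h2 : ∀ v : Place Kb (ffi_F N), v.ord f < 0 → v = vinf)
    (D : Divisor Kb (ffi_F N)) (hD : Divisor.degree D = 0) :
    D ∈ Divisor.principal (K := Kb) (F := ffi_F N) := by
  classical
  haveI : FFGen ffi_K (ffd_jBar N) := s18r_ffGen N
  haveI : FFGen ffi_K f :=
    ff_gen_of_transcendental (x := ffd_jBar N) (m15k_sp_transc N f vinf h1)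
  have hdeg := m15k_sp_finrank N f vinf h1 h2
  -- the centres
  have hcen : ∀ v : Place Kb (ffi_F N), ∃ c : Kb, 0 ≤ v.ord f →
      0 < v.ord (f - algebraMap Kb (ffi_F N) c) := by
    intro v
    rcases ff_centre ffi_K f v with ⟨c, hc⟩ | h
    · exact ⟨c, fun _ => hc⟩
    · exact ⟨0, fun h' => absurd h (not_lt.mpr h')⟩
  choose cen hcen using hcen
  set S : Finset (Place Kb (ffi_F N)) := D.support.filter fun v => 0 ≤ v.ord f with hS
  set g : ffi_F N := ∏ v ∈ S, (f - algebraMap Kb (ffi_F N) (cen v)) ^ (D v) with hg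
  have hg0 : g ≠ 0 :=
    Finset.prod_ne_zero_iff.mpr fun v _ =>
      zpow_ne_zero _ (ff_sub_ne_zero (K := ffi_K) (x := f) (cen v))
  -- the order of `g` at the finite places
  have hord : ∀ w : Place Kb (ffi_F N), 0 ≤ w.ord f → w.ord g = D w := by
    intro w hw
    rw [hg, s18i_ord_prod_zpow w S _ _
      (fun v _ => ff_sub_ne_zero (K := ffi_K) (x := f) (cen v))]
    have hterm : ∀ v ∈ S, D v * w.ord (f - algebraMap Kb (ffi_F N) (cen v)) =
        if v = w then D w else 0 := by
      intro v hv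
      have hv0 : 0 ≤ v.ord f := (Finset.mem_filter.mp hv).2
      obtain ⟨v₀, h1', h2'⟩ := m15k_sp_zero_unique N f hdeg (cen v)
      have hvv₀ : v = v₀ := h2' v (hcen v hv0)
      by_cases hvw : v = w
      · have h1'' := h1'
        rw [← hvv₀] at h1''
        rw [if_pos hvw, ← hvw, h1'', mul_one]
      · rw [if_neg hvw]
        have h3 : ¬ 0 < w.ord (f - algebraMap Kb (ffi_F N) (cen v)) := fun h =>
          hvw (hvv₀.trans (h2' w h).symm)
        have h4 := m15k_sp_ord_sub_nonneg N f w hw (cen v)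
        have h5 : w.ord (f - algebraMap Kb (ffi_F N) (cen v)) = 0 := by omega
        rw [h5, mul_zero]
    rw [Finset.sum_congr rfl hterm, Finset.sum_ite_eq' S w]
    by_cases hwS : w ∈ S
    · rw [if_pos hwS]
    · rw [if_neg hwS]
      have : w ∉ D.support := fun h => hwS (Finset.mem_filter.mpr ⟨h, hw⟩)
      exact (Finsupp.notMem_support_iff.mp this).symm
  -- compare with the divisor of `g`
  obtain ⟨D', hD', hdeg'⟩ := s18r_exists_divisor N g hg0
  have hE : ∀ w : Place Kb (ffi_F N), w ≠ vinf → (D - D') w = 0 := by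
    intro w hw
    have hw0 : 0 ≤ w.ord f := by
      by_contra h
      exact hw (h2 w (not_le.mp h))
    rw [Finsupp.sub_apply, hD' w, hord w hw0, sub_self]
  have hEs : D - D' = Finsupp.single vinf ((D - D') vinf) := by
    ext w
    by_cases hw : w = vinf
    · rw [hw, Finsupp.single_eq_same]
    · rw [hE w hw, Finsupp.single_eq_of_ne hw]
  have hdegE : Divisor.degree (D - D') = 0 := by rw [map_sub, hD, hdeg', sub_zero]
  rw [hEs, Divisor.degree_single, s37i_deg_eq_one_bar N vinf, Nat.cast_one, mul_one] at hdegE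
  have hDD' : D = D' := by
    have : D - D' = 0 := by rw [hEs, hdegE, Finsupp.single_zero]
    exact sub_eq_zero.mp this
  rw [hDD']
  exact ⟨g, hg0, hD'⟩

/-- if some function has a unique pole, which is simple, then `J₀(N) = 0`. -/
theorem m15k_sp_jzero (f : ffi_F N) (vinf : Place Kb (ffi_F N))
    (h1 : vinf.ord f = -1) (h2 : ∀ v : Place Kb (ffi_F N), v.ord f < 0 → v = vinf)
    (x : JZero N) : x = 0 := by
  obtain ⟨D, rfl⟩ := Pic0.mk_surjective x
  refine (QuotientAddGroup.eq_zero_iff _).mpr ?_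
  rw [AddSubgroup.mem_addSubgroupOf]
  exact m15k_sp_principal N f vinf h1 h2 D.1 D.2

end SimplePole

/-! ### Part B: `J₀(N) = 0` forces `Hom_par(Γ₀(N), ℤ) = 0` -/

section Lattice

variable (N : ℕ) [NeZero N]

/-- an integer divisible by every power of `2` is `0`. -/
theorem m15k_int_eq_zero_of_two_pow_dvd (n : ℤ) (h : ∀ k : ℕ, (2 : ℤ) ^ k ∣ n) : n = 0 := by
  by_contra hn
  have h1 := h n.natAbs
  have h2 : ((2 : ℤ) ^ n.natAbs).natAbs ∣ n.natAbs := Int.natAbs_dvd_natAbs.mpr h1
  have h3 : ((2 : ℤ) ^ n.natAbs).natAbs = 2 ^ n.natAbs := by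
    rw [Int.natAbs_pow]; rfl
  rw [h3] at h2
  have h4 := Nat.le_of_dvd (Int.natAbs_pos.mpr hn) h2
  have h5 := Nat.lt_two_pow_self (n := n.natAbs)
  omega

/-- if `J₀(N) = 0`, every parabolic homomorphism mod `2` vanishing on the elements of finite order
is zero. -/
theorem m15k_Hp_trivial (hJ : ∀ x : JZero N, x = 0) (χ : Additive (Gamma0 N) →+ ZMod 2)
    (hχ : χ ∈ s29h_Hp N 2) : χ = 0 := by
  obtain ⟨x, hx⟩ := s30k_kappa_surj N 2 χ hχ
  have hx0 : x = 0 := Subtype.ext (hJ _)
  rw [← hx, hx0, map_zero]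

/-- if `J₀(N) = 0`, every parabolic homomorphism `Γ₀(N) → ℤ` has even values. -/
theorem m15k_par_even (hJ : ∀ x : JZero N, x = 0) (φ : Additive (Gamma0 N) →+ ℤ)
    (hφ : IsParabolicHom (Gamma0 N) φ) (γ : Additive (Gamma0 N)) : (2 : ℤ) ∣ φ γ := by
  set χ : Additive (Gamma0 N) →+ ZMod 2 := (Int.castAddHom (ZMod 2)).comp φ with hχdef
  have hχ : χ ∈ s29h_Hp N 2 := by
    rw [s29h_mem_Hpar_iff]
    refine ⟨fun g hg => ?_, fun g hg => ?_⟩
    · show ((φ (Additive.ofMul g) : ℤ) : ZMod 2) = 0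
      rw [hφ g hg, Int.cast_zero]
    · show ((φ (Additive.ofMul g) : ℤ) : ZMod 2) = 0
      obtain ⟨m, hm, hgm⟩ := isOfFinOrder_iff_pow_eq_one.mp hg
      have h1 : m • φ (Additive.ofMul g) = 0 := by
        rw [← map_nsmul, ← ofMul_pow, hgm, ofMul_one, map_zero]
      have h2 : φ (Additive.ofMul g) = 0 := by
        rcases smul_eq_zero.mp h1 with h | h
        · omega
        · exact h
      rw [h2, Int.cast_zero]
  have h0 := m15k_Hp_trivial N hJ χ hχ
  have h1 : ((φ γ : ℤ) : ZMod 2) = 0 := by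
    have := DFunLike.congr_fun h0 γ
    simpa [hχdef] using this
  exact (ZMod.intCast_zmod_eq_zero_iff_dvd _ 2).mp h1

/-- half of a homomorphism with even values. -/
def m15k_half (φ : Additive (Gamma0 N) →+ ℤ) (hev : ∀ γ, (2 : ℤ) ∣ φ γ) :
    Additive (Gamma0 N) →+ ℤ :=
  AddMonoidHom.mk' (fun γ => φ γ / 2) (by
    intro a b
    obtain ⟨a', ha⟩ := hev a
    obtain ⟨b', hb⟩ := hev b
    rw [map_add, ha, hb]
    omega)

theorem m15k_half_apply (φ : Additive (Gamma0 N) →+ ℤ) (hev : ∀ γ, (2 : ℤ) ∣ φ γ)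
    (γ : Additive (Gamma0 N)) : φ γ = 2 * m15k_half N φ hev γ := by
  obtain ⟨a', ha⟩ := hev γ
  show φ γ = 2 * (φ γ / 2)
  omega

theorem m15k_par_two_pow_dvd (hJ : ∀ x : JZero N, x = 0) (k : ℕ) :
    ∀ (φ : Additive (Gamma0 N) →+ ℤ), IsParabolicHom (Gamma0 N) φ →
      ∀ γ : Additive (Gamma0 N), (2 : ℤ) ^ k ∣ φ γ := by
  induction k with
  | zero => intro φ _ γ; simp
  | succ k ih =>
    intro φ hφ γ
    have hev := m15k_par_even N hJ φ hφ
    have hψ : IsParabolicHom (Gamma0 N) (m15k_half N φ hev) := by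
      intro g hg
      have h1 := m15k_half_apply N φ hev (Additive.ofMul g)
      rw [hφ g hg] at h1
      omega
    obtain ⟨d, hd⟩ := ih _ hψ γ
    refine ⟨d, ?_⟩
    rw [m15k_half_apply N φ hev γ, hd]
    ring

/-- **if `J₀(N) = 0` then `Hom_par(Γ₀(N), ℤ) = 0`.** -/
theorem m15k_par_trivial (hJ : ∀ x : JZero N, x = 0) (φ : Additive (Gamma0 N) →+ ℤ)
    (hφ : IsParabolicHom (Gamma0 N) φ) : φ = 0 := by
  ext γ
  exact m15k_int_eq_zero_of_two_pow_dvd _ fun k => m15k_par_two_pow_dvd N hJ k φ hφ γ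

/-- if `J₀(N) = 0` then `genusFormula N ≤ 0`. -/
theorem m15k_genus_le_zero (hJ : ∀ x : JZero N, x = 0) : genusFormula N ≤ 0 := by
  have h1 := s16c_two_genus_le_finrank_X N
  haveI : Subsingleton ↥(parabolicHoms ℤ (Gamma0 N) ℤ) :=
    ⟨fun a b => Subtype.ext ((m15k_par_trivial N hJ a.1 a.2).trans
      (m15k_par_trivial N hJ b.1 b.2).symm)⟩
  rw [Module.finrank_zero_of_subsingleton] at h1
  push_cast at h1
  linarith

end Lattice

/-! ### Part C: `genusFormula p > 0` -/

section Genus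

theorem m15k_cuspCount_prime {p : ℕ} (hp : p.Prime) : cuspCount p = 2 := by
  unfold cuspCount
  rw [hp.divisors, Finset.sum_pair hp.one_lt.ne]
  simp [Nat.div_self hp.pos]

/-- a monic quadratic equation over a finite field has at most two solutions. -/
theorem m15k_card_quadratic_le {F : Type*} [Field F] [Finite F] (a b : F) :
    Nat.card {x : F // x ^ 2 + a * x + b = 0} ≤ 2 := by
  classical
  haveI := Fintype.ofFinite F
  rw [Nat.card_eq_fintype_card, Fintype.card_subtype]
  set P : Polynomial F := Polynomial.X ^ 2 + Polynomial.C a * Polynomial.X + Polynomial.C b with hP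
  have hdeg : P.natDegree = 2 := by
    rw [hP]
    compute_degree!
  have hP0 : P ≠ 0 := by
    intro h
    rw [h, Polynomial.natDegree_zero] at hdeg
    omega
  calc (Finset.univ.filter fun x : F => x ^ 2 + a * x + b = 0).card
      ≤ P.roots.toFinset.card := Finset.card_le_card (by
        intro x hx
        rw [Finset.mem_filter] at hx
        rw [Multiset.mem_toFinset, Polynomial.mem_roots hP0, Polynomial.IsRoot, hP]
        simp only [Polynomial.eval_add, Polynomial.eval_mul, Polynomial.eval_pow,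
          Polynomial.eval_X, Polynomial.eval_C]
        exact hx.2)
    _ ≤ Multiset.card P.roots := Multiset.toFinset_card_le _
    _ ≤ P.natDegree := Polynomial.card_roots' P
    _ = 2 := hdeg

theorem m15k_nuTwo_le {p : ℕ} (hp : p.Prime) : nuTwo p ≤ 2 := by
  haveI : Fact p.Prime := ⟨hp⟩
  have := m15k_card_quadratic_le (F := ZMod p) 0 1
  simpa [nuTwo] using this

theorem m15k_nuThree_le {p : ℕ} (hp : p.Prime) : nuThree p ≤ 2 := by
  haveI : Fact p.Prime := ⟨hp⟩
  have := m15k_card_quadratic_le (F := ZMod p) 1 1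
  simpa [nuThree] using this

theorem m15k_genus_pos {p : ℕ} (hp : p.Prime) (hp' : p ∉ ({2, 3, 5, 7, 13} : Finset ℕ)) :
    0 < genusFormula p := by
  have hpsi : dedekindPsi p = p + 1 := s16f_dedekindPsi_prime hp
  have hcc := m15k_cuspCount_prime hp
  unfold genusFormula
  rw [hpsi, hcc]
  by_cases h17 : 17 ≤ p
  · have h2 : (nuTwo p : ℚ) ≤ 2 := by exact_mod_cast m15k_nuTwo_le hp
    have h3 : (nuThree p : ℚ) ≤ 2 := by exact_mod_cast m15k_nuThree_le hp
    have h17' : (17 : ℚ) ≤ p := by exact_mod_cast h17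
    push_cast
    linarith
  · have hn2 : nuTwo 11 = 0 := by
      unfold nuTwo
      rw [Nat.card_eq_fintype_card]
      decide
    have hn3 : nuThree 11 = 0 := by
      unfold nuThree
      rw [Nat.card_eq_fintype_card]
      decide
    have hlt : p < 17 := by omega
    simp only [Finset.mem_insert, Finset.mem_singleton, not_or] at hp'
    interval_cases p
    all_goals first
      | exact absurd hp (by decide)
      | omega
      | (rw [hn2, hn3]; norm_num)

end Genus

/-! ### The node [C≠0] -/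

/-- if `P - Q` is principal for two different places `P, Q` then `J₀(N) = 0`. -/
theorem m15k_jzero_of_cl_eq_zero (N : ℕ) [NeZero N] (P Q : m15_Pl N) (hPQ : P ≠ Q)
    (h0 : m15_cl N P Q = 0) (x : JZero N) : x = 0 := by
  have hdeg : ∀ P : m15_Pl N, P.deg = 1 := s37i_deg_eq_one_bar N
  rw [m15_cl_eq hdeg] at h0
  have hprin : m15_div N P Q ∈ Divisor.principal (K := Kb) (F := ffi_F N) := by
    have := (QuotientAddGroup.eq_zero_iff _).mp h0
    rwa [AddSubgroup.mem_addSubgroupOf] at this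
  obtain ⟨f, hf0, hf⟩ := hprin
  have h1 : Q.ord f = -1 := by
    rw [← hf]
    unfold m15_div
    rw [Finsupp.sub_apply, Finsupp.single_eq_same, Finsupp.single_eq_of_ne hPQ.symm]
    norm_num
  have h2 : ∀ v : Place Kb (ffi_F N), v.ord f < 0 → v = Q := by
    intro v hv
    by_contra hne
    rw [← hf] at hv
    unfold m15_div at hv
    rw [Finsupp.sub_apply, Finsupp.single_eq_of_ne (a := Q) (a' := v) hne] at hv
    by_cases hvP : v = P
    · rw [hvP, Finsupp.single_eq_same] at hv
      omega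
    · rw [Finsupp.single_eq_of_ne hvP] at hv
      omega
  exact m15k_sp_jzero N f Q h1 h2 x

/-- **[C≠0]** the cuspidal class `(0) - (∞)` of `X₀(p)` is not zero for
`p ∉ {2, 3, 5, 7, 13}`. -/
theorem m15k_clNe (p : ℕ) [NeZero p] (hp : p.Prime) (hp' : p ∉ ({2, 3, 5, 7, 13} : Finset ℕ))
    (c : m15_Cusps p) : m15_cl p c.zero c.inf ≠ 0 := fun h0 =>
  absurd (m15k_genus_le_zero p (m15k_jzero_of_cl_eq_zero p c.zero c.inf c.zero_ne h0))
    (not_le.mpr (m15k_genus_pos hp hp'))

end Fermat.Agent.Lib.S15
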