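/-
(M) programme for S15, node (A-conj) for ALL primes `p'` (helper1, prefix `m15k_`):
**the package (A1′) at ONE prime `ℓ₀` gives the package at EVERY prime `ℓ` and every `k`.**

`Λ = s29s_M N` (parabolic homomorphisms `Γ₀(N) → ℤ`), `ρ_n : Λ → Hom(Γ₀(N), ℤ/n)` the reduction,
`κ_n : J₀(N)[n] ↪ Hom(Γ₀(N), ℤ/n)` the Kummer map of S30.  Always `ker ρ_n = nΛ` (saturation),
`|im ρ_n| = n ^ rank Λ`, and `im ρ_n ⊆ H_n ⊆ im κ_n` (`s30k_kappa_surj`).  S27 (in the form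
`s27r_small0` for the constant field `ℚ̄`) gives `|J₀(N)[ℓ^k]| = ℓ^(2 g k)`, `g = genusFF`.
A package at one prime `ℓ₀` (helper4's `m15c_package`, `ℓ₀ ∤ 6N`) gives `rank Λ = 2 g`; then for
every `ℓ, k` the two images have the same cardinality, so they coincide and
`φ := κ⁻¹ ∘ ρ : Λ → J[ℓ^k]` is surjective with kernel `ℓ^k Λ`, Hecke-equivariant
(`s30k_kappa_hecke`) and `φ(ι^* χ) = - c • φ χ` (helper4's (A1) `m15c_kappa_conj`).
-/
import Fermat.Agent.Lib.S15.KAconj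
import Fermat.Agent.Lib.S15.AConj3
import Fermat.Agent.Lib.S27.RGr
import Fermat.Agent.Lib.S18.RData

set_option autoImplicit false
set_option linter.unusedSectionVars false
set_option linter.unusedVariables false
set_option linter.style.haveILetI false

noncomputable section

namespace Fermat.Agent.Lib.S15

open CongruenceSubgroup ModularCurve ModularCurve.Period AlgebraicCurve Fermat.Agent.Lib.S29
  Fermat.Agent.Lib.S30 Fermat.Agent.Lib.FF Fermat.Agent.Lib.S18 Fermat.Agent.Lib.S27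

local notation "Kb" => AlgebraicClosure ℚ
local notation "GQ" => (AlgebraicClosure ℚ ≃ₐ[ℚ] AlgebraicClosure ℚ)

/-! ### The reduction of the lattice mod `n` -/

section Red

variable (N : ℕ) [NeZero N] (n : ℕ) [NeZero n]

/-- the reduction `ρ_n : Λ → Hom(Γ₀(N), ℤ/n)`. -/
def m15k_red : ↥(s29s_M N) →+ (Additive (Gamma0 N) →+ ZMod n) :=
  (s29s_cast (N := N) (ZMod n)).comp (s29s_M N).subtype.toAddMonoidHom

@[simp]
theorem m15k_red_apply (χ : s29s_M N) (γ : Additive (Gamma0 N)) :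
    m15k_red N n χ γ = (((χ : Additive (Gamma0 N) →+ ℤ) γ : ℤ) : ZMod n) := rfl

theorem m15k_red_mem_Hp (χ : s29s_M N) : m15k_red N n χ ∈ s29h_Hp N n :=
  s29s_cast_mem_Hpar (ZMod n) (ZMod n) χ.2

/-- exact division of a homomorphism with values divisible by `n`. -/
def m15k_divHom (φ : Additive (Gamma0 N) →+ ℤ) (hev : ∀ γ, (n : ℤ) ∣ φ γ) :
    Additive (Gamma0 N) →+ ℤ :=
  AddMonoidHom.mk' (fun γ => φ γ / (n : ℤ)) (by
    intro a b
    obtain ⟨a', ha⟩ := hev a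
    obtain ⟨b', hb⟩ := hev b
    have hn : (n : ℤ) ≠ 0 := by exact_mod_cast NeZero.ne n
    rw [map_add, ha, hb, ← mul_add, Int.mul_ediv_cancel_left _ hn,
      Int.mul_ediv_cancel_left _ hn, Int.mul_ediv_cancel_left _ hn])

theorem m15k_divHom_apply (φ : Additive (Gamma0 N) →+ ℤ) (hev : ∀ γ, (n : ℤ) ∣ φ γ)
    (γ : Additive (Gamma0 N)) : φ γ = (n : ℤ) * m15k_divHom N n φ hev γ := by
  obtain ⟨a', ha⟩ := hev γ
  have hn : (n : ℤ) ≠ 0 := by exact_mod_cast NeZero.ne n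
  show φ γ = (n : ℤ) * (φ γ / (n : ℤ))
  rw [ha, Int.mul_ediv_cancel_left _ hn]

/-- **saturation**: `ker ρ_n = n Λ`. -/
theorem m15k_red_eq_zero_iff (χ : s29s_M N) :
    m15k_red N n χ = 0 ↔ ∃ χ' : ↥(s29s_M N), χ = (n : ℤ) • χ' := by
  have hn : (n : ℤ) ≠ 0 := by exact_mod_cast NeZero.ne n
  constructor
  · intro h0
    have hev : ∀ γ, (n : ℤ) ∣ (χ : Additive (Gamma0 N) →+ ℤ) γ := by
      intro γ
      have h1 : (((χ : Additive (Gamma0 N) →+ ℤ) γ : ℤ) : ZMod n) = 0 := by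
        have := DFunLike.congr_fun h0 γ
        simpa using this
      exact (ZMod.intCast_zmod_eq_zero_iff_dvd _ n).mp h1
    have hmem : m15k_divHom N n χ hev ∈ s29s_M N := by
      refine ⟨fun g hg => ?_, fun g hg => ?_⟩
      · have h1 := m15k_divHom_apply N n χ hev (Additive.ofMul g)
        rw [χ.2.1 g hg] at h1
        exact (mul_eq_zero.mp h1.symm).resolve_left hn
      · have h1 := m15k_divHom_apply N n χ hev (Additive.ofMul g)
        rw [χ.2.2 g hg] at h1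
        exact (mul_eq_zero.mp h1.symm).resolve_left hn
    refine ⟨⟨_, hmem⟩, Subtype.ext (AddMonoidHom.ext fun γ => ?_)⟩
    rw [Submodule.coe_smul, AddMonoidHom.smul_apply, smul_eq_mul]
    exact m15k_divHom_apply N n χ hev γ
  · rintro ⟨χ', rfl⟩
    refine AddMonoidHom.ext fun γ => ?_
    rw [m15k_red_apply, Submodule.coe_smul, AddMonoidHom.smul_apply, smul_eq_mul, Int.cast_mul,
      Int.cast_natCast, ZMod.natCast_self, zero_mul]
    rfl

theorem m15k_red_hecke (q : ℕ) [Fact q.Prime] (χ : s29s_M N) :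
    m15k_red N n (s29h_heckeHpar N q ℤ ℤ χ) = s29h_heckeHom N q (ZMod n) (m15k_red N n χ) := by
  show s29s_cast (ZMod n) (s29h_heckeHom N q ℤ (χ : Additive (Gamma0 N) →+ ℤ)) = _
  rw [← s29s_heckeHom_cast]
  rfl

/-- **`|im ρ_n| = n ^ rank Λ`.** -/
theorem m15k_card_range_red :
    Nat.card ↥(m15k_red N n).range = n ^ Module.finrank ℤ ↥(s29s_M N) := by
  classical
  set r := Module.finrank ℤ ↥(s29s_M N) with hr
  let b : Module.Basis (Fin r) ℤ (s29s_M N) := Module.finBasis ℤ (s29s_M N)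
  -- the coordinates mod `n`
  let π : ↥(s29s_M N) →+ (Fin r → ZMod n) :=
    { toFun := fun χ i => ((b.repr χ i : ℤ) : ZMod n)
      map_zero' := by funext i; simp
      map_add' := fun x y => by funext i; simp }
  have hπ : ∀ χ i, π χ i = ((b.repr χ i : ℤ) : ZMod n) := fun _ _ => rfl
  have hsurj : Function.Surjective π := by
    intro t
    refine ⟨∑ i, ((t i).val : ℤ) • b i, ?_⟩
    funext i
    rw [hπ, map_sum, Finset.sum_apply']
    simp only [map_zsmul, Module.Basis.repr_self, Finsupp.smul_apply, Finsupp.single_apply,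
      smul_eq_mul, mul_ite, mul_one, mul_zero]
    rw [Finset.sum_ite_eq' Finset.univ i]
    simp
  have hker : π.ker = (m15k_red N n).ker := by
    ext χ
    rw [AddMonoidHom.mem_ker, AddMonoidHom.mem_ker, m15k_red_eq_zero_iff]
    constructor
    · intro h0
      have hdvd : ∀ i, (n : ℤ) ∣ b.repr χ i := fun i =>
        (ZMod.intCast_zmod_eq_zero_iff_dvd _ n).mp (by rw [← hπ, h0]; rfl)
      choose d hd using hdvd
      refine ⟨∑ i, d i • b i, ?_⟩
      rw [Finset.smul_sum]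
      conv_lhs => rw [← b.sum_repr χ]
      refine Finset.sum_congr rfl fun i _ => ?_
      rw [hd i, mul_smul]
    · rintro ⟨χ', rfl⟩
      funext i
      rw [hπ, map_zsmul, Finsupp.smul_apply, smul_eq_mul, Int.cast_mul, Int.cast_natCast,
        ZMod.natCast_self, zero_mul]
      rfl
  calc Nat.card ↥(m15k_red N n).range
      = Nat.card (↥(s29s_M N) ⧸ (m15k_red N n).ker) :=
        (Nat.card_congr (QuotientAddGroup.quotientKerEquivRange (m15k_red N n)).toEquiv).symm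
    _ = Nat.card (↥(s29s_M N) ⧸ π.ker) := by rw [hker]
    _ = Nat.card (Fin r → ZMod n) :=
        Nat.card_congr (QuotientAddGroup.quotientKerEquivOfSurjective π hsurj).toEquiv
    _ = n ^ r := by
        rw [Nat.card_eq_fintype_card, Fintype.card_fun, ZMod.card, Fintype.card_fin]

end Red

/-! ### The torsion count (S27) -/

section Count

variable (N : ℕ) [NeZero N]

/-- **S27 for `X₀(N)` over `ℚ̄`**: `|J₀(N)[ℓ^k]| = ℓ^(2 g k)`, `g = genusFF`. -/
theorem m15k_card_Jp (ℓ : ℕ) [Fact ℓ.Prime] (k : ℕ) :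
    Nat.card (s29k_Jp N (ℓ ^ k)) = ℓ ^ (2 * genusFF Kb (ffi_F N) * k) := by
  haveI : FFGen ffi_K (ffd_jBar N) := s18r_ffGen N
  obtain ⟨ι, x, hx⟩ := exists_isTranscendenceBasis' ℚ (A := Kb)
  haveI : IsEmpty ι := hx.isEmpty_iff_isAlgebraic.mpr inferInstance
  haveI : Fintype ι := Fintype.ofIsEmpty
  exact s27r_small0 Kb (ffi_F N) (ffd_jBar N) ι x hx ℓ k

end Count

/-! ### The two images coincide -/

section Range

variable (N : ℕ) [NeZero N] (n : ℕ) [NeZero n]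

theorem m15k_iota_eq (γ : Gamma0 N) : m15c_iota N γ = jConjGamma0 N γ := by
  apply Subtype.ext
  apply Subtype.ext
  ext i j
  fin_cases i <;> fin_cases j <;> simp [jConjMat]

theorem m15k_range_red_le : (m15k_red N n).range ≤ (s30k_kappa N n).range := by
  rintro _ ⟨χ, rfl⟩
  obtain ⟨x, hx⟩ := s30k_kappa_surj N n (m15k_red N n χ) (m15k_red_mem_Hp N n χ)
  exact ⟨x, hx⟩

/-- if `|J[n]| = n ^ rank Λ` then `im ρ_n = im κ_n`. -/
theorem m15k_range_eq (hcard : Nat.card (s29k_Jp N n) = n ^ Module.finrank ℤ ↥(s29s_M N)) :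
    (m15k_red N n).range = (s30k_kappa N n).range := by
  have hpos : Nat.card (s29k_Jp N n) ≠ 0 := by
    rw [hcard]
    exact pow_ne_zero _ (NeZero.ne n)
  haveI : Finite (s29k_Jp N n) := Nat.finite_of_card_ne_zero hpos
  haveI : Finite ↥(s30k_kappa N n).range :=
    Finite.of_equiv _ (Equiv.ofInjective (s30k_kappa N n) (s30k_kappa_injective N n))
  refine AddSubgroup.eq_of_le_of_card_ge (m15k_range_red_le N n) ?_
  rw [m15k_card_range_red, ← hcard]
  exact le_of_eq (Nat.card_congr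
    (Equiv.ofInjective (s30k_kappa N n) (s30k_kappa_injective N n))).symm

end Range

/-! ### The package -/

section Pack

variable (N : ℕ) [NeZero N] (ℓ : ℕ) [hℓ : Fact ℓ.Prime] (k : ℕ)

/-- **the package (A1′) at `ℓ^k` from the count `|J[ℓ^k]| = (ℓ^k) ^ rank Λ`.** -/
theorem m15k_package_of_card
    (hcard : Nat.card (s29k_Jp N (ℓ ^ k)) = (ℓ ^ k) ^ Module.finrank ℤ ↥(s29s_M N)) :
    m15k_Package N ℓ k := by
  haveI : NeZero (ℓ ^ k) := ⟨pow_ne_zero _ hℓ.out.ne_zero⟩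
  have hrange := m15k_range_eq N (ℓ ^ k) hcard
  have hinj := s30k_kappa_injective N (ℓ ^ k)
  have hex : ∀ χ : ↥(s29s_M N), ∃ x : s29k_Jp N (ℓ ^ k),
      s30k_kappa N (ℓ ^ k) x = m15k_red N (ℓ ^ k) χ := fun χ =>
    s30k_kappa_surj N (ℓ ^ k) _ (m15k_red_mem_Hp N (ℓ ^ k) χ)
  choose f hf using hex
  let φ : ↥(s29s_M N) →+ s29k_Jp N (ℓ ^ k) := AddMonoidHom.mk' f (fun a b => hinj (by
    rw [map_add, hf, hf, hf, map_add]))
  have hφ : ∀ χ, s30k_kappa N (ℓ ^ k) (φ χ) = m15k_red N (ℓ ^ k) χ := hf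
  refine ⟨φ, ?_, ?_, ?_, ?_⟩
  · -- surjective
    intro x
    have hx : s30k_kappa N (ℓ ^ k) x ∈ (m15k_red N (ℓ ^ k)).range := by
      rw [hrange]; exact ⟨x, rfl⟩
    obtain ⟨χ, hχ⟩ := hx
    exact ⟨χ, hinj (by rw [hφ, hχ])⟩
  · -- kernel
    intro χ
    have h1 : φ χ = 0 ↔ m15k_red N (ℓ ^ k) χ = 0 := by
      rw [← hφ]
      constructor
      · intro h; rw [h, map_zero]
      · intro h; exact hinj (by rw [h, map_zero])
    rw [h1, m15k_red_eq_zero_iff]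
    have hc : ((ℓ ^ k : ℕ) : ℤ) = (ℓ : ℤ) ^ k := by push_cast; rfl
    rw [hc]
  · -- Hecke
    intro q hq hqN χ
    apply hinj
    rw [hφ, m15k_red_hecke, s30k_kappa_hecke N (ℓ ^ k) q hqN, hφ]
  · -- complex conjugation
    intro χ χ' hχ'
    apply hinj
    rw [map_neg, hφ]
    refine AddMonoidHom.ext fun γ => ?_
    obtain ⟨γ, rfl⟩ := Additive.ofMul.surjective γ
    rw [AddMonoidHom.neg_apply, m15c_kappa_conj, neg_neg, hφ, m15k_red_apply, m15k_red_apply,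
      hχ', m15k_iota_eq]
    rfl

end Pack

/-! ### All primes from one -/

section Final

variable (N : ℕ) [NeZero N]

/-- **a package at one prime computes the rank of the lattice: `rank Λ = 2 genusFF`.** -/
theorem m15k_rank_of_package (ℓ₀ : ℕ) [hℓ₀ : Fact ℓ₀.Prime] (h₀ : m15k_Package N ℓ₀ 1) :
    Module.finrank ℤ ↥(s29s_M N) = 2 * genusFF Kb (ffi_F N) := by
  haveI : NeZero (ℓ₀ ^ 1) := ⟨pow_ne_zero _ hℓ₀.out.ne_zero⟩
  obtain ⟨φ₀, hsurj, hker, -, -⟩ := h₀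
  have hk : φ₀.ker = (m15k_red N (ℓ₀ ^ 1)).ker := by
    ext χ
    rw [AddMonoidHom.mem_ker, AddMonoidHom.mem_ker, hker, m15k_red_eq_zero_iff]
    have hc : ((ℓ₀ ^ 1 : ℕ) : ℤ) = (ℓ₀ : ℤ) ^ 1 := by push_cast; rfl
    rw [hc]
  have h1 : Nat.card (s29k_Jp N (ℓ₀ ^ 1)) = (ℓ₀ ^ 1) ^ Module.finrank ℤ ↥(s29s_M N) := by
    calc Nat.card (s29k_Jp N (ℓ₀ ^ 1))
        = Nat.card (↥(s29s_M N) ⧸ φ₀.ker) :=
          (Nat.card_congr (QuotientAddGroup.quotientKerEquivOfSurjective φ₀ hsurj).toEquiv).symm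
      _ = Nat.card (↥(s29s_M N) ⧸ (m15k_red N (ℓ₀ ^ 1)).ker) := by rw [hk]
      _ = Nat.card ↥(m15k_red N (ℓ₀ ^ 1)).range :=
          Nat.card_congr (QuotientAddGroup.quotientKerEquivRange (m15k_red N (ℓ₀ ^ 1))).toEquiv
      _ = _ := m15k_card_range_red N (ℓ₀ ^ 1)
  rw [m15k_card_Jp, pow_one, mul_one] at h1
  exact (Nat.pow_right_injective hℓ₀.out.two_le h1).symm

/-- **the package (A1′) at ONE prime gives the package at EVERY prime and every level.** -/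
theorem m15k_package_all (ℓ₀ : ℕ) [Fact ℓ₀.Prime] (h₀ : m15k_Package N ℓ₀ 1)
    (ℓ : ℕ) [Fact ℓ.Prime] (k : ℕ) : m15k_Package N ℓ k := by
  refine m15k_package_of_card N ℓ k ?_
  rw [m15k_card_Jp, m15k_rank_of_package N ℓ₀ h₀, ← pow_mul, mul_comm]

/-- **(A-conj) at every prime `p'` from the package at one prime `ℓ₀`.** -/
theorem m15k_aconj_all (p : ℕ) [NeZero p] (ℓ₀ : ℕ) [Fact ℓ₀.Prime] (h₀ : m15k_Package p ℓ₀ 1)
    (p' : ℕ) [Fact p'.Prime] :
    ∃ B : ℕ, B ≠ 0 ∧ ∀ (r : ℕ) (t : Module.End ℤ (JZero p)), t ∈ m15_T p →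
      Nat.card ↥((m15_tors p (p' ^ r)).map (t : JZero p →ₗ[ℤ] JZero p).toAddMonoidHom) ≤
        B * Nat.card ↥((m15_tors p (p' ^ r)).map (t : JZero p →ₗ[ℤ] JZero p).toAddMonoidHom ⊓
          m15_eig (JZero p) complexConjugation 1) ^ 2 :=
  m15k_aconj_of_package p p' fun k => m15k_package_all p ℓ₀ h₀ p' k

/-- **`m15_Aconj` (as typed in MEis2.lean, every `p' ≠ p`, `2` and `3` included) from the package
at one prime per level.** -/
theorem m15k_Aconj_of_one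
    (h : ∀ (p : ℕ) [NeZero p], p.Prime → ∃ (ℓ₀ : ℕ) (_ : Fact ℓ₀.Prime), m15k_Package p ℓ₀ 1) :
    m15_Aconj := by
  intro p _ hp p' hp' _
  obtain ⟨ℓ₀, hℓ₀, h₀⟩ := h p hp
  haveI : Fact p'.Prime := ⟨hp'⟩
  exact m15k_aconj_all p ℓ₀ h₀ p'

end Final

/-! ### From the count at one prime -/

section FromCount

variable (N : ℕ) [NeZero N]

/-- `rank Λ ≤ 2 genusFF` (always). -/
theorem m15k_rank_le : Module.finrank ℤ ↥(s29s_M N) ≤ 2 * genusFF Kb (ffi_F N) := by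
  haveI : Fact (Nat.Prime 2) := ⟨Nat.prime_two⟩
  haveI : NeZero (2 ^ 1) := ⟨by norm_num⟩
  have hc := m15k_card_Jp N 2 1
  have hpos : Nat.card (s29k_Jp N (2 ^ 1)) ≠ 0 := by
    rw [hc]; exact pow_ne_zero _ (by norm_num)
  haveI : Finite (s29k_Jp N (2 ^ 1)) := Nat.finite_of_card_ne_zero hpos
  haveI : Finite ↥(s30k_kappa N (2 ^ 1)).range :=
    Finite.of_equiv _ (Equiv.ofInjective (s30k_kappa N (2 ^ 1)) (s30k_kappa_injective N (2 ^ 1)))
  have h1 : Nat.card ↥(m15k_red N (2 ^ 1)).range ≤ Nat.card ↥(s30k_kappa N (2 ^ 1)).range :=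
    AddSubgroup.card_le_of_le (m15k_range_red_le N (2 ^ 1))
  have h2 : Nat.card ↥(s30k_kappa N (2 ^ 1)).range = Nat.card (s29k_Jp N (2 ^ 1)) :=
    (Nat.card_congr
      (Equiv.ofInjective (s30k_kappa N (2 ^ 1)) (s30k_kappa_injective N (2 ^ 1)))).symm
  rw [m15k_card_range_red, h2, hc, pow_one, mul_one] at h1
  exact (Nat.pow_le_pow_iff_right (by norm_num)).mp h1

/-- the count `|J[ℓ₀]| ≤ ℓ₀ ^ rank Λ` at one prime computes the rank. -/
theorem m15k_rank_of_count (ℓ₀ : ℕ) [hℓ₀ : Fact ℓ₀.Prime]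
    (h : Nat.card (s29k_Jp N ℓ₀) ≤ ℓ₀ ^ Module.finrank ℤ ↥(s29s_M N)) :
    Module.finrank ℤ ↥(s29s_M N) = 2 * genusFF Kb (ffi_F N) := by
  refine le_antisymm (m15k_rank_le N) ?_
  have hc := m15k_card_Jp N ℓ₀ 1
  have he : Nat.card (s29k_Jp N (ℓ₀ ^ 1)) = Nat.card (s29k_Jp N ℓ₀) := by rw [pow_one]
  rw [he, mul_one] at hc
  rw [hc] at h
  exact (Nat.pow_le_pow_iff_right hℓ₀.out.one_lt).mp h

/-- **the package (A1′) at every prime and level from the count at one prime.** -/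
theorem m15k_package_of_count (ℓ₀ : ℕ) [Fact ℓ₀.Prime]
    (h : Nat.card (s29k_Jp N ℓ₀) ≤ ℓ₀ ^ Module.finrank ℤ ↥(s29s_M N))
    (ℓ : ℕ) [Fact ℓ.Prime] (k : ℕ) : m15k_Package N ℓ k := by
  refine m15k_package_of_card N ℓ k ?_
  rw [m15k_card_Jp, m15k_rank_of_count N ℓ₀ h, ← pow_mul, mul_comm]

/-- **`m15_Aconj` from the count at one prime per level.** -/
theorem m15k_Aconj_of_count
    (h : ∀ (p : ℕ) [NeZero p], p.Prime → ∃ (ℓ₀ : ℕ) (_ : Fact ℓ₀.Prime),
      Nat.card (s29k_Jp p ℓ₀) ≤ ℓ₀ ^ Module.finrank ℤ ↥(s29s_M p)) :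
    m15_Aconj := by
  intro p _ hp p' hp' _
  obtain ⟨ℓ₀, hℓ₀, h₀⟩ := h p hp
  haveI : Fact p'.Prime := ⟨hp'⟩
  exact m15k_aconj_of_package p p' fun k => m15k_package_of_count p ℓ₀ h₀ p' k

end FromCount

end Fermat.Agent.Lib.S15
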