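/-
(M) programme for S15 (helper1, prefix `m15k_`): the nodes of helper7's graph proved in `K*.lean`,
under their typed names.
-/
import Fermat.Agent.Lib.S15.MEis3
import Fermat.Agent.Lib.S15.KClNe
import Fermat.Agent.Lib.S15.KPack

set_option autoImplicit false

namespace Fermat.Agent.Lib.S15

/-- **[C≠0]** `m15_ClNe`. -/
theorem m15k_ClNe : m15_ClNe := fun p _ hp hp' c => m15k_clNe p hp hp' c

/-- **(A-conj)** `m15_Aconj` (every `p' ≠ p`, `2` and `3` included) from the package (A1′) at ONE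
prime `ℓ₀` for every prime level `p`. -/
theorem m15k_Aconj (h : ∀ (p : ℕ) [NeZero p], p.Prime →
    ∃ (ℓ₀ : ℕ) (_ : Fact ℓ₀.Prime), m15k_Package p ℓ₀ 1) : m15_Aconj :=
  m15k_Aconj_of_one h

end Fermat.Agent.Lib.S15
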