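/-
(M) node [DIV-b] (helper5, prefix `s15v_`): `J₀(N)(ℚ̄) = Pic⁰(ℚ̄(X₀(N)))` is divisible by every
prime `ℓ`, from the contract [DIV-a] `s27_DivFp` (divisibility of `Pic⁰` over `𝔽̄_p`).
The conclusion is helper7's typed node `m15_Div` (MEis3.lean), spelled out.
-/
import Fermat.Agent.Lib.S27.RDivTors
import Fermat.Agent.Lib.S18.RData

set_option autoImplicit false
set_option linter.unusedSectionVars false
set_option linter.unusedVariables false
set_option linter.style.haveILetI false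

noncomputable section

namespace Fermat.Agent.Lib.S15

open ModularCurve AlgebraicCurve Fermat.Agent.Lib.FF Fermat.Agent.Lib.S27 Fermat.Agent.Lib.S18

/-- `ℚ̄` has the empty transcendence basis over `ℚ`. -/
theorem s15v_basis :
    ∃ (ι : Type) (_ : Fintype ι) (t : ι → AlgebraicClosure ℚ), IsTranscendenceBasis ℚ t := by
  obtain ⟨ι, t, ht⟩ := exists_isTranscendenceBasis' ℚ (AlgebraicClosure ℚ)
  have h0 : (DivisionRing.toRatAlgebra : Algebra ℚ (AlgebraicClosure ℚ)) =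
      AlgebraicClosure.instAlgebra ℚ := Subsingleton.elim _ _
  have h1 : Algebra.IsAlgebraic ℚ (AlgebraicClosure ℚ) := by
    have h := AlgebraicClosure.isAlgebraic ℚ
    rw [← h0] at h
    exact h
  haveI : IsEmpty ι := ht.isEmpty_iff_isAlgebraic.mpr h1
  exact ⟨ι, Fintype.ofIsEmpty, t, ht⟩

/-- **[DIV-b]**: `m15_Div` from [DIV-a]. -/
theorem s15v_div (hD : s27_DivFp) :
    ∀ (N : ℕ) [NeZero N] (ℓ : ℕ), ℓ.Prime → ∀ z : JZero N, ∃ y : JZero N, ℓ • y = z := by
  intro N _ ℓ hℓ z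
  haveI : Fact ℓ.Prime := ⟨hℓ⟩
  haveI : FFGen (AlgebraicClosure ℚ) (ffd_jBar N) := s18r_ffGen N
  obtain ⟨ι, hι, t, ht⟩ := s15v_basis
  exact s27v_div_of hD (AlgebraicClosure ℚ) ↥(modularFunctionFieldBar N) (ffd_jBar N) ι t ht ℓ z

/-- **[DIV] PROVED** (= helper7's `m15_Div`, unfolded). -/
theorem s15v_Div :
    ∀ (N : ℕ) [NeZero N] (ℓ : ℕ), ℓ.Prime → ∀ z : JZero N, ∃ y : JZero N, ℓ • y = z :=
  s15v_div s27v_divFp

end Fermat.Agent.Lib.S15
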