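/-
(M) programme (S15), node [R] (helper9): the ABSTRACT δ-trick.
`F, F'` function fields over `K`, `E, E'` over `k`, two correspondences `T = α_* β^*` on `Div F` and
`T̄ = ᾱ_* β̄^*` on `Div E`, a map of places `r : Place K F → Place k E`.  If `r_* T = T̄ r_*` on a
generating set of the principal divisors of `F`, and the "bounded homomorphism lemma" holds for the
principal divisors of `F`, then `r_* T = T̄ r_*` on all divisors of degree zero.

* `m15r_correspondence_principal` : `ψ_* φ^* (div y) = div (Nm_ψ (φ y))`;
* `m15r_coeff_le_degree`          : coefficients of an effective divisor are bounded by its degree;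
* `m15r_hom_const_degZero`        : a homomorphism which is constant on points kills degree zero;
* `m15r_delta_degZero`            : the δ-trick.
-/
import Fermat.Prelude.Def_AlgebraicCurve_Correspondence
import Fermat.Agent.Lib.S37.UUnique

set_option autoImplicit false
set_option linter.style.haveILetI false
set_option linter.unusedSectionVars false
set_option linter.unusedVariables false

noncomputable section

namespace Fermat.Agent.Lib.S15

open AlgebraicCurve Fermat.Agent.Lib.S37

/-! ### Correspondences on principal divisors -/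

section Principal

variable {K F F' : Type*} [Field K] [Field F] [Field F'] [Algebra K F] [Algebra K F']
  [HasPrincipalDivisors K F']
  (φ ψ : F →ₐ[K] F') (hφ : φ.toRingHom.IsIntegral) (hψ : ψ.toRingHom.IsIntegral)

/-- `ψ_* φ^* (div y) = div (Nm_ψ (φ y))`. -/
theorem m15r_correspondence_principal (hfin : FiniteAlong K ψ) (hN : NormFormulaAlong K ψ hfin)
    {y : F} (hy : y ≠ 0) {D : Divisor K F} (hD : ∀ v : Place K F, D v = v.ord y)
    (v : Place K F) :
    Divisor.correspondence φ ψ hφ hψ D v =
      v.ord (letI := algebraAlong ψ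
        Algebra.norm F (φ y)) := by
  have hφy : φ y ≠ 0 := by
    intro h0
    apply hy
    apply φ.toRingHom.injective
    rw [map_zero]
    exact h0
  have hpull : ∀ w : Place K F', Divisor.pullbackAlong φ hφ D w = w.ord (φ y) := by
    intro w
    letI := algebraAlong φ
    haveI := isScalarTower_along φ
    haveI := isIntegral_along φ hφ
    exact Divisor.pullback_apply_eq_ord hD w
  show Divisor.pushforwardAlong ψ hψ (Divisor.pullbackAlong φ hφ D) v = _
  letI := algebraAlong ψ
  haveI := isScalarTower_along ψ
  haveI := isIntegral_along ψ hψ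
  haveI : Module.Finite F F' := hfin
  exact hN (φ y) hφy _ hpull v

end Principal

/-! ### Effective divisors -/

section Effective

variable {K F : Type*} [Field K] [Field F] [Algebra K F]

theorem m15r_degree_eq_sum (hdeg : ∀ P : Place K F, P.deg = 1) (D : Divisor K F) :
    Divisor.degree D = D.sum fun _ n => n := by
  induction D using Finsupp.induction with
  | zero => simp
  | single_add P n D hP hn ih =>
    rw [map_add, ih, Divisor.degree_single, hdeg, Nat.cast_one, mul_one,
      Finsupp.sum_add_index' (fun _ => rfl) (fun _ _ _ => rfl), Finsupp.sum_single_index rfl]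

/-- the coefficients of an effective divisor are bounded by its degree (all places of degree
one). -/
theorem m15r_coeff_le_degree (hdeg : ∀ P : Place K F, P.deg = 1) (D : Divisor K F)
    (hD : ∀ P, 0 ≤ D P) (Q : Place K F) : D Q ≤ Divisor.degree D := by
  classical
  rw [m15r_degree_eq_sum hdeg, Finsupp.sum]
  by_cases hQ : Q ∈ D.support
  · exact Finset.single_le_sum (f := fun P => D P) (fun P _ => hD P) hQ
  · rw [Finsupp.notMem_support_iff.mp hQ]
    exact Finset.sum_nonneg fun P _ => hD P

variable {F' : Type*} [Field F'] [Algebra K F'] [Algebra F F'] [IsScalarTower K F F']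
  [Algebra.IsIntegral F F']

theorem m15r_pushforward_nonneg (D : Divisor K F') (hD : ∀ w, 0 ≤ D w) (v : Place K F) :
    0 ≤ Divisor.pushforward F D v := by
  classical
  rw [Divisor.pushforward_apply]
  refine Finset.sum_nonneg fun w _ => ?_
  split_ifs
  · exact mul_nonneg (hD w) (Nat.cast_nonneg _)
  · exact le_rfl

theorem m15r_pullback_nonneg [HasPrincipalDivisors K F'] (D : Divisor K F) (hD : ∀ v, 0 ≤ D v)
    (w : Place K F') : 0 ≤ Divisor.pullback F' D w := by
  rw [Divisor.pullback_apply]
  exact mul_nonneg (Nat.cast_nonneg _) (hD _)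

end Effective

section EffectiveAlong

variable {K F F' : Type*} [Field K] [Field F] [Field F'] [Algebra K F] [Algebra K F']
  [HasPrincipalDivisors K F']
  (φ ψ : F →ₐ[K] F') (hφ : φ.toRingHom.IsIntegral) (hψ : ψ.toRingHom.IsIntegral)

theorem m15r_correspondence_nonneg (D : Divisor K F) (hD : ∀ v, 0 ≤ D v) (v : Place K F) :
    0 ≤ Divisor.correspondence φ ψ hφ hψ D v := by
  have h1 : ∀ w : Place K F', 0 ≤ Divisor.pullbackAlong φ hφ D w := by
    intro w
    letI := algebraAlong φ
    haveI := isScalarTower_along φ
    haveI := isIntegral_along φ hφ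
    exact m15r_pullback_nonneg D hD w
  show 0 ≤ Divisor.pushforwardAlong ψ hψ (Divisor.pullbackAlong φ hφ D) v
  letI := algebraAlong ψ
  haveI := isScalarTower_along ψ
  haveI := isIntegral_along ψ hψ
  exact m15r_pushforward_nonneg _ h1 v

/-- the coefficients of `T (P)` are bounded by the degree of `φ`. -/
theorem m15r_correspondence_single_bound (hFI : FundamentalIdentityAlong K φ hφ)
    (hdeg : ∀ P : Place K F, P.deg = 1) (P v : Place K F) :
    0 ≤ Divisor.correspondence φ ψ hφ hψ (Finsupp.single P 1) v ∧
      Divisor.correspondence φ ψ hφ hψ (Finsupp.single P 1) v ≤ (finrankAlong K φ : ℤ) := by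
  have hnn : ∀ v, 0 ≤ (Finsupp.single P (1 : ℤ) : Divisor K F) v := by
    intro v
    classical
    rw [Finsupp.single_apply]
    split_ifs <;> norm_num
  have h0 := m15r_correspondence_nonneg φ ψ hφ hψ _ hnn
  refine ⟨h0 v, ?_⟩
  have h1 := m15r_coeff_le_degree hdeg _ h0 v
  rw [Divisor.degree_correspondence φ ψ hφ hψ hFI, Divisor.degree_single, hdeg, Nat.cast_one,
    mul_one, mul_one] at h1
  exact h1

end EffectiveAlong

/-! ### Homomorphisms which are constant on points -/

section Const

variable {X Y : Type*}

theorem m15r_mapDomain_nonneg (r : X → Y) (D : X →₀ ℤ) (hD : ∀ P, 0 ≤ D P) (Q : Y) :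
    0 ≤ Finsupp.mapDomain r D Q := by
  classical
  rw [Finsupp.mapDomain, Finsupp.sum_apply]
  refine Finset.sum_nonneg fun P _ => ?_
  show 0 ≤ (Finsupp.single (r P) (D P) : Y →₀ ℤ) Q
  rw [Finsupp.single_apply]
  split_ifs
  · exact hD P
  · exact le_rfl

/-- a homomorphism which takes the same value on all points kills the divisors of total weight
zero. -/
theorem m15r_hom_const_degZero (δ : (X →₀ ℤ) →+ (Y →₀ ℤ))
    (hconst : ∀ P P' : X, δ (Finsupp.single P 1) = δ (Finsupp.single P' 1))
    (D : X →₀ ℤ) (hD : (D.sum fun _ n => n) = 0) : δ D = 0 := by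
  classical
  by_cases hne : D = 0
  · rw [hne, map_zero]
  obtain ⟨P₀, -⟩ : ∃ P₀, P₀ ∈ D.support := by
    by_contra hemp
    push Not at hemp
    exact hne (Finsupp.support_eq_empty.mp (Finset.eq_empty_of_forall_notMem hemp))
  have h1 : ∀ (P : X) (n : ℤ), δ (Finsupp.single P n) = n • δ (Finsupp.single P₀ 1) := by
    intro P n
    have : (Finsupp.single P n : X →₀ ℤ) = n • Finsupp.single P 1 := by
      rw [Finsupp.smul_single, smul_eq_mul, mul_one]
    rw [this, map_zsmul, hconst P P₀]
  have h2 : δ D = D.sum fun P n => δ (Finsupp.single P n) := by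
    conv_lhs => rw [← Finsupp.sum_single D]
    exact map_finsuppSum δ D _
  rw [h2, Finsupp.sum, Finset.sum_congr rfl fun P _ => h1 P (D P), ← Finset.sum_smul]
  have h3 : ∑ P ∈ D.support, D P = 0 := hD
  rw [h3, zero_smul]

end Const

/-! ### The δ-trick -/

section Delta

variable {K k F F' E E' : Type*} [Field K] [Field k] [Field F] [Field F'] [Field E] [Field E']
  [Algebra K F] [Algebra K F'] [Algebra k E] [Algebra k E']
  [HasPrincipalDivisors K F'] [HasPrincipalDivisors k E']
  (α β : F →ₐ[K] F') (hα : α.toRingHom.IsIntegral) (hβ : β.toRingHom.IsIntegral)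
  (αb βb : E →ₐ[k] E') (hαb : αb.toRingHom.IsIntegral) (hβb : βb.toRingHom.IsIntegral)
  (r : Place K F → Place k E)

/-- the defect `δ = r_* T - T̄ r_*`. -/
def m15r_delta : Divisor K F →+ Divisor k E :=
  (Finsupp.mapDomain.addMonoidHom r).comp (Divisor.correspondence β α hβ hα) -
    (Divisor.correspondence βb αb hβb hαb).comp (Finsupp.mapDomain.addMonoidHom r)

theorem m15r_delta_apply (D : Divisor K F) :
    m15r_delta α β hα hβ αb βb hαb hβb r D =
      Finsupp.mapDomain r (Divisor.correspondence β α hβ hα D) -
        Divisor.correspondence βb αb hβb hαb (Finsupp.mapDomain r D) :=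
  rfl

/-- **the δ-trick.** -/
theorem m15r_delta_degZero
    (hB : s37u_BoundedConst (Divisor.principal (K := K) (F := F)) (Place k E))
    (S : Set (Divisor K F))
    (hS : Divisor.principal (K := K) (F := F) ≤ AddSubgroup.closure S)
    (hkill : ∀ D ∈ S, Finsupp.mapDomain r (Divisor.correspondence β α hβ hα D) =
      Divisor.correspondence βb αb hβb hαb (Finsupp.mapDomain r D))
    (hFI : FundamentalIdentityAlong K β hβ) (hFIb : FundamentalIdentityAlong k βb hβb)
    (hdegF : ∀ P : Place K F, P.deg = 1) (hdegE : ∀ Q : Place k E, Q.deg = 1)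
    (D : Divisor K F) (hD : D ∈ Divisor.degZero (K := K) (F := F)) :
    Finsupp.mapDomain r (Divisor.correspondence β α hβ hα D) =
      Divisor.correspondence βb αb hβb hαb (Finsupp.mapDomain r D) := by
  classical
  set δ := m15r_delta α β hα hβ αb βb hαb hβb r with hδ
  -- `δ` kills principal divisors
  have hprin : ∀ D ∈ Divisor.principal (K := K) (F := F), δ D = 0 := by
    intro D hD
    have hD' := hS hD
    clear hD
    induction hD' using AddSubgroup.closure_induction with
    | mem E hE => rw [hδ, m15r_delta_apply, hkill E hE, sub_self]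
    | zero => exact map_zero δ
    | add E E' _ _ hE hE' => rw [map_add, hE, hE', add_zero]
    | neg E _ hE => rw [map_neg, hE, neg_zero]
  -- `δ` is bounded
  have hbd : ∃ C : ℤ, ∀ (P : Place K F) (Q : Place k E), |δ (Finsupp.single P 1) Q| ≤ C := by
    refine ⟨(finrankAlong K β : ℤ) + (finrankAlong k βb : ℤ), fun P Q => ?_⟩
    rw [hδ, m15r_delta_apply, Finsupp.sub_apply, Finsupp.mapDomain_single]
    have h1 := m15r_correspondence_single_bound βb αb hβb hαb hFIb hdegE (r P) Q
    -- the first term
    have hT0 : ∀ v, 0 ≤ Divisor.correspondence β α hβ hα (Finsupp.single P 1) v := fun v =>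
      (m15r_correspondence_single_bound β α hβ hα hFI hdegF P v).1
    have h2 : 0 ≤ Finsupp.mapDomain r (Divisor.correspondence β α hβ hα (Finsupp.single P 1)) Q :=
      m15r_mapDomain_nonneg r _ hT0 Q
    have h3 : Finsupp.mapDomain r (Divisor.correspondence β α hβ hα (Finsupp.single P 1)) Q ≤
        (finrankAlong K β : ℤ) := by
      have h4 := m15r_coeff_le_degree hdegE _
        (m15r_mapDomain_nonneg r _ hT0) Q
      have h5 : Divisor.degree (Finsupp.mapDomain r
          (Divisor.correspondence β α hβ hα (Finsupp.single P 1))) =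
          Divisor.degree (Divisor.correspondence β α hβ hα (Finsupp.single P 1)) := by
        rw [m15r_degree_eq_sum hdegE, m15r_degree_eq_sum hdegF,
          Finsupp.sum_mapDomain_index (fun _ => rfl) (fun _ _ _ => rfl)]
      rw [h5, Divisor.degree_correspondence β α hβ hα hFI, Divisor.degree_single, hdegF,
        Nat.cast_one, mul_one, mul_one] at h4
      exact h4
    rw [abs_le]
    constructor <;> linarith [h1.1, h1.2]
  have hconst := hB δ hprin hbd
  have h0 : δ D = 0 := by
    apply m15r_hom_const_degZero δ hconst D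
    rw [← m15r_degree_eq_sum hdegF]
    exact Divisor.mem_degZero.mp hD
  rw [hδ, m15r_delta_apply, sub_eq_zero] at h0
  exact h0

end Delta

end Fermat.Agent.Lib.S15
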