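/-
(M) programme (S15), node [R] (helper9): the CONCRETE inputs of the δ-trick at level `N → N·q`
(`q ≠ ℓ` prime, `ℓ ∤ N·q`, `A ∣ ℓ`):
* `m15r_red_beta` : the Gauss reduction commutes with `β` (`f(T) ↦ f(T^q)`) on integral series;
* `m15r_kill`     : `r_* (α_* β^* D) = ᾱ_* β̄^* (r_* D)` for every integral principal divisor `D`
                    (norm formula on both fibres, `red ∘ Nm = N̄m ∘ red` [SF3], conservation for the
                    Gauss unit `Nm_α(β y)` [SF4]);
* `m15r_hecke_ker`: the kernel of `reductionModL A N` is stable under the Prelude's `T_q`.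
-/
import Fermat.Agent.Lib.S15.RDelta
import Fermat.Agent.Lib.S15.RUnits
import Fermat.Agent.Lib.S15.RSpecial
import Fermat.Agent.Lib.S37.UFinal
import Fermat.Prelude.Thm_ModularCurve_coeffMap_qExpand
import Fermat.Prelude.Def_ModularCurve_HeckeOperatorTotal

set_option autoImplicit false
set_option linter.style.haveILetI false
set_option linter.unusedSectionVars false
set_option linter.unusedVariables false
set_option synthInstance.maxHeartbeats 400000
set_option maxHeartbeats 1600000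

noncomputable section

namespace Fermat.Agent.Lib.S15

open ModularCurve HahnSeries AlgebraicCurve Fermat.Agent.Lib.S18 Fermat.Agent.Lib.S37
  Fermat.Agent.Lib.S44 Fermat.Agent.Lib.FF

local notation "Qbar" => AlgebraicClosure ℚ

variable (A : ValuationSubring Qbar) {ℓ : ℕ} [Fact ℓ.Prime] (hA : A.LiesOverPrime ℓ)
  (N q : ℕ) [NeZero N] [NeZero q] (hℓNq : ¬ ℓ ∣ N * q)

local notation "κ" => IsLocalRing.ResidueField A

/-- the Gauss reduction commutes with `β`. -/
theorem m15r_red_beta (Y : LaurentSeries ↥A)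
    (hY : coeffMap A.subtype Y ∈ modularFunctionFieldBar N)
    (hYk : coeffMap (IsLocalRing.residue ↥A) Y ∈ modularFunctionFieldFullC κ N) :
    ∃ hmem : heckeBetaBar Qbar N q ⟨coeffMap A.subtype Y, hY⟩ ∈ s37r_OF A (N * q) hA,
      s37r_redF A (N * q) hA hℓNq ⟨heckeBetaBar Qbar N q ⟨coeffMap A.subtype Y, hY⟩, hmem⟩ =
        m15r_betaC κ N q ⟨coeffMap (IsLocalRing.residue ↥A) Y, hYk⟩ := by
  set Y' : LaurentSeries ↥A := qExpand ↥A q Y with hY'def
  have hιY' : coeffMap A.subtype Y' = qExpand Qbar q (coeffMap A.subtype Y) :=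
    ModularCurve.coeffMap_qExpand _ q Y
  have hY' : coeffMap A.subtype Y' ∈ modularFunctionFieldBar (N * q) := by
    rw [hιY']
    exact (heckeBetaBar Qbar N q ⟨coeffMap A.subtype Y, hY⟩).2
  have heq : heckeBetaBar Qbar N q ⟨coeffMap A.subtype Y, hY⟩ = ⟨coeffMap A.subtype Y', hY'⟩ :=
    Subtype.ext hιY'.symm
  have hmem' := s37r_iota_mem_OF A (N * q) hA Y' hY'
  have hmem : heckeBetaBar Qbar N q ⟨coeffMap A.subtype Y, hY⟩ ∈ s37r_OF A (N * q) hA := by
    rw [heq]
    exact hmem'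
  refine ⟨hmem, ?_⟩
  apply Subtype.ext
  rw [s37r_coe_redF, m15r_coe_betaC]
  have h1 : (⟨heckeBetaBar Qbar N q ⟨coeffMap A.subtype Y, hY⟩, hmem⟩ : ↥(s37r_OF A (N * q) hA)) =
      ⟨⟨coeffMap A.subtype Y', hY'⟩, hmem'⟩ := Subtype.ext heq
  rw [h1, s37r_redV_iota A (N * q) hA Y' hY']
  exact ModularCurve.coeffMap_qExpand _ q Y

variable (r : Place Qbar ↥(modularFunctionFieldBar N) →
  Place (IsLocalRing.ResidueField A) ↥(modularFunctionFieldFullC (IsLocalRing.ResidueField A) N))

include hA hℓNq in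
/-- **the kill step**: `r_* T_q = T̄_q r_*` on integral principal divisors. -/
theorem m15r_kill (hr : IsPlaceReductionModL A N r)
    (hgen : PrincipalGeneratedByIntegral A (IsLocalRing.residue ↥A) N)
    (hα : HeckeAlphaBarIntegral Qbar N q) (hβ : HeckeBetaBarIntegral Qbar N q)
    [HasPrincipalDivisors Qbar ↥(modularFunctionFieldBar (N * q))]
    (hfin : FiniteAlong Qbar (heckeAlphaBar Qbar N q))
    (hNα : NormFormulaAlong Qbar (heckeAlphaBar Qbar N q) hfin)
    [HasPrincipalDivisors κ ↥(modularFunctionFieldFullC κ (N * q))]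
    (hαb : (m15r_inclC N (N * q) κ (dvd_mul_right N q)).toRingHom.IsIntegral)
    (hβb : (m15r_betaC κ N q).toRingHom.IsIntegral)
    (D : Divisor Qbar ↥(modularFunctionFieldBar N))
    (hD : D ∈ integralPrincipalDivisors A (IsLocalRing.residue ↥A) N) :
    Finsupp.mapDomain r
        (Divisor.correspondence (heckeBetaBar Qbar N q) (heckeAlphaBar Qbar N q) hβ hα D) =
      Divisor.correspondence (m15r_betaC κ N q) (m15r_inclC N (N * q) κ (dvd_mul_right N q))
        hβb hαb (Finsupp.mapDomain r D) := by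
  have hℓ : ℓ.Prime := Fact.out
  have hℓN : ¬ ℓ ∣ N := fun h => hℓNq (h.trans (dvd_mul_right N q))
  haveI : IsAlgClosed κ := s18n_isAlgClosed_residueField A
  haveI : CharP κ ℓ := s18x_charP_residueField A hℓ hA
  obtain ⟨Y, hY, hYk, hne, hDY⟩ := hD
  -- the two functions
  have hy0 : (⟨coeffMap A.subtype Y, hY⟩ : ↥(modularFunctionFieldBar N)) ≠ 0 := by
    intro h0
    have h1 : coeffMap A.subtype Y = 0 := congrArg Subtype.val h0
    have h2 : Y = 0 := s37r_iota_injective A (by rw [h1, map_zero])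
    exact hne (by rw [h2, map_zero])
  have hyb0 : (⟨coeffMap (IsLocalRing.residue ↥A) Y, hYk⟩ : ↥(modularFunctionFieldFullC κ N)) ≠ 0 :=
    fun h0 => hne (congrArg Subtype.val h0)
  -- generic side
  have hgenside := m15r_correspondence_principal (heckeBetaBar Qbar N q) (heckeAlphaBar Qbar N q)
    hβ hα hfin hNα hy0 hDY
  -- reduction of `β y`
  obtain ⟨hmem, hredβ⟩ := m15r_red_beta A hA N q hℓNq Y hY hYk
  -- reduction of the norm
  obtain ⟨hz, hnorm⟩ := m15r_norm_redF A hA N (N * q) hℓNq (heckeAlphaBar Qbar N q)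
    (coe_heckeAlphaBar N q) (dvd_mul_right N q)
    ⟨heckeBetaBar Qbar N q ⟨coeffMap A.subtype Y, hY⟩, hmem⟩
  rw [hredβ] at hnorm
  obtain ⟨-, hfinb, -⟩ := m15r_finite_and_finrank_eq A hA N (N * q) hℓNq (heckeAlphaBar Qbar N q)
    (coe_heckeAlphaBar N q) (dvd_mul_right N q)
  have hβyb : m15r_betaC κ N q ⟨coeffMap (IsLocalRing.residue ↥A) Y, hYk⟩ ≠ 0 := by
    intro h0
    apply hyb0
    apply (m15r_betaC κ N q).toRingHom.injective
    rw [map_zero]
    exact h0
  have hne' : s37r_redF A N hA hℓN ⟨_, hz⟩ ≠ 0 := by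
    rw [hnorm]
    letI := algebraAlong (m15r_inclC N (N * q) κ (dvd_mul_right N q))
    haveI : Module.Finite ↥(modularFunctionFieldFullC κ N) ↥(modularFunctionFieldFullC κ (N * q)) :=
      hfinb
    exact Algebra.norm_ne_zero_iff.mpr hβyb
  -- [SF4]
  have h1 : ∀ Q, Finsupp.mapDomain r
      (Divisor.correspondence (heckeBetaBar Qbar N q) (heckeAlphaBar Qbar N q) hβ hα D) Q =
      Q.ord (s37r_redF A N hA hℓN ⟨_, hz⟩) := fun Q =>
    m15r_cons_units A N hA hℓN hr hgen _ hz hne' _ hgenside Q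
  -- special side
  have h2 : ∀ Q, Finsupp.mapDomain r D Q =
      Q.ord (⟨coeffMap (IsLocalRing.residue ↥A) Y, hYk⟩ : ↥(modularFunctionFieldFullC κ N)) :=
    fun Q => hr.2 Y hY hYk hne D hDY Q
  have hNαb : NormFormulaAlong κ (m15r_inclC N (N * q) κ (dvd_mul_right N q)) hfinb :=
    m15r_special_normFormulaAlong κ ℓ N (N * q) _ (m15r_hord_inclC κ ℓ N (N * q) _) hfinb
  have h3 := m15r_correspondence_principal (m15r_betaC κ N q)
    (m15r_inclC N (N * q) κ (dvd_mul_right N q)) hβb hαb hfinb hNαb hyb0 h2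
  ext Q
  rw [h1 Q, h3 Q, hnorm]

end Fermat.Agent.Lib.S15
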