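/-
(M) programme (S15), node [R] (helper9): **the kernel of the reduction at a good place is a Hecke
submodule** — `m15r_R : m15_R`.
* `m15r_hecke_ker` : for `q ≠ ℓ` prime, `ℓ ∤ N·q`: `red_A z = 0 → red_A (T_q z) = 0` (δ-trick);
* `m15r_hecke_ker_ell` : the case `q = ℓ` from the Eichler–Shimura relation `s37e_hT`;
* `m15r_R` : adjoin-induction over the Hecke ring `m15_T p`.
-/
import Fermat.Agent.Lib.S15.RKill
import Fermat.Agent.Lib.S15.MGraph
import Fermat.Agent.Lib.S37.EFinal

set_option autoImplicit false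
set_option linter.style.haveILetI false
set_option linter.unusedSectionVars false
set_option linter.unusedVariables false
set_option synthInstance.maxHeartbeats 400000
set_option maxHeartbeats 1600000

noncomputable section

namespace Fermat.Agent.Lib.S15

open ModularCurve HahnSeries AlgebraicCurve Fermat.Agent.Lib.S18 Fermat.Agent.Lib.S37
  Fermat.Agent.Lib.S44 Fermat.Agent.Lib.FF

local notation "Qbar" => AlgebraicClosure ℚ

/-- **`q ≠ ℓ`**: the kernel of the reduction is stable under the Prelude's `T_q`. -/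
theorem m15r_hecke_ker (N q ℓ : ℕ) [NeZero N] [NeZero q] (hq : q.Prime) (hℓ : ℓ.Prime)
    (hℓNq : ¬ ℓ ∣ N * q) (A : ValuationSubring Qbar) (hA : A.LiesOverPrime ℓ)
    (hRI : ReductionInputsModL A N) (z : JZero N) (hz : reductionModL A N z = 0) :
    reductionModL A N (heckeOperatorAlong Qbar N q z) = 0 := by
  by_cases hH : HeckeInputsAlong Qbar N q
  swap
  · rw [heckeOperatorAlong_of_not hH, AddMonoidHom.zero_apply, map_zero]
  obtain ⟨hα0, hβ0, hP, hfin, hFI0, hNα⟩ := hH
  haveI := hP
  have hα : (heckeAlphaBar Qbar N q).toRingHom.IsIntegral := hα0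
  have hβ : (heckeBetaBar Qbar N q).toRingHom.IsIntegral := hβ0
  have hFI : FundamentalIdentityAlong Qbar (heckeBetaBar Qbar N q) hβ := hFI0
  haveI : Fact ℓ.Prime := ⟨hℓ⟩
  have hℓN : ¬ ℓ ∣ N := fun h => hℓNq (h.trans (dvd_mul_right N q))
  have hqℓ : q ≠ ℓ := fun h => hℓNq (h ▸ dvd_mul_left q N)
  haveI : IsAlgClosed (IsLocalRing.ResidueField A) := s18n_isAlgClosed_residueField A
  haveI : CharP (IsLocalRing.ResidueField A) ℓ := s18x_charP_residueField A hℓ hA
  haveI := s44rq_fbar_hasPrincipalDivisors (IsLocalRing.ResidueField A) (N * q) ℓ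
  -- the special degeneracy maps
  have hordα := m15r_hord_inclC (IsLocalRing.ResidueField A) ℓ N (N * q) (dvd_mul_right N q)
  have hordβ := m15r_hord_betaC (IsLocalRing.ResidueField A) ℓ N q hq hqℓ
  have hαb := m15r_special_isIntegral (IsLocalRing.ResidueField A) ℓ N (N * q) _ hordα
  have hβb := m15r_special_isIntegral (IsLocalRing.ResidueField A) ℓ N (N * q) _ hordβ
  have hfinb := m15r_special_finiteAlong (IsLocalRing.ResidueField A) ℓ N (N * q) _ hordα
  have hNαb := m15r_special_normFormulaAlong (IsLocalRing.ResidueField A) ℓ N (N * q) _ hordα hfinb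
  have hFIb := m15r_special_fundamentalIdentityAlong (IsLocalRing.ResidueField A) ℓ N (N * q) _
    hordβ hβb
  -- the place reduction
  set r := placeReductionModL hRI with hr_def
  have hr : IsPlaceReductionModL A N r := isPlaceReductionModL_placeReductionModL hRI
  have hgen : PrincipalGeneratedByIntegral A (IsLocalRing.residue ↥A) N := hRI.choose_spec.2
  -- the δ-trick
  have hδ := m15r_delta_degZero (heckeAlphaBar Qbar N q) (heckeBetaBar Qbar N q) hα hβ
    (m15r_inclC N (N * q) (IsLocalRing.ResidueField A) (dvd_mul_right N q))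
    (m15r_betaC (IsLocalRing.ResidueField A) N q) hαb hβb r
    (s37u_boundedConst_bar N _) (integralPrincipalDivisors A (IsLocalRing.residue ↥A) N) hgen
    (fun D hD => m15r_kill A hA N q hℓNq r hr hgen hα hβ hfin hNα hαb hβb D hD)
    hFI hFIb (s37i_deg_eq_one_bar N) (s37r10_deg_eq_one_special A N)
  -- unfold
  rw [heckeOperatorAlong_eq hα0 hβ0 hFI0 hfin hNα]
  obtain ⟨D, rfl⟩ := Pic0.mk_surjective z
  show reductionModL A N (Pic0.mk (Pic0.degZeroCorrespondence (heckeBetaBar Qbar N q)
    (heckeAlphaBar Qbar N q) hβ hα hFI D)) = 0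
  rw [reductionModL_mk hRI]
  rw [reductionModL_mk hRI] at hz
  have hz1 : Finsupp.mapDomain r (D : Divisor Qbar ↥(modularFunctionFieldBar N)) ∈
      Divisor.principal (K := IsLocalRing.ResidueField A)
        (F := ↥(modularFunctionFieldFullC (IsLocalRing.ResidueField A) N)) :=
    AddSubgroup.mem_addSubgroupOf.mp ((QuotientAddGroup.eq_zero_iff _).mp hz)
  refine (QuotientAddGroup.eq_zero_iff _).mpr (AddSubgroup.mem_addSubgroupOf.mpr ?_)
  show Finsupp.mapDomain r (Divisor.correspondence (heckeBetaBar Qbar N q)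
    (heckeAlphaBar Qbar N q) hβ hα (D : Divisor Qbar ↥(modularFunctionFieldBar N))) ∈ _
  rw [hδ _ D.2]
  exact Divisor.correspondence_mem_principal _ _ hβb hαb hfinb hNαb hz1

/-- **`q = ℓ`**: the kernel of the reduction is stable under `T_ℓ` (Eichler–Shimura). -/
theorem m15r_hecke_ker_ell (N ℓ : ℕ) [NeZero N] [NeZero ℓ] (hℓ : ℓ.Prime) (hℓN : ¬ ℓ ∣ N)
    (A : ValuationSubring Qbar) (hA : A.LiesOverPrime ℓ)
    (hRI : ReductionInputsModL A N) (z : JZero N) (hz : reductionModL A N z = 0) :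
    reductionModL A N (heckeOperatorAlong Qbar N ℓ z) = 0 := by
  by_cases hH : HeckeInputsAlong Qbar N ℓ
  swap
  · rw [heckeOperatorAlong_of_not hH, AddMonoidHom.zero_apply, map_zero]
  haveI : Fact ℓ.Prime := ⟨hℓ⟩
  haveI := s18n_charP_residueField A hℓ hA
  haveI : IsAlgClosed (IsLocalRing.ResidueField A) := s18n_isAlgClosed_residueField A
  haveI : PerfectRing (IsLocalRing.ResidueField A) ℓ := inferInstance
  have h := s37e_hT N ℓ hℓ hℓN A hA hRI hH z
  have e1 : ∀ g : SemilinearAut (IsLocalRing.ResidueField A)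
      ↥(modularFunctionFieldFullC (IsLocalRing.ResidueField A) N),
      g • (0 : JZeroC (IsLocalRing.ResidueField A) N) = 0 := fun g =>
    smul_zero (A := Pic0 (IsLocalRing.ResidueField A)
      ↥(modularFunctionFieldFullC (IsLocalRing.ResidueField A) N)) g
  have e2 : ∀ n : ℕ, n • (0 : JZeroC (IsLocalRing.ResidueField A) N) = 0 := fun n => nsmul_zero n
  rw [hz, e1, e1, e2, add_zero] at h
  exact h

/-- **[R]** the kernel of the reduction at a good place is a Hecke submodule. -/
theorem m15r_R : m15_R := by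
  intro p _ hp ℓ hℓ hℓp A hA hRI t ht
  have hℓN : ¬ ℓ ∣ p := fun h => hℓp ((Nat.prime_dvd_prime_iff_eq hℓ hp).mp h)
  induction ht using Algebra.adjoin_induction with
  | mem t ht =>
    obtain ⟨q, -, rfl⟩ := ht
    intro z hz
    haveI : NeZero (q : ℕ) := ⟨q.2.ne_zero⟩
    show reductionModL A p (heckeOperatorAlong Qbar p q z) = 0
    by_cases hqℓ : (q : ℕ) = ℓ
    · have h1 := m15r_hecke_ker_ell p (q : ℕ) q.2 (hqℓ ▸ hℓN) A (hqℓ ▸ hA) hRI z hz
      exact h1
    · have hℓpq : ¬ ℓ ∣ p * (q : ℕ) := by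
        intro h
        rcases (Nat.Prime.dvd_mul hℓ).mp h with h | h
        · exact hℓN h
        · exact hqℓ ((Nat.prime_dvd_prime_iff_eq hℓ q.2).mp h).symm
      exact m15r_hecke_ker p (q : ℕ) ℓ q.2 hℓ hℓpq A hA hRI z hz
  | algebraMap n =>
    intro z hz
    have h1 : (algebraMap ℤ (Module.End ℤ (JZero p)) n) z = n • z := by
      rw [Module.algebraMap_end_apply]
    rw [h1, map_zsmul, hz, smul_zero]
  | add t₁ t₂ _ _ h₁ h₂ =>
    intro z hz
    rw [LinearMap.add_apply, map_add, h₁ z hz, h₂ z hz, add_zero]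
  | mul t₁ t₂ _ _ h₁ h₂ =>
    intro z hz
    rw [Module.End.mul_apply]
    exact h₁ _ (h₂ z hz)

end Fermat.Agent.Lib.S15
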