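/-
Programme M (S15), node [T'] (helper6, prefix `s15w_`), part 1: THE HECKE RING MAPS THE CUSPIDAL
CLASS INTO `ℤ · c`.

No eigenvalue is computed: every generator `heckeOperatorBar N q` (any prime `q`, also `q ∣ N`)
maps divisors supported on the poles of `j` to such divisors (a pole of `β j = j(q^q)` at level
`N q` is a pole of `j`, because `β j` is integral over `ℚ̄[j]`: `s36u_cusp_rel`), and it preserves
the degree.  If the poles of `j` on `X₀(N)` are exactly two places `inf`, `zero`, the class of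
`zero − inf` is therefore an eigenvector of every Hecke operator with an integral eigenvalue.

* `s15w_beta_pole`   : a pole of `β j` is a pole of `j` (level `N q`);
* `s15w_corr_supp`   : the Hecke correspondence preserves "supported on the poles of `j`";
* `s15w_hecke_cl`    : `T_q (cl(zero − inf)) = a • cl(zero − inf)`;
* `s15w_full_cl`, `s15w_T_cl` : the same for every `t` in the full Hecke ring, in `m15_T N`.
-/
import Fermat.Agent.Lib.S15.MGraph
import Fermat.Agent.Lib.S36.RCusp
import Fermat.Agent.Lib.S37.DegOne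
import Fermat.Agent.Lib.S18.RData
import Fermat.Agent.Lib.S37.EDiv

set_option autoImplicit false
set_option linter.unusedSectionVars false
set_option linter.unusedVariables false
set_option linter.style.haveILetI false

noncomputable section

namespace Fermat.Agent.Lib.S15

open Polynomial ModularCurve AlgebraicCurve Fermat.Agent.Lib.FF Fermat.Agent.Lib.S36
  Fermat.Agent.Lib.S37 Fermat.Agent.Lib.S18

local notation "Kb" => AlgebraicClosure ℚ

/-! ### A pole of `β j` is a pole of `j` -/

theorem s15w_beta_pole (N q : ℕ) [NeZero N] [NeZero q] (hq : q.Prime)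
    (W : Place Kb (ffi_F (N * q)))
    (h : W.ord (heckeBetaBar Kb N q (ffd_jBar N)) < 0) : W.ord (ffd_jBar (N * q)) < 0 := by
  by_contra hcon
  rw [not_lt] at hcon
  obtain ⟨Φ, hm, hd, -, hrel⟩ := s36u_cusp_rel N q hq
  set y : ffi_F (N * q) := ffd_jBar (N * q) with hy
  set x : ffi_F (N * q) := heckeBetaBar Kb N q (ffd_jBar N) with hx
  have hx0 : x ≠ 0 := (map_ne_zero (heckeBetaBar Kb N q)).mpr (s36u_cusp_jBar_ne_zero N)
  have hyA : y ∈ W.toValuationSubring :=
    (ffs_mem_iff_ord_nonneg W (s36u_cusp_jBar_ne_zero (N * q))).mpr hcon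
  have hxA : x ∈ W.toValuationSubring := by
    refine s36u_cusp_mem_of_monic_rel W.toValuationSubring (q + 1)
      (fun i => aeval y (Φ.coeff i))
      (fun i _ => s36u_cusp_aeval_mem W.toValuationSubring W.algebraMap_mem' y hyA _) x ?_
    rw [eval₂_eq_sum_range, hd, Finset.sum_range_succ] at hrel
    have hlead : Φ.coeff (q + 1) = 1 := by rw [← hd]; exact hm.coeff_natDegree
    rw [hlead, map_one, one_mul, add_comm] at hrel
    exact hrel
  have := (ffs_mem_iff_ord_nonneg W hx0).mp hxA
  omega

/-! ### The correspondence preserves the cuspidal support -/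

section Supp

variable {N q : ℕ} [NeZero N] [NeZero q]

theorem s15w_pushforward_supp {K F F' : Type*} [Field K] [Field F] [Field F'] [Algebra K F]
    [Algebra K F'] (φ : F →ₐ[K] F') (hφ : φ.toRingHom.IsIntegral) (D : Divisor K F')
    (v : Place K F) (hv : Divisor.pushforwardAlong φ hφ D v ≠ 0) :
    ∃ W : Place K F', D W ≠ 0 ∧ W.restrictAlong φ hφ = v := by
  classical
  induction D using Finsupp.induction with
  | zero =>
    rw [map_zero] at hv
    exact absurd rfl hv
  | single_add W a D hW ha ih =>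
    rw [map_add, Finsupp.add_apply] at hv
    by_cases h1 : Divisor.pushforwardAlong φ hφ (Finsupp.single W a) v = 0
    · rw [h1, zero_add] at hv
      obtain ⟨W', hW', hr⟩ := ih hv
      refine ⟨W', ?_, hr⟩
      rw [Finsupp.add_apply]
      have hne : W' ≠ W := by
        rintro rfl
        exact hW' (Finsupp.notMem_support_iff.mp hW)
      rw [Finsupp.single_apply, if_neg (Ne.symm hne), zero_add]
      exact hW'
    · rw [Divisor.pushforwardAlong_single, Finsupp.single_apply] at h1
      split_ifs at h1 with h2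
      · refine ⟨W, ?_, h2⟩
        rw [Finsupp.add_apply, Finsupp.single_apply, if_pos rfl,
          Finsupp.notMem_support_iff.mp hW, add_zero]
        exact ha
      · exact absurd rfl h1

theorem s15w_corr_supp (hq : q.Prime)
    (hα : HeckeAlphaBarIntegral Kb N q) (hβ : HeckeBetaBarIntegral Kb N q)
    [HasPrincipalDivisors Kb ↥(laurentBaseChange Kb (modularFunctionFieldFull (N * q)))]
    (D : Divisor Kb (ffi_F N)) (hD : ∀ v, D v ≠ 0 → v.ord (ffd_jBar N) < 0)
    (v : Place Kb (ffi_F N)) (hv : heckeDivBar hα hβ D v ≠ 0) : v.ord (ffd_jBar N) < 0 := by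
  have hα' : (heckeAlphaBar Kb N q).toRingHom.IsIntegral := hα
  have hβ' : (heckeBetaBar Kb N q).toRingHom.IsIntegral := hβ
  have hv' : Divisor.pushforwardAlong (heckeAlphaBar Kb N q) hα'
      (Divisor.pullbackAlong (heckeBetaBar Kb N q) hβ' D) v ≠ 0 := hv
  obtain ⟨W, hW, hWv⟩ := s15w_pushforward_supp _ hα' _ v hv'
  rw [Divisor.pullbackAlong_apply] at hW
  have he : (Place.ramificationIndexAlong (heckeBetaBar Kb N q) W : ℤ) ≠ 0 :=
    left_ne_zero_of_mul hW
  have hD' : D (W.restrictAlong (heckeBetaBar Kb N q) hβ') ≠ 0 := right_ne_zero_of_mul hW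
  have h1 := hD _ hD'
  have h2 : W.ord (heckeBetaBar Kb N q (ffd_jBar N)) < 0 := by
    rw [Place.ord_restrictAlong (heckeBetaBar Kb N q) hβ' W]
    have hepos : (0 : ℤ) < Place.ramificationIndexAlong (heckeBetaBar Kb N q) W := by
      have := Int.natCast_nonneg (Place.ramificationIndexAlong (heckeBetaBar Kb N q) W)
      omega
    exact mul_neg_of_pos_of_neg hepos h1
  have h3 := s15w_beta_pole N q hq W h2
  rw [← s36u_cusp_alpha_jBar N q, Place.ord_restrictAlong (heckeAlphaBar Kb N q) hα' W, hWv] at h3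
  by_contra hcon
  rw [not_lt] at hcon
  have := mul_nonneg (Int.natCast_nonneg (Place.ramificationIndexAlong (heckeAlphaBar Kb N q) W))
    hcon
  omega

end Supp

/-! ### The Hecke operators on the cuspidal class -/

section Class

variable {N : ℕ} [NeZero N]

/-- a degree-zero divisor supported on two places of degree one is a multiple of their
difference. -/
theorem s15w_two_point (hdeg : ∀ P : m15_Pl N, P.deg = 1) (P Q : m15_Pl N) (hPQ : P ≠ Q)
    (E : Divisor Kb (ffi_F N)) (hE : Divisor.degree E = 0)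
    (hsupp : ∀ v, E v ≠ 0 → v = P ∨ v = Q) : E = E P • m15_div N P Q := by
  classical
  have htot := s37e_degree_eq_total hdeg E
  rw [hE] at htot
  have hsum : E P + E Q = 0 := by
    have h1 : s37e_total E = E P + E Q := by
      rw [s37e_total_apply]
      have hsub : E.support ⊆ {P, Q} := by
        intro v hv
        rcases hsupp v (Finsupp.mem_support_iff.mp hv) with rfl | rfl <;> simp
      rw [Finset.sum_subset hsub (fun v _ hv => Finsupp.notMem_support_iff.mp hv),
        Finset.sum_pair hPQ]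
    rw [← h1, ← htot]
  ext v
  unfold m15_div
  rw [Finsupp.smul_apply, Finsupp.sub_apply, Finsupp.single_apply, Finsupp.single_apply,
    smul_eq_mul]
  by_cases h1 : v = P
  · subst h1
    rw [if_pos rfl, if_neg hPQ.symm]
    ring
  · by_cases h2 : v = Q
    · subst h2
      rw [if_neg (Ne.symm h1), if_pos rfl]
      have : E v = -E P := by omega
      rw [this]
      ring
    · rw [if_neg (Ne.symm h1), if_neg (Ne.symm h2)]
      have : E v = 0 := by
        by_contra hne
        rcases hsupp v hne with h | h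
        · exact h1 h
        · exact h2 h
      rw [this]
      ring

theorem s15w_hecke_cl (P Q : m15_Pl N) (hPQ : P ≠ Q)
    (hpoles : ∀ v : m15_Pl N, v.ord (ffd_jBar N) < 0 ↔ (v = P ∨ v = Q))
    (q : Nat.Primes) :
    ∃ a : ℤ, heckeOperatorBar N q (m15_cl N P Q) = a • m15_cl N P Q := by
  classical
  haveI : NeZero (q : ℕ) := ⟨q.2.ne_zero⟩
  haveI := s18r_ffGen N
  have hdeg : ∀ v : m15_Pl N, v.deg = 1 := fun v => s37dg_deg_eq_one (ffd_jBar N) v
  rw [heckeOperatorBar_apply]
  by_cases hH : HeckeInputsAlong Kb N q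
  · obtain ⟨hα, hβ, hP, hfin, hFI, hN⟩ := hH
    haveI := hP
    rw [heckeOperatorAlong_eq hα hβ hFI hfin hN, m15_cl_eq hdeg]
    have hα' : (heckeAlphaBar Kb N q).toRingHom.IsIntegral := hα
    have hβ' : (heckeBetaBar Kb N q).toRingHom.IsIntegral := hβ
    have hFI' : FundamentalIdentityAlong Kb (heckeBetaBar Kb N q) hβ' := hFI
    set D : Divisor Kb (ffi_F N) := m15_div N P Q with hDdef
    have hD0 : D ∈ Divisor.degZero (K := Kb) (F := ffi_F N) := m15_div_mem_degZero hdeg P Q
    set E : Divisor Kb (ffi_F N) := heckeDivBar hα hβ D with hEdef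
    have hE0 : Divisor.degree E = 0 :=
      Divisor.mem_degZero.mp
        (Divisor.correspondence_mem_degZero (heckeBetaBar Kb N q) (heckeAlphaBar Kb N q)
          hβ' hα' hFI' hD0)
    have hDsupp : ∀ v, D v ≠ 0 → v.ord (ffd_jBar N) < 0 := by
      intro v hv
      rw [hpoles]
      by_contra hcon
      rw [not_or] at hcon
      apply hv
      rw [hDdef]
      unfold m15_div
      rw [Finsupp.sub_apply, Finsupp.single_apply, Finsupp.single_apply,
        if_neg (Ne.symm hcon.1), if_neg (Ne.symm hcon.2), sub_zero]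
    have hEsupp : ∀ v, E v ≠ 0 → v = P ∨ v = Q := fun v hv =>
      (hpoles v).mp (s15w_corr_supp q.2 hα hβ D hDsupp v hv)
    have hEeq := s15w_two_point hdeg P Q hPQ E hE0 hEsupp
    obtain ⟨a, ha⟩ : ∃ a : ℤ, a = E P := ⟨_, rfl⟩
    rw [← ha] at hEeq
    refine ⟨a, ?_⟩
    show Pic0.correspondence (heckeBetaBar Kb N q) (heckeAlphaBar Kb N q) hβ' hα' hFI' hfin hN
      (Pic0.mk ⟨D, hD0⟩) = _
    rw [Pic0.correspondence_mk]
    have hz : a • Pic0.mk (⟨m15_div N P Q, m15_div_mem_degZero hdeg P Q⟩ :
        Divisor.degZero (K := Kb) (F := ffi_F N)) =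
        Pic0.mk (a • (⟨m15_div N P Q, m15_div_mem_degZero hdeg P Q⟩ :
          Divisor.degZero (K := Kb) (F := ffi_F N))) :=
      (map_zsmul (QuotientAddGroup.mk' ((Divisor.principal (K := Kb) (F := ffi_F N)).addSubgroupOf
        (Divisor.degZero (K := Kb) (F := ffi_F N)))) a _).symm
    rw [hz]
    congr 1
    apply Subtype.ext
    show E = _
    rw [hEeq]
    rfl
  · rw [heckeOperatorAlong_of_not hH]
    exact ⟨0, by rw [zero_smul ℤ (m15_cl N P Q)]; rfl⟩

theorem s15w_full_cl (P Q : m15_Pl N) (hPQ : P ≠ Q)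
    (hpoles : ∀ v : m15_Pl N, v.ord (ffd_jBar N) < 0 ↔ (v = P ∨ v = Q))
    (t : Module.End ℤ (JZero N))
    (ht : t ∈ Algebra.adjoin ℤ (Set.range (heckeOperatorBar N))) :
    ∃ a : ℤ, t (m15_cl N P Q) = a • m15_cl N P Q := by
  induction ht using Algebra.adjoin_induction with
  | mem x hx =>
    obtain ⟨q, rfl⟩ := hx
    exact s15w_hecke_cl P Q hPQ hpoles q
  | algebraMap r =>
    exact ⟨r, by rw [Algebra.algebraMap_eq_smul_one]; rfl⟩
  | add x y _ _ hx hy =>
    obtain ⟨a, ha⟩ := hx
    obtain ⟨b, hb⟩ := hy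
    exact ⟨a + b, by rw [LinearMap.add_apply, ha, hb, ← add_zsmul]⟩
  | mul x y _ _ hx hy =>
    obtain ⟨a, ha⟩ := hx
    obtain ⟨b, hb⟩ := hy
    refine ⟨b * a, ?_⟩
    rw [Module.End.mul_apply, hb, map_zsmul, ha, smul_smul]

theorem s15w_T_cl (P Q : m15_Pl N) (hPQ : P ≠ Q)
    (hpoles : ∀ v : m15_Pl N, v.ord (ffd_jBar N) < 0 ↔ (v = P ∨ v = Q))
    (t : Module.End ℤ (JZero N)) (ht : t ∈ m15_T N) :
    ∃ a : ℤ, t (m15_cl N P Q) = a • m15_cl N P Q :=
  s15w_full_cl P Q hPQ hpoles t
    (Algebra.adjoin_mono (Set.image_subset_range _ _) ht)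

end Class

end Fermat.Agent.Lib.S15
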