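/-
Programme M (S15), node [T'] (helper6, prefix `s15w_`), part 6: AN ABSTRACT INJECTIVITY LEMMA ON A
CYCLIC GROUP (Mathlib only).

`red : X →+ Y`, `c ∈ X` of finite order `m`.  If `red` is injective on the prime-to-`ℓ` torsion and
does not kill the element `(m/ℓ) • c` of order `ℓ` (when `ℓ ∣ m`), then `red` is injective on `ℤ c`.
-/
import Mathlib

set_option autoImplicit false

namespace Fermat.Agent.Lib.S15

theorem s15w_inj_cyclic {X Y : Type*} [AddCommGroup X] [AddCommGroup Y] (red : X →+ Y) (c : X)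
    (ℓ : ℕ) (hℓ : ℓ.Prime) (hfin : addOrderOf c ≠ 0)
    (h1 : ∀ (m' : ℕ) (x : X), ¬ ℓ ∣ m' → m' • x = 0 → red x = 0 → x = 0)
    (h2 : ℓ ∣ addOrderOf c → red ((addOrderOf c / ℓ) • c) ≠ 0) (a : ℤ)
    (ha : red (a • c) = 0) : a • c = 0 := by
  obtain ⟨m, hm⟩ : ∃ m : ℕ, m = addOrderOf c := ⟨_, rfl⟩
  have hmc : (m : ℤ) • c = 0 := by
    rw [natCast_zsmul, hm]; exact addOrderOf_nsmul_eq_zero c
  have hdvd_iff : ∀ k : ℤ, k • c = 0 ↔ (m : ℤ) ∣ k := fun k => by
    rw [hm]; exact (addOrderOf_dvd_iff_zsmul_eq_zero).symm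
  have hℓ0 : (ℓ : ℤ) ≠ 0 := by exact_mod_cast hℓ.ne_zero
  have hℓp : Prime (ℓ : ℤ) := Nat.prime_iff_prime_int.mp hℓ
  -- (ii): an element of `ℤ c` killed by `ℓ` and by `red` is zero
  have hii : ∀ k : ℤ, (ℓ : ℤ) • (k • c) = 0 → red (k • c) = 0 → k • c = 0 := by
    intro k hk hred
    rw [smul_smul] at hk
    have hdvd : (m : ℤ) ∣ ℓ * k := (hdvd_iff _).mp hk
    by_cases hℓm : ℓ ∣ m
    · obtain ⟨m₁, hm₁⟩ := hℓm
      have hm₁k : (m₁ : ℤ) ∣ k := by
        rw [hm₁] at hdvd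
        push_cast at hdvd
        exact (mul_dvd_mul_iff_left hℓ0).mp hdvd
      obtain ⟨b, rfl⟩ := hm₁k
      have hc₂ : (ℓ : ℤ) • ((m₁ : ℤ) • c) = 0 := by
        rw [smul_smul, ← Nat.cast_mul, ← hm₁]; exact hmc
      have hx : ((m₁ : ℤ) * b) • c = b • ((m₁ : ℤ) • c) := by rw [smul_smul, mul_comm]
      by_cases hb : (ℓ : ℤ) ∣ b
      · obtain ⟨b', rfl⟩ := hb
        rw [hx, mul_comm, mul_smul, hc₂, smul_zero]
      · exfalso
        have hcop : IsCoprime (ℓ : ℤ) b := hℓp.coprime_iff_not_dvd.mpr hb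
        obtain ⟨u, v, huv⟩ := hcop
        have h3 : (m₁ : ℤ) • c = v • (b • ((m₁ : ℤ) • c)) := by
          have h4 : (u * (ℓ : ℤ) + v * b) • ((m₁ : ℤ) • c) = (m₁ : ℤ) • c := by
            rw [huv, one_smul]
          rw [add_smul, mul_smul, mul_smul, hc₂, smul_zero, zero_add] at h4
          exact h4.symm
        apply h2 (by rw [← hm]; exact ⟨m₁, hm₁⟩)
        have hdiv : addOrderOf c / ℓ = m₁ := by
          rw [← hm, hm₁]; exact Nat.mul_div_cancel_left _ hℓ.pos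
        rw [hdiv, ← natCast_zsmul, h3, map_zsmul, ← hx, hred, smul_zero]
    · have hcop : IsCoprime (m : ℤ) (ℓ : ℤ) := by
        have : IsCoprime (ℓ : ℤ) (m : ℤ) := hℓp.coprime_iff_not_dvd.mpr (by
          intro h; exact hℓm (by exact_mod_cast h))
        exact this.symm
      exact (hdvd_iff _).mpr (hcop.dvd_of_dvd_mul_left hdvd)
  -- the prime-to-`ℓ` step
  have hm0 : m ≠ 0 := by rw [hm]; exact hfin
  obtain ⟨e, m', hm', hme⟩ := Nat.exists_eq_pow_mul_and_not_dvd hm0 ℓ hℓ.ne_one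
  have hstep : ∀ i : ℕ, i ≤ e → ((ℓ : ℤ) ^ (e - i) * a) • c = 0 := by
    intro i
    induction i with
    | zero =>
      intro _
      rw [Nat.sub_zero]
      refine h1 m' _ hm' ?_ ?_
      · rw [← natCast_zsmul, smul_smul]
        have : (m' : ℤ) * ((ℓ : ℤ) ^ e * a) = a * (m : ℤ) := by
          rw [hme]; push_cast; ring
        rw [this, mul_smul, hmc, smul_zero]
      · rw [mul_smul, map_zsmul, ha, smul_zero]
    | succ i ih =>
      intro hi
      have h5 := ih (by omega)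
      have h6 : e - i = (e - (i + 1)) + 1 := by omega
      rw [h6, pow_succ, mul_comm ((ℓ : ℤ) ^ (e - (i + 1))) (ℓ : ℤ), mul_assoc, mul_smul] at h5
      refine hii _ h5 ?_
      rw [mul_smul, map_zsmul, ha, smul_zero]
  have := hstep e le_rfl
  rwa [Nat.sub_self, pow_zero, one_mul] at this

end Fermat.Agent.Lib.S15
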