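/-
Programme M (S15), brick [ET] (helper6, prefix `s15w_`), part 1: THE CARTIER IDENTITY FOR
LOGARITHMIC DERIVATIVES OF POWER SERIES.

Over a field `k` of characteristic `p`, if `g * P = θ P` (`θ = X d/dX`, `P ≠ 0`), then
`coeff (p * N) g = (coeff N g) ^ p` for all `N`.

Proof: `g * P ^ p = θ P * P ^ (p - 1) =: h`, `P ^ p = expand p (Fr P)`, and the coefficient of
`X ^ (p N)` in `h` is `N * (coeff N P) ^ p` (true in every commutative ring: it follows from
`θ (P ^ p) = p * θ P * P ^ (p - 1)` in a torsion-free ring, and lifts through the free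
commutative ring on the coefficients).  The projection formula for `expand` then gives
`U g * Fr P = θ (Fr P) = Fr g * Fr P`.
-/
import Mathlib

set_option autoImplicit false
set_option linter.unusedSectionVars false
set_option linter.unusedVariables false

noncomputable section

namespace Fermat.Agent.Lib.S15

open PowerSeries

/-- `θ = X d/dX` on power series. -/
def s15w_pth {R : Type*} [CommRing R] (P : R⟦X⟧) : R⟦X⟧ := X * d⁄dX R P

theorem s15w_coeff_pth {R : Type*} [CommRing R] (P : R⟦X⟧) (n : ℕ) :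
    coeff n (s15w_pth P) = (n : R) * coeff n P := by
  unfold s15w_pth
  cases n with
  | zero => simp
  | succ m =>
    rw [coeff_succ_X_mul, coeff_derivative]
    push_cast
    ring

theorem s15w_pth_map {R S : Type*} [CommRing R] [CommRing S] (φ : R →+* S) (P : R⟦X⟧) :
    PowerSeries.map φ (s15w_pth P) = s15w_pth (PowerSeries.map φ P) := by
  ext n
  rw [coeff_map, s15w_coeff_pth, s15w_coeff_pth, coeff_map, map_mul, map_natCast]

theorem s15w_pth_pow {R : Type*} [CommRing R] (P : R⟦X⟧) (n : ℕ) :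
    s15w_pth (P ^ n) = (n : R⟦X⟧) * (s15w_pth P * P ^ (n - 1)) := by
  unfold s15w_pth
  rw [derivative_pow]
  ring

/-- the key coefficient identity in a torsion-free ring. -/
theorem s15w_key_torsionFree {R : Type*} [CommRing R] [IsDomain R] [CharZero R] (p : ℕ)
    (hp : p ≠ 0) (P : R⟦X⟧) (N : ℕ) :
    coeff (p * N) (s15w_pth P * P ^ (p - 1)) = (N : R) * coeff (p * N) (P ^ p) := by
  have h1 := congrArg (coeff (p * N)) (s15w_pth_pow P p)
  rw [s15w_coeff_pth] at h1
  have h2 : coeff (p * N) ((p : R⟦X⟧) * (s15w_pth P * P ^ (p - 1))) =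
      (p : R) * coeff (p * N) (s15w_pth P * P ^ (p - 1)) := by
    have : (p : R⟦X⟧) = C (p : R) := by simp
    rw [this, coeff_C_mul]
  rw [h2] at h1
  have hp' : (p : R) ≠ 0 := Nat.cast_ne_zero.mpr hp
  apply mul_left_cancel₀ hp'
  rw [← h1]
  push_cast
  ring

/-- the key coefficient identity in every commutative ring. -/
theorem s15w_key {R : Type*} [CommRing R] (p : ℕ) (hp : p ≠ 0) (P : R⟦X⟧) (N : ℕ) :
    coeff (p * N) (s15w_pth P * P ^ (p - 1)) = (N : R) * coeff (p * N) (P ^ p) := by
  classical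
  let S := MvPolynomial R ℤ
  let φ : S →+* R := MvPolynomial.eval₂Hom (Int.castRingHom R) id
  let Q : S⟦X⟧ := PowerSeries.mk fun n => MvPolynomial.X (coeff n P)
  have hQ : PowerSeries.map φ Q = P := by
    ext n
    rw [coeff_map, coeff_mk]
    show MvPolynomial.eval₂Hom (Int.castRingHom R) id (MvPolynomial.X (coeff n P)) = _
    rw [MvPolynomial.eval₂Hom_X']
    rfl
  have h := s15w_key_torsionFree (R := S) p hp Q N
  have e1 : φ (coeff (p * N) (s15w_pth Q * Q ^ (p - 1))) =
      coeff (p * N) (s15w_pth P * P ^ (p - 1)) := by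
    rw [← coeff_map, map_mul (PowerSeries.map φ), map_pow (PowerSeries.map φ), s15w_pth_map, hQ]
  have e2 : φ ((N : S) * coeff (p * N) (Q ^ p)) = (N : R) * coeff (p * N) (P ^ p) := by
    rw [map_mul φ, map_natCast, ← coeff_map, map_pow (PowerSeries.map φ), hQ]
  rw [← e1, ← e2, h]

section CharP

variable {k : Type*} [Field k] (p : ℕ) [hp : Fact p.Prime] [CharP k p]

/-- the operator `U_p` on power series. -/
def s15w_U (g : k⟦X⟧) : k⟦X⟧ := PowerSeries.mk fun n => coeff (p * n) g

theorem s15w_coeff_U (g : k⟦X⟧) (n : ℕ) : coeff n (s15w_U p g) = coeff (p * n) g := by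
  unfold s15w_U
  rw [coeff_mk]

/-- **projection formula**: `U (g * expand p Φ) = U g * Φ`. -/
theorem s15w_U_mul_expand (g Φ : k⟦X⟧) (N : ℕ) :
    coeff (p * N) (g * expand p hp.out.ne_zero Φ) = coeff N (s15w_U p g * Φ) := by
  classical
  have hp0 : p ≠ 0 := hp.out.ne_zero
  rw [coeff_mul, coeff_mul]
  let e : ℕ × ℕ ↪ ℕ × ℕ := ⟨fun x => (p * x.1, p * x.2), by
    intro x y hxy
    simp only [Prod.mk.injEq] at hxy
    exact Prod.ext (Nat.eq_of_mul_eq_mul_left (Nat.pos_of_ne_zero hp0) hxy.1)
      (Nat.eq_of_mul_eq_mul_left (Nat.pos_of_ne_zero hp0) hxy.2)⟩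
  have hsub : (Finset.HasAntidiagonal.antidiagonal N).map e ⊆ Finset.HasAntidiagonal.antidiagonal (p * N) := by
    intro x hx
    rw [Finset.mem_map] at hx
    obtain ⟨y, hy, rfl⟩ := hx
    rw [Finset.HasAntidiagonal.mem_antidiagonal] at hy ⊢
    show p * y.1 + p * y.2 = p * N
    rw [← hy]; ring
  rw [← Finset.sum_subset hsub]
  · rw [Finset.sum_map]
    refine Finset.sum_congr rfl fun x _ => ?_
    show coeff (p * x.1) g * coeff (p * x.2) (expand p hp0 Φ) = _
    rw [coeff_expand_mul, s15w_coeff_U]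
  · intro x hx hxn
    rw [Finset.HasAntidiagonal.mem_antidiagonal] at hx
    by_cases hd : p ∣ x.2
    · exfalso
      apply hxn
      obtain ⟨b, hb⟩ := hd
      have hd1 : p ∣ x.1 := by
        have : p ∣ x.1 + x.2 := ⟨N, hx⟩
        rw [hb] at this
        exact (Nat.dvd_add_left ⟨b, rfl⟩).mp this
      obtain ⟨a, ha⟩ := hd1
      rw [Finset.mem_map]
      refine ⟨(a, b), ?_, ?_⟩
      · rw [Finset.HasAntidiagonal.mem_antidiagonal]
        apply Nat.eq_of_mul_eq_mul_left (Nat.pos_of_ne_zero hp0)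
        rw [← hx, ha, hb]; ring
      · show (p * a, p * b) = x
        rw [← ha, ← hb]
    · rw [coeff_expand_of_not_dvd p hp0 Φ hd, mul_zero]

/-- **the Cartier identity** for logarithmic derivatives of power series. -/
theorem s15w_cartier_ps (P g : k⟦X⟧) (hP : P ≠ 0) (hg : g * P = s15w_pth P) (N : ℕ) :
    coeff (p * N) g = (coeff N g) ^ p := by
  have hp0 : p ≠ 0 := hp.out.ne_zero
  set Φ : k⟦X⟧ := PowerSeries.map (frobenius k p) P with hΦ
  have hpow : P ^ p = expand p hp0 Φ := by
    rw [hΦ, ← map_expand]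
    exact (MvPowerSeries.map_frobenius_expand (σ := Unit) p hp0 (f := P)).symm
  have h1 : g * expand p hp0 Φ = s15w_pth P * P ^ (p - 1) := by
    rw [← hpow, ← hg]
    have : p = (p - 1) + 1 := (Nat.sub_add_cancel hp.out.one_le).symm
    conv_lhs => rw [this, pow_succ]
    ring
  have h2 : s15w_U p g * Φ = s15w_pth Φ := by
    ext M
    rw [← s15w_U_mul_expand, h1, s15w_key p hp0 P M, hpow, coeff_expand_mul, s15w_coeff_pth]
  have h3 : PowerSeries.map (frobenius k p) g * Φ = s15w_pth Φ := by
    rw [hΦ, ← map_mul, hg, s15w_pth_map]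
  have hΦ0 : Φ ≠ 0 := by
    intro h0
    apply hP
    ext n
    have := congrArg (coeff n) h0
    rw [hΦ, coeff_map, map_zero] at this
    rw [map_zero]
    exact (frobenius k p).injective (by rw [this, map_zero])
  have h4 : s15w_U p g = PowerSeries.map (frobenius k p) g :=
    mul_right_cancel₀ hΦ0 (h2.trans h3.symm)
  have := congrArg (coeff N) h4
  rw [s15w_coeff_U, coeff_map] at this
  rw [this]
  rfl

end CharP

end Fermat.Agent.Lib.S15
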