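/-
Programme M (S15), brick [ET] (helper6, prefix `s15w_`), part 2: LOGARITHMIC DERIVATIVES OF
LAURENT SERIES.

`s15w_dlog f = θ f / f` (`θ = q d/dq`, landed `ffd_theta`): additive on products, compatible with
`qExpand`, twists and coefficient maps, regular (`coeff n = 0` for `n < 0`, `coeff 0 = order`),
and in characteristic `p`: the Cartier identity `coeff (p N) = (coeff N) ^ p`, and
`θ f = 0 ⇒ f` is a `p`-th power (perfect coefficients).
-/
import Fermat.Agent.Lib.S15.WEtCartier
import Fermat.Agent.Lib.FF.LaurentDeriv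
import Fermat.Agent.Lib.S37.ESeries

set_option autoImplicit false
set_option linter.unusedSectionVars false
set_option linter.unusedVariables false

noncomputable section

namespace Fermat.Agent.Lib.S15

open HahnSeries ModularCurve Fermat.Agent.Lib.FF Fermat.Agent.Lib.S28 Fermat.Agent.Lib.S37

variable {k : Type*} [Field k]

/-- the logarithmic derivative `θ f / f`. -/
def s15w_dlog (f : LaurentSeries k) : LaurentSeries k := ffd_theta f * f⁻¹

theorem s15w_dlog_zero : s15w_dlog (0 : LaurentSeries k) = 0 := by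
  unfold s15w_dlog
  rw [inv_zero, mul_zero]

theorem s15w_dlog_mul_self {f : LaurentSeries k} (hf : f ≠ 0) : s15w_dlog f * f = ffd_theta f := by
  unfold s15w_dlog
  rw [mul_assoc, inv_mul_cancel₀ hf, mul_one]

theorem s15w_dlog_eq_of_mul {f g : LaurentSeries k} (hf : f ≠ 0) (h : g * f = ffd_theta f) :
    s15w_dlog f = g := by
  unfold s15w_dlog
  rw [← h, mul_assoc, mul_inv_cancel₀ hf, mul_one]

theorem s15w_dlog_mul {f g : LaurentSeries k} (hf : f ≠ 0) (hg : g ≠ 0) :
    s15w_dlog (f * g) = s15w_dlog f + s15w_dlog g := by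
  apply s15w_dlog_eq_of_mul (mul_ne_zero hf hg)
  rw [ffd_theta_mul, ← s15w_dlog_mul_self hf, ← s15w_dlog_mul_self hg]
  ring

theorem s15w_theta_one : ffd_theta (1 : LaurentSeries k) = 0 := by
  have := ffd_theta_algebraMap (K := k) 1
  rwa [map_one] at this

theorem s15w_dlog_one : s15w_dlog (1 : LaurentSeries k) = 0 := by
  unfold s15w_dlog
  rw [s15w_theta_one, zero_mul]

theorem s15w_dlog_inv (f : LaurentSeries k) : s15w_dlog f⁻¹ = -s15w_dlog f := by
  rcases eq_or_ne f 0 with rfl | hf
  · rw [inv_zero, s15w_dlog_zero, neg_zero]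
  have h := s15w_dlog_mul hf (inv_ne_zero hf)
  rw [mul_inv_cancel₀ hf, s15w_dlog_one] at h
  exact eq_neg_of_add_eq_zero_right h.symm

theorem s15w_dlog_div {f g : LaurentSeries k} (hf : f ≠ 0) (hg : g ≠ 0) :
    s15w_dlog (f / g) = s15w_dlog f - s15w_dlog g := by
  rw [div_eq_mul_inv, s15w_dlog_mul hf (inv_ne_zero hg), s15w_dlog_inv, sub_eq_add_neg]

theorem s15w_dlog_pow (f : LaurentSeries k) (n : ℕ) :
    s15w_dlog (f ^ n) = n • s15w_dlog f := by
  rcases eq_or_ne f 0 with rfl | hf
  · rcases Nat.eq_zero_or_pos n with rfl | hn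
    · rw [pow_zero, s15w_dlog_one, zero_smul]
    · rw [zero_pow hn.ne', s15w_dlog_zero, smul_zero]
  induction n with
  | zero => rw [pow_zero, s15w_dlog_one, zero_smul]
  | succ m ih =>
    rw [pow_succ, s15w_dlog_mul (pow_ne_zero m hf) hf, ih, succ_nsmul]

theorem s15w_dlog_algebraMap (c : k) : s15w_dlog (algebraMap k (LaurentSeries k) c) = 0 := by
  unfold s15w_dlog
  rw [ffd_theta_algebraMap, zero_mul]

theorem s15w_dlog_C (c : k) : s15w_dlog (HahnSeries.C c : LaurentSeries k) = 0 := by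
  unfold s15w_dlog
  have : ffd_theta (HahnSeries.C c : LaurentSeries k) = 0 := by
    ext n
    rw [ffd_theta_coeff, HahnSeries.coeff_zero]
    by_cases hn : n = 0
    · subst hn; simp
    · rw [HahnSeries.C_apply, HahnSeries.coeff_single_of_ne hn, mul_zero]
  rw [this, zero_mul]

/-- in characteristic `p`, `p`-th powers have trivial logarithmic derivative. -/
theorem s15w_dlog_pow_char (p : ℕ) [CharP k p] (f : LaurentSeries k) :
    s15w_dlog (f ^ p) = 0 := by
  rw [s15w_dlog_pow]
  haveI : CharP (LaurentSeries k) p :=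
    ((algebraMap k (LaurentSeries k)).charP_iff_charP p).mp inferInstance
  rw [nsmul_eq_mul, CharP.cast_eq_zero, zero_mul]

/-! ### compatibility with substitutions -/

theorem s15w_theta_qExpand (m : ℕ) [NeZero m] (f : LaurentSeries k) :
    ffd_theta (qExpand k m f) = (m : k) • qExpand k m (ffd_theta f) := by
  ext n
  rw [ffd_theta_coeff, HahnSeries.coeff_smul, smul_eq_mul]
  by_cases hn : (m : ℤ) ∣ n
  · obtain ⟨j, rfl⟩ := hn
    rw [qExpand_coeff_mul, qExpand_coeff_mul, ffd_theta_coeff]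
    push_cast
    ring
  · rw [qExpand_coeff_of_not_dvd m _ hn, qExpand_coeff_of_not_dvd m _ hn, mul_zero, mul_zero]

theorem s15w_dlog_qExpand (m : ℕ) [NeZero m] (f : LaurentSeries k) :
    s15w_dlog (qExpand k m f) = (m : k) • qExpand k m (s15w_dlog f) := by
  unfold s15w_dlog
  rw [s15w_theta_qExpand, map_mul, map_inv₀, ffd_smul_eq_algebraMap_mul,
    ffd_smul_eq_algebraMap_mul, mul_assoc]

theorem s15w_theta_tw (c : kˣ) (f : LaurentSeries k) :
    ffd_theta (s28m_tw c f) = s28m_tw c (ffd_theta f) := by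
  ext n
  rw [ffd_theta_coeff, s28m_tw_coeff, s28m_tw_coeff, ffd_theta_coeff]
  ring

theorem s15w_dlog_tw (c : kˣ) (f : LaurentSeries k) :
    s15w_dlog (s28m_tw c f) = s28m_tw c (s15w_dlog f) := by
  unfold s15w_dlog
  rw [s15w_theta_tw, map_mul, map_inv₀]

theorem s15w_theta_coeffMap {k' : Type*} [Field k'] (φ : k →+* k') (f : LaurentSeries k) :
    ffd_theta (coeffMap φ f) = coeffMap φ (ffd_theta f) := by
  ext n
  rw [ffd_theta_coeff, coeffMap_coeff, coeffMap_coeff, ffd_theta_coeff, map_mul, map_intCast]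

theorem s15w_dlog_coeffMap {k' : Type*} [Field k'] (φ : k →+* k') (f : LaurentSeries k) :
    s15w_dlog (coeffMap φ f) = coeffMap φ (s15w_dlog f) := by
  unfold s15w_dlog
  rw [s15w_theta_coeffMap, map_mul, map_inv₀]

/-! ### regularity -/

/-- `θ f - (order f) • f` has order `> order f`. -/
theorem s15w_dlog_sub_order (f : LaurentSeries k) (hf : f ≠ 0) {n : ℤ} (hn : n ≤ 0) :
    (s15w_dlog f - HahnSeries.C ((f.order : ℤ) : k)).coeff n = 0 := by
  set m := f.order with hm
  set g : LaurentSeries k := ffd_theta f - HahnSeries.C ((m : ℤ) : k) * f with hg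
  have hgc : ∀ j, g.coeff j = ((j : k) - (m : k)) * f.coeff j := by
    intro j
    rw [hg, HahnSeries.coeff_sub, ffd_theta_coeff, HahnSeries.C_mul_eq_smul, HahnSeries.coeff_smul,
      smul_eq_mul]
    ring
  have hkey : s15w_dlog f - HahnSeries.C ((m : ℤ) : k) = g * f⁻¹ := by
    rw [hg, sub_mul, mul_assoc, mul_inv_cancel₀ hf, mul_one]
    rfl
  rw [hkey]
  rcases eq_or_ne g 0 with h0 | h0
  · rw [h0, zero_mul, HahnSeries.coeff_zero]
  set h := g * f⁻¹ with hh
  have hh0 : h ≠ 0 := mul_ne_zero h0 (inv_ne_zero hf)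
  have hgm : m < g.order := by
    by_contra hle
    rw [not_lt] at hle
    have h1 : g.coeff g.order ≠ 0 := fun h => h0 (HahnSeries.coeff_order_eq_zero.mp h)
    rw [hgc] at h1
    rcases lt_or_eq_of_le hle with hlt | heq
    · apply h1
      rw [HahnSeries.coeff_eq_zero_of_lt_order hlt, mul_zero]
    · apply h1
      rw [heq, sub_self, zero_mul]
  have hmul : h * f = g := by rw [hh, mul_assoc, inv_mul_cancel₀ hf, mul_one]
  have hord : h.order + f.order = g.order := by
    rw [← hmul, HahnSeries.order_mul hh0 hf]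
  apply HahnSeries.coeff_eq_zero_of_lt_order
  rw [← hm] at hord
  omega

theorem s15w_dlog_coeff_neg (f : LaurentSeries k) {n : ℤ} (hn : n < 0) :
    (s15w_dlog f).coeff n = 0 := by
  rcases eq_or_ne f 0 with rfl | hf
  · rw [s15w_dlog_zero, HahnSeries.coeff_zero]
  have h := s15w_dlog_sub_order f hf hn.le
  rw [HahnSeries.coeff_sub, HahnSeries.C_apply, HahnSeries.coeff_single_of_ne hn.ne, sub_zero] at h
  exact h

theorem s15w_dlog_coeff_zero (f : LaurentSeries k) (hf : f ≠ 0) :
    (s15w_dlog f).coeff 0 = ((f.order : ℤ) : k) := by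
  have h := s15w_dlog_sub_order f hf (le_refl 0)
  rw [HahnSeries.coeff_sub, HahnSeries.C_apply, HahnSeries.coeff_single_same] at h
  exact sub_eq_zero.mp h

end Fermat.Agent.Lib.S15
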