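/-
Programme M (S15), brick [ET] (helper6, prefix `s15w_`), part 3: LOGARITHMIC DERIVATIVES OF
LAURENT SERIES IN CHARACTERISTIC `p`.

* `s15w_dlog_cartier`: `coeff (p N) (dlog f) = (coeff N (dlog f)) ^ p`;
* `s15w_exists_pow_of_theta_eq_zero`: `θ f = 0 ⇒ f = g ^ p` (perfect coefficient field).
-/
import Fermat.Agent.Lib.S15.WEtSeries

set_option autoImplicit false
set_option linter.unusedSectionVars false
set_option linter.unusedVariables false

noncomputable section

namespace Fermat.Agent.Lib.S15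

open HahnSeries ModularCurve Fermat.Agent.Lib.FF Fermat.Agent.Lib.S28 Fermat.Agent.Lib.S37

variable {k : Type*} [Field k]

theorem s15w_theta_ofPowerSeries (P : PowerSeries k) :
    ffd_theta (HahnSeries.ofPowerSeries ℤ k P) = HahnSeries.ofPowerSeries ℤ k (s15w_pth P) := by
  ext i
  rw [ffd_theta_coeff, PowerSeries.coeff_coe, PowerSeries.coeff_coe]
  split_ifs with h
  · rw [mul_zero]
  · rw [s15w_coeff_pth]
    have h0 : 0 ≤ i := not_lt.mp h
    congr 1
    rw [← Int.cast_natCast, Int.natAbs_of_nonneg h0]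

theorem s15w_dlog_single_one (m : ℤ) :
    s15w_dlog (HahnSeries.single m (1 : k) : LaurentSeries k) = HahnSeries.C ((m : ℤ) : k) := by
  have h1 : (HahnSeries.single m (1 : k) : LaurentSeries k) ≠ 0 := by
    intro h
    have := congrArg (fun x => HahnSeries.coeff x m) h
    simp at this
  apply s15w_dlog_eq_of_mul h1
  ext n
  rw [ffd_theta_coeff, HahnSeries.C_mul_eq_smul, HahnSeries.coeff_smul, smul_eq_mul]
  rcases eq_or_ne n m with rfl | hn
  · rfl
  · rw [HahnSeries.coeff_single_of_ne hn, mul_zero, mul_zero]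

/-- the logarithmic derivative of a Laurent series, in terms of its power series part. -/
theorem s15w_dlog_eq_ofPowerSeries (f : LaurentSeries k) (hf : f ≠ 0) :
    ∃ g P : PowerSeries k, P ≠ 0 ∧ g * P = s15w_pth P ∧
      s15w_dlog f = HahnSeries.C ((f.order : ℤ) : k) + HahnSeries.ofPowerSeries ℤ k g := by
  set P := LaurentSeries.powerSeriesPart f with hP
  have hc : PowerSeries.constantCoeff P ≠ 0 := by
    rw [← PowerSeries.coeff_zero_eq_constantCoeff_apply, LaurentSeries.powerSeriesPart_coeff]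
    simp only [Nat.cast_zero, add_zero]
    exact fun h => hf (HahnSeries.coeff_order_eq_zero.mp h)
  have hP0 : P ≠ 0 := by
    intro h
    apply hc
    rw [h, map_zero]
  refine ⟨s15w_pth P * P⁻¹, P, hP0, ?_, ?_⟩
  · rw [mul_assoc, PowerSeries.inv_mul_cancel P hc, mul_one]
  · have hs1 : (HahnSeries.single f.order (1 : k) : LaurentSeries k) ≠ 0 := by
      intro h
      have := congrArg (fun x => HahnSeries.coeff x f.order) h
      simp at this
    have hPL : (HahnSeries.ofPowerSeries ℤ k P) ≠ 0 := by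
      intro h
      apply hP0
      exact HahnSeries.ofPowerSeries_injective (by rw [h, map_zero])
    have hdec := LaurentSeries.single_order_mul_powerSeriesPart f
    conv_lhs => rw [← hdec]
    rw [s15w_dlog_mul hs1 hPL, s15w_dlog_single_one]
    congr 1
    apply s15w_dlog_eq_of_mul hPL
    rw [s15w_theta_ofPowerSeries, ← map_mul, mul_assoc, PowerSeries.inv_mul_cancel P hc, mul_one]

section CharP

variable (p : ℕ) [hp : Fact p.Prime] [CharP k p]

/-- **the Cartier identity** for logarithmic derivatives of Laurent series. -/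
theorem s15w_dlog_cartier (f : LaurentSeries k) (N : ℤ) :
    (s15w_dlog f).coeff ((p : ℤ) * N) = ((s15w_dlog f).coeff N) ^ p := by
  have hp0 : p ≠ 0 := hp.out.ne_zero
  have hppos : (0 : ℤ) < p := by exact_mod_cast hp.out.pos
  rcases eq_or_ne f 0 with rfl | hf
  · rw [s15w_dlog_zero, HahnSeries.coeff_zero, HahnSeries.coeff_zero, zero_pow hp0]
  rcases lt_trichotomy N 0 with hN | rfl | hN
  · rw [s15w_dlog_coeff_neg f hN, s15w_dlog_coeff_neg f (mul_neg_of_pos_of_neg hppos hN),
      zero_pow hp0]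
  · rw [mul_zero, s15w_dlog_coeff_zero f hf]
    have := map_intCast (frobenius k p) f.order
    rw [frobenius_def] at this
    exact this.symm
  · obtain ⟨g, P, hP0, hgP, hd⟩ := s15w_dlog_eq_ofPowerSeries f hf
    obtain ⟨n, rfl⟩ := Int.eq_ofNat_of_zero_le hN.le
    have hn0 : (n : ℤ) ≠ 0 := hN.ne'
    have hpn0 : (p : ℤ) * (n : ℤ) ≠ 0 := mul_ne_zero hppos.ne' hn0
    rw [hd, HahnSeries.coeff_add, HahnSeries.coeff_add, HahnSeries.C_apply,
      HahnSeries.coeff_single_of_ne hpn0, HahnSeries.coeff_single_of_ne hn0, zero_add, zero_add]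
    have e1 : ((p : ℤ) * (n : ℤ)) = ((p * n : ℕ) : ℤ) := by push_cast; ring
    rw [e1, HahnSeries.ofPowerSeries_apply_coeff, HahnSeries.ofPowerSeries_apply_coeff]
    exact s15w_cartier_ps p P g hP0 hgP n

/-- `θ f = 0` forces the support into `p ℤ`. -/
theorem s15w_dvd_of_theta_eq_zero (f : LaurentSeries k) (hθ : ffd_theta f = 0) {n : ℤ}
    (hn : f.coeff n ≠ 0) : (p : ℤ) ∣ n := by
  have h := congrArg (fun x => HahnSeries.coeff x n) hθ
  simp only [ffd_theta_coeff, HahnSeries.coeff_zero] at h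
  rcases mul_eq_zero.mp h with h1 | h1
  · exact (CharP.intCast_eq_zero_iff k p n).mp h1
  · exact absurd h1 hn

/-- a series supported on `p ℤ` is a series in `q ^ p`. -/
theorem s15w_exists_qExpand (m : ℕ) [NeZero m] (f : LaurentSeries k)
    (h : ∀ n : ℤ, f.coeff n ≠ 0 → (m : ℤ) ∣ n) : ∃ y : LaurentSeries k, qExpand k m y = f := by
  have hmpos : (0 : ℤ) < m := by exact_mod_cast Nat.pos_of_ne_zero (NeZero.ne m)
  have hbdd : BddBelow (Function.support fun n : ℤ => f.coeff ((m : ℤ) * n)) := by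
    set B := f.order with hB
    refine ⟨min B 0, ?_⟩
    intro n hn
    simp only [Function.mem_support, ne_eq] at hn
    have h1 : B ≤ (m : ℤ) * n := HahnSeries.order_le_of_coeff_ne_zero hn
    by_contra hlt
    rw [not_le] at hlt
    have hn0 : n < 0 := lt_of_lt_of_le hlt (min_le_right _ _)
    have hnB : n < B := lt_of_lt_of_le hlt (min_le_left _ _)
    have : (m : ℤ) * n ≤ n := by nlinarith
    omega
  refine ⟨HahnSeries.ofSuppBddBelow _ hbdd, ?_⟩
  ext n
  by_cases hn : (m : ℤ) ∣ n
  · obtain ⟨j, rfl⟩ := hn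
    rw [qExpand_coeff_mul, HahnSeries.coeff_ofSuppBddBelow]
  · rw [qExpand_coeff_of_not_dvd m _ hn]
    by_contra hne
    exact hn (h n (Ne.symm hne))

/-- **`θ f = 0` implies that `f` is a `p`-th power** (perfect coefficients). -/
theorem s15w_exists_pow_of_theta_eq_zero [PerfectRing k p] (f : LaurentSeries k)
    (hθ : ffd_theta f = 0) : ∃ g : LaurentSeries k, g ^ p = f := by
  obtain ⟨y, hy⟩ := s15w_exists_qExpand p f (fun n hn => s15w_dvd_of_theta_eq_zero p f hθ hn)
  exact ⟨coeffMap ((frobeniusEquiv k p).symm : k →+* k) y, by rw [← s37e_qExpand_eq_pow p y, hy]⟩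

end CharP

end Fermat.Agent.Lib.S15
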