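/-
Programme M (S15), brick [ET] (helper6, prefix `s15w_`), part 4: THE REDUCED LOGARITHMIC DERIVATIVE
`Λ` OF A BOUNDED LAURENT SERIES.

`A` a valuation subring of a field `L`, `π : A →+* k` a ring homomorphism to a field.  A series
`x ∈ L((q))` is *presented* by `(c, Y₁, Y₂)` if `x * Y₂ = c * Y₁` with `c ∈ Lˣ`, `Y₁, Y₂ ∈ A((q))`
of non-zero reduction; then `Λ x := dlog Ȳ₁ - dlog Ȳ₂ ∈ k((q))` does not depend on the
presentation (Gauss lemma), is additive on products, kills constants, and is compatible with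
`q ↦ q^m` and `q ↦ u q` (`u ∈ Aˣ`).
-/
import Fermat.Agent.Lib.S15.WEtSeriesP
import Fermat.Agent.Lib.S37.ENorm

set_option autoImplicit false
set_option linter.unusedSectionVars false
set_option linter.unusedVariables false

noncomputable section

namespace Fermat.Agent.Lib.S15

open HahnSeries ModularCurve Fermat.Agent.Lib.FF Fermat.Agent.Lib.S28 Fermat.Agent.Lib.S37

variable {L : Type*} [Field L] (A : ValuationSubring L) {k : Type*} [Field k] (π : ↥A →+* k)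

/-- `x * Y₂ = c * Y₁` with `c ≠ 0` and `Ȳ₁, Ȳ₂ ≠ 0`. -/
structure s15w_Pres (x : LaurentSeries L) (c : L) (Y₁ Y₂ : LaurentSeries ↥A) : Prop where
  c_ne : c ≠ 0
  red₁ : coeffMap π Y₁ ≠ 0
  red₂ : coeffMap π Y₂ ≠ 0
  eq : x * coeffMap A.subtype Y₂ = HahnSeries.C c * coeffMap A.subtype Y₁

/-- the bounded series. -/
def s15w_Bdd (x : LaurentSeries L) : Prop := ∃ c Y₁ Y₂, s15w_Pres A π x c Y₁ Y₂

variable {A π}

theorem s15w_ne_zero_of_red {Y : LaurentSeries ↥A} (h : coeffMap π Y ≠ 0) :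
    coeffMap A.subtype Y ≠ 0 := by
  intro h0
  apply h
  have : Y = 0 := s37e_coeffMap_subtype_injective A (by rw [h0, map_zero])
  rw [this, map_zero]

theorem s15w_Pres.ne_zero {x : LaurentSeries L} {c : L} {Y₁ Y₂ : LaurentSeries ↥A}
    (h : s15w_Pres A π x c Y₁ Y₂) : x ≠ 0 := by
  rintro rfl
  have := h.eq
  rw [zero_mul] at this
  have hc : (HahnSeries.C c : LaurentSeries L) ≠ 0 := by
    intro h0
    apply h.c_ne
    have := congrArg (fun s => HahnSeries.coeff s 0) h0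
    simpa using this
  exact mul_ne_zero hc (s15w_ne_zero_of_red h.red₁) this.symm

theorem s15w_coeffMap_C {R S : Type*} [CommRing R] [CommRing S] (f : R →+* S) (a : R) :
    coeffMap f (HahnSeries.C a : LaurentSeries R) = HahnSeries.C (f a) := by
  show coeffMap f (HahnSeries.single 0 a) = HahnSeries.single 0 (f a)
  rw [coeffMap_single]

/-- one half of the Gauss lemma. -/
theorem s15w_pres_aux {Y₁ Y₂ Z₁ Z₂ : LaurentSeries ↥A} (u : L) (hu : u ∈ A)
    (h1 : coeffMap π Y₁ ≠ 0) (h2 : coeffMap π Y₂ ≠ 0) (h3 : coeffMap π Z₁ ≠ 0)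
    (h4 : coeffMap π Z₂ ≠ 0)
    (h : HahnSeries.C u * (coeffMap A.subtype Y₁ * coeffMap A.subtype Z₂) =
      coeffMap A.subtype Z₁ * coeffMap A.subtype Y₂) :
    s15w_dlog (coeffMap π Y₁) - s15w_dlog (coeffMap π Y₂) =
      s15w_dlog (coeffMap π Z₁) - s15w_dlog (coeffMap π Z₂) := by
  have hA : HahnSeries.C (⟨u, hu⟩ : ↥A) * (Y₁ * Z₂) = Z₁ * Y₂ := by
    apply s37e_coeffMap_subtype_injective A
    rw [map_mul, map_mul, map_mul, s15w_coeffMap_C]
    exact h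
  have hk := congrArg (coeffMap π) hA
  rw [map_mul, map_mul, map_mul, s15w_coeffMap_C] at hk
  have hu0 : (HahnSeries.C (π ⟨u, hu⟩) : LaurentSeries k) ≠ 0 := by
    intro h0
    rw [h0, zero_mul] at hk
    exact mul_ne_zero h3 h2 hk.symm
  have hd := congrArg s15w_dlog hk
  rw [s15w_dlog_mul hu0 (mul_ne_zero h1 h4), s15w_dlog_mul h1 h4, s15w_dlog_mul h3 h2,
    s15w_dlog_C, zero_add] at hd
  rw [sub_eq_sub_iff_add_eq_add]
  exact hd

/-- **the Gauss lemma**: `dlog Ȳ₁ - dlog Ȳ₂` does not depend on the presentation. -/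
theorem s15w_pres_unique {x : LaurentSeries L} {c c' : L} {Y₁ Y₂ Z₁ Z₂ : LaurentSeries ↥A}
    (h : s15w_Pres A π x c Y₁ Y₂) (h' : s15w_Pres A π x c' Z₁ Z₂) :
    s15w_dlog (coeffMap π Y₁) - s15w_dlog (coeffMap π Y₂) =
      s15w_dlog (coeffMap π Z₁) - s15w_dlog (coeffMap π Z₂) := by
  have hc : (HahnSeries.C c : LaurentSeries L) * HahnSeries.C c⁻¹ = 1 := by
    rw [← map_mul, mul_inv_cancel₀ h.c_ne, map_one]
  have hc' : (HahnSeries.C c' : LaurentSeries L) * HahnSeries.C c'⁻¹ = 1 := by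
    rw [← map_mul, mul_inv_cancel₀ h'.c_ne, map_one]
  -- `c Y₁ Z₂ = c' Z₁ Y₂`
  have key : HahnSeries.C c * (coeffMap A.subtype Y₁ * coeffMap A.subtype Z₂) =
      HahnSeries.C c' * (coeffMap A.subtype Z₁ * coeffMap A.subtype Y₂) := by
    calc HahnSeries.C c * (coeffMap A.subtype Y₁ * coeffMap A.subtype Z₂)
        = (HahnSeries.C c * coeffMap A.subtype Y₁) * coeffMap A.subtype Z₂ := by ring
      _ = (x * coeffMap A.subtype Z₂) * coeffMap A.subtype Y₂ := by rw [← h.eq]; ring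
      _ = HahnSeries.C c' * (coeffMap A.subtype Z₁ * coeffMap A.subtype Y₂) := by
          rw [h'.eq]; ring
  rcases A.mem_or_inv_mem (c / c') with hu | hu
  · refine s15w_pres_aux (c / c') hu h.red₁ h.red₂ h'.red₁ h'.red₂ ?_
    have : (HahnSeries.C (c / c') : LaurentSeries L) = HahnSeries.C c'⁻¹ * HahnSeries.C c := by
      rw [← map_mul, div_eq_mul_inv, mul_comm]
    rw [this, mul_assoc, key, ← mul_assoc, mul_comm (HahnSeries.C c'⁻¹), hc', one_mul]
  · have hsymm := s15w_pres_aux (A := A) (π := π) (c / c')⁻¹ hu h'.red₁ h'.red₂ h.red₁ h.red₂ ?_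
    · exact hsymm.symm
    have : (HahnSeries.C (c / c')⁻¹ : LaurentSeries L) = HahnSeries.C c⁻¹ * HahnSeries.C c' := by
      rw [← map_mul, inv_div, div_eq_mul_inv, mul_comm]
    rw [this, mul_assoc, ← key, ← mul_assoc, mul_comm (HahnSeries.C c⁻¹), hc, one_mul]

variable (A π)

open Classical in
/-- **the reduced logarithmic derivative** of a bounded series (`0` otherwise). -/
def s15w_Lam (x : LaurentSeries L) : LaurentSeries k :=
  if h : s15w_Bdd A π x then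
    s15w_dlog (coeffMap π h.choose_spec.choose) -
      s15w_dlog (coeffMap π h.choose_spec.choose_spec.choose)
  else 0

variable {A π}

theorem s15w_Lam_eq {x : LaurentSeries L} {c : L} {Y₁ Y₂ : LaurentSeries ↥A}
    (h : s15w_Pres A π x c Y₁ Y₂) :
    s15w_Lam A π x = s15w_dlog (coeffMap π Y₁) - s15w_dlog (coeffMap π Y₂) := by
  have hb : s15w_Bdd A π x := ⟨c, Y₁, Y₂, h⟩
  unfold s15w_Lam
  rw [dif_pos hb]
  exact s15w_pres_unique hb.choose_spec.choose_spec.choose_spec h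

/-! ### operations on presentations -/

theorem s15w_Pres.mul {x x' : LaurentSeries L} {c c' : L} {Y₁ Y₂ Z₁ Z₂ : LaurentSeries ↥A}
    (h : s15w_Pres A π x c Y₁ Y₂) (h' : s15w_Pres A π x' c' Z₁ Z₂) :
    s15w_Pres A π (x * x') (c * c') (Y₁ * Z₁) (Y₂ * Z₂) where
  c_ne := mul_ne_zero h.c_ne h'.c_ne
  red₁ := by rw [map_mul]; exact mul_ne_zero h.red₁ h'.red₁
  red₂ := by rw [map_mul]; exact mul_ne_zero h.red₂ h'.red₂
  eq := by
    rw [map_mul, map_mul, map_mul]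
    calc x * x' * (coeffMap A.subtype Y₂ * coeffMap A.subtype Z₂)
        = (x * coeffMap A.subtype Y₂) * (x' * coeffMap A.subtype Z₂) := by ring
      _ = _ := by rw [h.eq, h'.eq]; ring

theorem s15w_Pres.inv {x : LaurentSeries L} {c : L} {Y₁ Y₂ : LaurentSeries ↥A}
    (h : s15w_Pres A π x c Y₁ Y₂) : s15w_Pres A π x⁻¹ c⁻¹ Y₂ Y₁ where
  c_ne := inv_ne_zero h.c_ne
  red₁ := h.red₂
  red₂ := h.red₁
  eq := by
    have hx := h.ne_zero
    have hc : (HahnSeries.C c⁻¹ : LaurentSeries L) * HahnSeries.C c = 1 := by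
      rw [← map_mul, inv_mul_cancel₀ h.c_ne, map_one]
    have e := h.eq
    calc x⁻¹ * coeffMap A.subtype Y₁
        = x⁻¹ * ((HahnSeries.C c⁻¹ * HahnSeries.C c) * coeffMap A.subtype Y₁) := by
          rw [hc, one_mul]
      _ = x⁻¹ * (HahnSeries.C c⁻¹ * (HahnSeries.C c * coeffMap A.subtype Y₁)) := by ring
      _ = x⁻¹ * (HahnSeries.C c⁻¹ * (x * coeffMap A.subtype Y₂)) := by rw [e]
      _ = (x⁻¹ * x) * (HahnSeries.C c⁻¹ * coeffMap A.subtype Y₂) := by ring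
      _ = _ := by rw [inv_mul_cancel₀ hx, one_mul]

theorem s15w_pres_const {c : L} (hc : c ≠ 0) :
    s15w_Pres A π (HahnSeries.C c : LaurentSeries L) c 1 1 where
  c_ne := hc
  red₁ := by rw [map_one]; exact one_ne_zero
  red₂ := by rw [map_one]; exact one_ne_zero
  eq := by rw [map_one]

theorem s15w_pres_integral {Y : LaurentSeries ↥A} (hY : coeffMap π Y ≠ 0) :
    s15w_Pres A π (coeffMap A.subtype Y) 1 Y 1 where
  c_ne := one_ne_zero
  red₁ := hY
  red₂ := by rw [map_one]; exact one_ne_zero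
  eq := by rw [map_one, map_one, mul_one, one_mul]

theorem s15w_Pres.qExpand {x : LaurentSeries L} {c : L} {Y₁ Y₂ : LaurentSeries ↥A}
    (h : s15w_Pres A π x c Y₁ Y₂) (m : ℕ) [NeZero m] :
    s15w_Pres A π (qExpand L m x) c (qExpand ↥A m Y₁) (qExpand ↥A m Y₂) where
  c_ne := h.c_ne
  red₁ := by
    rw [coeffMap_qExpand]
    exact fun h0 => h.red₁ (qExpand_injective m (by rw [h0, map_zero]))
  red₂ := by
    rw [coeffMap_qExpand]
    exact fun h0 => h.red₂ (qExpand_injective m (by rw [h0, map_zero]))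
  eq := by
    rw [coeffMap_qExpand, coeffMap_qExpand, ← map_mul, h.eq, map_mul, qExpand_C]

theorem s15w_Pres.tw {x : LaurentSeries L} {c : L} {Y₁ Y₂ : LaurentSeries ↥A}
    (h : s15w_Pres A π x c Y₁ Y₂) (u : (↥A)ˣ) :
    s15w_Pres A π (s28m_tw (Units.map (A.subtype : ↥A →* L) u) x) c (s28m_tw u Y₁)
      (s28m_tw u Y₂) where
  c_ne := h.c_ne
  red₁ := by
    rw [s28m_coeffMap_tw]
    exact fun h0 => h.red₁ (s28m_tw_injective _ (by rw [h0, map_zero]))
  red₂ := by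
    rw [s28m_coeffMap_tw]
    exact fun h0 => h.red₂ (s28m_tw_injective _ (by rw [h0, map_zero]))
  eq := by
    rw [s28m_coeffMap_tw, s28m_coeffMap_tw]
    show s28m_tw (Units.map (A.subtype : ↥A →* L) u) x *
      s28m_tw (Units.map (A.subtype : ↥A →* L) u) (coeffMap A.subtype Y₂) = _
    rw [← map_mul, h.eq, map_mul, s28m_tw_C]

/-! ### properties of `Λ` -/

theorem s15w_Bdd.mul {x y : LaurentSeries L} (hx : s15w_Bdd A π x) (hy : s15w_Bdd A π y) :
    s15w_Bdd A π (x * y) := by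
  obtain ⟨c, Y₁, Y₂, h⟩ := hx
  obtain ⟨c', Z₁, Z₂, h'⟩ := hy
  exact ⟨_, _, _, h.mul h'⟩

theorem s15w_Bdd.inv {x : LaurentSeries L} (hx : s15w_Bdd A π x) : s15w_Bdd A π x⁻¹ := by
  obtain ⟨c, Y₁, Y₂, h⟩ := hx
  exact ⟨_, _, _, h.inv⟩

theorem s15w_Bdd.pow {x : LaurentSeries L} (hx : s15w_Bdd A π x) (n : ℕ) :
    s15w_Bdd A π (x ^ n) := by
  induction n with
  | zero =>
    rw [pow_zero]
    have := s15w_pres_const (A := A) (π := π) (c := (1 : L)) one_ne_zero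
    rw [map_one] at this
    exact ⟨_, _, _, this⟩
  | succ m ih => rw [pow_succ]; exact ih.mul hx

theorem s15w_Bdd.ne_zero {x : LaurentSeries L} (hx : s15w_Bdd A π x) : x ≠ 0 := by
  obtain ⟨c, Y₁, Y₂, h⟩ := hx
  exact h.ne_zero

theorem s15w_Lam_mul {x y : LaurentSeries L} (hx : s15w_Bdd A π x) (hy : s15w_Bdd A π y) :
    s15w_Lam A π (x * y) = s15w_Lam A π x + s15w_Lam A π y := by
  obtain ⟨c, Y₁, Y₂, h⟩ := hx
  obtain ⟨c', Z₁, Z₂, h'⟩ := hy
  rw [s15w_Lam_eq (h.mul h'), s15w_Lam_eq h, s15w_Lam_eq h', map_mul, map_mul,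
    s15w_dlog_mul h.red₁ h'.red₁, s15w_dlog_mul h.red₂ h'.red₂]
  ring

theorem s15w_Lam_inv {x : LaurentSeries L} (hx : s15w_Bdd A π x) :
    s15w_Lam A π x⁻¹ = -s15w_Lam A π x := by
  obtain ⟨c, Y₁, Y₂, h⟩ := hx
  rw [s15w_Lam_eq h.inv, s15w_Lam_eq h]
  ring

theorem s15w_Lam_const {c : L} (hc : c ≠ 0) :
    s15w_Lam A π (HahnSeries.C c : LaurentSeries L) = 0 := by
  rw [s15w_Lam_eq (s15w_pres_const hc), sub_self]

theorem s15w_Lam_one : s15w_Lam A π (1 : LaurentSeries L) = 0 := by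
  have := s15w_Lam_const (A := A) (π := π) (c := (1 : L)) one_ne_zero
  rwa [map_one] at this

theorem s15w_Lam_pow {x : LaurentSeries L} (hx : s15w_Bdd A π x) (n : ℕ) :
    s15w_Lam A π (x ^ n) = n • s15w_Lam A π x := by
  induction n with
  | zero => rw [pow_zero, s15w_Lam_one, zero_smul]
  | succ m ih => rw [pow_succ, s15w_Lam_mul (hx.pow m) hx, ih, succ_nsmul]

theorem s15w_Lam_integral {Y : LaurentSeries ↥A} (hY : coeffMap π Y ≠ 0) :
    s15w_Lam A π (coeffMap A.subtype Y) = s15w_dlog (coeffMap π Y) := by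
  rw [s15w_Lam_eq (s15w_pres_integral hY), map_one, s15w_dlog_one, sub_zero]

theorem s15w_Bdd.qExpand {x : LaurentSeries L} (hx : s15w_Bdd A π x) (m : ℕ) [NeZero m] :
    s15w_Bdd A π (qExpand L m x) := by
  obtain ⟨c, Y₁, Y₂, h⟩ := hx
  exact ⟨_, _, _, h.qExpand m⟩

theorem s15w_Lam_qExpand {x : LaurentSeries L} (hx : s15w_Bdd A π x) (m : ℕ) [NeZero m] :
    s15w_Lam A π (qExpand L m x) = (m : k) • qExpand k m (s15w_Lam A π x) := by
  obtain ⟨c, Y₁, Y₂, h⟩ := hx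
  rw [s15w_Lam_eq (h.qExpand m), s15w_Lam_eq h, coeffMap_qExpand, coeffMap_qExpand,
    s15w_dlog_qExpand, s15w_dlog_qExpand, map_sub, smul_sub]

theorem s15w_Bdd.tw {x : LaurentSeries L} (hx : s15w_Bdd A π x) (u : (↥A)ˣ) :
    s15w_Bdd A π (s28m_tw (Units.map (A.subtype : ↥A →* L) u) x) := by
  obtain ⟨c, Y₁, Y₂, h⟩ := hx
  exact ⟨_, _, _, h.tw u⟩

theorem s15w_Lam_tw {x : LaurentSeries L} (hx : s15w_Bdd A π x) (u : (↥A)ˣ) :
    s15w_Lam A π (s28m_tw (Units.map (A.subtype : ↥A →* L) u) x) =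
      s28m_tw (Units.map (π : ↥A →* k) u) (s15w_Lam A π x) := by
  obtain ⟨c, Y₁, Y₂, h⟩ := hx
  rw [s15w_Lam_eq (h.tw u), s15w_Lam_eq h, s28m_coeffMap_tw, s28m_coeffMap_tw, s15w_dlog_tw,
    s15w_dlog_tw, map_sub]

/-- `Λ` has no polar part. -/
theorem s15w_Lam_coeff_neg (x : LaurentSeries L) {n : ℤ} (hn : n < 0) :
    (s15w_Lam A π x).coeff n = 0 := by
  by_cases hb : s15w_Bdd A π x
  · obtain ⟨c, Y₁, Y₂, h⟩ := hb
    rw [s15w_Lam_eq h, HahnSeries.coeff_sub, s15w_dlog_coeff_neg _ hn, s15w_dlog_coeff_neg _ hn,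
      sub_zero]
  · unfold s15w_Lam
    rw [dif_neg hb, HahnSeries.coeff_zero]

/-- **the Cartier identity** for `Λ`. -/
theorem s15w_Lam_cartier (p : ℕ) [hp : Fact p.Prime] [CharP k p] (x : LaurentSeries L) (N : ℤ) :
    (s15w_Lam A π x).coeff ((p : ℤ) * N) = ((s15w_Lam A π x).coeff N) ^ p := by
  by_cases hb : s15w_Bdd A π x
  · obtain ⟨c, Y₁, Y₂, h⟩ := hb
    rw [s15w_Lam_eq h, HahnSeries.coeff_sub, HahnSeries.coeff_sub, s15w_dlog_cartier p,
      s15w_dlog_cartier p, sub_pow_char]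
  · unfold s15w_Lam
    rw [dif_neg hb, HahnSeries.coeff_zero, HahnSeries.coeff_zero, zero_pow hp.out.ne_zero]

/-- in characteristic `p`, `Λ` kills `p`-th powers. -/
theorem s15w_Lam_pow_char (p : ℕ) [CharP k p] {x : LaurentSeries L} (hx : s15w_Bdd A π x) :
    s15w_Lam A π (x ^ p) = 0 := by
  rw [s15w_Lam_pow hx]
  haveI : CharP (LaurentSeries k) p :=
    ((algebraMap k (LaurentSeries k)).charP_iff_charP p).mp inferInstance
  rw [nsmul_eq_mul, CharP.cast_eq_zero, zero_mul]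

end Fermat.Agent.Lib.S15
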