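/-
Programme M (S15), brick [ET] (helper6, prefix `s15w_`), part 5: EVERY MODULAR FUNCTION IS BOUNDED.

For a level `M` prime to the residue characteristic `ℓ` of `A`, every non-zero function `f` of
`ℚ̄(X₀(M))` has a presentation `f * y₂ = c * y₁` with `y₁, y₂` functions with integral
`q`-expansions whose reductions are non-zero functions of the special fibre (`s15w_Good`): the
function form of the landed `s37g_principalGenerated`.
-/
import Fermat.Agent.Lib.S15.WEtLam
import Fermat.Agent.Lib.S37.GGen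
import Fermat.Agent.Lib.S29.BPPlace

set_option autoImplicit false
set_option linter.unusedSectionVars false
set_option linter.unusedVariables false
set_option linter.style.haveILetI false

noncomputable section

namespace Fermat.Agent.Lib.S15

open HahnSeries ModularCurve AlgebraicCurve IsLocalRing Fermat.Agent.Lib.FF Fermat.Agent.Lib.S28
  Fermat.Agent.Lib.S37 Fermat.Agent.Lib.S18 Fermat.Agent.Lib.S29

local notation "Kb" => AlgebraicClosure ℚ

variable (A : ValuationSubring Kb) (M : ℕ) [NeZero M]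

/-- a function with a presentation by integral functions with non-zero reductions in the function
field of the special fibre. -/
def s15w_Good (f : ffi_F M) : Prop :=
  ∃ (c : Kb) (Y₁ Y₂ : LaurentSeries ↥A),
    s15w_Pres A (residue ↥A) (f : LaurentSeries Kb) c Y₁ Y₂ ∧
    coeffMap A.subtype Y₁ ∈ modularFunctionFieldBar M ∧
    coeffMap A.subtype Y₂ ∈ modularFunctionFieldBar M ∧
    coeffMap (residue ↥A) Y₁ ∈ modularFunctionFieldFullC (ResidueField ↥A) M ∧
    coeffMap (residue ↥A) Y₂ ∈ modularFunctionFieldFullC (ResidueField ↥A) M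

variable {A M}

theorem s15w_Good.bdd {f : ffi_F M} (h : s15w_Good A M f) :
    s15w_Bdd A (residue ↥A) (f : LaurentSeries Kb) := by
  obtain ⟨c, Y₁, Y₂, hp, -⟩ := h
  exact ⟨c, Y₁, Y₂, hp⟩

theorem s15w_Good.mul {f g : ffi_F M} (hf : s15w_Good A M f) (hg : s15w_Good A M g) :
    s15w_Good A M (f * g) := by
  obtain ⟨c, Y₁, Y₂, hp, h1, h2, h3, h4⟩ := hf
  obtain ⟨c', Z₁, Z₂, hp', h1', h2', h3', h4'⟩ := hg
  refine ⟨c * c', Y₁ * Z₁, Y₂ * Z₂, ?_, ?_, ?_, ?_, ?_⟩
  · have := hp.mul hp'
    rwa [← MulMemClass.coe_mul] at this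
  · rw [map_mul]; exact mul_mem h1 h1'
  · rw [map_mul]; exact mul_mem h2 h2'
  · rw [map_mul]; exact mul_mem h3 h3'
  · rw [map_mul]; exact mul_mem h4 h4'

theorem s15w_Good.inv {f : ffi_F M} (hf : s15w_Good A M f) : s15w_Good A M f⁻¹ := by
  obtain ⟨c, Y₁, Y₂, hp, h1, h2, h3, h4⟩ := hf
  refine ⟨c⁻¹, Y₂, Y₁, ?_, h2, h1, h4, h3⟩
  have := hp.inv
  rwa [← IntermediateField.coe_inv] at this

theorem s15w_good_const {c : Kb} (hc : c ≠ 0) : s15w_Good A M (algebraMap Kb (ffi_F M) c) := by
  refine ⟨c, 1, 1, ?_, ?_, ?_, ?_, ?_⟩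
  · have := s15w_pres_const (A := A) (π := residue ↥A) hc
    have e : ((algebraMap Kb (ffi_F M) c : ffi_F M) : LaurentSeries Kb) = HahnSeries.C c := by
      show algebraMap Kb (LaurentSeries Kb) c = HahnSeries.C c
      rw [HahnSeries.algebraMap_apply']
      have h1 : algebraMap Kb (PowerSeries Kb) c = PowerSeries.C c := by simp
      rw [h1, HahnSeries.ofPowerSeries_C]
    rwa [e]
  · rw [map_one]; exact one_mem _
  · rw [map_one]; exact one_mem _
  · rw [map_one]; exact one_mem _
  · rw [map_one]; exact one_mem _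

theorem s15w_good_one : s15w_Good A M (1 : ffi_F M) := by
  have := s15w_good_const (A := A) (M := M) (c := (1 : Kb)) one_ne_zero
  rwa [map_one] at this

/-- an integral function with non-zero reduction in the special fibre. -/
theorem s15w_good_integral (Y : LaurentSeries ↥A)
    (hY : coeffMap A.subtype Y ∈ modularFunctionFieldBar M)
    (hYk : coeffMap (residue ↥A) Y ∈ modularFunctionFieldFullC (ResidueField ↥A) M)
    (hY0 : coeffMap (residue ↥A) Y ≠ 0) :
    s15w_Good A M (⟨coeffMap A.subtype Y, hY⟩ : ffi_F M) :=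
  ⟨1, Y, 1, s15w_pres_integral hY0, hY, by rw [map_one]; exact one_mem _, hYk,
    by rw [map_one]; exact one_mem _⟩

/-- **every non-zero modular function is good.** -/
theorem s15w_good {ℓ : ℕ} [Fact ℓ.Prime] (hℓM : ¬ ℓ ∣ M) (hA : A.LiesOverPrime ℓ)
    (f : ffi_F M) (hf : f ≠ 0) : s15w_Good A M f := by
  classical
  obtain ⟨D, hD, -⟩ := HasPrincipalDivisors.exists_divisor (K := Kb) f hf
  have hprin : D ∈ Divisor.principal (K := Kb) (F := ffi_F M) :=
    Divisor.mem_principal.mpr ⟨f, hf, hD⟩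
  have hgen := s37g_principalGenerated M hℓM A hA hprin
  -- every divisor of the closure is the divisor of a good function
  have key : ∀ E ∈ AddSubgroup.closure (integralPrincipalDivisors A (residue ↥A) M),
      ∃ g : ffi_F M, g ≠ 0 ∧ (∀ P, E P = P.ord g) ∧ s15w_Good A M g := by
    intro E hE
    induction hE using AddSubgroup.closure_induction with
    | mem E hE =>
      obtain ⟨Y, hY, hYk, hY0, hE⟩ := hE
      refine ⟨⟨coeffMap A.subtype Y, hY⟩, ?_, hE, s15w_good_integral Y hY hYk hY0⟩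
      intro h0
      exact s15w_ne_zero_of_red hY0 (congrArg Subtype.val h0)
    | zero =>
      exact ⟨1, one_ne_zero, fun P => by rw [Place.ord_one]; rfl, s15w_good_one⟩
    | add E₁ E₂ _ _ ih₁ ih₂ =>
      obtain ⟨g₁, hg₁, hE₁, hG₁⟩ := ih₁
      obtain ⟨g₂, hg₂, hE₂, hG₂⟩ := ih₂
      refine ⟨g₁ * g₂, mul_ne_zero hg₁ hg₂, fun P => ?_, hG₁.mul hG₂⟩
      rw [Finsupp.add_apply, hE₁, hE₂, P.ord_mul hg₁ hg₂]
    | neg E _ ih =>
      obtain ⟨g, hg, hE, hG⟩ := ih
      refine ⟨g⁻¹, inv_ne_zero hg, fun P => ?_, hG.inv⟩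
      rw [Finsupp.neg_apply, hE, P.ord_inv]
  obtain ⟨g, hg, hDg, hG⟩ := key D hgen
  -- `f / g` has trivial divisor, hence is a constant
  haveI : FFGen Kb (ffd_jBar M) := s18r_ffGen M
  have hconst := s29bp_const_of_ord_eq_zero (K := Kb) (ffd_jBar M) (f * g⁻¹) (fun v => by
    rw [v.ord_mul hf (inv_ne_zero hg), v.ord_inv, ← hD, ← hDg, add_neg_cancel])
  obtain ⟨c, hc⟩ := hconst
  have hc0 : c ≠ 0 := by
    rintro rfl
    rw [map_zero] at hc
    exact mul_ne_zero hf (inv_ne_zero hg) hc.symm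
  have hfg : f = algebraMap Kb (ffi_F M) c * g := by
    rw [hc, mul_assoc, inv_mul_cancel₀ hg, mul_one]
  rw [hfg]
  exact (s15w_good_const hc0).mul hG

end Fermat.Agent.Lib.S15
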