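/-
Programme M (S15), brick [ET] (helper6, prefix `s15w_`), part 6: THE KERNEL OF `Λ` ON TORSION.

* `s15w_mem_of_pow_mem`: the function field of the special fibre is closed under `ℓ`-th roots
  inside `k((q))` (separability over `k(j(q^N))`, landed S18);
* `s15w_mapDomain_good`: the push-forward of the divisor of a good function is the divisor of the
  quotient of the reductions (conservation of number);
* `s15w_red_eq_zero`: if `ℓ • D = div f` and `Λ f = 0`, then `red_A [D] = 0`.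
-/
import Fermat.Agent.Lib.S15.WEtFun
import Fermat.Agent.Lib.S18.NConst
import Fermat.Agent.Lib.S18.TSepJ
import Fermat.Agent.Lib.S18.NResidue
import Fermat.Agent.Lib.S28.EFinal

set_option autoImplicit false
set_option linter.unusedSectionVars false
set_option linter.unusedVariables false
set_option linter.style.haveILetI false

noncomputable section

namespace Fermat.Agent.Lib.S15

open HahnSeries ModularCurve AlgebraicCurve IsLocalRing IntermediateField Fermat.Agent.Lib.FF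
  Fermat.Agent.Lib.S28 Fermat.Agent.Lib.S37 Fermat.Agent.Lib.S18 Fermat.Agent.Lib.S29

local notation "Kb" => AlgebraicClosure ℚ

section Root

variable (k : Type*) [Field k] [IsAlgClosed k] (ℓ : ℕ) [Fact ℓ.Prime] [CharP k ℓ]
  (N : ℕ) [NeZero N]

/-- **the function field of the special fibre is closed under `ℓ`-th roots in `k((q))`.** -/
theorem s15w_mem_of_pow_mem (hℓN : ¬ ℓ ∣ N) (g : LaurentSeries k)
    (hg : g ^ ℓ ∈ modularFunctionFieldFullC k N) : g ∈ modularFunctionFieldFullC k N := by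
  have hPL := s28e_primeLevelAll k ℓ N hℓN
  haveI := s28e_finiteDimensional_top k N hPL
  have hℓ0 : 0 < ℓ := (Fact.out : ℓ.Prime).pos
  -- `g` is algebraic over the base
  have hgT : g ^ ℓ ∈ s28e_top k N := (s18n_mem_top_iff k N _).mpr hg
  have halg1 : IsAlgebraic ↥(s28e_base k N) (g ^ ℓ) := by
    have h1 : IsAlgebraic ↥(s28e_base k N) (⟨g ^ ℓ, hgT⟩ : ↥(s28e_top k N)) :=
      Algebra.IsAlgebraic.isAlgebraic _
    have := h1.algebraMap (A := LaurentSeries k)
    exact this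
  have halg : IsAlgebraic ↥(s28e_base k N) g := halg1.of_pow hℓ0
  -- hence separable over the base
  have hord : ¬ (ℓ : ℤ) ∣ (qExpand k N (jqModC k)).order := by
    have h1 : ((qExpand k N (jqModC k)).order : WithTop ℤ) = ((-(N : ℤ) : ℤ) : WithTop ℤ) := by
      have hne : qExpand k N (jqModC k) ≠ 0 := fun h0 =>
        jqModC_ne_zero_of_nontrivial k (qExpand_injective N (by rw [h0, map_zero]))
      rw [HahnSeries.order_eq_orderTop_of_ne_zero hne, ← s28e_val_apply,
        s28e_val_qExpand_jqModC]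
    have h2 : (qExpand k N (jqModC k)).order = -(N : ℤ) := by exact_mod_cast h1
    rw [h2, dvd_neg]
    intro hd
    exact hℓN (by exact_mod_cast hd)
  have hsep : IsSeparable ↥(s28e_base k N) g :=
    s18t_isSeparable_laurent ℓ k (qExpand k N (jqModC k)) hord g halg
  have hsepT : IsSeparable ↥(s28e_top k N) g := IsSeparable.tower_top (L := ↥(s28e_top k N)) hsep
  -- and purely inseparable over the top
  haveI : CharP ↥(s28e_top k N) ℓ :=
    charP_of_injective_ringHom
      ((algebraMap ↥(s28e_base k N) ↥(s28e_top k N)).comp (algebraMap k ↥(s28e_base k N))).injective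
      ℓ
  haveI : ExpChar ↥(s28e_top k N) ℓ := ExpChar.prime Fact.out
  have hperf : g ∈ perfectClosure ↥(s28e_top k N) (LaurentSeries k) := by
    rw [mem_perfectClosure_iff_pow_mem ℓ]
    exact ⟨1, ⟨⟨g ^ ℓ, hgT⟩, by rw [pow_one]; rfl⟩⟩
  have hbot : g ∈ (⊥ : IntermediateField ↥(s28e_top k N) (LaurentSeries k)) := by
    rw [← separableClosure_inf_perfectClosure]
    exact ⟨mem_separableClosure_iff.mpr hsepT, hperf⟩
  rw [IntermediateField.mem_bot] at hbot
  obtain ⟨y, rfl⟩ := hbot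
  exact (s18n_mem_top_iff k N _).mp y.2

end Root

section Kernel

variable {A : ValuationSubring Kb} {M : ℕ} [NeZero M]

theorem s15w_coe_algebraMap (c : Kb) :
    ((algebraMap Kb (ffi_F M) c : ffi_F M) : LaurentSeries Kb) = HahnSeries.C c := by
  show algebraMap Kb (LaurentSeries Kb) c = HahnSeries.C c
  rw [HahnSeries.algebraMap_apply']
  have h1 : algebraMap Kb (PowerSeries Kb) c = PowerSeries.C c := by simp
  rw [h1, HahnSeries.ofPowerSeries_C]

/-- **conservation of number for a good function**: the push-forward of `div f` is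
`div Ȳ₁ - div Ȳ₂`. -/
theorem s15w_mapDomain_good
    (r : Place Kb (ffi_F M) →
      Place (ResidueField ↥A) ↥(modularFunctionFieldFullC (ResidueField ↥A) M))
    (hr : IsPlaceReductionModL A M r) {f : ffi_F M} (hf : f ≠ 0)
    {c : Kb} {Y₁ Y₂ : LaurentSeries ↥A}
    (hp : s15w_Pres A (residue ↥A) (f : LaurentSeries Kb) c Y₁ Y₂)
    (h1 : coeffMap A.subtype Y₁ ∈ modularFunctionFieldBar M)
    (h2 : coeffMap A.subtype Y₂ ∈ modularFunctionFieldBar M)
    (h3 : coeffMap (residue ↥A) Y₁ ∈ modularFunctionFieldFullC (ResidueField ↥A) M)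
    (h4 : coeffMap (residue ↥A) Y₂ ∈ modularFunctionFieldFullC (ResidueField ↥A) M)
    (D : Divisor Kb (ffi_F M)) (hD : ∀ P, D P = P.ord f)
    (Q : Place (ResidueField ↥A) ↥(modularFunctionFieldFullC (ResidueField ↥A) M)) :
    Finsupp.mapDomain r D Q =
      Q.ord (⟨coeffMap (residue ↥A) Y₁, h3⟩ :
        ↥(modularFunctionFieldFullC (ResidueField ↥A) M)) -
      Q.ord (⟨coeffMap (residue ↥A) Y₂, h4⟩ :
        ↥(modularFunctionFieldFullC (ResidueField ↥A) M)) := by
  classical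
  set y₁ : ffi_F M := ⟨coeffMap A.subtype Y₁, h1⟩ with hy₁
  set y₂ : ffi_F M := ⟨coeffMap A.subtype Y₂, h2⟩ with hy₂
  have hy₁0 : y₁ ≠ 0 := fun h0 => s15w_ne_zero_of_red hp.red₁ (congrArg Subtype.val h0)
  have hy₂0 : y₂ ≠ 0 := fun h0 => s15w_ne_zero_of_red hp.red₂ (congrArg Subtype.val h0)
  have hrel : f * y₂ = algebraMap Kb (ffi_F M) c * y₁ := by
    apply Subtype.ext
    rw [MulMemClass.coe_mul, MulMemClass.coe_mul, s15w_coe_algebraMap]
    exact hp.eq
  have hc0 : algebraMap Kb (ffi_F M) c ≠ 0 := by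
    rw [Ne, map_eq_zero]; exact hp.c_ne
  obtain ⟨D₁, hD₁, -⟩ := HasPrincipalDivisors.exists_divisor (K := Kb) y₁ hy₁0
  obtain ⟨D₂, hD₂, -⟩ := HasPrincipalDivisors.exists_divisor (K := Kb) y₂ hy₂0
  have hDD : D = D₁ - D₂ := Finsupp.ext fun P => by
    rw [Finsupp.sub_apply, hD, hD₁, hD₂]
    have h := congrArg P.ord hrel
    rw [P.ord_mul hf hy₂0, P.ord_mul hc0 hy₁0, ff_ord_algebraMap] at h
    omega
  rw [hDD, Finsupp.mapDomain_sub, Finsupp.sub_apply,
    hr.2 Y₁ h1 h3 hp.red₁ D₁ hD₁ Q, hr.2 Y₂ h2 h4 hp.red₂ D₂ hD₂ Q]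

/-- **the kernel of `Λ` on torsion**: if `ℓ • D = div f` and `Λ f = 0` then `red_A [D] = 0`. -/
theorem s15w_red_eq_zero {ℓ : ℕ} [Fact ℓ.Prime] (hℓM : ¬ ℓ ∣ M) (hA : A.LiesOverPrime ℓ)
    (h : ReductionInputsModL A M)
    (D : Divisor.degZero (K := Kb) (F := ffi_F M)) (f : ffi_F M) (hf : f ≠ 0)
    (hD : ∀ P, (ℓ : ℤ) * (D : Divisor Kb (ffi_F M)) P = P.ord f)
    (hΛ : s15w_Lam A (residue ↥A) (f : LaurentSeries Kb) = 0) :
    reductionModL A M (Pic0.mk D) = 0 := by
  classical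
  have hℓ : ℓ.Prime := Fact.out
  haveI : CharP (ResidueField ↥A) ℓ := s18n_charP_residueField A hℓ hA
  haveI : IsAlgClosed (ResidueField ↥A) := s18n_isAlgClosed_residueField A
  obtain ⟨c, Y₁, Y₂, hp, h1, h2, h3, h4⟩ := s15w_good hℓM hA f hf
  rw [s15w_Lam_eq hp] at hΛ
  set u : LaurentSeries (ResidueField ↥A) :=
    coeffMap (residue ↥A) Y₁ * (coeffMap (residue ↥A) Y₂)⁻¹ with hu
  have hu0 : u ≠ 0 := mul_ne_zero hp.red₁ (inv_ne_zero hp.red₂)
  have hdu : s15w_dlog u = 0 := by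
    rw [hu, s15w_dlog_mul hp.red₁ (inv_ne_zero hp.red₂), s15w_dlog_inv, ← sub_eq_add_neg]
    exact hΛ
  have hθ : ffd_theta u = 0 := by
    rw [← s15w_dlog_mul_self hu0, hdu, zero_mul]
  obtain ⟨g₀, hg₀⟩ := s15w_exists_pow_of_theta_eq_zero ℓ u hθ
  have huF : u ∈ modularFunctionFieldFullC (ResidueField ↥A) M := mul_mem h3 (inv_mem h4)
  have hg₀F : g₀ ∈ modularFunctionFieldFullC (ResidueField ↥A) M :=
    s15w_mem_of_pow_mem (ResidueField ↥A) ℓ M hℓM g₀ (by rw [hg₀]; exact huF)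
  set g : ↥(modularFunctionFieldFullC (ResidueField ↥A) M) := ⟨g₀, hg₀F⟩ with hg
  have hg0 : g ≠ 0 := by
    intro h0
    apply hu0
    have : g₀ = 0 := congrArg Subtype.val h0
    rw [← hg₀, this, zero_pow hℓ.ne_zero]
  set u₁ : ↥(modularFunctionFieldFullC (ResidueField ↥A) M) :=
    ⟨coeffMap (residue ↥A) Y₁, h3⟩ with hu₁
  set u₂ : ↥(modularFunctionFieldFullC (ResidueField ↥A) M) :=
    ⟨coeffMap (residue ↥A) Y₂, h4⟩ with hu₂
  have hu₂0 : u₂ ≠ 0 := fun h0 => hp.red₂ (congrArg Subtype.val h0)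
  have hrel : u₁ = g ^ ℓ * u₂ := by
    apply Subtype.ext
    show coeffMap (residue ↥A) Y₁ = g₀ ^ ℓ * coeffMap (residue ↥A) Y₂
    rw [hg₀, hu, mul_assoc, inv_mul_cancel₀ hp.red₂, mul_one]
  rw [reductionModL_mk h D]
  set r := placeReductionModL h with hr
  have hr' := isPlaceReductionModL_placeReductionModL h
  set E := reductionDegZeroAlong r hr'.1 D with hE
  have hEg : ∀ Q, (E : Divisor (ResidueField ↥A) _) Q = Q.ord g := by
    intro Q
    have hDf : ∀ P, ((ℓ : ℤ) • (D : Divisor Kb (ffi_F M))) P = P.ord f := by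
      intro P
      rw [Finsupp.smul_apply, smul_eq_mul]
      exact hD P
    have h5 := s15w_mapDomain_good r hr' hf hp h1 h2 h3 h4 _ hDf Q
    rw [Finsupp.mapDomain_smul, Finsupp.smul_apply, smul_eq_mul] at h5
    have h6 : Q.ord u₁ = (ℓ : ℤ) * Q.ord g + Q.ord u₂ := by
      rw [hrel, Q.ord_mul (pow_ne_zero _ hg0) hu₂0, ← zpow_natCast, Q.ord_zpow]
    rw [coe_reductionDegZeroAlong]
    have hℓ0 : (ℓ : ℤ) ≠ 0 := by exact_mod_cast hℓ.ne_zero
    apply mul_left_cancel₀ hℓ0
    rw [h5, h6]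
    ring
  have hprin : (E : Divisor (ResidueField ↥A) _) ∈
      Divisor.principal (K := ResidueField ↥A)
        (F := ↥(modularFunctionFieldFullC (ResidueField ↥A) M)) :=
    Divisor.mem_principal.mpr ⟨g, hg0, hEg⟩
  exact (QuotientAddGroup.eq_zero_iff _).mpr (AddSubgroup.mem_addSubgroupOf.mpr hprin)

end Kernel

end Fermat.Agent.Lib.S15
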