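/-
Programme M (S15), node [T'] (helper6, prefix `s15w_`), part 5: THE CONVERSE KERNEL LEMMA.

If `ℓ • D = div f` and `red_A [D] = 0`, then `Λ f = 0`: the reduced divisor is `div g`, so
`Ȳ₁ = c g^ℓ Ȳ₂` (constants lemma of the special fibre), and `dlog` kills `ℓ`-th powers and
constants.
-/
import Fermat.Agent.Lib.S15.WEtKer
import Fermat.Agent.Lib.S18.NMain

set_option autoImplicit false
set_option linter.unusedSectionVars false
set_option linter.unusedVariables false
set_option linter.style.haveILetI false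

noncomputable section

namespace Fermat.Agent.Lib.S15

open HahnSeries ModularCurve AlgebraicCurve IsLocalRing IntermediateField Fermat.Agent.Lib.FF
  Fermat.Agent.Lib.S28 Fermat.Agent.Lib.S37 Fermat.Agent.Lib.S18 Fermat.Agent.Lib.S29

local notation "Kb" => AlgebraicClosure ℚ

variable {A : ValuationSubring Kb} {M : ℕ} [NeZero M]

/-- **the converse kernel lemma**: if `ℓ • D = div f` and `red_A [D] = 0` then `Λ f = 0`. -/
theorem s15w_Lam_eq_zero_of_red {ℓ : ℕ} [Fact ℓ.Prime] (hℓM : ¬ ℓ ∣ M) (hA : A.LiesOverPrime ℓ)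
    (h : ReductionInputsModL A M)
    (D : Divisor.degZero (K := Kb) (F := ffi_F M)) (f : ffi_F M) (hf : f ≠ 0)
    (hD : ∀ P, (ℓ : ℤ) * (D : Divisor Kb (ffi_F M)) P = P.ord f)
    (hred : reductionModL A M (Pic0.mk D) = 0) :
    s15w_Lam A (residue ↥A) (f : LaurentSeries Kb) = 0 := by
  classical
  have hℓ : ℓ.Prime := Fact.out
  haveI : CharP (ResidueField ↥A) ℓ := s18n_charP_residueField A hℓ hA
  haveI : IsAlgClosed (ResidueField ↥A) := s18n_isAlgClosed_residueField A
  obtain ⟨c, Y₁, Y₂, hp, h1, h2, h3, h4⟩ := s15w_good hℓM hA f hf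
  rw [s15w_Lam_eq hp]
  rw [reductionModL_mk h D] at hred
  set r := placeReductionModL h with hr
  have hr' := isPlaceReductionModL_placeReductionModL h
  set E := reductionDegZeroAlong r hr'.1 D with hE
  have hprin : (E : Divisor (ResidueField ↥A) _) ∈
      Divisor.principal (K := ResidueField ↥A)
        (F := ↥(modularFunctionFieldFullC (ResidueField ↥A) M)) := by
    have := (QuotientAddGroup.eq_zero_iff _).mp hred
    exact AddSubgroup.mem_addSubgroupOf.mp this
  obtain ⟨g, hg0, hEg⟩ := Divisor.mem_principal.mp hprin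
  set u₁ : ↥(modularFunctionFieldFullC (ResidueField ↥A) M) :=
    ⟨coeffMap (residue ↥A) Y₁, h3⟩ with hu₁
  set u₂ : ↥(modularFunctionFieldFullC (ResidueField ↥A) M) :=
    ⟨coeffMap (residue ↥A) Y₂, h4⟩ with hu₂
  have hu₁0 : u₁ ≠ 0 := fun h0 => hp.red₁ (congrArg Subtype.val h0)
  have hu₂0 : u₂ ≠ 0 := fun h0 => hp.red₂ (congrArg Subtype.val h0)
  -- `t = u₁ / (u₂ g^ℓ)` has trivial divisor
  set t : ↥(modularFunctionFieldFullC (ResidueField ↥A) M) := u₁ * (u₂ * g ^ ℓ)⁻¹ with ht
  have hden : u₂ * g ^ ℓ ≠ 0 := mul_ne_zero hu₂0 (pow_ne_zero _ hg0)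
  have ht0 : t ≠ 0 := mul_ne_zero hu₁0 (inv_ne_zero hden)
  have hord : ∀ Q : Place (ResidueField ↥A) ↥(modularFunctionFieldFullC (ResidueField ↥A) M),
      Q.ord t = 0 := by
    intro Q
    have hDf : ∀ P, ((ℓ : ℤ) • (D : Divisor Kb (ffi_F M))) P = P.ord f := by
      intro P
      rw [Finsupp.smul_apply, smul_eq_mul]
      exact hD P
    have h5 := s15w_mapDomain_good r hr' hf hp h1 h2 h3 h4 _ hDf Q
    rw [Finsupp.mapDomain_smul, Finsupp.smul_apply, smul_eq_mul] at h5
    have h6 : Finsupp.mapDomain r (D : Divisor Kb (ffi_F M)) Q = Q.ord g := by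
      rw [← hEg Q, hE, coe_reductionDegZeroAlong]
    rw [h6] at h5
    rw [ht, Q.ord_mul hu₁0 (inv_ne_zero hden), Q.ord_inv, Q.ord_mul hu₂0 (pow_ne_zero _ hg0),
      s18n_ord_pow]
    linarith
  obtain ⟨c', hc'⟩ := s18n_constFk_residueField M A hℓ hA hℓM t ht0 hord
  have hc'0 : c' ≠ 0 := by
    rintro rfl
    rw [map_zero] at hc'
    exact ht0 hc'
  have hrel : coeffMap (residue ↥A) Y₁ =
      HahnSeries.C c' * (coeffMap (residue ↥A) Y₂ * (g : LaurentSeries (ResidueField ↥A)) ^ ℓ) := by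
    have h7 : u₁ = algebraMap (ResidueField ↥A) _ c' * (u₂ * g ^ ℓ) := by
      rw [← hc', ht, mul_assoc, inv_mul_cancel₀ hden, mul_one]
    have h8 := congrArg (fun x : ↥(modularFunctionFieldFullC (ResidueField ↥A) M) =>
      (x : LaurentSeries (ResidueField ↥A))) h7
    simp only [MulMemClass.coe_mul, SubmonoidClass.coe_pow] at h8
    rw [hu₁, hu₂] at h8
    have h9 : ((algebraMap (ResidueField ↥A)
        ↥(modularFunctionFieldFullC (ResidueField ↥A) M) c' :
          ↥(modularFunctionFieldFullC (ResidueField ↥A) M)) :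
        LaurentSeries (ResidueField ↥A)) = HahnSeries.C c' := by
      show algebraMap (ResidueField ↥A) (LaurentSeries (ResidueField ↥A)) c' = HahnSeries.C c'
      rw [HahnSeries.algebraMap_apply']
      have h1 : algebraMap (ResidueField ↥A) (PowerSeries (ResidueField ↥A)) c' =
          PowerSeries.C c' := by simp
      rw [h1, HahnSeries.ofPowerSeries_C]
    rw [h9] at h8
    exact h8
  have hgs : (g : LaurentSeries (ResidueField ↥A)) ≠ 0 := fun h0 => hg0 (Subtype.ext h0)
  have hC0 : (HahnSeries.C c' : LaurentSeries (ResidueField ↥A)) ≠ 0 := by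
    intro h0
    exact hc'0 (HahnSeries.C_injective (by rw [h0, map_zero]))
  rw [hrel, s15w_dlog_mul hC0 (mul_ne_zero hp.red₂ (pow_ne_zero _ hgs)), s15w_dlog_C, zero_add,
    s15w_dlog_mul hp.red₂ (pow_ne_zero _ hgs), s15w_dlog_pow_char ℓ, add_zero, sub_self]

end Fermat.Agent.Lib.S15
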