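/-
Programme M (S15), nodes [OGG-≤] and [T'] (helper6, prefix `s15w_`), part 7: ASSEMBLY.

* `s15w_oggLe : m15_OggLe`     — `(p - 1) • cl(0 − ∞) = 0` (the modular unit);
* `s15w_tprime : m15_Tprime`   — the Hecke translates of the cuspidal class inject into the special
  fibre at `ℓ ≥ 5` (anemic ring `m15_T p`);
* `s15w_tprime' : m15_Tprime'` — the same for the good ring `m15_Tg p`.
-/
import Fermat.Agent.Lib.S15.WTCusp
import Fermat.Agent.Lib.S15.WTLamUnit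
import Fermat.Agent.Lib.S15.WTKer
import Fermat.Agent.Lib.S15.WTGroup
import Fermat.Agent.Lib.S15.BCusp
import Fermat.Agent.Lib.S15.MEis2
import Fermat.Agent.Lib.S29.BPPlace

set_option autoImplicit false
set_option linter.unusedSectionVars false
set_option linter.unusedVariables false
set_option linter.style.haveILetI false

noncomputable section

namespace Fermat.Agent.Lib.S15

open HahnSeries ModularCurve AlgebraicCurve IsLocalRing Fermat.Agent.Lib.FF
  Fermat.Agent.Lib.S28 Fermat.Agent.Lib.S37 Fermat.Agent.Lib.S18 Fermat.Agent.Lib.S36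
  Fermat.Agent.Lib.S29

local notation "Kb" => AlgebraicClosure ℚ

section Cusps

variable {p : ℕ} [NeZero p] (hp : p.Prime) (c : m15_Cusps p)

theorem s15w_jBar_eq : ffd_jBar p = s15d_J1 p := Subtype.ext rfl

include hp in
/-- the poles of `j` on `X₀(p)` are exactly the two cusps. -/
theorem s15w_poles (v : m15_Pl p) : v.ord (ffd_jBar p) < 0 ↔ (v = c.zero ∨ v = c.inf) := by
  obtain ⟨w, hw⟩ := s15b_exists_al p hp
  rw [s15b_cusps_inf c, s15b_cusps_zero hp hw c, s15w_jBar_eq]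
  constructor
  · intro hv
    exact (s15b_pole_J1 hp hw v hv).symm
  · have hpos : (0 : ℤ) < p := by exact_mod_cast hp.pos
    rintro (rfl | rfl)
    · rw [s15b_zero_ord_J1 hw]; omega
    · rw [s15b_inf_ord_J1]; norm_num

theorem s15w_hdeg (v : m15_Pl p) : v.deg = 1 := by
  haveI := s18r_ffGen p
  exact s37dg_deg_eq_one (ffd_jBar p) v

include hp in
/-- **the modular unit on `X₀(p)`**: `div G = (p - 1)((∞) − (0))`, with its `q`-expansion. -/
theorem s15w_unit_div :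
    ∃ G : ffi_F p, G ≠ 0 ∧
      (∀ v : m15_Pl p, v.ord G = ((p : ℤ) - 1) * (m15_div p c.inf c.zero) v) ∧
      (G : LaurentSeries Kb) * s15w_uDen Kb p = s15w_uNum Kb p := by
  classical
  obtain ⟨G, hG0, hGord, hGser⟩ := s15w_unit p p (one_mul p).symm hp
  refine ⟨G, hG0, ?_, hGser⟩
  obtain ⟨D, hD, hDdeg⟩ := HasPrincipalDivisors.exists_divisor (K := Kb) G hG0
  have hsupp : ∀ v, D v ≠ 0 → v = c.inf ∨ v = c.zero := by
    intro v hv
    by_contra hcon
    apply hv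
    rw [hD]
    apply hGord
    by_contra hneg
    rw [not_le] at hneg
    exact hcon ((s15w_poles hp c v).mp hneg).symm
  have htwo := s15w_two_point (s15w_hdeg) c.inf c.zero c.zero_ne.symm D hDdeg hsupp
  -- the order at `∞`
  have hp0 : ((p : ℕ) : Kb) ≠ 0 := by exact_mod_cast NeZero.ne p
  have hcoef := (s15w_dlog_unit_coeff Kb p hp0 hp.two_le _ hGser).1
  have hGs : (G : LaurentSeries Kb) ≠ 0 := fun h0 => hG0 (Subtype.ext h0)
  rw [s15w_dlog_coeff_zero _ hGs] at hcoef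
  have hord : (G : LaurentSeries Kb).order = (p : ℤ) - 1 := by
    have : (((G : LaurentSeries Kb).order : ℤ) : Kb) = (((p : ℤ) - 1 : ℤ) : Kb) := by
      rw [hcoef]; push_cast; ring
    exact_mod_cast this
  have hinf : D c.inf = (p : ℤ) - 1 := by
    rw [hD, c.inf_ord G hG0, hord]
  intro v
  rw [← hD, htwo, hinf, Finsupp.smul_apply, smul_eq_mul]

include hp in
/-- **[OGG-≤]** `(p - 1) • cl(0 − ∞) = 0`. -/
theorem s15w_oggLe_aux : (p - 1) • m15_cl p c.zero c.inf = 0 := by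
  classical
  obtain ⟨G, hG0, hGord, -⟩ := s15w_unit_div hp c
  rw [m15_cl_eq s15w_hdeg, ← s37e_pic0_mk_nsmul]
  refine (QuotientAddGroup.eq_zero_iff _).mpr (AddSubgroup.mem_addSubgroupOf.mpr ?_)
  refine Divisor.mem_principal.mpr ⟨G⁻¹, inv_ne_zero hG0, fun v => ?_⟩
  rw [Place.ord_inv, hGord]
  have h1 : ((p - 1 : ℕ) : ℤ) = (p : ℤ) - 1 := by
    have := hp.one_le
    push_cast [Nat.cast_sub this]
    ring
  show ((p - 1) • m15_div p c.zero c.inf) v = _
  rw [Finsupp.smul_apply, ← natCast_zsmul, smul_eq_mul, h1]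
  unfold m15_div
  rw [Finsupp.sub_apply, Finsupp.sub_apply]
  ring

end Cusps

/-! ### The `ℓ`-part -/

section EllPart

variable {p : ℕ} [NeZero p] (hp : p.Prime) (c : m15_Cusps p)

include hp in
/-- **the element of order `ℓ` of `⟨c⟩` does not reduce to zero** (`ℓ ≥ 5`, `ℓ ≠ p`). -/
theorem s15w_ell_part {ℓ : ℕ} (hℓ : ℓ.Prime) (hℓ5 : 5 ≤ ℓ) (hℓp : ℓ ≠ p)
    (A : ValuationSubring Kb) (hA : A.LiesOverPrime ℓ) (h : ReductionInputsModL A p)
    (hdvd : ℓ ∣ addOrderOf (m15_cl p c.zero c.inf)) :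
    reductionModL A p ((addOrderOf (m15_cl p c.zero c.inf) / ℓ) • m15_cl p c.zero c.inf) ≠ 0 := by
  classical
  intro hred
  haveI : Fact ℓ.Prime := ⟨hℓ⟩
  haveI : CharP (ResidueField ↥A) ℓ := s18n_charP_residueField A hℓ hA
  have hℓnp : ¬ ℓ ∣ p := fun hd => hℓp ((Nat.prime_dvd_prime_iff_eq hℓ hp).mp hd)
  obtain ⟨m, hm⟩ : ∃ m : ℕ, m = addOrderOf (m15_cl p c.zero c.inf) := ⟨_, rfl⟩
  rw [← hm] at hred hdvd
  obtain ⟨m₁, hm₁⟩ := hdvd
  have hdiv : m / ℓ = m₁ := by rw [hm₁]; exact Nat.mul_div_cancel_left _ hℓ.pos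
  rw [hdiv] at hred
  -- `m ∣ p - 1`
  have hmp : m ∣ p - 1 := by
    rw [hm]; exact addOrderOf_dvd_of_nsmul_eq_zero (s15w_oggLe_aux hp c)
  obtain ⟨e, he⟩ := hmp
  -- the divisor `m • (0 − ∞)` is principal
  set D₀ : Divisor.degZero (K := Kb) (F := ffi_F p) :=
    ⟨m15_div p c.zero c.inf, m15_div_mem_degZero s15w_hdeg c.zero c.inf⟩ with hD₀
  have hcl : m15_cl p c.zero c.inf = Pic0.mk D₀ := m15_cl_eq s15w_hdeg c.zero c.inf
  have hmD : Pic0.mk (m • D₀) = 0 := by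
    rw [s37e_pic0_mk_nsmul, ← hcl, hm]; exact addOrderOf_nsmul_eq_zero _
  have hprin : ((m • D₀ : Divisor.degZero (K := Kb) (F := ffi_F p)) : Divisor Kb (ffi_F p)) ∈
      Divisor.principal (K := Kb) (F := ffi_F p) :=
    AddSubgroup.mem_addSubgroupOf.mp ((QuotientAddGroup.eq_zero_iff _).mp hmD)
  obtain ⟨f, hf0, hfD⟩ := Divisor.mem_principal.mp hprin
  have hfD' : ∀ v : m15_Pl p, v.ord f = (m : ℤ) * (m15_div p c.zero c.inf) v := by
    intro v
    rw [← hfD v]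
    show (m • m15_div p c.zero c.inf) v = _
    rw [Finsupp.smul_apply, ← natCast_zsmul, smul_eq_mul]
  -- `Λ f = 0`
  have hΛf : s15w_Lam A (residue ↥A) (f : LaurentSeries Kb) = 0 := by
    refine s15w_Lam_eq_zero_of_red hℓnp hA h (m₁ • D₀) f hf0 (fun P => ?_) ?_
    · rw [hfD' P]
      show (ℓ : ℤ) * (m₁ • m15_div p c.zero c.inf) P = _
      rw [Finsupp.smul_apply, ← natCast_zsmul, smul_eq_mul, hm₁]
      push_cast
      ring
    · rw [s37e_pic0_mk_nsmul, ← hcl]; exact hred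
  -- the unit
  obtain ⟨G, hG0, hGord, hGser⟩ := s15w_unit_div hp c
  have hpk : ((p : ℕ) : ResidueField ↥A) ≠ 0 := by
    intro h0
    exact hℓnp ((CharP.cast_eq_zero_iff (ResidueField ↥A) ℓ p).mp h0)
  obtain ⟨hGb, -, hG1⟩ := s15w_Lam_unit_coeff A (residue ↥A) p hpk hp.two_le _ hGser
  -- `f ^ e * G` is a constant
  have hconst : ∀ v : m15_Pl p, v.ord (f ^ e * G) = 0 := by
    intro v
    rw [v.ord_mul (pow_ne_zero _ hf0) hG0, s15w_ord_pow, hfD', hGord]
    have h1 : ((p : ℤ) - 1) = (m : ℤ) * e := by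
      have := hp.one_le
      have h2 : ((p - 1 : ℕ) : ℤ) = (p : ℤ) - 1 := by push_cast [Nat.cast_sub this]; ring
      rw [← h2, he]; push_cast; ring
    rw [h1]
    unfold m15_div
    rw [Finsupp.sub_apply, Finsupp.sub_apply]
    ring
  haveI := s18r_ffGen p
  obtain ⟨c₀, hc₀⟩ := s29bp_const_of_ord_eq_zero (K := Kb) (ffd_jBar p) (f ^ e * G) hconst
  have hc₀0 : c₀ ≠ 0 := by
    rintro rfl
    rw [map_zero] at hc₀
    exact mul_ne_zero (pow_ne_zero _ hf0) hG0 hc₀.symm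
  have hfb : s15w_Bdd A (residue ↥A) (f : LaurentSeries Kb) :=
    (s15w_good hℓnp hA f hf0).bdd
  have hser : (f : LaurentSeries Kb) ^ e * (G : LaurentSeries Kb) = HahnSeries.C c₀ := by
    have := congrArg (fun x : ffi_F p => (x : LaurentSeries Kb)) hc₀
    simp only [MulMemClass.coe_mul, SubmonoidClass.coe_pow] at this
    rw [← this, s15w_coe_algebraMap]
  have hΛ := congrArg (s15w_Lam A (residue ↥A)) hser
  rw [s15w_Lam_mul (hfb.pow e) hGb, s15w_Lam_pow hfb, hΛf, smul_zero, zero_add,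
    s15w_Lam_const hc₀0] at hΛ
  rw [hΛ, HahnSeries.coeff_zero] at hG1
  -- `24 ≠ 0` in characteristic `ℓ ≥ 5`
  have h24 : ((24 : ℕ) : ResidueField ↥A) = 0 := by
    rw [hG1]; norm_num
  have hd24 : ℓ ∣ 24 := (CharP.cast_eq_zero_iff (ResidueField ↥A) ℓ 24).mp h24
  have h24' : ℓ ∣ 2 ^ 3 * 3 := by norm_num; exact hd24
  rcases (Nat.Prime.dvd_mul hℓ).mp h24' with h2 | h3
  · have := (Nat.prime_dvd_prime_iff_eq hℓ Nat.prime_two).mp (hℓ.dvd_of_dvd_pow h2)
    omega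
  · have := (Nat.prime_dvd_prime_iff_eq hℓ Nat.prime_three).mp h3
    omega

include hp in
/-- `red_A` is injective on `ℤ · c`, `c` the cuspidal class (`ℓ ≥ 5`, `ℓ ≠ p`). -/
theorem s15w_red_inj {ℓ : ℕ} (hℓ : ℓ.Prime) (hℓ5 : 5 ≤ ℓ) (hℓp : ℓ ≠ p)
    (A : ValuationSubring Kb) (hA : A.LiesOverPrime ℓ) (h : ReductionInputsModL A p) (a : ℤ)
    (ha : reductionModL A p (a • m15_cl p c.zero c.inf) = 0) :
    a • m15_cl p c.zero c.inf = 0 := by
  haveI : Fact ℓ.Prime := ⟨hℓ⟩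
  have hℓnp : ¬ ℓ ∣ p := fun hd => hℓp ((Nat.prime_dvd_prime_iff_eq hℓ hp).mp hd)
  have hfin : addOrderOf (m15_cl p c.zero c.inf) ≠ 0 := by
    have hp1 : 0 < p - 1 := by have := hp.two_le; omega
    exact (addOrderOf_pos_iff.mpr
      (isOfFinAddOrder_iff_nsmul_eq_zero.mpr ⟨p - 1, hp1, s15w_oggLe_aux hp c⟩)).ne'
  exact s15w_inj_cyclic (reductionModL A p) _ ℓ hℓ hfin
    (fun m' x hm' hx hred => Fermat.Agent.S18.result p hℓnp A hA h m' hm' x hx hred)
    (s15w_ell_part hp c hℓ hℓ5 hℓp A hA h) a ha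

end EllPart

/-! ### The nodes -/

/-- **[OGG-≤]**. -/
theorem s15w_oggLe : m15_OggLe := fun p _ hp c => s15w_oggLe_aux hp c

/-- **[T']** for the full Hecke ring (all `T_q`, `U_p` included). -/
theorem s15w_tprime_full (p : ℕ) [NeZero p] (hp : p.Prime) (c : m15_Cusps p) (ℓ : ℕ)
    (hℓ : ℓ.Prime) (hℓ5 : 5 ≤ ℓ) (hℓp : ℓ ≠ p) (A : ValuationSubring Kb)
    (hA : A.LiesOverPrime ℓ) (h : ReductionInputsModL A p) (t : Module.End ℤ (JZero p))
    (ht : t ∈ Algebra.adjoin ℤ (Set.range (heckeOperatorBar p)))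
    (hred : reductionModL A p (t (m15_cl p c.zero c.inf)) = 0) :
    t (m15_cl p c.zero c.inf) = 0 := by
  obtain ⟨a, ha⟩ := s15w_full_cl c.zero c.inf c.zero_ne (s15w_poles hp c) t ht
  rw [ha] at hred ⊢
  exact s15w_red_inj hp c hℓ hℓ5 hℓp A hA h a hred

/-- **[T']** `m15_Tprime` (anemic ring). -/
theorem s15w_tprime : m15_Tprime := fun p _ hp c ℓ hℓ hℓ5 hℓp A hA h t ht hred =>
  s15w_tprime_full p hp c ℓ hℓ hℓ5 hℓp A hA h t
    (Algebra.adjoin_mono (Set.image_subset_range _ _) ht) hred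

/-- **[T'']** `m15_Tprime'` (good ring). -/
theorem s15w_tprime' : m15_Tprime' := fun p _ hp c ℓ hℓ hℓ5 hℓp A hA h t ht hred =>
  s15w_tprime_full p hp c ℓ hℓ hℓ5 hℓp A hA h t
    (Algebra.adjoin_mono (Set.image_subset_range _ _) ht) hred

end Fermat.Agent.Lib.S15
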