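/-
(M) FINAL ASSEMBLY (helper7): the frozen text of S15 from the ONE still open leaf `m15_Red23`
(helper3).  Everything else is proved: [CUSP] (helper2), [R] (helper9), [T''], [OGG-≤] (helper6),
[C≠0] (helper1), (PIECE) (helper8), [D] (helper2 + helper5), [DIV] (helper5), (A-conj) (helper1 +
helper4 + helper8), [EIS] glue (helper7).
-/
import Fermat.Agent.Lib.S15.MGraph3
import Fermat.Agent.Lib.S15.BCusp
import Fermat.Agent.Lib.S15.BWire
import Fermat.Agent.Lib.S15.BPlx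
import Fermat.Agent.Lib.S15.BVal
import Fermat.Agent.Lib.S15.BRedD
import Fermat.Agent.Lib.S15.DWire
import Fermat.Agent.Lib.S15.RFinal
import Fermat.Agent.Lib.S15.WTMain
import Fermat.Agent.Lib.S15.KClNe
import Fermat.Agent.Lib.S15.ELoc4
import Fermat.Agent.Lib.S15.MDiv
import Fermat.Agent.Lib.S15.KNodes
import Fermat.Agent.Lib.S15.AConj7

set_option autoImplicit false
set_option linter.unusedSectionVars false
set_option linter.unusedVariables false
set_option linter.style.haveILetI false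

noncomputable section

namespace Fermat.Agent.Lib.S15

open ModularCurve AlgebraicCurve WeierstrassCurve WeierstrassCurve.Affine Fermat.Agent.Lib.S27

/-- (PIECE) as a node, from helper8's `s15e_piece_uncond`. -/
theorem m15_piece : m15_Piece := fun S p p' _ hp hpp' A hA V hV =>
  s15e_piece_uncond hp hpp' A hA V hV

/-- [D] from [RED23]. -/
theorem m15_D_of_red23 (h23 : m15_Red23) : m15_D :=
  s15b_D_of h23 (s15da_Mod_of s15b_PlaceExists s15b_Dich s15b_Red)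

/-- (A-conj): helper4's package at one prime `ℓ₀ ∈ {5, 7}`, `ℓ₀ ≠ p`, and helper1's transport. -/
theorem m15_aconj : m15_Aconj := by
  refine m15k_Aconj (fun p _ hp => ?_)
  by_cases h5 : p = 5
  · haveI : Fact (Nat.Prime 7) := ⟨by norm_num⟩
    refine ⟨7, inferInstance, m15c_package p 7 ?_ 1⟩
    rw [h5]
    decide
  · haveI : Fact (Nat.Prime 5) := ⟨by norm_num⟩
    refine ⟨5, inferInstance, m15c_package p 5 ?_ 1⟩
    intro h
    have h5p : (5 : ℕ) ∣ 6 ∨ 5 ∣ p := (Nat.Prime.dvd_mul (by norm_num)).mp h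
    rcases h5p with h6 | hp5
    · exact absurd h6 (by decide)
    · exact h5 ((Nat.prime_dvd_prime_iff_eq (by norm_num) hp).mp hp5).symm

/-- **[EIS'']**, unconditionally. -/
theorem m15_eis : m15_Eis'' :=
  m15i_eis s15w_oggLe m15k_clNe s15v_Div m15_aconj m15_piece

/-- **S15 from the one open leaf [RED23].** -/
theorem m15_final (h23 : m15_Red23)
    {p : ℕ} (hp : p.Prime) (hp' : p ∉ ({2, 3, 5, 7, 13} : Finset ℕ))
    (W : WeierstrassCurve ℤ) (hΔ : W.Δ ≠ 0)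
    (Q : ((W.map (Int.castRingHom ℚ))⁄(AlgebraicClosure ℚ)).Point)
    (hQfix : ∀ σ : AlgebraicClosure ℚ ≃ₐ[ℚ] AlgebraicClosure ℚ, σ • Q = Q)
    (hQord : addOrderOf Q = p)
    (h2Δ : (2 : ℤ) ∣ W.Δ) (h2c₄ : ¬ (2 : ℤ) ∣ W.c₄)
    (h2 : ∀ A : ValuationSubring (AlgebraicClosure ℚ), A.LiesOverPrime 2 →
      ¬ W.InZeroComponentAt A Q)
    (h3Δ : (3 : ℤ) ∣ W.Δ) (h3c₄ : ¬ (3 : ℤ) ∣ W.c₄)
    (h3 : ∀ A : ValuationSubring (AlgebraicClosure ℚ), A.LiesOverPrime 3 →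
      ¬ W.InZeroComponentAt A Q)
    {ℓ : ℕ} (hℓ : ℓ.Prime) (hℓp : ℓ ≠ p) (hℓΔ : (ℓ : ℤ) ∣ W.Δ) (hℓc₄ : ¬ (ℓ : ℤ) ∣ W.c₄)
    (A : ValuationSubring (AlgebraicClosure ℚ)) (hA' : A.LiesOverPrime ℓ) :
    ¬ W.InZeroComponentAt A Q :=
  m15_S15_of'' s15b_cuspNode m15_eis m15r_R s15w_tprime' h23 (m15_D_of_red23 h23)
    hp hp' W hΔ Q hQfix hQord h2Δ h2c₄ h2 h3Δ h3c₄ h3 hℓ hℓp hℓΔ hℓc₄ A hA'

end Fermat.Agent.Lib.S15
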