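/-
(M) [D], helper2 (prefix `s15b_`): CONSERVATION OF NUMBER without cancellation.

Abstract part: `r : X → Y`, `D : X →₀ ℤ`, `E = mapDomain r D`.  If the positive part of `E`
(summed over some finite set `S`) is at least the positive part of `D`, then no fibre of `r`
contains both a zero (`D v > 0`) and a pole (`D w < 0`): zeros go to zeros, poles go to poles,
with multiplicities.
-/
import Mathlib

set_option autoImplicit false

namespace Fermat.Agent.Lib.S15

section Abstract

variable {X Y : Type*}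

/-- evaluation of a push-forward. -/
theorem s15b_mapDomain_apply [DecidableEq Y] (r : X → Y) (D : X →₀ ℤ) (Q : Y) :
    Finsupp.mapDomain r D Q = ∑ v ∈ D.support, if r v = Q then D v else 0 := by
  rw [Finsupp.mapDomain, Finsupp.sum_apply]
  unfold Finsupp.sum
  refine Finset.sum_congr rfl fun v _ => ?_
  show (Finsupp.single (r v) (D v)) Q = _
  rw [Finsupp.single_apply]

/-- **no cancellation**: if the positive part of the push-forward is as large as the positive
part of `D`, no fibre contains a zero and a pole. -/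
theorem s15b_noMixed [DecidableEq Y] (r : X → Y) (D : X →₀ ℤ) (S : Finset Y)
    (h : ∑ v ∈ D.support, max (D v) 0 ≤ ∑ Q ∈ S, max (Finsupp.mapDomain r D Q) 0)
    {v₀ w₀ : X} (hvw : r v₀ = r w₀) (hv : 0 < D v₀) (hw : D w₀ < 0) : False := by
  classical
  set T := D.support with hT
  have hv₀T : v₀ ∈ T := Finsupp.mem_support_iff.mpr (ne_of_gt hv)
  have hw₀T : w₀ ∈ T := Finsupp.mem_support_iff.mpr (ne_of_lt hw)
  set a : Y → ℤ := fun Q => ∑ v ∈ T, if r v = Q then max (D v) 0 else 0 with ha
  have ha0 : ∀ Q, 0 ≤ a Q := fun Q =>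
    Finset.sum_nonneg fun v _ => by split_ifs <;> simp
  have hE : ∀ Q, Finsupp.mapDomain r D Q ≤ a Q := fun Q => by
    rw [s15b_mapDomain_apply]
    refine Finset.sum_le_sum fun v _ => ?_
    split_ifs
    · exact le_max_left _ _
    · exact le_refl _
  have hle : ∀ Q, max (Finsupp.mapDomain r D Q) 0 ≤ a Q := fun Q => max_le (hE Q) (ha0 Q)
  have hswap : ∑ Q ∈ S, a Q = ∑ v ∈ T, if r v ∈ S then max (D v) 0 else 0 := by
    rw [ha, Finset.sum_comm]
    refine Finset.sum_congr rfl fun v _ => ?_
    rw [Finset.sum_ite_eq]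
  have htot : (∑ v ∈ T, if r v ∈ S then max (D v) 0 else 0) ≤ ∑ v ∈ T, max (D v) 0 := by
    refine Finset.sum_le_sum fun v _ => ?_
    split_ifs
    · exact le_refl _
    · exact le_max_right _ _
  by_cases hS : r v₀ ∈ S
  · -- the term `Q₀ = r v₀` is strict
    have hstrictE : Finsupp.mapDomain r D (r v₀) < a (r v₀) := by
      rw [s15b_mapDomain_apply]
      refine Finset.sum_lt_sum (fun v _ => ?_) ⟨w₀, hw₀T, ?_⟩
      · split_ifs
        · exact le_max_left _ _
        · exact le_refl _
      · rw [if_pos hvw.symm, if_pos hvw.symm]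
        exact lt_of_lt_of_le hw (le_max_right _ _)
    have hpos : 0 < a (r v₀) := by
      have h1 : (if r v₀ = r v₀ then max (D v₀) 0 else 0) ≤ a (r v₀) :=
        Finset.single_le_sum (f := fun v => if r v = r v₀ then max (D v) 0 else 0)
          (fun v _ => by split_ifs <;> simp) hv₀T
      rw [if_pos rfl] at h1
      exact lt_of_lt_of_le (lt_of_lt_of_le hv (le_max_left _ _)) h1
    have hstrict : max (Finsupp.mapDomain r D (r v₀)) 0 < a (r v₀) := max_lt hstrictE hpos
    have : ∑ Q ∈ S, max (Finsupp.mapDomain r D Q) 0 < ∑ Q ∈ S, a Q :=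
      Finset.sum_lt_sum (fun Q _ => hle Q) ⟨r v₀, hS, hstrict⟩
    rw [hswap] at this
    exact absurd (lt_of_lt_of_le this htot) (not_lt.mpr h)
  · have hlt : (∑ v ∈ T, if r v ∈ S then max (D v) 0 else 0) < ∑ v ∈ T, max (D v) 0 := by
      refine Finset.sum_lt_sum (fun v _ => ?_) ⟨v₀, hv₀T, ?_⟩
      · split_ifs
        · exact le_refl _
        · exact le_max_right _ _
      · rw [if_neg hS]
        exact lt_of_lt_of_le hv (le_max_left _ _)
    have : ∑ Q ∈ S, max (Finsupp.mapDomain r D Q) 0 ≤ ∑ Q ∈ S, a Q :=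
      Finset.sum_le_sum fun Q _ => hle Q
    rw [hswap] at this
    exact absurd (lt_of_le_of_lt this hlt) (not_lt.mpr h)

/-- zeros go to zeros, with multiplicity at least the original one. -/
theorem s15b_le_of_pos [DecidableEq Y] (r : X → Y) (D : X →₀ ℤ) (S : Finset Y)
    (h : ∑ v ∈ D.support, max (D v) 0 ≤ ∑ Q ∈ S, max (Finsupp.mapDomain r D Q) 0)
    {v₀ : X} (hv : 0 < D v₀) : D v₀ ≤ Finsupp.mapDomain r D (r v₀) := by
  classical
  rw [s15b_mapDomain_apply]
  have hv₀T : v₀ ∈ D.support := Finsupp.mem_support_iff.mpr (ne_of_gt hv)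
  have h1 : (if r v₀ = r v₀ then D v₀ else 0) ≤
      ∑ v ∈ D.support, if r v = r v₀ then D v else 0 :=
    Finset.single_le_sum (f := fun v => if r v = r v₀ then D v else 0)
      (fun w _ => by
        show 0 ≤ if r w = r v₀ then D w else 0
        split_ifs with hw
        · by_contra hneg
          rw [not_le] at hneg
          exact s15b_noMixed r D S h hw.symm hv hneg
        · exact le_refl _) hv₀T
  rwa [if_pos rfl] at h1

/-- poles go to poles. -/
theorem s15b_neg_of_neg [DecidableEq Y] (r : X → Y) (D : X →₀ ℤ) (S : Finset Y)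
    (h : ∑ v ∈ D.support, max (D v) 0 ≤ ∑ Q ∈ S, max (Finsupp.mapDomain r D Q) 0)
    {w₀ : X} (hw : D w₀ < 0) : Finsupp.mapDomain r D (r w₀) < 0 := by
  classical
  rw [s15b_mapDomain_apply]
  have hw₀T : w₀ ∈ D.support := Finsupp.mem_support_iff.mpr (ne_of_lt hw)
  have h1 : (∑ v ∈ D.support, if r v = r w₀ then D v else 0) ≤
      if r w₀ = r w₀ then D w₀ else 0 := by
    have := Finset.single_le_sum (f := fun v => -(if r v = r w₀ then D v else 0))
      (fun v _ => by
        show 0 ≤ -(if r v = r w₀ then D v else 0)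
        split_ifs with hv
        · by_contra hpos
          rw [not_le, neg_lt_zero] at hpos
          exact s15b_noMixed r D S h hv hpos hw
        · simp) hw₀T
    rw [Finset.sum_neg_distrib] at this
    linarith
  rw [if_pos rfl] at h1
  exact lt_of_le_of_lt h1 hw

/-- a simple zero of the push-forward comes from exactly one zero. -/
theorem s15b_unique_of_eq_one [DecidableEq Y] (r : X → Y) (D : X →₀ ℤ) (S : Finset Y)
    (h : ∑ v ∈ D.support, max (D v) 0 ≤ ∑ Q ∈ S, max (Finsupp.mapDomain r D Q) 0)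
    {Q : Y} (hQ : Finsupp.mapDomain r D Q ≤ 1) {v v' : X} (hv : r v = Q) (hv' : r v' = Q)
    (hpos : 0 < D v) (hpos' : 0 < D v') : v = v' := by
  classical
  by_contra hne
  rw [s15b_mapDomain_apply] at hQ
  have hvT : v ∈ D.support := Finsupp.mem_support_iff.mpr (ne_of_gt hpos)
  have hv'T : v' ∈ D.support := Finsupp.mem_support_iff.mpr (ne_of_gt hpos')
  have hsub : ({v, v'} : Finset X) ⊆ D.support := by
    intro x hx
    rcases Finset.mem_insert.mp hx with rfl | hx
    · exact hvT
    · rw [Finset.mem_singleton] at hx; rw [hx]; exact hv'T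
  have h1 : (∑ x ∈ ({v, v'} : Finset X), if r x = Q then D x else 0) ≤
      ∑ x ∈ D.support, if r x = Q then D x else 0 :=
    Finset.sum_le_sum_of_subset_of_nonneg hsub (fun w _ _ => by
      split_ifs with hw
      · by_contra hneg
        rw [not_le] at hneg
        exact s15b_noMixed r D S h (hv.trans hw.symm) hpos hneg
      · exact le_refl _)
  rw [Finset.sum_pair hne, if_pos hv, if_pos hv'] at h1
  omega

/-- a zero of the push-forward comes from a zero. -/
theorem s15b_exists_of_pos [DecidableEq Y] (r : X → Y) (D : X →₀ ℤ) {Q : Y}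
    (hQ : 0 < Finsupp.mapDomain r D Q) : ∃ v, r v = Q ∧ 0 < D v := by
  classical
  rw [s15b_mapDomain_apply] at hQ
  obtain ⟨v, -, hv⟩ := Finset.exists_lt_of_sum_lt (s := D.support)
    (f := fun _ => (0 : ℤ)) (g := fun v => if r v = Q then D v else 0) (by simpa using hQ)
  by_cases hvQ : r v = Q
  · rw [if_pos hvQ] at hv
    exact ⟨v, hvQ, hv⟩
  · rw [if_neg hvQ] at hv
    exact absurd hv (lt_irrefl _)

end Abstract

end Fermat.Agent.Lib.S15
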