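import Fermat.Agent.Lib.S15.BCusp
import Fermat.Agent.Lib.S15.BCons
import Fermat.Agent.Lib.S44.GSser
import Fermat.Agent.Lib.S44.RSepDiv
import Fermat.Agent.Lib.S44.HResP
import Fermat.Agent.Lib.S18.NResidue
import Fermat.Agent.Lib.S18.NLift
import Fermat.Agent.Lib.S18.TIndepJ
import Fermat.Agent.Lib.S28.MFinal
import Fermat.Agent.Lib.S34.XKron
import Fermat.Agent.Lib.S18.TSepJ

set_option autoImplicit false
set_option linter.unusedSectionVars false
set_option linter.unusedVariables false
set_option linter.style.haveILetI false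
set_option synthInstance.maxHeartbeats 400000

noncomputable section

namespace Fermat.Agent.Lib.S15

open ModularCurve AlgebraicCurve Fermat.Agent.Lib.FF Fermat.Agent.Lib.S44 Fermat.Agent.Lib.S37
  Fermat.Agent.Lib.S36 Fermat.Agent.Lib.S18 Fermat.Agent.Lib.S28 Fermat.Agent.Lib.S34

local notation "Kb" => AlgebraicClosure ℚ
local notation "GQ" => (AlgebraicClosure ℚ ≃ₐ[ℚ] AlgebraicClosure ℚ)

/-! ### Abstract local conservation lemmas -/

section AbstractLocal

variable {X Y : Type*} [DecidableEq Y] (r : X → Y) (D : X →₀ ℤ) {Q : Y}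

/-- a fibre without poles: every zero is bounded by the push-forward. -/
theorem s15b_loc_le (hQ : ∀ v, r v = Q → 0 ≤ D v) {v₀ : X} (hv₀ : r v₀ = Q) :
    D v₀ ≤ Finsupp.mapDomain r D Q := by
  classical
  rw [s15b_mapDomain_apply]
  by_cases hv₀T : v₀ ∈ D.support
  · have h1 : (if r v₀ = Q then D v₀ else 0) ≤ ∑ v ∈ D.support, if r v = Q then D v else 0 :=
      Finset.single_le_sum (f := fun v => if r v = Q then D v else 0)
        (fun v _ => by
          show 0 ≤ if r v = Q then D v else 0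
          split_ifs with hv
          · exact hQ v hv
          · exact le_refl _) hv₀T
    rwa [if_pos hv₀] at h1
  · rw [Finsupp.notMem_support_iff.mp hv₀T]
    exact Finset.sum_nonneg (fun v _ => by
      split_ifs with hv
      · exact hQ v hv
      · exact le_refl _)

/-- a fibre without poles and with push-forward `≤ 1` contains at most one zero. -/
theorem s15b_loc_unique (hQ : ∀ v, r v = Q → 0 ≤ D v) (hE : Finsupp.mapDomain r D Q ≤ 1)
    {v v' : X} (hv : r v = Q) (hv' : r v' = Q) (hpos : 0 < D v) (hpos' : 0 < D v') : v = v' := by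
  classical
  by_contra hne
  rw [s15b_mapDomain_apply] at hE
  have hvT : v ∈ D.support := Finsupp.mem_support_iff.mpr (ne_of_gt hpos)
  have hv'T : v' ∈ D.support := Finsupp.mem_support_iff.mpr (ne_of_gt hpos')
  have hsub : ({v, v'} : Finset X) ⊆ D.support := by
    intro x hx
    rcases Finset.mem_insert.mp hx with rfl | hx
    · exact hvT
    · rw [Finset.mem_singleton] at hx
      rw [hx]
      exact hv'T
  have h1 : ∑ x ∈ ({v, v'} : Finset X), (if r x = Q then D x else 0) ≤
      ∑ x ∈ D.support, if r x = Q then D x else 0 :=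
    Finset.sum_le_sum_of_subset_of_nonneg hsub (fun x _ _ => by
      split_ifs with hx
      · exact hQ x hx
      · exact le_refl _)
  rw [Finset.sum_pair hne, if_pos hv, if_pos hv'] at h1
  omega

/-- if all the members of a fibre except `v₁` have `D ≤ 0` and the push-forward is at least
`D v₁`, then all the other members have `D = 0`... in the form: `0 ≤ D x`. -/
theorem s15b_loc_nonneg {v₁ : X} (hv₁ : r v₁ = Q)
    (hQ : ∀ v, r v = Q → v ≠ v₁ → D v ≤ 0) (hE : D v₁ ≤ Finsupp.mapDomain r D Q)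
    {x : X} (hx : r x = Q) (hxv : x ≠ v₁) : 0 ≤ D x := by
  classical
  by_contra hneg
  rw [not_le] at hneg
  rw [s15b_mapDomain_apply] at hE
  have hxT : x ∈ D.support := Finsupp.mem_support_iff.mpr (ne_of_lt hneg)
  -- bound the sum by the two terms
  have h1 : ∑ v ∈ D.support, (if r v = Q then D v else 0) ≤
      (if v₁ ∈ D.support then D v₁ else 0) + D x := by
    have hsplit : ∀ v ∈ D.support, (if r v = Q then D v else 0) ≤
        (if v = v₁ then D v₁ else 0) + (if v = x then D x else 0) := by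
      intro v _
      by_cases hv1 : v = v₁
      · subst hv1
        rw [if_pos hv₁, if_pos rfl, if_neg (Ne.symm hxv), add_zero]
      · rw [if_neg hv1, zero_add]
        by_cases hvx : v = x
        · subst hvx
          rw [if_pos hx, if_pos rfl]
        · rw [if_neg hvx]
          split_ifs with hv
          · exact hQ v hv hv1
          · exact le_refl _
    refine (Finset.sum_le_sum hsplit).trans ?_
    rw [Finset.sum_add_distrib, Finset.sum_ite_eq' D.support v₁, Finset.sum_ite_eq' D.support x,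
      if_pos hxT]
  by_cases hv₁T : v₁ ∈ D.support
  · rw [if_pos hv₁T] at h1
    omega
  · rw [if_neg hv₁T] at h1
    rw [Finsupp.notMem_support_iff.mp hv₁T] at hE
    omega

/-- a fibre whose only member with `D ≠ 0` is `v₁`. -/
theorem s15b_loc_eq_single {v₁ : X} (hv₁ : r v₁ = Q)
    (hQ : ∀ v, r v = Q → v ≠ v₁ → D v = 0) : Finsupp.mapDomain r D Q = D v₁ := by
  classical
  rw [s15b_mapDomain_apply]
  by_cases hv₁T : v₁ ∈ D.support
  · rw [Finset.sum_eq_single v₁ (fun v _ hv => by
        split_ifs with hvQ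
        · exact hQ v hvQ hv
        · rfl) (fun h => absurd hv₁T h), if_pos hv₁]
  · rw [Finsupp.notMem_support_iff.mp hv₁T]
    refine Finset.sum_eq_zero (fun v hv => ?_)
    split_ifs with hvQ
    · by_cases hv1 : v = v₁
      · rw [hv1] at hv; exact absurd hv hv₁T
      · exact hQ v hvQ hv1
    · rfl

end AbstractLocal

/-! ### Congruences modulo the maximal ideal of a place -/

section Cong

variable {K F : Type*} [Field K] [Field F] [Algebra K F] (v : Place K F)

/-- `f ≡ g` modulo the maximal ideal at `v`. -/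
def s15b_Cong (f g : F) : Prop := v.adicValuation (f - g) < 1

variable {v} {f f' g g' k : F}

theorem s15b_cong_refl (f : F) : s15b_Cong v f f := by
  unfold s15b_Cong
  rw [sub_self, map_zero]
  exact zero_lt_one

theorem s15b_cong_symm (h : s15b_Cong v f g) : s15b_Cong v g f := by
  unfold s15b_Cong at *
  rw [← neg_sub, Valuation.map_neg]
  exact h

theorem s15b_cong_trans (h : s15b_Cong v f g) (h' : s15b_Cong v g k) : s15b_Cong v f k := by
  unfold s15b_Cong at *
  have : f - k = (f - g) + (g - k) := by ring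
  rw [this]
  exact lt_of_le_of_lt (v.adicValuation.map_add _ _) (max_lt h h')

theorem s15b_cong_add (h : s15b_Cong v f g) (h' : s15b_Cong v f' g') :
    s15b_Cong v (f + f') (g + g') := by
  unfold s15b_Cong at *
  have : f + f' - (g + g') = (f - g) + (f' - g') := by ring
  rw [this]
  exact lt_of_le_of_lt (v.adicValuation.map_add _ _) (max_lt h h')

theorem s15b_cong_neg (h : s15b_Cong v f g) : s15b_Cong v (-f) (-g) := by
  unfold s15b_Cong at *
  have : -f - -g = -(f - g) := by ring
  rw [this, Valuation.map_neg]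
  exact h

theorem s15b_cong_sub (h : s15b_Cong v f g) (h' : s15b_Cong v f' g') :
    s15b_Cong v (f - f') (g - g') := by
  rw [sub_eq_add_neg, sub_eq_add_neg]
  exact s15b_cong_add h (s15b_cong_neg h')

theorem s15b_cong_mul (h : s15b_Cong v f g) (h' : s15b_Cong v f' g')
    (hg : v.adicValuation g ≤ 1) (hf' : v.adicValuation f' ≤ 1) :
    s15b_Cong v (f * f') (g * g') := by
  unfold s15b_Cong at *
  have : f * f' - g * g' = (f - g) * f' + g * (f' - g') := by ring
  rw [this]
  refine lt_of_le_of_lt (v.adicValuation.map_add _ _) (max_lt ?_ ?_)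
  · rw [map_mul]
    calc v.adicValuation (f - g) * v.adicValuation f'
        ≤ v.adicValuation (f - g) * 1 := by gcongr
      _ < 1 := by rw [mul_one]; exact h
  · rw [map_mul]
    calc v.adicValuation g * v.adicValuation (f' - g')
        ≤ 1 * v.adicValuation (f' - g') := by gcongr
      _ < 1 := by rw [one_mul]; exact h'

theorem s15b_val_le_of_cong (h : s15b_Cong v f g) (hg : v.adicValuation g ≤ 1) :
    v.adicValuation f ≤ 1 := by
  unfold s15b_Cong at h
  have : f = (f - g) + g := by ring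
  rw [this]
  exact (v.adicValuation.map_add _ _).trans (max_le h.le hg)

theorem s15b_val_eq_of_cong (h : s15b_Cong v f g) (hg : v.adicValuation g = 1) :
    v.adicValuation f = 1 := by
  unfold s15b_Cong at h
  have : f = g + (f - g) := by ring
  rw [this, Valuation.map_add_eq_of_lt_left _ (by rw [hg]; exact h), hg]

theorem s15b_val_const (a : K) : v.adicValuation (algebraMap K F a) ≤ 1 :=
  (ff_mem_iff_adicValuation_le_one v _).mp (v.algebraMap_mem' a)

theorem s15b_val_const_eq {a : K} (ha : a ≠ 0) : v.adicValuation (algebraMap K F a) = 1 := by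
  refine le_antisymm (s15b_val_const a) ?_
  have h1 := s15b_val_const (v := v) a⁻¹
  rw [map_inv₀, map_inv₀] at h1
  have hne : v.adicValuation (algebraMap K F a) ≠ 0 :=
    v.adicValuation_ne_zero (by simpa using ha)
  by_contra hlt
  rw [not_le] at hlt
  have h2 : 1 < (v.adicValuation (algebraMap K F a))⁻¹ := by
    rw [one_lt_inv₀ (zero_lt_iff.mpr hne)]
    exact hlt
  exact absurd h1 (not_le.mpr h2)

theorem s15b_cong_pow (h : s15b_Cong v f g) (hg : v.adicValuation g ≤ 1) (n : ℕ) :
    s15b_Cong v (f ^ n) (g ^ n) := by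
  have hf : v.adicValuation f ≤ 1 := s15b_val_le_of_cong h hg
  induction n with
  | zero => rw [pow_zero, pow_zero]; exact s15b_cong_refl 1
  | succ n ih =>
    rw [pow_succ, pow_succ]
    refine s15b_cong_mul ih h ?_ hf
    rw [map_pow]
    exact pow_le_one₀ zero_le hg

theorem s15b_cong_inv (h : s15b_Cong v f g) (hg : v.adicValuation g = 1) :
    s15b_Cong v f⁻¹ g⁻¹ := by
  have hf : v.adicValuation f = 1 := s15b_val_eq_of_cong h hg
  have hf0 : f ≠ 0 := fun h0 => by rw [h0, map_zero] at hf; exact zero_ne_one hf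
  have hg0 : g ≠ 0 := fun h0 => by rw [h0, map_zero] at hg; exact zero_ne_one hg
  unfold s15b_Cong at *
  have : f⁻¹ - g⁻¹ = (g - f) * (f⁻¹ * g⁻¹) := by field_simp
  rw [this, map_mul, map_mul, map_inv₀, map_inv₀, hf, hg, inv_one, mul_one, mul_one, ← neg_sub,
    Valuation.map_neg]
  exact h

theorem s15b_cong_const_eq {a b : K} (h : s15b_Cong v (algebraMap K F a) (algebraMap K F b)) :
    a = b := by
  by_contra hab
  unfold s15b_Cong at h
  rw [← map_sub, s15b_val_const_eq (sub_ne_zero.mpr hab)] at h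
  exact lt_irrefl _ h

theorem s15b_val_lt_one_iff_ord (hf : f ≠ 0) : v.adicValuation f < 1 ↔ 0 < v.ord f := by
  rw [Place.ord]
  have h0 := v.adicValuation_ne_zero hf
  rw [neg_pos, ← WithZero.log_one, WithZero.log_lt_log h0 one_ne_zero]

theorem s15b_val_le_one_iff_ord (hf : f ≠ 0) : v.adicValuation f ≤ 1 ↔ 0 ≤ v.ord f := by
  rw [← ff_mem_iff_adicValuation_le_one, ff_mem_iff_ord_nonneg v hf]

theorem s15b_cong_of_ord (h : 0 < v.ord (f - g)) : s15b_Cong v f g := by
  have hne : f - g ≠ 0 := fun h0 => by rw [h0, Place.ord_zero] at h; exact lt_irrefl _ h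
  exact (s15b_val_lt_one_iff_ord hne).mpr h

theorem s15b_cong_zero_iff : s15b_Cong v f 0 ↔ v.adicValuation f < 1 := by
  unfold s15b_Cong
  rw [sub_zero]

end Cong

/-! ### Integral pairs -/

section IntegralPairs

variable (A : ValuationSubring Kb) (N : ℕ) [NeZero N]

/-- `(f, g)` is an INTEGRAL PAIR: `f` and `g` are the generic and the special member of one
`A`-integral Laurent series. -/
def s15b_IsInt (f : ↥(modularFunctionFieldBar N))
    (g : ↥(modularFunctionFieldFullC (IsLocalRing.ResidueField A) N)) : Prop :=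
  ∃ Y : LaurentSeries A, coeffMap A.subtype Y = (f : LaurentSeries Kb) ∧
    coeffMap (IsLocalRing.residue A) Y = (g : LaurentSeries (IsLocalRing.ResidueField A))

variable {A N}
variable {f f' : ↥(modularFunctionFieldBar N)}
  {g g' : ↥(modularFunctionFieldFullC (IsLocalRing.ResidueField A) N)}

theorem s15b_isInt_add (h : s15b_IsInt A N f g) (h' : s15b_IsInt A N f' g') :
    s15b_IsInt A N (f + f') (g + g') := by
  obtain ⟨Y, h1, h2⟩ := h
  obtain ⟨Y', h1', h2'⟩ := h'
  exact ⟨Y + Y', by rw [map_add, h1, h1']; rfl, by rw [map_add, h2, h2']; rfl⟩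

theorem s15b_isInt_mul (h : s15b_IsInt A N f g) (h' : s15b_IsInt A N f' g') :
    s15b_IsInt A N (f * f') (g * g') := by
  obtain ⟨Y, h1, h2⟩ := h
  obtain ⟨Y', h1', h2'⟩ := h'
  exact ⟨Y * Y', by rw [map_mul, h1, h1']; rfl, by rw [map_mul, h2, h2']; rfl⟩

theorem s15b_isInt_neg (h : s15b_IsInt A N f g) : s15b_IsInt A N (-f) (-g) := by
  obtain ⟨Y, h1, h2⟩ := h
  exact ⟨-Y, by rw [map_neg, h1]; rfl, by rw [map_neg, h2]; rfl⟩

theorem s15b_isInt_sub (h : s15b_IsInt A N f g) (h' : s15b_IsInt A N f' g') :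
    s15b_IsInt A N (f - f') (g - g') := by
  rw [sub_eq_add_neg, sub_eq_add_neg]
  exact s15b_isInt_add h (s15b_isInt_neg h')

theorem s15b_isInt_one : s15b_IsInt A N 1 1 :=
  ⟨1, by rw [map_one]; rfl, by rw [map_one]; rfl⟩

theorem s15b_isInt_pow (h : s15b_IsInt A N f g) (n : ℕ) : s15b_IsInt A N (f ^ n) (g ^ n) := by
  induction n with
  | zero => rw [pow_zero, pow_zero]; exact s15b_isInt_one
  | succ n ih => rw [pow_succ, pow_succ]; exact s15b_isInt_mul ih h

theorem s15b_isInt_const (a : A) :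
    s15b_IsInt A N (algebraMap Kb ↥(modularFunctionFieldBar N) (a : Kb))
      (algebraMap (IsLocalRing.ResidueField A)
        ↥(modularFunctionFieldFullC (IsLocalRing.ResidueField A) N) (IsLocalRing.residue A a)) := by
  refine ⟨HahnSeries.single 0 a, ?_, ?_⟩
  · rw [coeffMap_single]
    show _ = algebraMap Kb (LaurentSeries Kb) (a : Kb)
    rw [algebraMap_laurentSeries_eq_single]
    rfl
  · rw [coeffMap_single]
    show _ = algebraMap (IsLocalRing.ResidueField A) (LaurentSeries (IsLocalRing.ResidueField A)) _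
    rw [algebraMap_laurentSeries_eq_single]

/-- **conservation of number** for an integral pair. -/
theorem s15b_isInt_reduce (h : ReductionInputsModL A N) (hfg : s15b_IsInt A N f g) (hg : g ≠ 0)
    (D : Divisor Kb ↥(modularFunctionFieldBar N)) (hD : ∀ P, D P = P.ord f)
    (Q : Place (IsLocalRing.ResidueField A)
      ↥(modularFunctionFieldFullC (IsLocalRing.ResidueField A) N)) :
    Finsupp.mapDomain (placeReductionModL h) D Q = Q.ord g := by
  obtain ⟨Y, h1, h2⟩ := hfg
  have hy : coeffMap A.subtype Y ∈ modularFunctionFieldBar N := by rw [h1]; exact f.2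
  have hyk : coeffMap (IsLocalRing.residue A) Y ∈
      modularFunctionFieldFullC (IsLocalRing.ResidueField A) N := by rw [h2]; exact g.2
  have hfe : (⟨coeffMap A.subtype Y, hy⟩ : ↥(modularFunctionFieldBar N)) = f := Subtype.ext h1
  have hge : (⟨coeffMap (IsLocalRing.residue A) Y, hyk⟩ :
      ↥(modularFunctionFieldFullC (IsLocalRing.ResidueField A) N)) = g := Subtype.ext h2
  have hne : coeffMap (IsLocalRing.residue A) Y ≠ 0 := by
    rw [h2]
    intro h0
    exact hg (Subtype.ext h0)
  have := (isPlaceReductionModL_placeReductionModL h).2 Y hy hyk hne D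
    (fun P => by rw [hfe]; exact hD P) Q
  rw [hge] at this
  exact this

/-- the generic member of an integral pair with nonzero special member is nonzero. -/
theorem s15b_isInt_ne_zero (hfg : s15b_IsInt A N f g) (hg : g ≠ 0) : f ≠ 0 := by
  rintro rfl
  obtain ⟨Y, h1, h2⟩ := hfg
  have hY : Y = 0 := by
    ext k
    have h3 : ((Y.coeff k : A) : Kb) = 0 := by
      have := congrArg (fun y : LaurentSeries Kb => y.coeff k) h1
      simpa [coeffMap_coeff] using this
    rw [h3]
    rfl
  rw [hY, map_zero] at h2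
  exact hg (Subtype.ext h2.symm)

end IntegralPairs

/-! ### The two coordinates of the special fibre and the basic integral pairs -/

section Special

variable (κ : Type*) [Field κ] (N : ℕ) [NeZero N]

/-- `j̄(q)` in the special fibre. -/
def s15b_Jb1 : ↥(modularFunctionFieldFullC κ N) := ⟨jqModC κ, jqModC_mem_full κ N⟩

/-- `j̄(q^N)` in the special fibre. -/
def s15b_Jb2 : ↥(modularFunctionFieldFullC κ N) :=
  ⟨qExpand κ N (jqModC κ), jqModCd_mem_full κ N dvd_rfl⟩

theorem s15b_Jb1_coe : ((s15b_Jb1 κ N : ↥(modularFunctionFieldFullC κ N)) : LaurentSeries κ) =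
    jqModC κ := rfl

theorem s15b_Jb2_coe : ((s15b_Jb2 κ N : ↥(modularFunctionFieldFullC κ N)) : LaurentSeries κ) =
    qExpand κ N (jqModC κ) := rfl

theorem s15b_Jb1_order :
    ((s15b_Jb1 κ N : ↥(modularFunctionFieldFullC κ N)) : LaurentSeries κ).order = -1 :=
  s18t_order_jqModC κ

theorem s15b_Jb2_order :
    ((s15b_Jb2 κ N : ↥(modularFunctionFieldFullC κ N)) : LaurentSeries κ).order = -(N : ℤ) := by
  rw [s15b_Jb2_coe, s34x_order_qExpand N (jqModC_ne_zero_of_nontrivial κ), s18t_order_jqModC]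
  ring

theorem s15b_Jb1_ne_zero : s15b_Jb1 κ N ≠ 0 := by
  intro h
  have h1 := s15b_Jb1_order κ N
  rw [h] at h1
  simp at h1

theorem s15b_Jb2_ne_zero : s15b_Jb2 κ N ≠ 0 := by
  intro h
  have h1 := s15b_Jb2_order κ N
  rw [h] at h1
  simp at h1
  exact NeZero.ne N h1

end Special

section BasicPairs

variable (A : ValuationSubring Kb) (N : ℕ) [NeZero N]

theorem s15b_coeffEmb_jq : coeffEmb Kb jq = jqModC Kb := by
  have h := s18n_coeffEmb_jqd (L := Kb) 1
  rwa [qExpand_one_apply, qExpand_one_apply] at h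

theorem s15b_isInt_J1 : s15b_IsInt A N (s15d_J1 N) (s15b_Jb1 (IsLocalRing.ResidueField A) N) :=
  ⟨jqModC A, by rw [coeffMap_jqModC, s15b_J1_coe, s15b_coeffEmb_jq],
    by rw [coeffMap_jqModC, s15b_Jb1_coe]⟩

theorem s15b_isInt_J2 : s15b_IsInt A N (s15d_J2 N) (s15b_Jb2 (IsLocalRing.ResidueField A) N) :=
  ⟨qExpand A N (jqModC A), by rw [s18n_subtype_jqd, s15b_J2_coe, s18n_coeffEmb_jqd],
    by rw [coeffMap_qExpand, coeffMap_jqModC, s15b_Jb2_coe]⟩

theorem s15b_isInt_J1_inv :
    s15b_IsInt A N (s15d_J1 N)⁻¹ (s15b_Jb1 (IsLocalRing.ResidueField A) N)⁻¹ := by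
  refine ⟨HahnSeries.ofPowerSeries ℤ A (s44g_sSer A), ?_, ?_⟩
  · rw [coeffMap_ofPowerSeries, s44g_sSer_map, IntermediateField.coe_inv, s15b_J1_coe,
      s15b_coeffEmb_jq]
    exact (inv_eq_of_mul_eq_one_right (s44g_s_jq_mul Kb)).symm
  · rw [coeffMap_ofPowerSeries, s44g_sSer_map, IntermediateField.coe_inv, s15b_Jb1_coe]
    exact (inv_eq_of_mul_eq_one_right (s44g_s_jq_mul _)).symm

theorem s15b_isInt_J2_inv :
    s15b_IsInt A N (s15d_J2 N)⁻¹ (s15b_Jb2 (IsLocalRing.ResidueField A) N)⁻¹ := by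
  refine ⟨qExpand A N (HahnSeries.ofPowerSeries ℤ A (s44g_sSer A)), ?_, ?_⟩
  · rw [coeffMap_qExpand, coeffMap_ofPowerSeries, s44g_sSer_map, IntermediateField.coe_inv,
      s15b_J2_coe, s18n_coeffEmb_jqd]
    refine (inv_eq_of_mul_eq_one_right ?_).symm
    rw [← map_mul, s44g_s_jq_mul, map_one]
  · rw [coeffMap_qExpand, coeffMap_ofPowerSeries, s44g_sSer_map, IntermediateField.coe_inv,
      s15b_Jb2_coe]
    refine (inv_eq_of_mul_eq_one_right ?_).symm
    rw [← map_mul, s44g_s_jq_mul, map_one]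

end BasicPairs

/-! ### The value principle -/

section ValuePrinciple

variable {A : ValuationSubring Kb} {N : ℕ} [NeZero N] (h : ReductionInputsModL A N)
  {f : ↥(modularFunctionFieldBar N)}
  {g : ↥(modularFunctionFieldFullC (IsLocalRing.ResidueField A) N)}
  {Q : Place (IsLocalRing.ResidueField A)
    ↥(modularFunctionFieldFullC (IsLocalRing.ResidueField A) N)}

/-- the divisor of a nonzero function. -/
theorem s15b_exists_div (f : ↥(modularFunctionFieldBar N)) (hf : f ≠ 0) :
    ∃ D : Divisor Kb ↥(modularFunctionFieldBar N), ∀ v : m15_Pl N, D v = v.ord f := by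
  obtain ⟨D, hD, -⟩ := s18r_exists_divisor (N := N) f hf
  exact ⟨D, hD⟩

/-- **the value principle**: if `f` is regular along the fibre of `Q` and vanishes at one point
of the fibre, its reduction vanishes at `Q`. -/
theorem s15b_red_zero (hfg : s15b_IsInt A N f g)
    (hreg : ∀ v : m15_Pl N, placeReductionModL h v = Q → v.adicValuation f ≤ 1)
    {x : m15_Pl N} (hx : placeReductionModL h x = Q) (hfx : x.adicValuation f < 1) :
    Q.adicValuation g < 1 := by
  classical
  by_cases hg : g = 0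
  · rw [hg, map_zero]; exact zero_lt_one
  have hf := s15b_isInt_ne_zero hfg hg
  obtain ⟨D, hD⟩ := s15b_exists_div f hf
  have hcons := s15b_isInt_reduce h hfg hg D hD Q
  have h1 := s15b_loc_le (placeReductionModL h) D (Q := Q)
    (fun v hv => by rw [hD]; exact (s15b_val_le_one_iff_ord hf).mp (hreg v hv)) hx
  rw [hcons, hD] at h1
  have h2 := (s15b_val_lt_one_iff_ord hf).mp hfx
  exact (s15b_val_lt_one_iff_ord hg).mpr (lt_of_lt_of_le h2 h1)

/-- **the value principle**, with values. -/
theorem s15b_red_cong (hfg : s15b_IsInt A N f g)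
    (hreg : ∀ v : m15_Pl N, placeReductionModL h v = Q → v.adicValuation f ≤ 1)
    {x : m15_Pl N} (hx : placeReductionModL h x = Q) (a : A)
    (hfx : s15b_Cong x f (algebraMap Kb ↥(modularFunctionFieldBar N) (a : Kb))) :
    s15b_Cong Q g (algebraMap (IsLocalRing.ResidueField A)
      ↥(modularFunctionFieldFullC (IsLocalRing.ResidueField A) N) (IsLocalRing.residue A a)) := by
  refine s15b_red_zero h (s15b_isInt_sub hfg (s15b_isInt_const a)) ?_ hx hfx
  intro v hv
  exact (Valuation.map_sub _ _ _).trans (max_le (hreg v hv) (s15b_val_const _))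

/-- **the unit lemma**: `U` and `U⁻¹` integral and regular along the fibre of `Q`, `Ū(Q) = 1`:
the value of `U` at any point of the fibre is a unit of `A`. -/
theorem s15b_unit_of_cong {U : ↥(modularFunctionFieldBar N)}
    {Ub : ↥(modularFunctionFieldFullC (IsLocalRing.ResidueField A) N)}
    (hU : s15b_IsInt A N U Ub) (hUi : s15b_IsInt A N U⁻¹ Ub⁻¹)
    (hreg : ∀ v : m15_Pl N, placeReductionModL h v = Q → v.adicValuation U ≤ 1)
    (hregi : ∀ v : m15_Pl N, placeReductionModL h v = Q → v.adicValuation U⁻¹ ≤ 1)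
    (hQ : s15b_Cong Q Ub 1) {x : m15_Pl N} (hx : placeReductionModL h x = Q) {a : Kb}
    (ha : s15b_Cong x U (algebraMap Kb ↥(modularFunctionFieldBar N) a)) :
    A.valuation a = 1 := by
  by_cases haA : a ∈ A
  · have h1 := s15b_red_cong h hU hreg hx ⟨a, haA⟩ ha
    have h2 : s15b_Cong Q (algebraMap (IsLocalRing.ResidueField A)
        ↥(modularFunctionFieldFullC (IsLocalRing.ResidueField A) N)
        (IsLocalRing.residue A ⟨a, haA⟩)) (algebraMap (IsLocalRing.ResidueField A)
        ↥(modularFunctionFieldFullC (IsLocalRing.ResidueField A) N) 1) := by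
      rw [map_one]
      exact s15b_cong_trans (s15b_cong_symm h1) hQ
    have h3 : IsLocalRing.residue A ⟨a, haA⟩ = 1 := s15b_cong_const_eq h2
    have h4 : IsUnit (⟨a, haA⟩ : A) := by
      rw [← IsLocalRing.residue_ne_zero_iff_isUnit, h3]
      exact one_ne_zero
    exact (A.valuation_eq_one_iff ⟨a, haA⟩).mp h4
  · exfalso
    have ha0 : a ≠ 0 := fun h0 => haA (h0 ▸ A.zero_mem)
    have hlt : 1 < A.valuation a := by
      rw [← not_le, A.valuation_le_one_iff]
      exact haA
    have hinvlt : A.valuation a⁻¹ < 1 := by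
      rw [map_inv₀]
      exact inv_lt_one_of_one_lt₀ hlt
    have hinvA : a⁻¹ ∈ A := (A.valuation_le_one_iff _).mp hinvlt.le
    have hres : IsLocalRing.residue A ⟨a⁻¹, hinvA⟩ = 0 := by
      rw [IsLocalRing.residue_eq_zero_iff, A.valuation_lt_one_iff]
      exact hinvlt
    have h1 : s15b_Cong x U⁻¹ (algebraMap Kb ↥(modularFunctionFieldBar N) a⁻¹) := by
      rw [map_inv₀]
      exact s15b_cong_inv ha (s15b_val_const_eq ha0)
    have h2 := s15b_red_cong h hUi hregi hx ⟨a⁻¹, hinvA⟩ h1
    rw [hres] at h2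
    have h3 : s15b_Cong Q Ub⁻¹ 1 := by
      have := s15b_cong_inv hQ (by rw [map_one])
      rwa [inv_one] at this
    have h4 : s15b_Cong Q (algebraMap (IsLocalRing.ResidueField A)
        ↥(modularFunctionFieldFullC (IsLocalRing.ResidueField A) N) 0)
        (algebraMap (IsLocalRing.ResidueField A)
        ↥(modularFunctionFieldFullC (IsLocalRing.ResidueField A) N) 1) := by
      rw [map_one]
      exact s15b_cong_trans (s15b_cong_symm h2) h3
    exact zero_ne_one (s15b_cong_const_eq h4)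

end ValuePrinciple

/-! ### The degree of the special fibre over the `j̄`-line is at least `ψ(N)` -/

section Degree

open Polynomial in
theorem s15b_le_finrank_of_indep {κ F : Type*} [Field κ] [Field F] [Algebra κ F] (x : F)
    [FiniteDimensional ↥(IntermediateField.adjoin κ {x}) F] {n : ℕ} (θ : Fin n → F)
    (hind : ∀ P : Fin n → Polynomial κ, ∑ i, Polynomial.aeval x (P i) * θ i = 0 → P = 0) :
    n ≤ Module.finrank ↥(IntermediateField.adjoin κ {x}) F := by
  classical
  have hli : LinearIndependent ↥(IntermediateField.adjoin κ {x}) θ := by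
    rw [Fintype.linearIndependent_iff]
    intro c hc i
    have hrep : ∀ j, ∃ a b : Polynomial κ, aeval x b ≠ 0 ∧
        (c j : F) * aeval x b = aeval x a := by
      intro j
      obtain ⟨a, b, hab⟩ := (IntermediateField.mem_adjoin_simple_iff κ _).mp (c j).2
      by_cases hb : aeval x b = 0
      · refine ⟨0, 1, by simp, ?_⟩
        rw [hb, div_zero] at hab
        rw [hab]
        simp
      · exact ⟨a, b, hb, by rw [hab, div_mul_cancel₀ _ hb]⟩
    choose a b hb hab using hrep
    set P : Fin n → Polynomial κ := fun j => a j * ∏ k ∈ Finset.univ.erase j, b k with hPdef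
    have hPj : ∀ j, aeval x (P j) = (c j : F) * ∏ k, aeval x (b k) := by
      intro j
      simp only [hPdef, map_mul, map_prod]
      rw [← hab j, mul_assoc,
        Finset.mul_prod_erase Finset.univ (fun k => aeval x (b k)) (Finset.mem_univ j)]
    have h2 : ∑ j, (c j : F) * θ j = 0 := by
      rw [← hc]
      exact Finset.sum_congr rfl (fun j _ => (Algebra.smul_def (c j) (θ j)).symm ▸ rfl)
    have hP : ∑ j, aeval x (P j) * θ j = 0 := by
      calc ∑ j, aeval x (P j) * θ j
          = (∏ k, aeval x (b k)) * ∑ j, (c j : F) * θ j := by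
            rw [Finset.mul_sum]
            refine Finset.sum_congr rfl (fun j _ => ?_)
            rw [hPj j]
            ring
        _ = 0 := by rw [h2, mul_zero]
    have hPi : P i = 0 := congrFun (hind P hP) i
    have hbne : ∀ k, b k ≠ 0 := fun k h0 => hb k (by rw [h0, map_zero])
    have hai : a i = 0 := by
      simp only [hPdef] at hPi
      rcases mul_eq_zero.mp hPi with h | h
      · exact h
      · exact absurd h (Finset.prod_ne_zero_iff.mpr (fun k _ => hbne k))
    have h3 : (c i : F) * aeval x (b i) = 0 := by rw [hab i, hai, map_zero]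
    have hci : (c i : F) = 0 := (mul_eq_zero.mp h3).resolve_right (hb i)
    exact Subtype.ext hci
  have h := hli.fintype_card_le_finrank
  simpa using h

variable (ℓ : ℕ) [Fact ℓ.Prime] (κ : Type*) [Field κ] [CharP κ ℓ] (N : ℕ) [NeZero N]

theorem s15b_finrank_Jb1_ge (hℓN : ¬ ℓ ∣ N) :
    dedekindPsi N ≤ Module.finrank ↥(IntermediateField.adjoin κ {s15b_Jb1 κ N})
      ↥(modularFunctionFieldFullC κ N) := by
  obtain ⟨n, θ, hn, hθ, hind⟩ := s18t_indep_j ℓ N hℓN κ
  have hmem : ∀ i, θ i ∈ modularFunctionFieldFullC κ N := by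
    intro i
    have hle : Submonoid.closure (divisorExpansionsC κ N) ≤
        (modularFunctionFieldFullC κ N).toSubalgebra.toSubmonoid := by
      rw [Submonoid.closure_le]
      intro y hy
      exact IntermediateField.subset_adjoin κ _ hy
    exact hle (hθ i)
  haveI : FFGen κ (s15b_Jb1 κ N) := s37b_ffGen_jF κ N
  haveI : FiniteDimensional ↥(IntermediateField.adjoin κ {s15b_Jb1 κ N})
      ↥(modularFunctionFieldFullC κ N) := FFGen.finite
  refine hn.trans (s15b_le_finrank_of_indep (s15b_Jb1 κ N) (fun i => ⟨θ i, hmem i⟩) ?_)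
  intro P hP
  apply hind P
  have h1 := congrArg (fun z : ↥(modularFunctionFieldFullC κ N) => (z : LaurentSeries κ)) hP
  simp only [AddSubmonoidClass.coe_finsetSum, MulMemClass.coe_mul, ZeroMemClass.coe_zero] at h1
  rw [← h1]
  refine Finset.sum_congr rfl (fun i _ => ?_)
  congr 1
  exact Polynomial.aeval_algHom_apply (modularFunctionFieldFullC κ N).val (s15b_Jb1 κ N) (P i)

/-- the poles of `j̄` on the special fibre have total multiplicity at least `ψ(N)`. -/
theorem s15b_special_zeros [IsAlgClosed κ] (hℓN : ¬ ℓ ∣ N) :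
    ∃ S : Finset (Place κ ↥(modularFunctionFieldFullC κ N)),
      (∀ Q, Q ∈ S ↔ 0 < Q.ord (s15b_Jb1 κ N)⁻¹) ∧
        (dedekindPsi N : ℤ) ≤ ∑ Q ∈ S, Q.ord (s15b_Jb1 κ N)⁻¹ := by
  haveI : FFGen κ (s15b_Jb1 κ N) := s37b_ffGen_jF κ N
  haveI : Algebra.IsSeparable ↥(IntermediateField.adjoin κ {s15b_Jb1 κ N})
      ↥(modularFunctionFieldFullC κ N) :=
    s37b_isSeparable κ N ℓ (s15b_Jb1 κ N) (s37b_coord_jq κ ℓ)
  haveI : Algebra.IsSeparable ↥(IntermediateField.adjoin κ {(s15b_Jb1 κ N)⁻¹})
      ↥(modularFunctionFieldFullC κ N) := s44rq_isSeparable_of_eq (ff_adjoin_inv (s15b_Jb1 κ N))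
  obtain ⟨S, hS, hsum⟩ := s44rq_fibreSum κ (s15b_Jb1 κ N)⁻¹
  refine ⟨S, hS, ?_⟩
  rw [hsum, ff_adjoin_inv]
  exact_mod_cast s15b_finrank_Jb1_ge ℓ κ N hℓN

end Degree

/-! ### Conservation of number for `j⁻¹ - c`, `c ∈ 𝔪_A` -/

attribute [local instance] Fermat.Agent.Lib.S18.s18n_isAlgClosed_residueField

section ConsJ

variable {p : ℕ} [NeZero p] (hp : p.Prime)

include hp in
theorem s15b_generic_zeros (c : Kb) :
    ∃ P : Finset (m15_Pl p),
      (∀ v, v ∈ P ↔ 0 < v.ord ((s15d_J1 p)⁻¹ - algebraMap Kb ↥(modularFunctionFieldBar p) c)) ∧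
        ∑ v ∈ P, v.ord ((s15d_J1 p)⁻¹ - algebraMap Kb ↥(modularFunctionFieldBar p) c) =
          (p : ℤ) + 1 := by
  obtain ⟨P, hP, hsum⟩ := ff_fibreSum_sub_const Kb (s15d_J1 p)⁻¹ c
  refine ⟨P, hP, ?_⟩
  rw [hsum, ff_adjoin_inv, s15b_finrank_J1 hp]
  push_cast
  rfl

variable {ℓ : ℕ} (hℓ : ℓ.Prime) (hℓp : ℓ ≠ p) {A : ValuationSubring Kb} (hA : A.LiesOverPrime ℓ)
  (h : ReductionInputsModL A p)

include hp hℓ hℓp hA in
/-- **Step A**: the divisor of `j⁻¹ - c` (`c ∈ 𝔪_A`) and its reduction, with the no-cancellation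
inequality of `BCons`. -/
theorem s15b_cons_J1inv (c : A) (hc : A.valuation (c : Kb) < 1) :
    ∃ (D : Divisor Kb ↥(modularFunctionFieldBar p))
      (S : Finset (Place (IsLocalRing.ResidueField A)
        ↥(modularFunctionFieldFullC (IsLocalRing.ResidueField A) p))),
      (∀ v, D v = v.ord ((s15d_J1 p)⁻¹ - algebraMap Kb ↥(modularFunctionFieldBar p) (c : Kb))) ∧
      (∀ Q, Finsupp.mapDomain (placeReductionModL h) D Q =
        Q.ord (s15b_Jb1 (IsLocalRing.ResidueField A) p)⁻¹) ∧
      ∑ v ∈ D.support, max (D v) 0 ≤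
        ∑ Q ∈ S, max (Finsupp.mapDomain (placeReductionModL h) D Q) 0 := by
  classical
  haveI : Fact ℓ.Prime := ⟨hℓ⟩
  haveI : CharP (IsLocalRing.ResidueField A) ℓ := s18n_charP_residueField A hℓ hA
  have hres : IsLocalRing.residue A c = 0 := by
    rw [IsLocalRing.residue_eq_zero_iff, A.valuation_lt_one_iff]
    exact hc
  have hpair : s15b_IsInt A p ((s15d_J1 p)⁻¹ - algebraMap Kb ↥(modularFunctionFieldBar p) (c : Kb))
      (s15b_Jb1 (IsLocalRing.ResidueField A) p)⁻¹ := by
    have := s15b_isInt_sub (s15b_isInt_J1_inv A p) (s15b_isInt_const (N := p) c)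
    rwa [hres, map_zero, sub_zero] at this
  have hg : (s15b_Jb1 (IsLocalRing.ResidueField A) p)⁻¹ ≠ 0 :=
    inv_ne_zero (s15b_Jb1_ne_zero _ p)
  have hf := s15b_isInt_ne_zero hpair hg
  obtain ⟨D, hD⟩ := s15b_exists_div _ hf
  have hcons := s15b_isInt_reduce h hpair hg D hD
  obtain ⟨P, hP, hPsum⟩ := s15b_generic_zeros hp (c : Kb)
  have hℓN : ¬ ℓ ∣ p := fun hdvd => hℓp ((Nat.prime_dvd_prime_iff_eq hℓ hp).mp hdvd)
  obtain ⟨S, hS, hSsum⟩ := s15b_special_zeros ℓ (IsLocalRing.ResidueField A) p hℓN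
  refine ⟨D, S, hD, hcons, ?_⟩
  rw [s18l_dedekindPsi_prime hp] at hSsum
  -- the left side is `p + 1`
  have hPsub : P ⊆ D.support := by
    intro v hv
    rw [Finsupp.mem_support_iff, hD]
    exact ne_of_gt ((hP v).mp hv)
  have hL : ∑ v ∈ D.support, max (D v) 0 = (p : ℤ) + 1 := by
    rw [← hPsum, ← Finset.sum_subset hPsub (fun v _ hvP => by
      rw [hP, ← hD] at hvP
      exact max_eq_right (not_lt.mp hvP))]
    refine Finset.sum_congr rfl (fun v hv => ?_)
    rw [hD]
    exact max_eq_left ((hP v).mp hv).le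
  have hR : ∑ Q ∈ S, max (Finsupp.mapDomain (placeReductionModL h) D Q) 0 =
      ∑ Q ∈ S, Q.ord (s15b_Jb1 (IsLocalRing.ResidueField A) p)⁻¹ := by
    refine Finset.sum_congr rfl (fun Q hQ => ?_)
    rw [hcons]
    exact max_eq_left ((hS Q).mp hQ).le
  rw [hL, hR]
  push_cast at hSsum
  exact hSsum

end ConsJ

/-! ### `j̄(q)` is integral over `κ[j̄(q^p)]` -/

section Integrality

variable (ℓ : ℕ) [Fact ℓ.Prime] (κ : Type*) [Field κ] [IsAlgClosed κ] [CharP κ ℓ]
  {p : ℕ} [NeZero p] (hp : p.Prime) (hℓp : ℓ ≠ p)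

include hp hℓp in
theorem s15b_modEq_root : ∃ Φ : Polynomial (Polynomial κ), Φ.Monic ∧
    (Φ.map (Polynomial.aeval (qExpand κ p (jqModC κ))).toRingHom).eval (jqModC κ) = 0 := by
  haveI : Fact p.Prime := ⟨hp⟩
  haveI : NeZero ((p : ℕ) : κ) := ⟨fun h0 => by
    have hdvd : ℓ ∣ p := (CharP.cast_eq_zero_iff κ ℓ p).mp h0
    exact hℓp ((Nat.prime_dvd_prime_iff_eq (Fact.out : ℓ.Prime) hp).mp hdvd)⟩
  obtain ⟨ζ, hζ⟩ := HasEnoughRootsOfUnity.exists_primitiveRoot κ p
  have hζ0 : ζ ≠ 0 := hζ.ne_zero hp.ne_zero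
  obtain ⟨Φ, hm, -, hΦ⟩ := s28m_modEq p κ (Units.mk0 ζ hζ0) hζ
  refine ⟨Φ, hm, ?_⟩
  rw [hΦ, Polynomial.eval_mul, Polynomial.eval_prod]
  have h0 : ∏ b ∈ Finset.range p, Polynomial.eval (jqModC κ)
      (Polynomial.X - Polynomial.C (s28c_twist (Units.mk0 ζ hζ0 ^ b) (jqModC κ))) = 0 := by
    apply Finset.prod_eq_zero (Finset.mem_range.mpr hp.pos)
    rw [pow_zero, s28c_twist_one_eq, Polynomial.eval_sub, Polynomial.eval_X, Polynomial.eval_C,
      sub_self]
  rw [h0, mul_zero]

include hp hℓp in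
/-- a pole of `j̄(q)` is a pole of `j̄(q^p)`. -/
theorem s15b_pole_Jb2_of_pole_Jb1 (Q : Place κ ↥(modularFunctionFieldFullC κ p))
    (hQ : Q.ord (s15b_Jb1 κ p) < 0) : Q.ord (s15b_Jb2 κ p) < 0 := by
  by_contra hnn
  rw [not_lt] at hnn
  have hmem : s15b_Jb2 κ p ∈ Q.toValuationSubring :=
    (ff_mem_iff_ord_nonneg Q (s15b_Jb2_ne_zero κ p)).mpr hnn
  obtain ⟨Φ, hm, hroot⟩ := s15b_modEq_root ℓ κ hp hℓp
  have hint : IsIntegral Q.toValuationSubring (s15b_Jb1 κ p) := by
    refine ⟨Φ.map (Polynomial.aeval (R := κ) (⟨s15b_Jb2 κ p, hmem⟩ : Q.toValuationSubring)).toRingHom,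
      hm.map _, ?_⟩
    rw [Polynomial.eval₂_map]
    apply (modularFunctionFieldFullC κ p).val.injective
    rw [map_zero]
    have h1 := Polynomial.hom_eval₂ Φ
      ((algebraMap Q.toValuationSubring ↥(modularFunctionFieldFullC κ p)).comp
        (Polynomial.aeval (R := κ) (⟨s15b_Jb2 κ p, hmem⟩ : Q.toValuationSubring)).toRingHom)
      ((modularFunctionFieldFullC κ p).val : ↥(modularFunctionFieldFullC κ p) →+* LaurentSeries κ)
      (s15b_Jb1 κ p)
    rw [Polynomial.eval_map] at hroot
    have h2 : ((modularFunctionFieldFullC κ p).val :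
          ↥(modularFunctionFieldFullC κ p) →+* LaurentSeries κ).comp
        ((algebraMap Q.toValuationSubring ↥(modularFunctionFieldFullC κ p)).comp
          (Polynomial.aeval (R := κ) (⟨s15b_Jb2 κ p, hmem⟩ : Q.toValuationSubring)).toRingHom) =
        (Polynomial.aeval (qExpand κ p (jqModC κ))).toRingHom := by
      apply Polynomial.ringHom_ext
      · intro a
        simp only [RingHom.comp_apply, AlgHom.toRingHom_eq_coe, RingHom.coe_coe,
          Polynomial.aeval_C]
        rfl
      · simp only [RingHom.comp_apply, AlgHom.toRingHom_eq_coe, RingHom.coe_coe,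
          Polynomial.aeval_X]
        rfl
    rw [h2] at h1
    exact h1.trans hroot
  obtain ⟨y, hy⟩ := IsIntegrallyClosed.isIntegral_iff.mp hint
  have hmem1 : s15b_Jb1 κ p ∈ Q.toValuationSubring := by
    rw [← hy]
    exact y.2
  have := (ff_mem_iff_ord_nonneg Q (s15b_Jb1_ne_zero κ p)).mp hmem1
  omega

end Integrality

/-! ### The two cusps of the special fibre -/

section CuspsL

/-- the cusp `∞̄` of the special fibre at `A`. -/
def s15b_infb (A : ValuationSubring Kb) (N : ℕ) [NeZero N] :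
    Place (IsLocalRing.ResidueField A)
      ↥(modularFunctionFieldFullC (IsLocalRing.ResidueField A) N) :=
  s44h_fbarInf (IsLocalRing.ResidueField A) N

theorem s15b_infb_ord (A : ValuationSubring Kb) (N : ℕ) [NeZero N]
    {g : ↥(modularFunctionFieldFullC (IsLocalRing.ResidueField A) N)} (hg : g ≠ 0) :
    (s15b_infb A N).ord g = (g : LaurentSeries (IsLocalRing.ResidueField A)).order :=
  s44g_i_ord (s44h_fbarInf (IsLocalRing.ResidueField A) N)
    (s44h_mem_fbarInf (IsLocalRing.ResidueField A) N) (s15b_Jb1 (IsLocalRing.ResidueField A) N)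
    (s15b_Jb1_order (IsLocalRing.ResidueField A) N) hg

theorem s15b_infb_ord_Jb1 (A : ValuationSubring Kb) (N : ℕ) [NeZero N] :
    (s15b_infb A N).ord (s15b_Jb1 (IsLocalRing.ResidueField A) N) = -1 := by
  rw [s15b_infb_ord A N (s15b_Jb1_ne_zero _ N), s15b_Jb1_order]

theorem s15b_infb_ord_Jb2 (A : ValuationSubring Kb) (N : ℕ) [NeZero N] :
    (s15b_infb A N).ord (s15b_Jb2 (IsLocalRing.ResidueField A) N) = -(N : ℤ) := by
  rw [s15b_infb_ord A N (s15b_Jb2_ne_zero _ N), s15b_Jb2_order]

variable {p : ℕ} [NeZero p] (hp : p.Prime) {ℓ : ℕ} (hℓ : ℓ.Prime) (hℓp : ℓ ≠ p)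
  {A : ValuationSubring Kb} (hA : A.LiesOverPrime ℓ) (h : ReductionInputsModL A p)
  {w : ↥(modularFunctionFieldBar p) ≃ₐ[Kb] ↥(modularFunctionFieldBar p)} (hw : s15b_IsAL p w)

include hp hℓ hℓp hA hw in
/-- **Step B**: `r(∞) = ∞̄ ≠ r(0)`; the zeros of `j` reduce to neither; the poles of `j̄` are
`∞̄` and `r(0)`. -/
theorem s15b_cuspL :
    placeReductionModL h (s15b_inf p) = s15b_infb A p ∧
    placeReductionModL h (s15b_zero p w) ≠ s15b_infb A p ∧
    (∀ x : m15_Pl p, 0 < x.ord (s15d_J1 p) →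
      placeReductionModL h x ≠ s15b_infb A p ∧
        placeReductionModL h x ≠ placeReductionModL h (s15b_zero p w)) ∧
    0 < (placeReductionModL h (s15b_zero p w)).ord
      (s15b_Jb1 (IsLocalRing.ResidueField A) p)⁻¹ ∧
    (∀ Q : Place (IsLocalRing.ResidueField A)
        ↥(modularFunctionFieldFullC (IsLocalRing.ResidueField A) p),
      0 < Q.ord (s15b_Jb1 (IsLocalRing.ResidueField A) p)⁻¹ →
        Q = s15b_infb A p ∨ Q = placeReductionModL h (s15b_zero p w)) := by
  classical
  obtain ⟨D, S, hD, hcons, hnm⟩ := s15b_cons_J1inv hp hℓ hℓp hA h 0 (by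
    rw [ZeroMemClass.coe_zero, map_zero]; exact zero_lt_one)
  have hD' : ∀ v : m15_Pl p, D v = -v.ord (s15d_J1 p) := by
    intro v
    rw [hD, ZeroMemClass.coe_zero, map_zero, sub_zero, Place.ord_inv]
  have hp2 := hp.two_le
  have hDinf : D (s15b_inf p) = 1 := by rw [hD', s15b_inf_ord_J1]; norm_num
  have hDzero : D (s15b_zero p w) = p := by rw [hD', s15b_zero_ord_J1 hw]; norm_num
  have hEinf : Finsupp.mapDomain (placeReductionModL h) D (s15b_infb A p) = 1 := by
    rw [hcons, Place.ord_inv, s15b_infb_ord_Jb1]; norm_num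
  have hpole : ∀ v : m15_Pl p, 0 < D v → v = s15b_inf p ∨ v = s15b_zero p w := by
    intro v hv
    rw [hD'] at hv
    exact s15b_pole_J1 hp hw v (by omega)
  -- (B2)
  have hB2 : placeReductionModL h (s15b_zero p w) ≠ s15b_infb A p := by
    intro hz
    have h1 := s15b_le_of_pos (placeReductionModL h) D S hnm (v₀ := s15b_zero p w)
      (by rw [hDzero]; exact_mod_cast hp.pos)
    rw [hz, hEinf, hDzero] at h1
    have : (p : ℤ) ≤ 1 := h1
    omega
  -- (B1)
  have hB1 : placeReductionModL h (s15b_inf p) = s15b_infb A p := by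
    obtain ⟨v, hv, hvpos⟩ := s15b_exists_of_pos (placeReductionModL h) D
      (Q := s15b_infb A p) (by rw [hEinf]; norm_num)
    rcases hpole v hvpos with rfl | rfl
    · exact hv
    · exact absurd hv hB2
  refine ⟨hB1, hB2, ?_, ?_, ?_⟩
  · intro x hx
    have hDx : D x < 0 := by rw [hD']; omega
    refine ⟨fun hxi => ?_, fun hxz => ?_⟩
    · exact s15b_noMixed (placeReductionModL h) D S hnm (v₀ := s15b_inf p) (w₀ := x)
        (by rw [hB1, hxi]) (by rw [hDinf]; norm_num) hDx
    · exact s15b_noMixed (placeReductionModL h) D S hnm (v₀ := s15b_zero p w) (w₀ := x)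
        hxz.symm (by rw [hDzero]; exact_mod_cast hp.pos) hDx
  · have h1 := s15b_le_of_pos (placeReductionModL h) D S hnm (v₀ := s15b_zero p w)
      (by rw [hDzero]; exact_mod_cast hp.pos)
    rw [hcons, hDzero] at h1
    have : (0 : ℤ) < p := by exact_mod_cast hp.pos
    omega
  · intro Q hQ
    obtain ⟨v, hv, hvpos⟩ := s15b_exists_of_pos (placeReductionModL h) D (Q := Q)
      (by rw [hcons]; exact hQ)
    rcases hpole v hvpos with rfl | rfl
    · left; rw [← hv, hB1]
    · right; exact hv.symm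

include hp hℓ hℓp hA hw in
/-- **Step C**: the zeros of `j(q^p)` reduce to neither cusp, and `j̄(q^p)` has a simple pole at
`r(0)`. -/
theorem s15b_cuspL2 :
    (∀ x : m15_Pl p, 0 < x.ord (s15d_J2 p) →
      placeReductionModL h x ≠ s15b_infb A p ∧
        placeReductionModL h x ≠ placeReductionModL h (s15b_zero p w)) ∧
    (placeReductionModL h (s15b_zero p w)).ord
      (s15b_Jb2 (IsLocalRing.ResidueField A) p)⁻¹ = 1 := by
  classical
  haveI : Fact ℓ.Prime := ⟨hℓ⟩
  haveI : CharP (IsLocalRing.ResidueField A) ℓ := s18n_charP_residueField A hℓ hA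
  obtain ⟨hB1, hB2, hB3, hB4, hB5⟩ := s15b_cuspL hp hℓ hℓp hA h hw
  have hg : (s15b_Jb2 (IsLocalRing.ResidueField A) p)⁻¹ ≠ 0 :=
    inv_ne_zero (s15b_Jb2_ne_zero _ p)
  obtain ⟨D, hD⟩ := s15b_exists_div (s15d_J2 p)⁻¹ (inv_ne_zero (s15b_J2_ne_zero p))
  have hcons := s15b_isInt_reduce h (s15b_isInt_J2_inv A p) hg D hD
  have hD' : ∀ v : m15_Pl p, D v = -v.ord (s15d_J2 p) := by
    intro v
    rw [hD, Place.ord_inv]
  have hppos : (0 : ℤ) < p := by exact_mod_cast hp.pos
  have hDinf : D (s15b_inf p) = p := by rw [hD', s15b_inf_ord_J2]; norm_num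
  have hDzero : D (s15b_zero p w) = 1 := by rw [hD', s15b_zero_ord_J2 hw]; norm_num
  have hpole : ∀ v : m15_Pl p, 0 < D v → v = s15b_inf p ∨ v = s15b_zero p w := by
    intro v hv
    rw [hD'] at hv
    exact s15b_pole_J2 hp hw v (by omega)
  -- (C1)
  have hC1 : ∀ x : m15_Pl p, 0 < x.ord (s15d_J2 p) →
      placeReductionModL h x ≠ s15b_infb A p := by
    intro x hx hxi
    have hxne : x ≠ s15b_inf p := by
      rintro rfl
      rw [s15b_inf_ord_J2] at hx
      omega
    have h1 := s15b_loc_nonneg (placeReductionModL h) D (Q := s15b_infb A p)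
      (v₁ := s15b_inf p) hB1
      (fun v hv hvne => by
        by_contra hpos
        rw [not_le] at hpos
        rcases hpole v hpos with rfl | rfl
        · exact hvne rfl
        · exact hB2 hv)
      (by rw [hcons, Place.ord_inv, s15b_infb_ord_Jb2, hDinf]; norm_num) hxi hxne
    rw [hD'] at h1
    omega
  -- the pole of `j̄(q^p)` at `r(0)`
  have hpoleb : 1 ≤ (placeReductionModL h (s15b_zero p w)).ord
      (s15b_Jb2 (IsLocalRing.ResidueField A) p)⁻¹ := by
    have h1 : (placeReductionModL h (s15b_zero p w)).ord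
        (s15b_Jb1 (IsLocalRing.ResidueField A) p) < 0 := by
      rw [Place.ord_inv] at hB4
      omega
    have h2 := s15b_pole_Jb2_of_pole_Jb1 ℓ (IsLocalRing.ResidueField A) hp hℓp _ h1
    rw [Place.ord_inv]
    omega
  have hfib : ∀ v : m15_Pl p,
      placeReductionModL h v = placeReductionModL h (s15b_zero p w) → v ≠ s15b_zero p w →
        D v ≤ 0 := by
    intro v hv hvne
    by_contra hpos
    rw [not_le] at hpos
    rcases hpole v hpos with rfl | rfl
    · exact hB2 (hv.symm.trans hB1)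
    · exact hvne rfl
  -- (C2)
  have hC2 : ∀ x : m15_Pl p, 0 < x.ord (s15d_J2 p) →
      placeReductionModL h x ≠ placeReductionModL h (s15b_zero p w) := by
    intro x hx hxz
    have hxne : x ≠ s15b_zero p w := by
      rintro rfl
      rw [s15b_zero_ord_J2 hw] at hx
      omega
    have h1 := s15b_loc_nonneg (placeReductionModL h) D
      (Q := placeReductionModL h (s15b_zero p w)) (v₁ := s15b_zero p w) rfl hfib
      (by rw [hcons, hDzero]; exact hpoleb) hxz hxne
    rw [hD'] at h1
    omega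
  refine ⟨fun x hx => ⟨hC1 x hx, hC2 x hx⟩, ?_⟩
  rw [← hcons, s15b_loc_eq_single (placeReductionModL h) D (v₁ := s15b_zero p w) rfl, hDzero]
  intro v hv hvne
  have h1 := hfib v hv hvne
  by_contra hne
  have hneg : D v < 0 := lt_of_le_of_ne h1 hne
  rw [hD'] at hneg
  exact hC2 v (by omega) hv

end CuspsL

end Fermat.Agent.Lib.S15
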