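import Fermat.Agent.Lib.S15.BVal
import Fermat.Agent.Lib.S37.RClose
import Fermat.Agent.Lib.S37.GGen
import Fermat.Agent.Lib.Mz.Places
import Fermat.Agent.Lib.Frey.Ord

set_option autoImplicit false
set_option linter.unusedSectionVars false
set_option linter.unusedVariables false
set_option linter.style.haveILetI false
set_option synthInstance.maxHeartbeats 400000

noncomputable section

namespace Fermat.Agent.Lib.S15

open ModularCurve AlgebraicCurve Fermat.Agent.Lib.FF Fermat.Agent.Lib.S44 Fermat.Agent.Lib.S37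
  Fermat.Agent.Lib.S36 Fermat.Agent.Lib.S18 Fermat.Agent.Lib.S28 Fermat.Agent.Lib.S34

local notation "Kb" => AlgebraicClosure ℚ
local notation "GQ" => (AlgebraicClosure ℚ ≃ₐ[ℚ] AlgebraicClosure ℚ)

attribute [local instance] Fermat.Agent.Lib.S18.s18n_isAlgClosed_residueField

/-! ### Galois conjugates of a place with rational values -/

section Galois

variable (N : ℕ) [NeZero N]

theorem s15b_gal_J2 (σ : GQ) :
    arithmeticGalois (modularFunctionFieldFull N) σ • s15d_J2 N = s15d_J2 N := by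
  apply Subtype.ext
  rw [coe_arithmeticGalois_smul, s15b_J2_coe, coeffMap_coeffEmb]

variable {N}

theorem s15b_gal_ord_sub (σ : GQ) (x : m15_Pl N) {f : ↥(modularFunctionFieldBar N)}
    (hf : arithmeticGalois (modularFunctionFieldFull N) σ • f = f) (c : ℚ) :
    (m15_gal N σ x).ord (f - algebraMap Kb ↥(modularFunctionFieldBar N) (algebraMap ℚ Kb c)) =
      x.ord (f - algebraMap Kb ↥(modularFunctionFieldBar N) (algebraMap ℚ Kb c)) := by
  unfold m15_gal
  set g := arithmeticGalois (modularFunctionFieldFull N) σ with hg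
  have h1 : g • (f - algebraMap Kb ↥(modularFunctionFieldBar N) (algebraMap ℚ Kb c)) =
      f - algebraMap Kb ↥(modularFunctionFieldBar N) (algebraMap ℚ Kb c) := by
    rw [smul_sub, hf, SemilinearAut.smul_algebraMap, hg, baseAut_arithmeticGalois]
    congr 2
    exact σ.commutes c
  have h2 := SemilinearAut.ord_smul g x
    (f - algebraMap Kb ↥(modularFunctionFieldBar N) (algebraMap ℚ Kb c))
  rw [h1] at h2
  exact h2

theorem s15b_gal_hasValues (σ : GQ) {x : m15_Pl N} {j₁ j₂ : ℚ}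
    (hx : s15d_HasValues N x (algebraMap ℚ Kb j₁) (algebraMap ℚ Kb j₂)) :
    s15d_HasValues N (m15_gal N σ x) (algebraMap ℚ Kb j₁) (algebraMap ℚ Kb j₂) := by
  refine ⟨?_, ?_⟩
  · rw [s15b_gal_ord_sub σ x (s15b_gal_J1 N σ) j₁]
    exact hx.1
  · rw [s15b_gal_ord_sub σ x (s15b_gal_J2 N σ) j₂]
    exact hx.2

end Galois

/-! ### Uniqueness of the place with given values over a non-integral `j₁` -/

section Unique

theorem s15b_isInt_sub_small {A : ValuationSubring Kb} {N : ℕ} [NeZero N]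
    {f : ↥(modularFunctionFieldBar N)}
    {g : ↥(modularFunctionFieldFullC (IsLocalRing.ResidueField A) N)}
    (hfg : s15b_IsInt A N f g) (c : A) (hc : A.valuation (c : Kb) < 1) :
    s15b_IsInt A N (f - algebraMap Kb ↥(modularFunctionFieldBar N) (c : Kb)) g := by
  have hres : IsLocalRing.residue A c = 0 := by
    rw [IsLocalRing.residue_eq_zero_iff, A.valuation_lt_one_iff]
    exact hc
  have := s15b_isInt_sub hfg (s15b_isInt_const (N := N) c)
  rwa [hres, map_zero, sub_zero] at this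

variable {p : ℕ} [NeZero p] (hp : p.Prime) {ℓ : ℕ} (hℓ : ℓ.Prime) (hℓp : ℓ ≠ p)
  {A : ValuationSubring Kb} (hA : A.LiesOverPrime ℓ) (h : ReductionInputsModL A p)
  {w : ↥(modularFunctionFieldBar p) ≃ₐ[Kb] ↥(modularFunctionFieldBar p)} (hw : s15b_IsAL p w)

/-- the local uniqueness principle: `f` integral with reduction `g`, `c ∈ 𝔪_A`, no pole of `f`
in the fibre of `Q`, `ord_Q g ≤ 1`: at most one zero of `f - c` in the fibre. -/
theorem s15b_unique_zero {N : ℕ} [NeZero N] {A : ValuationSubring Kb}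
    (h : ReductionInputsModL A N) {f : ↥(modularFunctionFieldBar N)}
    {g : ↥(modularFunctionFieldFullC (IsLocalRing.ResidueField A) N)}
    (hfg : s15b_IsInt A N f g) (hg : g ≠ 0) (c : A) (hc : A.valuation (c : Kb) < 1)
    {Q : Place (IsLocalRing.ResidueField A)
      ↥(modularFunctionFieldFullC (IsLocalRing.ResidueField A) N)}
    (hreg : ∀ v : m15_Pl N, placeReductionModL h v = Q → v.adicValuation f ≤ 1)
    (hQ : Q.ord g ≤ 1) {x x' : m15_Pl N} (hx : placeReductionModL h x = Q)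
    (hx' : placeReductionModL h x' = Q)
    (hxc : s15b_Cong x f (algebraMap Kb ↥(modularFunctionFieldBar N) (c : Kb)))
    (hxc' : s15b_Cong x' f (algebraMap Kb ↥(modularFunctionFieldBar N) (c : Kb))) : x = x' := by
  classical
  have hpair := s15b_isInt_sub_small hfg c hc
  have hne := s15b_isInt_ne_zero hpair hg
  obtain ⟨D, hD⟩ := s15b_exists_div _ hne
  have hcons := s15b_isInt_reduce h hpair hg D hD
  refine s15b_loc_unique (placeReductionModL h) D (Q := Q) ?_ (by rw [hcons]; exact hQ) hx hx' ?_ ?_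
  · intro v hv
    rw [hD]
    refine (s15b_val_le_one_iff_ord hne).mp ?_
    exact (Valuation.map_sub _ _ _).trans (max_le (hreg v hv) (s15b_val_const _))
  · rw [hD]
    exact (s15b_val_lt_one_iff_ord hne).mp hxc
  · rw [hD]
    exact (s15b_val_lt_one_iff_ord hne).mp hxc'

include hp hℓ hℓp hA h hw in
/-- **two places with the same values `(j₁, j₂)`, `j₁ ∉ A`, coincide.** -/
theorem s15b_unique_of_values {x x' : m15_Pl p} {j₁ j₂ : Kb}
    (hx : s15d_HasValues p x j₁ j₂) (hx' : s15d_HasValues p x' j₁ j₂) (hj₁ : j₁ ∉ A) :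
    x = x' := by
  classical
  obtain ⟨hB1, hB2, hB3, hB4, hB5⟩ := s15b_cuspL hp hℓ hℓp hA h hw
  obtain ⟨hC12, hC3⟩ := s15b_cuspL2 hp hℓ hℓp hA h hw
  have hj₁0 : j₁ ≠ 0 := fun h0 => hj₁ (h0 ▸ A.zero_mem)
  have hlt : 1 < A.valuation j₁ := by
    rw [← not_le, A.valuation_le_one_iff]
    exact hj₁
  have hexcl : A.valuation j₂ = A.valuation j₁ ^ p → A.valuation j₂ ^ p = A.valuation j₁ →
      False := by
    intro h1 h2
    rw [h1, ← pow_mul] at h2
    have h3 : A.valuation j₁ < A.valuation j₁ ^ (p * p) := by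
      calc A.valuation j₁ = A.valuation j₁ ^ 1 := (pow_one _).symm
        _ < A.valuation j₁ ^ (p * p) := pow_lt_pow_right₀ hlt (by nlinarith [hp.two_le])
    rw [h2] at h3
    exact lt_irrefl _ h3
  have hcase : (placeReductionModL h x = s15b_infb A p ∧
        placeReductionModL h x' = s15b_infb A p) ∨
      (placeReductionModL h x = placeReductionModL h (s15b_zero p w) ∧
        placeReductionModL h x' = placeReductionModL h (s15b_zero p w) ∧
          A.valuation j₂ ^ p = A.valuation j₁) := by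
    rcases s15b_dich hp hℓ hℓp hA h hw hx hj₁ with ⟨hr, h1⟩ | ⟨hr, h1⟩ <;>
    rcases s15b_dich hp hℓ hℓp hA h hw hx' hj₁ with ⟨hr', h1'⟩ | ⟨hr', h1'⟩
    · exact Or.inl ⟨hr, hr'⟩
    · exact (hexcl h1 h1').elim
    · exact (hexcl h1' h1).elim
    · exact Or.inr ⟨hr, hr', h1⟩
  rcases hcase with ⟨hr, hr'⟩ | ⟨hr, hr', hval⟩
  · -- both reduce to `∞̄`: use `J₁⁻¹ - j₁⁻¹`
    have hinvlt : A.valuation j₁⁻¹ < 1 := by
      rw [map_inv₀]
      exact inv_lt_one_of_one_lt₀ hlt
    have hinvA : j₁⁻¹ ∈ A := (A.valuation_le_one_iff _).mp hinvlt.le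
    have hci : ∀ y : m15_Pl p, s15d_HasValues p y j₁ j₂ →
        s15b_Cong y (s15d_J1 p)⁻¹ (algebraMap Kb ↥(modularFunctionFieldBar p) j₁⁻¹) := by
      intro y hy
      rw [map_inv₀]
      exact s15b_cong_inv (s15b_cong_of_ord hy.1) (s15b_val_const_eq hj₁0)
    refine s15b_unique_zero h (s15b_isInt_J1_inv A p) (inv_ne_zero (s15b_Jb1_ne_zero _ p))
      ⟨j₁⁻¹, hinvA⟩ hinvlt (Q := s15b_infb A p) ?_ ?_ hr hr' (hci x hx) (hci x' hx')
    · intro v hv
      apply s15b_val_le_one_of_ord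
      rw [Place.ord_inv]
      by_contra hneg
      exact (hB3 v (by omega)).1 hv
    · rw [Place.ord_inv, s15b_infb_ord_Jb1]
      norm_num
  · -- both reduce to `r(0)`: use `J₂⁻¹ - j₂⁻¹`
    have hj₂0 : j₂ ≠ 0 := by
      rintro rfl
      have h1 := hx.2
      rw [map_zero, sub_zero] at h1
      exact (hC12 x h1).2 hr
    have hlt2 : 1 < A.valuation j₂ := by
      by_contra hle
      rw [not_lt] at hle
      have : A.valuation j₂ ^ p ≤ 1 := pow_le_one₀ zero_le hle
      rw [hval] at this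
      exact absurd hlt (not_lt.mpr this)
    have hinvlt : A.valuation j₂⁻¹ < 1 := by
      rw [map_inv₀]
      exact inv_lt_one_of_one_lt₀ hlt2
    have hinvA : j₂⁻¹ ∈ A := (A.valuation_le_one_iff _).mp hinvlt.le
    have hci : ∀ y : m15_Pl p, s15d_HasValues p y j₁ j₂ →
        s15b_Cong y (s15d_J2 p)⁻¹ (algebraMap Kb ↥(modularFunctionFieldBar p) j₂⁻¹) := by
      intro y hy
      rw [map_inv₀]
      exact s15b_cong_inv (s15b_cong_of_ord hy.2) (s15b_val_const_eq hj₂0)
    refine s15b_unique_zero h (s15b_isInt_J2_inv A p) (inv_ne_zero (s15b_Jb2_ne_zero _ p))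
      ⟨j₂⁻¹, hinvA⟩ hinvlt (Q := placeReductionModL h (s15b_zero p w)) ?_ ?_ hr hr'
      (hci x hx) (hci x' hx')
    · intro v hv
      apply s15b_val_le_one_of_ord
      rw [Place.ord_inv]
      by_contra hneg
      exact (hC12 v (by omega)).2 hv
    · rw [hC3]

end Unique

/-! ### The contract `s15d_Place` (for `p ≥ 5`, given the place reductions at `2` and `3`) -/

/-- a rational number with negative `ℓ`-adic valuation does not lie in a valuation ring over `ℓ`. -/
theorem s15b_rat_not_mem {ℓ : ℕ} (hℓ : ℓ.Prime) {A : ValuationSubring Kb} (hA : A.LiesOverPrime ℓ)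
    {q : ℚ} (hq : padicValRat ℓ q < 0) : algebraMap ℚ Kb q ∉ A := by
  have hq0 : q ≠ 0 := by
    rintro rfl
    simp at hq
  rw [← A.valuation_le_one_iff, not_le, eq_ratCast,
    Fermat.Agent.Lib.Frey.ford_val_ratCast hℓ hA hq0]
  have hℓ0 : (ℓ : Kb) ≠ 0 := by exact_mod_cast hℓ.ne_zero
  have hg : A.valuation (ℓ : Kb) ≠ 0 := (Valuation.ne_zero_iff _).mpr hℓ0
  exact one_lt_zpow_of_neg₀ (zero_lt_iff.mpr hg) ((A.mem_nonunits_iff).mp hA) hq

/-- **[D-PLACE]** (for `p ≥ 5`): a place with rational values `(j₁, j₂)`, `j₁` non-integral at a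
prime `ℓ ≠ p`, is Galois-fixed. -/
theorem s15b_Place (h23 : m15_Red23) :
    ∀ (p : ℕ) [NeZero p], p.Prime → 5 ≤ p → ∀ (j₁ j₂ : ℚ) (x : m15_Pl p),
      s15d_HasValues p x (algebraMap ℚ Kb j₁) (algebraMap ℚ Kb j₂) →
        (∃ ℓ : ℕ, ℓ.Prime ∧ ℓ ≠ p ∧ padicValRat ℓ j₁ < 0) →
          ∀ σ : GQ, m15_gal p σ x = x := by
  intro p _ hp hp5 j₁ j₂ x hx ⟨ℓ, hℓ, hℓp, hval⟩ σ
  obtain ⟨w, hw⟩ := s15b_exists_al p hp
  obtain ⟨A, hA⟩ := Fermat.Agent.Lib.Mz.ptm_exists_liesOverPrime ℓ hℓ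
  haveI : Fact ℓ.Prime := ⟨hℓ⟩
  have hℓnp : ¬ ℓ ∣ p := fun hd => hℓp ((Nat.prime_dvd_prime_iff_eq hℓ hp).mp hd)
  have hred : ReductionInputsModL A p := by
    by_cases hℓ5 : 5 ≤ ℓ
    · obtain ⟨r, hr⟩ := Fermat.Agent.Lib.S37.s37r12_exists p ℓ hℓ ⟨hℓnp, Or.inl hℓ5⟩ A hA
      exact ⟨r, hr, Fermat.Agent.Lib.S37.s37g_principalGenerated p hℓnp A hA⟩
    · have h23' : ℓ = 2 ∨ ℓ = 3 := by
        have h2 := hℓ.two_le
        rw [not_le] at hℓ5
        interval_cases ℓ
        · exact Or.inl rfl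
        · exact Or.inr rfl
        · exact absurd hℓ (by norm_num)
      obtain ⟨r, hr⟩ := h23 p hp hp5 ℓ h23' A hA
      exact ⟨r, hr, Fermat.Agent.Lib.S37.s37g_principalGenerated p hℓnp A hA⟩
  exact s15b_unique_of_values hp hℓ hℓp hA hred hw (s15b_gal_hasValues σ hx) hx
    (s15b_rat_not_mem hℓ hA hval)

end Fermat.Agent.Lib.S15
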