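/-
Programme M (S15), node (A-conj)/(A1′), steps (C1)+(C2) (helper8, prefix `s15e_pk_`):
**`dim_𝕜 Hom_cusp(Γ₀(N), 𝕜) ≤ 2 g(X₀(N))` over an arbitrary field `𝕜` with `(6N : 𝕜) ≠ 0`.**

Port of `Lib/Period/ParDim.lean` (S21 WP D, over `ℂ`):

* `s15e_pk_finrank_ker_eq_card_orbits` : over ANY field, the invariants of the permutation operator
  `P g` on `X → 𝕜` have dimension the number of orbits of `⟨g⟩` on `X`;
* `s15e_pk_two_mul_card_orbits`, `s15e_pk_three_mul_card_orbits` : the counts of the orbits of an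
  element acting with square (cube) trivial — deduced from the complex case (`Lib/RR/G1Perm`);
* **`s15e_parDim`** : a subspace `H` of `Hom(Γ₀(N), 𝕜)` all of whose elements vanish on the
  conjugates `x⁻¹ T^N x ∈ Γ₀(N)` (`x ∈ SL₂(ℤ)`) has `dim H ≤ 2·genusFormula N`.
-/
import Fermat.Agent.Lib.S15.EPar1
import Fermat.Agent.Lib.Period.ParDim

set_option autoImplicit false
set_option linter.unusedSectionVars false

namespace Fermat.Agent.Lib.S15

open Module Matrix Matrix.SpecialLinearGroup CongruenceSubgroup ModularGroup ModularCurve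
  Fermat.Agent.Lib.Period

open scoped MatrixGroups

section Orbits

variable {𝕜 : Type} [Field 𝕜] {G : Type*} [Group G] {X : Type*} [MulAction G X]

/-- an invariant function is constant on the orbits of `⟨g⟩`. -/
theorem s15e_pk_inv_zpow {g : G} {v : X → 𝕜} (hv : ∀ x, v (g • x) = v x) (j : ℤ) (x : X) :
    v (g ^ j • x) = v x := by
  have hinv : ∀ x, v (g⁻¹ • x) = v x := by
    intro x
    have := hv (g⁻¹ • x)
    rw [smul_inv_smul] at this
    exact this.symm
  induction j using Int.induction_on generalizing x with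
  | zero => rw [zpow_zero, one_smul]
  | succ i ih => rw [_root_.zpow_add_one, mul_smul, ih, hv]
  | pred i ih => rw [_root_.zpow_sub_one, mul_smul, ih, hinv]

/-- **the invariants of a permutation operator have dimension the number of orbits**, over any
field. -/
theorem s15e_pk_finrank_ker_eq_card_orbits [Finite X] (g : G) :
    finrank 𝕜 (LinearMap.ker (s15e_pk_P g - LinearMap.id : (X → 𝕜) →ₗ[𝕜] (X → 𝕜))) =
      Nat.card (MulAction.orbitRel.Quotient (Subgroup.zpowers g) X) := by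
  classical
  set Ω := MulAction.orbitRel.Quotient (Subgroup.zpowers g) X with hΩ
  have : Fintype Ω := Fintype.ofFinite _
  set π : X → Ω := Quotient.mk'' with hπ
  have hπsurj : Function.Surjective π := Quotient.mk''_surjective
  have hπg : ∀ x : X, π (g • x) = π x := by
    intro x
    refine Quotient.sound' ?_
    exact ⟨⟨g, Subgroup.mem_zpowers g⟩, rfl⟩
  let ι : (Ω → 𝕜) →ₗ[𝕜] (X → 𝕜) := LinearMap.funLeft 𝕜 𝕜 π
  have hιinj : Function.Injective ι := LinearMap.funLeft_injective_of_surjective 𝕜 𝕜 π hπsurj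
  have heq : LinearMap.ker (s15e_pk_P g - LinearMap.id : (X → 𝕜) →ₗ[𝕜] (X → 𝕜)) =
      LinearMap.range ι := by
    apply le_antisymm
    · intro v hv
      rw [LinearMap.mem_ker, LinearMap.sub_apply, LinearMap.id_apply, sub_eq_zero] at hv
      have hv' : ∀ x, v (g • x) = v x := fun x => by
        have := congrFun hv x
        rwa [s15e_pk_P_apply] at this
      refine ⟨fun ω => v (Quotient.out ω), ?_⟩
      funext x
      show v (Quotient.out (π x)) = v x
      have h1 : π (Quotient.out (π x)) = π x := Quotient.out_eq' (π x)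
      have h2 : Quotient.out (π x) ∈ MulAction.orbit (Subgroup.zpowers g) x := by
        have := Quotient.exact' h1
        exact this
      obtain ⟨⟨h, hh⟩, hhx⟩ := h2
      obtain ⟨j, rfl⟩ := Subgroup.mem_zpowers_iff.mp hh
      have h3 : g ^ j • x = Quotient.out (π x) := hhx
      rw [← h3, s15e_pk_inv_zpow hv' j x]
    · rintro _ ⟨l, rfl⟩
      rw [LinearMap.mem_ker, LinearMap.sub_apply, LinearMap.id_apply, sub_eq_zero]
      funext x
      rw [s15e_pk_P_apply]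
      show l (π (g • x)) = l (π x)
      rw [hπg]
  rw [heq, LinearMap.finrank_range_of_inj hιinj, Module.finrank_fintype_fun_eq_card,
    Nat.card_eq_fintype_card]

/-- `pmD_P` is `s15e_pk_P` over `ℂ`. -/
theorem s15e_pk_P_complex (g : G) :
    (pmD_P g : (X → ℂ) →ₗ[ℂ] (X → ℂ)) = s15e_pk_P g := rfl

/-- If `g²` acts trivially then `2·#(orbits of g) = |X| + #Fix(g)`. -/
theorem s15e_pk_two_mul_card_orbits [Fintype X] (g : G) (hg : ∀ x : X, (g * g) • x = x) :
    2 * Nat.card (MulAction.orbitRel.Quotient (Subgroup.zpowers g) X) =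
      Fintype.card X + Nat.card (MulAction.fixedBy X g) := by
  rw [← s15e_pk_finrank_ker_eq_card_orbits (𝕜 := ℂ) g, ← s15e_pk_P_complex]
  exact pmD_two_mul_finrank_ker g hg

/-- If `g³` acts trivially then `3·#(orbits of g) = |X| + 2·#Fix(g)`. -/
theorem s15e_pk_three_mul_card_orbits [Fintype X] (g : G) (hg : ∀ x : X, (g * g * g) • x = x) :
    3 * Nat.card (MulAction.orbitRel.Quotient (Subgroup.zpowers g) X) =
      Fintype.card X + 2 * Nat.card (MulAction.fixedBy X g) := by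
  rw [← s15e_pk_finrank_ker_eq_card_orbits (𝕜 := ℂ) g, ← s15e_pk_P_complex]
  exact pmD_three_mul_finrank_ker g hg

end Orbits

section Concrete

variable (N : ℕ) (𝕜 : Type) [Field 𝕜]

/-- the value of the Shapiro cocycle at `T^N`. -/
theorem s15e_pk_hpar {ψ : Additive (Gamma0 N) →+ 𝕜}
    (hψ : ∀ (x : SL(2, ℤ)) (hmem : x⁻¹ * T ^ N * x ∈ Gamma0 N),
      ψ (Additive.ofMul (⟨x⁻¹ * T ^ N * x, hmem⟩ : Gamma0 N)) = 0) :
    s15e_pk_norm T N (s15e_pk_coc (Gamma0 N) T ψ) = 0 := by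
  have hc := (s15e_pk_isCoc_coc (Gamma0 N) ψ).pow T N
  rw [s15e_pk_norm_apply, ← hc]
  funext x
  have hx : T ^ N • x = x := Fermat.Agent.Lib.RR.Cosets.T_pow_smul N x
  have hmem : x.out⁻¹ * T ^ N * x.out ∈ Gamma0 N := by
    have := (s15e_pk_kappa (Gamma0 N) (T ^ N) x).2
    simp only [s15e_pk_kappa, hx] at this
    exact this
  rw [s15e_pk_coc_apply_of_smul_eq (Gamma0 N) hx ψ hmem, Pi.zero_apply]
  exact hψ x.out hmem

/-- **Dimension bound over a field**: a space of homomorphisms `Γ₀(N) → 𝕜` vanishing on the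
conjugates of `T^N` has dimension at most `2 g(X₀(N))`, provided `2, 3, N` are invertible in `𝕜`. -/
theorem s15e_parDim [NeZero N] (h2 : (2 : 𝕜) ≠ 0) (h3 : (3 : 𝕜) ≠ 0) (hN : (N : 𝕜) ≠ 0)
    (H : Submodule 𝕜 (Additive (Gamma0 N) →+ 𝕜))
    (hH : ∀ ψ ∈ H, ∀ (x : SL(2, ℤ)) (hmem : x⁻¹ * T ^ N * x ∈ Gamma0 N),
      ψ (Additive.ofMul (⟨x⁻¹ * T ^ N * x, hmem⟩ : Gamma0 N)) = 0) :
    (finrank 𝕜 H : ℚ) ≤ 2 * genusFormula N := by
  classical
  have : Fintype (SL(2, ℤ) ⧸ Gamma0 N) := Fintype.ofFinite _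
  have hneg : ∀ x : SL(2, ℤ) ⧸ Gamma0 N, (-1 : SL(2, ℤ)) • x = x :=
    s15e_pk_smul_eq_of_central (Gamma0 N) pmD_neg_one_central (pmD_neg_one_mem_Gamma0 N)
  have hcoc : ∀ ψ : Additive (Gamma0 N) →+ 𝕜, s15e_pk_coc (Gamma0 N) (-1) ψ = 0 :=
    s15e_pk_coc_central (Gamma0 N) h2 pmD_neg_one_central (pmD_neg_one_mem_Gamma0 N)
      pmD_neg_one_sq
  have h := s15e_pk_abstract_bound (Gamma0 N) S T h2 h3 SpecialLinearGroup.SL2Z_generators hN
    (Fermat.Agent.Lib.RR.Cosets.T_pow_smul N) H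
    (fun ψ _ => by rw [pmD_S_mul_S]; exact hcoc ψ)
    (fun ψ _ => by rw [pmD_ST_cube]; exact hcoc ψ)
    (fun ψ hψ => s15e_pk_hpar N 𝕜 (hH ψ hψ))
  have hS := s15e_pk_two_mul_card_orbits (X := SL(2, ℤ) ⧸ Gamma0 N) S
    (fun x => by rw [pmD_S_mul_S]; exact hneg x)
  have hU := s15e_pk_three_mul_card_orbits (X := SL(2, ℤ) ⧸ Gamma0 N) (S * T)
    (fun x => by rw [pmD_ST_cube]; exact hneg x)
  rw [Fermat.Agent.Lib.RR.Cosets.card_fixedBy_S] at hS
  rw [Fermat.Agent.Lib.RR.Cosets.card_fixedBy_ST] at hU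
  rw [Fermat.Agent.Lib.RR.Cosets.card_orbits_T,
    s15e_pk_finrank_ker_eq_card_orbits (𝕜 := 𝕜) (X := SL(2, ℤ) ⧸ Gamma0 N) S,
    s15e_pk_finrank_ker_eq_card_orbits (𝕜 := 𝕜) (X := SL(2, ℤ) ⧸ Gamma0 N) (S * T)] at h
  have hcard : Fintype.card (SL(2, ℤ) ⧸ Gamma0 N) = dedekindPsi N := by
    rw [← Nat.card_eq_fintype_card, Fermat.Agent.Lib.RR.Cosets.card_quotient_Gamma0]
  rw [hcard] at h hS hU
  have hq : (finrank 𝕜 H : ℚ) +
      (Nat.card (MulAction.orbitRel.Quotient (Subgroup.zpowers S) (SL(2, ℤ) ⧸ Gamma0 N)) : ℚ) +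
      (Nat.card (MulAction.orbitRel.Quotient (Subgroup.zpowers (S * T))
        (SL(2, ℤ) ⧸ Gamma0 N)) : ℚ) +
      (cuspCount N : ℚ) ≤ (dedekindPsi N : ℚ) + 2 := by
    exact_mod_cast h
  have hSq : (2 : ℚ) * (Nat.card (MulAction.orbitRel.Quotient (Subgroup.zpowers S)
      (SL(2, ℤ) ⧸ Gamma0 N)) : ℚ) = (dedekindPsi N : ℚ) + (nuTwo N : ℚ) := by
    exact_mod_cast hS
  have hUq : (3 : ℚ) * (Nat.card (MulAction.orbitRel.Quotient (Subgroup.zpowers (S * T))
      (SL(2, ℤ) ⧸ Gamma0 N)) : ℚ) = (dedekindPsi N : ℚ) + 2 * (nuThree N : ℚ) := by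
    exact_mod_cast hU
  rw [genusFormula]
  linarith

end Concrete

end Fermat.Agent.Lib.S15
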