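/-
Programme M (S15), node (A-conj)/(A1′), step (C4) (helper8, prefix `s15e_`): **the count
`|J₀(N)[ℓ]| ≤ ℓ^{rank Λ}` from the cusp lemma (C3).**

* `s15e_rank_lattice` : `rank_ℤ Λ = 2·genusFormula N` for `Λ = s29s_M N = Hom_par(Γ₀(N), ℤ)`
  (lattice basis ⇒ `ℂ`-basis of `Hom_par(Γ₀(N), ℂ)` (`s30e_basisC`), S21 (`s30e_Phi`), S20);
* `s15e_cuspHoms N 𝕜` : the characters `Γ₀(N) → 𝕜` vanishing on the conjugates `x⁻¹ T^N x`;
* **`s15e_count_of_cusp`** : if the Kummer map `κ_ℓ` (`s30k_kappa N ℓ`) takes its values in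
  `s15e_cuspHoms N (ZMod ℓ)` (the cusp lemma (C3)) and `ℓ ∤ 6N`, then
  `|J₀(N)[ℓ]| ≤ ℓ ^ rank_ℤ Λ` — this is `m15c_count` of helper1's #3160.
-/
import Fermat.Agent.Lib.S15.EPar2
import Fermat.Agent.Lib.S30.EigLattice
import Fermat.Agent.Lib.S30.KN
import Fermat.Agent.S20

set_option autoImplicit false
set_option linter.unusedSectionVars false
set_option linter.style.haveILetI false

namespace Fermat.Agent.Lib.S15

open Module Matrix Matrix.SpecialLinearGroup CongruenceSubgroup ModularGroup ModularCurve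
  Fermat.Agent.Lib.Period Fermat.Agent.Lib.S29 Fermat.Agent.Lib.S30

open scoped MatrixGroups

noncomputable section

/-- **`rank_ℤ Hom_par(Γ₀(N), ℤ) = 2 g(X₀(N))`.** -/
theorem s15e_rank_lattice (N : ℕ) [NeZero N] :
    (finrank ℤ ↥(s29s_M N) : ℚ) = 2 * genusFormula N := by
  set b := Module.finBasis ℤ ↥(s29s_M N) with hb
  haveI : FiniteDimensional ℂ (s30e_P N) := s30e_finiteDimensional_P b
  have h1 : finrank ℂ (s30e_P N) = finrank ℤ ↥(s29s_M N) := by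
    rw [Module.finrank_eq_card_basis (s30e_basisC b), Fintype.card_fin]
  have h2 : finrank ℂ (CuspForm (Gamma0 N) 2 × CuspForm (Gamma0 N) 2) = finrank ℂ (s30e_P N) :=
    LinearEquiv.finrank_eq (s30e_Phi N)
  haveI : FiniteDimensional ℂ (CuspForm (Gamma0 N) 2 × CuspForm (Gamma0 N) 2) :=
    Module.Finite.equiv (s30e_Phi N).symm
  haveI : FiniteDimensional ℂ (CuspForm (Gamma0 N) 2) :=
    Module.Finite.of_injective (LinearMap.inl ℂ (CuspForm (Gamma0 N) 2) (CuspForm (Gamma0 N) 2))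
      LinearMap.inl_injective
  rw [Module.finrank_prod] at h2
  have h3 := Fermat.Agent.S20.result N
  rw [← h1, ← h2, ← h3]
  push_cast
  ring

/-- the characters `Γ₀(N) → 𝕜` vanishing on the conjugates of `T^N`. -/
def s15e_cuspHoms (N : ℕ) (𝕜 : Type) [Field 𝕜] : Submodule 𝕜 (Additive (Gamma0 N) →+ 𝕜) where
  carrier := {ψ | ∀ (x : SL(2, ℤ)) (hmem : x⁻¹ * T ^ N * x ∈ Gamma0 N),
    ψ (Additive.ofMul (⟨x⁻¹ * T ^ N * x, hmem⟩ : Gamma0 N)) = 0}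
  zero_mem' := fun _ _ => rfl
  add_mem' := by
    intro φ ψ hφ hψ x hmem
    show φ _ + ψ _ = 0
    rw [hφ x hmem, hψ x hmem, add_zero]
  smul_mem' := by
    intro c φ hφ x hmem
    show c • φ _ = 0
    rw [hφ x hmem, smul_zero]

theorem s15e_mem_cuspHoms {N : ℕ} {𝕜 : Type} [Field 𝕜] {ψ : Additive (Gamma0 N) →+ 𝕜} :
    ψ ∈ s15e_cuspHoms N 𝕜 ↔ ∀ (x : SL(2, ℤ)) (hmem : x⁻¹ * T ^ N * x ∈ Gamma0 N),
      ψ (Additive.ofMul (⟨x⁻¹ * T ^ N * x, hmem⟩ : Gamma0 N)) = 0 := Iff.rfl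

/-- **(C4)**: the count of the `ℓ`-torsion of `J₀(N)` from the cusp lemma. -/
theorem s15e_count_of_cusp (N : ℕ) [NeZero N] (ℓ : ℕ) [hℓ : Fact ℓ.Prime] [NeZero ℓ]
    (h6 : ¬ ℓ ∣ 6 * N)
    (hC3 : ∀ y : s29k_Jp N ℓ, s30k_kappa N ℓ y ∈ s15e_cuspHoms N (ZMod ℓ)) :
    Nat.card (s29k_Jp N ℓ) ≤ ℓ ^ finrank ℤ ↥(s29s_M N) := by
  have hne : ∀ m : ℕ, m ∣ 6 * N → ((m : ℕ) : ZMod ℓ) ≠ 0 := by
    intro m hm h0
    rw [ZMod.natCast_eq_zero_iff] at h0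
    exact h6 (h0.trans hm)
  have h2 : (2 : ZMod ℓ) ≠ 0 := by
    have := hne 2 (Dvd.dvd.mul_right (by norm_num) N)
    exact_mod_cast this
  have h3 : (3 : ZMod ℓ) ≠ 0 := by
    have := hne 3 (Dvd.dvd.mul_right (by norm_num) N)
    exact_mod_cast this
  have hN : ((N : ℕ) : ZMod ℓ) ≠ 0 := hne N (Dvd.intro_left 6 rfl)
  set H := s15e_cuspHoms N (ZMod ℓ) with hH
  have hdim : (finrank (ZMod ℓ) H : ℚ) ≤ 2 * genusFormula N :=
    s15e_parDim N (ZMod ℓ) h2 h3 hN H (fun ψ hψ => hψ)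
  rw [← s15e_rank_lattice N] at hdim
  have hdim' : finrank (ZMod ℓ) H ≤ finrank ℤ ↥(s29s_M N) := by exact_mod_cast hdim
  haveI hfin : Module.Finite (ZMod ℓ) (Additive (Gamma0 N) →+ ZMod ℓ) :=
    s15e_pk_finite_hom (Gamma0 N) S T SpecialLinearGroup.SL2Z_generators
  haveI hfinH : Module.Finite (ZMod ℓ) ↥H :=
    Module.Finite.of_injective H.subtype H.injective_subtype
  haveI : Finite ↥H := Module.finite_of_finite (ZMod ℓ)
  have hcardH : Nat.card ↥H = ℓ ^ finrank (ZMod ℓ) ↥H := by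
    rw [Module.natCard_eq_pow_finrank (K := ZMod ℓ) (V := ↥H), Nat.card_zmod]
  -- `κ_ℓ` embeds `J[ℓ]` into `H`
  let f : s29k_Jp N ℓ → ↥H := fun y => ⟨s30k_kappa N ℓ y, hC3 y⟩
  have hf : Function.Injective f := by
    intro y y' hyy'
    exact s30k_kappa_injective N ℓ (congrArg Subtype.val hyy')
  calc Nat.card (s29k_Jp N ℓ) ≤ Nat.card ↥H := Nat.card_le_card_of_injective f hf
    _ = ℓ ^ finrank (ZMod ℓ) ↥H := hcardH
    _ ≤ ℓ ^ finrank ℤ ↥(s29s_M N) := Nat.pow_le_pow_right hℓ.out.pos hdim'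

end

end Fermat.Agent.Lib.S15
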