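/-
(M) programme for S15, node (A2), curve-free part (helper1, prefix `m15k_`):
**a Noether–Deuring lemma in matrix form.**

`m15k_nd` : integer matrices `A i`, `B i` and a complex matrix `X` with `det X ≠ 0` and
`X * A i = B i * X` for all `i`; then there is an INTEGER matrix `Y` with `det Y ≠ 0` and
`Y * A i = B i * Y` for all `i`.

Proof: the entries of `X` span a finite-dimensional `ℚ`-subspace `U ⊆ ℂ`; in a `ℚ`-basis `u` of
`U`, `X = ∑ u_j X_j` with rational matrices `X_j`, each of which intertwines (linear independence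
of the `u_j` over `ℚ`); `det (∑ x_j X_j)` is a polynomial over `ℚ` which does not vanish at
`x = u`, hence not at some rational point (`MvPolynomial.funext`); clear denominators.
-/
import Mathlib

set_option autoImplicit false
set_option linter.unusedSectionVars false
set_option linter.unusedVariables false

noncomputable section

namespace Fermat.Agent.Lib.S15

open Matrix

section Denominators

variable {n : Type*} [Fintype n] [DecidableEq n]

/-- a rational matrix has an integral non-zero multiple. -/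
theorem m15k_clear_denominators (Yq : Matrix n n ℚ) :
    ∃ (D : ℕ) (Y : Matrix n n ℤ), D ≠ 0 ∧ Y.map (Int.castRingHom ℚ) = (D : ℚ) • Yq := by
  classical
  set D : ℕ := ∏ p : n × n, (Yq p.1 p.2).den with hD
  have hD0 : D ≠ 0 := Finset.prod_ne_zero_iff.mpr fun p _ => (Yq p.1 p.2).den_nz
  have hint : ∀ a b : n, ∃ z : ℤ, (z : ℚ) = (D : ℚ) * Yq a b := by
    intro a b
    have hdvd : (Yq a b).den ∣ D :=
      Finset.dvd_prod_of_mem (fun p : n × n => (Yq p.1 p.2).den) (Finset.mem_univ (a, b))
    obtain ⟨D', hD'⟩ := hdvd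
    refine ⟨(D' : ℤ) * (Yq a b).num, ?_⟩
    have h1 : (Yq a b) * ((Yq a b).den : ℚ) = ((Yq a b).num : ℚ) := Rat.mul_den_eq_num _
    rw [hD']
    push_cast
    rw [← h1]
    ring
  choose z hz using hint
  refine ⟨D, Matrix.of fun a b => z a b, hD0, ?_⟩
  ext a b
  rw [Matrix.map_apply, Matrix.of_apply, Matrix.smul_apply, smul_eq_mul]
  exact hz a b

end Denominators

section ND

variable {n : Type*} [Fintype n] [DecidableEq n] {I : Type*}

/-- **Noether–Deuring, matrix form.** -/
theorem m15k_nd (A B : I → Matrix n n ℤ) (X : Matrix n n ℂ)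
    (hX : ∀ i, X * (A i).map (Int.castRingHom ℂ) = (B i).map (Int.castRingHom ℂ) * X)
    (hdet : X.det ≠ 0) :
    ∃ Y : Matrix n n ℤ, (∀ i, Y * A i = B i * Y) ∧ Y.det ≠ 0 := by
  classical
  -- the `ℚ`-span of the entries
  set U : Submodule ℚ ℂ := Submodule.span ℚ (Set.range fun p : n × n => X p.1 p.2) with hU
  haveI : FiniteDimensional ℚ U := FiniteDimensional.span_of_finite ℚ (Set.finite_range _)
  set k := Module.finrank ℚ U with hk
  let u : Module.Basis (Fin k) ℚ U := Module.finBasis ℚ U
  have hmem : ∀ a b : n, X a b ∈ U := fun a b =>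
    Submodule.subset_span ⟨(a, b), rfl⟩
  -- coordinates
  let c : n → n → Fin k → ℚ := fun a b j => u.repr ⟨X a b, hmem a b⟩ j
  have hXc : ∀ a b : n, X a b = ∑ j, (c a b j : ℂ) * (u j : ℂ) := by
    intro a b
    have h := u.sum_repr ⟨X a b, hmem a b⟩
    have h2 := congrArg (fun x : U => (x : ℂ)) h
    simp only [Submodule.coe_sum, Submodule.coe_smul] at h2
    rw [← h2]
    refine Finset.sum_congr rfl fun j _ => ?_
    rw [Rat.smul_def]
  -- linear independence of the `u j` in `ℂ`
  have hli : LinearIndependent ℚ (fun j => (u j : ℂ)) :=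
    u.linearIndependent.map' U.subtype (Submodule.ker_subtype U)
  have hli' : ∀ g : Fin k → ℚ, ∑ j, (g j : ℂ) * (u j : ℂ) = 0 → ∀ j, g j = 0 := by
    intro g hg
    refine Fintype.linearIndependent_iff.mp hli g ?_
    rw [← hg]
    refine Finset.sum_congr rfl fun j _ => ?_
    rw [Rat.smul_def]
  -- the rational matrices
  let Xj : Fin k → Matrix n n ℚ := fun j => Matrix.of fun a b => c a b j
  have hXj : ∀ (i : I) (j : Fin k),
      Xj j * (A i).map (Int.castRingHom ℚ) = (B i).map (Int.castRingHom ℚ) * Xj j := by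
    intro i j
    ext a b
    have hab := congrFun (congrFun (hX i) a) b
    rw [Matrix.mul_apply, Matrix.mul_apply] at hab
    have key := hli' (fun j => ∑ m, c a m j * ((A i m b : ℤ) : ℚ) -
      ∑ m, ((B i a m : ℤ) : ℚ) * c m b j) ?_ j
    · rw [Matrix.mul_apply, Matrix.mul_apply]
      simp only [Matrix.map_apply, Matrix.of_apply, Xj, eq_intCast]
      exact sub_eq_zero.mp key
    · have e1 : ∑ m, X a m * ((A i).map (Int.castRingHom ℂ)) m b =
          ∑ j, ((∑ m, c a m j * ((A i m b : ℤ) : ℚ) : ℚ) : ℂ) * (u j : ℂ) := by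
        simp only [Matrix.map_apply, eq_intCast]
        simp_rw [hXc a, Finset.sum_mul]
        rw [Finset.sum_comm]
        refine Finset.sum_congr rfl fun j _ => ?_
        push_cast
        rw [Finset.sum_mul]
        refine Finset.sum_congr rfl fun m _ => ?_
        ring
      have e2 : ∑ m, ((B i).map (Int.castRingHom ℂ)) a m * X m b =
          ∑ j, ((∑ m, ((B i a m : ℤ) : ℚ) * c m b j : ℚ) : ℂ) * (u j : ℂ) := by
        simp only [Matrix.map_apply, eq_intCast]
        simp_rw [hXc _ b, Finset.mul_sum]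
        rw [Finset.sum_comm]
        refine Finset.sum_congr rfl fun j _ => ?_
        push_cast
        rw [Finset.sum_mul]
        refine Finset.sum_congr rfl fun m _ => ?_
        ring
      rw [e1, e2] at hab
      simp only [Rat.cast_sub, sub_mul, Finset.sum_sub_distrib]
      rw [hab, sub_self]
  -- the polynomial
  let Mx : Matrix n n (MvPolynomial (Fin k) ℚ) :=
    ∑ j, (MvPolynomial.X j : MvPolynomial (Fin k) ℚ) • (Xj j).map MvPolynomial.C
  have hMx : ∀ a b, Mx a b = ∑ j, (MvPolynomial.X j : MvPolynomial (Fin k) ℚ) *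
      MvPolynomial.C (c a b j) := by
    intro a b
    simp only [Mx, Matrix.sum_apply, Matrix.smul_apply, Matrix.map_apply, Matrix.of_apply, Xj,
      smul_eq_mul]
  set P : MvPolynomial (Fin k) ℚ := Mx.det with hP
  have hPne : P ≠ 0 := by
    intro hP0
    apply hdet
    have h1 : (MvPolynomial.aeval (fun j => (u j : ℂ)) : MvPolynomial (Fin k) ℚ →ₐ[ℚ] ℂ) P =
        ((MvPolynomial.aeval (fun j => (u j : ℂ)) : MvPolynomial (Fin k) ℚ →ₐ[ℚ] ℂ).mapMatrix
          Mx).det := AlgHom.map_det _ _
    have h2 : (MvPolynomial.aeval (fun j => (u j : ℂ)) : MvPolynomial (Fin k) ℚ →ₐ[ℚ] ℂ).mapMatrix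
        Mx = X := by
      ext a b
      rw [AlgHom.mapMatrix_apply, Matrix.map_apply, hMx, map_sum, hXc a b]
      refine Finset.sum_congr rfl fun j _ => ?_
      rw [map_mul, MvPolynomial.aeval_X, MvPolynomial.aeval_C, mul_comm]
      rfl
    rw [h2, hP0, map_zero] at h1
    exact h1.symm
  obtain ⟨x, hx⟩ : ∃ x : Fin k → ℚ, MvPolynomial.eval x P ≠ 0 := by
    by_contra hcon
    push_neg at hcon
    exact hPne (MvPolynomial.funext fun x => by rw [hcon x, map_zero])
  -- the rational solution
  set Yq : Matrix n n ℚ := ∑ j, x j • Xj j with hYq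
  have hYqdet : Yq.det ≠ 0 := by
    have h1 : MvPolynomial.eval x P = ((MvPolynomial.eval x).mapMatrix Mx).det :=
      RingHom.map_det _ _
    have h2 : (MvPolynomial.eval x).mapMatrix Mx = Yq := by
      ext a b
      rw [RingHom.mapMatrix_apply, Matrix.map_apply, hMx, map_sum, hYq, Matrix.sum_apply]
      refine Finset.sum_congr rfl fun j _ => ?_
      rw [map_mul, MvPolynomial.eval_X, MvPolynomial.eval_C, Matrix.smul_apply, smul_eq_mul]
      rfl
    rw [h2] at h1
    rw [← h1]
    exact hx
  have hYqc : ∀ i : I,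
      Yq * (A i).map (Int.castRingHom ℚ) = (B i).map (Int.castRingHom ℚ) * Yq := by
    intro i
    rw [hYq, Finset.sum_mul, Finset.mul_sum]
    refine Finset.sum_congr rfl fun j _ => ?_
    rw [Matrix.smul_mul, Matrix.mul_smul, hXj i j]
  -- clear denominators
  obtain ⟨D, Y, hD0, hY⟩ := m15k_clear_denominators Yq
  have hinj : Function.Injective (fun M : Matrix n n ℤ => M.map (Int.castRingHom ℚ)) :=
    Matrix.map_injective (RingHom.injective_int (Int.castRingHom ℚ))
  refine ⟨Y, fun i => ?_, ?_⟩
  · apply hinj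
    show (Y * A i).map (Int.castRingHom ℚ) = (B i * Y).map (Int.castRingHom ℚ)
    rw [Matrix.map_mul, Matrix.map_mul, hY, Matrix.smul_mul, Matrix.mul_smul, hYqc i]
  · intro h0
    have h1 : (Int.castRingHom ℚ) Y.det = ((Int.castRingHom ℚ).mapMatrix Y).det :=
      RingHom.map_det _ _
    rw [RingHom.mapMatrix_apply, hY, Matrix.det_smul, h0, map_zero] at h1
    have h2 : (D : ℚ) ^ Fintype.card n ≠ 0 := pow_ne_zero _ (Nat.cast_ne_zero.mpr hD0)
    exact mul_ne_zero h2 hYqdet h1.symm

end ND

end Fermat.Agent.Lib.S15
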