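/-
(M) programme for S15, node (A2) (helper1, prefix `m15k_`): **an injective Hecke-equivariant
endomorphism `Ψ` of the lattice `Λ = H_par(Γ₀(N), ℤ)` (`s29s_M N`) which ANTI-commutes with `ι^*`**
(`ι(γ) = δ γ δ`, `δ = diag(1, -1)`; `ι^* =` the Prelude's `charInvolution`).  Consequently the two
eigenlattices `Λ^{ι^* = ±1}` are isogenous Hecke modules (`m15k_A2_pm`, `m15k_A2_mp`).

No analysis is needed: the Prelude's period pairing is
`periodHomPair N (f, g) = (1 + ι^*) χ_f + (1 - ι^*) χ_g`, and the landed S21 says it is an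
isomorphism `Φ : S₂ × S₂ ≃ P := Hom_par(Γ₀(N), ℂ)`; so `ι^* Φ(f, g) = Φ(f, -g)` and
`J := Φ ∘ swap ∘ Φ⁻¹` is a `ℂ`-linear involution of `P` which anticommutes with `ι^*` and commutes
with every `T_ℓ^H` (landed `s30e_heckeHom_periodHomPair`).  In the `ℂ`-basis of `P` given by a
`ℤ`-basis of `Λ` (`s30e_basisC`) the operators `T_ℓ^H`, `ι^*` have INTEGER matrices, and the
Noether–Deuring lemma `m15k_nd` (KND.lean) produces an integer matrix `Y`, `det Y ≠ 0`, with the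
same intertwining relations.
-/
import Fermat.Agent.Lib.S30.EigLattice
import Fermat.Agent.Lib.S15.KND

set_option autoImplicit false
set_option linter.unusedSectionVars false
set_option linter.unusedVariables false
set_option linter.style.haveILetI false

noncomputable section

namespace Fermat.Agent.Lib.S15

open CongruenceSubgroup ModularCurve ModularCurve.Period Fermat.Agent.Lib.S29 Fermat.Agent.Lib.S30
  Fermat.Agent.Lib.Period Matrix

section Ops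

variable (N : ℕ) [NeZero N]

/-- `ι^*` on the lattice `Λ = H_par(Γ₀(N), ℤ)`. -/
def m15k_iotaM : Module.End ℤ (s29s_M N) :=
  (charInvolution N ℤ ℤ).restrict fun χ hχ =>
    s29h_mem_Hpar_of_parabolic (charInvolution_mem_parabolicHoms N ℤ ℤ hχ.1)

theorem m15k_iotaM_coe (χ : s29s_M N) :
    ((m15k_iotaM N χ : s29s_M N) : Additive (Gamma0 N) →+ ℤ) =
      charInvolution N ℤ ℤ (χ : Additive (Gamma0 N) →+ ℤ) := rfl

/-- `ι^*` on `P = Hom_par(Γ₀(N), ℂ)`. -/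
def m15k_iotaP : Module.End ℂ (s30e_P N) :=
  (charInvolution N ℂ ℂ).restrict fun χ hχ => charInvolution_mem_parabolicHoms N ℂ ℂ hχ

theorem m15k_iotaP_coe (χ : s30e_P N) :
    ((m15k_iotaP N χ : s30e_P N) : Additive (Gamma0 N) →+ ℂ) =
      charInvolution N ℂ ℂ (χ : Additive (Gamma0 N) →+ ℂ) := rfl

/-- `T_ℓ^H` on `P`. -/
def m15k_TP (ℓ : ℕ) [Fact ℓ.Prime] : Module.End ℂ (s30e_P N) :=
  (s29h_heckeLin N ℓ ℂ ℂ).restrict fun χ hχ => s29h_heckeHom_isParabolic hχ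

theorem m15k_TP_coe (ℓ : ℕ) [Fact ℓ.Prime] (χ : s30e_P N) :
    ((m15k_TP N ℓ χ : s30e_P N) : Additive (Gamma0 N) →+ ℂ) =
      s29h_heckeHom N ℓ ℂ (χ : Additive (Gamma0 N) →+ ℂ) := rfl

/-- the swap involution `J = Φ ∘ swap ∘ Φ⁻¹` of `P`. -/
def m15k_J : Module.End ℂ (s30e_P N) :=
  ((s30e_Phi N).symm.trans ((LinearEquiv.prodComm ℂ _ _).trans (s30e_Phi N))).toLinearMap

theorem m15k_J_Phi (f g : CuspForm (Gamma0 N) 2) :
    m15k_J N (s30e_Phi N (f, g)) = s30e_Phi N (g, f) := by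
  simp [m15k_J]

theorem m15k_J_J (x : s30e_P N) : m15k_J N (m15k_J N x) = x := by
  obtain ⟨⟨f, g⟩, rfl⟩ := (s30e_Phi N).surjective x
  rw [m15k_J_Phi, m15k_J_Phi]

/-- `ι^* Φ(f, g) = Φ(f, -g)`. -/
theorem m15k_iotaP_Phi (f g : CuspForm (Gamma0 N) 2) :
    m15k_iotaP N (s30e_Phi N (f, g)) = s30e_Phi N (f, -g) := by
  apply Subtype.ext
  rw [m15k_iotaP_coe, s30e_Phi_coe, s30e_Phi_coe, pmP_periodHomPair_eq]
  simp only [LinearMap.coprod_apply, LinearMap.comp_apply, LinearMap.add_apply,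
    LinearMap.sub_apply, LinearMap.id_apply, map_add, map_sub, map_neg,
    charInvolution_charInvolution]
  abel

/-- `T_ℓ^H Φ(f, g) = Φ(T_ℓ f, T_ℓ g)`. -/
theorem m15k_TP_Phi {ℓ : ℕ} [Fact ℓ.Prime] (hℓ : ℓ.Prime) (hℓN : ¬ ℓ ∣ N)
    (f g : CuspForm (Gamma0 N) 2) :
    m15k_TP N ℓ (s30e_Phi N (f, g)) =
      s30e_Phi N (CuspForm.heckeTLin 2 hℓ hℓN f, CuspForm.heckeTLin 2 hℓ hℓN g) := by
  apply Subtype.ext
  rw [m15k_TP_coe, s30e_Phi_coe, s30e_Phi_coe]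
  exact s30e_heckeHom_periodHomPair hℓ hℓN f g

/-- `J` commutes with `T_ℓ^H`. -/
theorem m15k_J_TP (ℓ : ℕ) [hℓ : Fact ℓ.Prime] :
    m15k_J N * m15k_TP N ℓ = m15k_TP N ℓ * m15k_J N := by
  refine LinearMap.ext fun x => ?_
  rw [Module.End.mul_apply, Module.End.mul_apply]
  by_cases hℓN : ℓ ∣ N
  · have h0 : ∀ y : s30e_P N, m15k_TP N ℓ y = 0 := fun y => by
      apply Subtype.ext
      rw [m15k_TP_coe, s29h_heckeHom_of_dvd hℓN]
      rfl
    rw [h0, h0, map_zero]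
  · obtain ⟨⟨f, g⟩, rfl⟩ := (s30e_Phi N).surjective x
    rw [m15k_TP_Phi N hℓ.out hℓN, m15k_J_Phi, m15k_J_Phi, m15k_TP_Phi N hℓ.out hℓN]

/-- `J` anticommutes with `ι^*`. -/
theorem m15k_J_iotaP : m15k_J N * m15k_iotaP N = -(m15k_iotaP N * m15k_J N) := by
  refine LinearMap.ext fun x => ?_
  rw [LinearMap.neg_apply, Module.End.mul_apply, Module.End.mul_apply]
  obtain ⟨⟨f, g⟩, rfl⟩ := (s30e_Phi N).surjective x
  rw [m15k_iotaP_Phi, m15k_J_Phi, m15k_J_Phi, m15k_iotaP_Phi, ← map_neg]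
  congr 1
  simp

end Ops

section Matrices

variable {N : ℕ} [NeZero N] {r : ℕ} (b : Module.Basis (Fin r) ℤ (s29s_M N))

/-- the matrix of an endomorphism of `P` in the basis `basisC b`, from its values. -/
theorem m15k_toMatrix_eq_of_apply (f : Module.End ℂ (s30e_P N)) (m : Matrix (Fin r) (Fin r) ℂ)
    (h : ∀ j, ((f (s30e_basisC b j) : s30e_P N) : Additive (Gamma0 N) →+ ℂ) =
      ∑ i, m i j • s29s_castB b ℂ i) :
    LinearMap.toMatrix (s30e_basisC b) (s30e_basisC b) f = m := by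
  ext i j
  rw [LinearMap.toMatrix_apply]
  have h1 : f (s30e_basisC b j) = ∑ i, m i j • s30e_basisC b i := by
    apply Subtype.ext
    rw [h j, Submodule.coe_sum]
    refine Finset.sum_congr rfl fun i _ => ?_
    rw [Submodule.coe_smul, s30e_basisC_apply]
    rfl
  rw [h1, Module.Basis.repr_sum_self]

/-- the matrix of `ι^*` on the lattice. -/
def m15k_iotaMat : Matrix (Fin r) (Fin r) ℤ := LinearMap.toMatrix b b (m15k_iotaM N)

theorem m15k_iotaM_basis (j : Fin r) :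
    charInvolution N ℤ ℤ (b j : Additive (Gamma0 N) →+ ℤ) =
      ∑ i, m15k_iotaMat b i j • (b i : Additive (Gamma0 N) →+ ℤ) := by
  have h := b.sum_repr (m15k_iotaM N (b j))
  have h2 := congrArg (fun x : s29s_M N => (x : Additive (Gamma0 N) →+ ℤ)) h
  simp only [Submodule.coe_sum, Submodule.coe_smul, m15k_iotaM_coe] at h2
  rw [← h2]
  refine Finset.sum_congr rfl fun i _ => ?_
  rw [m15k_iotaMat, LinearMap.toMatrix_apply]

theorem m15k_charInvolution_cast (χ : Additive (Gamma0 N) →+ ℤ) :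
    charInvolution N ℂ ℂ (s29s_cast ℂ χ) = s29s_cast ℂ (charInvolution N ℤ ℤ χ) := rfl

theorem m15k_toMatrix_iotaP :
    LinearMap.toMatrix (s30e_basisC b) (s30e_basisC b) (m15k_iotaP N) =
      (m15k_iotaMat b).map (Int.castRingHom ℂ) := by
  refine m15k_toMatrix_eq_of_apply b _ _ fun j => ?_
  rw [m15k_iotaP_coe, s30e_basisC_apply]
  show charInvolution N ℂ ℂ (s29s_cast ℂ (b j : Additive (Gamma0 N) →+ ℤ)) = _
  rw [m15k_charInvolution_cast, m15k_iotaM_basis, map_sum]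
  refine Finset.sum_congr rfl fun i _ => ?_
  rw [s29s_cast_zsmul, Matrix.map_apply]
  rfl

theorem m15k_toMatrix_TP (ℓ : ℕ) [Fact ℓ.Prime] :
    LinearMap.toMatrix (s30e_basisC b) (s30e_basisC b) (m15k_TP N ℓ) =
      (s29s_heckeMat b ℓ).map (Int.castRingHom ℂ) := by
  refine m15k_toMatrix_eq_of_apply b _ _ fun j => ?_
  rw [m15k_TP_coe, s30e_basisC_apply]
  show s29h_heckeHom N ℓ ℂ (s29s_castB b ℂ j) = _
  rw [s29s_heckeHom_castB]
  refine Finset.sum_congr rfl fun i _ => ?_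
  rw [Matrix.map_apply]
  rfl

end Matrices

section Main

variable (N : ℕ) [NeZero N]

/-- `T_ℓ^H` commutes with `ι^*` on `P`. -/
theorem m15k_TP_iotaP (ℓ : ℕ) [hℓ : Fact ℓ.Prime] :
    m15k_TP N ℓ * m15k_iotaP N = m15k_iotaP N * m15k_TP N ℓ := by
  refine LinearMap.ext fun x => ?_
  rw [Module.End.mul_apply, Module.End.mul_apply]
  by_cases hℓN : ℓ ∣ N
  · have h0 : ∀ y : s30e_P N, m15k_TP N ℓ y = 0 := fun y => by
      apply Subtype.ext
      rw [m15k_TP_coe, s29h_heckeHom_of_dvd hℓN]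
      rfl
    rw [h0, h0, map_zero]
  · obtain ⟨⟨f, g⟩, rfl⟩ := (s30e_Phi N).surjective x
    rw [m15k_iotaP_Phi, m15k_TP_Phi N hℓ.out hℓN, m15k_TP_Phi N hℓ.out hℓN, m15k_iotaP_Phi,
      map_neg]

/-- **`T_ℓ^H` commutes with `ι^*` on the lattice.** -/
theorem m15k_T_iotaM (ℓ : ℕ) [Fact ℓ.Prime] :
    s29h_heckeHpar N ℓ ℤ ℤ * m15k_iotaM N = m15k_iotaM N * s29h_heckeHpar N ℓ ℤ ℤ := by
  classical
  set r := Module.finrank ℤ (s29s_M N) with hr
  let b : Module.Basis (Fin r) ℤ (s29s_M N) := Module.finBasis ℤ (s29s_M N)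
  apply (LinearMap.toMatrix b b).injective
  rw [LinearMap.toMatrix_mul, LinearMap.toMatrix_mul]
  have hinj : Function.Injective
      (fun M : Matrix (Fin r) (Fin r) ℤ => M.map (Int.castRingHom ℂ)) :=
    Matrix.map_injective (RingHom.injective_int (Int.castRingHom ℂ))
  apply hinj
  show (s29s_heckeMat b ℓ * m15k_iotaMat b).map (Int.castRingHom ℂ) =
    (m15k_iotaMat b * s29s_heckeMat b ℓ).map (Int.castRingHom ℂ)
  rw [Matrix.map_mul, Matrix.map_mul, ← m15k_toMatrix_TP, ← m15k_toMatrix_iotaP,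
    ← LinearMap.toMatrix_mul, ← LinearMap.toMatrix_mul, m15k_TP_iotaP]

/-- the integer intertwiner, in matrix form. -/
theorem m15k_A2_mat {r : ℕ} (b : Module.Basis (Fin r) ℤ (s29s_M N)) :
    ∃ Y : Matrix (Fin r) (Fin r) ℤ,
      (∀ (ℓ : ℕ) [Fact ℓ.Prime], Y * s29s_heckeMat b ℓ = s29s_heckeMat b ℓ * Y) ∧
      Y * m15k_iotaMat b = -m15k_iotaMat b * Y ∧ Y.det ≠ 0 := by
  classical
  set X : Matrix (Fin r) (Fin r) ℂ :=
    LinearMap.toMatrix (s30e_basisC b) (s30e_basisC b) (m15k_J N) with hX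
  -- `X * X = 1`
  have hXX : X * X = 1 := by
    rw [hX, ← LinearMap.toMatrix_mul, ← LinearMap.toMatrix_one (s30e_basisC b)]
    congr 1
    refine LinearMap.ext fun x => ?_
    rw [Module.End.mul_apply, m15k_J_J]
    rfl
  have hdet : X.det ≠ 0 := by
    intro h0
    have := congrArg Matrix.det hXX
    rw [Matrix.det_mul, h0, mul_zero, Matrix.det_one] at this
    exact zero_ne_one this
  -- the index set: the primes and one more index for `ι^*`
  let A : Option {ℓ : ℕ // ℓ.Prime} → Matrix (Fin r) (Fin r) ℤ := fun i =>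
    match i with
    | some ℓ => haveI : Fact (ℓ : ℕ).Prime := ⟨ℓ.2⟩; s29s_heckeMat b (ℓ : ℕ)
    | none => m15k_iotaMat b
  let B : Option {ℓ : ℕ // ℓ.Prime} → Matrix (Fin r) (Fin r) ℤ := fun i =>
    match i with
    | some ℓ => haveI : Fact (ℓ : ℕ).Prime := ⟨ℓ.2⟩; s29s_heckeMat b (ℓ : ℕ)
    | none => -m15k_iotaMat b
  have hrel : ∀ i, X * (A i).map (Int.castRingHom ℂ) = (B i).map (Int.castRingHom ℂ) * X := by
    intro i
    rcases i with _ | ℓ
    · show X * (m15k_iotaMat b).map (Int.castRingHom ℂ) =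
        (-m15k_iotaMat b).map (Int.castRingHom ℂ) * X
      have hneg : (-m15k_iotaMat b).map (Int.castRingHom ℂ) =
          -((m15k_iotaMat b).map (Int.castRingHom ℂ)) := by
        ext i j
        simp
      rw [hneg, ← m15k_toMatrix_iotaP, hX, ← LinearMap.toMatrix_mul, m15k_J_iotaP, neg_mul,
        ← LinearMap.toMatrix_mul]
      exact map_neg (LinearMap.toMatrix (s30e_basisC b) (s30e_basisC b)) _
    · haveI : Fact (ℓ : ℕ).Prime := ⟨ℓ.2⟩
      show X * (s29s_heckeMat b (ℓ : ℕ)).map (Int.castRingHom ℂ) =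
        (s29s_heckeMat b (ℓ : ℕ)).map (Int.castRingHom ℂ) * X
      rw [← m15k_toMatrix_TP, hX, ← LinearMap.toMatrix_mul, m15k_J_TP, LinearMap.toMatrix_mul]
  obtain ⟨Y, hY, hYdet⟩ := m15k_nd A B X hrel hdet
  exact ⟨Y, fun ℓ hℓ => hY (some ⟨ℓ, hℓ.out⟩), hY none, hYdet⟩

/-- from `Y * A = B * Y` to `adj Y * B = A * adj Y` (integer matrices, `det Y ≠ 0`). -/
theorem m15k_adj_rel {r : ℕ} (Y A B : Matrix (Fin r) (Fin r) ℤ) (h : Y * A = B * Y)
    (hdet : Y.det ≠ 0) : Y.adjugate * B = A * Y.adjugate := by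
  have h1 : Y.det • (Y.adjugate * B) = Y.det • (A * Y.adjugate) := by
    calc Y.det • (Y.adjugate * B) = Y.adjugate * B * (Y * Y.adjugate) := by
          rw [Matrix.mul_adjugate, Matrix.mul_smul, Matrix.mul_one]
      _ = Y.adjugate * (B * Y) * Y.adjugate := by simp only [Matrix.mul_assoc]
      _ = Y.adjugate * (Y * A) * Y.adjugate := by rw [h]
      _ = (Y.adjugate * Y) * A * Y.adjugate := by simp only [Matrix.mul_assoc]
      _ = Y.det • (A * Y.adjugate) := by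
          rw [Matrix.adjugate_mul, Matrix.smul_mul, Matrix.one_mul, Matrix.smul_mul]
  ext i j
  have h2 := congrFun (congrFun h1 i) j
  simp only [Matrix.smul_apply, smul_eq_mul] at h2
  exact mul_left_cancel₀ hdet h2

/-- **(A2), isogeny form**: `Ψ, Ψ'` endomorphisms of the lattice with `Ψ Ψ' = Ψ' Ψ = D ≠ 0`, both
commuting with all `T_ℓ^H` and anticommuting with `ι^*`. -/
theorem m15k_A2_iso : ∃ (Ψ Ψ' : Module.End ℤ (s29s_M N)) (D : ℤ), D ≠ 0 ∧
    Ψ * Ψ' = D • (1 : Module.End ℤ (s29s_M N)) ∧ Ψ' * Ψ = D • (1 : Module.End ℤ (s29s_M N)) ∧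
    (∀ (ℓ : ℕ) [Fact ℓ.Prime], Ψ * s29h_heckeHpar N ℓ ℤ ℤ = s29h_heckeHpar N ℓ ℤ ℤ * Ψ) ∧
    (∀ (ℓ : ℕ) [Fact ℓ.Prime], Ψ' * s29h_heckeHpar N ℓ ℤ ℤ = s29h_heckeHpar N ℓ ℤ ℤ * Ψ') ∧
    Ψ * m15k_iotaM N = -(m15k_iotaM N * Ψ) ∧ Ψ' * m15k_iotaM N = -(m15k_iotaM N * Ψ') := by
  classical
  set r := Module.finrank ℤ (s29s_M N) with hr
  let b : Module.Basis (Fin r) ℤ (s29s_M N) := Module.finBasis ℤ (s29s_M N)
  obtain ⟨Y, hYT, hYS, hYdet⟩ := m15k_A2_mat N b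
  have hlin : ∀ (M₁ M₂ : Matrix (Fin r) (Fin r) ℤ),
      Matrix.toLin b b (M₁ * M₂) = Matrix.toLin b b M₁ * Matrix.toLin b b M₂ := fun M₁ M₂ => by
    rw [Matrix.toLin_mul b b b]
    rfl
  have hT : ∀ (ℓ : ℕ) [Fact ℓ.Prime], Matrix.toLin b b (s29s_heckeMat b ℓ) =
      s29h_heckeHpar N ℓ ℤ ℤ := fun ℓ _ => by
    rw [s29s_heckeMat, Matrix.toLin_toMatrix]
  have hS : Matrix.toLin b b (m15k_iotaMat b) = m15k_iotaM N := by
    rw [m15k_iotaMat, Matrix.toLin_toMatrix]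
  refine ⟨Matrix.toLin b b Y, Matrix.toLin b b Y.adjugate, Y.det, hYdet, ?_, ?_, ?_, ?_, ?_, ?_⟩
  · rw [← hlin, Matrix.mul_adjugate, map_smul, Matrix.toLin_one]
    rfl
  · rw [← hlin, Matrix.adjugate_mul, map_smul, Matrix.toLin_one]
    rfl
  · intro ℓ _
    rw [← hT ℓ, ← hlin, ← hlin, hYT ℓ]
  · intro ℓ _
    rw [← hT ℓ, ← hlin, ← hlin, m15k_adj_rel Y _ _ (hYT ℓ) hYdet]
  · rw [← hS, ← hlin, ← hlin, hYS, Matrix.neg_mul, map_neg]
  · have h1 := m15k_adj_rel Y _ _ hYS hYdet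
    rw [Matrix.mul_neg] at h1
    rw [← hS, ← hlin, ← hlin, ← h1, map_neg, neg_neg]

/-- **(A2), strong form**: an injective endomorphism of the lattice commuting with all `T_ℓ^H`
and anticommuting with `ι^*`. -/
theorem m15k_A2 : ∃ Ψ : s29s_M N →ₗ[ℤ] s29s_M N, Function.Injective Ψ ∧
    (∀ (ℓ : ℕ) [Fact ℓ.Prime] (χ : s29s_M N),
      Ψ (s29h_heckeHpar N ℓ ℤ ℤ χ) = s29h_heckeHpar N ℓ ℤ ℤ (Ψ χ)) ∧
    (∀ χ : s29s_M N, Ψ (m15k_iotaM N χ) = -m15k_iotaM N (Ψ χ)) := by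
  obtain ⟨Ψ, Ψ', D, hD, h1, h2, hT, -, hS, -⟩ := m15k_A2_iso N
  refine ⟨Ψ, ?_, fun ℓ _ χ => LinearMap.congr_fun (hT ℓ) χ, fun χ => LinearMap.congr_fun hS χ⟩
  intro x y hxy
  have hx := LinearMap.congr_fun h2 x
  have hy := LinearMap.congr_fun h2 y
  rw [Module.End.mul_apply] at hx hy
  rw [hxy, hy] at hx
  have h3 : D • (y - x) = 0 := by
    rw [smul_sub]
    exact sub_eq_zero.mpr hx
  rcases smul_eq_zero.mp h3 with h | h
  · exact absurd h hD
  · exact (sub_eq_zero.mp h).symm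

end Main

end Fermat.Agent.Lib.S15
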