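/-
(M) programme for S15, node (A-conj), ASSEMBLY (helper1, prefix `m15k_`):
**(A1′) [helper4's `m15c_package`, here the hypothesis `m15k_Package`] + (A2) [`m15k_A2_iso`] + the
curve-free count [`m15k_count`] ⇒ the inequality of `m15_Aconj`** for the prime `p'`:
`|t(J[p'^r])| ≤ B * |t(J[p'^r]) ∩ J^{c = 1}|²` with `B = (2 |D|) ^ rank Λ`, uniformly in `r` and
in `t ∈ m15_T p`.
-/
import Fermat.Agent.Lib.S15.MEis2
import Fermat.Agent.Lib.S15.KA2
import Fermat.Agent.Lib.S15.KCount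
import Fermat.Agent.Lib.S29.KIface

set_option autoImplicit false
set_option linter.unusedSectionVars false
set_option linter.unusedVariables false
set_option linter.style.haveILetI false

noncomputable section

namespace Fermat.Agent.Lib.S15

open CongruenceSubgroup ModularCurve ModularCurve.Period AlgebraicCurve Fermat.Agent.Lib.S29
  Fermat.Agent.Lib.S30

local notation "GQ" => (AlgebraicClosure ℚ ≃ₐ[ℚ] AlgebraicClosure ℚ)

/-- **(A1′)** the shape of helper4's `m15c_package` (conclusion), as a `Prop`. -/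
def m15k_Package (N : ℕ) [NeZero N] (ℓ : ℕ) [Fact ℓ.Prime] (k : ℕ) : Prop :=
  ∃ φ : ↥(s29s_M N) →+ s29k_Jp N (ℓ ^ k), Function.Surjective φ ∧
    (∀ χ, φ χ = 0 ↔ ∃ χ' : ↥(s29s_M N), χ = (ℓ ^ k : ℤ) • χ') ∧
    (∀ (q : ℕ) [hq : Fact q.Prime], ¬ q ∣ N → ∀ χ,
      φ (s29h_heckeHpar N q ℤ ℤ χ) = s29k_Tl N (ℓ ^ k) ⟨q, hq.out⟩ (φ χ)) ∧
    (∀ χ χ' : ↥(s29s_M N), (χ' : Additive (Gamma0 N) →+ ℤ) =
        charInvolution N ℤ ℤ (χ : Additive (Gamma0 N) →+ ℤ) →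
      φ χ' = - JZero.torsionGaloisRep N (ℓ ^ k) complexConjugation (φ χ))

section Lattice

variable (N : ℕ) [NeZero N]

theorem m15k_iotaM_iotaM (χ : s29s_M N) : m15k_iotaM N (m15k_iotaM N χ) = χ := by
  apply Subtype.ext
  rw [m15k_iotaM_coe, m15k_iotaM_coe, charInvolution_charInvolution]

/-- (A2) with a positive natural multiplier. -/
theorem m15k_A2_nat : ∃ (Ψ Ψ' : Module.End ℤ (s29s_M N)) (m : ℕ), 0 < m ∧
    (∀ l, Ψ (Ψ' l) = m • l) ∧
    (∀ (ℓ : ℕ) [Fact ℓ.Prime], Ψ * s29h_heckeHpar N ℓ ℤ ℤ = s29h_heckeHpar N ℓ ℤ ℤ * Ψ) ∧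
    Ψ * m15k_iotaM N = -(m15k_iotaM N * Ψ) ∧ Ψ' * m15k_iotaM N = -(m15k_iotaM N * Ψ') := by
  obtain ⟨Ψ, Ψ', D, hD, h1, -, hT, -, hS, hS'⟩ := m15k_A2_iso N
  rcases lt_or_gt_of_ne hD with hneg | hpos
  · refine ⟨Ψ, -Ψ', D.natAbs, Int.natAbs_pos.mpr hD, fun l => ?_, hT, hS, ?_⟩
    · have h2 := LinearMap.congr_fun h1 l
      rw [Module.End.mul_apply] at h2
      rw [LinearMap.neg_apply, map_neg, h2, ← natCast_zsmul, Int.ofNat_natAbs_of_nonpos hneg.le]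
      simp
    · rw [neg_mul, hS', mul_neg]
  · refine ⟨Ψ, Ψ', D.natAbs, Int.natAbs_pos.mpr hD, fun l => ?_, hT, hS, hS'⟩
    have h2 := LinearMap.congr_fun h1 l
    rw [Module.End.mul_apply] at h2
    rw [h2, ← natCast_zsmul, Int.natAbs_of_nonneg hpos.le]
    simp

end Lattice

section Main

variable (p : ℕ) [NeZero p] (p' : ℕ) [hp' : Fact p'.Prime]

/-- the lift of `t ∈ m15_T p` to the lattice, given a package `φ`. -/
theorem m15k_lift (k : ℕ) (Ψ : Module.End ℤ (s29s_M p))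
    (hΨT : ∀ (ℓ : ℕ) [Fact ℓ.Prime], Ψ * s29h_heckeHpar p ℓ ℤ ℤ = s29h_heckeHpar p ℓ ℤ ℤ * Ψ)
    (φ : ↥(s29s_M p) →+ s29k_Jp p (p' ^ k))
    (hφT : ∀ (q : ℕ) [hq : Fact q.Prime], ¬ q ∣ p → ∀ χ,
      φ (s29h_heckeHpar p q ℤ ℤ χ) = s29k_Tl p (p' ^ k) ⟨q, hq.out⟩ (φ χ))
    (t : Module.End ℤ (JZero p)) (ht : t ∈ m15_T p) :
    ∃ τ : Module.End ℤ (s29s_M p), τ * m15k_iotaM p = m15k_iotaM p * τ ∧ τ * Ψ = Ψ * τ ∧
      ∀ l, ((φ (τ l) : s29k_Jp p (p' ^ k)) : JZero p) = t ((φ l : s29k_Jp p (p' ^ k)) : JZero p) := by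
  induction ht using Algebra.adjoin_induction with
  | mem t ht =>
    obtain ⟨ℓ, hℓ, rfl⟩ := ht
    haveI : Fact (ℓ : ℕ).Prime := ⟨ℓ.2⟩
    refine ⟨s29h_heckeHpar p (ℓ : ℕ) ℤ ℤ, m15k_T_iotaM p (ℓ : ℕ), (hΨT (ℓ : ℕ)).symm, fun l => ?_⟩
    rw [hφT (ℓ : ℕ) hℓ l, s29k_Tl_coe]
    rfl
  | algebraMap z =>
    refine ⟨algebraMap ℤ _ z, ?_, ?_, fun l => ?_⟩
    · exact Algebra.commutes z _
    · exact Algebra.commutes z _
    · rw [Module.algebraMap_end_apply, Module.algebraMap_end_apply, map_zsmul]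
      rfl
  | add t₁ t₂ _ _ h₁ h₂ =>
    obtain ⟨τ₁, a₁, b₁, c₁⟩ := h₁
    obtain ⟨τ₂, a₂, b₂, c₂⟩ := h₂
    refine ⟨τ₁ + τ₂, ?_, ?_, fun l => ?_⟩
    · rw [add_mul, mul_add, a₁, a₂]
    · rw [add_mul, mul_add, b₁, b₂]
    · rw [LinearMap.add_apply, map_add, LinearMap.add_apply, ← c₁, ← c₂]
      rfl
  | mul t₁ t₂ _ _ h₁ h₂ =>
    obtain ⟨τ₁, a₁, b₁, c₁⟩ := h₁
    obtain ⟨τ₂, a₂, b₂, c₂⟩ := h₂
    refine ⟨τ₁ * τ₂, ?_, ?_, fun l => ?_⟩
    · rw [mul_assoc, a₂, ← mul_assoc, a₁, mul_assoc]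
    · rw [mul_assoc, b₂, ← mul_assoc, b₁, mul_assoc]
    · rw [Module.End.mul_apply, Module.End.mul_apply, c₁, c₂]

/-- **(A-conj) from the package (A1′).** -/
theorem m15k_aconj_of_package (hpk : ∀ k, m15k_Package p p' k) :
    ∃ B : ℕ, B ≠ 0 ∧ ∀ (r : ℕ) (t : Module.End ℤ (JZero p)), t ∈ m15_T p →
      Nat.card ↥((m15_tors p (p' ^ r)).map (t : JZero p →ₗ[ℤ] JZero p).toAddMonoidHom) ≤
        B * Nat.card ↥((m15_tors p (p' ^ r)).map (t : JZero p →ₗ[ℤ] JZero p).toAddMonoidHom ⊓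
          m15_eig (JZero p) complexConjugation 1) ^ 2 := by
  classical
  obtain ⟨Ψ, Ψ', m, hm, hΨ, hΨT, hΨS, hΨ'S⟩ := m15k_A2_nat p
  set r₀ := Module.finrank ℤ (s29s_M p) with hr₀
  let b : Module.Basis (Fin r₀) ℤ (s29s_M p) := Module.finBasis ℤ (s29s_M p)
  have hb : ∀ l : s29s_M p, ∃ z : Fin r₀ → ℤ, l = ∑ i, z i • b i := fun l =>
    ⟨fun i => b.repr l i, (b.sum_repr l).symm⟩
  refine ⟨(2 * m) ^ r₀, pow_ne_zero _ (by omega), fun r t ht => ?_⟩
  obtain ⟨φ, hφsurj, hφker, hφT, hφc⟩ := hpk r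
  obtain ⟨τ, hτι, hτΨ, hτφ⟩ := m15k_lift p p' r Ψ hΨT φ hφT t ht
  have hn0 : 0 < p' ^ r := pow_pos hp'.out.pos r
  have hncast : ((p' : ℤ) ^ r) = ((p' ^ r : ℕ) : ℤ) := by push_cast; rfl
  -- torsion membership
  have htors : ∀ x : s29k_Jp p (p' ^ r), ((x : JZero p)) ∈ m15_tors p (p' ^ r) := fun x => by
    have h := Pic0.mem_torsion.mp x.2
    rw [m15_mem_tors, ← natCast_zsmul]
    exact h
  have hzs : ∀ x : s29k_Jp p (p' ^ r), ((p' ^ r : ℕ) : ℤ) • x = 0 := fun x => by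
    apply Subtype.ext
    rw [AddSubgroup.coe_zsmul]
    exact Pic0.mem_torsion.mp x.2
  -- the finite group `X = J[(p' ^ r)]` and the map `π`
  let π : ↥(s29s_M p) →+ ↥(m15_tors p (p' ^ r)) :=
    { toFun := fun l => ⟨((φ l : s29k_Jp p (p' ^ r)) : JZero p), htors _⟩
      map_zero' := by
        apply Subtype.ext
        show ((φ 0 : s29k_Jp p (p' ^ r)) : JZero p) = 0
        rw [map_zero]; rfl
      map_add' := fun l l' => by
        apply Subtype.ext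
        show ((φ (l + l') : s29k_Jp p (p' ^ r)) : JZero p) = _
        rw [map_add]; rfl }
  have hπcoe : ∀ l, ((π l : ↥(m15_tors p (p' ^ r))) : JZero p) = ((φ l : s29k_Jp p (p' ^ r)) : JZero p) :=
    fun l => rfl
  have hπsurj : Function.Surjective π := by
    rintro ⟨x, hx⟩
    have hx' : x ∈ Pic0.torsion (AlgebraicClosure ℚ) (modularFunctionFieldBar p) (p' ^ r) := by
      rw [Pic0.mem_torsion, natCast_zsmul]
      exact hx
    obtain ⟨l, hl⟩ := hφsurj ⟨x, hx'⟩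
    refine ⟨l, Subtype.ext ?_⟩
    rw [hπcoe, hl]
  haveI : Module.Finite ℤ ↥(m15_tors p (p' ^ r)) :=
    Module.Finite.of_surjective π.toIntLinearMap hπsurj
  haveI : Finite ↥(m15_tors p (p' ^ r)) := by
    refine Module.finite_of_fg_torsion _ ?_
    intro x
    refine ⟨⟨((p' ^ r : ℕ) : ℤ), mem_nonZeroDivisors_of_ne_zero (by exact_mod_cast hn0.ne')⟩, ?_⟩
    show ((p' ^ r : ℕ) : ℤ) • x = 0
    apply Subtype.ext
    rw [natCast_zsmul]
    exact x.2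
  -- the maps on the lattice
  let s : ↥(s29s_M p) →+ ↥(s29s_M p) := (-(m15k_iotaM p)).toAddMonoidHom
  have hsapp : ∀ l, s l = -m15k_iotaM p l := fun l => rfl
  have hs : ∀ l, s (s l) = l := fun l => by
    rw [hsapp, hsapp, map_neg, neg_neg, m15k_iotaM_iotaM]
  have hΨ's : ∀ l, Ψ'.toAddMonoidHom (s l) = -s (Ψ'.toAddMonoidHom l) := fun l => by
    have h := LinearMap.congr_fun hΨ'S l
    rw [Module.End.mul_apply, LinearMap.neg_apply, Module.End.mul_apply] at h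
    show Ψ' (s l) = -s (Ψ' l)
    rw [hsapp, hsapp, map_neg, h, neg_neg]
  have hτs : ∀ l, τ.toAddMonoidHom (s l) = s (τ.toAddMonoidHom l) := fun l => by
    have h := LinearMap.congr_fun hτι l
    rw [Module.End.mul_apply, Module.End.mul_apply] at h
    show τ (s l) = s (τ l)
    rw [hsapp, hsapp, map_neg, h]
  have hτΨ' : ∀ l, τ.toAddMonoidHom (Ψ.toAddMonoidHom l) = Ψ.toAddMonoidHom (τ.toAddMonoidHom l) :=
    fun l => by
      have h := LinearMap.congr_fun hτΨ l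
      rw [Module.End.mul_apply, Module.End.mul_apply] at h
      exact h
  -- `π` and `Ψ`
  have hπΨ : ∀ l, π l = 0 → π (Ψ.toAddMonoidHom l) = 0 := by
    intro l hl
    have h1 : φ l = 0 := by
      apply Subtype.ext
      have := congrArg (fun x : ↥(m15_tors p (p' ^ r)) => (x : JZero p)) hl
      exact this
    obtain ⟨χ', rfl⟩ := (hφker l).mp h1
    apply Subtype.ext
    show ((φ (Ψ (((p' : ℤ) ^ r) • χ')) : s29k_Jp p (p' ^ r)) : JZero p) = 0
    rw [map_zsmul, map_zsmul, hncast, hzs]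
    rfl
  -- complex conjugation on `X`
  let c : ↥(m15_tors p (p' ^ r)) →+ ↥(m15_tors p (p' ^ r)) :=
    DistribSMul.toAddMonoidHom ↥(m15_tors p (p' ^ r)) (complexConjugation : GQ)
  have hccoe : ∀ x : ↥(m15_tors p (p' ^ r)), ((c x : ↥(m15_tors p (p' ^ r))) : JZero p) =
      (complexConjugation : GQ) • (x : JZero p) := fun x => rfl
  have hc : ∀ l, π (s l) = c (π l) := by
    intro l
    apply Subtype.ext
    rw [hccoe, hπcoe, hπcoe, hsapp, map_neg, hφc l (m15k_iotaM p l) rfl, neg_neg]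
    rfl
  -- the eigen-subgroup
  let F : AddSubgroup ↥(m15_tors p (p' ^ r)) :=
    (m15_eig (JZero p) complexConjugation 1).comap (m15_tors p (p' ^ r)).subtype
  have hF : ∀ x, c x = x → x ∈ F := by
    intro x hx
    show (complexConjugation : GQ) • (x : JZero p) = (1 : ℤ) • (x : JZero p)
    rw [one_zsmul, ← hccoe, hx]
  have key := m15k_count r₀ b hb s Ψ.toAddMonoidHom Ψ'.toAddMonoidHom τ.toAddMonoidHom hs m hm
    (fun l => hΨ l) hΨ's hτs hτΨ' π hπΨ c hc F hF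
  -- transport to subgroups of `JZero p`
  set H : AddSubgroup ↥(m15_tors p (p' ^ r)) := (π.comp τ.toAddMonoidHom).range with hH
  set L : AddSubgroup (JZero p) :=
    (m15_tors p (p' ^ r)).map (t : JZero p →ₗ[ℤ] JZero p).toAddMonoidHom with hL
  have hHL : H.map (m15_tors p (p' ^ r)).subtype = L := by
    ext y
    constructor
    · rintro ⟨_, ⟨l, rfl⟩, rfl⟩
      refine ⟨((φ l : s29k_Jp p (p' ^ r)) : JZero p), htors _, ?_⟩
      show t ((φ l : s29k_Jp p (p' ^ r)) : JZero p) = ((φ (τ l) : s29k_Jp p (p' ^ r)) : JZero p)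
      rw [hτφ]
    · rintro ⟨x, hx, rfl⟩
      obtain ⟨l, hl⟩ := hπsurj ⟨x, hx⟩
      refine ⟨π (τ l), ⟨l, rfl⟩, ?_⟩
      show ((φ (τ l) : s29k_Jp p (p' ^ r)) : JZero p) = t x
      rw [hτφ]
      have := congrArg (fun x : ↥(m15_tors p (p' ^ r)) => (x : JZero p)) hl
      simp only [hπcoe] at this
      rw [this]
  have e1 : H ≃+ ↥(H.map (m15_tors p (p' ^ r)).subtype) :=
    H.equivMapOfInjective _ (AddSubgroup.subtype_injective _)
  have hcardL : Nat.card L = Nat.card H := by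
    rw [← hHL]
    exact (Nat.card_congr e1.toEquiv).symm
  haveI : Finite L := by
    rw [← hHL]
    exact Finite.of_equiv _ e1.toEquiv
  haveI : Finite ↥(L ⊓ m15_eig (JZero p) complexConjugation 1) :=
    Finite.of_injective (AddSubgroup.inclusion (inf_le_left : L ⊓ _ ≤ L))
      (AddSubgroup.inclusion_injective _)
  have hcardF : Nat.card ↥(H ⊓ F) ≤
      Nat.card ↥(L ⊓ m15_eig (JZero p) complexConjugation 1) := by
    refine Nat.card_le_card_of_injective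
      (fun x => (⟨((x : ↥(m15_tors p (p' ^ r))) : JZero p), ?_⟩ :
        ↥(L ⊓ m15_eig (JZero p) complexConjugation 1))) ?_
    · refine AddSubgroup.mem_inf.mpr ⟨?_, (AddSubgroup.mem_inf.mp x.2).2⟩
      rw [← hHL]
      exact ⟨(x : ↥(m15_tors p (p' ^ r))), (AddSubgroup.mem_inf.mp x.2).1, rfl⟩
    · intro x y hxy
      have := congrArg (fun z : ↥(L ⊓ m15_eig (JZero p) complexConjugation 1) => (z : JZero p)) hxy
      exact Subtype.ext (Subtype.ext this)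
  calc Nat.card L = Nat.card H := hcardL
    _ ≤ (2 * m) ^ r₀ * Nat.card ↥(H ⊓ F) ^ 2 := key
    _ ≤ (2 * m) ^ r₀ * Nat.card ↥(L ⊓ m15_eig (JZero p) complexConjugation 1) ^ 2 :=
        Nat.mul_le_mul_left _ (Nat.pow_le_pow_left hcardF 2)

end Main

end Fermat.Agent.Lib.S15
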