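/-
(M) programme for S15, node (A-conj), the curve-free COUNT (helper1, prefix `m15k_`).

`m15k_count`: `Λ` an abelian group generated by `r` elements with an involution `s`, endomorphisms
`Ψ, Ψ'` with `Ψ Ψ' = D ≠ 0` and `Ψ' s = - s Ψ'`; `τ` an endomorphism commuting with `s` and `Ψ`;
`π : Λ →+ X` a homomorphism to a finite group with `π λ = 0 → π (Ψ λ) = 0`, and `c` an
endomorphism of `X` with `π ∘ s = c ∘ π`.  Then
  `|π(τ Λ)| ≤ (2 |D|) ^ r * |π(τ Λ) ∩ X^{c = 1}| ^ 2`.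
-/
import Mathlib

set_option autoImplicit false
set_option linter.unusedSectionVars false
set_option linter.unusedVariables false

noncomputable section

namespace Fermat.Agent.Lib.S15

section Card

variable {G X : Type*} [AddCommGroup G] [AddCommGroup X]

/-- `|G| = |ker f| * |range f|`. -/
theorem m15k_card_eq_ker_mul_range [Finite G] (f : G →+ X) :
    Nat.card G = Nat.card f.ker * Nat.card f.range := by
  have h1 := AddSubgroup.card_eq_card_quotient_mul_card_addSubgroup f.ker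
  have h2 : Nat.card (G ⧸ f.ker) = Nat.card f.range :=
    Nat.card_congr (QuotientAddGroup.quotientKerEquivRange f).toEquiv
  rw [h1, h2, mul_comm]

variable {H : Type*} [AddCommGroup H] [Finite H]

/-- a group generated by `r` elements has at most `m ^ r` classes modulo `m`. -/
theorem m15k_card_quot_le (r m : ℕ) (hm : 0 < m) (g : Fin r → H)
    (hg : ∀ h : H, ∃ z : Fin r → ℤ, h = ∑ i, z i • g i) :
    Nat.card (H ⧸ (nsmulAddMonoidHom m : H →+ H).range) ≤ m ^ r := by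
  classical
  let φ : (Fin r → Fin m) → H ⧸ (nsmulAddMonoidHom m : H →+ H).range := fun a =>
    QuotientAddGroup.mk (∑ i, ((a i : ℕ) : ℤ) • g i)
  have hφ : Function.Surjective φ := by
    intro x
    obtain ⟨h, rfl⟩ := QuotientAddGroup.mk_surjective x
    obtain ⟨z, rfl⟩ := hg h
    have hm' : (m : ℤ) ≠ 0 := by exact_mod_cast hm.ne'
    refine ⟨fun i => ⟨(z i % (m : ℤ)).toNat, ?_⟩, ?_⟩
    · have h1 := Int.emod_nonneg (z i) hm'
      have h2 := Int.emod_lt_of_pos (z i) (by exact_mod_cast hm : (0 : ℤ) < m)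
      omega
    · show QuotientAddGroup.mk _ = QuotientAddGroup.mk _
      rw [QuotientAddGroup.eq]
      refine ⟨∑ i, (z i / (m : ℤ)) • g i, ?_⟩
      show m • (∑ i, (z i / (m : ℤ)) • g i) = _
      rw [Finset.smul_sum, neg_add_eq_sub, ← Finset.sum_sub_distrib]
      refine Finset.sum_congr rfl fun i _ => ?_
      have h1 := Int.emod_nonneg (z i) hm'
      have h3 : (((z i % (m : ℤ)).toNat : ℕ) : ℤ) = z i % (m : ℤ) := Int.toNat_of_nonneg h1
      show m • ((z i / (m : ℤ)) • g i) = z i • g i - ((((z i % (m : ℤ)).toNat : ℕ) : ℤ)) • g i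
      rw [h3, ← sub_smul, ← natCast_zsmul, smul_smul]
      congr 1
      have := Int.emod_add_mul_ediv (z i) (m : ℤ)
      linarith
  calc Nat.card (H ⧸ (nsmulAddMonoidHom m : H →+ H).range)
      ≤ Nat.card (Fin r → Fin m) := Nat.card_le_card_of_surjective φ hφ
    _ = m ^ r := by
        rw [Nat.card_eq_fintype_card, Fintype.card_fun, Fintype.card_fin, Fintype.card_fin]

/-- the `m`-torsion of a finite group generated by `r` elements has at most `m ^ r` elements. -/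
theorem m15k_card_torsion_le (r m : ℕ) (hm : 0 < m) (g : Fin r → H)
    (hg : ∀ h : H, ∃ z : Fin r → ℤ, h = ∑ i, z i • g i) :
    Nat.card (nsmulAddMonoidHom m : H →+ H).ker ≤ m ^ r := by
  set f : H →+ H := nsmulAddMonoidHom m with hf
  have h1 := m15k_card_eq_ker_mul_range f
  have h2 := AddSubgroup.card_eq_card_quotient_mul_card_addSubgroup f.range
  have h3 : 0 < Nat.card f.range := Nat.card_pos
  have h4 : Nat.card f.ker = Nat.card (H ⧸ f.range) := by
    have : Nat.card f.ker * Nat.card f.range = Nat.card (H ⧸ f.range) * Nat.card f.range := by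
      rw [← h1, ← h2]
    exact Nat.eq_of_mul_eq_mul_right h3 this
  rw [h4]
  exact m15k_card_quot_le r m hm g hg

/-- `|G| ≤ |H[m]| * |m G|` for a subgroup `G ≤ H`. -/
theorem m15k_card_le_torsion_mul (K : AddSubgroup H) (m : ℕ) :
    Nat.card K ≤ Nat.card (nsmulAddMonoidHom m : H →+ H).ker *
      Nat.card (K.map (nsmulAddMonoidHom m : H →+ H)) := by
  set f : K →+ H := (nsmulAddMonoidHom m : H →+ H).comp K.subtype with hf
  have h1 := m15k_card_eq_ker_mul_range f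
  have h2 : f.range = K.map (nsmulAddMonoidHom m : H →+ H) := by
    rw [hf, AddMonoidHom.range_comp, AddSubgroup.range_subtype]
  have h3 : Nat.card f.ker ≤ Nat.card (nsmulAddMonoidHom m : H →+ H).ker := by
    refine Nat.card_le_card_of_injective
      (fun x => (⟨(x : K), by
        have hx := x.2
        rw [AddMonoidHom.mem_ker] at hx ⊢
        exact hx⟩ : (nsmulAddMonoidHom m : H →+ H).ker)) ?_
    intro x y hxy
    have := congrArg (fun t : (nsmulAddMonoidHom m : H →+ H).ker => (t : H)) hxy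
    exact Subtype.ext (Subtype.ext this)
  rw [h1, h2]
  exact Nat.mul_le_mul_right _ h3

end Card

section Count

variable {Λ X : Type*} [AddCommGroup Λ] [AddCommGroup X] [Finite X]

/-- `|K| ≤ |H[m]| * |m K|` for subgroups `K ≤ H` of `X`. -/
theorem m15k_card_le_torsion_mul' (H K : AddSubgroup X) (hKH : K ≤ H) (m : ℕ) :
    Nat.card K ≤ Nat.card ↥(H ⊓ (nsmulAddMonoidHom m : X →+ X).ker) *
      Nat.card ↥(K.map (nsmulAddMonoidHom m : X →+ X)) := by
  set f : K →+ X := (nsmulAddMonoidHom m : X →+ X).comp K.subtype with hf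
  have h1 := m15k_card_eq_ker_mul_range f
  have h2 : f.range = K.map (nsmulAddMonoidHom m : X →+ X) := by
    rw [hf, AddMonoidHom.range_comp, AddSubgroup.range_subtype]
  have h3 : Nat.card f.ker ≤ Nat.card ↥(H ⊓ (nsmulAddMonoidHom m : X →+ X).ker) := by
    have hmem : ∀ x : f.ker, ((x : K) : X) ∈ H ⊓ (nsmulAddMonoidHom m : X →+ X).ker := by
      intro x
      refine AddSubgroup.mem_inf.mpr ⟨hKH (x : K).2, ?_⟩
      have hx : f (x : K) = 0 := AddMonoidHom.mem_ker.mp x.2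
      exact AddMonoidHom.mem_ker.mpr hx
    refine Nat.card_le_card_of_injective
      (fun x => (⟨((x : K) : X), hmem x⟩ : ↥(H ⊓ (nsmulAddMonoidHom m : X →+ X).ker))) ?_
    intro x y hxy
    have := congrArg (fun t : ↥(H ⊓ (nsmulAddMonoidHom m : X →+ X).ker) => (t : X)) hxy
    exact Subtype.ext (Subtype.ext this)
  rw [h1, h2]
  exact Nat.mul_le_mul_right _ h3

/-- the `m`-torsion of the image of a group generated by `r` elements. -/
theorem m15k_card_torsion_le' (r m : ℕ) (hm : 0 < m) (b : Fin r → Λ)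
    (hb : ∀ l : Λ, ∃ z : Fin r → ℤ, l = ∑ i, z i • b i) (u : Λ →+ X) :
    Nat.card ↥(u.range ⊓ (nsmulAddMonoidHom m : X →+ X).ker) ≤ m ^ r := by
  have hg : ∀ h : u.range, ∃ z : Fin r → ℤ, h = ∑ i, z i • (⟨u (b i), ⟨b i, rfl⟩⟩ : u.range) := by
    rintro ⟨h, l, hl⟩
    obtain ⟨z, hz⟩ := hb l
    refine ⟨z, Subtype.ext ?_⟩
    show h = _
    rw [← hl, hz, map_sum, AddSubmonoidClass.coe_finsetSum]
    refine Finset.sum_congr rfl fun i _ => ?_
    rw [map_zsmul, AddSubgroup.coe_zsmul]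
  refine le_trans ?_ (m15k_card_torsion_le r m hm _ hg)
  have hmem : ∀ x : ↥(u.range ⊓ (nsmulAddMonoidHom m : X →+ X).ker),
      (⟨(x : X), (AddSubgroup.mem_inf.mp x.2).1⟩ : u.range) ∈
        (nsmulAddMonoidHom m : u.range →+ u.range).ker := by
    intro x
    have hx : (nsmulAddMonoidHom m : X →+ X) (x : X) = 0 :=
      AddMonoidHom.mem_ker.mp (AddSubgroup.mem_inf.mp x.2).2
    refine AddMonoidHom.mem_ker.mpr (Subtype.ext ?_)
    exact hx
  refine Nat.card_le_card_of_injective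
    (fun x => (⟨⟨(x : X), (AddSubgroup.mem_inf.mp x.2).1⟩, hmem x⟩ :
      (nsmulAddMonoidHom m : u.range →+ u.range).ker)) ?_
  intro x y hxy
  have := congrArg (fun t : (nsmulAddMonoidHom m : u.range →+ u.range).ker => ((t : u.range) : X)) hxy
  exact Subtype.ext this

/-- `|A ⊔ B| ≤ |A| * |B|`. -/
theorem m15k_card_sup_le (A B : AddSubgroup X) :
    Nat.card ↥(A ⊔ B) ≤ Nat.card A * Nat.card B := by
  rw [← Nat.card_prod]
  refine Nat.card_le_card_of_surjective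
    (fun ab : A × B => (⟨(ab.1 : X) + (ab.2 : X),
      AddSubgroup.add_mem _ (AddSubgroup.mem_sup_left ab.1.2) (AddSubgroup.mem_sup_right ab.2.2)⟩ :
        ↥(A ⊔ B))) ?_
  rintro ⟨x, hx⟩
  obtain ⟨a, ha, b, hb, rfl⟩ := AddSubgroup.mem_sup.mp hx
  exact ⟨(⟨a, ha⟩, ⟨b, hb⟩), rfl⟩

/-- if `ker u ≤ ker v` then `|v(S)| ≤ |u(S)|`. -/
theorem m15k_card_map_le (u v : Λ →+ X) (huv : ∀ l, u l = 0 → v l = 0) (S : AddSubgroup Λ) :
    Nat.card ↥(S.map v) ≤ Nat.card ↥(S.map u) := by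
  have hex : ∀ y : ↥(S.map u), ∃ l : Λ, l ∈ S ∧ u l = (y : X) := fun y => by
    obtain ⟨l, hl, hly⟩ := y.2
    exact ⟨l, hl, hly⟩
  choose sec hsecS hsec using hex
  refine Nat.card_le_card_of_surjective
    (fun y => (⟨v (sec y), ⟨sec y, hsecS y, rfl⟩⟩ : ↥(S.map v))) ?_
  rintro ⟨x, l₀, hl₀, rfl⟩
  refine ⟨⟨u l₀, ⟨l₀, hl₀, rfl⟩⟩, Subtype.ext ?_⟩
  show v (sec ⟨u l₀, _⟩) = v l₀
  have h1 : u (sec ⟨u l₀, ⟨l₀, hl₀, rfl⟩⟩ - l₀) = 0 := by
    rw [map_sub, hsec]
    exact sub_self _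
  have h2 := huv _ h1
  rw [map_sub] at h2
  exact sub_eq_zero.mp h2

/-- **the count.** -/
theorem m15k_count (r : ℕ) (b : Fin r → Λ) (hb : ∀ l : Λ, ∃ z : Fin r → ℤ, l = ∑ i, z i • b i)
    (s Ψ Ψ' τ : Λ →+ Λ) (hs : ∀ l, s (s l) = l) (m : ℕ) (hm : 0 < m)
    (hΨ : ∀ l, Ψ (Ψ' l) = m • l) (hΨ's : ∀ l, Ψ' (s l) = -s (Ψ' l))
    (hτs : ∀ l, τ (s l) = s (τ l)) (hτΨ : ∀ l, τ (Ψ l) = Ψ (τ l))
    (π : Λ →+ X) (hπΨ : ∀ l, π l = 0 → π (Ψ l) = 0)
    (c : X →+ X) (hc : ∀ l, π (s l) = c (π l))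
    (F : AddSubgroup X) (hF : ∀ x, c x = x → x ∈ F) :
    Nat.card (π.comp τ).range ≤ (2 * m) ^ r * Nat.card ↥((π.comp τ).range ⊓ F) ^ 2 := by
  set u : Λ →+ X := π.comp τ with hu
  set H : AddSubgroup X := u.range with hH
  -- the eigen-subgroups
  let Lp : AddSubgroup Λ := (s - AddMonoidHom.id Λ).ker
  let Lm : AddSubgroup Λ := (s + AddMonoidHom.id Λ).ker
  have hLp : ∀ l, l ∈ Lp ↔ s l = l := fun l => by
    show (s - AddMonoidHom.id Λ) l = 0 ↔ _
    rw [AddMonoidHom.sub_apply, AddMonoidHom.id_apply, sub_eq_zero]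
  have hLm : ∀ l, l ∈ Lm ↔ s l = -l := fun l => by
    show (s + AddMonoidHom.id Λ) l = 0 ↔ _
    rw [AddMonoidHom.add_apply, AddMonoidHom.id_apply, add_eq_zero_iff_eq_neg]
  set A : AddSubgroup X := Lp.map u with hA
  set Bm : AddSubgroup X := Lm.map u with hBm
  have hAH : A ≤ H := by
    rintro _ ⟨l, -, rfl⟩
    exact ⟨l, rfl⟩
  have hBH : Bm ≤ H := by
    rintro _ ⟨l, -, rfl⟩
    exact ⟨l, rfl⟩
  -- (6) `A ≤ H ⊓ F`
  have hAF : A ≤ H ⊓ F := by
    rintro _ ⟨l, hl, rfl⟩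
    refine ⟨⟨l, rfl⟩, hF _ ?_⟩
    show c (π (τ l)) = π (τ l)
    rw [← hc, ← hτs, (hLp l).mp hl]
  -- (1) `2 H ≤ A ⊔ Bm`
  have h2H : H.map (nsmulAddMonoidHom 2 : X →+ X) ≤ A ⊔ Bm := by
    rintro _ ⟨_, ⟨l, rfl⟩, rfl⟩
    have e : (nsmulAddMonoidHom 2 : X →+ X) (u l) = u (l + s l) + u (l - s l) := by
      show 2 • u l = _
      rw [← map_add, two_nsmul, ← map_add]
      congr 1
      abel
    rw [e]
    refine AddSubgroup.add_mem _ (AddSubgroup.mem_sup_left ⟨l + s l, ?_, rfl⟩)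
      (AddSubgroup.mem_sup_right ⟨l - s l, ?_, rfl⟩)
    · refine (hLp _).mpr ?_
      rw [map_add, hs, add_comm]
    · refine (hLm _).mpr ?_
      rw [map_sub, hs, neg_sub]
  -- (5) `m Bm ≤ C`, `|C| ≤ |A|`
  set v : Λ →+ X := π.comp (Ψ.comp τ) with hv
  have hmB : Bm.map (nsmulAddMonoidHom m : X →+ X) ≤ Lp.map v := by
    rintro _ ⟨_, ⟨l, hl, rfl⟩, rfl⟩
    refine ⟨Ψ' l, ?_, ?_⟩
    · refine (hLp _).mpr ?_
      have h := hΨ's l
      rw [(hLm l).mp hl, map_neg] at h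
      exact (neg_injective h).symm
    · show π (Ψ (τ (Ψ' l))) = m • π (τ l)
      rw [← hτΨ, hΨ, map_nsmul, map_nsmul]
  have hCA : Nat.card ↥(Lp.map v) ≤ Nat.card A := by
    refine m15k_card_map_le u v (fun l hl => ?_) Lp
    exact hπΨ _ hl
  -- the chain
  have c1 := m15k_card_le_torsion_mul' H H le_rfl 2
  have c2 := m15k_card_torsion_le' r 2 (by norm_num) b hb u
  have c3 : Nat.card ↥(H.map (nsmulAddMonoidHom 2 : X →+ X)) ≤ Nat.card A * Nat.card Bm :=
    le_trans (AddSubgroup.card_le_of_le h2H) (m15k_card_sup_le A Bm)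
  have c4 := m15k_card_le_torsion_mul' H Bm hBH m
  have c5 := m15k_card_torsion_le' r m hm b hb u
  have c6 : Nat.card ↥(Bm.map (nsmulAddMonoidHom m : X →+ X)) ≤ Nat.card A :=
    le_trans (AddSubgroup.card_le_of_le hmB) hCA
  have c7 : Nat.card A ≤ Nat.card ↥(H ⊓ F) := AddSubgroup.card_le_of_le hAF
  calc Nat.card H ≤ 2 ^ r * (Nat.card A * Nat.card Bm) :=
        le_trans c1 (Nat.mul_le_mul c2 c3)
    _ ≤ 2 ^ r * (Nat.card A * (m ^ r * Nat.card A)) := by
        refine Nat.mul_le_mul_left _ (Nat.mul_le_mul_left _ ?_)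
        exact le_trans c4 (Nat.mul_le_mul c5 c6)
    _ = (2 * m) ^ r * Nat.card A ^ 2 := by rw [mul_pow]; ring
    _ ≤ (2 * m) ^ r * Nat.card ↥(H ⊓ F) ^ 2 :=
        Nat.mul_le_mul_left _ (Nat.pow_le_pow_left c7 2)

end Count

end Fermat.Agent.Lib.S15
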