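/-
(M) glue (helper7, prefix `m15x_`): curve-free KUMMER THEORY for a divisible `G`-module `J` and an
equivariant endomorphism `e` ("Eisenstein projector").

`X = J[n]`, `V = e X`, `Y = {y | n y ∈ J^G}`.  For `y ∈ Y` the cocycle `ξ_y(h) = e (h y - y)` takes
values in `V`; `y ↦ ξ_y` is additive and `ξ_y` is a coboundary for `y ∈ X`.
* `m15x_kum_kernel` : if `N₀ [ξ_y] = 0` in `H¹(G, V)` then `N₀ e (n y) ∈ n J^G`;
* `m15x_kum_index`  : if all `N₀ [ξ_y]` lie in a finite subgroup `S ≤ H¹(G, V)`, then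
  `K = {z ∈ J^G | N₀ e z ∈ n J^G}` has index `≤ |S|` in `J^G`.
Uses helper8's `EDev1.lean` (cocycles and `H¹`), otherwise Mathlib only.
-/
import Fermat.Agent.Lib.S15.EDev1

set_option autoImplicit false
set_option linter.unusedSectionVars false
set_option linter.unusedVariables false
set_option linter.style.haveILetI false

noncomputable section

namespace Fermat.Agent.Lib.S15

variable {G : Type*} [Group G] {J : Type*} [AddCommGroup J] [DistribMulAction G J]

/-! ### stable subgroups as modules -/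

/-- a `G`-stable subgroup as a type. -/
def m15x_Sub (V : AddSubgroup J) (hV : ∀ (g : G), ∀ v ∈ V, g • v ∈ V) : Type _ := ↥V

instance m15x_Sub.instAddCommGroup (V : AddSubgroup J) (hV : ∀ (g : G), ∀ v ∈ V, g • v ∈ V) :
    AddCommGroup (m15x_Sub V hV) := inferInstanceAs (AddCommGroup ↥V)

/-- the inclusion. -/
def m15x_Sub.val {V : AddSubgroup J} {hV : ∀ (g : G), ∀ v ∈ V, g • v ∈ V} :
    m15x_Sub V hV →+ J := V.subtype

/-- the constructor. -/
def m15x_Sub.mk {V : AddSubgroup J} {hV : ∀ (g : G), ∀ v ∈ V, g • v ∈ V} (x : J) (hx : x ∈ V) :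
    m15x_Sub V hV := (⟨x, hx⟩ : ↥V)

theorem m15x_Sub.val_mk {V : AddSubgroup J} {hV : ∀ (g : G), ∀ v ∈ V, g • v ∈ V} (x : J)
    (hx : x ∈ V) : m15x_Sub.val (m15x_Sub.mk (hV := hV) x hx) = x := rfl

theorem m15x_Sub.val_mem {V : AddSubgroup J} {hV : ∀ (g : G), ∀ v ∈ V, g • v ∈ V}
    (v : m15x_Sub V hV) : m15x_Sub.val v ∈ V := (v : ↥V).2

theorem m15x_Sub.val_injective {V : AddSubgroup J} {hV : ∀ (g : G), ∀ v ∈ V, g • v ∈ V} :
    Function.Injective (m15x_Sub.val (V := V) (hV := hV)) := Subtype.val_injective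

instance m15x_Sub.instAction (V : AddSubgroup J) (hV : ∀ (g : G), ∀ v ∈ V, g • v ∈ V) :
    DistribMulAction G (m15x_Sub V hV) where
  smul g v := m15x_Sub.mk (g • m15x_Sub.val v) (hV g _ (m15x_Sub.val_mem v))
  one_smul v := m15x_Sub.val_injective (one_smul G (m15x_Sub.val v))
  mul_smul g h v := m15x_Sub.val_injective (mul_smul g h (m15x_Sub.val v))
  smul_zero g := m15x_Sub.val_injective (smul_zero g)
  smul_add g v w := m15x_Sub.val_injective (smul_add g (m15x_Sub.val v) (m15x_Sub.val w))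

theorem m15x_Sub.val_smul {V : AddSubgroup J} {hV : ∀ (g : G), ∀ v ∈ V, g • v ∈ V} (g : G)
    (v : m15x_Sub V hV) : m15x_Sub.val (g • v) = g • m15x_Sub.val v := rfl

instance m15x_Sub.instFinite (V : AddSubgroup J) (hV : ∀ (g : G), ∀ v ∈ V, g • v ∈ V)
    [Finite ↥V] : Finite (m15x_Sub V hV) := inferInstanceAs (Finite ↥V)

/-! ### the Kummer cocycles -/

section Kummer

variable (e : J →+ J) (he : ∀ (g : G) (x : J), e (g • x) = g • e x) (n : ℕ)

/-- `J[n]`. -/
def m15x_torsion (J : Type*) [AddCommGroup J] (n : ℕ) : AddSubgroup J :=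
  (nsmulAddMonoidHom n : J →+ J).ker

theorem m15x_mem_torsion {x : J} : x ∈ m15x_torsion J n ↔ n • x = 0 := Iff.rfl

/-- `V = e J[n]`. -/
def m15x_V : AddSubgroup J := (m15x_torsion J n).map e

include he in
theorem m15x_V_stable (g : G) (v : J) (hv : v ∈ m15x_V e n) : g • v ∈ m15x_V e n := by
  obtain ⟨x, hx, rfl⟩ := hv
  refine ⟨g • x, ?_, he g x⟩
  have hx' : n • x = 0 := hx
  show n • (g • x) = 0
  rw [smul_comm n g x, hx']
  exact smul_zero g

theorem m15x_V_torsion (v : J) (hv : v ∈ m15x_V e n) : n • v = 0 := by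
  obtain ⟨x, hx, rfl⟩ := hv
  have hx' : n • x = 0 := hx
  rw [← map_nsmul, hx', map_zero]

/-- the fixed points `J^G`. -/
def m15x_fix (G : Type*) [Group G] (J : Type*) [AddCommGroup J] [DistribMulAction G J] :
    AddSubgroup J where
  carrier := {z | ∀ g : G, g • z = z}
  zero_mem' := fun g => smul_zero g
  add_mem' := fun {a b} ha hb g => by rw [smul_add, ha g, hb g]
  neg_mem' := fun {a} ha g => by rw [smul_neg, ha g]

theorem m15x_mem_fix {z : J} : z ∈ m15x_fix G J ↔ ∀ g : G, g • z = z := Iff.rfl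

/-- `Y = [n]⁻¹ J^G`. -/
def m15x_Y (G : Type*) [Group G] (J : Type*) [AddCommGroup J] [DistribMulAction G J] (n : ℕ) :
    AddSubgroup J := (m15x_fix G J).comap (nsmulAddMonoidHom n : J →+ J)

theorem m15x_mem_Y {y : J} : y ∈ m15x_Y G J n ↔ ∀ g : G, g • (n • y) = n • y := Iff.rfl

theorem m15x_sub_mem_torsion {y : J} (hy : y ∈ m15x_Y G J n) (g : G) :
    g • y - y ∈ m15x_torsion J n := by
  rw [m15x_mem_torsion, smul_sub, smul_comm n g y, (m15x_mem_Y n).mp hy g, sub_self]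

/-- the Kummer cocycle of `y ∈ Y`, twisted by `e`. -/
def m15x_kumZ (y : ↥(m15x_Y G J n)) :
    s15e_Z1 (⊤ : Subgroup G) (m15x_Sub (m15x_V e n) (m15x_V_stable e he n)) :=
  ⟨fun h => m15x_Sub.mk (e ((h : G) • (y : J) - (y : J)))
      ⟨_, m15x_sub_mem_torsion n y.2 h, rfl⟩, by
    intro h k
    apply m15x_Sub.val_injective
    show e (((h * k : (⊤ : Subgroup G)) : G) • (y : J) - (y : J)) =
      e ((h : G) • (y : J) - (y : J)) + (h : G) • e ((k : G) • (y : J) - (y : J))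
    rw [← he, ← map_add]
    congr 1
    rw [Subgroup.coe_mul, mul_smul, smul_sub]
    abel⟩

theorem m15x_kumZ_apply (y : ↥(m15x_Y G J n)) (h : (⊤ : Subgroup G)) :
    m15x_Sub.val ((m15x_kumZ e he n y).1 h) =
      e ((h : G) • (y : J) - (y : J)) := rfl

/-- the Kummer map `Y → Z¹(G, V)`. -/
def m15x_kum : ↥(m15x_Y G J n) →+
    s15e_Z1 (⊤ : Subgroup G) (m15x_Sub (m15x_V e n) (m15x_V_stable e he n)) :=
  AddMonoidHom.mk' (m15x_kumZ e he n) (by
    intro a b
    apply Subtype.ext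
    funext h
    apply m15x_Sub.val_injective
    show m15x_Sub.val ((m15x_kumZ e he n (a + b)).1 h) =
      m15x_Sub.val ((m15x_kumZ e he n a).1 h +
        (m15x_kumZ e he n b).1 h)
    rw [map_add, m15x_kumZ_apply, m15x_kumZ_apply, m15x_kumZ_apply, ← map_add]
    congr 1
    rw [AddSubgroup.coe_add, smul_add]
    abel)

theorem m15x_kum_apply (y : ↥(m15x_Y G J n)) (h : (⊤ : Subgroup G)) :
    m15x_Sub.val ((m15x_kum e he n y).1 h) =
      e ((h : G) • (y : J) - (y : J)) := rfl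

/-- **the kernel of the Kummer map.** -/
theorem m15x_kum_kernel (N₀ : ℕ) (y : ↥(m15x_Y G J n))
    (h0 : N₀ • s15e_cls (⊤ : Subgroup G) _ (m15x_kum e he n y) = 0) :
    ∃ z' ∈ m15x_fix G J, N₀ • e (n • (y : J)) = n • z' := by
  rw [← map_nsmul, s15e_cls_eq_zero_iff] at h0
  obtain ⟨v, hv⟩ := h0
  refine ⟨N₀ • e (y : J) - m15x_Sub.val v, ?_, ?_⟩
  · intro g
    have h1 := congrArg m15x_Sub.val (hv ⟨g, Subgroup.mem_top g⟩)
    have h1' : N₀ • (e (g • (y : J)) - e (y : J)) = g • m15x_Sub.val v - m15x_Sub.val v := by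
      rw [← map_sub]
      exact h1
    rw [smul_sub, smul_comm g N₀, ← he]
    have h2 : N₀ • e (g • (y : J)) = N₀ • e (y : J) + (g • m15x_Sub.val v - m15x_Sub.val v) := by
      rw [← h1', smul_sub]
      abel
    rw [h2]
    abel
  · rw [smul_sub, m15x_V_torsion e n _ (m15x_Sub.val_mem v), sub_zero, smul_comm n N₀,
      map_nsmul e]

/-- the map `Y → J^G`, `y ↦ n y`. -/
def m15x_nu : ↥(m15x_Y G J n) →+ ↥(m15x_fix G J) :=
  AddMonoidHom.mk' (fun y => ⟨n • (y : J), y.2⟩) (by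
    intro a b
    apply Subtype.ext
    show n • ((a + b : ↥(m15x_Y G J n)) : J) = n • (a : J) + n • (b : J)
    rw [AddSubgroup.coe_add, smul_add])

theorem m15x_nu_coe (y : ↥(m15x_Y G J n)) : ((m15x_nu (G := G) n y : ↥(m15x_fix G J)) : J) =
    n • (y : J) := rfl

/-- **the index bound**: if all classes `N₀ [ξ_y]` lie in a finite subgroup `S`, then every
subgroup `K ≤ J^G` containing `{z | N₀ e z ∈ n J^G}` has index `≤ |S|`. -/
theorem m15x_kum_index (hdiv : ∀ z ∈ m15x_fix G J, ∃ y : J, n • y = z) (N₀ : ℕ)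
    (S : AddSubgroup (s15e_H1 (⊤ : Subgroup G)
      (m15x_Sub (m15x_V e n) (m15x_V_stable e he n)))) [Finite S]
    (hS : ∀ y : ↥(m15x_Y G J n), N₀ • s15e_cls (⊤ : Subgroup G) _ (m15x_kum e he n y) ∈ S)
    (K : AddSubgroup ↥(m15x_fix G J))
    (hK : ∀ z : ↥(m15x_fix G J),
      (∃ z' ∈ m15x_fix G J, N₀ • e (z : J) = n • z') → z ∈ K) :
    K.index ≠ 0 ∧ K.index ≤ Nat.card S := by
  set φ : ↥(m15x_Y G J n) →+ s15e_H1 (⊤ : Subgroup G)
      (m15x_Sub (m15x_V e n) (m15x_V_stable e he n)) :=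
    (nsmulAddMonoidHom N₀).comp ((s15e_cls (⊤ : Subgroup G) _).comp (m15x_kum e he n)) with hφ
  have hφ_apply : ∀ y, φ y = N₀ • s15e_cls (⊤ : Subgroup G) _ (m15x_kum e he n y) := fun y => rfl
  have hsurj : Function.Surjective (m15x_nu (G := G) (J := J) n) := by
    intro z
    obtain ⟨y, hy⟩ := hdiv z z.2
    have hyY : y ∈ m15x_Y G J n := by
      show n • y ∈ m15x_fix G J
      rw [hy]; exact z.2
    exact ⟨⟨y, hyY⟩, Subtype.ext hy⟩
  have hker : φ.ker ≤ K.comap (m15x_nu (G := G) (J := J) n) := by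
    intro y hy
    rw [AddMonoidHom.mem_ker, hφ_apply] at hy
    obtain ⟨z', hz', h⟩ := m15x_kum_kernel e he n N₀ y hy
    exact hK _ ⟨z', hz', h⟩
  have hrange : φ.range ≤ S := by
    rintro _ ⟨y, rfl⟩
    rw [hφ_apply]
    exact hS y
  have h1 : (K.comap (m15x_nu (G := G) (J := J) n)).index = K.index :=
    AddSubgroup.index_comap_of_surjective K hsurj
  have h2 : (K.comap (m15x_nu (G := G) (J := J) n)).index ∣ φ.ker.index :=
    AddSubgroup.index_dvd_of_le hker
  have h3 : φ.ker.index = Nat.card φ.range := AddSubgroup.index_ker φ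
  haveI : Finite φ.range := Finite.of_injective (AddSubgroup.inclusion hrange)
    (AddSubgroup.inclusion_injective hrange)
  have h4 : Nat.card φ.range ≤ Nat.card S :=
    Nat.card_le_card_of_injective (AddSubgroup.inclusion hrange)
      (AddSubgroup.inclusion_injective hrange)
  have h5 : 0 < Nat.card φ.range := Nat.card_pos
  rw [h1, h3] at h2
  exact ⟨fun h0 => by rw [h0] at h2; exact absurd (Nat.eq_zero_of_zero_dvd h2) h5.ne',
    (Nat.le_of_dvd h5 h2).trans h4⟩

end Kummer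

end Fermat.Agent.Lib.S15
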