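/-
(M) glue (helper7, prefix `m15x_`), part B: **the Eisenstein part `V = e · J[p'^r]` is an
admissible module** (`s15e_IsAdm`, helper8's EAdm3) as soon as a power of the Eisenstein ideal kills
it.  Curve-free: `J` is an abstract `G_ℚ`-module with a commuting action of a commutative ring `R`;
all inputs from `J₀(p)` are fields of `m15x_Setup`.
-/
import Fermat.Agent.Lib.S15.MKum
import Fermat.Agent.Lib.S15.EAdm3

set_option autoImplicit false
set_option linter.unusedSectionVars false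
set_option linter.unusedVariables false
set_option linter.style.haveILetI false

noncomputable section

namespace Fermat.Agent.Lib.S15

open Fermat.Agent.Lib.S19

local notation "Kb" => AlgebraicClosure ℚ
local notation "GQ" => (AlgebraicClosure ℚ ≃ₐ[ℚ] AlgebraicClosure ℚ)

section Act

variable {J : Type} [AddCommGroup J] [DistribMulAction GQ J] {R : Type} [CommRing R] [Module R J]

/-- multiplication by `e : R` as an additive endomorphism of `J`. -/
def m15x_act (e : R) : J →+ J := DistribSMul.toAddMonoidHom J e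

theorem m15x_act_apply (e : R) (x : J) : m15x_act e x = e • x := rfl

/-- `J[n]` is Galois-stable. -/
theorem m15x_torsion_stable (n : ℕ) (g : GQ) (x : J) (hx : x ∈ m15x_torsion J n) :
    g • x ∈ m15x_torsion J n := by
  have hx' : n • x = 0 := hx
  show n • (g • x) = 0
  rw [smul_comm n g x, hx']
  exact smul_zero g

/-- `J[n]` as a Galois module. -/
abbrev m15x_X (J : Type) [AddCommGroup J] [DistribMulAction GQ J] (n : ℕ) : Type :=
  m15x_Sub (m15x_torsion J n) (m15x_torsion_stable (J := J) n)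

/-- the first block of hypotheses on `(J, R, I)`: Galois-equivariance, Eichler–Shimura in the form
`(σ - 1)(σ - q) = η_q σ` on `p'`-power torsion, good reduction outside `p p'`. -/
structure m15x_Setup (p p' : ℕ) (S : Finset ℕ) (J : Type) [AddCommGroup J]
    [DistribMulAction GQ J] (R : Type) [CommRing R] [Module R J] (I : Ideal R) : Prop where
  hp' : p'.Prime
  gal : ∀ (t : R) (σ : GQ) (x : J), t • (σ • x) = σ • (t • x)
  eis : ∀ q : ℕ, q.Prime → q ∉ S → q ≠ p → q ≠ p' → ∀ A : ValuationSubring Kb,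
    A.LiesOverPrime q → ∀ σ : GQ, A.IsFrobeniusAt σ q → ∃ η ∈ I, ∀ (r : ℕ) (x : J),
      p' ^ r • x = 0 → s15e_eisOp J σ q x = η • σ • x
  unr : ∀ ℓ : ℕ, ℓ.Prime → ℓ ≠ p → ℓ ≠ p' → ∀ A : ValuationSubring Kb, A.LiesOverPrime ℓ →
    ∀ σ ∈ A.inertiaSubgroupIn ℚ, ∀ (r : ℕ) (x : J), p' ^ r • x = 0 → σ • x = x

variable {p p' : ℕ} {S : Finset ℕ} {I : Ideal R}

theorem m15x_act_gal (hS : m15x_Setup p p' S J R I) (e : R) (g : GQ) (x : J) :
    m15x_act e (g • x) = g • m15x_act e x := hS.gal e g x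

theorem m15x_smul_pow_comm (hS : m15x_Setup p p' S J R I) (η : R) (σ : GQ) :
    ∀ (j : ℕ) (y : J), σ ^ j • (η • y) = η • (σ ^ j • y) := by
  intro j
  induction j with
  | zero => intro y; simp
  | succ j ihj => intro y; rw [pow_succ, mul_smul, ← hS.gal, ihj, ← mul_smul]

theorem m15x_eisOp_pow_torsion (hS : m15x_Setup p p' S J R I) (q : ℕ) (σ : GQ) (η : R)
    (hη : ∀ (r : ℕ) (x : J), p' ^ r • x = 0 → s15e_eisOp J σ q x = η • σ • x) (r : ℕ) :
    ∀ (k : ℕ) (x : J), p' ^ r • x = 0 →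
      (s15e_eisOp J σ q ^ k) x = η ^ k • (σ ^ k • x) := by
  intro k
  induction k with
  | zero => intro x _; simp
  | succ k ih =>
    intro x hx
    rw [pow_succ, s15e_end_mul_apply, hη r x hx]
    have hx' : p' ^ r • (η • σ • x) = 0 := by
      rw [smul_comm (p' ^ r) η, smul_comm (p' ^ r) σ, hx, smul_zero, smul_zero]
    rw [ih _ hx', pow_succ, mul_smul, pow_succ, mul_smul, m15x_smul_pow_comm hS]

/-- **`V = e J[p'^r]` is admissible.** -/
theorem m15x_V_isAdm (hS : m15x_Setup p p' S J R I) (e : R) (r k : ℕ)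
    (hk : ∀ a ∈ I ^ k, ∀ x : J, p' ^ r • x = 0 → a • e • x = 0)
    (hfin : Finite (m15x_X J (p' ^ r)))
    (hflat : ∃ H, s19_IsOrder p' (m15x_X J (p' ^ r)) H) :
    s15e_IsAdm S p p' (m15x_Sub (m15x_V (m15x_act (J := J) e) (p' ^ r))
      (m15x_V_stable (m15x_act e) (m15x_act_gal hS e) (p' ^ r))) := by
  haveI : Fact p'.Prime := ⟨hS.hp'⟩
  have hval : ∀ (σ : GQ) (w : m15x_Sub (m15x_V (m15x_act (J := J) e) (p' ^ r))
      (m15x_V_stable (m15x_act e) (m15x_act_gal hS e) (p' ^ r))),
      m15x_Sub.val (σ • w) = σ • m15x_Sub.val w := fun σ w => m15x_Sub.val_smul σ w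
  have htor : ∀ w : m15x_Sub (m15x_V (m15x_act (J := J) e) (p' ^ r))
      (m15x_V_stable (m15x_act e) (m15x_act_gal hS e) (p' ^ r)),
      p' ^ r • m15x_Sub.val w = 0 := fun w =>
    m15x_V_torsion (m15x_act (J := J) e) (p' ^ r) (m15x_Sub.val w) (m15x_Sub.val_mem w)
  refine ⟨?_, ?_, ?_, ?_⟩
  · intro w
    refine ⟨r, m15x_Sub.val_injective ?_⟩
    rw [map_nsmul, htor, map_zero]
  · intro q hq hqS hqp hqp' A hA σ hσ w
    obtain ⟨η, hηI, hη⟩ := hS.eis q hq hqS hqp hqp' A hA σ hσ
    refine ⟨k, m15x_Sub.val_injective ?_⟩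
    have h1 := s15e_eisOp_pow_map (W' := J) (m15x_Sub.val (V := m15x_V (m15x_act (J := J) e) (p' ^ r))
      (hV := m15x_V_stable (m15x_act e) (m15x_act_gal hS e) (p' ^ r))) hval σ q k w
    unfold s15e_eisOp at h1
    rw [h1, map_zero]
    have h2 := m15x_eisOp_pow_torsion hS q σ η hη r k _ (htor w)
    unfold s15e_eisOp at h2
    rw [h2]
    -- `σ^k w ∈ V = e X`
    have hmem : σ ^ k • m15x_Sub.val w ∈ m15x_V (m15x_act (J := J) e) (p' ^ r) := by
      have := m15x_Sub.val_mem (σ ^ k • w)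
      rwa [hval] at this
    obtain ⟨x₀, hx₀, hx₀e⟩ := hmem
    rw [← hx₀e, m15x_act_apply]
    exact hk _ (Ideal.pow_mem_pow hηI k) x₀ hx₀
  · intro ℓ hℓ hℓp hℓp' A hA σ hσ w
    apply m15x_Sub.val_injective
    rw [hval]
    exact hS.unr ℓ hℓ hℓp hℓp' A hA σ hσ r _ (htor w)
  · -- flat: `V` is a quotient of `J[p'^r]`
    let π : m15x_X J (p' ^ r) →+ m15x_Sub (m15x_V (m15x_act (J := J) e) (p' ^ r))
        (m15x_V_stable (m15x_act e) (m15x_act_gal hS e) (p' ^ r)) :=
      { toFun := fun x => m15x_Sub.mk (e • m15x_Sub.val x)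
          ⟨m15x_Sub.val x, m15x_Sub.val_mem x, rfl⟩
        map_zero' := by
          apply m15x_Sub.val_injective
          show e • m15x_Sub.val (0 : m15x_X J (p' ^ r)) = 0
          rw [map_zero, smul_zero]
        map_add' := fun a b => by
          apply m15x_Sub.val_injective
          show e • m15x_Sub.val (a + b) = e • m15x_Sub.val a + e • m15x_Sub.val b
          rw [map_add, smul_add] }
    have hπsurj : Function.Surjective π := by
      intro w
      obtain ⟨x₀, hx₀, hx₀e⟩ := m15x_Sub.val_mem w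
      exact ⟨m15x_Sub.mk x₀ hx₀, m15x_Sub.val_injective hx₀e⟩
    have hπG : ∀ (σ : GQ) (x : m15x_X J (p' ^ r)), π (σ • x) = σ • π x := by
      intro σ x
      apply m15x_Sub.val_injective
      show e • (σ • m15x_Sub.val x) = σ • (e • m15x_Sub.val x)
      exact hS.gal e σ _
    exact s19c_orderQuot p' _ _ π hπsurj hπG hflat

end Act

end Fermat.Agent.Lib.S15
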