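/-
(M) glue (helper7, prefix `m15x_`), part C: **the push-out of a flat Kummer extension along a
quotient `π : X → V` with `V` admissible is admissible**, and trivialises the pushed-out cocycle.

`E₁ = ι X + ℤ e₀` a finite flat `G_ℚ`-module, unramified outside `p p'`, with
`σ e₀ = e₀ + ι (x_σ)`; `V` admissible; then `E = E₁ / ι (ker π)` contains `V`, is admissible, and
`E = j V + ℤ ē₀` with `σ ē₀ - ē₀ = j (π x_σ)`.
-/
import Fermat.Agent.Lib.S15.MAsmB

set_option autoImplicit false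
set_option linter.unusedSectionVars false
set_option linter.unusedVariables false
set_option linter.style.haveILetI false

noncomputable section

namespace Fermat.Agent.Lib.S15

open Fermat.Agent.Lib.S19

local notation "Kb" => AlgebraicClosure ℚ
local notation "GQ" => (AlgebraicClosure ℚ ≃ₐ[ℚ] AlgebraicClosure ℚ)

section Pushout

variable {X V E₁ : Type} [AddCommGroup X] [DistribMulAction GQ X] [AddCommGroup V]
  [DistribMulAction GQ V] [AddCommGroup E₁] [DistribMulAction GQ E₁]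

/-- the kernel of the push-out: `ι (ker π)`. -/
def m15x_poN (π : X →+ V) (ι : X →+ E₁) : AddSubgroup E₁ := π.ker.map ι

theorem m15x_poN_stable (π : X →+ V) (ι : X →+ E₁)
    (hπ : ∀ (σ : GQ) (x : X), π (σ • x) = σ • π x) (hι : ∀ (σ : GQ) (x : X), ι (σ • x) = σ • ι x)
    (g : GQ) (n : E₁) (hn : n ∈ m15x_poN π ι) : g • n ∈ m15x_poN π ι := by
  obtain ⟨x, hx, rfl⟩ := hn
  refine ⟨g • x, ?_, hι g x⟩
  have hx' : π x = 0 := hx
  show π (g • x) = 0
  rw [hπ, hx', smul_zero]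

variable (S : Finset ℕ) (p p' : ℕ) [Fact p'.Prime]

/-- **the push-out lemma.** -/
theorem m15x_pushout [Finite V] [Finite E₁] (hV : s15e_IsAdm S p p' V)
    (π : X →+ V) (hπ : ∀ (σ : GQ) (x : X), π (σ • x) = σ • π x) (hπs : Function.Surjective π)
    (ι : X →+ E₁) (hι : ∀ (σ : GQ) (x : X), ι (σ • x) = σ • ι x) (hιi : Function.Injective ι)
    (e₀ : E₁) (xs : GQ → X) (hxs : ∀ σ : GQ, σ • e₀ = e₀ + ι (xs σ))
    (hgen : ∀ w : E₁, ∃ (x : X) (k : ℕ), w = ι x + k • e₀)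
    (hprim : ∀ w : E₁, ∃ k : ℕ, p' ^ k • w = 0)
    (hunr : ∀ ℓ : ℕ, ℓ.Prime → ℓ ≠ p → ℓ ≠ p' → ∀ A : ValuationSubring Kb, A.LiesOverPrime ℓ →
      ∀ σ ∈ A.inertiaSubgroupIn ℚ, ∀ w : E₁, σ • w = w)
    (hflat : ∃ H, s19_IsOrder p' E₁ H) :
    ∃ (E : s15e_Mod.{0} GQ) (j : V →+ E.carrier) (ε : E.carrier),
      (∀ (σ : GQ) (v : V), j (σ • v) = σ • j v) ∧ Function.Injective j ∧
      s15e_AdmC S p p' E ∧ (∀ σ : GQ, j (π (xs σ)) = σ • ε - ε) ∧
      ∀ w : E.carrier, ∃ (v : V) (k : ℤ), w = j v + k • ε := by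
  classical
  -- the quotient module
  set E₁m : s15e_Mod.{0} GQ := @s15e_Mod.mk GQ _ E₁ _ _ with hE₁m
  set Nn : AddSubgroup E₁ := m15x_poN π ι with hNn
  have hNst : ∀ (g : GQ), ∀ n ∈ Nn, g • n ∈ Nn := m15x_poN_stable π ι hπ hι
  set E : s15e_Mod.{0} GQ := s15e_quotMod E₁m Nn hNst with hE
  set q : E₁ →+ E.carrier := s15e_quotMk E₁m Nn hNst with hq
  have hqG : ∀ (g : GQ) (w : E₁), q (g • w) = g • q w := s15e_quotMk_smul E₁m Nn hNst
  have hqs : Function.Surjective q := s15e_quotMk_surjective E₁m Nn hNst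
  have hq0 : ∀ w : E₁, q w = 0 ↔ w ∈ Nn := s15e_quotMk_eq_zero_iff E₁m Nn hNst
  -- the map `j`
  have hkill : ∀ x ∈ π.ker, (q.comp ι) x = 0 := by
    intro x hx
    show q (ι x) = 0
    rw [hq0]
    exact ⟨x, hx, rfl⟩
  set j₀ : X ⧸ π.ker →+ E.carrier := QuotientAddGroup.lift π.ker (q.comp ι) hkill with hj₀
  set eqv : X ⧸ π.ker ≃+ V := QuotientAddGroup.quotientKerEquivOfSurjective π hπs with heqv
  set j : V →+ E.carrier := j₀.comp eqv.symm.toAddMonoidHom with hj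
  have hjπ : ∀ x : X, j (π x) = q (ι x) := by
    intro x
    show j₀ (eqv.symm (π x)) = q (ι x)
    have : eqv.symm (π x) = (QuotientAddGroup.mk x : X ⧸ π.ker) := by
      rw [AddEquiv.symm_apply_eq]
      rfl
    rw [this]
    rfl
  have hjG : ∀ (σ : GQ) (v : V), j (σ • v) = σ • j v := by
    intro σ v
    obtain ⟨x, rfl⟩ := hπs v
    rw [← hπ, hjπ, hjπ, hι, hqG]
  have hjinj : Function.Injective j := by
    rw [injective_iff_map_eq_zero]
    intro v hv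
    obtain ⟨x, rfl⟩ := hπs v
    rw [hjπ, hq0] at hv
    obtain ⟨x', hx', hxx'⟩ := hv
    have : x' = x := hιi hxx'
    rw [← this]
    exact hx'
  set ε : E.carrier := q e₀ with hε
  have hcoc : ∀ σ : GQ, j (π (xs σ)) = σ • ε - ε := by
    intro σ
    rw [hjπ, hε, ← hqG, hxs σ, map_add]
    abel
  have hgenE : ∀ w : E.carrier, ∃ (v : V) (k : ℤ), w = j v + k • ε := by
    intro w
    obtain ⟨w₁, rfl⟩ := hqs w
    obtain ⟨x, k, rfl⟩ := hgen w₁
    refine ⟨π x, (k : ℤ), ?_⟩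
    rw [map_add, map_nsmul, hjπ, natCast_zsmul]
  haveI : Finite E.carrier := Finite.of_surjective q hqs
  -- `(σ - 1) E ⊆ j V`
  have hsub : ∀ (σ : GQ) (w : E.carrier), ∃ v : V, σ • w - w = j v := by
    intro σ w
    obtain ⟨v, k, rfl⟩ := hgenE w
    refine ⟨σ • v - v + k • π (xs σ), ?_⟩
    have hsz : σ • (k • ε) = k • (σ • ε) :=
      map_zsmul (DistribSMul.toAddMonoidHom E.carrier σ) k ε
    rw [map_add, map_sub, hjG, map_zsmul, hcoc, smul_add, hsz, zsmul_sub]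
    abel
  refine ⟨E, j, ε, hjG, hjinj, ⟨inferInstance, ?_⟩, hcoc, hgenE⟩
  refine ⟨?_, ?_, ?_, ?_⟩
  · intro w
    obtain ⟨w₁, rfl⟩ := hqs w
    obtain ⟨k, hk⟩ := hprim w₁
    exact ⟨k, by rw [← map_nsmul, hk, map_zero]⟩
  · intro q' hq' hqS hqp hqp' A hA σ hσ w
    -- `eisOp w ∈ j V`
    have h1 : ∃ v : V, s15e_eisOp E.carrier σ q' w = j v := by
      rw [s15e_eisOp_apply]
      exact hsub σ _
    obtain ⟨v, hv⟩ := h1
    obtain ⟨k, hk⟩ := hV.eis q' hq' hqS hqp hqp' A hA σ hσ v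
    refine ⟨k + 1, ?_⟩
    have h2 := s15e_eisOp_pow_map j hjG σ q' k v
    unfold s15e_eisOp at h2 hv
    rw [pow_succ, s15e_end_mul_apply, hv, ← h2, hk, map_zero]
  · intro ℓ hℓ hℓp hℓp' A hA σ hσ w
    obtain ⟨w₁, rfl⟩ := hqs w
    rw [← hqG, hunr ℓ hℓ hℓp hℓp' A hA σ hσ w₁]
  · exact s19c_orderQuot p' E₁ E.carrier q hqs hqG hflat

end Pushout

end Fermat.Agent.Lib.S15
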