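/-
(M) glue (helper7, prefix `m15x_`), part D: small curve-free lemmas for the count.
* `m15x_two_smul_H1` : `H¹` of a group of order `≤ 2` is killed by `2`;
* `m15x_card_le_ker_sq` : `N² = 0` on a finite group `⇒ |V| ≤ |ker N|²`;
* `m15x_factorial_ker` : `|ker N|² ≤ C |V|`, `N² = 0` `⇒ C! · ker N ⊆ im N`;
* `m15x_arith_sel`, `m15x_arith_inv` : the two arithmetic consequences of the dévissage inequality.
-/
import Fermat.Agent.Lib.S15.EDev1

set_option autoImplicit false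
set_option linter.unusedSectionVars false
set_option linter.unusedVariables false
set_option linter.style.haveILetI false

noncomputable section

namespace Fermat.Agent.Lib.S15

section TwoTorsion

variable {G : Type*} [Group G] {V : Type*} [AddCommGroup V] [DistribMulAction G V]

/-- `H¹` of a subgroup `{1, c}` is killed by `2`. -/
theorem m15x_two_smul_H1 (H : Subgroup G) (c : G) (hc : c * c = 1)
    (hH : ∀ h : H, (h : G) = 1 ∨ (h : G) = c) (x : s15e_H1 H V) : 2 • x = 0 := by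
  obtain ⟨ξ, rfl⟩ := s15e_cls_surjective H V x
  rw [← map_nsmul, s15e_cls_eq_zero_iff]
  by_cases hcH : c ∈ H
  · -- `v = -ξ(c)`
    refine ⟨-(ξ : H → V) ⟨c, hcH⟩, fun h => ?_⟩
    have h1 : (ξ : H → V) 1 = 0 := by
      have := ξ.2 1 1
      rw [mul_one, Subgroup.coe_one, one_smul] at this
      exact left_eq_add.mp this
    have hcc : (⟨c, hcH⟩ : H) * ⟨c, hcH⟩ = 1 := Subtype.ext hc
    have h2 : (ξ : H → V) ⟨c, hcH⟩ + c • (ξ : H → V) ⟨c, hcH⟩ = 0 := by
      have := ξ.2 ⟨c, hcH⟩ ⟨c, hcH⟩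
      rw [hcc, h1] at this
      exact this.symm
    show (2 • ξ : s15e_Z1 H V).1 h = _
    have h3 : (2 • ξ : s15e_Z1 H V).1 h = 2 • (ξ : H → V) h := rfl
    rw [h3]
    rcases hH h with h' | h'
    · have : h = 1 := Subtype.ext h'
      rw [this, h1, Subgroup.coe_one, one_smul, smul_zero, sub_self]
    · have : h = ⟨c, hcH⟩ := Subtype.ext h'
      have h4 : c • (ξ : H → V) ⟨c, hcH⟩ = -(ξ : H → V) ⟨c, hcH⟩ :=
        eq_neg_of_add_eq_zero_right h2
      have h5 : ((⟨c, hcH⟩ : H) : G) • (-(ξ : H → V) ⟨c, hcH⟩) = (ξ : H → V) ⟨c, hcH⟩ := by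
        show c • (-(ξ : H → V) ⟨c, hcH⟩) = _
        rw [smul_neg, h4, neg_neg]
      rw [this, h5, two_nsmul]
      abel
  · refine ⟨0, fun h => ?_⟩
    have h1 : (ξ : H → V) 1 = 0 := by
      have := ξ.2 1 1
      rw [mul_one, Subgroup.coe_one, one_smul] at this
      exact left_eq_add.mp this
    rcases hH h with h' | h'
    · have : h = 1 := Subtype.ext h'
      show (2 • ξ : s15e_Z1 H V).1 h = _
      have h3 : (2 • ξ : s15e_Z1 H V).1 h = 2 • (ξ : H → V) h := rfl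
      rw [h3, this, h1, smul_zero, smul_zero, sub_self]
    · exact absurd (h' ▸ h.2) hcH

end TwoTorsion

section Count

variable {V : Type*} [AddCommGroup V] [Finite V] (N : V →+ V)

theorem m15x_card_ker_mul_range : Nat.card N.ker * Nat.card N.range = Nat.card V := by
  have h1 := AddSubgroup.card_eq_card_quotient_mul_card_addSubgroup N.ker
  have h2 : Nat.card (V ⧸ N.ker) = Nat.card N.range :=
    Nat.card_congr (QuotientAddGroup.quotientKerEquivRange N).toEquiv
  rw [h1, h2, mul_comm]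

/-- `N² = 0 ⇒ |V| ≤ |ker N|²`. -/
theorem m15x_card_le_ker_sq (hN : ∀ v, N (N v) = 0) : Nat.card V ≤ Nat.card N.ker ^ 2 := by
  have hle : N.range ≤ N.ker := by
    rintro _ ⟨v, rfl⟩
    exact hN v
  have h1 : Nat.card N.range ≤ Nat.card N.ker :=
    Nat.card_le_card_of_injective (AddSubgroup.inclusion hle) (AddSubgroup.inclusion_injective hle)
  rw [← m15x_card_ker_mul_range N, sq]
  exact Nat.mul_le_mul_left _ h1

/-- `|ker N|² ≤ C |V|`, `N² = 0` `⇒ C! · ker N ⊆ im N`. -/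
theorem m15x_factorial_ker (hN : ∀ v, N (N v) = 0) (C : ℕ)
    (hC : Nat.card N.ker ^ 2 ≤ C * Nat.card V) (v : V) (hv : N v = 0) :
    ∃ v' : V, C.factorial • v = N v' := by
  have hle : N.range ≤ N.ker := by
    rintro _ ⟨w, rfl⟩
    exact hN w
  -- the index of `im N` in `ker N`
  set d := (N.range.addSubgroupOf N.ker).index with hd
  have hd_mul : d * Nat.card N.range = Nat.card N.ker := by
    have h1 := AddSubgroup.index_mul_card (N.range.addSubgroupOf N.ker)
    have h2 : Nat.card (N.range.addSubgroupOf N.ker) = Nat.card N.range :=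
      Nat.card_congr (AddSubgroup.addSubgroupOfEquivOfLe hle).toEquiv
    rw [h2] at h1
    exact h1
  have hrpos : 0 < Nat.card N.range := Nat.card_pos
  have hkpos : 0 < Nat.card N.ker := Nat.card_pos
  have hdpos : 0 < d := by
    rcases Nat.eq_zero_or_pos d with h | h
    · rw [h, zero_mul] at hd_mul; omega
    · exact h
  have hdC : d ≤ C := by
    have h3 := m15x_card_ker_mul_range N
    -- `d * r = k`, `k * r = |V|`, `k² ≤ C k r`
    have h4 : Nat.card N.ker ^ 2 ≤ C * (Nat.card N.ker * Nat.card N.range) := by rw [h3]; exact hC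
    have h5 : Nat.card N.ker * (d * Nat.card N.range) ≤ Nat.card N.ker * (C * Nat.card N.range) := by
      rw [hd_mul]
      calc Nat.card N.ker * Nat.card N.ker = Nat.card N.ker ^ 2 := (sq _).symm
        _ ≤ C * (Nat.card N.ker * Nat.card N.range) := h4
        _ = Nat.card N.ker * (C * Nat.card N.range) := by ring
    have h6 := Nat.le_of_mul_le_mul_left h5 hkpos
    exact Nat.le_of_mul_le_mul_right h6 hrpos
  have hdvd : d ∣ C.factorial := Nat.dvd_factorial hdpos hdC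
  -- `d • v ∈ im N`
  have hmem : d • (⟨v, hv⟩ : N.ker) ∈ N.range.addSubgroupOf N.ker := by
    rw [hd]
    exact AddSubgroup.nsmul_index_mem _ _
  obtain ⟨m, hm⟩ := hdvd
  have h7 : C.factorial • v ∈ N.range := by
    rw [hm, mul_comm, mul_smul]
    apply N.range.nsmul_mem
    have := AddSubgroup.mem_addSubgroupOf.mp hmem
    simpa using this
  obtain ⟨v', hv'⟩ := h7
  exact ⟨v', hv'.symm⟩

end Count

section Arith

/-- the Selmer bound from the dévissage inequality. -/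
theorem m15x_arith_sel {s a₁ a₂ g v B : ℕ} (h : s * a₁ * a₂ ≤ g * v) (h1 : v ≤ a₁ ^ 2)
    (h2 : v ≤ B * a₂ ^ 2) (hv : 0 < v) : s ≤ B * g := by
  by_contra hlt
  rw [not_le] at hlt
  have hB : 0 < B := by
    rcases Nat.eq_zero_or_pos B with hB | hB
    · rw [hB, zero_mul] at h2; omega
    · exact hB
  -- `s² a₁² a₂² ≤ g² v²` and `v² ≤ a₁² B a₂²`
  have h3 : (s * a₁ * a₂) ^ 2 ≤ (g * v) ^ 2 := Nat.pow_le_pow_left h 2
  have h4 : v * v ≤ a₁ ^ 2 * (B * a₂ ^ 2) := Nat.mul_le_mul h1 h2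
  have h5 : s ^ 2 * (v * v) ≤ B * (g ^ 2 * (v * v)) := by
    calc s ^ 2 * (v * v) ≤ s ^ 2 * (a₁ ^ 2 * (B * a₂ ^ 2)) := Nat.mul_le_mul_left _ h4
      _ = B * (s * a₁ * a₂) ^ 2 := by ring
      _ ≤ B * (g * v) ^ 2 := Nat.mul_le_mul_left _ h3
      _ = B * (g ^ 2 * (v * v)) := by ring
    
  have hvv : 0 < v * v := Nat.mul_pos hv hv
  have h6 : s ^ 2 ≤ B * g ^ 2 := by
    have : s ^ 2 * (v * v) ≤ (B * g ^ 2) * (v * v) := by
      calc s ^ 2 * (v * v) ≤ B * (g ^ 2 * (v * v)) := h5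
        _ = (B * g ^ 2) * (v * v) := by ring
    exact Nat.le_of_mul_le_mul_right this hvv
  have h7 : (B * g) ^ 2 < s ^ 2 := Nat.pow_lt_pow_left hlt (by norm_num)
  have h8 : B * g ^ 2 ≤ (B * g) ^ 2 := by
    calc B * g ^ 2 = 1 * (B * g ^ 2) := (one_mul _).symm
      _ ≤ B * (B * g ^ 2) := Nat.mul_le_mul_right _ hB
      _ = (B * g) ^ 2 := by ring
  omega

/-- the bound for the inertia invariants from the admissibility inequality. -/
theorem m15x_arith_inv {a₁ a₂ g v B : ℕ} (h : a₁ * a₂ ≤ g * v) (h2 : v ≤ B * a₂ ^ 2)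
    (ha₂ : 0 < a₂) : a₁ ^ 2 ≤ (B * g ^ 2) * v := by
  have h3 : (a₁ * a₂) ^ 2 ≤ (g * v) ^ 2 := Nat.pow_le_pow_left h 2
  have h4 : a₁ ^ 2 * a₂ ^ 2 ≤ (B * g ^ 2 * v) * a₂ ^ 2 := by
    calc a₁ ^ 2 * a₂ ^ 2 = (a₁ * a₂) ^ 2 := by ring
      _ ≤ (g * v) ^ 2 := h3
      _ = g ^ 2 * v * v := by ring
      _ ≤ g ^ 2 * v * (B * a₂ ^ 2) := Nat.mul_le_mul_left _ h2
      _ = (B * g ^ 2 * v) * a₂ ^ 2 := by ring
  exact Nat.le_of_mul_le_mul_right h4 (Nat.pow_pos ha₂)

end Arith

end Fermat.Agent.Lib.S15
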