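/-
(M) glue (helper7, prefix `m15w_`): the curve-free WEIGHT LEMMA which eliminates the geometric node
[KUM-p].

`E` an abelian group, `V ≤ E`, `N S : E →+ E` (`N = σ₀ - 1` for a generator `σ₀` of tame inertia,
`S = φ²` for a Frobenius element `φ`), `P = p²`:
* `N E ⊆ V`, `N² V = 0`, `(S - 1) E ⊆ V`,
* `S N = (P N + c N²) S`  (from `φ² σ₀ φ⁻² = σ₀^{p²}` and `N³ = 0`),
* `(S - 1)(S - P) = 0` on `V`  (NEW-WEIGHT).
Then `S (N² e) = P² N² e`, hence `(P² - 1)(P² - P) N² e = 0`; and if `M₂ · ker (N|V) ⊆ N V` then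
`(P² - 1)(P² - P) M₂ · N e ∈ N V`.
Mathlib only.
-/
import Mathlib

set_option autoImplicit false
set_option linter.unusedSectionVars false
set_option linter.unusedVariables false

namespace Fermat.Agent.Lib.S15

section Weight

variable {E : Type*} [AddCommGroup E] (V : AddSubgroup E) (N S : E →+ E) (P c : ℤ)

/-- `S (N² e) = P² N² e`. -/
theorem m15w_S_NN (hNV : ∀ e, N e ∈ V) (hN2 : ∀ v ∈ V, N (N v) = 0) (hSV : ∀ e, S e - e ∈ V)
    (hSN : ∀ e, S (N e) = P • N (S e) + c • N (N (S e))) (e : E) :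
    S (N (N e)) = (P * P) • N (N e) := by
  -- `N³ = 0`
  have hN3 : ∀ x, N (N (N x)) = 0 := fun x => hN2 _ (hNV x)
  -- `N² S e = N² e`
  have h1 : N (N (S e)) = N (N e) := by
    have h := hN2 _ (hSV e)
    rw [map_sub, map_sub, sub_eq_zero] at h
    exact h
  -- `S (N e) = P N S e + c N² S e`
  have h2 := hSN e
  -- `N (S (N e)) = P N² S e`
  have h3 : N (S (N e)) = P • N (N (S e)) := by
    rw [h2, map_add, map_zsmul, map_zsmul, hN3, smul_zero, add_zero]
  have h4 : N (N (S (N e))) = 0 := by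
    rw [h3, map_zsmul, hN3, smul_zero]
  have h5 : S (N (N e)) = P • N (S (N e)) + c • N (N (S (N e))) := hSN (N e)
  rw [h5, h4, smul_zero, add_zero, h3, h1, mul_smul]

/-- **the weight lemma**: `(P² - 1)(P² - P)` kills `N² E`. -/
theorem m15w_weight (hNV : ∀ e, N e ∈ V) (hN2 : ∀ v ∈ V, N (N v) = 0) (hSV : ∀ e, S e - e ∈ V)
    (hSN : ∀ e, S (N e) = P • N (S e) + c • N (N (S e)))
    (hwt : ∀ v ∈ V, S (S v) - (1 + P) • S v + P • v = 0) (e : E) :
    ((P * P - 1) * (P * P - P)) • N (N e) = 0 := by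
  have hS := m15w_S_NN V N S P c hNV hN2 hSV hSN e
  have hx : N (N e) ∈ V := hNV _
  have h := hwt _ hx
  rw [hS, map_zsmul, hS] at h
  have : ((P * P - 1) * (P * P - P)) • N (N e) =
      (P * P) • (P * P) • N (N e) - (1 + P) • (P * P) • N (N e) + P • N (N e) := by
    simp only [← mul_smul, ← sub_smul, ← add_smul]
    congr 1
    ring
  rw [this]
  exact h

/-- **consequence**: if `ker (N|V) / N V` is killed by `M₂`, then a bounded multiple of `N e` lies in
`N V`, i.e. a bounded multiple of `e` is `N`-invariant modulo `V`. -/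
theorem m15w_exists_invariant (hNV : ∀ e, N e ∈ V) (hN2 : ∀ v ∈ V, N (N v) = 0)
    (hSV : ∀ e, S e - e ∈ V) (hSN : ∀ e, S (N e) = P • N (S e) + c • N (N (S e)))
    (hwt : ∀ v ∈ V, S (S v) - (1 + P) • S v + P • v = 0) (M₂ : ℤ)
    (hM₂ : ∀ v ∈ V, N v = 0 → ∃ v' ∈ V, M₂ • v = N v') (e : E) :
    ∃ v ∈ V, N ((M₂ * ((P * P - 1) * (P * P - P))) • e - v) = 0 := by
  have h1 := m15w_weight V N S P c hNV hN2 hSV hSN hwt e
  have h2 : N (((P * P - 1) * (P * P - P)) • N e) = 0 := by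
    rw [map_zsmul]; exact h1
  obtain ⟨v', hv', h3⟩ := hM₂ _ (V.zsmul_mem (hNV e) _) h2
  refine ⟨v', hv', ?_⟩
  rw [map_sub, map_zsmul, mul_smul, ← h3, sub_self]

end Weight

section Binomial

/-- in a ring, `N³ = 0` gives `(1 + N)^n = 1 + n N + (n choose 2) N²`. -/
theorem m15w_one_add_pow {A : Type*} [Ring A] (N : A) (hN : N ^ 3 = 0) (n : ℕ) :
    (1 + N) ^ n = 1 + (n : A) * N + (n.choose 2 : A) * N ^ 2 := by
  induction n with
  | zero => simp
  | succ k ih =>
    rw [pow_succ, ih]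
    have h3 : N ^ 2 * N = 0 := by rw [← pow_succ]; exact hN
    have hc : ((k + 1).choose 2 : A) = (k.choose 2 : A) + (k : A) := by
      rw [Nat.choose_succ_succ' k 1, Nat.choose_one_right]
      push_cast
      exact add_comm _ _
    rw [hc]
    have e1 : (1 + (k : A) * N + (k.choose 2 : A) * N ^ 2) * (1 + N) =
        1 + (k : A) * N + (k.choose 2 : A) * N ^ 2 + N + (k : A) * (N * N) +
          (k.choose 2 : A) * (N ^ 2 * N) := by
      noncomm_ring
    rw [e1, h3, mul_zero, add_zero]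
    have e2 : N * N = N ^ 2 := (sq N).symm
    rw [e2]
    push_cast
    noncomm_ring

end Binomial

end Fermat.Agent.Lib.S15
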