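/-
(M) glue (helper7, prefix `m15w_`): the Kummer classes are STRICT AT `p` up to a bounded factor
(curve-free form of the elimination of [KUM-p]).

`E = j V + ℤ e₀` a `G`-module, `σ e₀ - e₀ = j (ξ σ)`; `σ₀ ∈ I` generates the action of the inertia
group `I` on `E`; `φ σ₀ φ⁻¹ = σ₀^p` on `E`; `(σ₀ - 1)² = 0` and `(φ² - 1)(φ² - p²) = 0` on `V`;
`M₂ · ker(σ₀ - 1 | V) ⊆ (σ₀ - 1) V`.  Then `M₀ ξ` is a coboundary on `I`,
`M₀ = M₂ (p⁴ - 1)(p⁴ - p²)`.
Mathlib + `MWeight.lean`.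
-/
import Fermat.Agent.Lib.S15.MWeight

set_option autoImplicit false
set_option linter.unusedSectionVars false
set_option linter.unusedVariables false

namespace Fermat.Agent.Lib.S15

section Strict

variable {G : Type*} [Group G] {V E : Type*} [AddCommGroup V] [DistribMulAction G V]
  [AddCommGroup E] [DistribMulAction G E]

/-- conjugation relation for powers: `f s = t f ⇒ f s^k = t^k f`. -/
theorem m15w_conj_pow {A : Type*} [Monoid A] (f s t : A) (h : f * s = t * f) (k : ℕ) :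
    f * s ^ k = t ^ k * f := by
  induction k with
  | zero => simp
  | succ k ih => rw [pow_succ, ← mul_assoc, ih, mul_assoc, h, ← mul_assoc, ← pow_succ]

theorem m15w_strict (I : Subgroup G) (j : V →+ E) (hj : ∀ (g : G) (v : V), j (g • v) = g • j v)
    (hinj : Function.Injective j) (e₀ : E) (ξ : G → V) (hξ : ∀ g : G, j (ξ g) = g • e₀ - e₀)
    (hgen : ∀ w : E, ∃ (v : V) (k : ℤ), w = j v + k • e₀)
    (σ₀ φ : G) (p : ℕ)
    (hT1 : ∀ w : E, σ₀ • w = w → ∀ σ ∈ I, σ • w = w)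
    (hT2 : ∀ w : E, (φ * σ₀ * φ⁻¹) • w = (σ₀ ^ p) • w)
    (hSS : ∀ v : V, σ₀ • σ₀ • v - 2 • σ₀ • v + v = 0)
    (hNW : ∀ v : V, φ • φ • φ • φ • v - (1 + p ^ 2) • (φ • φ • v) + p ^ 2 • v = 0)
    (M₂ : ℕ) (hM₂ : ∀ v : V, σ₀ • v = v → ∃ v' : V, M₂ • v = σ₀ • v' - v') :
    ∃ v : V, ∀ σ ∈ I,
      ((M₂ : ℤ) * ((((p : ℤ) ^ 2) * ((p : ℤ) ^ 2) - 1) *
        (((p : ℤ) ^ 2) * ((p : ℤ) ^ 2) - (p : ℤ) ^ 2))) • ξ σ = σ • v - v := by
  -- the operators
  set s : AddMonoid.End E := DistribMulAction.toAddMonoidEnd G E σ₀ with hs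
  set f : AddMonoid.End E := DistribMulAction.toAddMonoidEnd G E φ with hf
  have hs_apply : ∀ w, s w = σ₀ • w := fun w => rfl
  have hf_apply : ∀ w, f w = φ • w := fun w => rfl
  set N : AddMonoid.End E := s - 1 with hN
  set S : AddMonoid.End E := f * f with hS
  have hN_apply : ∀ w, N w = σ₀ • w - w := fun w => rfl
  have hS_apply : ∀ w, S w = φ • φ • w := fun w => rfl
  set P : ℤ := (p : ℤ) ^ 2 with hP
  set c : ℤ := (((p ^ 2).choose 2 : ℕ) : ℤ) with hc
  have hsz : ∀ (g : G) (k : ℤ) (x : E), g • (k • x) = k • (g • x) := fun g k x =>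
    map_zsmul (DistribSMul.toAddMonoidHom E g) k x
  -- `N E ⊆ j V`
  have hNV : ∀ w, (N : E →+ E) w ∈ j.range := by
    intro w
    obtain ⟨v, k, rfl⟩ := hgen w
    refine ⟨σ₀ • v - v + k • ξ σ₀, ?_⟩
    rw [hN_apply, map_add, map_sub, hj, map_zsmul, hξ, smul_add, hsz]
    simp only [smul_sub]
    abel
  -- `N² = 0` on `j V`
  have hN2 : ∀ v' ∈ j.range, (N : E →+ E) ((N : E →+ E) v') = 0 := by
    rintro _ ⟨v, rfl⟩
    rw [hN_apply, hN_apply, ← hj, ← map_sub, ← hj, ← map_sub, ← map_zero j]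
    congr 1
    have := hSS v
    rw [smul_sub]
    rw [two_nsmul] at this
    rw [← this]
    abel
  have hN3 : N * N * N = 0 := by
    ext w
    show (N : E →+ E) ((N : E →+ E) ((N : E →+ E) w)) = 0
    exact hN2 _ (hNV w)
  -- `(S - 1) E ⊆ j V`
  have hSV : ∀ w, (S : E →+ E) w - w ∈ j.range := by
    intro w
    obtain ⟨v, k, rfl⟩ := hgen w
    refine ⟨φ • φ • v - v + k • ξ (φ * φ), ?_⟩
    rw [hS_apply, map_add, map_sub, hj, hj, map_zsmul, hξ, smul_add, smul_add, hsz,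
      hsz, mul_smul]
    simp only [zsmul_sub]
    abel
  -- the tame relation
  have hfs : f * s = s ^ p * f := by
    ext w
    have h := hT2 (φ • w)
    rw [mul_smul, mul_smul, inv_smul_smul] at h
    show φ • σ₀ • w = (s ^ p) (φ • w)
    rw [h]
    have : ∀ (k : ℕ) (x : E), (σ₀ ^ k) • x = (s ^ k) x := by
      intro k
      induction k with
      | zero => intro x; simp
      | succ k ih =>
        intro x
        rw [pow_succ, mul_smul, ih, pow_succ]
        rfl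
    exact this p _
  have hSs : S * s = s ^ (p ^ 2) * S := by
    have h1 := m15w_conj_pow f s (s ^ p) hfs p
    rw [hS, mul_assoc, hfs, ← mul_assoc, h1, ← pow_mul, mul_assoc, sq]
  have hs1 : s = 1 + N := by rw [hN]; abel
  have hpow : s ^ (p ^ 2) = 1 + ((p ^ 2 : ℕ) : AddMonoid.End E) * N +
      (((p ^ 2).choose 2 : ℕ) : AddMonoid.End E) * N ^ 2 := by
    rw [hs1]
    exact m15w_one_add_pow N (by rw [pow_succ, pow_two]; exact hN3) (p ^ 2)
  have hSNring : S * N = (((p ^ 2 : ℕ) : AddMonoid.End E) * N +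
      (((p ^ 2).choose 2 : ℕ) : AddMonoid.End E) * N ^ 2) * S := by
    have h1 : S * N = S * s - S := by rw [hs1]; noncomm_ring
    rw [h1, hSs, hpow]
    noncomm_ring
  have hSN : ∀ w, (S : E →+ E) ((N : E →+ E) w) =
      P • (N : E →+ E) ((S : E →+ E) w) + c • (N : E →+ E) ((N : E →+ E) ((S : E →+ E) w)) := by
    intro w
    have h : (S * N) w = ((((p ^ 2 : ℕ) : AddMonoid.End E) * N +
        (((p ^ 2).choose 2 : ℕ) : AddMonoid.End E) * N ^ 2) * S) w := by rw [hSNring]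
    have e1 : (S * N) w = (S : E →+ E) ((N : E →+ E) w) := rfl
    have e2 : ((((p ^ 2 : ℕ) : AddMonoid.End E) * N +
        (((p ^ 2).choose 2 : ℕ) : AddMonoid.End E) * N ^ 2) * S) w =
        (p ^ 2) • (N : E →+ E) ((S : E →+ E) w) +
          ((p ^ 2).choose 2) • (N : E →+ E) ((N : E →+ E) ((S : E →+ E) w)) := by
      show ((((p ^ 2 : ℕ) : AddMonoid.End E) * N) ((S : E →+ E) w)) +
        (((((p ^ 2).choose 2 : ℕ) : AddMonoid.End E) * N ^ 2) ((S : E →+ E) w)) = _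
      rw [pow_two N]
      show ((p ^ 2 : ℕ) : AddMonoid.End E) ((N : E →+ E) ((S : E →+ E) w)) +
        (((p ^ 2).choose 2 : ℕ) : AddMonoid.End E)
          ((N : E →+ E) ((N : E →+ E) ((S : E →+ E) w))) = _
      rw [AddMonoid.End.natCast_apply, AddMonoid.End.natCast_apply]
    rw [e1, e2] at h
    rw [h, hP, hc, ← Nat.cast_pow, natCast_zsmul, natCast_zsmul]
  -- NEW-WEIGHT on `j V`
  have hwt : ∀ v' ∈ j.range,
      (S : E →+ E) ((S : E →+ E) v') - (1 + P) • (S : E →+ E) v' + P • v' = 0 := by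
    rintro _ ⟨v, rfl⟩
    rw [hS_apply, hS_apply, ← hj, ← hj, ← hj, ← hj, ← map_zsmul, ← map_zsmul, ← map_sub,
      ← map_add, ← map_zero j]
    congr 1
    have h := hNW v
    have e1 : (1 + P) • (φ • φ • v) = (1 + p ^ 2) • (φ • φ • v) := by
      rw [hP, ← Nat.cast_pow, ← Nat.cast_one (R := ℤ), ← Nat.cast_add, natCast_zsmul]
    have e2 : P • v = p ^ 2 • v := by
      rw [hP, ← Nat.cast_pow, natCast_zsmul]
    rw [e1, e2]
    exact h
  -- the bounded cokernel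
  have hM₂' : ∀ v' ∈ j.range, (N : E →+ E) v' = 0 → ∃ v'' ∈ j.range,
      (M₂ : ℤ) • v' = (N : E →+ E) v'' := by
    rintro _ ⟨v, rfl⟩ h0
    have hv : σ₀ • v = v := by
      apply hinj
      rw [hj]
      exact sub_eq_zero.mp h0
    obtain ⟨v', hv'⟩ := hM₂ v hv
    refine ⟨j v', ⟨v', rfl⟩, ?_⟩
    rw [hN_apply, ← hj, ← map_sub, ← hv', map_nsmul, natCast_zsmul]
  obtain ⟨v', ⟨v, rfl⟩, hinv⟩ :=
    m15w_exists_invariant j.range (N : E →+ E) (S : E →+ E) P c hNV hN2 hSV hSN hwt (M₂ : ℤ) hM₂' e₀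
  refine ⟨v, fun σ hσ => ?_⟩
  have hinv' : σ₀ • (((M₂ : ℤ) * ((P * P - 1) * (P * P - P))) • e₀ - j v) =
      ((M₂ : ℤ) * ((P * P - 1) * (P * P - P))) • e₀ - j v := sub_eq_zero.mp hinv
  have hfix := hT1 _ hinv' σ hσ
  apply hinj
  rw [map_zsmul, hξ, map_sub, hj]
  rw [smul_sub, hsz] at hfix
  rw [zsmul_sub]
  set a := ((M₂ : ℤ) * ((P * P - 1) * (P * P - P))) • σ • e₀ with ha
  set b := σ • j v with hb
  set c' := ((M₂ : ℤ) * ((P * P - 1) * (P * P - P))) • e₀ with hc'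
  set d := j v with hd
  calc a - c' = (a - b) - (c' - d) + (b - d) := by abel
    _ = b - d := by rw [hfix]; abel

end Strict

end Fermat.Agent.Lib.S15
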