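/-
(M) glue (helper7, prefix `m15x_`), part E: **the Selmer bound for the Eisenstein part**, abstractly.

`J` an abstract `G_ℚ`-module with a commuting action of `R ⊇ I`; all inputs from `J₀(p)` are the
fields of `m15x_Setup` (part B) and `m15x_Setup2` (here).  For `V = e · J[p'^r]` (with `I^k V = 0`):
* `m15x_Vr_admC` : `V` is admissible;
* `m15x_kum_triv_strict` : the Kummer class of a rational point is admissible-trivialisable and
  `M₂ (p⁴-1)(p⁴-p²)`-strict on the inertia group at `p`;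
* `m15x_sel_bound` : the strict Selmer group has at most `B · B₂` elements.
-/
import Fermat.Agent.Lib.S15.MAsmC
import Fermat.Agent.Lib.S15.MAsmD
import Fermat.Agent.Lib.S15.MStrict
import Fermat.Agent.Lib.S15.EAdm5

set_option autoImplicit false
set_option linter.unusedSectionVars false
set_option linter.unusedVariables false
set_option linter.style.haveILetI false

noncomputable section

namespace Fermat.Agent.Lib.S15

open Fermat.Agent.Lib.S19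

local notation "Kb" => AlgebraicClosure ℚ
local notation "GQ" => (AlgebraicClosure ℚ ≃ₐ[ℚ] AlgebraicClosure ℚ)

/-- the second block of hypotheses: the local structure at `p`, at `∞`, and the flat Kummer
extensions. -/
structure m15x_Setup2 (p p' : ℕ) (J : Type) [AddCommGroup J] [DistribMulAction GQ J]
    (P : ValuationSubring Kb) (φ c : GQ) (H₂ : Subgroup GQ) : Prop where
  hp : p.Prime
  hne : p' ≠ p
  hP : P.LiesOverPrime p
  hφ : P.IsFrobeniusAt φ p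
  hcc : c * c = 1
  hcH : c ∈ H₂
  hH₂ : ∀ h ∈ H₂, h = 1 ∨ h = c
  finX : ∀ r : ℕ, Finite (m15x_X J (p' ^ r))
  flatKum : ∀ (r : ℕ) (y : J), (∀ τ : GQ, τ • (p' ^ r • y) = p' ^ r • y) →
    ∃ (E : Type) (_ : AddCommGroup E) (_ : Finite E) (_ : DistribMulAction GQ E)
      (ι : m15x_X J (p' ^ r) →+ E) (e₀ : E),
      Function.Injective ι ∧
      (∀ (σ : GQ) (x : m15x_X J (p' ^ r)), ι (σ • x) = σ • ι x) ∧
      (∀ σ : GQ, ∃ x : m15x_X J (p' ^ r), m15x_Sub.val x = σ • y - y ∧ σ • e₀ = e₀ + ι x) ∧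
      p' ^ r • e₀ = 0 ∧
      (∀ e : E, ∃ (x : m15x_X J (p' ^ r)) (n : ℕ), e = ι x + n • e₀) ∧
      ∃ H, s19_IsOrder p' E H
  unrKum : ∀ ℓ : ℕ, ℓ.Prime → ℓ ≠ p → ℓ ≠ p' → ∀ A : ValuationSubring Kb, A.LiesOverPrime ℓ →
    ∀ σ ∈ A.inertiaSubgroupIn ℚ, ∀ (r : ℕ) (y : J),
      (∀ τ : GQ, τ • (p' ^ r • y) = p' ^ r • y) → σ • y = y
  ss : ∀ σ ∈ P.inertiaSubgroupIn ℚ, ∀ (r : ℕ) (x : J), p' ^ r • x = 0 →
    σ • σ • x - 2 • σ • x + x = 0
  nw : ∀ (r : ℕ) (x : J), p' ^ r • x = 0 →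
    φ • φ • φ • φ • x - (1 + p ^ 2) • (φ • φ • x) + p ^ 2 • x = 0
  tame : ∀ (W : Type) [AddCommGroup W] [Finite W] [DistribMulAction GQ W],
    (∀ w : W, ∃ k : ℕ, p' ^ k • w = 0) →
    (∃ E : IntermediateField ℚ Kb, FiniteDimensional ℚ E ∧
      ∀ σ : GQ, (∀ e ∈ E, σ e = e) → ∀ w : W, σ • w = w) →
    (∀ σ ∈ P.inertiaSubgroupIn ℚ, ∀ w : W, ∃ k : ℕ,
      ((DistribMulAction.toAddMonoidEnd GQ W σ - 1) ^ k) w = 0) →
    ∃ σ₀ ∈ P.inertiaSubgroupIn ℚ,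
      (∀ w : W, σ₀ • w = w → ∀ σ ∈ P.inertiaSubgroupIn ℚ, σ • w = w) ∧
      ∀ φ' : GQ, P.IsFrobeniusAt φ' p → ∀ w : W, (φ' * σ₀ * φ'⁻¹) • w = (σ₀ ^ p) • w

section Main

variable {p p' : ℕ} {S : Finset ℕ} {J : Type} [AddCommGroup J] [DistribMulAction GQ J]
  {R : Type} [CommRing R] [Module R J] {I : Ideal R}

/-- `V_r = e · J[p'^r]` as a Galois module. -/
abbrev m15x_Vr (hS : m15x_Setup p p' S J R I) (e : R) (r : ℕ) : Type :=
  m15x_Sub (m15x_V (m15x_act (J := J) e) (p' ^ r))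
    (m15x_V_stable (m15x_act e) (m15x_act_gal hS e) (p' ^ r))

/-- `V_r` as a bundled module. -/
abbrev m15x_Vb (hS : m15x_Setup p p' S J R I) (e : R) (r : ℕ) : s15e_Mod.{0} GQ :=
  @s15e_Mod.mk GQ _ (m15x_Vr hS e r) _ _

/-- the projection `J[p'^r] → V_r`, `x ↦ e x`. -/
def m15x_piV (hS : m15x_Setup p p' S J R I) (e : R) (r : ℕ) :
    m15x_X J (p' ^ r) →+ m15x_Vr hS e r where
  toFun := fun x => m15x_Sub.mk (e • m15x_Sub.val x) ⟨m15x_Sub.val x, m15x_Sub.val_mem x, rfl⟩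
  map_zero' := by
    apply m15x_Sub.val_injective
    show e • m15x_Sub.val (0 : m15x_X J (p' ^ r)) = 0
    rw [map_zero, smul_zero]
  map_add' := fun a b => by
    apply m15x_Sub.val_injective
    show e • m15x_Sub.val (a + b) = e • m15x_Sub.val a + e • m15x_Sub.val b
    rw [map_add, smul_add]

theorem m15x_piV_val (hS : m15x_Setup p p' S J R I) (e : R) (r : ℕ) (x : m15x_X J (p' ^ r)) :
    m15x_Sub.val (m15x_piV hS e r x) = e • m15x_Sub.val x := rfl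

theorem m15x_piV_surjective (hS : m15x_Setup p p' S J R I) (e : R) (r : ℕ) :
    Function.Surjective (m15x_piV hS e r) := by
  intro w
  obtain ⟨x₀, hx₀, hx₀e⟩ := m15x_Sub.val_mem w
  exact ⟨m15x_Sub.mk x₀ hx₀, m15x_Sub.val_injective hx₀e⟩

theorem m15x_piV_smul (hS : m15x_Setup p p' S J R I) (e : R) (r : ℕ) (σ : GQ)
    (x : m15x_X J (p' ^ r)) : m15x_piV hS e r (σ • x) = σ • m15x_piV hS e r x := by
  apply m15x_Sub.val_injective
  show e • (σ • m15x_Sub.val x) = σ • (e • m15x_Sub.val x)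
  exact hS.gal e σ _

theorem m15x_Vr_torsion (hS : m15x_Setup p p' S J R I) (e : R) (r : ℕ) (w : m15x_Vr hS e r) :
    p' ^ r • m15x_Sub.val w = 0 :=
  m15x_V_torsion (m15x_act (J := J) e) (p' ^ r) (m15x_Sub.val w) (m15x_Sub.val_mem w)

variable {P : ValuationSubring Kb} {φ c : GQ} {H₂ : Subgroup GQ}

/-- `J[p'^r]` carries a function order. -/
theorem m15x_X_flat (hS : m15x_Setup p p' S J R I) (hS2 : m15x_Setup2 p p' J P φ c H₂) (r : ℕ) :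
    ∃ H, s19_IsOrder p' (m15x_X J (p' ^ r)) H := by
  haveI : Fact p'.Prime := ⟨hS.hp'⟩
  obtain ⟨E, _, _, _, ι, e₀, hιi, hιG, -, -, -, hfl⟩ := hS2.flatKum r 0 (fun τ => by
    rw [smul_zero]; exact smul_zero τ)
  exact s19c_orderSub p' E _ ι hιi hιG hfl

/-- **`V_r` is an admissible module.** -/
theorem m15x_Vr_admC (hS : m15x_Setup p p' S J R I) (hS2 : m15x_Setup2 p p' J P φ c H₂)
    (e : R) (r k : ℕ) (hk : ∀ a ∈ I ^ k, ∀ x : J, p' ^ r • x = 0 → a • e • x = 0) :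
    s15e_AdmC S p p' (m15x_Vb hS e r) := by
  haveI := hS2.finX r
  refine ⟨?_, m15x_V_isAdm hS e r k hk (hS2.finX r) (m15x_X_flat hS hS2 r)⟩
  exact Finite.of_surjective _ (m15x_piV_surjective hS e r)


/-- **the Kummer class of a rational point is admissible-trivialisable, and strict at `p` up to the
factor `M₂ (p⁴ - 1)(p⁴ - p²)`.** -/
theorem m15x_kum_triv_strict [Fact p'.Prime] (hS : m15x_Setup p p' S J R I)
    (hS2 : m15x_Setup2 p p' J P φ c H₂)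
    (e : R) (r k : ℕ) (hk : ∀ a ∈ I ^ k, ∀ x : J, p' ^ r • x = 0 → a • e • x = 0) (M₂ : ℕ)
    (hM₂ : ∀ σ₀ ∈ P.inertiaSubgroupIn ℚ,
      (∀ v : m15x_Vr hS e r, σ₀ • v = v → ∀ σ ∈ P.inertiaSubgroupIn ℚ, σ • v = v) →
      ∀ v : m15x_Vr hS e r, σ₀ • v = v → ∃ v' : m15x_Vr hS e r, M₂ • v = σ₀ • v' - v')
    (y : ↥(m15x_Y GQ J (p' ^ r))) :
    s15e_Triv (s15e_AdmC S p p') (m15x_Vb hS e r)
        (s15e_cls (⊤ : Subgroup GQ) (m15x_Vr hS e r)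
          (m15x_kum (m15x_act e) (m15x_act_gal hS e) (p' ^ r) y)) ∧
      ∃ v : m15x_Vr hS e r, ∀ (σ : GQ) (hσ : σ ∈ P.inertiaSubgroupIn ℚ),
        ((M₂ : ℤ) * ((((p : ℤ) ^ 2) * ((p : ℤ) ^ 2) - 1) *
          (((p : ℤ) ^ 2) * ((p : ℤ) ^ 2) - (p : ℤ) ^ 2))) •
            ((m15x_kum (m15x_act e) (m15x_act_gal hS e) (p' ^ r) y).1
              ⟨σ, Subgroup.mem_top σ⟩) = σ • v - v := by
  classical
  haveI := hS2.finX r
  have hVadm := m15x_Vr_admC hS hS2 e r k hk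
  haveI : Finite (m15x_Vr hS e r) := hVadm.1
  obtain ⟨E₁, _, _, _, ι, e₀, hιi, hιG, hcoc₁, he₀, hgen₁, hfl₁⟩ :=
    hS2.flatKum r (y : J) ((m15x_mem_Y (p' ^ r)).mp y.2)
  choose xs hxs using hcoc₁
  -- `E₁` is `p'`-primary
  have hXtor : ∀ x : m15x_X J (p' ^ r), p' ^ r • x = 0 := by
    intro x
    apply m15x_Sub.val_injective
    rw [map_nsmul, map_zero]
    exact m15x_Sub.val_mem x
  have hprim : ∀ w : E₁, ∃ k' : ℕ, p' ^ k' • w = 0 := by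
    intro w
    obtain ⟨x, n, rfl⟩ := hgen₁ w
    refine ⟨r, ?_⟩
    rw [smul_add, ← map_nsmul, hXtor, map_zero, smul_comm, he₀, smul_zero, add_zero]
  -- unramified outside `p p'`
  have hunr : ∀ ℓ : ℕ, ℓ.Prime → ℓ ≠ p → ℓ ≠ p' → ∀ A : ValuationSubring Kb,
      A.LiesOverPrime ℓ → ∀ σ ∈ A.inertiaSubgroupIn ℚ, ∀ w : E₁, σ • w = w := by
    intro ℓ hℓ hℓp hℓp' A hA σ hσ w
    obtain ⟨x, n, rfl⟩ := hgen₁ w
    have h1 : σ • x = x := by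
      apply m15x_Sub.val_injective
      rw [m15x_Sub.val_smul]
      exact hS.unr ℓ hℓ hℓp hℓp' A hA σ hσ r _ (m15x_Sub.val_mem x)
    have h2 : xs σ = 0 := by
      apply m15x_Sub.val_injective
      rw [(hxs σ).1, map_zero,
        hS2.unrKum ℓ hℓ hℓp hℓp' A hA σ hσ r (y : J) ((m15x_mem_Y (p' ^ r)).mp y.2), sub_self]
    have h3 : σ • e₀ = e₀ := by rw [(hxs σ).2, h2, map_zero, add_zero]
    rw [smul_add, ← hιG, h1, smul_comm, h3]
  obtain ⟨E, j, ε, hjG, hjinj, hEadm, hcoc, hgenE⟩ :=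
    m15x_pushout (V := m15x_Vr hS e r) S p p' hVadm.2 (m15x_piV hS e r) (m15x_piV_smul hS e r)
      (m15x_piV_surjective hS e r) ι hιG hιi e₀ xs (fun σ => (hxs σ).2) hgen₁ hprim hunr hfl₁
  -- `π (xs σ)` is the Kummer cocycle
  have hkum : ∀ σ : GQ, m15x_piV hS e r (xs σ) =
      (m15x_kum (m15x_act e) (m15x_act_gal hS e) (p' ^ r) y).1 ⟨σ, Subgroup.mem_top σ⟩ := by
    intro σ
    apply m15x_Sub.val_injective
    rw [m15x_piV_val, (hxs σ).1, m15x_kum_apply]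
    rfl
  have hcoc' : ∀ σ : GQ,
      j ((m15x_kum (m15x_act e) (m15x_act_gal hS e) (p' ^ r) y).1 ⟨σ, Subgroup.mem_top σ⟩) =
        σ • ε - ε := fun σ => by rw [← hkum, hcoc]
  refine ⟨⟨E, j, hjG, hEadm, hjinj, ?_⟩, ?_⟩
  · rw [s15e_H1map_cls, s15e_cls_eq_zero_iff]
    refine ⟨ε, fun h => ?_⟩
    rw [s15e_Z1map_apply]
    exact hcoc' h
  · haveI : Finite E.carrier := hEadm.1
    obtain ⟨Hord, hHord⟩ := hEadm.2.flat
    -- `(σ - 1) E ⊆ j V`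
    have hsub : ∀ (σ : GQ) (w : E.carrier), ∃ v : m15x_Vr hS e r, σ • w - w = j v := by
      intro σ w
      obtain ⟨v, m, rfl⟩ := hgenE w
      refine ⟨σ • v - v + m • (m15x_kum (m15x_act e) (m15x_act_gal hS e) (p' ^ r) y).1
        ⟨σ, Subgroup.mem_top σ⟩, ?_⟩
      have hsz : σ • (m • ε) = m • (σ • ε) :=
        map_zsmul (DistribSMul.toAddMonoidHom E.carrier σ) m ε
      rw [map_add, map_sub, hjG, map_zsmul, hcoc', smul_add, hsz, zsmul_sub]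
      abel
    have hSSV : ∀ σ ∈ P.inertiaSubgroupIn ℚ, ∀ v : m15x_Vr hS e r,
        σ • σ • v - 2 • σ • v + v = 0 := by
      intro σ hσ v
      apply m15x_Sub.val_injective
      rw [map_add, map_sub, map_nsmul, m15x_Sub.val_smul, m15x_Sub.val_smul, map_zero]
      exact hS2.ss σ hσ r _ (m15x_Vr_torsion hS e r v)
    have hunip : ∀ σ ∈ P.inertiaSubgroupIn ℚ, ∀ w : E.carrier, ∃ k' : ℕ,
        ((DistribMulAction.toAddMonoidEnd GQ E.carrier σ - 1) ^ k') w = 0 := by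
      intro σ hσ w
      refine ⟨3, ?_⟩
      have hN : ∀ w' : E.carrier,
          (DistribMulAction.toAddMonoidEnd GQ E.carrier σ - 1) w' = σ • w' - w' := fun _ => rfl
      obtain ⟨v, hv⟩ := hsub σ w
      rw [pow_succ, pow_two, s15e_end_mul_apply, s15e_end_mul_apply, hN w, hv, hN, hN, ← hjG,
        ← map_sub, ← hjG, ← map_sub, ← map_zero j]
      congr 1
      have := hSSV σ hσ v
      rw [smul_sub, ← this, two_nsmul]
      abel
    obtain ⟨σ₀, hσ₀, hT1, hT2⟩ := hS2.tame E.carrier hEadm.2.primary (s15e_cont_of_order hHord)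
      hunip
    have hT1V : ∀ v : m15x_Vr hS e r, σ₀ • v = v → ∀ σ ∈ P.inertiaSubgroupIn ℚ, σ • v = v := by
      intro v hv σ hσ
      apply hjinj
      rw [hjG]
      exact hT1 (j v) (by rw [← hjG, hv]) σ hσ
    have hNWV : ∀ v : m15x_Vr hS e r,
        φ • φ • φ • φ • v - (1 + p ^ 2) • (φ • φ • v) + p ^ 2 • v = 0 := by
      intro v
      apply m15x_Sub.val_injective
      rw [map_add, map_sub, map_nsmul, map_nsmul, m15x_Sub.val_smul, m15x_Sub.val_smul,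
        m15x_Sub.val_smul, m15x_Sub.val_smul, map_zero]
      exact hS2.nw r _ (m15x_Vr_torsion hS e r v)
    obtain ⟨v, hv⟩ := m15w_strict (P.inertiaSubgroupIn ℚ) j hjG hjinj ε
      (fun σ => (m15x_kum (m15x_act e) (m15x_act_gal hS e) (p' ^ r) y).1
        ⟨σ, Subgroup.mem_top σ⟩) hcoc' hgenE σ₀ φ p hT1 (hT2 φ hS2.hφ) (hSSV σ₀ hσ₀) hNWV M₂
      (hM₂ σ₀ hσ₀ hT1V)
    exact ⟨v, fun σ hσ => hv σ hσ⟩


/-- `σ - 1` on a module. -/
def m15x_Nop {W : Type} [AddCommGroup W] [DistribMulAction GQ W] (σ : GQ) : W →+ W :=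
  DistribSMul.toAddMonoidHom W σ - AddMonoidHom.id W

theorem m15x_Nop_apply {W : Type} [AddCommGroup W] [DistribMulAction GQ W] (σ : GQ) (w : W) :
    m15x_Nop σ w = σ • w - w := rfl

theorem m15x_Vr_ss (hS : m15x_Setup p p' S J R I) (hS2 : m15x_Setup2 p p' J P φ c H₂)
    (e : R) (r : ℕ) (σ : GQ) (hσ : σ ∈ P.inertiaSubgroupIn ℚ) (v : m15x_Vr hS e r) :
    σ • σ • v - 2 • σ • v + v = 0 := by
  apply m15x_Sub.val_injective
  rw [map_add, map_sub, map_nsmul, m15x_Sub.val_smul, m15x_Sub.val_smul, map_zero]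
  exact hS2.ss σ hσ r _ (m15x_Vr_torsion hS e r v)

theorem m15x_Nop_sq (hS : m15x_Setup p p' S J R I) (hS2 : m15x_Setup2 p p' J P φ c H₂)
    (e : R) (r : ℕ) (σ : GQ) (hσ : σ ∈ P.inertiaSubgroupIn ℚ) (v : m15x_Vr hS e r) :
    m15x_Nop σ (m15x_Nop σ v) = 0 := by
  rw [m15x_Nop_apply, m15x_Nop_apply, smul_sub, ← m15x_Vr_ss hS hS2 e r σ hσ v, two_nsmul]
  abel

/-- the kernel of `σ₀ - 1` is the group of inertia invariants, if `σ₀` generates the image of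
inertia. -/
theorem m15x_ker_Nop (hS : m15x_Setup p p' S J R I) (e : R) (r : ℕ) (σ₀ : GQ)
    (hσ₀ : σ₀ ∈ P.inertiaSubgroupIn ℚ)
    (hT1 : ∀ v : m15x_Vr hS e r, σ₀ • v = v → ∀ σ ∈ P.inertiaSubgroupIn ℚ, σ • v = v) :
    (m15x_Nop σ₀ : m15x_Vr hS e r →+ m15x_Vr hS e r).ker =
      s15e_inv (P.inertiaSubgroupIn ℚ) (m15x_Vr hS e r) := by
  ext v
  rw [AddMonoidHom.mem_ker, m15x_Nop_apply, sub_eq_zero, s15e_mem_inv]
  constructor
  · intro h σ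
    exact hT1 v h σ σ.2
  · intro h
    exact h ⟨σ₀, hσ₀⟩

/-- **the count.** -/
theorem m15x_count [Fact p'.Prime] (hS : m15x_Setup p p' S J R I)
    (hS2 : m15x_Setup2 p p' J P φ c H₂)
    (hpiece : ∀ V', s15e_PieceC S p p' V' →
      s15e_PieceBound (P.inertiaSubgroupIn ℚ) H₂
        (s15e_LA (s15e_AdmC S p p') s15e_admC_prod s15e_admC_quot) V')
    (e : R) (r k : ℕ) (hk : ∀ a ∈ I ^ k, ∀ x : J, p' ^ r • x = 0 → a • e • x = 0) (B B₂ : ℕ)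
    (hB : Nat.card (m15x_Vr hS e r) ≤ B * Nat.card (s15e_inv H₂ (m15x_Vr hS e r)) ^ 2)
    (hB₂ : Nat.card (s15e_inv (⊤ : Subgroup GQ) (m15x_Vr hS e r)) ≤ B₂) :
    (∀ σ₀ ∈ P.inertiaSubgroupIn ℚ,
      (∀ v : m15x_Vr hS e r, σ₀ • v = v → ∀ σ ∈ P.inertiaSubgroupIn ℚ, σ • v = v) →
      ∀ v : m15x_Vr hS e r, σ₀ • v = v →
        ∃ v' : m15x_Vr hS e r, (B * B₂ ^ 2).factorial • v = σ₀ • v' - v') ∧
    (Finite (s15e_Sel (P.inertiaSubgroupIn ℚ) H₂ (m15x_Vr hS e r)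
        (s15e_LA (s15e_AdmC S p p') s15e_admC_prod s15e_admC_quot (m15x_Vb hS e r)) ⊥ ⊥) ∧
      Nat.card (s15e_Sel (P.inertiaSubgroupIn ℚ) H₂ (m15x_Vr hS e r)
        (s15e_LA (s15e_AdmC S p p') s15e_admC_prod s15e_admC_quot (m15x_Vb hS e r)) ⊥ ⊥) ≤
          B * B₂) := by
  classical
  have hVadm := m15x_Vr_admC hS hS2 e r k hk
  haveI : Finite (m15x_Vr hS e r) := hVadm.1
  set a₁ := Nat.card (s15e_inv (P.inertiaSubgroupIn ℚ) (m15x_Vr hS e r)) with ha₁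
  set a₂ := Nat.card (s15e_inv H₂ (m15x_Vr hS e r)) with ha₂
  set g := Nat.card (s15e_inv (⊤ : Subgroup GQ) (m15x_Vr hS e r)) with hg
  set v := Nat.card (m15x_Vr hS e r) with hv
  have ha₂pos : 0 < a₂ := Nat.card_pos
  have hvpos : 0 < v := Nat.card_pos
  have hadm : a₁ * a₂ ≤ g * v :=
    s15e_adm_GQ (P.inertiaSubgroupIn ℚ) H₂ hpiece (m15x_Vb hS e r) hVadm
  refine ⟨?_, ?_⟩
  · intro σ₀ hσ₀ hT1 w hw
    have h1 : a₁ ^ 2 ≤ (B * g ^ 2) * v := m15x_arith_inv hadm hB ha₂pos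
    have h2 : (B * g ^ 2) * v ≤ (B * B₂ ^ 2) * v :=
      Nat.mul_le_mul_right _ (Nat.mul_le_mul_left _ (Nat.pow_le_pow_left hB₂ 2))
    have hker := m15x_ker_Nop hS e r σ₀ hσ₀ hT1
    have hC : Nat.card (m15x_Nop σ₀ : m15x_Vr hS e r →+ m15x_Vr hS e r).ker ^ 2 ≤
        (B * B₂ ^ 2) * Nat.card (m15x_Vr hS e r) := by
      rw [hker]
      exact h1.trans h2
    have hw' : m15x_Nop σ₀ w = 0 := by rw [m15x_Nop_apply, hw, sub_self]
    obtain ⟨v', hv'⟩ := m15x_factorial_ker (m15x_Nop σ₀) (m15x_Nop_sq hS hS2 e r σ₀ hσ₀)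
      (B * B₂ ^ 2) hC w hw'
    exact ⟨v', hv'⟩
  · -- a generator of the image of inertia on `V`
    obtain ⟨Hord, hHord⟩ := hVadm.2.flat
    have hunip : ∀ σ ∈ P.inertiaSubgroupIn ℚ, ∀ w : m15x_Vr hS e r, ∃ k' : ℕ,
        ((DistribMulAction.toAddMonoidEnd GQ (m15x_Vr hS e r) σ - 1) ^ k') w = 0 := by
      intro σ hσ w
      refine ⟨2, ?_⟩
      rw [pow_two, s15e_end_mul_apply]
      exact m15x_Nop_sq hS hS2 e r σ hσ w
    obtain ⟨σ₀, hσ₀, hT1, -⟩ := hS2.tame (m15x_Vr hS e r) hVadm.2.primary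
      (s15e_cont_of_order hHord) hunip
    have hker := m15x_ker_Nop hS e r σ₀ hσ₀ hT1
    have h1 : v ≤ a₁ ^ 2 := by
      have := m15x_card_le_ker_sq (m15x_Nop σ₀ : m15x_Vr hS e r →+ m15x_Vr hS e r)
        (m15x_Nop_sq hS hS2 e r σ₀ hσ₀)
      rw [hker] at this
      exact this
    haveI : Finite (⊥ : AddSubgroup (s15e_H1 (P.inertiaSubgroupIn ℚ) (m15x_Vr hS e r))) :=
      Finite.of_subsingleton
    haveI : Finite (⊥ : AddSubgroup (s15e_H1 H₂ (m15x_Vr hS e r))) := Finite.of_subsingleton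
    obtain ⟨hfin, hdev⟩ := s15e_dev_GQ (P.inertiaSubgroupIn ℚ) H₂ hpiece (m15x_Vb hS e r) hVadm
      ⊥ ⊥
    refine ⟨hfin, ?_⟩
    rw [AddSubgroup.card_bot, AddSubgroup.card_bot, mul_one, mul_one] at hdev
    have h3 := m15x_arith_sel hdev h1 hB hvpos
    exact h3.trans (Nat.mul_le_mul_left _ hB₂)


/-- the constant `(p⁴ - 1)(p⁴ - p²)`. -/
def m15x_cP (p : ℕ) : ℕ := (p ^ 2 * p ^ 2 - 1) * (p ^ 2 * p ^ 2 - p ^ 2)

theorem m15x_cP_cast (p : ℕ) (hp : 0 < p) : ((m15x_cP p : ℕ) : ℤ) =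
    (((p : ℤ) ^ 2) * ((p : ℤ) ^ 2) - 1) * (((p : ℤ) ^ 2) * ((p : ℤ) ^ 2) - (p : ℤ) ^ 2) := by
  unfold m15x_cP
  have h1 : 1 ≤ p ^ 2 * p ^ 2 := Nat.mul_pos (Nat.pow_pos hp) (Nat.pow_pos hp)
  have h2 : p ^ 2 ≤ p ^ 2 * p ^ 2 := Nat.le_mul_of_pos_right _ (Nat.pow_pos hp)
  push_cast [Nat.cast_sub h1, Nat.cast_sub h2]
  ring

theorem m15x_cP_ne_zero (p : ℕ) (hp : 2 ≤ p) : m15x_cP p ≠ 0 := by
  unfold m15x_cP
  have h4 : 4 ≤ p ^ 2 := by nlinarith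
  have h1 : 2 ≤ p ^ 2 * p ^ 2 := by nlinarith
  have h2 : p ^ 2 < p ^ 2 * p ^ 2 := by nlinarith
  have h3 : 0 < p ^ 2 * p ^ 2 - p ^ 2 := Nat.sub_pos_of_lt h2
  have h5 : 0 < p ^ 2 * p ^ 2 - 1 := by omega
  exact (Nat.mul_pos h5 h3).ne'

/-- **the Kummer classes of rational points lie in the strict Selmer group, up to the factor
`N₀ = 2 · M₂ · (p⁴ - 1)(p⁴ - p²)`.** -/
theorem m15x_kum_mem_sel [Fact p'.Prime] (hS : m15x_Setup p p' S J R I)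
    (hS2 : m15x_Setup2 p p' J P φ c H₂)
    (e : R) (r k : ℕ) (hk : ∀ a ∈ I ^ k, ∀ x : J, p' ^ r • x = 0 → a • e • x = 0) (M₂ : ℕ)
    (hM₂ : ∀ σ₀ ∈ P.inertiaSubgroupIn ℚ,
      (∀ v : m15x_Vr hS e r, σ₀ • v = v → ∀ σ ∈ P.inertiaSubgroupIn ℚ, σ • v = v) →
      ∀ v : m15x_Vr hS e r, σ₀ • v = v → ∃ v' : m15x_Vr hS e r, M₂ • v = σ₀ • v' - v')
    (y : ↥(m15x_Y GQ J (p' ^ r))) :
    (2 * (M₂ * m15x_cP p)) • s15e_cls (⊤ : Subgroup GQ) (m15x_Vr hS e r)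
        (m15x_kum (m15x_act e) (m15x_act_gal hS e) (p' ^ r) y) ∈
      s15e_Sel (P.inertiaSubgroupIn ℚ) H₂ (m15x_Vr hS e r)
        (s15e_LA (s15e_AdmC S p p') s15e_admC_prod s15e_admC_quot (m15x_Vb hS e r)) ⊥ ⊥ := by
  obtain ⟨htriv, v, hv⟩ := m15x_kum_triv_strict hS hS2 e r k hk M₂ hM₂ y
  rw [s15e_mem_Sel]
  refine ⟨?_, ?_, ?_⟩
  · exact AddSubgroup.nsmul_mem _ ((s15e_mem_LA _ _).mpr (Or.inr htriv)) _
  · rw [AddSubgroup.mem_bot, map_nsmul, s15e_res_cls, mul_comm 2, mul_smul, ← map_nsmul,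
      ← map_nsmul, s15e_cls_eq_zero_iff]
    refine ⟨2 • v, fun h => ?_⟩
    have h1 := hv (h : GQ) h.2
    rw [← m15x_cP_cast p hS2.hp.pos, ← Nat.cast_mul, natCast_zsmul] at h1
    show (M₂ * m15x_cP p) • (2 • (m15x_kum (m15x_act e) (m15x_act_gal hS e) (p' ^ r) y).1
      ⟨(h : GQ), Subgroup.mem_top _⟩) = _
    rw [smul_comm, h1, smul_sub, smul_comm]
  · rw [AddSubgroup.mem_bot, map_nsmul, mul_smul]
    exact m15x_two_smul_H1 H₂ c hS2.hcc (fun h => hS2.hH₂ h h.2) _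

end Main

end Fermat.Agent.Lib.S15
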