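/-
Programme M (S15), node [T'] (helper6, prefix `s15w_`), part 3: THE MODULAR UNIT ON `X₀(p)`.

helper8's landed `s44e_unit_ord_bar_gen` (S44): the function
`G = h⁶ j⁴ (j - 1728)³ / (j_p⁴ (j_p - 1728)³)`, `d j_p = h d j`, of `F̄(1·p)` has neither zero nor
pole where `j` is regular.  Here it is packaged at a level `N = 1·p` (transported by `subst`)
together with its `q`-expansion `G · den = num`,
`num = (θ j_p)⁶ j⁴ (j - 1728)³`, `den = (θ j)⁶ j_p⁴ (j_p - 1728)³`.
-/
import Fermat.Agent.Lib.S15.WTSeries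
import Fermat.Agent.Lib.S15.WEtKer
import Fermat.Agent.Lib.S44.EUnitLevel
import Fermat.Agent.Lib.S36.RTheta

set_option autoImplicit false
set_option linter.unusedSectionVars false
set_option linter.unusedVariables false
set_option linter.style.haveILetI false
set_option synthInstance.maxHeartbeats 200000

noncomputable section

namespace Fermat.Agent.Lib.S15

open HahnSeries ModularCurve AlgebraicCurve KaehlerDifferential Fermat.Agent.Lib.FF
  Fermat.Agent.Lib.S28 Fermat.Agent.Lib.S37 Fermat.Agent.Lib.S18 Fermat.Agent.Lib.S36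
  Fermat.Agent.Lib.S44

local notation "Kb" => AlgebraicClosure ℚ

/-! ### numerator and denominator -/

section Series

variable (K : Type*) [Field K] (p : ℕ) [NeZero p]

/-- `(θ j_p)⁶ j⁴ (j - 1728)³`. -/
def s15w_uNum : LaurentSeries K :=
  ffd_theta (qExpand K p (jqModC K)) ^ 6 * jqModC K ^ 4 * (jqModC K - HahnSeries.C 1728) ^ 3

/-- `(θ j)⁶ j_p⁴ (j_p - 1728)³`. -/
def s15w_uDen : LaurentSeries K :=
  ffd_theta (jqModC K) ^ 6 * qExpand K p (jqModC K) ^ 4 *
    (qExpand K p (jqModC K) - HahnSeries.C 1728) ^ 3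

theorem s15w_theta_jq_ne_zero : ffd_theta (jqModC K) ≠ 0 := by
  intro h0
  have := congrArg (fun s => HahnSeries.coeff s (-1)) h0
  simp only [ffd_theta_coeff, HahnSeries.coeff_zero, coeff_jqModC_neg_one, mul_one] at this
  norm_num at this

theorem s15w_jq_sub_ne_zero (c : K) : jqModC K - HahnSeries.C c ≠ 0 := by
  intro h0
  have := congrArg (fun s => HahnSeries.coeff s (-1)) h0
  have hC : (HahnSeries.C c : LaurentSeries K).coeff (-1) = 0 := by
    rw [HahnSeries.C_apply, HahnSeries.coeff_single_of_ne (by norm_num)]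
  simp only [HahnSeries.coeff_sub, HahnSeries.coeff_zero, coeff_jqModC_neg_one, hC] at this
  norm_num at this

theorem s15w_qExpand_C (c : K) : qExpand K p (HahnSeries.C c) = HahnSeries.C c := by
  show qExpand K p (HahnSeries.single 0 c) = HahnSeries.single 0 c
  rw [qExpand_single, mul_zero]

end Series

theorem s15w_ord_pow {K F : Type*} [Field K] [Field F] [Algebra K F] (v : Place K F) (x : F)
    (n : ℕ) : v.ord (x ^ n) = (n : ℤ) * v.ord x := by
  rw [← zpow_natCast, v.ord_zpow]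

/-! ### helper8's `s44e_unit_ord_bar_gen` with an arbitrary level multiplier -/

section LevelGen

theorem s15w_nuTwo_35 : nuTwo 35 = 0 := by
  rw [nuTwo]
  haveI : IsEmpty {x : ZMod 35 // x ^ 2 + 1 = 0} := ⟨fun ⟨x, hx⟩ => by revert x; decide⟩
  exact Nat.card_of_isEmpty

theorem s15w_nuThree_35 : nuThree 35 = 0 := by
  rw [nuThree]
  haveI : IsEmpty {x : ZMod 35 // x ^ 2 + x + 1 = 0} := ⟨fun ⟨x, hx⟩ => by revert x; decide⟩
  exact Nat.card_of_isEmpty

variable (M p m₀ : ℕ) [NeZero M] [NeZero p] [NeZero m₀]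

/-- the modular unit has neither zero nor pole where `j` is regular, level `M p` over `Q̄`;
the elliptic points are dodged by raising the level `M → m₀ M`, `ν₂(m₀) = ν₃(m₀) = 0`
(same proof as `s44e_unit_ord_bar_gen`, which is the case `m₀ = 36`). -/
theorem s15w_unit_ord_gen (hm2 : nuTwo m₀ = 0) (hm3 : nuThree m₀ = 0)
    (hp : p.Prime) (hpM' : ¬ p ∣ m₀ * M)
    (h : ffi_F (M * p)) (hh : h ≠ 0)
    (hrel : D Kb (ffi_F (M * p)) (heckeBetaBar Kb M p (ffd_jBar M)) =
      h • D Kb (ffi_F (M * p)) (ffd_jBar (M * p)))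
    (v : Place Kb (ffi_F (M * p))) (hreg : 0 ≤ v.ord (ffd_jBar (M * p))) :
    6 * v.ord h + 4 * v.ord (ffd_jBar (M * p)) +
        3 * v.ord (ffd_jBar (M * p) - algebraMap Kb (ffi_F (M * p)) 1728) -
        4 * v.ord (heckeBetaBar Kb M p (ffd_jBar M)) -
        3 * v.ord (heckeBetaBar Kb M p (ffd_jBar M) - algebraMap Kb (ffi_F (M * p)) 1728) = 0 := by
  have hdvd : M * p ∣ m₀ * M * p := ⟨m₀, by ring⟩
  set ι : ffi_F (M * p) →ₐ[Kb] ffi_F (m₀ * M * p) :=
    s37l_incl (M * p) (m₀ * M * p) hdvd with hι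
  obtain ⟨hιint, W, hW⟩ := s44e_exists_place_above (M * p) (m₀ * M * p) ι v
  set e : ℕ := Place.ramificationIndexAlong ι W with he
  have hepos : 0 < e := s36u_ramIdx_pos ι hιint W
  have hord : ∀ f : ffi_F (M * p), W.ord (ι f) = (e : ℤ) * v.ord f := by
    intro f
    have := Place.ord_restrictAlong ι hιint W f
    rw [hW] at this
    exact this
  have hιA : ι (ffd_jBar (M * p)) = ffd_jBar (m₀ * M * p) := by
    apply Subtype.ext
    rw [hι, s37l_coe_incl, ffd_jBar_coe, ffd_jBar_coe]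
  have hιB : ι (heckeBetaBar Kb M p (ffd_jBar M)) =
      heckeBetaBar Kb (m₀ * M) p (ffd_jBar (m₀ * M)) := by
    apply Subtype.ext
    rw [hι, s37l_coe_incl, coe_heckeBetaBar, coe_heckeBetaBar, ffd_jBar_coe, ffd_jBar_coe]
  have hιc : ∀ c : Kb, ι (algebraMap Kb (ffi_F (M * p)) c) =
      algebraMap Kb (ffi_F (m₀ * M * p)) c := fun c => ι.commutes c
  have hrel' := s36r_D_map (RingHom.id Kb) (ι : ffi_F (M * p) →+* ffi_F (m₀ * M * p))
    (fun a => ι.commutes a) hrel
  simp only [RingHom.coe_coe] at hrel'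
  rw [hιA, hιB] at hrel'
  have hh' : ι h ≠ 0 := (map_ne_zero _).mpr hh
  have hreg' : 0 ≤ W.ord (ffd_jBar (m₀ * M * p)) := by
    rw [← hιA, hord]
    positivity
  have key := s44e_unit_ord_bar (m₀ * M) p hp hpM' (s36u_nuTwo_mul m₀ M hm2)
    (s36u_nuThree_mul m₀ M hm3) (ι h) hh' hrel' W hreg'
  rw [← hιA, ← hιB, ← hιc, ← map_sub, ← map_sub, hord, hord, hord, hord, hord] at key
  have hepos' : (0 : ℤ) < e := by exact_mod_cast hepos
  have : (e : ℤ) * (6 * v.ord h + 4 * v.ord (ffd_jBar (M * p)) +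
        3 * v.ord (ffd_jBar (M * p) - algebraMap Kb (ffi_F (M * p)) 1728) -
        4 * v.ord (heckeBetaBar Kb M p (ffd_jBar M)) -
        3 * v.ord (heckeBetaBar Kb M p (ffd_jBar M) - algebraMap Kb (ffi_F (M * p)) 1728)) = 0 := by
    linarith
  rcases mul_eq_zero.mp this with h0 | h0
  · omega
  · exact h0

/-- for every prime `p` there is a multiplier `m₀ ∈ {35, 36}` prime to `p` without elliptic
points. -/
theorem s15w_exists_mult (hp : p.Prime) :
    ∃ m₀ : ℕ, m₀ ≠ 0 ∧ nuTwo m₀ = 0 ∧ nuThree m₀ = 0 ∧ ¬ p ∣ m₀ := by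
  by_cases h5 : 5 ≤ p
  · refine ⟨36, by norm_num, ?_, ?_, ?_⟩
    · have := s44e_nuTwo_36 1; simpa using this
    · have := s44e_nuThree_36 1; simpa using this
    · intro h36
      have h36' : p ∣ 2 ^ 2 * 3 ^ 2 := by norm_num; exact h36
      rcases (Nat.Prime.dvd_mul hp).mp h36' with h2 | h3
      · have := (Nat.prime_dvd_prime_iff_eq hp Nat.prime_two).mp (hp.dvd_of_dvd_pow h2)
        omega
      · have := (Nat.prime_dvd_prime_iff_eq hp Nat.prime_three).mp (hp.dvd_of_dvd_pow h3)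
        omega
  · refine ⟨35, by norm_num, s15w_nuTwo_35, s15w_nuThree_35, ?_⟩
    intro h35
    have h35' : p ∣ 5 * 7 := by norm_num; exact h35
    rcases (Nat.Prime.dvd_mul hp).mp h35' with h2 | h3
    · have := (Nat.prime_dvd_prime_iff_eq hp (by norm_num : Nat.Prime 5)).mp h2
      omega
    · have := (Nat.prime_dvd_prime_iff_eq hp (by norm_num : Nat.Prime 7)).mp h3
      omega

end LevelGen

/-! ### the unit at level `1 * p`, and at `N = 1 * p` -/

section Unit

theorem s15w_unit_aux (p : ℕ) [NeZero p] (hp : p.Prime) :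
    ∃ G : ffi_F (1 * p), G ≠ 0 ∧
      (∀ v : Place Kb (ffi_F (1 * p)), 0 ≤ v.ord (ffd_jBar (1 * p)) → v.ord G = 0) ∧
      (G : LaurentSeries Kb) * s15w_uDen Kb p = s15w_uNum Kb p := by
  have hp1 : ¬ p ∣ 1 := fun h => hp.one_lt.ne' (Nat.dvd_one.mp h)
  set jA : ffi_F (1 * p) := ffd_jBar (1 * p) with hjA
  set jB : ffi_F (1 * p) := heckeBetaBar Kb 1 p (ffd_jBar 1) with hjB
  set c : ffi_F (1 * p) := algebraMap Kb (ffi_F (1 * p)) 1728 with hc
  have hcoeA : (jA : LaurentSeries Kb) = jqModC Kb := by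
    rw [hjA, ffd_jBar_coe, ← s36u_cusp_jSeries_eq]; rfl
  have hcoeB : (jB : LaurentSeries Kb) = qExpand Kb p (jqModC Kb) := by
    rw [hjB, coe_heckeBetaBar, ffd_jBar_coe, ← s36u_cusp_jSeries_eq]; rfl
  have hcoec : (c : LaurentSeries Kb) = HahnSeries.C 1728 := by
    rw [hc, s15w_coe_algebraMap]
  have hθA : ffd_theta (jA : LaurentSeries Kb) ≠ 0 := by
    rw [hcoeA]; exact s15w_theta_jq_ne_zero Kb
  haveI := s18r_ffGen (1 * p)
  obtain ⟨h, hrel⟩ := s36r_exists_D_eq (modularFunctionFieldBar (1 * p)) (ffd_jBar (1 * p))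
    jB jA hθA
  have hθ := s36r_theta_of_D (modularFunctionFieldBar (1 * p)) hrel
  have hθB : ffd_theta (jB : LaurentSeries Kb) ≠ 0 := by
    rw [hcoeB, s36r_theta_qExpand]
    intro h0
    have hp0 : ((p : ℕ) : Kb) ≠ 0 := by exact_mod_cast NeZero.ne p
    rcases smul_eq_zero.mp h0 with h1 | h1
    · exact hp0 h1
    · exact s15w_theta_jq_ne_zero Kb (qExpand_injective p (by rw [h1, map_zero]))
  have hh : h ≠ 0 := by
    rintro rfl
    apply hθB
    rw [hθ, ZeroMemClass.coe_zero, zero_mul]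
  have hA0 : jA ≠ 0 := s36u_cusp_jBar_ne_zero (1 * p)
  have hB0 : jB ≠ 0 := (map_ne_zero (heckeBetaBar Kb 1 p)).mpr (s36u_cusp_jBar_ne_zero 1)
  have hAc0 : jA - c ≠ 0 := by
    intro h0
    have := congrArg (fun x : ffi_F (1 * p) => (x : LaurentSeries Kb)) h0
    simp only [AddSubgroupClass.coe_sub, ZeroMemClass.coe_zero] at this
    rw [hcoeA, hcoec] at this
    exact s15w_jq_sub_ne_zero Kb 1728 this
  have hBc0 : jB - c ≠ 0 := by
    intro h0
    have := congrArg (fun x : ffi_F (1 * p) => (x : LaurentSeries Kb)) h0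
    simp only [AddSubgroupClass.coe_sub, ZeroMemClass.coe_zero] at this
    rw [hcoeB, hcoec] at this
    have h1 : qExpand Kb p (jqModC Kb - HahnSeries.C 1728) = 0 := by
      rw [map_sub, s15w_qExpand_C]
      exact this
    exact s15w_jq_sub_ne_zero Kb 1728 (qExpand_injective p (by rw [h1, map_zero]))
  refine ⟨h ^ 6 * jA ^ 4 * (jA - c) ^ 3 * (jB ^ 4 * (jB - c) ^ 3)⁻¹, ?_, ?_, ?_⟩
  · exact mul_ne_zero (mul_ne_zero (mul_ne_zero (pow_ne_zero _ hh) (pow_ne_zero _ hA0))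
      (pow_ne_zero _ hAc0)) (inv_ne_zero (mul_ne_zero (pow_ne_zero _ hB0) (pow_ne_zero _ hBc0)))
  · intro v hv
    obtain ⟨m₀, hm0, hm2, hm3, hpm⟩ := s15w_exists_mult p hp
    haveI : NeZero m₀ := ⟨hm0⟩
    have key := s15w_unit_ord_gen 1 p m₀ hm2 hm3 hp (by rw [mul_one]; exact hpm) h hh hrel v hv
    rw [v.ord_mul (mul_ne_zero (mul_ne_zero (pow_ne_zero _ hh) (pow_ne_zero _ hA0))
        (pow_ne_zero _ hAc0))
        (inv_ne_zero (mul_ne_zero (pow_ne_zero _ hB0) (pow_ne_zero _ hBc0))),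
      v.ord_inv, v.ord_mul (pow_ne_zero _ hB0) (pow_ne_zero _ hBc0),
      v.ord_mul (mul_ne_zero (pow_ne_zero _ hh) (pow_ne_zero _ hA0)) (pow_ne_zero _ hAc0),
      v.ord_mul (pow_ne_zero _ hh) (pow_ne_zero _ hA0),
      s15w_ord_pow, s15w_ord_pow, s15w_ord_pow, s15w_ord_pow, s15w_ord_pow]
    push_cast
    linarith
  · have hden : jB ^ 4 * (jB - c) ^ 3 ≠ 0 :=
      mul_ne_zero (pow_ne_zero _ hB0) (pow_ne_zero _ hBc0)
    have hcoe : ((h ^ 6 * jA ^ 4 * (jA - c) ^ 3 * (jB ^ 4 * (jB - c) ^ 3)⁻¹ : ffi_F (1 * p)) :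
        LaurentSeries Kb) =
        (h : LaurentSeries Kb) ^ 6 * jqModC Kb ^ 4 * (jqModC Kb - HahnSeries.C 1728) ^ 3 *
          (qExpand Kb p (jqModC Kb) ^ 4 *
            (qExpand Kb p (jqModC Kb) - HahnSeries.C 1728) ^ 3)⁻¹ := by
      push_cast
      rw [hcoeA, hcoeB, hcoec]
    rw [hcoe, s15w_uDen, s15w_uNum, ← hcoeB, ← hcoeA, hθ]
    have hb1 : (jB : LaurentSeries Kb) ≠ 0 := fun h0 => hB0 (Subtype.ext h0)
    have hb2 : (jB : LaurentSeries Kb) - HahnSeries.C 1728 ≠ 0 := by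
      intro h0
      apply hBc0
      apply Subtype.ext
      push_cast
      rw [hcoec]
      exact h0
    field_simp

/-- **the modular unit at level `N = 1 * p`** (in practice `N = p`). -/
theorem s15w_unit (N p : ℕ) [NeZero N] [NeZero p] (hN : N = 1 * p) (hp : p.Prime) :
    ∃ G : ffi_F N, G ≠ 0 ∧
      (∀ v : Place Kb (ffi_F N), 0 ≤ v.ord (ffd_jBar N) → v.ord G = 0) ∧
      (G : LaurentSeries Kb) * s15w_uDen Kb p = s15w_uNum Kb p := by
  subst hN
  exact s15w_unit_aux p hp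

end Unit

end Fermat.Agent.Lib.S15
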