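/-
Programme M (S15), node [T'] (helper6, prefix `s15w_`), part 4: THE LOGARITHMIC DERIVATIVE OF THE
MODULAR UNIT, in characteristic `0` (its order at `∞` is `p - 1`) and modulo `ℓ ≠ p`
(`Λ(G) = (p - 1) + 24 q + …`).
-/
import Fermat.Agent.Lib.S15.WTUnit
import Fermat.Agent.Lib.S36.RSeries

set_option autoImplicit false
set_option linter.unusedSectionVars false
set_option linter.unusedVariables false
set_option linter.style.haveILetI false

noncomputable section

namespace Fermat.Agent.Lib.S15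

open HahnSeries ModularCurve AlgebraicCurve IsLocalRing Fermat.Agent.Lib.FF
  Fermat.Agent.Lib.S28 Fermat.Agent.Lib.S37 Fermat.Agent.Lib.S18 Fermat.Agent.Lib.S36

local notation "Kb" => AlgebraicClosure ℚ

/-! ### generic computation over a field -/

section Generic

variable (K : Type*) [Field K] (p : ℕ) [NeZero p]

theorem s15w_theta_qExpand_jq :
    ffd_theta (qExpand K p (jqModC K)) =
      HahnSeries.C ((p : ℕ) : K) * qExpand K p (ffd_theta (jqModC K)) := by
  rw [s36r_theta_qExpand, HahnSeries.C_mul_eq_smul]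

theorem s15w_theta_qExpand_jq_ne_zero (hpK : ((p : ℕ) : K) ≠ 0) :
    ffd_theta (qExpand K p (jqModC K)) ≠ 0 := by
  rw [s15w_theta_qExpand_jq]
  refine mul_ne_zero ?_ ?_
  · intro h0
    exact hpK (HahnSeries.C_injective (by rw [h0, map_zero]))
  · intro h0
    exact s15w_theta_jq_ne_zero K (qExpand_injective p (by rw [h0, map_zero]))

theorem s15w_qExpand_jq_ne_zero : qExpand K p (jqModC K) ≠ 0 := fun h0 =>
  jqModC_ne_zero_of_nontrivial K (qExpand_injective p (by rw [h0, map_zero]))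

theorem s15w_qExpand_jq_sub_ne_zero (c : K) : qExpand K p (jqModC K) - HahnSeries.C c ≠ 0 := by
  intro h0
  have h1 : qExpand K p (jqModC K - HahnSeries.C c) = 0 := by
    rw [map_sub, qExpand_C]; exact h0
  exact s15w_jq_sub_ne_zero K c (qExpand_injective p (by rw [h1, map_zero]))

theorem s15w_uNum_ne_zero (hpK : ((p : ℕ) : K) ≠ 0) : s15w_uNum K p ≠ 0 :=
  mul_ne_zero (mul_ne_zero (pow_ne_zero _ (s15w_theta_qExpand_jq_ne_zero K p hpK))
    (pow_ne_zero _ (jqModC_ne_zero_of_nontrivial K))) (pow_ne_zero _ (s15w_jq_sub_ne_zero K 1728))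

theorem s15w_uDen_ne_zero : s15w_uDen K p ≠ 0 :=
  mul_ne_zero (mul_ne_zero (pow_ne_zero _ (s15w_theta_jq_ne_zero K))
    (pow_ne_zero _ (s15w_qExpand_jq_ne_zero K p)))
    (pow_ne_zero _ (s15w_qExpand_jq_sub_ne_zero K p 1728))

theorem s15w_dlog_uNum (hpK : ((p : ℕ) : K) ≠ 0) :
    s15w_dlog (s15w_uNum K p) =
      6 • (((p : ℕ) : K) • qExpand K p (s15w_dlog (ffd_theta (jqModC K)))) +
        4 • s15w_dlog (jqModC K) + 3 • s15w_dlog (jqModC K - HahnSeries.C 1728) := by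
  unfold s15w_uNum
  rw [s15w_dlog_mul (mul_ne_zero (pow_ne_zero _ (s15w_theta_qExpand_jq_ne_zero K p hpK))
      (pow_ne_zero _ (jqModC_ne_zero_of_nontrivial K))) (pow_ne_zero _ (s15w_jq_sub_ne_zero K 1728)),
    s15w_dlog_mul (pow_ne_zero _ (s15w_theta_qExpand_jq_ne_zero K p hpK))
      (pow_ne_zero _ (jqModC_ne_zero_of_nontrivial K)),
    s15w_dlog_pow, s15w_dlog_pow, s15w_dlog_pow]
  congr 3
  have hC : (HahnSeries.C ((p : ℕ) : K) : LaurentSeries K) ≠ 0 := by
    intro h0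
    exact hpK (HahnSeries.C_injective (by rw [h0, map_zero]))
  have hq : qExpand K p (ffd_theta (jqModC K)) ≠ 0 := by
    intro h0
    exact s15w_theta_jq_ne_zero K (qExpand_injective p (by rw [h0, map_zero]))
  rw [s15w_theta_qExpand_jq, s15w_dlog_mul hC hq, s15w_dlog_C, zero_add, s15w_dlog_qExpand]

theorem s15w_dlog_uDen :
    s15w_dlog (s15w_uDen K p) =
      6 • s15w_dlog (ffd_theta (jqModC K)) +
        4 • (((p : ℕ) : K) • qExpand K p (s15w_dlog (jqModC K))) +
        3 • (((p : ℕ) : K) • qExpand K p (s15w_dlog (jqModC K - HahnSeries.C 1728))) := by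
  unfold s15w_uDen
  rw [s15w_dlog_mul (mul_ne_zero (pow_ne_zero _ (s15w_theta_jq_ne_zero K))
      (pow_ne_zero _ (s15w_qExpand_jq_ne_zero K p)))
      (pow_ne_zero _ (s15w_qExpand_jq_sub_ne_zero K p 1728)),
    s15w_dlog_mul (pow_ne_zero _ (s15w_theta_jq_ne_zero K))
      (pow_ne_zero _ (s15w_qExpand_jq_ne_zero K p)),
    s15w_dlog_pow, s15w_dlog_pow, s15w_dlog_pow, s15w_dlog_qExpand]
  congr 2
  have h1 : qExpand K p (jqModC K) - HahnSeries.C 1728 =
      qExpand K p (jqModC K - HahnSeries.C 1728) := by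
    rw [map_sub, qExpand_C]
  rw [h1, s15w_dlog_qExpand]

theorem s15w_coeff_nsmul (n : ℕ) (x : LaurentSeries K) (i : ℤ) :
    (n • x).coeff i = (n : K) * x.coeff i := by
  rw [← Nat.cast_smul_eq_nsmul K n x, HahnSeries.coeff_smul, smul_eq_mul]

theorem s15w_coeff_zero_pq (x : LaurentSeries K) :
    ((((p : ℕ) : K)) • qExpand K p x).coeff 0 = ((p : ℕ) : K) * x.coeff 0 := by
  rw [HahnSeries.coeff_smul, smul_eq_mul]
  have := qExpand_coeff_mul (R := K) (N := p) x 0
  rw [mul_zero] at this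
  rw [this]

theorem s15w_coeff_one_pq (hp2 : 2 ≤ p) (x : LaurentSeries K) :
    ((((p : ℕ) : K)) • qExpand K p x).coeff 1 = 0 := by
  rw [HahnSeries.coeff_smul, smul_eq_mul]
  have hnd : ¬ ((p : ℕ) : ℤ) ∣ 1 := by
    intro h
    have := Int.le_of_dvd one_pos h
    omega
  rw [qExpand_coeff_of_not_dvd p x hnd, mul_zero]

/-- **the first two coefficients of the logarithmic derivative of the unit.** -/
theorem s15w_dlog_unit_coeff (hpK : ((p : ℕ) : K) ≠ 0) (hp2 : 2 ≤ p) (G : LaurentSeries K)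
    (hG : G * s15w_uDen K p = s15w_uNum K p) :
    (s15w_dlog G).coeff 0 = ((p : ℕ) : K) - 1 ∧ (s15w_dlog G).coeff 1 = 24 := by
  have hD := s15w_uDen_ne_zero K p
  have hN := s15w_uNum_ne_zero K p hpK
  have hGeq : G = s15w_uNum K p * (s15w_uDen K p)⁻¹ := by
    rw [← hG, mul_assoc, mul_inv_cancel₀ hD, mul_one]
  have hdl : s15w_dlog G = s15w_dlog (s15w_uNum K p) - s15w_dlog (s15w_uDen K p) := by
    rw [hGeq, s15w_dlog_mul hN (inv_ne_zero hD), s15w_dlog_inv, sub_eq_add_neg]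
  rw [hdl, s15w_dlog_uNum K p hpK, s15w_dlog_uDen K p]
  obtain ⟨a0, a1⟩ := s15w_dlog_jq_coeff K
  obtain ⟨b0, b1⟩ := s15w_dlog_jq_sub_coeff K 1728
  obtain ⟨c0, c1⟩ := s15w_dlog_theta_jq_coeff K
  constructor
  · simp only [HahnSeries.coeff_sub, HahnSeries.coeff_add, s15w_coeff_nsmul, s15w_coeff_zero_pq,
      a0, b0, c0]
    push_cast
    ring
  · simp only [HahnSeries.coeff_sub, HahnSeries.coeff_add, s15w_coeff_nsmul,
      s15w_coeff_one_pq K p hp2, a1, b1, c1]
    push_cast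
    ring

end Generic

/-! ### the integral models and `Λ` -/

section Ring

variable (R : Type*) [CommRing R] (p : ℕ) [NeZero p]

/-- the numerator over a ring. -/
def s15w_uNumR : LaurentSeries R :=
  s36r_thetaR (qExpand R p (jqModC R)) ^ 6 * jqModC R ^ 4 * (jqModC R - HahnSeries.C 1728) ^ 3

/-- the denominator over a ring. -/
def s15w_uDenR : LaurentSeries R :=
  s36r_thetaR (jqModC R) ^ 6 * qExpand R p (jqModC R) ^ 4 *
    (qExpand R p (jqModC R) - HahnSeries.C 1728) ^ 3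

variable {R}

theorem s15w_coeffMap_uNumR {S : Type*} [CommRing S] (f : R →+* S) :
    coeffMap f (s15w_uNumR R p) = s15w_uNumR S p := by
  unfold s15w_uNumR
  rw [map_mul, map_mul, map_pow, map_pow, map_pow, map_sub, s36r_coeffMap_thetaR,
    coeffMap_qExpand, coeffMap_jqModC, s15w_coeffMap_C, map_ofNat]

theorem s15w_coeffMap_uDenR {S : Type*} [CommRing S] (f : R →+* S) :
    coeffMap f (s15w_uDenR R p) = s15w_uDenR S p := by
  unfold s15w_uDenR
  rw [map_mul, map_mul, map_pow, map_pow, map_pow, map_sub, s36r_coeffMap_thetaR,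
    coeffMap_qExpand, coeffMap_jqModC, s15w_coeffMap_C, map_ofNat]

theorem s15w_uNumR_field (K : Type*) [Field K] : s15w_uNumR K p = s15w_uNum K p := rfl

theorem s15w_uDenR_field (K : Type*) [Field K] : s15w_uDenR K p = s15w_uDen K p := rfl

end Ring

section Lam

variable {L : Type*} [Field L] (A : ValuationSubring L) {k : Type*} [Field k] (π : ↥A →+* k)
  (p : ℕ) [NeZero p]

/-- **`Λ` of the modular unit**: `Λ(G) = (p - 1) + 24 q + …` whenever `p ≠ 0` in `k`. -/
theorem s15w_Lam_unit_coeff (hpk : ((p : ℕ) : k) ≠ 0) (hp2 : 2 ≤ p) (G : LaurentSeries L)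
    (hG : G * s15w_uDen L p = s15w_uNum L p) :
    s15w_Bdd A π G ∧ (s15w_Lam A π G).coeff 0 = ((p : ℕ) : k) - 1 ∧
      (s15w_Lam A π G).coeff 1 = 24 := by
  have hDk := s15w_uDen_ne_zero k p
  have hNk := s15w_uNum_ne_zero k p hpk
  have hN : s15w_Pres A π (s15w_uNum L p) 1 (s15w_uNumR ↥A p) 1 := by
    have := s15w_pres_integral (A := A) (π := π) (Y := s15w_uNumR ↥A p)
      (by rw [s15w_coeffMap_uNumR, s15w_uNumR_field]; exact hNk)
    rwa [s15w_coeffMap_uNumR, s15w_uNumR_field] at this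
  have hD : s15w_Pres A π (s15w_uDen L p) 1 (s15w_uDenR ↥A p) 1 := by
    have := s15w_pres_integral (A := A) (π := π) (Y := s15w_uDenR ↥A p)
      (by rw [s15w_coeffMap_uDenR, s15w_uDenR_field]; exact hDk)
    rwa [s15w_coeffMap_uDenR, s15w_uDenR_field] at this
  have hDL : s15w_uDen L p ≠ 0 := hD.ne_zero
  have hGeq : G = s15w_uNum L p * (s15w_uDen L p)⁻¹ := by
    rw [← hG, mul_assoc, mul_inv_cancel₀ hDL, mul_one]
  have hP := hN.mul hD.inv
  rw [← hGeq] at hP
  refine ⟨⟨_, _, _, hP⟩, ?_⟩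
  rw [s15w_Lam_eq hP, map_mul, map_mul, map_one, one_mul, mul_one, s15w_coeffMap_uNumR,
    s15w_coeffMap_uDenR, s15w_uNumR_field, s15w_uDenR_field, ← s15w_dlog_div hNk hDk]
  refine s15w_dlog_unit_coeff k p hpk hp2 _ ?_
  rw [div_mul_cancel₀ _ hDk]

end Lam

end Fermat.Agent.Lib.S15
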