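/-
Programme M (S15), node [T'] (helper6, prefix `s15w_`), part 2: THE FIRST TWO COEFFICIENTS OF THE
LOGARITHMIC DERIVATIVES OF `j`, `j - c` AND `θ j`.

For `f = q^m · P(q)` with `P(0) ≠ 0`: `dlog f = m + (P'(0)/P(0)) q + O(q²)`.  With
`j = q⁻¹ (1 + 744 q + …)` this gives the coefficients of `q⁰, q¹` of
`dlog j`, `dlog (j - c)`, `dlog (θ j)`: `(-1, 744)`, `(-1, 744 - c)`, `(-1, 0)`.
-/
import Fermat.Agent.Lib.S15.WEtSeriesP
import Fermat.Agent.Lib.S28.QNum
import Fermat.Prelude.Def_ModularCurve_X0ModL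

set_option autoImplicit false
set_option linter.unusedSectionVars false
set_option linter.unusedVariables false

noncomputable section

namespace Fermat.Agent.Lib.S15

open HahnSeries ModularCurve Fermat.Agent.Lib.FF Fermat.Agent.Lib.S28 Fermat.Agent.Lib.S37

/-! ### Coefficient one of products of power series -/

section PS

variable {R : Type*} [CommRing R]

theorem s15w_coeff_one_mul (a b : PowerSeries R) :
    PowerSeries.coeff 1 (a * b) =
      PowerSeries.coeff 0 a * PowerSeries.coeff 1 b +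
        PowerSeries.coeff 1 a * PowerSeries.coeff 0 b := by
  rw [PowerSeries.coeff_mul, Finset.Nat.sum_antidiagonal_eq_sum_range_succ_mk,
    Finset.sum_range_succ, Finset.sum_range_one]

theorem s15w_coeff_zero_mul (a b : PowerSeries R) :
    PowerSeries.coeff 0 (a * b) = PowerSeries.coeff 0 a * PowerSeries.coeff 0 b := by
  rw [PowerSeries.coeff_zero_eq_constantCoeff_apply, map_mul,
    ← PowerSeries.coeff_zero_eq_constantCoeff_apply, ← PowerSeries.coeff_zero_eq_constantCoeff_apply]

theorem s15w_coeff_one_pow (a : PowerSeries R) (h0 : PowerSeries.coeff 0 a = 1) (n : ℕ) :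
    PowerSeries.coeff 0 (a ^ n) = 1 ∧ PowerSeries.coeff 1 (a ^ n) = n * PowerSeries.coeff 1 a := by
  induction n with
  | zero =>
    rw [pow_zero]
    simp [PowerSeries.coeff_one]
  | succ m ih =>
    rw [pow_succ, s15w_coeff_zero_mul, s15w_coeff_one_mul, ih.1, ih.2, h0]
    refine ⟨by ring, ?_⟩
    push_cast
    ring

/-- **`jNum = 1 + 744 q + …`**. -/
theorem s15w_jNum_coeff : PowerSeries.coeff 0 jNum = 1 ∧ PowerSeries.coeff 1 jNum = 744 := by
  have hE0 : PowerSeries.coeff 0 eisenstein4 = 1 := by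
    rw [PowerSeries.coeff_zero_eq_constantCoeff_apply, constantCoeff_eisenstein4]
  have hE1 : PowerSeries.coeff 1 eisenstein4 = 240 := by
    rw [eisenstein4, PowerSeries.coeff_mk]
    simp
  have hη0 : PowerSeries.coeff 0 etaProd = 1 := by
    rw [PowerSeries.coeff_zero_eq_constantCoeff_apply, constantCoeff_etaProd]
  have hU := s15w_coeff_one_pow etaProd hη0 24
  rw [s28q_etaProd_coeff_one] at hU
  have hU0 : PowerSeries.coeff 0 dedekindEtaUnit = 1 := hU.1
  have hU1 : PowerSeries.coeff 1 dedekindEtaUnit = -24 := by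
    have := hU.2
    rw [dedekindEtaUnit, this]
    norm_num
  have hV0 : PowerSeries.coeff 0 dedekindEtaUnitInv = 1 := by
    rw [PowerSeries.coeff_zero_eq_constantCoeff_apply, constantCoeff_dedekindEtaUnitInv]
  have hV1 : PowerSeries.coeff 1 dedekindEtaUnitInv = 24 := by
    have h := congrArg (PowerSeries.coeff 1) dedekindEtaUnit_mul_inv
    rw [s15w_coeff_one_mul, hU0, hU1, hV0, PowerSeries.coeff_one] at h
    simp at h
    linarith
  have hE3 := s15w_coeff_one_pow eisenstein4 hE0 3
  rw [hE1] at hE3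
  constructor
  · rw [jNum, s15w_coeff_zero_mul, hE3.1, hV0, mul_one]
  · rw [jNum, s15w_coeff_one_mul, hE3.1, hE3.2, hV0, hV1]
    norm_num

end PS

/-! ### `dlog` of `q^m · P` -/

section Dlog

variable {k : Type*} [Field k]

theorem s15w_dlog_ofPowerSeries_unit (P : PowerSeries k)
    (hP : PowerSeries.constantCoeff P ≠ 0) :
    s15w_dlog (HahnSeries.ofPowerSeries ℤ k P) =
      HahnSeries.ofPowerSeries ℤ k (s15w_pth P * P⁻¹) := by
  have h0 : HahnSeries.ofPowerSeries ℤ k P ≠ 0 := by
    intro h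
    apply hP
    have : P = 0 := HahnSeries.ofPowerSeries_injective (by rw [h, map_zero])
    rw [this, map_zero]
  apply s15w_dlog_eq_of_mul h0
  rw [← map_mul, mul_assoc, PowerSeries.inv_mul_cancel _ hP, mul_one, s15w_theta_ofPowerSeries]

theorem s15w_shift_ne_zero (m : ℤ) (P : PowerSeries k) (hP : PowerSeries.constantCoeff P ≠ 0) :
    (HahnSeries.single m (1 : k) : LaurentSeries k) * HahnSeries.ofPowerSeries ℤ k P ≠ 0 := by
  refine mul_ne_zero ?_ ?_
  · intro h
    have := congrArg (fun x => HahnSeries.coeff x m) h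
    simp at this
  · intro h
    apply hP
    have : P = 0 := HahnSeries.ofPowerSeries_injective (by rw [h, map_zero])
    rw [this, map_zero]

theorem s15w_dlog_shift (m : ℤ) (P : PowerSeries k) (hP : PowerSeries.constantCoeff P ≠ 0) :
    s15w_dlog ((HahnSeries.single m (1 : k) : LaurentSeries k) *
        HahnSeries.ofPowerSeries ℤ k P) =
      HahnSeries.C ((m : ℤ) : k) + HahnSeries.ofPowerSeries ℤ k (s15w_pth P * P⁻¹) := by
  have h1 : (HahnSeries.single m (1 : k) : LaurentSeries k) ≠ 0 := by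
    intro h
    have := congrArg (fun x => HahnSeries.coeff x m) h
    simp at this
  have h2 : HahnSeries.ofPowerSeries ℤ k P ≠ 0 := by
    intro h
    apply hP
    have : P = 0 := HahnSeries.ofPowerSeries_injective (by rw [h, map_zero])
    rw [this, map_zero]
  rw [s15w_dlog_mul h1 h2, s15w_dlog_single_one, s15w_dlog_ofPowerSeries_unit P hP]

theorem s15w_dlog_shift_coeff_zero (m : ℤ) (P : PowerSeries k)
    (hP : PowerSeries.constantCoeff P ≠ 0) :
    (s15w_dlog ((HahnSeries.single m (1 : k) : LaurentSeries k) *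
        HahnSeries.ofPowerSeries ℤ k P)).coeff 0 = ((m : ℤ) : k) := by
  rw [s15w_dlog_shift m P hP, HahnSeries.coeff_add, HahnSeries.C_apply,
    HahnSeries.coeff_single_same]
  have : (HahnSeries.ofPowerSeries ℤ k (s15w_pth P * P⁻¹)).coeff 0 = 0 := by
    have h := HahnSeries.ofPowerSeries_apply_coeff (Γ := ℤ) (s15w_pth P * P⁻¹) 0
    rw [Nat.cast_zero] at h
    rw [h, s15w_coeff_zero_mul, s15w_coeff_pth, Nat.cast_zero, zero_mul, zero_mul]
  rw [this, add_zero]

theorem s15w_dlog_shift_coeff_one (m : ℤ) (P : PowerSeries k)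
    (hP : PowerSeries.constantCoeff P ≠ 0) :
    (s15w_dlog ((HahnSeries.single m (1 : k) : LaurentSeries k) *
        HahnSeries.ofPowerSeries ℤ k P)).coeff 1 =
      PowerSeries.coeff 1 P / PowerSeries.constantCoeff P := by
  rw [s15w_dlog_shift m P hP, HahnSeries.coeff_add, HahnSeries.C_apply,
    HahnSeries.coeff_single_of_ne (by norm_num : (1 : ℤ) ≠ 0), zero_add]
  have h := HahnSeries.ofPowerSeries_apply_coeff (Γ := ℤ) (s15w_pth P * P⁻¹) 1
  rw [Nat.cast_one] at h
  rw [h, s15w_coeff_one_mul, s15w_coeff_pth, s15w_coeff_pth, Nat.cast_zero, zero_mul, zero_mul,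
    zero_add, Nat.cast_one, one_mul, PowerSeries.coeff_zero_eq_constantCoeff_apply,
    PowerSeries.constantCoeff_inv, div_eq_mul_inv]

end Dlog

/-! ### The three series -/

section Three

variable (k : Type*) [Field k]

/-- the numerator `1 + 744 q + …` of `j` over `k`. -/
def s15w_J : PowerSeries k := jNum.map (Int.castRingHom k)

theorem s15w_J_coeff : PowerSeries.constantCoeff (s15w_J k) = 1 ∧
    PowerSeries.coeff 1 (s15w_J k) = 744 := by
  unfold s15w_J
  constructor
  · rw [← PowerSeries.coeff_zero_eq_constantCoeff_apply, PowerSeries.coeff_map, s15w_jNum_coeff.1]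
    simp
  · rw [PowerSeries.coeff_map, s15w_jNum_coeff.2]
    simp

theorem s15w_jq_shift : jqModC k =
    (HahnSeries.single (-1 : ℤ) (1 : k) : LaurentSeries k) *
      HahnSeries.ofPowerSeries ℤ k (s15w_J k) := rfl

theorem s15w_single_mul_X :
    (HahnSeries.single (-1 : ℤ) (1 : k) : LaurentSeries k) *
      HahnSeries.ofPowerSeries ℤ k (PowerSeries.X) = 1 := by
  rw [HahnSeries.ofPowerSeries_X, HahnSeries.single_mul_single]
  norm_num

theorem s15w_jq_sub_shift (c : k) : jqModC k - HahnSeries.C c =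
    (HahnSeries.single (-1 : ℤ) (1 : k) : LaurentSeries k) *
      HahnSeries.ofPowerSeries ℤ k (s15w_J k - PowerSeries.C c * PowerSeries.X) := by
  rw [map_sub, map_mul, mul_sub, ← s15w_jq_shift, HahnSeries.ofPowerSeries_C,
    mul_left_comm, s15w_single_mul_X, mul_one]

theorem s15w_theta_jq_shift : ffd_theta (jqModC k) =
    (HahnSeries.single (-1 : ℤ) (1 : k) : LaurentSeries k) *
      HahnSeries.ofPowerSeries ℤ k (s15w_pth (s15w_J k) - s15w_J k) := by
  rw [s15w_jq_shift, ffd_theta_mul, s15w_theta_ofPowerSeries, map_sub, mul_sub]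
  have h1 : ffd_theta (HahnSeries.single (-1 : ℤ) (1 : k) : LaurentSeries k) =
      -(HahnSeries.single (-1 : ℤ) (1 : k) : LaurentSeries k) := by
    ext n
    rw [ffd_theta_coeff, HahnSeries.coeff_neg]
    rcases eq_or_ne n (-1) with rfl | hn
    · rw [HahnSeries.coeff_single_same]
      norm_num
    · rw [HahnSeries.coeff_single_of_ne hn, mul_zero, neg_zero]
  rw [h1]
  ring

/-- `dlog j = -1 + 744 q + …`. -/
theorem s15w_dlog_jq_coeff :
    (s15w_dlog (jqModC k)).coeff 0 = -1 ∧ (s15w_dlog (jqModC k)).coeff 1 = 744 := by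
  have hP : PowerSeries.constantCoeff (s15w_J k) ≠ 0 := by
    rw [(s15w_J_coeff k).1]; exact one_ne_zero
  rw [s15w_jq_shift, s15w_dlog_shift_coeff_zero _ _ hP, s15w_dlog_shift_coeff_one _ _ hP,
    (s15w_J_coeff k).1, (s15w_J_coeff k).2]
  constructor
  · norm_num
  · rw [div_one]

/-- `dlog (j - c) = -1 + (744 - c) q + …`. -/
theorem s15w_dlog_jq_sub_coeff (c : k) :
    (s15w_dlog (jqModC k - HahnSeries.C c)).coeff 0 = -1 ∧
      (s15w_dlog (jqModC k - HahnSeries.C c)).coeff 1 = 744 - c := by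
  have h0 : PowerSeries.constantCoeff (s15w_J k - PowerSeries.C c * PowerSeries.X) = 1 := by
    rw [map_sub, map_mul, PowerSeries.constantCoeff_X, mul_zero, sub_zero, (s15w_J_coeff k).1]
  have h1 : PowerSeries.coeff 1 (s15w_J k - PowerSeries.C c * PowerSeries.X) = 744 - c := by
    rw [map_sub, (s15w_J_coeff k).2, PowerSeries.coeff_C_mul, PowerSeries.coeff_one_X, mul_one]
  have hP : PowerSeries.constantCoeff (s15w_J k - PowerSeries.C c * PowerSeries.X) ≠ 0 := by
    rw [h0]; exact one_ne_zero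
  rw [s15w_jq_sub_shift, s15w_dlog_shift_coeff_zero _ _ hP, s15w_dlog_shift_coeff_one _ _ hP,
    h0, h1]
  constructor
  · norm_num
  · rw [div_one]

/-- `dlog (θ j) = -1 + 0 q + …`. -/
theorem s15w_dlog_theta_jq_coeff :
    (s15w_dlog (ffd_theta (jqModC k))).coeff 0 = -1 ∧
      (s15w_dlog (ffd_theta (jqModC k))).coeff 1 = 0 := by
  have h0 : PowerSeries.constantCoeff (s15w_pth (s15w_J k) - s15w_J k) = -1 := by
    rw [map_sub, (s15w_J_coeff k).1, ← PowerSeries.coeff_zero_eq_constantCoeff_apply,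
      s15w_coeff_pth, Nat.cast_zero, zero_mul, zero_sub]
  have h1 : PowerSeries.coeff 1 (s15w_pth (s15w_J k) - s15w_J k) = 0 := by
    rw [map_sub, s15w_coeff_pth, Nat.cast_one, one_mul, sub_self]
  have hP : PowerSeries.constantCoeff (s15w_pth (s15w_J k) - s15w_J k) ≠ 0 := by
    rw [h0]; exact neg_ne_zero.mpr one_ne_zero
  rw [s15w_theta_jq_shift, s15w_dlog_shift_coeff_zero _ _ hP, s15w_dlog_shift_coeff_one _ _ hP,
    h0, h1]
  constructor
  · norm_num
  · rw [zero_div]

end Three

end Fermat.Agent.Lib.S15
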